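/-
ROW 38 (S39 / S40 / S44, Mazur–Ribet at `p`; target S40) — INTERFACE FILE of the captain (helper44).
Plan and piece table: NOTES/R38.md.  Definitions and statements only.

Every `Stmt…` below is a `Prop`; the piece `X` is DONE when `theorem stmtX : StmtX` (or
`stmtX_of : deps → StmtX`) is landed, sorry-free, in its own file `Fermat/Agent/R38/<File>.lean`,
namespace `Fermat.Agent.R38`, private names prefixed by the piece id.

Setting: `W` an integral Weierstrass model with good reduction at the odd prime `p`, `E[p]`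
irreducible, `f` a normalised eigenform of level `M * p` (`p ∤ M`) congruent to `W`.
OLD case: the eigen-system of `W` mod `p` occurs at level `M`  ⇒  lift (`StmtLift`).
NEW case: some good Hecke polynomial `t₀` kills level `M` and is a unit on the eigen-system.  Then a
copy `V₀ ≅ E[p]` inside `J₀(Mp)[p]` (`StmtRep`) is killed by the push-forward `π` to level `M`, and
the structure of `J₀(Mp)[p]` AT `p` (`AtPData`: `toric`, `tres`) contradicts the structure of `E[p]`
at `p` (`StmtEDet`, `StmtEPeu`).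
-/
import Fermat.Agent.ES.PackageInf
import Fermat.Prelude.Def_FLTPrelim_ModularRep
import Fermat.Prelude.Def_ExtCitation_AdmissibleExtension
import Fermat.Prelude.Def_CuspForm_HeckeEvalForms

set_option autoImplicit false

noncomputable section

namespace Fermat.Agent.R38

open ModularCurve Fermat.Agent.ES ExtCitation
open scoped WeierstrassCurve.Affine

/-- `ℚ̄` -/
abbrev Qb : Type := AlgebraicClosure ℚ

/-! ### Definitions -/

/-- `E[p](ℚ̄)` for the integral model `W` (the module of `W.ModRepIsIrreducible p`), with the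
prelude's action of `G_ℚ`. -/
abbrev ETors (W : WeierstrassCurve ℤ) (p : ℕ) : Type :=
  Submodule.torsionBy ℤ ((W.map (Int.castRingHom ℚ))⁄Qb).Point p

/-- The good Hecke variables for `W` at level `M * p`: primes `ℓ ∤ M p` of good reduction. -/
def goodFor (W : WeierstrassCurve ℤ) (M p : ℕ) : Set Nat.Primes :=
  {ℓ | ¬ (ℓ : ℕ) ∣ M * p * p ∧ W.IsGoodPrimeFor ℓ}

theorem goodFor_subset (W : WeierstrassCurve ℤ) (M p : ℕ) :
    goodFor W M p ⊆ goodPrimes (M * p) p := fun _ h => h.1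

/-- `t` vanishes on the eigen-system of every normalised eigenform of level `M`.
(NOT used by the interface any more; `KillsForms M t → KillsLevel M t` is `killsLevel_of_forms`
in `R38/Lift.lean`.) -/
def KillsLevel (M : ℕ) (t : HeckeAlg) : Prop :=
  ∀ g : CuspForm (CongruenceSubgroup.Gamma0 M) 2, g.IsNormalizedEigenform → heckeValue g t = 0

/-- **`t` acts as zero on `S₂(Γ₀(M))`** (`t` evaluated at the Hecke operators `T_ℓ`, `U_q`). -/
def KillsForms (M : ℕ) [NeZero M] (t : HeckeAlg) : Prop :=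
  CuspForm.heckeEvalForms M 2 t = 0

/-- **The peu ramifié subgroup** of the inertia group of `A`: the elements of inertia fixing every
`p`-th root of every unit of `A` which is fixed by inertia (i.e. of every unit of
`A₀ = A ∩ ℚ̄^I`).  Its fixed field is `K₁(U^{1/p})`, `K = ℚ̄^I`, `K₁ = K(ζ_p)`, `U = A₀ˣ`. -/
def peuSubgroup (A : ValuationSubring Qb) (p : ℕ) : Subgroup GQ where
  carrier := {σ | σ ∈ A.inertiaSubgroupIn ℚ ∧ ∀ y : Qb, y ^ p ∈ A → (y ^ p)⁻¹ ∈ A →
    (∀ τ ∈ A.inertiaSubgroupIn ℚ, τ (y ^ p) = y ^ p) → σ y = y}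
  mul_mem' := by
    rintro σ τ ⟨hσ, hσ'⟩ ⟨hτ, hτ'⟩
    refine ⟨mul_mem hσ hτ, fun y h1 h2 h3 => ?_⟩
    rw [AlgEquiv.mul_apply, hτ' y h1 h2 h3, hσ' y h1 h2 h3]
  one_mem' := ⟨one_mem _, fun _ _ _ _ => rfl⟩
  inv_mem' := by
    rintro σ ⟨hσ, hσ'⟩
    refine ⟨inv_mem hσ, fun y h1 h2 h3 => ?_⟩
    have h := hσ' y h1 h2 h3
    calc σ⁻¹ y = σ⁻¹ (σ y) := by rw [h]
      _ = y := by
        rw [← AlgEquiv.mul_apply, inv_mul_cancel, AlgEquiv.one_apply]

theorem peuSubgroup_le (A : ValuationSubring Qb) (p : ℕ) :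
    peuSubgroup A p ≤ A.inertiaSubgroupIn ℚ := fun _ h => h.1

/-! ### Forms side -/

/-- **R38-LIFT** (Deligne–Serre lifting from the old quotient; elementary).
If the mod `p` system `a` (on the variables in `S`) kills every good Hecke polynomial which
acts as zero on `S₂(Γ₀(M))`, then it is the reduction of the eigen-system of a
normalised eigenform of level `M`.
(`T := ℤ[S] / {KillsLevel} ↪ ∏_g ℤ̄` (finitely many `g`, integral eigenvalues), lying over for the
integral extension, primes of a finite product, `dim ℤ̄ = 1`.) -/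
def StmtLift : Prop :=
  ∀ (M p : ℕ) [NeZero M], p.Prime → ∀ (S : Set Nat.Primes) (a : Nat.Primes → ℤ),
    (∀ ℓ ∈ S, ¬ (ℓ : ℕ) ∣ M) →
    (∀ t ∈ MvPolynomial.supported ℤ S, KillsForms M t → (p : ℤ) ∣ MvPolynomial.aeval a t) →
    ∃ (g : CuspForm (CongruenceSubgroup.Gamma0 M) 2) (𝔪 : Ideal Zbar),
      g.IsNormalizedEigenform ∧ 𝔪.IsMaximal ∧ (p : Zbar) ∈ 𝔪 ∧
      ∀ ℓ ∈ S, ∃ z : Zbar, (z : ℂ) = ModularFormClass.qCoeff g ℓ ∧ z - ((a ℓ : ℤ) : Zbar) ∈ 𝔪

/-! ### Galois side: a copy of `E[p]` in the Jacobian -/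

/-- **R38-REP** (Eichler–Shimura + weak Chebotarev + Boston–Lenstra–Ribet; tools of S42).
In a `p`-adic Eichler–Shimura module `J` of level `N`, a nonzero `p`-torsion vector on which the
good Hecke operators act through `a_ℓ(W)` generates a `G_ℚ`-module containing a copy of `E[p]`:
a `G_ℚ`-stable subgroup `V₀` of `J[p]`, still an eigen-space, with an equivariant isomorphism
`V₀ ≃ E[p]`.  (`V₀` := a minimal nonzero `G_ℚ`-stable subgroup of the eigen-space; every `σ` is a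
power of a Frobenius on a finite level, so it satisfies the characteristic polynomial of its
action on `E[p]`; BLR.) -/
def StmtRep : Prop :=
  ∀ (W : WeierstrassCurve ℤ), W.Δ ≠ 0 → ∀ (p : ℕ), p.Prime → p ≠ 2 → W.ModRepIsIrreducible p →
    ∀ (M : ℕ), 0 < M →
    ∀ (J : Type) (_ : AddCommGroup J) (_ : Module HeckeAlg J) (_ : DistribMulAction GQ J),
      ESDataInf (M * p) p J →
      ∀ v : J, v ≠ 0 → p • v = 0 →
        (∀ ℓ ∈ goodFor W M p, heckeGen ℓ • v = (W.apOfModel ℓ : ℤ) • v) →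
        ∃ (V₀ : AddSubgroup J) (e : V₀ ≃+ ETors W p),
          (∀ x ∈ V₀, p • x = 0) ∧
          (∀ x ∈ V₀, ∀ ℓ ∈ goodFor W M p, heckeGen ℓ • x = (W.apOfModel ℓ : ℤ) • x) ∧
          ∃ hst : ∀ (σ : GQ), ∀ x ∈ V₀, σ • x ∈ V₀,
            ∀ (σ : GQ) (x : V₀), e ⟨σ • (x : J), hst σ x x.2⟩ = σ • e x

/-! ### The elliptic curve at `p` -/

/-- **R38-EDET** (`det ρ̄_E = ω`, `ω ≠ 1` on inertia, `p` odd): inertia at `p` does not act on
`E[p]` through the scalar `ω`.
(`RED.det_of_model` + `S33.exists_inertia_residual_ne_one`.) -/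
def StmtEDet : Prop :=
  ∀ (W : WeierstrassCurve ℤ), W.Δ ≠ 0 → ∀ (p : ℕ) [Fact p.Prime], p ≠ 2 →
    W.ModRepIsIrreducible p →
    ∀ A : ValuationSubring Qb, A.LiesOverPrime p →
      ∃ σ ∈ A.inertiaSubgroupIn ℚ, ∃ x : ETors W p, σ • x ≠ cycloExp p σ • x

/-- **R38-EPEU** (good reduction ⇒ peu ramifié): if `W` has good reduction at `p` and inertia
acts through `ω` on the inertia span of `E[p]`, then the peu ramifié subgroup acts trivially on
`E[p]`.
(Ordinary case: `K₁(E[p]) = K₁(a^{1/p})` with `a` a unit.  Route: Hopf order of `E[p]` (EC/Flat,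
helper77) + sub-quotients of Hopf orders (W1-SQ / S33-B1) + the fibre of `𝒱 → 𝒱^ét` is a
`μ_p`-torsor `O[z]/(z^p - a)`, `a ∈ Oˣ`.  In the supersingular case the hypothesis fails.) -/
def StmtEPeu : Prop :=
  ∀ (W : WeierstrassCurve ℤ), W.Δ ≠ 0 → ∀ (p : ℕ) [Fact p.Prime], p ≠ 2 →
    W.IsGoodPrimeFor p → W.ModRepIsIrreducible p →
    ∀ A : ValuationSubring Qb, A.LiesOverPrime p →
      (∀ σ ∈ A.inertiaSubgroupIn ℚ, ∀ τ ∈ A.inertiaSubgroupIn ℚ, ∀ x : ETors W p,
        τ • (σ • x - x) = cycloExp p τ • (σ • x - x)) →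
      ∀ σ ∈ peuSubgroup A p, ∀ x : ETors W p, σ • x = x

/-! ### The Jacobian at `p` -/

/-- **The structure of `J₀(Mp)[p]` at `p`** (`p ∤ M`), in abstract form: `J` a `p`-adic
Eichler–Shimura module of level `M * p`, `π : J → Jold` the push-forward to level `M`
(`Jold = J₀(M)²`, `π = (α_*, β_*)`). -/
structure AtPData (M p : ℕ) [NeZero M] [Fact p.Prime] (J : Type) [AddCommGroup J]
    [Module HeckeAlg J]
    [DistribMulAction GQ J] (Jold : Type) [AddCommGroup Jold] [Module HeckeAlg Jold]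
    (π : J →+ Jold) : Prop where
  /-- the Eichler–Shimura package at level `M * p` -/
  es : ESDataInf (M * p) p J
  /-- `Jold` has level `M`: a good Hecke polynomial killing the forms of level `M` kills
  `Jold[p]` -/
  old_level : ∀ t ∈ MvPolynomial.supported ℤ (goodPrimes (M * p) p), KillsForms M t →
    ∀ y : Jold, p • y = 0 → t • y = 0
  /-- the push-forward commutes with the good Hecke operators -/
  push_hecke : ∀ t ∈ MvPolynomial.supported ℤ (goodPrimes (M * p) p), ∀ x : J,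
    π (t • x) = t • π x
  /-- **TORIC**: on the inertia span of the `p`-new `p`-torsion, inertia acts through `ω`.
  (= S33 v2, C1 + C3 + C4: `(σ - 1)x` is `≡ 1` at both Gauss valuations, new ⇒ split, split ⇒
  toric.) -/
  toric : ∀ A : ValuationSubring Qb, A.LiesOverPrime p → ∀ x : J, p • x = 0 → π x = 0 →
    ∀ σ ∈ A.inertiaSubgroupIn ℚ, ∀ τ ∈ A.inertiaSubgroupIn ℚ,
      τ • (σ • x - x) = cycloExp p τ • (σ • x - x)
  /-- **TRÈS** (THE WALL of row 38): a `p`-torsion Hecke eigen-vector which is not old and not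
  Eisenstein and is fixed by the peu ramifié subgroup is toric.
  (Classically: `J[p]/J[p]^f ≅ X/p`, the extension class of `x` is the monodromy pairing
  `⟨β(x), ·⟩ mod p`, peu ramifié ⇔ `β(x) ∈ Φ[p]`, `Φ` Eisenstein ⇒ `β(x) = 0`, not old ⇒
  `x ∈ T[p]`.) -/
  tres : ∀ A : ValuationSubring Qb, A.LiesOverPrime p → ∀ x : J, p • x = 0 →
    ∀ t₀ ∈ MvPolynomial.supported ℤ (goodPrimes (M * p) p),
      (∀ y : Jold, p • y = 0 → t₀ • y = 0) → ∀ n₀ : ℤ, t₀ • x = n₀ • x → ¬ (p : ℤ) ∣ n₀ →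
    ∀ ℓ₁ ∈ goodPrimes (M * p) p, ∀ n₁ : ℤ, heckeGen ℓ₁ • x = n₁ • x →
      ¬ (p : ℤ) ∣ n₁ - ((ℓ₁ : ℕ) + 1) →
    (∀ σ ∈ peuSubgroup A p, σ • x = x) →
    ∀ τ ∈ A.inertiaSubgroupIn ℚ, τ • x = cycloExp p τ • x

/-- **R38-PKG**: the package exists for every level `M` and every odd prime `p ∤ M`. -/
def StmtPkg : Prop :=
  ∀ (M p : ℕ) [NeZero M] [Fact p.Prime], p ≠ 2 → ¬ p ∣ M →
    ∃ (J : Type) (_ : AddCommGroup J) (_ : Module HeckeAlg J) (_ : DistribMulAction GQ J)
      (Jold : Type) (_ : AddCommGroup Jold) (_ : Module HeckeAlg Jold) (π : J →+ Jold),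
      AtPData M p J Jold π

/-- **The structure of `J₀(Mp)[p]` at `p`, minimal form** — what GLUE consumes.  "Not old" is
taken in the Hecke sense (`t₀` kills the forms of level `M` and is a unit on `x`); no `Jold`, no `π`.
`AtPData → AtPCore` is `atPCore_of_data` (file `R38/Glue.lean`). -/
structure AtPCore (M p : ℕ) [NeZero M] [Fact p.Prime] (J : Type) [AddCommGroup J]
    [Module HeckeAlg J] [DistribMulAction GQ J] : Prop where
  /-- the Eichler–Shimura package at level `M * p` -/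
  es : ESDataInf (M * p) p J
  /-- **TORIC** -/
  toric : ∀ A : ValuationSubring Qb, A.LiesOverPrime p → ∀ x : J, p • x = 0 →
    ∀ t₀ ∈ MvPolynomial.supported ℤ (goodPrimes (M * p) p), KillsForms M t₀ →
      ∀ n₀ : ℤ, t₀ • x = n₀ • x → ¬ (p : ℤ) ∣ n₀ →
    ∀ σ ∈ A.inertiaSubgroupIn ℚ, ∀ τ ∈ A.inertiaSubgroupIn ℚ,
      τ • (σ • x - x) = cycloExp p τ • (σ • x - x)
  /-- **TRÈS** -/
  tres : ∀ A : ValuationSubring Qb, A.LiesOverPrime p → ∀ x : J, p • x = 0 →
    ∀ t₀ ∈ MvPolynomial.supported ℤ (goodPrimes (M * p) p), KillsForms M t₀ →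
      ∀ n₀ : ℤ, t₀ • x = n₀ • x → ¬ (p : ℤ) ∣ n₀ →
    ∀ ℓ₁ ∈ goodPrimes (M * p) p, ∀ n₁ : ℤ, heckeGen ℓ₁ • x = n₁ • x →
      ¬ (p : ℤ) ∣ n₁ - ((ℓ₁ : ℕ) + 1) →
    (∀ σ ∈ peuSubgroup A p, σ • x = x) →
    ∀ τ ∈ A.inertiaSubgroupIn ℚ, τ • x = cycloExp p τ • x

/-- **R38-PKG, minimal form**. -/
def StmtPkgCore : Prop :=
  ∀ (M p : ℕ) [NeZero M] [Fact p.Prime], p ≠ 2 → ¬ p ∣ M →
    ∃ (J : Type) (_ : AddCommGroup J) (_ : Module HeckeAlg J) (_ : DistribMulAction GQ J),
      AtPCore M p J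

/-! ### The target -/

/-- the frozen statement S40 -/
def StmtS40 : Prop :=
  ∀ (W : WeierstrassCurve ℤ), W.Δ ≠ 0 → ∀ {p : ℕ}, p.Prime → p ≠ 2 → W.IsGoodPrimeFor p →
    W.ModRepIsIrreducible p → ∀ {M : ℕ}, 0 < M → p ∣ M → ¬ p ^ 2 ∣ M →
    W.IsResiduallyModularOfLevel p M → W.IsResiduallyModularOfLevel p (M / p)

/-- **R38-GLUE** (Mazur's argument; pure algebra on top of the pieces). -/
def StmtGlue : Prop :=
  StmtLift → StmtRep → StmtEDet → StmtEPeu → StmtPkgCore → StmtS40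

/-- the package with `π` gives the minimal one (proved in `R38/Glue.lean`) -/
def StmtCoreOfPkg : Prop := StmtPkg → StmtPkgCore

end Fermat.Agent.R38

end
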