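/-
ROW 38, piece R38-EDET (helper35): inertia at `p` does not act on `E[p]` through the scalar `ω`
(`p` odd, `E[p]` irreducible).

`stmtEDet : StmtEDet`.

Proof.  Some `σ` in the inertia group of `A ∣ p` inverts the `p`-th roots of unity
(`S33.exists_inertia_inv_root`), so `ω(σ) = -1`, `cycloExp p σ = p - 1`.  If `σ` acted on `E[p]` as
`ω(σ)`, i.e. as `-1`, then `det ρ̄(σ) = (-1)² = 1`; but `det ρ̄(σ) = ω(σ) = -1`
(`RED.det_of_model`), so `2 = 0` in `𝔽_p`, `p = 2`.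
-/
import Fermat.Agent.R38.Plan
import Fermat.Agent.RED.ModelTrace
import Fermat.Agent.S33.DetCyclo

set_option autoImplicit false

namespace Fermat.Agent.R38

open ExtCitation Fermat.Agent.EC.DetChar

/-- `ζ⁻¹ = ζ^(p-1)` for a `p`-th root of unity -/
theorem r38edet_inv_eq_pow {p : ℕ} (hp : 0 < p) {ζ : Qb} (hζ : ζ ^ p = 1) :
    ζ⁻¹ = ζ ^ (p - 1) := by
  have : ζ * ζ ^ (p - 1) = 1 := by
    rw [← pow_succ', Nat.sub_add_cancel hp, hζ]
  exact inv_eq_of_mul_eq_one_right this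

/-- if `σ` inverts the `p`-th roots of unity, then `cycloExp p σ = p - 1` -/
theorem r38edet_cycloExp (p : ℕ) [Fact p.Prime] (σ : Qb ≃ₐ[ℚ] Qb)
    (hinv : ∀ μ : Qb, μ ^ p = 1 → σ μ = μ⁻¹) : cycloExp p σ = p - 1 := by
  have hp : p.Prime := Fact.out
  have : NeZero p := ⟨hp.ne_zero⟩
  have : NeZero ((p : ℕ) : Qb) := ⟨Nat.cast_ne_zero.mpr hp.ne_zero⟩
  obtain ⟨ζ, hζ⟩ := HasEnoughRootsOfUnity.exists_primitiveRoot Qb p
  have hspec := modularCyclotomicCharacter.spec Qb (card_rootsOfUnity_eq_self p)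
    (σ : Qb ≃+* Qb) (t := hζ.toRootsOfUnity) (SetLike.coe_mem hζ.toRootsOfUnity)
  have hspec' : σ ζ = ζ ^ cycloExp p σ := by
    simpa [cycloExp] using hspec
  rw [hinv ζ hζ.pow_eq_one, r38edet_inv_eq_pow hp.pos hζ.pow_eq_one] at hspec'
  have hlt : cycloExp p σ < p := by
    unfold cycloExp
    exact ZMod.val_lt _
  exact (hζ.pow_inj (Nat.sub_lt hp.pos Nat.one_pos) hlt hspec').symm

/-- if `σ` inverts the `p`-th roots of unity, then `χ_p(σ) = -1` -/
theorem r38edet_cycloChar (p : ℕ) [Fact p.Prime] (σ : Qb ≃ₐ[ℚ] Qb)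
    (hinv : ∀ μ : Qb, μ ^ p = 1 → σ μ = μ⁻¹) :
    ((Fermat.Agent.S42.cycloChar p σ : (ZMod p)ˣ) : ZMod p) = -1 := by
  have hp : p.Prime := Fact.out
  have : NeZero p := ⟨hp.ne_zero⟩
  have : NeZero ((p : ℕ) : Qb) := ⟨Nat.cast_ne_zero.mpr hp.ne_zero⟩
  obtain ⟨ζ, hζ⟩ := HasEnoughRootsOfUnity.exists_primitiveRoot Qb p
  have hspec := Fermat.Agent.S42.cycloChar_spec p σ hζ
  rw [hinv ζ hζ.pow_eq_one, r38edet_inv_eq_pow hp.pos hζ.pow_eq_one] at hspec
  have h3 := hζ.pow_inj (Nat.sub_lt hp.pos Nat.one_pos) (ZMod.val_lt _) hspec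
  have h4 : ((Fermat.Agent.S42.cycloChar p σ : (ZMod p)ˣ) : ZMod p) = ((p - 1 : ℕ) : ZMod p) := by
    rw [h3, ZMod.natCast_zmod_val]
  rw [h4, Nat.cast_sub hp.one_le, ZMod.natCast_self, Nat.cast_one, zero_sub]

/-- **R38-EDET**. -/
theorem stmtEDet : StmtEDet := by
  intro W hΔ p _ hp2 hirr A hA
  have hp : p.Prime := Fact.out
  obtain ⟨σ, hσ, hinv⟩ := Fermat.Agent.S33.exists_inertia_inv_root hp A hA
  refine ⟨σ, hσ, ?_⟩
  by_contra hcon
  push Not at hcon
  have hexp := r38edet_cycloExp p σ hinv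
  have hcard := Fermat.Agent.RED.card_torsQbar W hΔ hp.ne_zero
  have hrank : Module.finrank (ZMod p) (TorsQbar (W.map (Int.castRingHom ℚ)) p) = 2 :=
    finrank_of_card hcard
  -- `ρ̄(σ) = -1`
  have hneg : rhoBar (W.map (Int.castRingHom ℚ)) p σ =
      (-1 : ZMod p) • (1 : Module.End (ZMod p) (TorsQbar (W.map (Int.castRingHom ℚ)) p)) := by
    apply LinearMap.ext
    intro x
    rw [rhoBar_apply, LinearMap.smul_apply, Module.End.one_apply, neg_smul, one_smul]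
    have h1 : σ • x = cycloExp p σ • x := hcon x
    rw [h1, hexp]
    have h2 : (p : ℕ) • x = 0 := by
      have := x.2
      rw [Submodule.mem_torsionBy_iff] at this
      apply Subtype.ext
      rw [Submodule.coe_smul_of_tower, Submodule.coe_zero]
      rw [← natCast_zsmul]
      exact this
    have h3 : (p - 1) • x + x = 0 := by
      rw [← succ_nsmul, Nat.sub_add_cancel hp.one_le, h2]
    exact eq_neg_of_add_eq_zero_left h3
  have hdet := Fermat.Agent.RED.det_of_model W hΔ hirr σ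
  rw [hneg, LinearMap.det_smul, hrank, map_one, r38edet_cycloChar p σ hinv] at hdet
  -- `1 = -1` in `ZMod p`
  have h2 : ((2 : ℕ) : ZMod p) = 0 := by
    have : (1 : ZMod p) + 1 = 0 := by linear_combination hdet
    rw [Nat.cast_ofNat, ← this]
    ring
  have h3 : p ∣ 2 := (ZMod.natCast_eq_zero_iff 2 p).mp h2
  exact hp2 ((Nat.prime_dvd_prime_iff_eq hp Nat.prime_two).mp h3)

end Fermat.Agent.R38
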