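/-
ROW 38, piece R38-EPEU (helper64): INTERFACE of the sub-pieces.

`StmtEPeu` (R38/Plan.lean) ⇐ `TW.W.stmtLev` (landed) + E-flat (landed) + the four LOCAL statements
below + assembly (helper64, `R38/EPeu*.lean`).

Notation: `Ω = PadicAlgCl p`, `ι = padicEmbedding p : ℚ̄ → Ω`, `I = inertiaQ p ⊂ G_p = GQq p`
(`τ ∈ I ↔ ∀ z, ‖z‖ ≤ 1 → ‖τ z - z‖ < 1`, `TW.W.wgr_inert_iff`), `ω = gbOmega p`.

* `StmtEPTeich` (TEICH): every `x ∈ 𝒪_Ω` is congruent mod `𝔪_Ω` to `ι b₀`, `b₀ ∈ ℚ̄` integral at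
  `padicPlace p` and fixed by the global inertia group.
  (`x ∈ T := ℚ_p(x)`, residue field finite with `q` elements, `‖x^q - x‖ < 1`;
  `x^q - x = ∏_{b^q = b} (x - b)`, so `‖x - b‖ < 1` for a root `b` of `X^q - X`; `b = ι b₀`
  (`PT.B.kras_root_mem_range`); `g b₀ / b₀` is a root of unity of order prime to `p`, `≡ 1`, so `= 1`.)
* `StmtEPVal` (VAL): `y ∈ Ω` fixed by `I ∩ ker ω`, `‖y‖ < 1` ⇒ `‖y‖ ≤ ‖ζ - 1‖`.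
  (`g_a ∈ I` with `ω(g_a) = a` (`TW.W.stmtCycloRamFull`); `N := ∏_a g_a y` is fixed by `I`, so
  `‖N‖ ∈ p^ℤ` (`TW.W.wgr_unr`), `‖N‖ = ‖y‖^(p-1) < 1`, hence `‖y‖^(p-1) ≤ ‖p‖ = ‖ζ - 1‖^(p-1)`.)
* `StmtEPRoot` (ROOT): `τ ∈ I`, `τ ζ = ζ`, `τ y = y`, `‖y‖ ≤ ‖ζ - 1‖`, `t^p = 1 + p y` ⇒ `τ t = t`.
  (the proof of the clause `vanish` of `TW.W.stmtGBKum`, `TW/W/Kummer.lean`, without the field `T`:
  `twk_exists_close_root` gives `‖t ζ^i - 1‖ ≤ ‖ζ - 1‖`, so `t = 1 + (ζ - 1) w`, `‖w‖ ≤ 1`;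
  `τ t = t ζ^j` and `‖τ t - t‖ = ‖ζ - 1‖ ‖τ w - w‖ < ‖ζ - 1‖` force `j = 0`.)
* `StmtEPGood` (GOOD): a normal subgroup `N ⊂ G_p` containing some `Gal(Ω/E)`, `E/ℚ_p` finite,
  contained in `ker ω`, with `τ^(p-1) ∈ N` for all `τ`, is `Gal(Ω/T)` for a good field `T`.
  (`TW/W/GBCharT.lean` verbatim for `T := fixedField N`; `p ∤ [G_p : N]` by Cauchy.)
-/
import Fermat.Agent.R38.Plan
import Fermat.Agent.TW.W.GBPlan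

set_option autoImplicit false

noncomputable section

namespace Fermat.Agent.R38

open Fermat.Agent.PT Fermat.Agent.PT.B Fermat.Agent.TW.L Fermat.Agent.TW.W

/-- **TEICH** -/
def StmtEPTeich : Prop :=
  ∀ (p : ℕ) [Fact p.Prime] (x : PadicAlgCl p), ‖x‖ ≤ 1 →
    ∃ b₀ : AlgebraicClosure ℚ, ‖padicEmbedding p b₀‖ ≤ 1 ∧
      (∀ g ∈ (padicPlace p).inertiaSubgroupIn ℚ, g b₀ = b₀) ∧
      ‖x - padicEmbedding p b₀‖ < 1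

/-- **VAL** -/
def StmtEPVal : Prop :=
  ∀ (p : ℕ) [Fact p.Prime] (ζ y : PadicAlgCl p), ζ ≠ 1 → ζ ^ p = 1 →
    (∀ τ ∈ inertiaQ p, τ ζ = ζ → τ y = y) → ‖y‖ < 1 → ‖y‖ ≤ ‖ζ - 1‖

/-- **ROOT** -/
def StmtEPRoot : Prop :=
  ∀ (p : ℕ) [Fact p.Prime] (ζ y t : PadicAlgCl p) (τ : GQq p), ζ ≠ 1 → ζ ^ p = 1 →
    τ ∈ inertiaQ p → τ ζ = ζ → τ y = y → ‖y‖ ≤ ‖ζ - 1‖ →
    t ^ p = 1 + (p : PadicAlgCl p) * y → τ t = t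

/-- **GOOD** -/
def StmtEPGood : Prop :=
  ∀ (p : ℕ) [Fact p.Prime] (N : Subgroup (GQq p)), N.Normal →
    (∃ E : IntermediateField ℚ_[p] (PadicAlgCl p), FiniteDimensional ℚ_[p] E ∧
      E.fixingSubgroup ≤ N) →
    (∀ τ : GQq p, τ ^ (p - 1) ∈ N) → (∀ τ ∈ N, gbOmega p τ = 1) →
    ∃ T : IntermediateField ℚ_[p] (PadicAlgCl p), IsGoodField p T ∧ T.fixingSubgroup = N

end Fermat.Agent.R38
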