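/-
ROW 38, piece R38-EPEU / EP-GOOD (helper74).

`stmtEPGood : StmtEPGood`: a normal subgroup `N ⊂ G_p` containing some `Gal(Ω/E)`, `E/ℚ_p`
finite, contained in `ker ω`, with `τ^(p-1) ∈ N` for all `τ`, is `Gal(Ω/T)` for a good field `T`
(`T := ` the fixed field of `N`; `p ∤ [G_p : N]` by Cauchy).
-/
import Fermat.Agent.R38.EPeuPlan
import Fermat.Agent.PT.B.CycloField

set_option autoImplicit false
set_option linter.unusedSectionVars false

noncomputable section

namespace Fermat.Agent.R38

open Fermat.Agent.PT Fermat.Agent.PT.B Fermat.Agent.TW.L Fermat.Agent.TW.W ExtCitation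

/-- A finite group killed by `p - 1` has order prime to `p` (Cauchy). -/
theorem r38epg_not_dvd_card (p : ℕ) [Fact p.Prime] (Γ : Type*) [Group Γ] [Finite Γ]
    (h : ∀ x : Γ, x ^ (p - 1) = 1) : ¬ p ∣ Nat.card Γ := by
  intro hdvd
  obtain ⟨x, hx⟩ := exists_prime_orderOf_dvd_card' p hdvd
  have h1 : orderOf x ∣ p - 1 := orderOf_dvd_of_pow_eq_one (h x)
  rw [hx] at h1
  have hp1 : 1 < p := (Fact.out : p.Prime).one_lt
  have := Nat.le_of_dvd (by omega) h1
  omega

/-- **EP-GOOD**. -/
theorem stmtEPGood : StmtEPGood := by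
  intro p _ N hN hE hpow hω
  obtain ⟨E, hEf, hle⟩ := hE
  have hEf' : FiniteDimensional ℚ_[p] E := hEf
  have hopen : IsOpen (N : Set (GQq p)) :=
    Subgroup.isOpen_mono hle E.fixingSubgroup_isOpen
  have hclosed : IsClosed (N : Set (GQq p)) := Subgroup.isClosed_of_isOpen _ hopen
  have hfix : (IntermediateField.fixedField N).fixingSubgroup = N :=
    InfiniteGalois.fixingSubgroup_fixedField ⟨N, hclosed⟩
  refine ⟨IntermediateField.fixedField N, ?_, hfix⟩
  have hTE : IntermediateField.fixedField N ≤ E := by
    have h1 : IntermediateField.fixedField N ≤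
        IntermediateField.fixedField E.fixingSubgroup := IntermediateField.fixedField_le hle
    rwa [InfiniteGalois.fixedField_fixingSubgroup] at h1
  have hfin : FiniteDimensional ℚ_[p] (IntermediateField.fixedField N) :=
    FiniteDimensional.of_injective (IntermediateField.inclusion hTE).toLinearMap
      (IntermediateField.inclusion hTE).injective
  have hnormal : ((IntermediateField.fixedField N).fixingSubgroup :
      Subgroup (GQq p)).Normal := by
    rw [hfix]
    exact hN
  have hidx : Module.finrank ℚ_[p] (IntermediateField.fixedField N) = N.index := by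
    rw [IntermediateField.finrank_eq_fixingSubgroup_index (PadicAlgCl p)
      (IntermediateField.fixedField N), hfix]
  refine ⟨hfin, (InfiniteGalois.normal_iff_isGalois _).1 hnormal, ?_, ?_⟩
  · rw [hidx]
    have hne : N.index ≠ 0 := by
      rw [← hidx]
      exact (Module.finrank_pos (R := ℚ_[p])
        (M := (IntermediateField.fixedField N))).ne'
    have hfi : N.FiniteIndex := ⟨hne⟩
    have hfinq : Finite (GQq p ⧸ N) := Subgroup.finite_quotient_of_finiteIndex
    rw [Subgroup.index_eq_card]
    apply r38epg_not_dvd_card p (GQq p ⧸ N)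
    intro x
    obtain ⟨τ, rfl⟩ := QuotientGroup.mk_surjective x
    rw [← QuotientGroup.mk_pow]
    exact (QuotientGroup.eq_one_iff _).2 (hpow τ)
  · have hp0 : NeZero p := ⟨(Fact.out : p.Prime).ne_zero⟩
    obtain ⟨ζ₀, hζ₀⟩ := cycloField_exists_primitiveRoot p
    refine ⟨padicEmbedding p ζ₀, ?_, ?_, ?_⟩
    · rw [IntermediateField.mem_fixedField_iff]
      intro σ hσ
      have h1 : cycloChar p (localGaloisToGlobal p σ) = 1 := hω σ hσ
      have h2 := (cycloChar_eq_one_iff p _).1 h1
      have h3 := (mem_fixingSubgroup_cycloField_iff _).1 h2 ζ₀ hζ₀.pow_eq_one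
      rw [← padicEmbedding_localGaloisToGlobal, h3]
    · intro h
      have hinj : Function.Injective (padicEmbedding p) := (padicEmbedding p).toRingHom.injective
      have h1 : ζ₀ = 1 := hinj (by rw [h, map_one])
      exact hζ₀.ne_one (Fact.out : p.Prime).one_lt h1
    · rw [← map_pow, hζ₀.pow_eq_one, map_one]

end Fermat.Agent.R38

end
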