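/-
ROW 38, piece R38-EPEU / ROOT (helper65).

`theorem stmtEPRoot : StmtEPRoot`: an inertia element `τ` fixing `ζ` and `y`, `‖y‖ ≤ ‖ζ - 1‖`,
fixes every `p`-th root of `1 + p y`.
(The clause `vanish` of `TW.W.stmtGBKum` without the field `T`.)
-/
import Fermat.Agent.R38.EPeuPlan
import Fermat.Agent.TW.W.Kummer
import Fermat.Agent.TW.W.GrOmega

set_option autoImplicit false
set_option linter.unusedSectionVars false
set_option linter.style.haveILetI false

namespace Fermat.Agent.R38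

open Fermat.Agent.PT.L Fermat.Agent.PT.B Fermat.Agent.TW.L Fermat.Agent.TW.W ExtCitation

/-- `‖ζ - 1‖ ^ (p - 1) = ‖p‖` for a nontrivial `p`-th root of unity in `ℚ̄_p` (no field). -/
theorem r38epr_norm_zeta (p : ℕ) [Fact p.Prime] {ζ : PadicAlgCl p} (hζ1 : ζ ≠ 1)
    (hζp : ζ ^ p = 1) :
    ‖ζ - 1‖ ^ (p - 1) = ‖(p : PadicAlgCl p)‖ ∧ 0 < ‖ζ - 1‖ ∧ ‖ζ - 1‖ < 1 := by
  have hint : IsIntegral ℚ_[p] ζ := Algebra.IsIntegral.isIntegral ζ
  haveI : FiniteDimensional ℚ_[p] (IntermediateField.adjoin ℚ_[p] {ζ}) :=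
    IntermediateField.adjoin.finiteDimensional hint
  exact wgr_norm_zeta_sub_one p (IntermediateField.adjoin ℚ_[p] {ζ})
    (IntermediateField.mem_adjoin_simple_self ℚ_[p] ζ) hζ1 hζp

/-- **ROOT**. -/
theorem stmtEPRoot : StmtEPRoot := by
  intro p _ ζ y t τ hζ1 hζp hτI hτζ hτy hyl ht
  have hpp : p.Prime := Fact.out
  obtain ⟨hlpow, hlpos, hllt⟩ := r38epr_norm_zeta p hζ1 hζp
  have hpm1 : p - 1 ≠ 0 := by
    have := hpp.two_le
    omega
  have hp1 : ‖(p : PadicAlgCl p)‖ < 1 := by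
    rw [← hlpow]
    exact pow_lt_one₀ (norm_nonneg _) hllt hpm1
  have hy1 : ‖y‖ ≤ 1 := hyl.trans hllt.le
  have hu := twk_unit_ne_zero hp1 hy1
  have hτu : τ (1 + (p : PadicAlgCl p) * y) = 1 + (p : PadicAlgCl p) * y := by
    rw [map_add, map_one, map_mul, map_natCast, hτy]
  have hclose : ‖t ^ p - 1‖ ≤ ‖ζ - 1‖ ^ p := by
    rw [ht, add_sub_cancel_left, norm_mul, ← hlpow]
    calc ‖ζ - 1‖ ^ (p - 1) * ‖y‖ ≤ ‖ζ - 1‖ ^ (p - 1) * ‖ζ - 1‖ :=
          mul_le_mul_of_nonneg_left hyl (pow_nonneg (norm_nonneg _) _)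
      _ = ‖ζ - 1‖ ^ p := by
          rw [← pow_succ]
          congr 1
          omega
  obtain ⟨β, hβp, hβ1⟩ := twk_exists_close_root hζ1 hζp hclose
  rw [ht] at hβp
  have hβ0 : β ≠ 0 := by
    intro h
    rw [h, zero_pow hpp.ne_zero] at hβp
    exact hu hβp.symm
  have ht0 : t ≠ 0 := by
    intro h
    rw [h, zero_pow hpp.ne_zero] at ht
    exact hu ht.symm
  have hτβp : τ (β ^ p) = β ^ p := by rw [hβp]; exact hτu
  -- `τ β = β`
  have hτβ : τ β = β := by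
    rw [← wgrKum_eq_zero_iff hζ1 hζp hβ0 hτβp]
    by_contra hj
    have hspec := wgrKum_spec hζ1 hζp hβ0 hτβp
    set j := wgrKum p ζ τ β with hjdef
    have hζj1 : ζ ^ j.val ≠ 1 := by
      intro h
      apply hj
      apply wgr_zeta_pow_val_inj hζ1 hζp
      rw [h, ZMod.val_zero, pow_zero]
    have hζjp : (ζ ^ j.val) ^ p = 1 := by rw [← pow_mul, mul_comm, pow_mul, hζp, one_pow]
    obtain ⟨hlpow', -, -⟩ := r38epr_norm_zeta p hζj1 hζjp
    have hnormeq : ‖ζ ^ j.val - 1‖ = ‖ζ - 1‖ := by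
      have h : ‖ζ ^ j.val - 1‖ ^ (p - 1) = ‖ζ - 1‖ ^ (p - 1) := by rw [hlpow', hlpow]
      exact (pow_left_inj₀ (norm_nonneg _) (norm_nonneg _) hpm1).1 h
    have hβn : ‖β‖ = 1 := by
      have h1 : ‖β‖ ^ p = 1 := by
        rw [← norm_pow, hβp]
        have h2 : ‖(p : PadicAlgCl p) * y‖ < 1 := by
          rw [norm_mul]
          calc ‖(p : PadicAlgCl p)‖ * ‖y‖ ≤ ‖(p : PadicAlgCl p)‖ * 1 :=
                mul_le_mul_of_nonneg_left hy1 (norm_nonneg _)
            _ < 1 := by rw [mul_one]; exact hp1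
        have h3 : ‖1 + (p : PadicAlgCl p) * y‖ ≤ 1 :=
          (wgr_norm_add_le p _ _).trans (max_le (by rw [norm_one]) h2.le)
        have h4 : (1 : ℝ) ≤ ‖1 + (p : PadicAlgCl p) * y‖ := by
          have h5 : (1 : PadicAlgCl p) = (1 + (p : PadicAlgCl p) * y) - (p : PadicAlgCl p) * y := by
            ring
          have h6 := wgr_norm_sub_le p (1 + (p : PadicAlgCl p) * y) ((p : PadicAlgCl p) * y)
          rw [← h5, norm_one] at h6
          rcases le_max_iff.1 h6 with h7 | h7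
          · exact h7
          · exact absurd h7 (not_le.2 h2)
        exact le_antisymm h3 h4
      exact (pow_eq_one_iff_of_nonneg (norm_nonneg _) hpp.ne_zero).1 h1
    have hl0 : ζ - 1 ≠ 0 := sub_ne_zero.2 hζ1
    have hτl : τ (ζ - 1) = ζ - 1 := by rw [map_sub, map_one, hτζ]
    have hsmall := wgr_inert_scale p hτI hl0 hτl hβ1
    have hmove : τ (β - 1) - (β - 1) = (ζ ^ j.val - 1) * β := by
      rw [map_sub, map_one, hspec]
      ring
    rw [hmove, norm_mul, hβn, mul_one, hnormeq] at hsmall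
    exact lt_irrefl _ hsmall
  -- `t = ξ β` with `ξ` a `p`-th root of unity
  have h1 : (t / β) ^ p = 1 := by
    rw [div_pow, ht, hβp, div_self hu]
  obtain ⟨i, hi⟩ := wgr_exists_pow hζ1 hζp h1
  have htβ : t = ζ ^ i.val * β := by
    rw [← hi]
    field_simp
  rw [htβ, map_mul, map_pow, hτζ, hτβ]

end Fermat.Agent.R38
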