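/-
ROW 38, piece R38-EPEU / TEICH (helper22): `stmtEPTeich : StmtEPTeich`.

Every `x ∈ 𝒪_Ω` (`Ω = PadicAlgCl p`) is congruent mod `𝔪_Ω` to `ι b₀` with `b₀ ∈ ℚ̄` integral at
`padicPlace p` and fixed by the global inertia group of `padicPlace p`.

Route:
* `r38ept_integral`   : `‖x‖ ≤ 1` ⇒ `x` is a root of a monic polynomial over `ℤ_p`
  (spectral norm: the minimal polynomial has coefficients of norm `≤ 1`);
* `r38ept_pow_card`   : an element of a field of characteristic `p` which is integral over `𝔽_p`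
  satisfies `a ^ (p ^ f) = a` for some `f > 0`;
* `r38ept_exists_pow` : `‖x‖ ≤ 1` ⇒ `‖x ^ (p ^ f) - x‖ < 1` for some `f > 0`
  (residue field of the valuation ring `padicIntegers p`);
* `r38ept_exists_close_root` : `‖P(x)‖ < 1`, `P` monic ⇒ a root `b` of `P` with `‖x - b‖ < 1`;
* `r38ept_unique`     : in a local ring with `q ∈ 𝔪`: `b ^ q = b`, `(b + y) ^ q = b + y`, `y ∈ 𝔪`
  ⇒ `y = 0` (Taylor expansion of `X ^ q - X`, whose derivative is a unit);
* `stmtEPTeich`       : assembly (`PT.B.kras_root_mem_range`, `PT.B.mem_inertiaSubgroupIn_iff`).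
-/
import Fermat.Agent.R38.EPeuPlan
import Fermat.Agent.TW.W.GrInert

set_option autoImplicit false
set_option linter.style.haveILetI false
set_option linter.unusedSectionVars false

namespace Fermat.Agent.R38

open Polynomial Fermat.Agent.PT.B Fermat.Agent.TW.W

/-- Teichmüller uniqueness in a local ring: `b ^ q = b`, `(b + y) ^ q = b + y`, `q, y ∈ 𝔪`
⇒ `y = 0`. -/
theorem r38ept_unique {R : Type*} [CommRing R] [IsLocalRing R] (q : ℕ)
    (hq : (q : R) ∈ IsLocalRing.maximalIdeal R) {b y : R} (hb : b ^ q = b)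
    (hb' : (b + y) ^ q = b + y) (hy : y ∈ IsLocalRing.maximalIdeal R) : y = 0 := by
  obtain ⟨k, hk⟩ := Polynomial.binomExpansion (X ^ q - X : R[X]) b y
  simp only [eval_sub, eval_pow, eval_X, derivative_sub, derivative_X_pow, derivative_X,
    eval_mul, eval_C, eval_one] at hk
  have h0 : (1 - ((q : R) * b ^ (q - 1) + k * y)) * y = 0 := by
    linear_combination hk - hb' + hb
  have hm : (q : R) * b ^ (q - 1) + k * y ∈ IsLocalRing.maximalIdeal R :=
    Ideal.add_mem _ (Ideal.mul_mem_right _ _ hq) (Ideal.mul_mem_left _ _ hy)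
  have hu : IsUnit (1 - ((q : R) * b ^ (q - 1) + k * y)) :=
    IsLocalRing.isUnit_one_sub_self_of_mem_nonunits _ hm
  exact (hu.mul_right_eq_zero).1 h0

/-- an element of a field of characteristic `p`, integral over `𝔽_p`, is fixed by a power of
Frobenius -/
theorem r38ept_pow_card (p : ℕ) [Fact p.Prime] {k : Type*} [Field k] [Algebra (ZMod p) k]
    (a : k) (ha : IsIntegral (ZMod p) a) : ∃ f : ℕ, 0 < f ∧ a ^ (p ^ f) = a := by
  haveI : FiniteDimensional (ZMod p) (IntermediateField.adjoin (ZMod p) {a}) :=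
    IntermediateField.adjoin.finiteDimensional ha
  haveI : Finite (IntermediateField.adjoin (ZMod p) {a}) :=
    Module.finite_of_finite (ZMod p)
  letI : Fintype (IntermediateField.adjoin (ZMod p) {a}) := Fintype.ofFinite _
  haveI : CharP (IntermediateField.adjoin (ZMod p) {a}) p :=
    (Algebra.charP_iff (ZMod p) _ p).1 inferInstance
  obtain ⟨n, -, hn⟩ := FiniteField.card (IntermediateField.adjoin (ZMod p) {a}) p
  refine ⟨n, n.pos, ?_⟩
  have h1 := FiniteField.pow_card
    (⟨a, IntermediateField.mem_adjoin_simple_self (ZMod p) a⟩ :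
      IntermediateField.adjoin (ZMod p) {a})
  rw [hn] at h1
  exact congrArg Subtype.val h1

/-- if the norm of a product `∏ (x - b)` is `< 1`, one of the factors has norm `< 1` -/
theorem r38ept_exists_factor_lt {L : Type*} [NormedField L] (x : L) (s : Multiset L)
    (h : ‖(s.map fun b => x - b).prod‖ < 1) : ∃ b ∈ s, ‖x - b‖ < 1 := by
  induction s using Multiset.induction_on with
  | empty => simp at h
  | cons a s ih =>
    rw [Multiset.map_cons, Multiset.prod_cons, norm_mul] at h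
    by_cases ha : ‖x - a‖ < 1
    · exact ⟨a, Multiset.mem_cons_self a s, ha⟩
    · have ha' : 1 ≤ ‖x - a‖ := not_lt.1 ha
      have hs : ‖(s.map fun b => x - b).prod‖ < 1 := by
        by_contra hcon
        have h1 : 1 ≤ ‖(s.map fun b => x - b).prod‖ := not_lt.1 hcon
        have : (1 : ℝ) ≤ ‖x - a‖ * ‖(s.map fun b => x - b).prod‖ := by
          calc (1 : ℝ) = 1 * 1 := (one_mul 1).symm
            _ ≤ ‖x - a‖ * ‖(s.map fun b => x - b).prod‖ :=
              mul_le_mul ha' h1 zero_le_one (zero_le_one.trans ha')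
        exact absurd h (not_lt.2 this)
      obtain ⟨b, hb, hxb⟩ := ih hs
      exact ⟨b, Multiset.mem_cons_of_mem hb, hxb⟩

/-- `P` monic over an algebraically closed normed field, `‖P(x)‖ < 1` ⇒ some root `b` of `P`
has `‖x - b‖ < 1` -/
theorem r38ept_exists_close_root {L : Type*} [NormedField L] [IsAlgClosed L] (P : L[X])
    (hP : P.Monic) (x : L) (h : ‖P.eval x‖ < 1) : ∃ b : L, P.eval b = 0 ∧ ‖x - b‖ < 1 := by
  rw [(IsAlgClosed.splits P).eval_eq_prod_roots_of_monic hP x] at h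
  obtain ⟨b, hb, hxb⟩ := r38ept_exists_factor_lt x P.roots h
  exact ⟨b, (Polynomial.mem_roots hP.ne_zero).1 hb, hxb⟩

section Local

variable (p : ℕ) [hp : Fact p.Prime]

/-- `‖x‖ ≤ 1` in `ℚ̄_p` ⇒ `x` is integral over `ℤ_p` -/
theorem r38ept_integral (x : PadicAlgCl p) (hx : ‖x‖ ≤ 1) :
    ∃ Q : ℤ_[p][X], Q.Monic ∧
      eval₂ ((algebraMap ℚ_[p] (PadicAlgCl p)).comp (PadicInt.Coe.ringHom (p := p))) x Q = 0 := by
  have hint : IsIntegral ℚ_[p] x := Algebra.IsIntegral.isIntegral x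
  have hmon : (minpoly ℚ_[p] x).Monic := minpoly.monic hint
  have hx' : spectralValue (minpoly ℚ_[p] x) ≤ 1 := hx
  have hco := (spectralValue_le_one_iff hmon).mp hx'
  have hl : minpoly ℚ_[p] x ∈ Polynomial.lifts (PadicInt.Coe.ringHom (p := p)) := by
    rw [Polynomial.lifts_iff_coeff_lifts]
    intro n
    exact ⟨⟨_, hco n⟩, rfl⟩
  obtain ⟨Q, hQ, -, hQm⟩ := Polynomial.lifts_and_natDegree_eq_and_monic hl hmon
  refine ⟨Q, hQm, ?_⟩
  rw [← eval₂_map, hQ]
  exact minpoly.aeval ℚ_[p] x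

/-- `‖p‖ < 1` in `ℚ̄_p` -/
theorem r38ept_norm_p_lt : ‖(p : PadicAlgCl p)‖ < 1 := by
  have h : (p : PadicAlgCl p) = algebraMap ℚ_[p] (PadicAlgCl p) (p : ℚ_[p]) :=
    (map_natCast _ p).symm
  rw [h, PadicAlgCl.norm_extends]
  exact Padic.norm_p_lt_one

/-- membership in the maximal ideal of `padicIntegers p`, in terms of the norm -/
theorem r38ept_mem_maximalIdeal_iff (y : padicIntegers p) :
    y ∈ IsLocalRing.maximalIdeal (padicIntegers p) ↔ ‖(y : PadicAlgCl p)‖ < 1 := by
  rw [ValuationSubring.valuation_lt_one_iff,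
    ← (Valuation.isEquiv_valuation_valuationSubring
      (Valued.v : Valuation (PadicAlgCl p) NNReal)).lt_one_iff_lt_one]
  rw [PadicAlgCl.valuation_def, ← NNReal.coe_lt_one, coe_nnnorm]

/-- **Frobenius periodicity mod `𝔪`**: `‖x‖ ≤ 1` ⇒ `‖x ^ (p ^ f) - x‖ < 1` for some `f > 0` -/
theorem r38ept_exists_pow (x : PadicAlgCl p) (hx : ‖x‖ ≤ 1) :
    ∃ f : ℕ, 0 < f ∧ ‖x ^ (p ^ f) - x‖ < 1 := by
  classical
  obtain ⟨Q, hQm, hQx⟩ := r38ept_integral p x hx
  have hxA : x ∈ padicIntegers p := by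
    rw [mem_padicIntegers_iff, ← NNReal.coe_le_one, coe_nnnorm]
    exact hx
  have hjmem : ∀ z : ℤ_[p],
      ((algebraMap ℚ_[p] (PadicAlgCl p)).comp (PadicInt.Coe.ringHom (p := p))) z ∈
        padicIntegers p := by
    intro z
    rw [mem_padicIntegers_iff, ← NNReal.coe_le_one, coe_nnnorm]
    show ‖algebraMap ℚ_[p] (PadicAlgCl p) (z : ℚ_[p])‖ ≤ 1
    rw [PadicAlgCl.norm_extends]
    exact PadicInt.norm_le_one z
  let j : ℤ_[p] →+* padicIntegers p :=
    ((algebraMap ℚ_[p] (PadicAlgCl p)).comp (PadicInt.Coe.ringHom (p := p))).codRestrict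
      (padicIntegers p) hjmem
  let res : padicIntegers p →+* IsLocalRing.ResidueField (padicIntegers p) :=
    IsLocalRing.residue (padicIntegers p)
  have hresp : ((p : ℕ) : IsLocalRing.ResidueField (padicIntegers p)) = 0 := by
    have h1 : res ((p : ℕ) : padicIntegers p) = 0 := by
      rw [IsLocalRing.residue_eq_zero_iff, r38ept_mem_maximalIdeal_iff]
      push_cast
      exact r38ept_norm_p_lt p
    rw [← h1, map_natCast]
  haveI : CharP (IsLocalRing.ResidueField (padicIntegers p)) p :=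
    (CharP.charP_iff_prime_eq_zero hp.out).mpr hresp
  letI : Algebra (ZMod p) (IsLocalRing.ResidueField (padicIntegers p)) := ZMod.algebra _ p
  have hφ : (algebraMap (ZMod p) (IsLocalRing.ResidueField (padicIntegers p))).comp
      (PadicInt.toZMod (p := p)) = res.comp j := by
    ext z
    have hspec := PadicInt.toZMod_spec (p := p) z
    rw [PadicInt.maximalIdeal_eq_span_p, Ideal.mem_span_singleton] at hspec
    obtain ⟨w, hw⟩ := hspec
    have hz : z = (ZMod.cast (PadicInt.toZMod z) : ℤ_[p]) + (p : ℤ_[p]) * w := by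
      rw [← hw]; ring
    have h2 : res (j z) = res (j (ZMod.cast (PadicInt.toZMod z) : ℤ_[p])) := by
      conv_lhs => rw [hz]
      rw [map_add, map_add, map_mul, map_mul, map_natCast, map_natCast, hresp, zero_mul,
        add_zero]
    show algebraMap (ZMod p) _ (PadicInt.toZMod z) = res (j z)
    rw [h2, ← ZMod.natCast_val (PadicInt.toZMod z), map_natCast, map_natCast]
    have h3 : algebraMap (ZMod p) (IsLocalRing.ResidueField (padicIntegers p))
        (PadicInt.toZMod z) =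
        algebraMap (ZMod p) (IsLocalRing.ResidueField (padicIntegers p))
          (((PadicInt.toZMod z).val : ℕ) : ZMod p) := by
      rw [ZMod.natCast_zmod_val]
    rw [h3, map_natCast]
  have hjx : eval₂ (res.comp j) (res ⟨x, hxA⟩) Q = 0 := by
    have h1 : eval₂ j (⟨x, hxA⟩ : padicIntegers p) Q = 0 := by
      apply Subtype.ext
      have h2 : ((eval₂ j (⟨x, hxA⟩ : padicIntegers p) Q : padicIntegers p) : PadicAlgCl p) =
          eval₂ ((algebraMap ℚ_[p] (PadicAlgCl p)).comp (PadicInt.Coe.ringHom (p := p))) x Q := by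
        have := Polynomial.hom_eval₂ Q j (padicIntegers p).subtype (⟨x, hxA⟩ : padicIntegers p)
        exact this
      rw [h2, hQx]
      rfl
    rw [← Polynomial.hom_eval₂, h1, map_zero]
  have hint : IsIntegral (ZMod p) (res ⟨x, hxA⟩) := by
    refine ⟨Q.map (PadicInt.toZMod (p := p)), hQm.map _, ?_⟩
    rw [eval₂_map, hφ]
    exact hjx
  obtain ⟨f, hf, hpow⟩ := r38ept_pow_card p _ hint
  refine ⟨f, hf, ?_⟩
  have h1 : res ((⟨x, hxA⟩ : padicIntegers p) ^ (p ^ f) - ⟨x, hxA⟩) = 0 := by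
    rw [map_sub, map_pow, hpow, sub_self]
  rw [IsLocalRing.residue_eq_zero_iff, r38ept_mem_maximalIdeal_iff] at h1
  exact h1

end Local

/-- **TEICH** -/
theorem stmtEPTeich : StmtEPTeich := by
  intro p _ x hx
  obtain ⟨f, hf, hpow⟩ := r38ept_exists_pow p x hx
  have hq2 : 1 < p ^ f := Nat.one_lt_pow hf.ne' (Fact.out : p.Prime).one_lt
  have hPmonic : (X ^ (p ^ f) - X : (PadicAlgCl p)[X]).Monic :=
    monic_X_pow_sub (by rw [degree_X]; exact_mod_cast hq2)
  obtain ⟨b, hbroot, hxb⟩ := r38ept_exists_close_root _ hPmonic x (by simpa using hpow)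
  have hQne : (X ^ (p ^ f) - X : ℚ[X]) ≠ 0 :=
    (monic_X_pow_sub (by rw [degree_X]; exact_mod_cast hq2)).ne_zero
  obtain ⟨b₀, hb₀, rfl⟩ := kras_root_mem_range p (X ^ (p ^ f) - X : ℚ[X]) hQne b
    (by simpa using hbroot)
  have hb₀q : b₀ ^ (p ^ f) = b₀ := by
    have : b₀ ^ (p ^ f) - b₀ = 0 := by simpa using hb₀
    exact sub_eq_zero.1 this
  have hnorm : ‖padicEmbedding p b₀‖ ≤ 1 := by
    have h1 : padicEmbedding p b₀ = x - (x - padicEmbedding p b₀) := by ring
    rw [h1]
    exact (wgr_norm_sub_le p _ _).trans (max_le hx hxb.le)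
  refine ⟨b₀, hnorm, ?_, hxb⟩
  intro g hg
  rw [mem_inertiaSubgroupIn_iff] at hg
  obtain ⟨-, hI⟩ := hg
  have hb₀A : b₀ ∈ padicPlace p := (wgr_mem_padicPlace_iff p b₀).2 hnorm
  have hy := hI b₀ hb₀A
  rw [ValuationSubring.mem_nonunits_iff_exists_mem_maximalIdeal] at hy
  obtain ⟨hyA, hym⟩ := hy
  have hpm : ((p ^ f : ℕ) : padicPlace p) ∈ IsLocalRing.maximalIdeal (padicPlace p) := by
    have h1 : ((p : ℕ) : AlgebraicClosure ℚ) ∈ (padicPlace p).nonunits := by
      rw [wgr_mem_nonunits_iff, map_natCast]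
      exact r38ept_norm_p_lt p
    rw [ValuationSubring.mem_nonunits_iff_exists_mem_maximalIdeal] at h1
    obtain ⟨h2, h3⟩ := h1
    have h4 : ((p ^ f : ℕ) : padicPlace p) =
        (⟨((p : ℕ) : AlgebraicClosure ℚ), h2⟩ : padicPlace p) ^ f := by
      apply Subtype.ext
      push_cast
      rfl
    rw [h4]
    exact Ideal.pow_mem_of_mem _ h3 f hf
  have key := r38ept_unique (R := padicPlace p) (p ^ f) hpm
    (b := ⟨b₀, hb₀A⟩) (y := ⟨g b₀ - b₀, hyA⟩)
    (Subtype.ext (by push_cast; exact hb₀q))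
    (Subtype.ext (by
      show (b₀ + (g b₀ - b₀)) ^ (p ^ f) = b₀ + (g b₀ - b₀)
      have h1 : b₀ + (g b₀ - b₀) = g b₀ := by ring
      rw [h1, ← map_pow, hb₀q]))
    hym
  have h0 : g b₀ - b₀ = 0 := congrArg Subtype.val key
  exact sub_eq_zero.1 h0

end Fermat.Agent.R38
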