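/-
ROW 38, piece R38-EPEU / VAL (helper65).

`theorem stmtEPVal : StmtEPVal`: `y ∈ ℚ̄_p` fixed by `I ∩ ker ω` with `‖y‖ < 1` has
`‖y‖ ≤ ‖ζ - 1‖` (the value group of `ℚ_p^{ur}(ζ_p)` is generated by `v(ζ - 1)`).
Norm trick: `N = ∏_a g_a y` (`g_a ∈ I`, `ω(g_a) = a`) is fixed by `I`, so `‖N‖ ∈ p^ℤ`.
-/
import Fermat.Agent.R38.EPRoot
import Fermat.Agent.TW.W.GrUnr
import Fermat.Agent.TW.W.StrCyc
import Fermat.Agent.TW.L.DecFull

set_option autoImplicit false
set_option linter.unusedSectionVars false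
set_option linter.style.haveILetI false

namespace Fermat.Agent.R38

open Fermat.Agent.PT.L Fermat.Agent.PT.B Fermat.Agent.TW.L Fermat.Agent.TW.W ExtCitation

section Val

variable (p : ℕ) [Fact p.Prime]

/-- local inertia elements with prescribed value of `ω`. -/
theorem r38epv_exists_omega (a : (ZMod p)ˣ) : ∃ g ∈ inertiaQ p, gbOmega p g = a := by
  obtain ⟨σ, hσ, hσa⟩ := stmtCycloRamFull p a
  have hσD : σ ∈ (padicPlace p).decompositionSubgroup ℚ := by
    obtain ⟨x, -, rfl⟩ := hσ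
    exact x.2
  obtain ⟨g, hg⟩ := stmtDecFull p σ hσD
  refine ⟨g, ?_, ?_⟩
  · rw [mem_inertiaQ, hg]
    exact hσ
  · show cycloChar p (localGaloisToGlobal p g) = a
    rw [hg, hσa]

/-- `ω γ = 1` means that `γ` fixes the `p`-th roots of unity. -/
theorem r38epv_fix_zeta {ζ : PadicAlgCl p} (hζp : ζ ^ p = 1) {γ : GQq p}
    (hγ : gbOmega p γ = 1) : γ ζ = ζ := by
  have h := twk_omega_spec p hζp γ
  rw [hγ] at h
  have h1 : (((1 : (ZMod p)ˣ) : ZMod p)).val = 1 := by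
    haveI : Fact (1 < p) := ⟨(Fact.out : p.Prime).one_lt⟩
    rw [Units.val_one, ZMod.val_one]
  rw [h1, pow_one] at h
  exact h

/-- the norm of `p`. -/
theorem r38epv_norm_p : ‖((p : ℕ) : PadicAlgCl p)‖ = (p : ℝ)⁻¹ := by
  have h1 : ((p : ℕ) : PadicAlgCl p) = algebraMap ℚ_[p] (PadicAlgCl p) (p : ℚ_[p]) := by
    rw [map_natCast]
  rw [h1, ← PadicAlgCl.spectralNorm_eq, spectralNorm_extends]
  exact Padic.norm_p

end Val

/-- **VAL**. -/
theorem stmtEPVal : StmtEPVal := by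
  intro p _ ζ y hζ1 hζp hfix hy1
  have hpp : p.Prime := Fact.out
  haveI : NeZero p := ⟨hpp.ne_zero⟩
  obtain ⟨hlpow, hlpos, hllt⟩ := r38epr_norm_zeta p hζ1 hζp
  have hpm1 : p - 1 ≠ 0 := by
    have := hpp.two_le
    omega
  rcases eq_or_ne y 0 with rfl | hy0
  · rw [norm_zero]
    exact hlpos.le
  choose g hgI hgω using r38epv_exists_omega p
  set N : PadicAlgCl p := ∏ a : (ZMod p)ˣ, g a y with hN
  have hN0 : N ≠ 0 := by
    rw [hN, Finset.prod_ne_zero_iff]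
    intro a _
    rwa [Ne, map_eq_zero_iff _ (g a).injective]
  -- `N` is fixed by inertia
  have hNfix : ∀ τ ∈ inertiaQ p, τ N = N := by
    intro τ hτ
    have hmove : ∀ a : (ZMod p)ˣ, τ (g a y) = g (gbOmega p τ * a) y := by
      intro a
      set b := gbOmega p τ * a with hb
      have hγI : (g b)⁻¹ * τ * g a ∈ inertiaQ p :=
        mul_mem (mul_mem (inv_mem (hgI b)) hτ) (hgI a)
      have hγω : gbOmega p ((g b)⁻¹ * τ * g a) = 1 := by
        rw [map_mul, map_mul, map_inv, hgω, hgω, hb]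
        group
      have h1 := hfix _ hγI (r38epv_fix_zeta p hζp hγω)
      have h2 : ((g b)⁻¹ * τ * g a) y = (g b)⁻¹ (τ (g a y)) := rfl
      rw [h2] at h1
      have h3 : g b ((g b)⁻¹ (τ (g a y))) = τ (g a y) := by
        have : (g b * (g b)⁻¹) (τ (g a y)) = τ (g a y) := by rw [mul_inv_cancel]; rfl
        exact this
      rw [← h3, h1]
    rw [hN, map_prod]
    rw [Finset.prod_congr rfl (fun a _ => hmove a)]
    exact Fintype.prod_equiv (Equiv.mulLeft (gbOmega p τ)) _ _ (fun a => rfl)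
  obtain ⟨m, hm⟩ := wgr_unr p hN0 hNfix
  -- `‖N‖ = ‖y‖ ^ (p - 1)`
  have hNn : ‖N‖ = ‖y‖ ^ (p - 1) := by
    rw [hN, norm_prod, Finset.prod_congr rfl (fun a _ => wgr_norm_map p (g a) y),
      Finset.prod_const, Finset.card_univ, ZMod.card_units_eq_totient, Nat.totient_prime hpp]
  have hp1 : (1 : ℝ) < p := by exact_mod_cast hpp.one_lt
  have hp0 : (0 : ℝ) < p := by linarith
  have hNlt : ‖N‖ < 1 := by
    rw [hNn]
    exact pow_lt_one₀ (norm_nonneg _) hy1 hpm1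
  have hm0 : m < 0 := by
    by_contra h
    have h' : 0 ≤ m := not_lt.1 h
    have : (1 : ℝ) ≤ (p : ℝ) ^ m := one_le_zpow₀ hp1.le h'
    rw [hm] at hNlt
    linarith
  have hNle : ‖N‖ ≤ ‖(p : PadicAlgCl p)‖ := by
    rw [hm, r38epv_norm_p, ← zpow_neg_one]
    exact zpow_le_zpow_right₀ hp1.le (by omega)
  rw [hNn, ← hlpow] at hNle
  exact (pow_le_pow_iff_left₀ (norm_nonneg _) (norm_nonneg _) hpm1).1 hNle

end Fermat.Agent.R38
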