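/-
ROW 38, piece R38-EPEU (helper64), part 1: the inertia span `C`, the subgroup `N ⊂ G_p` and its
properties.

`M` a finite `G_ℚ`-module killed by `p` with a Hopf lattice, `C = I_aug M` (inertia at
`padicPlace p`), on which inertia acts through `ω`.
`N := {τ ∈ G_p : ω τ = 1, τ = 1 on C and on M/C}`.
-/
import Fermat.Agent.R38.EPeuPlan
import Fermat.Agent.TW.W.LvDict
import Fermat.Agent.TW.W.GrFrob
import Fermat.Agent.TW.L.DecFull
import Fermat.Agent.PT.B.CycloField
import Fermat.Agent.PT.B.LocalLevel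

set_option autoImplicit false
set_option linter.unusedSectionVars false
set_option linter.style.haveILetI false

noncomputable section

namespace Fermat.Agent.R38

open Fermat.Agent.PT Fermat.Agent.PT.B Fermat.Agent.TW.L Fermat.Agent.TW.W Fermat.Agent.W1
  ExtCitation GaloisRep

section Core

variable (p : ℕ) [Fact p.Prime] (M : Type) [AddCommGroup M] [DistribMulAction GQ M]

/-- the action as a plain map -/
def r38epAct : GQ → M → M := fun σ m => σ • m

/-- the inertia span `C = I_aug M` -/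
def r38epC : AddSubgroup M := iAug p (r38epAct M)

variable {M}

theorem r38ep_sub_mem_C {σ : GQ} (hσ : σ ∈ (padicPlace p).inertiaSubgroupIn ℚ) (m : M) :
    σ • m - m ∈ r38epC p M :=
  AddSubgroup.subset_closure ⟨σ, hσ, m, rfl⟩

/-- global inertia at `padicPlace p` comes from local inertia -/
theorem r38ep_inertia_lift (σ : GQ) (hσ : σ ∈ (padicPlace p).inertiaSubgroupIn ℚ) :
    ∃ τ ∈ inertiaQ p, localGaloisToGlobal p τ = σ := by
  have hdec : σ ∈ (padicPlace p).decompositionSubgroup ℚ := by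
    obtain ⟨x, -, rfl⟩ := Subgroup.mem_map.1 hσ
    exact x.2
  obtain ⟨τ, hτ⟩ := stmtDecFull p σ hdec
  refine ⟨τ, ?_, hτ⟩
  rw [mem_inertiaQ, hτ]
  exact hσ

/-- `C` is stable under the decomposition group -/
theorem r38ep_C_stable (γ : GQq p) {c : M} (hc : c ∈ r38epC p M) :
    localGaloisToGlobal p γ • c ∈ r38epC p M := by
  unfold r38epC iAug at hc ⊢
  induction hc using AddSubgroup.closure_induction with
  | mem x hx =>
    obtain ⟨σ, hσ, m, rfl⟩ := hx
    obtain ⟨τ, hτ, rfl⟩ := r38ep_inertia_lift p σ hσ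
    have hn : γ * τ * γ⁻¹ ∈ inertiaQ p := (wgr_inertiaQ_normal p).conj_mem τ hτ γ
    rw [mem_inertiaQ] at hn
    have e : localGaloisToGlobal p γ • (r38epAct M (localGaloisToGlobal p τ) m - m) =
        localGaloisToGlobal p (γ * τ * γ⁻¹) • (localGaloisToGlobal p γ • m) -
          localGaloisToGlobal p γ • m := by
      unfold r38epAct
      rw [smul_sub, map_mul, map_mul, map_inv, mul_smul, mul_smul, inv_smul_smul]
    rw [e]
    exact AddSubgroup.subset_closure ⟨_, hn, _, rfl⟩
  | zero =>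
    rw [smul_zero]
    exact zero_mem _
  | add x y _ _ hx hy =>
    rw [smul_add]
    exact add_mem hx hy
  | neg x _ hx =>
    rw [smul_neg]
    exact neg_mem hx

/-- the hypothesis of (EPEU) at `padicPlace p` -/
def R38EPHyp : Prop :=
  ∀ σ ∈ (padicPlace p).inertiaSubgroupIn ℚ, ∀ τ ∈ (padicPlace p).inertiaSubgroupIn ℚ,
    ∀ x : M, τ • (σ • x - x) = cycloExp p τ • (σ • x - x)

variable {p}

/-- inertia acts through `ω` on `C` -/
theorem r38ep_act_C (hω : R38EPHyp p (M := M)) {τ : GQ}
    (hτ : τ ∈ (padicPlace p).inertiaSubgroupIn ℚ) {c : M} (hc : c ∈ r38epC p M) :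
    τ • c = cycloExp p τ • c := by
  unfold r38epC iAug at hc
  induction hc using AddSubgroup.closure_induction with
  | mem x hx =>
    obtain ⟨σ, hσ, m, rfl⟩ := hx
    exact hω σ hσ τ hτ m
  | zero => rw [smul_zero, smul_zero]
  | add x y _ _ hx hy => rw [smul_add, hx, hy, smul_add]
  | neg x _ hx => rw [smul_neg, hx, smul_neg]

/-- `cycloExp = 1` if `ω = 1` -/
theorem r38ep_cycloExp_eq_one {σ : GQ} (h : cycloChar p σ = 1) : cycloExp p σ = 1 := by
  haveI : Fact (1 < p) := ⟨(Fact.out : p.Prime).one_lt⟩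
  rw [← val_cycloChar, h, Units.val_one, ZMod.val_one]

variable (p M)

/-- `N`: the elements of `G_p` acting trivially on `μ_p`, on `C` and on `M/C` -/
def r38epN : Subgroup (GQq p) where
  carrier := {τ | gbOmega p τ = 1 ∧ (∀ c ∈ r38epC p M, localGaloisToGlobal p τ • c = c) ∧
    ∀ m : M, localGaloisToGlobal p τ • m - m ∈ r38epC p M}
  one_mem' := by
    refine ⟨map_one _, fun c _ => ?_, fun m => ?_⟩
    · rw [map_one, one_smul]
    · rw [map_one, one_smul, sub_self]
      exact zero_mem _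
  mul_mem' := by
    rintro σ τ ⟨h1, h2, h3⟩ ⟨h1', h2', h3'⟩
    refine ⟨by rw [map_mul, h1, h1', one_mul], fun c hc => ?_, fun m => ?_⟩
    · rw [map_mul, mul_smul, h2' c hc, h2 c hc]
    · have e : localGaloisToGlobal p (σ * τ) • m - m =
          (localGaloisToGlobal p σ • (localGaloisToGlobal p τ • m - m)) +
            (localGaloisToGlobal p σ • m - m) := by
        rw [map_mul, mul_smul, smul_sub]
        abel
      rw [e, h2 _ (h3' m)]
      exact add_mem (h3' m) (h3 m)
  inv_mem' := by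
    rintro σ ⟨h1, h2, h3⟩
    refine ⟨by rw [map_inv, h1, inv_one], fun c hc => ?_, fun m => ?_⟩
    · have := h2 c hc
      rw [map_inv, inv_smul_eq_iff, this]
    · have h := h3 ((localGaloisToGlobal p σ)⁻¹ • m)
      rw [smul_inv_smul] at h
      have e : localGaloisToGlobal p σ⁻¹ • m - m =
          -(m - (localGaloisToGlobal p σ)⁻¹ • m) := by
        rw [map_inv]
        abel
      rw [e]
      exact neg_mem h

theorem r38ep_mem_N (τ : GQq p) :
    τ ∈ r38epN p M ↔ gbOmega p τ = 1 ∧ (∀ c ∈ r38epC p M, localGaloisToGlobal p τ • c = c) ∧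
      ∀ m : M, localGaloisToGlobal p τ • m - m ∈ r38epC p M := Iff.rfl

instance r38epN_normal : (r38epN p M).Normal := by
  constructor
  rintro τ ⟨h1, h2, h3⟩ γ
  refine ⟨?_, fun c hc => ?_, fun m => ?_⟩
  · rw [map_mul, map_mul, h1, mul_one, map_inv, mul_inv_cancel]
  · have hc' : localGaloisToGlobal p γ⁻¹ • c ∈ r38epC p M := r38ep_C_stable p γ⁻¹ hc
    rw [map_mul, map_mul, mul_smul, mul_smul, h2 _ hc', ← mul_smul, ← map_mul, mul_inv_cancel,
      map_one, one_smul]
  · have h := h3 (localGaloisToGlobal p γ⁻¹ • m)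
    have h' := r38ep_C_stable p γ h
    have e : localGaloisToGlobal p (γ * τ * γ⁻¹) • m - m =
        localGaloisToGlobal p γ •
          (localGaloisToGlobal p τ • (localGaloisToGlobal p γ⁻¹ • m) -
            localGaloisToGlobal p γ⁻¹ • m) := by
      rw [smul_sub, map_mul, map_mul, mul_smul, mul_smul, ← mul_smul (localGaloisToGlobal p γ)
        (localGaloisToGlobal p γ⁻¹), ← map_mul, mul_inv_cancel, map_one, one_smul]
    rw [e]
    exact h'

variable {p M}

/-- `I ∩ ker ω ⊆ N` -/
theorem r38ep_inertia_mem_N (hω : R38EPHyp p (M := M)) {τ : GQq p} (hτ : τ ∈ inertiaQ p)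
    (hτω : gbOmega p τ = 1) : τ ∈ r38epN p M := by
  rw [mem_inertiaQ] at hτ
  refine ⟨hτω, fun c hc => ?_, fun m => r38ep_sub_mem_C p hτ m⟩
  rw [r38ep_act_C hω hτ hc, r38ep_cycloExp_eq_one (by rwa [gbOmega_apply] at hτω), one_smul]

/-- `N` contains `Gal(Ω/E)` for a finite extension `E/ℚ_p` -/
theorem r38ep_exists_le [Finite M] (H : Subalgebra (ratLocalizedAt p) (M → AlgebraicClosure ℚ))
    (hH : IsHopfLattice (ratLocalizedAt p) (r38epAct M) H) :
    ∃ E : IntermediateField ℚ_[p] (PadicAlgCl p), FiniteDimensional ℚ_[p] E ∧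
      E.fixingSubgroup ≤ r38epN p M := by
  obtain ⟨hfin, -, htriv⟩ := stmtLvDict p M (r38epAct M) H hH
  haveI := hfin
  haveI : NeZero p := ⟨(Fact.out : p.Prime).ne_zero⟩
  haveI : FiniteDimensional ℚ_[p] (localField p (cycloField p)) :=
    stmtLocalFinite p _ inferInstance
  refine ⟨lvCoordField p H ⊔ localField p (cycloField p), inferInstance, fun σ hσ => ?_⟩
  rw [IntermediateField.fixingSubgroup_sup] at hσ
  have h1 : ∀ m : M, localGaloisToGlobal p σ • m = m := htriv σ hσ.1
  have h2 : localGaloisToGlobal p σ ∈ (cycloField p).fixingSubgroup :=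
    (stmtLocalLevel p _ σ).2 hσ.2
  refine ⟨?_, fun c _ => h1 c, fun m => ?_⟩
  · rw [gbOmega_apply]
    exact (cycloChar_eq_one_iff p _).2 h2
  · rw [h1 m, sub_self]
    exact zero_mem _

end Core

end Fermat.Agent.R38
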