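/-
ROW 38, piece R38-EPEU (helper64), part 4: the DICTIONARY
`σ ∈ peuSubgroup (padicPlace p) p ⇒ σ = image of some τ ∈ 𝒩_T`  (`G_T = N`),
from (TEICH), (VAL), (ROOT).
-/
import Fermat.Agent.R38.EPeuCore
import Fermat.Agent.TW.W.Kummer

set_option autoImplicit false
set_option linter.unusedSectionVars false
set_option linter.style.haveILetI false

noncomputable section

namespace Fermat.Agent.R38

open Fermat.Agent.PT Fermat.Agent.PT.B Fermat.Agent.TW.L Fermat.Agent.TW.W Fermat.Agent.W1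
  ExtCitation GaloisRep

section Norm

variable (p : ℕ) [Fact p.Prime]

theorem r38ep_norm_p : ‖(p : PadicAlgCl p)‖ = (p : ℝ)⁻¹ := by
  rw [← map_natCast (algebraMap ℚ_[p] (PadicAlgCl p)), PadicAlgCl.norm_extends]
  exact Padic.norm_p

theorem r38ep_norm_p_lt_one : ‖(p : PadicAlgCl p)‖ < 1 := by
  rw [r38ep_norm_p]
  exact inv_lt_one_of_one_lt₀ (by exact_mod_cast (Fact.out : p.Prime).one_lt)

theorem r38ep_p_ne_zero : (p : PadicAlgCl p) ≠ 0 := by
  intro h
  have := r38ep_norm_p p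
  rw [h, norm_zero] at this
  have hp : (0 : ℝ) < (p : ℝ)⁻¹ := inv_pos.2 (by exact_mod_cast (Fact.out : p.Prime).pos)
  linarith

variable {p}

theorem r38ep_norm_one_add {z : PadicAlgCl p} (hz : ‖z‖ < 1) : ‖1 + z‖ = 1 := by
  apply le_antisymm
  · have := wgr_norm_add_le p 1 z
    rw [norm_one] at this
    exact this.trans (max_le le_rfl hz.le)
  · by_contra hlt
    rw [not_le] at hlt
    have h1 : (1 : PadicAlgCl p) = (1 + z) - z := by ring
    have h2 := wgr_norm_sub_le p (1 + z) z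
    rw [← h1, norm_one] at h2
    have h3 : max ‖1 + z‖ ‖z‖ < 1 := max_lt hlt hz
    linarith

/-- `τ ζ = ζ ⇒ ω τ = 1` -/
theorem r38ep_omega_of_fix {ζ : PadicAlgCl p} (hζ1 : ζ ≠ 1) (hζp : ζ ^ p = 1) {τ : GQq p}
    (hτ : τ ζ = ζ) : gbOmega p τ = 1 := by
  haveI : Fact (1 < p) := ⟨(Fact.out : p.Prime).one_lt⟩
  have h := twk_omega_spec p hζp τ
  rw [hτ] at h
  have h2 : ζ ^ (((gbOmega p τ : (ZMod p)ˣ) : ZMod p)).val = ζ ^ ((1 : ZMod p)).val := by
    rw [← h, ZMod.val_one, pow_one]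
  have h3 := wgr_zeta_pow_val_inj hζ1 hζp _ _ h2
  exact Units.ext h3

end Norm

section Dict

variable {p : ℕ} [Fact p.Prime] {M : Type} [AddCommGroup M] [DistribMulAction GQ M]

/-- elements of the peu subgroup fix the `p`-th roots of unity -/
theorem r38ep_peu_fix_root {σ : GQ} (hσ : σ ∈ peuSubgroup (padicPlace p) p) {y : Qb}
    (hy : y ^ p = 1) : σ y = y := by
  refine hσ.2 y ?_ ?_ ?_
  · rw [hy]
    exact one_mem _
  · rw [hy, inv_one]
    exact one_mem _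
  · intro τ _
    rw [hy, map_one]

theorem r38ep_peu_cycloChar {σ : GQ} (hσ : σ ∈ peuSubgroup (padicPlace p) p) :
    cycloChar p σ = 1 := by
  rw [cycloChar_eq_one_iff, mem_fixingSubgroup_cycloField_iff]
  intro x hx
  exact r38ep_peu_fix_root hσ hx

/-- **DICT** -/
theorem r38ep_dict (hT : StmtEPTeich) (hV : StmtEPVal) (hR : StmtEPRoot)
    (hω : R38EPHyp p (M := M)) (T : IntermediateField ℚ_[p] (PadicAlgCl p))
    (hTN : T.fixingSubgroup = r38epN p M) (σ : GQ) (hσ : σ ∈ peuSubgroup (padicPlace p) p) :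
    ∃ τ ∈ lvN p T, localGaloisToGlobal p τ = σ := by
  have hp : p.Prime := Fact.out
  haveI : NeZero p := ⟨hp.ne_zero⟩
  obtain ⟨τ, hτI, hτσ⟩ := r38ep_inertia_lift p σ hσ.1
  refine ⟨τ, ?_, hτσ⟩
  -- the root of unity
  obtain ⟨ζ₀, hζ₀⟩ := cycloField_exists_primitiveRoot p
  have hinj : Function.Injective (padicEmbedding p) := (padicEmbedding p).toRingHom.injective
  set ζ : PadicAlgCl p := padicEmbedding p ζ₀ with hζdef
  have hζ1 : ζ ≠ 1 := by
    intro h
    have h1 : ζ₀ = 1 := hinj (by rw [← hζdef, h, map_one])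
    exact hζ₀.ne_one hp.one_lt h1
  have hζp : ζ ^ p = 1 := by
    rw [hζdef, ← map_pow, hζ₀.pow_eq_one, map_one]
  have hτω : gbOmega p τ = 1 := by
    rw [gbOmega_apply, hτσ]
    exact r38ep_peu_cycloChar hσ
  have hτζ : τ ζ = ζ := by
    rw [hζdef, ← padicEmbedding_localGaloisToGlobal, hτσ,
      r38ep_peu_fix_root hσ hζ₀.pow_eq_one]
  have hτN : τ ∈ r38epN p M := r38ep_inertia_mem_N hω hτI hτω
  have hτT : τ ∈ T.fixingSubgroup := by rwa [hTN]
  refine ⟨hτT, fun α hαT hαn => ?_⟩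
  have hp0 := r38ep_p_ne_zero p
  have hp1 := r38ep_norm_p_lt_one p
  have hpn0 : ‖(p : PadicAlgCl p)‖ ≠ 0 := norm_ne_zero_iff.2 hp0
  -- `x`
  set x : PadicAlgCl p := (α ^ p - 1) / (p : PadicAlgCl p) with hx
  have hxT : x ∈ T := div_mem (sub_mem hαT (one_mem _)) (natCast_mem _ p)
  have hx1 : ‖x‖ ≤ 1 := by
    rw [hx, norm_div]
    exact div_le_one_of_le₀ hαn (norm_nonneg _)
  have hαx : α ^ p = 1 + (p : PadicAlgCl p) * x := by
    rw [hx, mul_div_cancel₀ _ hp0]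
    ring
  obtain ⟨b₀, hb₀1, hb₀I, hxb⟩ := hT p x hx1
  set b : PadicAlgCl p := padicEmbedding p b₀ with hb
  have hpb : ‖(p : PadicAlgCl p) * b‖ < 1 := by
    rw [norm_mul]
    calc ‖(p : PadicAlgCl p)‖ * ‖b‖ ≤ ‖(p : PadicAlgCl p)‖ * 1 :=
          mul_le_mul_of_nonneg_left hb₀1 (norm_nonneg _)
      _ < 1 := by rw [mul_one]; exact hp1
  have hu1 : ‖1 + (p : PadicAlgCl p) * b‖ = 1 := r38ep_norm_one_add hpb
  have hu0 : 1 + (p : PadicAlgCl p) * b ≠ 0 := by
    intro h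
    rw [h, norm_zero] at hu1
    exact zero_ne_one hu1
  -- `y`
  set y : PadicAlgCl p := (x - b) / (1 + (p : PadicAlgCl p) * b) with hy
  have hy1 : ‖y‖ < 1 := by
    rw [hy, norm_div, hu1, div_one]
    exact hxb
  have hyfix : ∀ γ ∈ inertiaQ p, γ ζ = ζ → γ y = y := by
    intro γ hγ hγζ
    have hγN : γ ∈ r38epN p M :=
      r38ep_inertia_mem_N hω hγ (r38ep_omega_of_fix hζ1 hζp hγζ)
    have hγT : γ ∈ T.fixingSubgroup := by rwa [hTN]
    have hγx : γ x = x := (IntermediateField.mem_fixingSubgroup_iff T γ).1 hγT x hxT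
    have hγb : γ b = b := by
      rw [hb, ← padicEmbedding_localGaloisToGlobal, hb₀I _ ((mem_inertiaQ p γ).1 hγ)]
    rw [hy, map_div₀, map_sub, map_add, map_one, map_mul, map_natCast, hγx, hγb]
  have hyζ : ‖y‖ ≤ ‖ζ - 1‖ := hV p ζ y hζ1 hζp hyfix hy1
  -- the root of `1 + p b₀`
  obtain ⟨a₀, ha₀⟩ := IsAlgClosed.exists_pow_nat_eq (1 + (p : Qb) * b₀) hp.pos
  have hιa : padicEmbedding p a₀ ^ p = 1 + (p : PadicAlgCl p) * b := by
    rw [← map_pow, ha₀, map_add, map_one, map_mul, map_natCast]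
  have hσa : σ a₀ = a₀ := by
    refine hσ.2 a₀ ?_ ?_ ?_
    · rw [mem_padicPlace_iff, map_pow, hιa]
      have : ‖1 + (p : PadicAlgCl p) * b‖₊ = 1 := by
        ext
        exact hu1
      rw [this]
    · rw [mem_padicPlace_iff, map_inv₀, map_pow, hιa, nnnorm_inv]
      have : ‖1 + (p : PadicAlgCl p) * b‖₊ = 1 := by
        ext
        exact hu1
      rw [this, inv_one]
    · intro g hg
      rw [ha₀, map_add, map_one, map_mul, map_natCast, hb₀I g hg]
  have hτa : τ (padicEmbedding p a₀) = padicEmbedding p a₀ := by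
    rw [← padicEmbedding_localGaloisToGlobal, hτσ, hσa]
  have hιa0 : padicEmbedding p a₀ ≠ 0 := by
    intro h
    rw [h, zero_pow hp.ne_zero] at hιa
    exact hu0 hιa.symm
  -- `t`
  set t : PadicAlgCl p := α / padicEmbedding p a₀ with ht
  have htp : t ^ p = 1 + (p : PadicAlgCl p) * y := by
    rw [ht, div_pow, hιa, hαx, hy]
    field_simp
    ring
  have hτy : τ y = y := hyfix τ hτI hτζ
  have hτt : τ t = t := hR p ζ y t τ hζ1 hζp hτI hτζ hτy hyζ htp
  have hα : α = t * padicEmbedding p a₀ := by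
    rw [ht, div_mul_cancel₀ _ hιa0]
  rw [hα, map_mul, hτt, hτa]

end Dict

end Fermat.Agent.R38
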