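/-
ROW 38, piece R38-EPEU (helper64), part 2: `τ ^ (p - 1) ∈ N` when `|C| = p = |M/C|`.
-/
import Fermat.Agent.R38.EPeuCore

set_option autoImplicit false
set_option linter.unusedSectionVars false
set_option linter.style.haveILetI false

noncomputable section

namespace Fermat.Agent.R38

open Fermat.Agent.PT Fermat.Agent.PT.B Fermat.Agent.TW.L Fermat.Agent.TW.W Fermat.Agent.W1
  ExtCitation GaloisRep

/-- an injective endomorphism of a group of prime order `p` has order dividing `p - 1` -/
theorem r38ep_end_pow {X : Type} [AddCommGroup X] {p : ℕ} [Fact p.Prime] (hX : Nat.card X = p)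
    (φ : X →+ X) (hφ : Function.Injective φ) (x : X) : φ^[p - 1] x = x := by
  classical
  have hp : p.Prime := Fact.out
  haveI : Finite X := Nat.finite_of_card_ne_zero (by rw [hX]; exact hp.ne_zero)
  haveI : Nontrivial X := Finite.one_lt_card_iff_nontrivial.1 (by rw [hX]; exact hp.one_lt)
  obtain ⟨x₀, hx₀⟩ := exists_ne (0 : X)
  have htop : AddSubgroup.zmultiples x₀ = ⊤ := zmultiples_eq_top_of_prime_card hX hx₀
  have hpx : ∀ y : X, p • y = 0 := fun y => by
    rw [← hX]
    exact card_nsmul_eq_zero'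
  have hmem : ∀ y : X, y ∈ AddSubgroup.zmultiples x₀ := fun y => by
    rw [htop]
    exact AddSubgroup.mem_top y
  obtain ⟨a, ha⟩ := AddSubgroup.mem_zmultiples_iff.1 (hmem (φ x₀))
  have hφa : ∀ y, φ y = a • y := by
    intro y
    obtain ⟨k, rfl⟩ := AddSubgroup.mem_zmultiples_iff.1 (hmem y)
    rw [map_zsmul, ← ha, smul_comm]
  have hiter : ∀ n : ℕ, ∀ y, φ^[n] y = (a ^ n) • y := by
    intro n
    induction n with
    | zero =>
      intro y
      rw [Function.iterate_zero, id, pow_zero, one_smul]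
    | succ n ih =>
      intro y
      rw [Function.iterate_succ_apply', ih, hφa, smul_smul, pow_succ, mul_comm]
  have hndvd : ¬ (p : ℤ) ∣ a := by
    rintro ⟨b, rfl⟩
    have h0 : φ x₀ = 0 := by
      rw [← ha, mul_smul, natCast_zsmul, hpx]
    exact hx₀ (hφ (h0.trans (map_zero φ).symm))
  have hcop : IsCoprime a (p : ℤ) :=
    (IsCoprime.symm ((Prime.coprime_iff_not_dvd (Nat.prime_iff_prime_int.mp hp)).2 hndvd))
  have hmod := Int.ModEq.pow_card_sub_one_eq_one hp hcop
  obtain ⟨k, hk⟩ := Int.modEq_iff_dvd.1 hmod.symm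
  have e : a ^ (p - 1) = 1 + (p : ℤ) * k := by linarith
  rw [hiter, e, add_smul, one_smul, mul_smul, natCast_zsmul, hpx, add_zero]

section Pow

variable {p : ℕ} [Fact p.Prime] {M : Type} [AddCommGroup M] [DistribMulAction GQ M]

/-- the action of `γ ∈ G_p` on `C` -/
def r38epEndC (γ : GQq p) : r38epC p M →+ r38epC p M :=
  AddMonoidHom.mk' (fun c => ⟨localGaloisToGlobal p γ • (c : M), r38ep_C_stable p γ c.2⟩)
    (fun _ _ => Subtype.ext (smul_add _ _ _))

theorem r38epEndC_iterate (γ : GQq p) (n : ℕ) (c : r38epC p M) :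
    (((r38epEndC γ)^[n] c : r38epC p M) : M) = localGaloisToGlobal p (γ ^ n) • (c : M) := by
  induction n with
  | zero => rw [Function.iterate_zero, id, pow_zero, map_one, one_smul]
  | succ n ih =>
    rw [Function.iterate_succ_apply', pow_succ', map_mul, mul_smul, ← ih]
    rfl

theorem r38epEndC_injective (γ : GQq p) : Function.Injective (r38epEndC (M := M) γ) := by
  intro a b hab
  have h := congrArg Subtype.val hab
  have h' : localGaloisToGlobal p γ • (a : M) = localGaloisToGlobal p γ • (b : M) := h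
  exact Subtype.ext (smul_left_cancel _ h')

/-- `τ ^ (p - 1)` acts trivially on `C` -/
theorem r38ep_pow_fix_C (hcard : Nat.card (r38epC p M) = p) (τ : GQq p) {c : M}
    (hc : c ∈ r38epC p M) : localGaloisToGlobal p (τ ^ (p - 1)) • c = c := by
  have h := r38ep_end_pow hcard (r38epEndC τ) (r38epEndC_injective τ) ⟨c, hc⟩
  have h2 := r38epEndC_iterate τ (p - 1) (⟨c, hc⟩ : r38epC p M)
  rw [h] at h2
  exact h2.symm

/-- the action of `γ ∈ G_p` on `M/C` -/
def r38epEndQ (γ : GQq p) : (M ⧸ r38epC p M) →+ (M ⧸ r38epC p M) :=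
  QuotientAddGroup.map (r38epC p M) (r38epC p M)
    (DistribSMul.toAddMonoidHom M (localGaloisToGlobal p γ))
    (fun _ hc => r38ep_C_stable p γ hc)

theorem r38epEndQ_mk (γ : GQq p) (m : M) :
    r38epEndQ γ (QuotientAddGroup.mk m) =
      QuotientAddGroup.mk (localGaloisToGlobal p γ • m) := rfl

theorem r38epEndQ_iterate (γ : GQq p) (n : ℕ) (m : M) :
    (r38epEndQ γ)^[n] (QuotientAddGroup.mk m) =
      (QuotientAddGroup.mk (localGaloisToGlobal p (γ ^ n) • m) : M ⧸ r38epC p M) := by
  induction n with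
  | zero => rw [Function.iterate_zero, id, pow_zero, map_one, one_smul]
  | succ n ih =>
    rw [Function.iterate_succ_apply', ih, r38epEndQ_mk, pow_succ', map_mul, mul_smul]

theorem r38epEndQ_injective (γ : GQq p) : Function.Injective (r38epEndQ (M := M) γ) := by
  rw [injective_iff_map_eq_zero]
  intro a ha
  obtain ⟨m, rfl⟩ := QuotientAddGroup.mk_surjective a
  rw [r38epEndQ_mk, QuotientAddGroup.eq_zero_iff] at ha
  rw [QuotientAddGroup.eq_zero_iff]
  have h := r38ep_C_stable p γ⁻¹ ha
  rwa [map_inv, inv_smul_smul] at h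

/-- `τ ^ (p - 1)` acts trivially on `M/C` -/
theorem r38ep_pow_fix_Q (hidx : (r38epC p M).index = p) (τ : GQq p) (m : M) :
    localGaloisToGlobal p (τ ^ (p - 1)) • m - m ∈ r38epC p M := by
  have h := r38ep_end_pow (X := M ⧸ r38epC p M) hidx (r38epEndQ τ) (r38epEndQ_injective τ)
    (QuotientAddGroup.mk m)
  rw [r38epEndQ_iterate] at h
  rw [← QuotientAddGroup.eq_zero_iff, QuotientAddGroup.mk_sub, h, sub_self]

/-- `τ ^ (p - 1) ∈ N` -/
theorem r38ep_pow_mem_N (hcard : Nat.card (r38epC p M) = p) (hidx : (r38epC p M).index = p)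
    (τ : GQq p) : τ ^ (p - 1) ∈ r38epN p M := by
  refine ⟨?_, fun c hc => r38ep_pow_fix_C hcard τ hc, fun m => r38ep_pow_fix_Q hidx τ m⟩
  rw [map_pow]
  exact ZMod.units_pow_card_sub_one_eq_one p _

end Pow

end Fermat.Agent.R38
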