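/-
ROW 38, piece R38-EPEU (helper64), part 3: application of `TW.W.stmtLev`:
`𝒩_T` acts trivially on `M` when `G_T = N`.
-/
import Fermat.Agent.R38.EPeuPow
import Fermat.Agent.TW.W.Lev

set_option autoImplicit false
set_option linter.unusedSectionVars false
set_option linter.style.haveILetI false

noncomputable section

namespace Fermat.Agent.R38

open Fermat.Agent.PT Fermat.Agent.PT.B Fermat.Agent.TW.L Fermat.Agent.TW.W Fermat.Agent.W1
  ExtCitation GaloisRep

/-- a group of prime order `p` embeds additively into `ZMod p` -/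
theorem r38ep_exists_coord {X : Type} [AddCommGroup X] {p : ℕ} [Fact p.Prime]
    (hX : Nat.card X = p) : ∃ e : X →+ ZMod p, Function.Injective e := by
  have hcyc : IsAddCyclic X := isAddCyclic_of_prime_card hX
  let f : X ≃+ ZMod (Nat.card X) := (zmodAddCyclicAddEquiv hcyc).symm
  let g : ZMod (Nat.card X) ≃+ ZMod p := (ZMod.ringEquivCongr hX).toAddEquiv
  exact ⟨(f.trans g).toAddMonoidHom, (f.trans g).injective⟩

section Lev

variable {p : ℕ} [Fact p.Prime] {M : Type} [AddCommGroup M] [DistribMulAction GQ M] [Finite M]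

/-- **`𝒩_T` acts trivially on `M`** -/
theorem r38ep_lvN_trivial (hp2 : p ≠ 2)
    (H : Subalgebra (ratLocalizedAt p) (M → AlgebraicClosure ℚ))
    (hH : IsHopfLattice (ratLocalizedAt p) (r38epAct M) H) (hpM : ∀ m : M, p • m = 0)
    (hcard : Nat.card (r38epC p M) = p) (T : IntermediateField ℚ_[p] (PadicAlgCl p))
    (hT : IsGoodField p T) (hTN : T.fixingSubgroup = r38epN p M) :
    ∀ τ ∈ lvN p T, ∀ x : M, localGaloisToGlobal p τ • x = x := by
  classical
  intro τ hτ x
  obtain ⟨e, he⟩ := r38ep_exists_coord hcard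
  let χ : GQq p → ZMod p := fun γ =>
    if h : localGaloisToGlobal p γ • x - x ∈ r38epC p M then
      e ⟨localGaloisToGlobal p γ • x - x, h⟩ else 0
  have hmemN : ∀ γ ∈ T.fixingSubgroup, γ ∈ r38epN p M := fun γ hγ => by rwa [hTN] at hγ
  have hχ : IsHomOn p T χ := by
    intro σ γ hσ hγ
    have hσN := hmemN σ hσ
    have hγN := hmemN γ hγ
    have h1 := hσN.2.2 x
    have h2 := hγN.2.2 x
    have h3 := (hmemN (σ * γ) (mul_mem hσ hγ)).2.2 x
    have e1 : localGaloisToGlobal p (σ * γ) • x - x =
        (localGaloisToGlobal p σ • x - x) + (localGaloisToGlobal p γ • x - x) := by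
      have e2 : localGaloisToGlobal p (σ * γ) • x - x =
          (localGaloisToGlobal p σ • (localGaloisToGlobal p γ • x - x)) +
            (localGaloisToGlobal p σ • x - x) := by
        rw [map_mul, mul_smul, smul_sub]
        abel
      rw [e2, hσN.2.1 _ h2]
      abel
    show χ (σ * γ) = χ σ + χ γ
    simp only [χ, dif_pos h1, dif_pos h2, dif_pos h3]
    rw [← map_add]
    congr 1
    exact Subtype.ext e1
  have hχM : ∀ σ ∈ T.fixingSubgroup,
      (∀ m : M, r38epAct M (localGaloisToGlobal p σ) m = m) → χ σ = 0 := by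
    intro σ _ hσM
    have h0 : localGaloisToGlobal p σ • x - x = 0 := by
      have := hσM x
      unfold r38epAct at this
      rw [this, sub_self]
    have hmem : localGaloisToGlobal p σ • x - x ∈ r38epC p M := by
      rw [h0]
      exact zero_mem _
    show χ σ = 0
    simp only [χ, dif_pos hmem]
    have : (⟨localGaloisToGlobal p σ • x - x, hmem⟩ : r38epC p M) = 0 := Subtype.ext h0
    rw [this, map_zero]
  have hz := stmtLev p hp2 M (r38epAct M) H hH hpM T hT χ hχ hχM τ hτ
  have hτN := hmemN τ (lvN_le p T hτ)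
  have hmem := hτN.2.2 x
  have hz' : e ⟨localGaloisToGlobal p τ • x - x, hmem⟩ = 0 := by
    have : χ τ = e ⟨localGaloisToGlobal p τ • x - x, hmem⟩ := by
      simp only [χ, dif_pos hmem]
    rw [← this]
    exact hz
  have h0 : (⟨localGaloisToGlobal p τ • x - x, hmem⟩ : r38epC p M) = 0 :=
    he (hz'.trans (map_zero e).symm)
  have h1 : localGaloisToGlobal p τ • x - x = 0 := congrArg Subtype.val h0
  exact sub_eq_zero.1 h1

end Lev

end Fermat.Agent.R38
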