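/-
ROW 38, piece R38-EPEU (helper64), part 5: ASSEMBLY.

`stmtEPeu_of : StmtEPTeich → StmtEPVal → StmtEPRoot → StmtEPGood → StmtEPeu`.
-/
import Fermat.Agent.R38.EPeuLev
import Fermat.Agent.R38.EPeuDict
import Fermat.Agent.EC.Flat.Final
import Fermat.Agent.RED.ModelTrace
import Fermat.Agent.TW.S.ConjPlaces

set_option autoImplicit false
set_option linter.unusedSectionVars false
set_option linter.style.haveILetI false

noncomputable section

namespace Fermat.Agent.R38

open Fermat.Agent.PT Fermat.Agent.PT.B Fermat.Agent.TW.L Fermat.Agent.TW.W Fermat.Agent.W1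
  ExtCitation GaloisRep
open scoped Pointwise

section Core

variable {p : ℕ} [Fact p.Prime] {M : Type} [AddCommGroup M] [DistribMulAction GQ M] [Finite M]

/-- **(EPEU) at `padicPlace p`**, abstract form. -/
theorem r38ep_core (hp2 : p ≠ 2) (hT : StmtEPTeich) (hV : StmtEPVal) (hR : StmtEPRoot)
    (hG : StmtEPGood) (H : Subalgebra (ratLocalizedAt p) (M → AlgebraicClosure ℚ))
    (hH : IsHopfLattice (ratLocalizedAt p) (r38epAct M) H) (hpM : ∀ m : M, p • m = 0)
    (hcardM : Nat.card M = p ^ 2) (hω : R38EPHyp p (M := M)) :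
    ∀ σ ∈ peuSubgroup (padicPlace p) p, ∀ x : M, σ • x = x := by
  intro σ hσ x
  have hp : p.Prime := Fact.out
  have hσI : σ ∈ (padicPlace p).inertiaSubgroupIn ℚ := hσ.1
  have hσC : ∀ c ∈ r38epC p M, σ • c = c := by
    intro c hc
    rw [r38ep_act_C hω hσI hc, r38ep_cycloExp_eq_one (r38ep_peu_cycloChar hσ), one_smul]
  have hmul := AddSubgroup.card_mul_index (r38epC p M)
  rw [hcardM] at hmul
  have hdvd : Nat.card (r38epC p M) ∣ p ^ 2 := Dvd.intro _ hmul
  obtain ⟨k, hk, hCk⟩ := (Nat.dvd_prime_pow hp).1 hdvd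
  have hk3 : k = 0 ∨ k = 1 ∨ k = 2 := by omega
  rcases hk3 with rfl | rfl | rfl
  · -- `C = 0`
    rw [pow_zero] at hCk
    have hbot : r38epC p M = ⊥ := (AddSubgroup.card_eq_one).1 hCk
    have h := r38ep_sub_mem_C p hσI x
    rw [hbot, AddSubgroup.mem_bot] at h
    exact sub_eq_zero.1 h
  · -- `|C| = p`
    rw [pow_one] at hCk
    have hidx : (r38epC p M).index = p := by
      rw [hCk] at hmul
      have h2 : p * (r38epC p M).index = p * p := by rw [hmul, sq]
      exact Nat.eq_of_mul_eq_mul_left hp.pos h2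
    obtain ⟨T, hTgood, hTN⟩ := hG p (r38epN p M) inferInstance (r38ep_exists_le H hH)
      (r38ep_pow_mem_N hCk hidx) (fun τ hτ => hτ.1)
    obtain ⟨τ, hτ, rfl⟩ := r38ep_dict hT hV hR hω T hTN σ hσ
    exact r38ep_lvN_trivial hp2 H hH hpM hCk T hTgood hTN τ hτ x
  · -- `C = M`
    have htop : r38epC p M = ⊤ := by
      apply AddSubgroup.eq_top_of_card_eq
      rw [hCk, hcardM]
    exact hσC x (by rw [htop]; exact AddSubgroup.mem_top x)

end Core

section Conj

variable {p : ℕ} [Fact p.Prime]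

/-- conjugation of the peu subgroup -/
theorem r38ep_conj_mem_peu (P : ValuationSubring Qb) (g σ : GQ)
    (hσ : σ ∈ peuSubgroup (g • P) p) : g⁻¹ * σ * g ∈ peuSubgroup P p := by
  obtain ⟨hσI, hσy⟩ := hσ
  refine ⟨?_, fun y h1 h2 h3 => ?_⟩
  · have h := conj_mem_inertiaSubgroupIn (g • P) g⁻¹ σ hσI
    rwa [inv_smul_smul, inv_inv] at h
  · have hgy : σ (g y) = g y := by
      refine hσy (g y) ?_ ?_ ?_
      · rw [← map_pow, mem_smul_valuationSubring_iff]
        have : g⁻¹ (g (y ^ p)) = y ^ p := g.symm_apply_apply _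
        rw [this]
        exact h1
      · rw [← map_pow, ← map_inv₀, mem_smul_valuationSubring_iff]
        have : g⁻¹ (g (y ^ p)⁻¹) = (y ^ p)⁻¹ := g.symm_apply_apply _
        rw [this]
        exact h2
      · intro τ hτ
        have hτ' := conj_mem_inertiaSubgroupIn (g • P) g⁻¹ τ hτ
        rw [inv_smul_smul, inv_inv] at hτ'
        have h := h3 _ hτ'
        have e : (g⁻¹ * τ * g) (y ^ p) = g⁻¹ (τ (g (y ^ p))) := rfl
        rw [e] at h
        have h' := congrArg g h
        have e2 : g (g⁻¹ (τ (g (y ^ p)))) = τ (g (y ^ p)) := g.apply_symm_apply _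
        rw [e2] at h'
        rw [← map_pow]
        exact h'
    show g⁻¹ (σ (g y)) = y
    rw [hgy]
    exact g.symm_apply_apply y

theorem r38ep_cycloExp_conj (g τ : GQ) : cycloExp p (g * τ * g⁻¹) = cycloExp p τ := by
  rw [← val_cycloChar, ← val_cycloChar, map_mul, map_mul, map_inv, mul_comm, inv_mul_cancel_left]

end Conj

/-- **R38-EPEU** from the four local statements. -/
theorem stmtEPeu_of (hT : StmtEPTeich) (hV : StmtEPVal) (hR : StmtEPRoot) (hG : StmtEPGood) :
    StmtEPeu := by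
  intro W hΔ p hpf hp2 hgood hirr A hA hωA σ hσ x
  classical
  have hp : p.Prime := hpf.out
  -- the Hopf lattice of `E[p]`
  obtain ⟨A₀, hA₀⟩ := Fermat.Agent.Common.exists_liesOverPrime p hp
  have hfin := Fermat.Agent.EC.ecflat_finite_torsionBy W hΔ hp.ne_zero
  have hcont := Fermat.Agent.EC.ecflat_isContAction W hΔ hp.ne_zero
  obtain ⟨Ht, hHt⟩ := chartToLocalStatement p hp A₀ hA₀ _ inferInstance inferInstance
    (Fermat.Agent.EC.ecflatJ1 W A₀ hA₀ hgood) 1 (Fermat.Agent.EC.ecflatZ W)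
    (Fermat.Agent.EC.ecflat_kernelChart W A₀ hA₀ hgood) p hp.pos hfin hcont
  obtain ⟨H, hH⟩ := localToGlobalStatement p hp A₀ hA₀ _ inferInstance hfin _ hcont Ht hHt
  haveI : Finite (ETors W p) := hfin
  have hH' : IsHopfLattice (ratLocalizedAt p) (r38epAct (ETors W p)) H := hH
  have hpM : ∀ m : ETors W p, p • m = 0 := by
    intro m
    have h := Submodule.smul_torsionBy ((p : ℕ) : ℤ) m
    rwa [natCast_zsmul] at h
  have hcardM : Nat.card (ETors W p) = p ^ 2 := Fermat.Agent.RED.card_torsQbar W hΔ hp.ne_zero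
  -- conjugation to `padicPlace p`
  obtain ⟨g, hg⟩ := Fermat.Agent.TW.S.sconjp_exists_smul_eq p hp (padicPlace p) A
    (lfrobex_liesOverPrime p) hA
  subst hg
  have hω : R38EPHyp p (M := ETors W p) := by
    intro σ₁ hσ₁ τ₁ hτ₁ y
    have h1 := conj_mem_inertiaSubgroupIn (padicPlace p) g σ₁ hσ₁
    have h2 := conj_mem_inertiaSubgroupIn (padicPlace p) g τ₁ hτ₁
    have h := hωA _ h1 _ h2 (g • y)
    rw [r38ep_cycloExp_conj] at h
    have e1 : (g * σ₁ * g⁻¹) • (g • y) - g • y = g • (σ₁ • y - y) := by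
      rw [mul_smul, mul_smul, inv_smul_smul, smul_sub]
    rw [e1, mul_smul, mul_smul, inv_smul_smul] at h
    have e2 : cycloExp p τ₁ • g • (σ₁ • y - y) = g • (cycloExp p τ₁ • (σ₁ • y - y)) := by
      rw [smul_comm]
    rw [e2] at h
    exact smul_left_cancel g h
  have hmain := r38ep_core hp2 hT hV hR hG H hH' hpM hcardM hω (g⁻¹ * σ * g)
    (r38ep_conj_mem_peu (padicPlace p) g σ hσ) (g⁻¹ • x)
  rw [mul_smul, mul_smul, smul_inv_smul] at hmain
  exact smul_left_cancel g⁻¹ hmain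

end Fermat.Agent.R38
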