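/-
ROW 38, piece R38-EPEU (helper64): FINAL.

`stmtEPeu : StmtEPeu` — good reduction at `p` and inertia acting through `ω` on the inertia span
of `E[p]` ⇒ the peu ramifié subgroup acts trivially on `E[p]`.
Inputs: `TW.W.stmtLev` (Fontaine's bound, Kummer form), the Hopf lattice of `E[p]` (EC flat),
(TEICH) helper22/helper57/helper78, (VAL) + (ROOT) helper65, (GOOD) helper74.
-/
import Fermat.Agent.R38.EPeu
import Fermat.Agent.R38.EPTeich
import Fermat.Agent.R38.EPVal
import Fermat.Agent.R38.EPRoot
import Fermat.Agent.R38.EPGood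

set_option autoImplicit false

namespace Fermat.Agent.R38

/-- **R38-EPEU**. -/
theorem stmtEPeu : StmtEPeu := stmtEPeu_of stmtEPTeich stmtEPVal stmtEPRoot stmtEPGood

end Fermat.Agent.R38
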