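/-
ROW 38, piece R38-GLUE (helper44): Mazur's argument on top of the pieces of `R38/Plan.lean`.
* `atPCore_of_data`, `stmtCoreOfPkg : StmtCoreOfPkg`
* `stmtGlue : StmtGlue`
-/
import Fermat.Agent.R38.Plan
import Fermat.Agent.RED.ModelTrace
import Fermat.Agent.Common.FrobProfinite

set_option autoImplicit false

noncomputable section

namespace Fermat.Agent.R38

open ModularCurve Fermat.Agent.ES ExtCitation
open scoped WeierstrassCurve.Affine

/-! ### Small algebra -/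

/-- `n • y = 0`, `p • y = 0`, `p ∤ n` (`p` prime) ⇒ `y = 0`. -/
theorem glue_eq_zero_of_coprime {G : Type*} [AddCommGroup G] {p : ℕ} (hp : p.Prime) {n : ℤ}
    (hn : ¬ (p : ℤ) ∣ n) {y : G} (h1 : n • y = 0) (h2 : p • y = 0) : y = 0 := by
  have hcop : IsCoprime n (p : ℤ) := by
    rw [isCoprime_comm]
    exact (Nat.prime_iff_prime_int.1 hp).coprime_iff_not_dvd.2 hn
  obtain ⟨u, v, huv⟩ := hcop
  have h2' : (p : ℤ) • y = 0 := by
    rw [natCast_zsmul]; exact h2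
  calc y = (1 : ℤ) • y := (one_smul _ _).symm
    _ = (u * n + v * p) • y := by rw [huv]
    _ = u • n • y + v • (p : ℤ) • y := by rw [add_smul, mul_smul, mul_smul]
    _ = 0 := by rw [h1, h2', smul_zero, smul_zero, add_zero]

/-- On a subgroup on which the `T_ℓ` (`ℓ ∈ S`) act through the integers `a ℓ`, every polynomial
in these `T_ℓ` acts through its value at `a`. -/
theorem glue_poly_eigen {J : Type*} [AddCommGroup J] [Module HeckeAlg J] (V₀ : AddSubgroup J)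
    (S : Set Nat.Primes) (a : Nat.Primes → ℤ)
    (h : ∀ x ∈ V₀, ∀ ℓ ∈ S, heckeGen ℓ • x = a ℓ • x) :
    ∀ t ∈ MvPolynomial.supported ℤ S, ∀ x ∈ V₀, t • x = MvPolynomial.aeval a t • x := by
  intro t ht
  rw [MvPolynomial.supported, ] at ht
  induction ht using Algebra.adjoin_induction with
  | mem t ht =>
    obtain ⟨ℓ, hℓ, rfl⟩ := ht
    intro x hx
    rw [MvPolynomial.aeval_X]
    exact h x hx ℓ hℓ
  | algebraMap n =>
    intro x _
    rw [MvPolynomial.algebraMap_eq, MvPolynomial.aeval_C, ← MvPolynomial.algebraMap_eq,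
      algebraMap_smul]
    rfl
  | add t s _ _ iht ihs =>
    intro x hx
    rw [add_smul, iht x hx, ihs x hx, map_add, add_smul]
  | mul t s _ _ iht ihs =>
    intro x hx
    rw [mul_smul, ihs x hx, iht _ (V₀.zsmul_mem hx _), map_mul, mul_smul]

/-! ### `AtPData → AtPCore` -/

theorem atPCore_of_data {M p : ℕ} [NeZero M] [Fact p.Prime] {J : Type} [AddCommGroup J]
    [Module HeckeAlg J] [DistribMulAction GQ J] {Jold : Type} [AddCommGroup Jold]
    [Module HeckeAlg Jold] {π : J →+ Jold} (h : AtPData M p J Jold π) : AtPCore M p J := by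
  have hp : p.Prime := Fact.out
  refine ⟨h.es, ?_, ?_⟩
  · intro A hA x hx t₀ ht₀ hK n₀ hn₀ hpn₀ σ hσ τ hτ
    have hπp : p • π x = 0 := by rw [← map_nsmul, hx, map_zero]
    have h1 : n₀ • π x = 0 := by
      rw [← map_zsmul, ← hn₀, h.push_hecke t₀ ht₀ x]
      exact h.old_level t₀ ht₀ hK _ hπp
    exact h.toric A hA x hx (glue_eq_zero_of_coprime hp hpn₀ h1 hπp) σ hσ τ hτ
  · intro A hA x hx t₀ ht₀ hK n₀ hn₀ hpn₀ ℓ₁ hℓ₁ n₁ hn₁ hpn₁ hpeu τ hτ
    exact h.tres A hA x hx t₀ ht₀ (h.old_level t₀ ht₀ hK) n₀ hn₀ hpn₀ ℓ₁ hℓ₁ n₁ hn₁ hpn₁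
      hpeu τ hτ

theorem stmtCoreOfPkg : StmtCoreOfPkg := by
  intro h M p _ _ hp2 hpM
  obtain ⟨J, i1, i2, i3, Jold, i4, i5, π, hd⟩ := h M p hp2 hpM
  exact ⟨J, i1, i2, i3, atPCore_of_data hd⟩

/-! ### Mazur's argument -/

/-- the eigenform of `hmod` gives an eigen-vector in `J[p]` -/
theorem glue_exists_eigenvector (W : WeierstrassCurve ℤ) {M p : ℕ} {J : Type} [AddCommGroup J]
    [Module HeckeAlg J] [DistribMulAction GQ J] (hes : ESDataInf (M * p) p J)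
    (hmod : W.IsResiduallyModularOfLevel p (M * p)) :
    ∃ v : J, v ≠ 0 ∧ p • v = 0 ∧
      ∀ ℓ ∈ goodFor W M p, heckeGen ℓ • v = (W.apOfModel ℓ : ℤ) • v := by
  obtain ⟨f, 𝔪, hf, hm, hpm, hcong⟩ := hmod
  obtain ⟨v, hv0, hpv, hv⟩ := hes.supp f hf 𝔪 hm hpm
  refine ⟨v, hv0, hpv, fun ℓ hℓ => ?_⟩
  have hℓM : ¬ (ℓ : ℕ) ∣ M * p := fun h => hℓ.1 (Dvd.dvd.mul_right h p)
  have hℓp : (ℓ : ℕ) ≠ p := by
    intro h
    apply hℓ.1
    rw [h]
    exact dvd_mul_left _ _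
  obtain ⟨z, hz, hzm⟩ := hcong ℓ ℓ.2 hℓ.2 hℓM hℓp
  have h0 : (heckeGen ℓ - MvPolynomial.C (W.apOfModel ℓ)) • v = 0 := by
    refine hv _ ?_ ⟨_, hzm, ?_⟩
    · refine Subalgebra.sub_mem _ ?_ (Subalgebra.algebraMap_mem _ _)
      exact MvPolynomial.X_mem_supported.2 (goodFor_subset W M p hℓ)
    · rw [heckeValue, map_sub, aeval_heckeGen, MvPolynomial.aeval_C]
      push_cast
      rw [hz]
      simp
  rw [sub_smul, sub_eq_zero] at h0
  rw [h0, ← MvPolynomial.algebraMap_eq, algebraMap_smul]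

theorem stmtGlue : StmtGlue := by
  intro hLift hRep hEDet hEPeu hPkg W hΔ p hp hp2 hgood hirr M hM hpM hp2M hmod
  have : Fact p.Prime := ⟨hp⟩
  obtain ⟨M', rfl⟩ : ∃ M', M = M' * p := ⟨M / p, (Nat.div_mul_cancel hpM).symm⟩
  have hM' : 0 < M' := Nat.pos_of_ne_zero (by rintro rfl; simp at hM)
  have : NeZero M' := ⟨hM'.ne'⟩
  have hpM' : ¬ p ∣ M' := by
    rintro ⟨k, rfl⟩
    exact hp2M ⟨k, by ring⟩
  rw [Nat.mul_div_cancel _ hp.pos]
  by_cases hold : ∀ t ∈ MvPolynomial.supported ℤ (goodFor W M' p), KillsForms M' t →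
      (p : ℤ) ∣ MvPolynomial.aeval (fun ℓ : Nat.Primes => W.apOfModel ℓ) t
  · -- OLD case
    obtain ⟨g, 𝔪, hg, hm, hpm, hcong⟩ := hLift M' p hp (goodFor W M' p) _
      (fun ℓ hℓ h => hℓ.1 (Dvd.dvd.mul_right (Dvd.dvd.mul_right h p) p)) hold
    refine ⟨g, 𝔪, hg, hm, hpm, fun ℓ hℓ hgℓ hℓM hℓp => ?_⟩
    refine hcong ⟨ℓ, hℓ⟩ ⟨?_, hgℓ⟩
    intro h
    rcases (Nat.Prime.dvd_mul hℓ).1 h with h | h
    · rcases (Nat.Prime.dvd_mul hℓ).1 h with h | h
      · exact hℓM h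
      · exact hℓp ((Nat.prime_dvd_prime_iff_eq hℓ hp).1 h)
    · exact hℓp ((Nat.prime_dvd_prime_iff_eq hℓ hp).1 h)
  · -- NEW case
    exfalso
    push Not at hold
    obtain ⟨t₀, ht₀S, ht₀K, hn₀⟩ := hold
    obtain ⟨J, _, _, _, hJ⟩ := hPkg M' p hp2 hpM'
    obtain ⟨v, hv0, hpv, hv⟩ := glue_exists_eigenvector W hJ.es hmod
    obtain ⟨V₀, e, hV₀p, hV₀eig, hst, he⟩ := hRep W hΔ p hp hp2 hirr M' hM' J _ _ _ hJ.es v hv0 hpv hv
    have ht₀g : t₀ ∈ MvPolynomial.supported ℤ (goodPrimes (M' * p) p) :=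
      MvPolynomial.supported_mono (goodFor_subset W M' p) ht₀S
    have hpoly := glue_poly_eigen V₀ (goodFor W M' p) (fun ℓ : Nat.Primes => W.apOfModel ℓ)
      hV₀eig
    -- a place over `p`
    obtain ⟨A, hA⟩ := Fermat.Agent.Common.exists_liesOverPrime p hp
    -- `t₀` acts on `V₀` through the unit `n₀`
    set n₀ : ℤ := MvPolynomial.aeval (fun ℓ : Nat.Primes => W.apOfModel ℓ) t₀ with hn₀def
    -- the action on `E[p]` seen in `V₀`
    have he' : ∀ (σ : GQ) (x : V₀), (e.symm (σ • e x) : J) = σ • (x : J) := by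
      intro σ x
      have h := he σ x
      rw [← h, AddEquiv.symm_apply_apply]
    -- toric on `E[p]`
    have htorE : ∀ σ ∈ A.inertiaSubgroupIn ℚ, ∀ τ ∈ A.inertiaSubgroupIn ℚ, ∀ y : ETors W p,
        τ • (σ • y - y) = cycloExp p τ • (σ • y - y) := by
      intro σ hσ τ hτ y
      obtain ⟨x, rfl⟩ := e.surjective y
      have h1 := hJ.toric A hA x (hV₀p x x.2) t₀ ht₀g ht₀K n₀ (hpoly t₀ ht₀S x x.2) hn₀
        σ hσ τ hτ
      -- `σ • e x - e x = e ⟨σ • x - x, _⟩`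
      have hmem : σ • (x : J) - x ∈ V₀ := V₀.sub_mem (hst σ x x.2) x.2
      have h2 : σ • e x - e x = e ⟨σ • (x : J) - x, hmem⟩ := by
        rw [← he σ x, ← map_sub]
        rfl
      rw [h2, ← he τ ⟨_, hmem⟩, ← map_nsmul]
      congr 1
      exact Subtype.ext h1
    -- the peu ramifié subgroup fixes `V₀`
    have hpeuE := hEPeu W hΔ p hp2 hgood hirr A hA htorE
    have hpeuV : ∀ σ ∈ peuSubgroup A p, ∀ x ∈ V₀, σ • x = x := by
      intro σ hσ x hx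
      have h := hpeuE σ hσ (e ⟨x, hx⟩)
      rw [← he σ ⟨x, hx⟩] at h
      exact congrArg Subtype.val (e.injective h)
    -- a non-Eisenstein prime
    obtain ⟨ℓ, hℓ, hℓS, -, hℓp, hℓg, -, hℓE⟩ :=
      Fermat.Agent.RED.exists_prime_not_dvd_of_model W hΔ hp2 hirr (M' * p * p).primeFactors
        (M := 1) one_pos
    have hℓmem : (⟨ℓ, hℓ⟩ : Nat.Primes) ∈ goodFor W M' p := by
      refine ⟨fun h => hℓS ?_, hℓg⟩
      rw [Nat.mem_primeFactors]
      exact ⟨hℓ, h, (Nat.mul_pos (Nat.mul_pos hM' hp.pos) hp.pos).ne'⟩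
    -- très: inertia acts on `V₀` through `ω`
    have htresV : ∀ τ ∈ A.inertiaSubgroupIn ℚ, ∀ x ∈ V₀, τ • x = cycloExp p τ • x := by
      intro τ hτ x hx
      exact hJ.tres A hA x (hV₀p x hx) t₀ ht₀g ht₀K n₀ (hpoly t₀ ht₀S x hx) hn₀
        ⟨ℓ, hℓ⟩ (goodFor_subset W M' p hℓmem) (W.apOfModel ℓ) (hV₀eig x hx _ hℓmem) hℓE
        (fun σ hσ => hpeuV σ hσ x hx) τ hτ
    -- contradiction with the determinant
    obtain ⟨σ, hσ, y, hy⟩ := hEDet W hΔ p hp2 hirr A hA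
    apply hy
    obtain ⟨x, rfl⟩ := e.surjective y
    rw [← he σ x, ← map_nsmul]
    congr 1
    exact Subtype.ext (htresV σ hσ x x.2)

end Fermat.Agent.R38

end
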