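/-
ROW 38, piece R38-PKG frame, part 1 (helper83): a good Hecke polynomial which vanishes on the
eigen-systems of ALL normalised eigenforms of level `M` vanishes on `S₂(Γ₀(M))`.

`r38pkg_forms_eq_zero : t ∈ ℤ[T_ℓ : ℓ ∈ G] (G ⊆ {ℓ ∤ M}), KillsLevel M t ⇒ heckeEvalForms M 2 t = 0`.

Proof: the operator `Θ` of `t` lies in the anemic Hecke algebra, which is reduced (PET); if `Θ ≠ 0`
it is not nilpotent, so it is outside some prime of the full Hecke algebra, hence nonzero on some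
eigen-character `ψ` (S49 `exists_eigenvector_of_injective`), whose normalised eigenform `f`
(S49 `exists_normalized_eigenform`) has `heckeValue f t = ψ Θ ≠ 0`.
-/
import Fermat.Agent.R38.Plan
import Fermat.Agent.PET.Semisimple
import Fermat.Agent.S31.Helpers
import Fermat.Agent.S49.EigenAlg
import Fermat.Agent.S49.Normalize

set_option autoImplicit false
set_option linter.style.haveILetI false
set_option linter.unusedSectionVars false

noncomputable section

namespace Fermat.Agent.R38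

open ModularCurve Fermat.Agent.ES ModularFormClass CongruenceSubgroup

variable {M : ℕ} [NeZero M]

/-- two ring homomorphisms out of the Hecke polynomial ring which agree on the variables in `G`
agree on the polynomials supported in `G` -/
theorem r38pkg_hom_eq_of_supported {R : Type*} [CommRing R] (f g : HeckeAlg →+* R)
    (G : Set Nat.Primes) (h : ∀ ℓ ∈ G, f (MvPolynomial.X ℓ) = g (MvPolynomial.X ℓ))
    {t : HeckeAlg} (ht : t ∈ MvPolynomial.supported ℤ G) : f t = g t := by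
  rw [MvPolynomial.supported_eq_adjoin_X] at ht
  induction ht using Algebra.adjoin_induction with
  | mem t ht =>
    obtain ⟨ℓ, hℓ, rfl⟩ := ht
    exact h ℓ hℓ
  | algebraMap r =>
    rw [eq_intCast, map_intCast, map_intCast]
  | add s t _ _ hs ht => rw [map_add, map_add, hs, ht]
  | mul s t _ _ hs ht => rw [map_mul, map_mul, hs, ht]

/-- the value on an eigenform, as a ring homomorphism -/
def r38pkgValueHom (f : CuspForm (Gamma0 M) 2) : HeckeAlg →+* ℂ :=
  (MvPolynomial.aeval (fun ℓ : Nat.Primes => qCoeff f ℓ) : HeckeAlg →ₐ[ℤ] ℂ).toRingHom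

theorem r38pkgValueHom_apply (f : CuspForm (Gamma0 M) 2) (t : HeckeAlg) :
    r38pkgValueHom f t = heckeValue f t := rfl

theorem r38pkgValueHom_X (f : CuspForm (Gamma0 M) 2) (ℓ : Nat.Primes) :
    r38pkgValueHom f (MvPolynomial.X ℓ) = qCoeff f ℓ :=
  MvPolynomial.aeval_X _ ℓ

/-- the value of a good Hecke polynomial on the normalised eigenform of an eigen-character -/
theorem r38pkg_value_eq (G : Set Nat.Primes) (hG : ∀ ℓ ∈ G, ¬ (ℓ : ℕ) ∣ M) (t : HeckeAlg)
    (ht : t ∈ MvPolynomial.supported ℤ G) (f : CuspForm (Gamma0 M) 2)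
    (ψ : CuspForm.heckeAlgebra M 2 ∅ →+* ℂ)
    (hfℓ : ∀ (ℓ : ℕ) (hℓ : ℓ.Prime) (hℓN : ¬ ℓ ∣ M),
      qCoeff ⇑f ℓ = ψ (CuspForm.heckeAlgebra.T hℓ hℓN (Set.notMem_empty ℓ))) :
    heckeValue f t = ψ (CuspForm.heckeEvalForms M 2 t) := by
  rw [← r38pkgValueHom_apply]
  refine r38pkg_hom_eq_of_supported (r38pkgValueHom f) (ψ.comp (CuspForm.heckeEvalForms M 2)) G
    (fun ℓ hℓ => ?_) ht
  rw [r38pkgValueHom_X, RingHom.comp_apply, hfℓ ℓ ℓ.2 (hG ℓ hℓ)]
  congr 1
  exact (CuspForm.heckeEvalForms_heckeGen_of_not_dvd (hG ℓ hℓ)).symm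

/-- the operator of a good Hecke polynomial is not nilpotent unless it is zero -/
theorem r38pkg_not_nilpotent (G : Set Nat.Primes) (hG : ∀ ℓ ∈ G, ¬ (ℓ : ℕ) ∣ M) (t : HeckeAlg)
    (ht : t ∈ MvPolynomial.supported ℤ G) (hne : CuspForm.heckeEvalForms M 2 t ≠ 0) :
    ¬ IsNilpotent (CuspForm.heckeEvalForms M 2 t) := by
  have hSbad : ∀ q : ℕ, q.Prime → q ∣ M → q ∈ {q : ℕ | q ∣ M} := fun q _ h => h
  have hSg : ∀ ℓ ∈ G, ¬ (ℓ : ℕ) ∣ M ∧ (ℓ : ℕ) ∉ {q : ℕ | q ∣ M} :=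
    fun ℓ hℓ => ⟨hG ℓ hℓ, hG ℓ hℓ⟩
  have hcoe := Fermat.Agent.S31.coe_evalS_eq (N := M) (S := {q : ℕ | q ∣ M}) hSg ht
  have hred : IsReduced (CuspForm.heckeAlgebra M 2 {q : ℕ | q ∣ M}) :=
    Fermat.Agent.PET.isReduced_heckeAlgebra M 2 hSbad
  rintro ⟨n, hn⟩
  have hn' : ((CuspForm.heckeEvalForms M 2 t : CuspForm.heckeAlgebra M 2 ∅) :
      Module.End ℂ (CuspForm (Gamma0 M) 2)) ^ n = 0 := by
    rw [← SubmonoidClass.coe_pow, hn, ZeroMemClass.coe_zero]
  have h1 : IsNilpotent (Fermat.Agent.S31.evalS M {q : ℕ | q ∣ M} t) := by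
    refine ⟨n, Subtype.ext ?_⟩
    rw [SubmonoidClass.coe_pow, hcoe, hn', ZeroMemClass.coe_zero]
  have h3 : Fermat.Agent.S31.evalS M {q : ℕ | q ∣ M} t = 0 := hred.eq_zero _ h1
  apply hne
  apply Subtype.ext
  rw [← hcoe, h3, ZeroMemClass.coe_zero, ZeroMemClass.coe_zero]

/-- **KillsLevel ⇒ zero on the cusp forms.** -/
theorem r38pkg_forms_eq_zero (G : Set Nat.Primes) (hG : ∀ ℓ ∈ G, ¬ (ℓ : ℕ) ∣ M) (t : HeckeAlg)
    (ht : t ∈ MvPolynomial.supported ℤ G) (hK : KillsLevel M t) :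
    CuspForm.heckeEvalForms M 2 t = 0 := by
  classical
  by_contra hne
  have hnil := r38pkg_not_nilpotent G hG t ht hne
  -- a prime of the full algebra not containing `Θ`
  have hrad : CuspForm.heckeEvalForms M 2 t ∉ nilradical (CuspForm.heckeAlgebra M 2 ∅) :=
    fun h => hnil (mem_nilradical.mp h)
  rw [nilradical_eq_sInf, Ideal.mem_sInf] at hrad
  push Not at hrad
  obtain ⟨Q, hQ, hΘQ⟩ := hrad
  haveI : Q.IsPrime := hQ
  haveI hfd : FiniteDimensional ℂ (CuspForm (Gamma0 M) 2) :=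
    Fermat.Agent.S49.finiteDimensional_cuspForm M 2
  obtain ⟨v, ψ, hv, hψ, hkerψ⟩ := Fermat.Agent.S49.exists_eigenvector_of_injective (K := ℂ)
    ((CuspForm.heckeAlgebra M 2 ∅).val.toRingHom) Subtype.val_injective Q
  obtain ⟨f, hf, hfℓ⟩ := Fermat.Agent.S49.exists_normalized_eigenform v hv ψ (fun s => hψ s)
  have hψΘ : ψ (CuspForm.heckeEvalForms M 2 t) ≠ 0 := fun h => hΘQ (hkerψ h)
  apply hψΘ
  rw [← r38pkg_value_eq G hG t ht f ψ hfℓ]
  exact hK f hf

end Fermat.Agent.R38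

end
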