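/-
ROW 38, piece R38-PKG frame (helper83): PKG-ES + PKG-PUSH + PKG-OLD for the CONCRETE module
`J := PDiv (M * p) p` (the `p`-divisible torsion of `J₀(Mp)(ℚ̄)`, `ES/TopFaith.lean`),
`Jold := PDiv M p × PDiv M p`, `π := (α_*, β_*)` (`STB/PushPoly.lean`).

* `r38pkg_es`    : `ESDataInf (M * p) p (PDiv (M * p) p)` (unconditional);
* `r38pkg_old`   : `KillsLevel M t` ⇒ `t` kills `PDiv M p` (`r38pkg_forms_eq_zero` + STB-P2);
* `r38pkg_new`   : `KillsLevel M t₀`, `t₀ x = n₀ x`, `p ∤ n₀`, `p x = 0` ⇒ `α_* x = 0 = β_* x`;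
* `r38pkg_oldF`, `r38pkg_newF` : the same with `KillsForms` (interface v2 of `R38/Plan.lean`);
* `StmtToricP`, `StmtTresP` : the two geometric clauses at `p`, for the concrete `J`;
* `stmtPkgCore_of : StmtToricP → StmtTresP → StmtPkgCore`.
-/
import Fermat.Agent.R38.Glue
import Fermat.Agent.R38.PkgForms
import Fermat.Agent.STB.PushPoly
import Fermat.Agent.ES.FaithOfInputs
import Fermat.Agent.INJ.InjAll

set_option autoImplicit false
set_option linter.style.haveILetI false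
set_option linter.unusedSectionVars false

noncomputable section

namespace Fermat.Agent.R38

open ModularCurve Fermat.Agent.ES Fermat.Agent.STB ExtCitation

/-! ### The concrete statements at `p` -/

/-- **TORIC, concrete form**: on the inertia span of the `p`-torsion of `J₀(Mp)` killed by both
push-forwards to level `M`, inertia at `p` acts through `ω`. -/
def StmtToricP : Prop :=
  ∀ (M p : ℕ) [NeZero M] [NeZero p] [Fact p.Prime], p ≠ 2 → ¬ p ∣ M →
    ∀ A : ValuationSubring Qb, A.LiesOverPrime p → ∀ x : PDiv (M * p) p, p • x = 0 →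
      stbPushAlphaP M p p x = 0 → stbPushBetaP M p p x = 0 →
      ∀ σ ∈ A.inertiaSubgroupIn ℚ, ∀ τ ∈ A.inertiaSubgroupIn ℚ,
        letI := pDivGalois (M * p) p
        τ • (σ • x - x) = cycloExp p τ • (σ • x - x)

/-- **TRÈS, concrete form** (the wall of row 38): a `p`-torsion Hecke eigen-vector of `J₀(Mp)`
which is not old (Hecke sense) and not Eisenstein and is fixed by the peu ramifié subgroup is
toric. -/
def StmtTresP : Prop :=
  ∀ (M p : ℕ) [NeZero M] [NeZero p] [Fact p.Prime], p ≠ 2 → ¬ p ∣ M →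
    letI := pDivGalois (M * p) p
    letI := pDivModule (M * p) p
    ∀ A : ValuationSubring Qb, A.LiesOverPrime p → ∀ x : PDiv (M * p) p, p • x = 0 →
      stbPushAlphaP M p p x = 0 → stbPushBetaP M p p x = 0 →
      ∀ t₀ ∈ MvPolynomial.supported ℤ (goodPrimes (M * p) p), KillsForms M t₀ →
        ∀ n₀ : ℤ, t₀ • x = n₀ • x → ¬ (p : ℤ) ∣ n₀ →
      ∀ ℓ₁ ∈ goodPrimes (M * p) p, ∀ n₁ : ℤ, heckeGen ℓ₁ • x = n₁ • x →
        ¬ (p : ℤ) ∣ n₁ - ((ℓ₁ : ℕ) + 1) →
      (∀ σ ∈ peuSubgroup A p, σ • x = x) →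
      ∀ τ ∈ A.inertiaSubgroupIn ℚ, τ • x = cycloExp p τ • x

section Frame

variable (M p : ℕ) [NeZero M] [NeZero p] [hpF : Fact p.Prime]

/-- **PKG-ES**: the Eichler–Shimura package on `PDiv (M * p) p`. -/
theorem r38pkg_es :
    letI := pDivModule (M * p) p
    letI := pDivGalois (M * p) p
    ESDataInf (M * p) p (PDiv (M * p) p) := by
  have hp : p.Prime := hpF.out
  have hm := multData_of_torsionUnifData hp.ne_zero (stb_p2_unifData (M * p) p hp.pos)
  exact hm.esDataInf (stmtFiniteLevel (M * p) p hp.ne_zero)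
    (G2.stmtFrob_of_stmtINJAll Fermat.Agent.INJ.injAll_stmtINJAll (M * p) p)
    (G2.stmtUnram_of_stmtINJAll Fermat.Agent.INJ.injAll_stmtINJAll (M * p) p)

/-- **PKG-OLD**: a good Hecke polynomial killing the eigen-systems of level `M` kills the
`p`-divisible torsion of `J₀(M)`. -/
theorem r38pkg_old (t : HeckeAlg) (ht : t ∈ MvPolynomial.supported ℤ (goodPrimes (M * p) p))
    (hK : KillsLevel M t) (y : PDiv M p) : (letI := pDivModule M p; t • y) = 0 := by
  have hp : p.Prime := hpF.out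
  have hG : ∀ ℓ ∈ goodPrimes (M * p) p, ¬ (ℓ : ℕ) ∣ M := fun ℓ hℓ h =>
    hℓ (Dvd.dvd.mul_right (Dvd.dvd.mul_right h p) p)
  refine stb_p2_kills hp t (MvPolynomial.supported_mono ?_ ht)
    (r38pkg_forms_eq_zero (goodPrimes (M * p) p) hG t ht hK) y
  intro ℓ hℓ
  exact stb_good_of_good hℓ

/-- **PKG-PUSH + PKG-OLD**: a `p`-torsion vector on which a Hecke polynomial killing level `M`
acts through a `p`-adic unit is killed by both push-forwards to level `M`. -/
theorem r38pkg_new (hpM : ¬ p ∣ M) (x : PDiv (M * p) p) (hx : p • x = 0) (t₀ : HeckeAlg)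
    (ht₀ : t₀ ∈ MvPolynomial.supported ℤ (goodPrimes (M * p) p)) (hK : KillsLevel M t₀)
    (n₀ : ℤ) (hn₀ : (letI := pDivModule (M * p) p; t₀ • x) = n₀ • x) (hpn₀ : ¬ (p : ℤ) ∣ n₀) :
    stbPushAlphaP M p p x = 0 ∧ stbPushBetaP M p p x = 0 := by
  have hp : p.Prime := hpF.out
  constructor
  · have h1 := stb_p3_poly_alpha hp hp hpM t₀ ht₀ x
    rw [hn₀, map_zsmul, r38pkg_old M p t₀ ht₀ hK] at h1
    have h2 : p • stbPushAlphaP M p p x = 0 := by rw [← map_nsmul, hx, map_zero]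
    exact glue_eq_zero_of_coprime hp hpn₀ h1 h2
  · have h1 := stb_p3_poly_beta hp hp hpM t₀ ht₀ x
    rw [hn₀, map_zsmul, r38pkg_old M p t₀ ht₀ hK] at h1
    have h2 : p • stbPushBetaP M p p x = 0 := by rw [← map_nsmul, hx, map_zero]
    exact glue_eq_zero_of_coprime hp hpn₀ h1 h2

/-- **PKG-OLD**, `KillsForms` form (interface v2 of `R38/Plan.lean`). -/
theorem r38pkg_oldF (t : HeckeAlg) (ht : t ∈ MvPolynomial.supported ℤ (goodPrimes (M * p) p))
    (hK : KillsForms M t) (y : PDiv M p) : (letI := pDivModule M p; t • y) = 0 := by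
  have hp : p.Prime := hpF.out
  refine stb_p2_kills hp t (MvPolynomial.supported_mono ?_ ht) hK y
  intro ℓ hℓ
  exact stb_good_of_good hℓ

/-- **PKG-PUSH + PKG-OLD**, `KillsForms` form (interface v2 of `R38/Plan.lean`). -/
theorem r38pkg_newF (hpM : ¬ p ∣ M) (x : PDiv (M * p) p) (hx : p • x = 0) (t₀ : HeckeAlg)
    (ht₀ : t₀ ∈ MvPolynomial.supported ℤ (goodPrimes (M * p) p)) (hK : KillsForms M t₀)
    (n₀ : ℤ) (hn₀ : (letI := pDivModule (M * p) p; t₀ • x) = n₀ • x) (hpn₀ : ¬ (p : ℤ) ∣ n₀) :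
    stbPushAlphaP M p p x = 0 ∧ stbPushBetaP M p p x = 0 := by
  have hp : p.Prime := hpF.out
  constructor
  · have h1 := stb_p3_poly_alpha hp hp hpM t₀ ht₀ x
    rw [hn₀, map_zsmul, r38pkg_oldF M p t₀ ht₀ hK] at h1
    have h2 : p • stbPushAlphaP M p p x = 0 := by rw [← map_nsmul, hx, map_zero]
    exact glue_eq_zero_of_coprime hp hpn₀ h1 h2
  · have h1 := stb_p3_poly_beta hp hp hpM t₀ ht₀ x
    rw [hn₀, map_zsmul, r38pkg_oldF M p t₀ ht₀ hK] at h1
    have h2 : p • stbPushBetaP M p p x = 0 := by rw [← map_nsmul, hx, map_zero]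
    exact glue_eq_zero_of_coprime hp hpn₀ h1 h2

/-- the minimal package for the concrete `J`, from the two geometric clauses -/
theorem r38pkg_core (hT : StmtToricP) (hR : StmtTresP) (hp2 : p ≠ 2) (hpM : ¬ p ∣ M) :
    letI := pDivModule (M * p) p
    letI := pDivGalois (M * p) p
    AtPCore M p (PDiv (M * p) p) := by
  letI := pDivModule (M * p) p
  letI := pDivGalois (M * p) p
  refine ⟨r38pkg_es M p, ?_, ?_⟩
  · intro A hA x hx t₀ ht₀ hK n₀ hn₀ hpn₀ σ hσ τ hτ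
    obtain ⟨ha, hb⟩ := r38pkg_newF M p hpM x hx t₀ ht₀ hK n₀ hn₀ hpn₀
    exact hT M p hp2 hpM A hA x hx ha hb σ hσ τ hτ
  · intro A hA x hx t₀ ht₀ hK n₀ hn₀ hpn₀ ℓ₁ hℓ₁ n₁ hn₁ hpn₁ hpeu τ hτ
    obtain ⟨ha, hb⟩ := r38pkg_newF M p hpM x hx t₀ ht₀ hK n₀ hn₀ hpn₀
    exact hR M p hp2 hpM A hA x hx ha hb t₀ ht₀ hK n₀ hn₀ hpn₀ ℓ₁ hℓ₁ n₁ hn₁ hpn₁ hpeu τ hτ

end Frame

/-- **R38-PKG frame**: the package of row 38 from the two geometric clauses at `p` for the
concrete module `PDiv (M * p) p`. -/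
theorem stmtPkgCore_of (hT : StmtToricP) (hR : StmtTresP) : StmtPkgCore := by
  intro M p _ hpF hp2 hpM
  haveI : NeZero p := ⟨hpF.out.ne_zero⟩
  exact ⟨PDiv (M * p) p, inferInstance, pDivModule (M * p) p, pDivGalois (M * p) p,
    r38pkg_core M p hT hR hp2 hpM⟩

end Fermat.Agent.R38

end
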