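/-
ROW 38, piece PKG-TRES (`StmtTresP`, `R38/PkgFrame.lean`) — INTERFACE of the captain (helper44).
Plan, proofs and piece table: NOTES/R38-TRES.md.  Definitions and statements only.

TRES is the WILD TWIN (`q = p`) of Mazur's principle (`RIB/MP/Plan.lean`, helper2), and uses its
vocabulary: `TrivInf`, `RedInf`, `eisKill` (namespace `Fermat.Agent.RIB.MP`).

Setting: `N = M p`, `p ∤ M`, `p ≥ 5`, `A ⊂ ℚ̄` a valuation ring over `p`, `I` its inertia group,
`H = peuSubgroup A p ⊂ I` (fixed field `K₁(U^{1/p})`, `K = ℚ̄^I`, `K₁ = K(ζ_p)`, `U` = units of `K`),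
`x ∈ J₀(N)[p]` fixed by `H`, killed by `α_*`, `β_*`, and moved by `I` along ONE line `ℤ z₀`.

* `StmtTresRed` (THE WALL): the reduction at `v_∞` of `T_ℓ x − (ℓ + 1) x` is the reduction of a
                class of `J₀(M)[p]`.   [T5 (MONO) + T4 (EIS) = (FAC-p): `div ū ∈ p Div(k(C))`, on
                the split cover `F_N(w₀^{1/p})`;  T3 (HOL) = (SURJ-p) + bridge]
* (TRES-HK)     `RedInf` is stable under `T_ℓ'`: DONE, `RIB.MP.ribmp_hk_redInf` (any residue
                characteristic).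
* (OLD)         DONE: `r38pkg_oldF` (`R38/PkgFrame.lean`);  `J₀(M)[p] ⊂ PDiv M p` is
                `RIB.MP.StmtTorsDivMP` (helper15, `p ≥ 5`).
* `StmtTresT0`  `TrivInf` and `α_* x = 0 = β_* x`  ⇒  inertia acts on `x` through `ω`
                [`S33.stmtNewSplit` (C3, landed) + S33 C4 (`S33.StmtWildKummer`)].
* `StmtTresP5`  the concrete clause for `PDiv (M p) p`, `p ≥ 5`, with the line hypothesis
                (what the glue of row 38 consumes);
* `StmtTresTriv` the middle statement: under the hypotheses of `StmtTresP5`, `TrivInf A p x`;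
  `stmtTresTriv_of_red : StmtTresRed → StmtTorsDivMP → StmtTresTriv` and
  `stmtTresP5_of_triv : StmtTresTriv → StmtTresT0 → StmtTresP5` are in `R38/TresAlg.lean`.
* `StmtTresP5Of` (TRES-ALG, helper44): `StmtTresRed → StmtTresT0 → StmtTorsDivMP → StmtTresP5`.
-/
import Fermat.Agent.RIB.MP.Plan
import Fermat.Agent.RIB.MP.TorsDivPlan
import Fermat.Agent.STB.PushPoly

set_option autoImplicit false
set_option linter.style.haveILetI false

noncomputable section

namespace Fermat.Agent.R38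

open ModularCurve AlgebraicCurve Fermat.Agent.ES Fermat.Agent.ES.G2 Fermat.Agent.STB
  Fermat.Agent.RIB.MP ExtCitation

/-! ### Definitions -/

/-- `x` is fixed by the peu ramifié subgroup of the inertia group of `A`. -/
def PeuFixed {N : ℕ} (A : ValuationSubring Qb) (p : ℕ) (x : JZero N) : Prop :=
  ∀ σ ∈ peuSubgroup A p, σ • x = x

/-- The inertia group of `A` moves `x` along one line: `σ x − x ∈ ℤ z₀` for all `σ ∈ I`. -/
def InertiaLine {N : ℕ} (A : ValuationSubring Qb) (x : JZero N) : Prop :=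
  ∃ z₀ : JZero N, ∀ σ ∈ A.inertiaSubgroupIn ℚ, ∃ k : ℤ, σ • x - x = k • z₀

/-! ### The geometric pieces -/

/-- **TRES-RED** (the wall).  For `x ∈ J₀(M p)[p]`, new, fixed by the peu ramifié subgroup and
moved by inertia along one line, the reduction of `T_ℓ x − (ℓ + 1) x` at `v_∞` is the reduction
of a class of `J₀(M)[p]`. -/
def StmtTresRed : Prop :=
  ∀ (M p : ℕ) [NeZero M] [NeZero p] [NeZero (M * p)] (_ : p.Prime) (_ : ¬ p ∣ M), 5 ≤ p →
    ∀ A : ValuationSubring Qb, A.LiesOverPrime p →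
    ∀ x : JZero (M * p), p • x = 0 → stbPushAlpha M p x = 0 → stbPushBeta M p x = 0 →
      PeuFixed A p x → InertiaLine A x →
    ∀ ℓ : Nat.Primes, ¬ (ℓ : ℕ) ∣ M * p * p →
      ∃ y : JZero M, p • y = 0 ∧ RedInf A p (eisKill ℓ x) y

/-- **TRES-T0.**  A new class of `J₀(M p)[p]` which is trivial at `v_∞` is toric: the inertia
group acts on it through the cyclotomic character. -/
def StmtTresT0 : Prop :=
  ∀ (M p : ℕ) [NeZero M] [NeZero p] [NeZero (M * p)] [Fact p.Prime], p ≠ 2 → ¬ p ∣ M →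
    ∀ A : ValuationSubring Qb, A.LiesOverPrime p →
    ∀ x : JZero (M * p), p • x = 0 → stbPushAlpha M p x = 0 → stbPushBeta M p x = 0 →
      TrivInf A p x →
      ∀ τ ∈ A.inertiaSubgroupIn ℚ, τ • x = cycloExp p τ • x

/-! ### The algebra -/

/-- **TRÈS, concrete form for `p ≥ 5` with the line hypothesis** (consumed by the glue of
row 38, `R38/Glue5.lean`).  It is `StmtTresP` (`R38/PkgFrame.lean`) with `5 ≤ p` and the line. -/
def StmtTresP5 : Prop :=
  ∀ (M p : ℕ) [NeZero M] [NeZero p] [Fact p.Prime], 5 ≤ p → ¬ p ∣ M →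
    letI := pDivGalois (M * p) p
    letI := pDivModule (M * p) p
    ∀ A : ValuationSubring Qb, A.LiesOverPrime p → ∀ x : PDiv (M * p) p, p • x = 0 →
      stbPushAlphaP M p p x = 0 → stbPushBetaP M p p x = 0 →
      ∀ t₀ ∈ MvPolynomial.supported ℤ (goodPrimes (M * p) p), KillsForms M t₀ →
        ∀ n₀ : ℤ, t₀ • x = n₀ • x → ¬ (p : ℤ) ∣ n₀ →
      ∀ ℓ₁ ∈ goodPrimes (M * p) p, ∀ n₁ : ℤ, heckeGen ℓ₁ • x = n₁ • x →
        ¬ (p : ℤ) ∣ n₁ - ((ℓ₁ : ℕ) + 1) →
      (∀ σ ∈ peuSubgroup A p, σ • x = x) →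
      (∃ z₀ : PDiv (M * p) p, ∀ σ ∈ A.inertiaSubgroupIn ℚ, ∃ k : ℤ, σ • x - x = k • z₀) →
      ∀ τ ∈ A.inertiaSubgroupIn ℚ, τ • x = cycloExp p τ • x

/-- **TRES-TRIV**: under the hypotheses of `StmtTresP5` the class `x` is trivial at `v_∞`
(it has a Gauss-constant Kummer function).  Two routes: (1) `StmtTresRed` + `StmtTorsDivMP`
(`stmtTresTriv_of_red`, `R38/TresAlg.lean`); (2) HOL-dlog (helper83): (FAC-p) + `dlog ū` lies in
the span of the reduced cusp forms, which `t₀` kills. -/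
def StmtTresTriv : Prop :=
  ∀ (M p : ℕ) [NeZero M] [NeZero p] [Fact p.Prime], 5 ≤ p → ¬ p ∣ M →
    letI := pDivGalois (M * p) p
    letI := pDivModule (M * p) p
    ∀ A : ValuationSubring Qb, A.LiesOverPrime p → ∀ x : PDiv (M * p) p, p • x = 0 →
      stbPushAlphaP M p p x = 0 → stbPushBetaP M p p x = 0 →
      ∀ t₀ ∈ MvPolynomial.supported ℤ (goodPrimes (M * p) p), KillsForms M t₀ →
        ∀ n₀ : ℤ, t₀ • x = n₀ • x → ¬ (p : ℤ) ∣ n₀ →
      ∀ ℓ₁ ∈ goodPrimes (M * p) p, ∀ n₁ : ℤ, heckeGen ℓ₁ • x = n₁ • x →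
        ¬ (p : ℤ) ∣ n₁ - ((ℓ₁ : ℕ) + 1) →
      (∀ σ ∈ peuSubgroup A p, σ • x = x) →
      (∃ z₀ : PDiv (M * p) p, ∀ σ ∈ A.inertiaSubgroupIn ℚ, ∃ k : ℤ, σ • x - x = k • z₀) →
      TrivInf A p (x : JZero (M * p))

/-- **TRES-ALG**: the concrete clause from the pieces. -/
def StmtTresP5Of : Prop :=
  StmtTresRed → StmtTresT0 → StmtTorsDivMP → StmtTresP5

end Fermat.Agent.R38

end
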