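import Fermat.Agent.R38.PlanHol
import Fermat.Agent.ES.I2.Final
import Fermat.Agent.ES.M.RedF
import Fermat.Agent.ES.LR.Final

/-!
# Row 38, PKG-TRES, route HOL-dlog, piece B1-asm (helper52)

`stmtHolB1Glue : StmtHolB1Glue` `= StmtHolLiftAll → StmtHolMFAll → StmtHolB1All`
(interface `R38/PlanHol.lean`): `D′ (B̄) ⊂ 𝔑`, `D′ = j̄ (j̄ − 1728) θ / θ j̄`.

For `c ∈ B̄` take the lift `C ∈ A((q)) ∩ F_N` with poles only at the cusps (B1-LIFT), and
`Yt, Y1, Y2 ∈ F_N` with poles only at the cusps from (B1-MF).  The formal identities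
`j (j − 1728) = Wt · θ j`, `Wt² = W2 (j − 1728)`, `Wt³ = W1 j (j − 1728)` over `ℤ((q))`
(`Wt = −E₄E₆/Δ`, `W2 = E₄²/Δ`, `W1 = −E₆/Δ`; `ES/I2/MFFormal.lean`) show that
`Yt = θC · Wt`, `Y2 = (θC)² W2`, `Y1 = (θC)³ W1` have `A`-integral `q`-expansions; they are
integral over `ℚ̄[j]` (Lemma R, `ES.LR.lr_isIntegral`), so their reductions lie in `B̄`
(`ES.M.stmtRedF`, `ES.I2.stmtIRAll`), and the three relations reduce.
-/

set_option autoImplicit false
set_option linter.unusedSectionVars false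
set_option linter.style.haveILetI false

noncomputable section

namespace Fermat.Agent.R38

open ModularCurve AlgebraicCurve HahnSeries Fermat.Agent.ES Fermat.Agent.S24 Fermat.Agent.ES.M
open Fermat.Agent.ES.I2 Fermat.Agent.S28.Deriv Fermat.Agent.S28 Polynomial

/-! ### the formal identities -/

/-- `Wt = −E₄ E₆ / Δ = j (j − 1728) / θ j` -/
def r38hb1aWt : LaurentSeries ℤ := -(mfE4L * mfE6L * deltaInvZ)

/-- `W2 = E₄² / Δ` -/
def r38hb1aW2 : LaurentSeries ℤ := mfE4L ^ 2 * deltaInvZ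

/-- `W1 = −E₆ / Δ` -/
def r38hb1aW1 : LaurentSeries ℤ := -(mfE6L * deltaInvZ)

theorem r38hb1a_Wt : r38hb1aWt * thetaFun (jqModC ℤ) = jqModC ℤ * (jqModC ℤ - 1728) := by
  rw [mf_theta_j, mf_j_sub_eq, mf_j_eq, r38hb1aWt]
  ring

theorem r38hb1a_W2 : r38hb1aWt ^ 2 = r38hb1aW2 * (jqModC ℤ - 1728) := by
  rw [mf_j_sub_eq, r38hb1aWt, r38hb1aW2]
  ring

theorem r38hb1a_W1 : r38hb1aWt ^ 3 = r38hb1aW1 * jqModC ℤ * (jqModC ℤ - 1728) := by
  rw [mf_j_sub_eq, mf_j_eq, r38hb1aWt, r38hb1aW1]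
  ring

section Ring

variable {R : Type*} [CommRing R]

/-- the three series attached to `C ∈ R((q))` -/
def r38hb1aYt (C : LaurentSeries R) : LaurentSeries R :=
  thetaFun C * coeffMap (Int.castRingHom R) r38hb1aWt

def r38hb1aY2 (C : LaurentSeries R) : LaurentSeries R :=
  thetaFun C ^ 2 * coeffMap (Int.castRingHom R) r38hb1aW2

def r38hb1aY1 (C : LaurentSeries R) : LaurentSeries R :=
  thetaFun C ^ 3 * coeffMap (Int.castRingHom R) r38hb1aW1

theorem r38hb1a_relT (C : LaurentSeries R) :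
    r38hb1aYt C * thetaFun (jqModC R) = thetaFun C * jqModC R * (jqModC R - 1728) := by
  have h := congrArg (coeffMap (Int.castRingHom R)) r38hb1a_Wt
  rw [map_mul, map_mul, map_sub, ← thetaFun_coeffMap, coeffMap_jqModC, map_ofNat] at h
  rw [r38hb1aYt, mul_assoc, h]
  ring

theorem r38hb1a_rel2 (C : LaurentSeries R) :
    r38hb1aYt C ^ 2 = r38hb1aY2 C * (jqModC R - 1728) := by
  have h := congrArg (coeffMap (Int.castRingHom R)) r38hb1a_W2
  rw [map_pow, map_mul, map_sub, coeffMap_jqModC, map_ofNat] at h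
  rw [r38hb1aYt, r38hb1aY2, mul_pow, h]
  ring

theorem r38hb1a_rel1 (C : LaurentSeries R) :
    r38hb1aYt C ^ 3 = r38hb1aY1 C * jqModC R * (jqModC R - 1728) := by
  have h := congrArg (coeffMap (Int.castRingHom R)) r38hb1a_W1
  rw [map_pow, map_mul, map_mul, map_sub, coeffMap_jqModC, map_ofNat] at h
  rw [r38hb1aYt, r38hb1aY1, mul_pow, h]
  ring

variable {S : Type*} [CommRing S] (φ : R →+* S)

theorem r38hb1a_map_Yt (C : LaurentSeries R) :
    coeffMap φ (r38hb1aYt C) = r38hb1aYt (coeffMap φ C) := by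
  rw [r38hb1aYt, r38hb1aYt, map_mul, thetaFun_coeffMap, coeffMap_coeffMap]
  congr 1
  exact coeffMap_congr (RingHom.ext_int _ _) _

theorem r38hb1a_map_Y2 (C : LaurentSeries R) :
    coeffMap φ (r38hb1aY2 C) = r38hb1aY2 (coeffMap φ C) := by
  rw [r38hb1aY2, r38hb1aY2, map_mul, map_pow, thetaFun_coeffMap, coeffMap_coeffMap]
  congr 1
  exact coeffMap_congr (RingHom.ext_int _ _) _

theorem r38hb1a_map_Y1 (C : LaurentSeries R) :
    coeffMap φ (r38hb1aY1 C) = r38hb1aY1 (coeffMap φ C) := by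
  rw [r38hb1aY1, r38hb1aY1, map_mul, map_pow, thetaFun_coeffMap, coeffMap_coeffMap]
  congr 1
  exact coeffMap_congr (RingHom.ext_int _ _) _

end Ring

/-! ### integrality over the `j`-line -/

/-- a function with poles only at the cusps is integral over `ℚ̄[j]` (Lemma R). -/
theorem r38hb1a_intJ (N : ℕ) [NeZero N] (x : FF N) (hx : PolesAtCusps N x) :
    IntJ jBar (x : LaurentSeries Kb) := by
  have h := Fermat.Agent.ES.LR.lr_isIntegral N x hx
  letI := polyAlgebra (K := Kb) (jF N)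
  obtain ⟨p, hp, hpx⟩ := h
  refine ⟨p, hp, ?_⟩
  have h1 := congrArg ((modularFunctionFieldBar N).val : FF N → LaurentSeries Kb) hpx
  rw [map_zero] at h1
  rw [← h1]
  have h2 := Polynomial.hom_eval₂ p (algebraMap Kb[X] (FF N))
    ((modularFunctionFieldBar N).val : FF N →+* LaurentSeries Kb) x
  rw [RingHom.coe_coe] at h2
  rw [h2]
  congr 1
  refine Polynomial.ringHom_ext (fun a => ?_) ?_
  · show Polynomial.aeval jBar (C a) =
      (((Polynomial.aeval (jF N) (C a) : FF N)) : LaurentSeries Kb)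
    rw [aeval_C, aeval_C]
    rfl
  · show Polynomial.aeval jBar (X : Kb[X]) =
      (((Polynomial.aeval (jF N) (X : Kb[X]) : FF N)) : LaurentSeries Kb)
    rw [aeval_X, aeval_X]
    rfl

/-! ### the glue -/

theorem r38hb1a_thetaJ_ne_zero : thetaFun (jqModC Kb) ≠ 0 := by
  intro h
  have h1 := congrArg (fun z : LaurentSeries Kb => z.coeff (-1)) h
  simp only [thetaFun_coeff, HahnSeries.coeff_zero, coeff_jqModC_neg_one] at h1
  simp at h1

theorem r38hb1a_j_ne_zero : jqModC Kb ≠ 0 := jqModC_ne_zero_of_nontrivial Kb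

theorem r38hb1a_j_sub_ne_zero : jqModC Kb - 1728 ≠ 0 := by
  intro h
  have h1 := congrArg (fun z : LaurentSeries Kb => z.coeff (-1)) h
  simp only [HahnSeries.coeff_sub, HahnSeries.coeff_zero, coeff_jqModC_neg_one] at h1
  have h2 : ((1728 : LaurentSeries Kb)).coeff (-1) = 0 := by
    have : (1728 : LaurentSeries Kb) = HahnSeries.C (1728 : Kb) := by
      rw [map_ofNat]
    rw [this, HahnSeries.C_apply, HahnSeries.coeff_single_of_ne]
    decide
  rw [h2, sub_zero] at h1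
  exact one_ne_zero h1

/-- **B1-asm** at `(N, A)` -/
theorem r38hb1a_at (N : ℕ) [NeZero N] (ℓ : ℕ) (hℓ : ℓ.Prime) (hℓN : ¬ ℓ ∣ N)
    (A : ValuationSubring Kb) (hA : A.LiesOverPrime ℓ) (hLift : StmtHolLift N A)
    (hMF : StmtHolMF N) : StmtHolB1 N A := by
  intro c hc
  obtain ⟨C, hC, hPC, hCc⟩ := hLift c hc
  obtain ⟨Yt, Y1, Y2, hPt, hP1, hP2, e1, e2, e3⟩ := hMF ⟨kronIncl A C, hC⟩ hPC
  have hRedF := stmtRedF N A ℓ hℓ hℓN hA
  have hIR := stmtIRAll N ℓ hℓ hℓN A hA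
  have hjB : jBar = jqModC Kb := mf_jBar_eq
  rw [hjB] at e1 e2 e3
  -- the `A`-integral forms
  have hYt : (Yt : LaurentSeries Kb) = kronIncl A (r38hb1aYt C) := by
    have h1 := r38hb1a_relT (kronIncl A C)
    have h2 : (Yt : LaurentSeries Kb) * thetaFun (jqModC Kb) =
        r38hb1aYt (kronIncl A C) * thetaFun (jqModC Kb) := by
      rw [h1]
      exact e1
    rw [r38hb1a_map_Yt]
    exact mul_right_cancel₀ r38hb1a_thetaJ_ne_zero h2
  have hY2 : (Y2 : LaurentSeries Kb) = kronIncl A (r38hb1aY2 C) := by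
    have h1 := r38hb1a_rel2 (kronIncl A C)
    have h2 : (Y2 : LaurentSeries Kb) * (jqModC Kb - 1728) =
        r38hb1aY2 (kronIncl A C) * (jqModC Kb - 1728) := by
      rw [← h1, ← e2, hYt, r38hb1a_map_Yt]
    rw [r38hb1a_map_Y2]
    exact mul_right_cancel₀ r38hb1a_j_sub_ne_zero h2
  have hY1 : (Y1 : LaurentSeries Kb) = kronIncl A (r38hb1aY1 C) := by
    have h1 := r38hb1a_rel1 (kronIncl A C)
    have h2 : (Y1 : LaurentSeries Kb) * (jqModC Kb * (jqModC Kb - 1728)) =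
        r38hb1aY1 (kronIncl A C) * (jqModC Kb * (jqModC Kb - 1728)) := by
      rw [← mul_assoc, ← mul_assoc, ← h1, ← e3, hYt, r38hb1a_map_Yt]
    rw [r38hb1a_map_Y1]
    exact mul_right_cancel₀ (mul_ne_zero r38hb1a_j_ne_zero r38hb1a_j_sub_ne_zero) h2
  -- membership and integrality of the reductions
  have key : ∀ (Y : FF N) (Y' : LaurentSeries A), PolesAtCusps N Y →
      (Y : LaurentSeries Kb) = kronIncl A Y' → HolInt (kA A) N (kronRed A Y') := by
    intro Y Y' hP hY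
    have hm : kronIncl A Y' ∈ modularFunctionFieldBar N := by
      rw [← hY]
      exact Y.2
    have hi : IntJ jBar (kronIncl A Y') := by
      rw [← hY]
      exact r38hb1a_intJ N Y hP
    exact ⟨hRedF Y' hm, hIR Y' hm hi⟩
  have kt := key Yt _ hPt hYt
  have k2 := key Y2 _ hP2 hY2
  have k1 := key Y1 _ hP1 hY1
  refine ⟨kronRed A (r38hb1aYt C), ⟨kt, ⟨kronRed A (r38hb1aY2 C), k2, ?_⟩,
    ⟨kronRed A (r38hb1aY1 C), k1, ?_⟩⟩, ?_⟩
  · have := congrArg (kronRed A) (r38hb1a_rel2 C)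
    simpa only [map_mul, map_sub, map_pow, coeffMap_jqModC, map_ofNat] using this
  · have := congrArg (kronRed A) (r38hb1a_rel1 C)
    simpa only [map_mul, map_sub, map_pow, coeffMap_jqModC, map_ofNat] using this
  · have := congrArg (kronRed A) (r38hb1a_relT C)
    rw [← hCc]
    simpa only [map_mul, map_sub, ← thetaFun_coeffMap, coeffMap_jqModC, map_ofNat] using this

/-- **piece B1-asm** -/
theorem stmtHolB1Glue : StmtHolB1Glue :=
  fun hLift hMF N _ ℓ hℓ h5 hℓN A hA =>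
    r38hb1a_at N ℓ hℓ hℓN A hA (hLift N ℓ hℓ h5 hℓN A hA) (hMF N)

end Fermat.Agent.R38

end
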