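import Fermat.Agent.R38.HolB1Ram
import Fermat.Agent.S24.DerivFinal
import Fermat.Agent.S24.Residue
import Fermat.Agent.S24.DegreeCount
import Fermat.Agent.ES.M.CuspInfty
import Fermat.Agent.S28.Deriv

/-!
# R38 / HOL-B1 (char 0), part 2: the derivation `D′ = j (j − 1728) d/dj` on `F_N`

Route RAM (no modular forms): for `C ∈ F_N` with poles only at the cusps the functions
`Yt = j (j − 1728) θC / θj`, `Y2 = Yt² / (j − 1728)`, `Y1 = Yt³ / (j (j − 1728))` lie in `F_N` and
have poles only at the cusps.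

* `r38hb1_gen_deriv` : a derivation `δ : F → M` is computed from the differential coefficients at
  any place: `(dj/dπ) • δ X = (dX/dπ) • δ j` (`Ω[F/K] = F dπ`);
* `r38hb1_gen_ord`, `r38hb1_gen_main` : the local estimate at a place over the finite `j`-line
  (`S24.DerivLemma`: `d(O_v) ⊂ O_v dπ`, `ord_v (dj) = e − 1`), with the ramification bounds
  `e ∣ 3` over `0`, `e ∣ 2` over `1728`, `e = 1` elsewhere as hypotheses;
* `r38hb1_theta` : `θ = q d/dq` as a derivation `F_N → ℚ̄((q))`;
* `r38hb1_main` : the statement for `F_N` (`= StmtHolMF N` of `R38/PlanHol.lean`, with the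
  numeral `1728` of `F_N`).
-/

set_option autoImplicit false
set_option linter.style.haveILetI false
set_option linter.unusedSectionVars false

noncomputable section

open AlgebraicCurve IntermediateField KaehlerDifferential ModularCurve HahnSeries
open Fermat.Agent.S24 Fermat.Agent.ES.M Fermat.Agent.S28.Deriv

namespace Fermat.Agent.R38

/-! ### Generic part -/

section GenericDeriv

variable {K F M : Type*} [Field K] [Field F] [Algebra K F] [AddCommGroup M] [Module K M]
  [Module F M] [IsScalarTower K F M] [CharZero K]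

/-- a derivation `δ : F → M` is computed from the differential coefficients at any place:
`(dj/dπ) • δ X = (dX/dπ) • δ j`. -/
theorem r38hb1_gen_deriv (δ : Derivation K F M) {x₀ : F} (hx₀ : Transcendental K x₀)
    (halg : Algebra.IsAlgebraic K⟮x₀⟯ F) (v : Place K F) (X j : F) :
    v.differentialCoeff (D K F j) • δ X = v.differentialCoeff (D K F X) • δ j := by
  haveI := DiffSpan.dCoordGenerates hx₀ halg v
  have hX : δ X = v.differentialCoeff (D K F X) • δ.liftKaehlerDifferential v.dCoord := by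
    rw [← map_smul, v.differentialCoeff_smul_dCoord, Derivation.liftKaehlerDifferential_comp_D]
  have hj : δ j = v.differentialCoeff (D K F j) • δ.liftKaehlerDifferential v.dCoord := by
    rw [← map_smul, v.differentialCoeff_smul_dCoord, Derivation.liftKaehlerDifferential_comp_D]
  rw [hX, hj, smul_smul, smul_smul, mul_comm]

end GenericDeriv

section GenericOrd

variable {K F : Type*} [Field K] [Field F] [Algebra K F] [CharZero K]
  {j : F} (hjt : Transcendental K j) (halg : Algebra.IsAlgebraic K⟮j⟯ F)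
  (v : Place K F)
  (hres : ∀ a ∈ v.toValuationSubring, ∃ c : K,
    a - algebraMap K F c ∈ v.toValuationSubring.nonunits)

include hjt halg hres

theorem r38hb1_gen_dj_ne_zero (c : K) (hj : 0 < v.ord (j - algebraMap K F c)) :
    v.differentialCoeff (D K F j) ≠ 0 := by
  have h1 : D K F j = D K F (j - algebraMap K F c) := by
    rw [map_sub, Derivation.map_algebraMap, sub_zero]
  rw [h1]
  exact DerivLemma.differentialCoeff_D_ne_zero hjt halg v hres hj.ne'

/-- local estimate: if `Y · (dj/dπ) = W · (dX/dπ)`, `X ∈ O_v` and `ord_v (j - c) = e > 0`,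
then `Y = 0` or `ord_v W - (e - 1) ≤ ord_v Y`. -/
theorem r38hb1_gen_ord (X Y W : F) (c : K) (hj : 0 < v.ord (j - algebraMap K F c))
    (hX : X ∈ v.toValuationSubring) (hW : W ≠ 0)
    (hY : Y * v.differentialCoeff (D K F j) = W * v.differentialCoeff (D K F X)) :
    Y = 0 ∨ v.ord W - (v.ord (j - algebraMap K F c) - 1) ≤ v.ord Y := by
  have hb := DerivLemma.ordDifferential_D_of_zero hjt halg v hres j c hj
  rw [Place.ordDifferential] at hb
  have ha := DerivLemma.differentialCoeff_D_mem hjt halg v hres hX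
  have hb0 := r38hb1_gen_dj_ne_zero hjt halg v hres c hj
  by_cases ha0 : v.differentialCoeff (D K F X) = 0
  · left
    rw [ha0, mul_zero] at hY
    exact (mul_eq_zero.mp hY).resolve_right hb0
  · right
    have hY0 : Y ≠ 0 := by
      intro h0
      rw [h0, zero_mul] at hY
      exact (mul_ne_zero hW ha0) hY.symm
    have h2 := congrArg v.ord hY
    rw [v.ord_mul hY0 hb0, v.ord_mul hW ha0, hb] at h2
    have h3 := DerivLemma.ord_nonneg_of_mem v ha
    omega

omit hjt halg hres in
theorem r38hb1_gen_ord_div {a b : F} (ha : a ≠ 0) (hb : b ≠ 0) :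
    v.ord (a / b) = v.ord a - v.ord b := by
  rw [div_eq_mul_inv, v.ord_mul ha (inv_ne_zero hb), v.ord_inv]
  ring

omit hjt halg hres in
theorem r38hb1_gen_ord_pow (a : F) (n : ℕ) : v.ord (a ^ n) = n * v.ord a := by
  have := v.ord_zpow a n
  rwa [zpow_natCast] at this

omit hjt halg hres in
/-- `ord_v (j - c') = 0` if `j ∈ O_v` reduces to `c ≠ c'`. -/
theorem r38hb1_gen_ord_other {c c' : K} (hcc : c ≠ c')
    (hj : 0 < v.ord (j - algebraMap K F c)) : v.ord (j - algebraMap K F c') = 0 := by
  have h1 := DegreeCountAux.not_pos_of_pos_of_ne v j hcc hj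
  have hjc : j - algebraMap K F c ≠ 0 := by
    intro h0
    rw [h0, v.ord_zero] at hj
    exact lt_irrefl _ hj
  have hmem : j - algebraMap K F c ∈ v.toValuationSubring :=
    PlaceAux.mem_of_ord_nonneg v hj.le
  have hmem' : j - algebraMap K F c' ∈ v.toValuationSubring := by
    have h2 : j - algebraMap K F c' = (j - algebraMap K F c) + algebraMap K F (c - c') := by
      rw [map_sub]; ring
    rw [h2]
    exact v.toValuationSubring.add_mem _ _ hmem (v.algebraMap_mem' _)
  have h3 := DerivLemma.ord_nonneg_of_mem v hmem'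
  omega

/-- **the local statement**: at a place `v` where `j` is regular, with the ramification bounds of
`j` at `v`, the functions `Y = j (j − 1728) dX/dj`, `Y² / (j − 1728)`, `Y³ / (j (j − 1728))` are
regular at `v` if `X` is. -/
theorem r38hb1_gen_main (X Y : F) (hv : j ∈ v.toValuationSubring)
    (hram0 : 0 < v.ord j → v.ord j ∣ 3)
    (hram1 : 0 < v.ord (j - algebraMap K F 1728) → v.ord (j - algebraMap K F 1728) ∣ 2)
    (hramg : ∀ c : K, c ≠ 0 → c ≠ 1728 → 0 < v.ord (j - algebraMap K F c) →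
      v.ord (j - algebraMap K F c) = 1)
    (hX : X ∈ v.toValuationSubring)
    (hY : Y * v.differentialCoeff (D K F j) =
      (j * (j - algebraMap K F 1728)) * v.differentialCoeff (D K F X)) :
    0 ≤ v.ord Y ∧ 0 ≤ v.ord (Y ^ 2 / (j - algebraMap K F 1728)) ∧
      0 ≤ v.ord (Y ^ 3 / (j * (j - algebraMap K F 1728))) := by
  have hj0 : j ≠ 0 := fun h => hjt (h ▸ isAlgebraic_zero)
  have hjc : ∀ c : K, j - algebraMap K F c ≠ 0 := fun c h =>
    hjt (by
      have h1 : j = algebraMap K F c := sub_eq_zero.mp h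
      rw [h1]
      exact isAlgebraic_algebraMap c)
  have h1728 : (1728 : K) ≠ 0 := by norm_num
  have hW : j * (j - algebraMap K F 1728) ≠ 0 := mul_ne_zero hj0 (hjc 1728)
  obtain ⟨c, hc⟩ := hres j hv
  have hpos : 0 < v.ord (j - algebraMap K F c) :=
    (PlaceAux.ord_pos_iff_mem_nonunits v (hjc c)).mpr hc
  by_cases hY0 : Y = 0
  · subst hY0
    simp
  rcases r38hb1_gen_ord hjt halg v hres X Y _ c hpos hX hW hY with h0 | hle
  · exact absurd h0 hY0
  rw [v.ord_mul hj0 (hjc 1728)] at hle
  rw [r38hb1_gen_ord_div v (pow_ne_zero 2 hY0) (hjc 1728),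
    r38hb1_gen_ord_div v (pow_ne_zero 3 hY0) hW, v.ord_mul hj0 (hjc 1728),
    r38hb1_gen_ord_pow, r38hb1_gen_ord_pow]
  push_cast
  by_cases hc0 : c = 0
  · subst hc0
    rw [map_zero, sub_zero] at hpos hle
    have h2 : v.ord (j - algebraMap K F 1728) = 0 := by
      have := r38hb1_gen_ord_other (j := j) v (c := 0) (c' := 1728) h1728.symm
        (by rw [map_zero, sub_zero]; exact hpos)
      exact this
    have h3 := Int.le_of_dvd (by norm_num) (hram0 hpos)
    rw [h2] at hle ⊢
    refine ⟨?_, ?_, ?_⟩ <;> omega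
  by_cases hc1 : c = 1728
  · subst hc1
    have h2 : v.ord j = 0 := by
      have := r38hb1_gen_ord_other (j := j) v (c := 1728) (c' := 0) h1728 hpos
      rwa [map_zero, sub_zero] at this
    have h3 := Int.le_of_dvd (by norm_num) (hram1 hpos)
    rw [h2] at hle ⊢
    refine ⟨?_, ?_, ?_⟩ <;> omega
  · have h2 : v.ord j = 0 := by
      have := r38hb1_gen_ord_other (j := j) v (c := c) (c' := 0) hc0 hpos
      rwa [map_zero, sub_zero] at this
    have h2' : v.ord (j - algebraMap K F 1728) = 0 :=
      r38hb1_gen_ord_other (j := j) v (c := c) (c' := 1728) hc1 hpos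
    have h3 := hramg c hc0 hc1 hpos
    rw [h2, h2', h3] at hle
    rw [h2, h2']
    refine ⟨?_, ?_, ?_⟩ <;> omega

end GenericOrd

/-! ### The function field `F_N` -/

section Modular

theorem r38hb1_coe_smul (N : ℕ) [NeZero N] (c : Kb) (X : FF N) :
    ((c • X : FF N) : LaurentSeries Kb) = HahnSeries.C c * (X : LaurentSeries Kb) := by
  rw [Algebra.smul_def]
  show ((algebraMap Kb (FF N) c : FF N) : LaurentSeries Kb) * _ = _
  congr 1
  show algebraMap Kb (LaurentSeries Kb) c = _
  exact algebraMap_eq_hahnC c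

theorem r38hb1_smul_eq (c : Kb) (m : LaurentSeries Kb) : c • m = HahnSeries.C c * m :=
  (HahnSeries.C_mul_eq_smul).symm

instance r38hb1_tower (N : ℕ) [NeZero N] : IsScalarTower Kb (FF N) (LaurentSeries Kb) :=
  ⟨fun c X m => by
    show ((c • X : FF N) : LaurentSeries Kb) * m = c • ((X : LaurentSeries Kb) * m)
    rw [r38hb1_coe_smul, r38hb1_smul_eq, mul_assoc]⟩

/-- `θ` as a `ℚ̄`-linear map on `F_N`. -/
def r38hb1_thetaLin (N : ℕ) [NeZero N] : FF N →ₗ[Kb] LaurentSeries Kb where
  toFun X := thetaFun (X : LaurentSeries Kb)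
  map_add' X Y := by
    show thetaFun (((X + Y : FF N)) : LaurentSeries Kb) = _
    rw [show (((X + Y : FF N)) : LaurentSeries Kb) = (X : LaurentSeries Kb) + Y from rfl,
      thetaFun_add]
  map_smul' c X := by
    show thetaFun (((c • X : FF N)) : LaurentSeries Kb) = c • thetaFun (X : LaurentSeries Kb)
    rw [r38hb1_coe_smul, r38hb1_smul_eq, thetaFun_mul, thetaFun_C, mul_zero, add_zero]

/-- `θ` as a derivation `F_N → ℚ̄((q))`. -/
def r38hb1_theta (N : ℕ) [NeZero N] : Derivation Kb (FF N) (LaurentSeries Kb) :=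
  Derivation.mk' (r38hb1_thetaLin N) (fun a b => by
    show thetaFun (((a * b : FF N)) : LaurentSeries Kb) =
      a • thetaFun (b : LaurentSeries Kb) + b • thetaFun (a : LaurentSeries Kb)
    rw [show (((a * b : FF N)) : LaurentSeries Kb) = (a : LaurentSeries Kb) * b from rfl,
      thetaFun_mul]
    rfl)

theorem r38hb1_theta_apply (N : ℕ) [NeZero N] (X : FF N) :
    r38hb1_theta N X = thetaFun (X : LaurentSeries Kb) := rfl

/-- `(dj/dπ) · θ X = (dX/dπ) · θ j` at every place of `F_N`. -/
theorem r38hb1_theta_coeff (N : ℕ) [NeZero N] (v : Place Kb (FF N)) (X j : FF N) :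
    ((v.differentialCoeff (D Kb (FF N) j) : FF N) : LaurentSeries Kb) *
        thetaFun (X : LaurentSeries Kb) =
      ((v.differentialCoeff (D Kb (FF N) X) : FF N) : LaurentSeries Kb) *
        thetaFun (j : LaurentSeries Kb) := by
  haveI := Fermat.Agent.ES.H.finiteDimensional_adjoin_jF N
  have halg : Algebra.IsAlgebraic Kb⟮jF N⟯ (FF N) := Algebra.IsAlgebraic.of_finite _ _
  exact @r38hb1_gen_deriv Kb (FF N) (LaurentSeries Kb) _ _ _ _ _ _ _ _ (r38hb1_theta N) (jF N)
    (transcendental_jF N) halg v X j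

theorem r38hb1_theta_jBar_ne_zero : thetaFun (jBar : LaurentSeries Kb) ≠ 0 := by
  intro h
  have h1 := congrArg (fun f : LaurentSeries Kb => f.coeff (-1)) h
  simp only [thetaFun_coeff, HahnSeries.coeff_zero] at h1
  have h2 : (jBar : LaurentSeries Kb).coeff (-1) ≠ 0 := by
    have h3 : (jBar : LaurentSeries Kb) ≠ 0 := by
      intro h0
      have := order_jBar
      rw [h0, HahnSeries.order_zero] at this
      omega
    intro h5
    apply h3
    rw [← HahnSeries.coeff_order_eq_zero, order_jBar]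
    exact h5
  rcases mul_eq_zero.mp h1 with h4 | h4
  · norm_num at h4
  · exact h2 h4

/-- **(B1-MF)**, route RAM: for `C ∈ F_N` with poles only at the cusps, the functions
`Yt = j (j − 1728) θC / θj`, `Y2 = Yt² / (j − 1728)`, `Y1 = Yt³ / (j (j − 1728))` lie in `F_N` and
have poles only at the cusps. -/
theorem r38hb1_main (N : ℕ) [NeZero N] (C : FF N) (hC : PolesAtCusps N C) :
    ∃ Yt Y1 Y2 : FF N, PolesAtCusps N Yt ∧ PolesAtCusps N Y1 ∧ PolesAtCusps N Y2 ∧
      (Yt : LaurentSeries Kb) * thetaFun jBar =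
          thetaFun (C : LaurentSeries Kb) * jBar * (jBar - 1728) ∧
      (Yt : LaurentSeries Kb) ^ 2 = (Y2 : LaurentSeries Kb) * (jBar - 1728) ∧
      (Yt : LaurentSeries Kb) ^ 3 = (Y1 : LaurentSeries Kb) * jBar * (jBar - 1728) := by
  classical
  haveI hfin := Fermat.Agent.ES.H.finiteDimensional_adjoin_jF N
  have htr := transcendental_jF N
  have halg : Algebra.IsAlgebraic Kb⟮jF N⟯ (FF N) := Algebra.IsAlgebraic.of_finite _ _
  have hres : ∀ v : Place Kb (FF N), ∀ a ∈ v.toValuationSubring, ∃ c : Kb,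
      a - algebraMap Kb (FF N) c ∈ v.toValuationSubring.nonunits :=
    fun v a ha => exists_sub_mem_nonunits (jF N) htr halg v a ha
  set φ : FF N →+* LaurentSeries Kb :=
    (ModularCurve.modularFunctionFieldBar N).toSubfield.subtype with hφd
  have hφ : ∀ y : FF N, φ y = (y : LaurentSeries Kb) := fun _ => rfl
  have hinj : Function.Injective φ := Subtype.val_injective
  have hφj : φ (jF N) = jBar := rfl
  have hφc : φ (algebraMap Kb (FF N) 1728) = 1728 := by
    rw [map_ofNat, map_ofNat]
  have hj0 : jF N ≠ 0 := jF_ne_zero N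
  have hj1 : jF N - algebraMap Kb (FF N) 1728 ≠ 0 := jF_sub_ne_zero N 1728
  -- the place at infinity
  obtain ⟨v₀, hv₀, -⟩ := exists_isCuspInfty N
  have hb₀ : v₀.differentialCoeff (D Kb (FF N) (jF N)) ≠ 0 :=
    DerivLemma.differentialCoeff_D_ne_zero htr halg v₀ (hres v₀)
      (by rw [hv₀.ord_jF]; norm_num)
  set a₀ := v₀.differentialCoeff (D Kb (FF N) C) with ha₀
  set b₀ := v₀.differentialCoeff (D Kb (FF N) (jF N)) with hb₀d
  set W : FF N := jF N * (jF N - algebraMap Kb (FF N) 1728) with hW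
  have hW0 : W ≠ 0 := mul_ne_zero hj0 hj1
  set Yt : FF N := W * a₀ / b₀ with hYt
  have hYb₀ : Yt * b₀ = W * a₀ := by
    rw [hYt, div_mul_cancel₀ _ hb₀]
  have h0 := r38hb1_theta_coeff N v₀ C (jF N)
  -- independence of the place
  have key : ∀ v : Place Kb (FF N),
      Yt * v.differentialCoeff (D Kb (FF N) (jF N)) =
        W * v.differentialCoeff (D Kb (FF N) C) := by
    intro v
    have h1 := r38hb1_theta_coeff N v C (jF N)
    have h2 : a₀ * v.differentialCoeff (D Kb (FF N) (jF N)) =
        v.differentialCoeff (D Kb (FF N) C) * b₀ := by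
      apply hinj
      rw [map_mul, map_mul, hφ, hφ, hφ, hφ]
      apply mul_right_cancel₀ r38hb1_theta_jBar_ne_zero
      have e1 : (jF N : LaurentSeries Kb) = jBar := rfl
      rw [e1] at h0 h1
      linear_combination (b₀ : LaurentSeries Kb) * h1 -
        ((v.differentialCoeff (D Kb (FF N) (jF N)) : FF N) : LaurentSeries Kb) * h0
    have h3 : Yt * v.differentialCoeff (D Kb (FF N) (jF N)) * b₀ =
        W * v.differentialCoeff (D Kb (FF N) C) * b₀ := by
      linear_combination (v.differentialCoeff (D Kb (FF N) (jF N))) * hYb₀ + W * h2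
    exact mul_right_cancel₀ hb₀ h3
  -- the local estimates
  have hloc : ∀ v : Place Kb (FF N), 0 ≤ v.ord (jF N) →
      0 ≤ v.ord Yt ∧ 0 ≤ v.ord (Yt ^ 2 / (jF N - algebraMap Kb (FF N) 1728)) ∧
        0 ≤ v.ord (Yt ^ 3 / (jF N * (jF N - algebraMap Kb (FF N) 1728))) := by
    intro v hv
    refine r38hb1_gen_main htr halg v (hres v) C Yt (PlaceAux.mem_of_ord_nonneg v hv)
      (fun h => r38hb1_ram_zero N v h) (fun h => r38hb1_ram_1728 N v h)
      (fun c hc0 hc1 h => r38hb1_ram_gen N c hc0 hc1 v h)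
      (PlaceAux.mem_of_ord_nonneg v (hC v hv)) (key v)
  refine ⟨Yt, Yt ^ 3 / (jF N * (jF N - algebraMap Kb (FF N) 1728)),
    Yt ^ 2 / (jF N - algebraMap Kb (FF N) 1728), fun v hv => (hloc v hv).1,
    fun v hv => (hloc v hv).2.2, fun v hv => (hloc v hv).2.1, ?_, ?_, ?_⟩
  · -- `Yt θj = θC j (j − 1728)`
    have e1 : (jF N : LaurentSeries Kb) = jBar := rfl
    rw [e1] at h0
    have h4 : (Yt : LaurentSeries Kb) * (b₀ : LaurentSeries Kb) =
        jBar * (jBar - 1728) * (a₀ : LaurentSeries Kb) := by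
      have := congrArg φ hYb₀
      rw [map_mul, map_mul, hW, map_mul, map_sub, hφj, hφc] at this
      exact this
    have hb₀' : (b₀ : LaurentSeries Kb) ≠ 0 := fun h => hb₀ (hinj (by rw [hφ, h, map_zero]))
    apply mul_right_cancel₀ hb₀'
    linear_combination thetaFun jBar * h4 - jBar * (jBar - 1728) * h0
  · have h5 : Yt ^ 2 = Yt ^ 2 / (jF N - algebraMap Kb (FF N) 1728) *
        (jF N - algebraMap Kb (FF N) 1728) := by
      rw [div_mul_cancel₀ _ hj1]
    have := congrArg φ h5
    rw [map_pow, map_mul, map_sub, hφj, hφc] at this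
    exact this
  · have h5 : Yt ^ 3 = Yt ^ 3 / (jF N * (jF N - algebraMap Kb (FF N) 1728)) *
        (jF N * (jF N - algebraMap Kb (FF N) 1728)) := by
      rw [div_mul_cancel₀ _ hW0]
    have := congrArg φ h5
    rw [map_pow, map_mul, map_mul, map_sub, hφj, hφc, ← mul_assoc] at this
    exact this

end Modular

end Fermat.Agent.R38
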