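import Fermat.Agent.R38.PlanHol
import Fermat.Agent.R38.HolB1Der

/-!
# R38 / HOL-B1-MF: `stmtHolMFAll : StmtHolMFAll`

Characteristic `0`: for `C ∈ F_N` with poles only at the cusps, the functions
`Yt = j (j − 1728) θC / θj`, `Y2 = Yt² / (j − 1728)`, `Y1 = Yt³ / (j (j − 1728))` lie in `F_N` and
have poles only at the cusps.  Route RAM (`R38/HolB1Ram.lean`, `R38/HolB1Der.lean`): the derivative
lemma of `S24` at every place and the ramification of `F_N / ℚ̄(j)` over `0`, `1728`; no modular
forms are used.
-/

set_option autoImplicit false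

namespace Fermat.Agent.R38

/-- **(B1-MF)** at level `N`. -/
theorem stmtHolMF (N : ℕ) [NeZero N] : StmtHolMF N := fun C hC => r38hb1_main N C hC

/-- **(B1-MF)**. -/
theorem stmtHolMFAll : StmtHolMFAll := fun N _ => stmtHolMF N

end Fermat.Agent.R38
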