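import Mathlib

/-!
# R38 TRES, route HOL-dlog, piece DED (helper26): the Dedekind trick — pure algebra

`B` a Dedekind domain, `F = Frac B`, `p > 0`, `r ∈ Fˣ` with `p ∣ ord_v(r)` at every nonzero prime
`v` of `B`.  Then `r B = 𝔞ᵖ` for a fractional ideal `𝔞`, and

* `r38hded_span` : `r` is a `B`-linear combination of `p`-th powers `aᵖ` with `aᵖ ∈ B r`;
* `r38hded_family` : the same with an explicit finite family: `r = Σ dᵢ aᵢᵖ`, `aᵢᵖ = cᵢ r`,
  `cᵢ, dᵢ ∈ B`;
* `r38hded_dlog` : for a map `D : F → F` which is additive, satisfies the Leibniz rule and kills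
  `p`-th powers (a derivation in characteristic `p`), and a set `𝔑 ⊂ F` stable under sums and
  multiplication by `B` with `D(B) ⊂ 𝔑`:  `D r / r ∈ 𝔑`.

The hypothesis is given in two forms: with `FractionalIdeal.count` (`_count`) and with the
`v`-adic valuation `WithZero.log (v.valuation F r)`.
-/

set_option autoImplicit false
set_option linter.unusedSectionVars false

namespace Fermat.Agent.R38

open IsDedekindDomain IsDedekindDomain.HeightOneSpectrum FractionalIdeal
open scoped nonZeroDivisors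

variable {B : Type*} [CommRing B] [IsDedekindDomain B] {F : Type*} [Field F] [Algebra B F]
  [IsFractionRing B F]

/-- a nonzero fractional ideal all of whose exponents are divisible by `p` is a `p`-th power -/
theorem r38hded_exists_root (p : ℕ) (hp : 0 < p) (I : FractionalIdeal B⁰ F) (hI : I ≠ 0)
    (hdiv : ∀ v : HeightOneSpectrum B, (p : ℤ) ∣ count F v I) :
    ∃ J : FractionalIdeal B⁰ F, J ≠ 0 ∧ J ^ p = I := by
  classical
  have hfin : (Function.mulSupport fun v : HeightOneSpectrum B =>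
      (v.asIdeal : FractionalIdeal B⁰ F) ^ (count F v I / (p : ℤ))).Finite := by
    refine (finite_factors I).subset ?_
    intro v hv
    simp only [Function.mem_mulSupport, ne_eq] at hv
    intro h0
    apply hv
    rw [h0, Int.zero_ediv, zpow_zero]
  have hJp : (∏ᶠ v : HeightOneSpectrum B,
      (v.asIdeal : FractionalIdeal B⁰ F) ^ (count F v I / (p : ℤ))) ^ p = I := by
    rw [finprod_pow hfin]
    conv_rhs => rw [← finprod_heightOneSpectrum_factorization' F hI]
    refine finprod_congr fun v => ?_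
    rw [← zpow_natCast, ← zpow_mul, Int.ediv_mul_cancel (hdiv v)]
  refine ⟨_, ?_, hJp⟩
  intro h0
  rw [h0, zero_pow hp.ne'] at hJp
  exact hI hJp.symm

theorem r38hded_pow_mem_pow (J : FractionalIdeal B⁰ F) {a : F} (ha : a ∈ J) (n : ℕ) :
    a ^ n ∈ J ^ n := by
  induction n with
  | zero =>
    rw [pow_zero, pow_zero]
    exact FractionalIdeal.one_mem_one _
  | succ n ih =>
    rw [pow_succ, pow_succ]
    exact FractionalIdeal.mul_mem_mul ih ha

/-- **(DED), span form.**  If `𝔞ᵖ = r B` then `r` lies in the `B`-span of the `p`-th powers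
`aᵖ ∈ B r`. -/
theorem r38hded_span_of_root (p : ℕ) (r : F) (hr : r ≠ 0) (J : FractionalIdeal B⁰ F)
    (hJ : J ≠ 0) (hJp : J ^ p = spanSingleton B⁰ r) :
    r ∈ Submodule.span B {x : F | ∃ a : F, x = a ^ p ∧ ∃ c : B, a ^ p = algebraMap B F c * r} := by
  classical
  set T : Submodule B F :=
    Submodule.span B {x : F | ∃ a : F, x = a ^ p ∧ ∃ c : B, a ^ p = algebraMap B F c * r} with hT
  -- the set of products
  set S : Set B := {x | ∃ a ∈ J, ∃ b ∈ J⁻¹, algebraMap B F x = a * b} with hS
  have hinj : Function.Injective (algebraMap B F) := IsFractionRing.injective B F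
  have hone : J * J⁻¹ = 1 := mul_inv_cancel₀ hJ
  have hspan : Ideal.span S = ⊤ := by
    have key : ∀ y ∈ J * J⁻¹, ∃ x ∈ Ideal.span S, algebraMap B F x = y := by
      intro y hy
      refine FractionalIdeal.mul_induction_on hy ?_ ?_
      · intro a ha b hb
        have hab : a * b ∈ (1 : FractionalIdeal B⁰ F) := by
          rw [← hone]
          exact FractionalIdeal.mul_mem_mul ha hb
        obtain ⟨x, hx⟩ := (FractionalIdeal.mem_one_iff B⁰).1 hab
        exact ⟨x, Ideal.subset_span ⟨a, ha, b, hb, hx⟩, hx⟩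
      · rintro y z ⟨x, hx, rfl⟩ ⟨x', hx', rfl⟩
        exact ⟨x + x', Ideal.add_mem _ hx hx', map_add _ _ _⟩
    obtain ⟨x, hx, hx1⟩ := key 1 (by rw [hone]; exact FractionalIdeal.one_mem_one _)
    have : x = 1 := hinj (by rw [hx1, map_one])
    rw [Ideal.eq_top_iff_one, ← this]
    exact hx
  have hspanp : Ideal.span ((fun x : B => x ^ p) '' S) = ⊤ := Ideal.span_pow_eq_top S hspan p
  have hinvp : J⁻¹ ^ p = spanSingleton B⁰ r⁻¹ := by
    rw [inv_pow, hJp, spanSingleton_inv]
  have key : ∀ z ∈ Ideal.span ((fun x : B => x ^ p) '' S), algebraMap B F z * r ∈ T := by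
    intro z hz
    refine Submodule.span_induction ?_ ?_ ?_ ?_ hz
    · rintro _ ⟨x, ⟨a, ha, b, hb, hx⟩, rfl⟩
      obtain ⟨c, hc⟩ := (FractionalIdeal.mem_spanSingleton B⁰).1
        (hJp ▸ r38hded_pow_mem_pow J ha p)
      obtain ⟨β, hβ⟩ := (FractionalIdeal.mem_spanSingleton B⁰).1
        (hinvp ▸ r38hded_pow_mem_pow J⁻¹ hb p)
      have hap : a ^ p = algebraMap B F c * r := by rw [← hc, Algebra.smul_def]
      have hbp : b ^ p = algebraMap B F β * r⁻¹ := by rw [← hβ, Algebra.smul_def]
      have : algebraMap B F (x ^ p) * r = β • a ^ p := by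
        rw [map_pow, hx, mul_pow, hbp, Algebra.smul_def]
        field_simp
      rw [this]
      exact Submodule.smul_mem _ _ (Submodule.subset_span ⟨a, rfl, c, hap⟩)
    · rw [map_zero, zero_mul]
      exact Submodule.zero_mem _
    · intro x y _ _ hx hy
      rw [map_add, add_mul]
      exact Submodule.add_mem _ hx hy
    · intro b x _ hx
      have : algebraMap B F (b • x) * r = b • (algebraMap B F x * r) := by
        rw [smul_eq_mul, map_mul, Algebra.smul_def, mul_assoc]
      rw [this]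
      exact Submodule.smul_mem _ _ hx
  have h1 := key 1 (by rw [hspanp]; exact Submodule.mem_top)
  rwa [map_one, one_mul] at h1

/-- **(DED), span form, hypothesis on `count`.** -/
theorem r38hded_span_count (p : ℕ) (hp : 0 < p) (r : F) (hr : r ≠ 0)
    (hdiv : ∀ v : HeightOneSpectrum B, (p : ℤ) ∣ count F v (spanSingleton B⁰ r)) :
    r ∈ Submodule.span B {x : F | ∃ a : F, x = a ^ p ∧ ∃ c : B, a ^ p = algebraMap B F c * r} := by
  have hI : spanSingleton B⁰ r ≠ 0 := by
    rw [Ne, spanSingleton_eq_zero_iff]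
    exact hr
  obtain ⟨J, hJ, hJp⟩ := r38hded_exists_root p hp (spanSingleton B⁰ r) hI hdiv
  exact r38hded_span_of_root p r hr J hJ hJp

/-- the exponent of `v` in `r B` is the additive `v`-adic valuation of `r` -/
theorem r38hded_count_spanSingleton (v : HeightOneSpectrum B) (r : F) (hr : r ≠ 0) :
    count F v (spanSingleton B⁰ r) = - WithZero.log (v.valuation F r) := by
  classical
  obtain ⟨n, d, hd, hnd⟩ := IsFractionRing.div_surjective (A := B) r
  have hd0 : d ≠ 0 := nonZeroDivisors.ne_zero hd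
  have hdF : algebraMap B F d ≠ 0 := by
    rw [Ne, map_eq_zero_iff _ (IsFractionRing.injective B F)]
    exact hd0
  have hn0 : n ≠ 0 := by
    rintro rfl
    rw [map_zero, zero_div] at hnd
    exact hr hnd.symm
  have hI0 : spanSingleton B⁰ r ≠ 0 := by
    rw [Ne, spanSingleton_eq_zero_iff]
    exact hr
  have hI : spanSingleton B⁰ r =
      spanSingleton B⁰ ((algebraMap B F) d)⁻¹ * ↑(Ideal.span {n} : Ideal B) := by
    rw [coeIdeal_span_singleton, spanSingleton_mul_spanSingleton, ← hnd]
    congr 1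
    field_simp
  rw [count_well_defined F v hI0 hI, ← hnd, map_div₀, valuation_of_algebraMap,
    valuation_of_algebraMap, intValuation_if_neg v hn0, intValuation_if_neg v hd0,
    WithZero.log_div (WithZero.exp_ne_zero) (WithZero.exp_ne_zero), WithZero.log_exp,
    WithZero.log_exp]
  ring

/-- **(DED), span form, hypothesis on the valuations.** -/
theorem r38hded_span (p : ℕ) (hp : 0 < p) (r : F) (hr : r ≠ 0)
    (hdiv : ∀ v : HeightOneSpectrum B, (p : ℤ) ∣ WithZero.log (v.valuation F r)) :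
    r ∈ Submodule.span B {x : F | ∃ a : F, x = a ^ p ∧ ∃ c : B, a ^ p = algebraMap B F c * r} := by
  refine r38hded_span_count p hp r hr fun v => ?_
  rw [r38hded_count_spanSingleton v r hr]
  exact (dvd_neg).2 (hdiv v)

/-- from the span form to an explicit finite family: `r = Σ dᵢ aᵢᵖ`, `aᵢᵖ = cᵢ r`, `Σ dᵢ cᵢ = 1` -/
theorem r38hded_family_of_span (p : ℕ) (r : F) (hr : r ≠ 0)
    (hspan : r ∈ Submodule.span B
      {x : F | ∃ a : F, x = a ^ p ∧ ∃ c : B, a ^ p = algebraMap B F c * r}) :
    ∃ (n : ℕ) (a : Fin n → F) (c d : Fin n → B),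
      (∀ i, a i ^ p = algebraMap B F (c i) * r) ∧
      r = ∑ i, algebraMap B F (d i) * a i ^ p ∧ ∑ i, d i * c i = 1 := by
  classical
  obtain ⟨n, d, g, hg⟩ := Submodule.mem_span_set'.1 hspan
  choose a ha c hc using fun i => (g i).2
  have hsum : r = ∑ i, algebraMap B F (d i) * a i ^ p := by
    rw [← hg]
    refine Finset.sum_congr rfl fun i _ => ?_
    rw [Algebra.smul_def, ha i]
  refine ⟨n, a, c, d, hc, hsum, ?_⟩
  apply IsFractionRing.injective B F
  have h2 : r = (∑ i, algebraMap B F (d i) * algebraMap B F (c i)) * r := by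
    conv_lhs => rw [hsum]
    rw [Finset.sum_mul]
    refine Finset.sum_congr rfl fun i _ => ?_
    rw [hc i, mul_assoc]
  have h3 : (∑ i, algebraMap B F (d i) * algebraMap B F (c i)) = 1 := by
    have h4 : (∑ i, algebraMap B F (d i) * algebraMap B F (c i) - 1) * r = 0 := by
      rw [sub_mul, one_mul, ← h2, sub_self]
    rcases mul_eq_zero.1 h4 with h | h
    · exact sub_eq_zero.1 h
    · exact (hr h).elim
  rw [map_sum, map_one, ← h3]
  refine Finset.sum_congr rfl fun i _ => ?_
  rw [map_mul]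

/-- **(DED), explicit family.** -/
theorem r38hded_family (p : ℕ) (hp : 0 < p) (r : F) (hr : r ≠ 0)
    (hdiv : ∀ v : HeightOneSpectrum B, (p : ℤ) ∣ WithZero.log (v.valuation F r)) :
    ∃ (n : ℕ) (a : Fin n → F) (c d : Fin n → B),
      (∀ i, a i ^ p = algebraMap B F (c i) * r) ∧
      r = ∑ i, algebraMap B F (d i) * a i ^ p ∧ ∑ i, d i * c i = 1 :=
  r38hded_family_of_span p r hr (r38hded_span p hp r hr hdiv)

/-- the logarithmic derivative: span form ⇒ `D r / r ∈ 𝔑` -/
theorem r38hded_dlog_of_span (p : ℕ) (r : F)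
    (hspan : r ∈ Submodule.span B
      {x : F | ∃ a : F, x = a ^ p ∧ ∃ c : B, a ^ p = algebraMap B F c * r})
    (D : F → F) (hadd : ∀ a b, D (a + b) = D a + D b)
    (hmul : ∀ a b, D (a * b) = a * D b + b * D a) (hpow : ∀ a, D (a ^ p) = 0)
    (N : F → Prop) (hN0 : N 0) (hNadd : ∀ x y, N x → N y → N (x + y))
    (hNsmul : ∀ (b : B) (x : F), N x → N (algebraMap B F b * x))
    (hDB : ∀ b : B, N (D (algebraMap B F b))) :
    N (D r / r) := by
  have hD0 : D 0 = 0 := by
    have h := hadd 0 0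
    rw [add_zero] at h
    exact left_eq_add.1 h
  have key : ∀ x ∈ Submodule.span B
      {x : F | ∃ a : F, x = a ^ p ∧ ∃ c : B, a ^ p = algebraMap B F c * r},
      (∃ c : B, x = algebraMap B F c * r) ∧ N (D x / r) := by
    intro x hx
    refine Submodule.span_induction ?_ ?_ ?_ ?_ hx
    · rintro _ ⟨a, rfl, c, hc⟩
      refine ⟨⟨c, hc⟩, ?_⟩
      rw [hpow, zero_div]
      exact hN0
    · refine ⟨⟨0, by rw [map_zero, zero_mul]⟩, ?_⟩
      rw [hD0, zero_div]
      exact hN0
    · rintro x y _ _ ⟨⟨c, hc⟩, hx⟩ ⟨⟨c', hc'⟩, hy⟩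
      refine ⟨⟨c + c', by rw [map_add, add_mul, hc, hc']⟩, ?_⟩
      rw [hadd, add_div]
      exact hNadd _ _ hx hy
    · rintro b x _ ⟨⟨c, hc⟩, hx⟩
      refine ⟨⟨b * c, by rw [Algebra.smul_def, map_mul, mul_assoc, hc]⟩, ?_⟩
      by_cases hr : r = 0
      · rw [hr, _root_.div_zero]
        exact hN0
      have h1 : D (b • x) / r =
          algebraMap B F b * (D x / r) + algebraMap B F c * D (algebraMap B F b) := by
        rw [Algebra.smul_def, hmul, add_div, mul_div_assoc]
        congr 1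
        rw [hc]
        field_simp
      rw [h1]
      exact hNadd _ _ (hNsmul b _ hx) (hNsmul c _ (hDB b))
  exact (key r hspan).2

/-- **(DED), final form.**  `B` Dedekind, `F = Frac B`, `p ∣ ord_v(r)` for all `v`, `D` additive
with the Leibniz rule and `D(aᵖ) = 0`, `𝔑 ⊂ F` stable under `+` and under multiplication by `B`,
`D(B) ⊂ 𝔑`.  Then `D r / r ∈ 𝔑`. -/
theorem r38hded_dlog (p : ℕ) (hp : 0 < p) (r : F) (hr : r ≠ 0)
    (hdiv : ∀ v : HeightOneSpectrum B, (p : ℤ) ∣ WithZero.log (v.valuation F r))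
    (D : F → F) (hadd : ∀ a b, D (a + b) = D a + D b)
    (hmul : ∀ a b, D (a * b) = a * D b + b * D a) (hpow : ∀ a, D (a ^ p) = 0)
    (N : F → Prop) (hN0 : N 0) (hNadd : ∀ x y, N x → N y → N (x + y))
    (hNsmul : ∀ (b : B) (x : F), N x → N (algebraMap B F b * x))
    (hDB : ∀ b : B, N (D (algebraMap B F b))) :
    N (D r / r) :=
  r38hded_dlog_of_span p r (r38hded_span p hp r hr hdiv) D hadd hmul hpow N hN0 hNadd hNsmul hDB

end Fermat.Agent.R38
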