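import Fermat.Agent.R38.PlanHol
import Fermat.Agent.R38.HolDed
import Fermat.Agent.DEU.ResSide
import Fermat.Agent.DEU.ResFund
import Fermat.Agent.ES.I2.Res

/-!
# R38 TRES, route HOL-dlog, piece DED (helper26): `StmtHolDed`

`B̄ = S24.intClosure j̄` (integral closure of `k[j̄]` in `F̄ = modularFunctionFieldFullC k N`) is a
Dedekind domain with fraction field `F̄` (`DEU.resFund_intClosure_facts`, `F̄ / k(j̄)` finite
separable: `DEU.resSide_*`); its nonzero primes are places of `F̄` at which `j̄` is regular
(`S24.placeOfPrime`).  The abstract Dedekind trick `r38hded_family` gives `r = Σ dᵢ aᵢ^ℓ`,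
`aᵢ^ℓ = cᵢ r`; apply `θ` (`θ (a^ℓ) = 0` in characteristic `ℓ`).
-/

set_option autoImplicit false
set_option linter.style.haveILetI false
set_option linter.unusedSectionVars false

noncomputable section

namespace Fermat.Agent.R38

open ModularCurve AlgebraicCurve HahnSeries Polynomial IntermediateField IsDedekindDomain
open Fermat.Agent.S24 Fermat.Agent.DEU Fermat.Agent.ES.I2 Fermat.Agent.S28.Deriv

variable (k : Type) [Field k] (N : ℕ) [NeZero N]

/-- integrality over `k[j̄]` inside `F̄` is `IntJ` -/
theorem r38hded_intJ_of_isIntegral (z : ↥(modularFunctionFieldFullC k N))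
    (hz : (Polynomial.aeval (R := k) (holJ k N)).toRingHom.IsIntegralElem z) :
    IntJ (jqModC k) (z : LaurentSeries k) := by
  obtain ⟨p, hp, h0⟩ := hz
  refine ⟨p, hp, ?_⟩
  have h1 := Polynomial.hom_eval₂ p (Polynomial.aeval (R := k) (holJ k N)).toRingHom
    (modularFunctionFieldFullC k N).val.toRingHom z
  have h2 : (modularFunctionFieldFullC k N).val.toRingHom.comp
      (Polynomial.aeval (R := k) (holJ k N)).toRingHom =
        (Polynomial.aeval (R := k) (jqModC k)).toRingHom := by
    have h3 : (Polynomial.aeval (R := k) ((modularFunctionFieldFullC k N).val (holJ k N))) =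
        (modularFunctionFieldFullC k N).val.comp (Polynomial.aeval (holJ k N)) :=
      Polynomial.aeval_algHom _ _
    have h4 : (modularFunctionFieldFullC k N).val (holJ k N) = jqModC k := rfl
    rw [h4] at h3
    rw [h3]
    rfl
  rw [h2] at h1
  have h5 : (modularFunctionFieldFullC k N).val.toRingHom z = (z : LaurentSeries k) := rfl
  rw [h5] at h1
  rw [← h1, h0, map_zero]

theorem r38hded_thetaFun_sum {ι : Type*} (s : Finset ι) (f : ι → LaurentSeries k) :
    thetaFun (∑ i ∈ s, f i) = ∑ i ∈ s, thetaFun (f i) := by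
  classical
  induction s using Finset.induction_on with
  | empty => simp [thetaFun_zero]
  | insert a s ha ih => rw [Finset.sum_insert ha, Finset.sum_insert ha, thetaFun_add, ih]

theorem r38hded_thetaFun_pow_char (ℓ : ℕ) [CharP k ℓ] (y : LaurentSeries k) :
    thetaFun (y ^ ℓ) = 0 := by
  rw [thetaFun_pow]
  have h : ((ℓ : ℕ) : LaurentSeries k) = 0 := by
    have h1 : ((ℓ : ℕ) : LaurentSeries k) = algebraMap k (LaurentSeries k) ((ℓ : ℕ) : k) :=
      (map_natCast (algebraMap k (LaurentSeries k)) ℓ).symm
    rw [h1, CharP.cast_eq_zero k ℓ, map_zero]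
  rw [h, zero_mul, zero_mul]

/-- **(DED)** the Dedekind trick on `F̄`. -/
theorem r38hded_stmtHolDed : StmtHolDed := by
  intro k _ ℓ _ _ _ N _ _ r hr hdiv
  classical
  have hx0 : holJ k N ≠ 0 := by
    intro h
    have h1 : (jqModC k).coeff (-1 : ℤ) = 1 := coeff_jqModC_neg_one k
    have h2 : ((holJ k N : ↥(modularFunctionFieldFullC k N)) : LaurentSeries k) = 0 := by
      rw [h]; rfl
    have h3 : jqModC k = 0 := h2
    rw [h3, HahnSeries.coeff_zero] at h1
    exact zero_ne_one h1
  have htr : Transcendental k (holJ k N) := resSide_transcendental_J k N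
  haveI : FiniteDimensional k⟮holJ k N⟯ ↥(modularFunctionFieldFullC k N) :=
    resSide_finiteDimensional k N
  haveI : Algebra.IsSeparable k⟮holJ k N⟯ ↥(modularFunctionFieldFullC k N) :=
    resSide_isSeparable k ℓ N
  letI := polyAlgebra (K := k) (holJ k N)
  obtain ⟨hD, hF, -⟩ := resFund_intClosure_facts (K := k) (holJ k N) htr
  haveI := hD
  haveI := hF
  have hval : ∀ w : HeightOneSpectrum (intClosure (K := k) (holJ k N)),
      (ℓ : ℤ) ∣ WithZero.log (w.valuation ↥(modularFunctionFieldFullC k N) r) := by
    intro w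
    have e : algebraMap (intClosure (K := k) (holJ k N)) ↥(modularFunctionFieldFullC k N)
        (algebraMap k[X] (intClosure (K := k) (holJ k N)) X) = holJ k N :=
      PlacesAux.algebraMap_X (K := k) (holJ k N)
    have hle : w.valuation ↥(modularFunctionFieldFullC k N) (holJ k N) ≤ 1 :=
      le_of_eq_of_le (congrArg (w.valuation ↥(modularFunctionFieldFullC k N)) e.symm)
        (w.valuation_le_one _)
    have hQ := hdiv (placeOfPrime (PlacesAux.hK (holJ k N)) w) (by
      rw [PlaceAux.ord_nonneg_iff _ hx0, placeOfPrime_toValuationSubring,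
        Valuation.mem_valuationSubring_iff]
      exact hle)
    rw [placeOfPrime_ord _ w hr] at hQ
    exact (dvd_neg).1 hQ
  obtain ⟨n, a, c, d, hc, hsum, -⟩ :=
    r38hded_family ℓ (Fact.out : ℓ.Prime).pos r hr hval
  refine ⟨n, fun i => (((c i : ↥(modularFunctionFieldFullC k N))) : LaurentSeries k),
    fun i => (((d i : ↥(modularFunctionFieldFullC k N))) : LaurentSeries k), ?_, ?_, ?_⟩
  · intro i
    exact ⟨(c i : ↥(modularFunctionFieldFullC k N)).2,
      r38hded_intJ_of_isIntegral k N _ (c i).2⟩
  · intro i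
    exact ⟨(d i : ↥(modularFunctionFieldFullC k N)).2,
      r38hded_intJ_of_isIntegral k N _ (d i).2⟩
  · have hcoe : (r : LaurentSeries k) =
        ∑ i, ((d i : ↥(modularFunctionFieldFullC k N)) : LaurentSeries k) *
          ((a i : ↥(modularFunctionFieldFullC k N)) : LaurentSeries k) ^ ℓ := by
      have h := congrArg (modularFunctionFieldFullC k N).val hsum
      rw [map_sum] at h
      exact h
    have hci : ∀ i, ((a i : ↥(modularFunctionFieldFullC k N)) : LaurentSeries k) ^ ℓ =
        ((c i : ↥(modularFunctionFieldFullC k N)) : LaurentSeries k) * (r : LaurentSeries k) := by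
      intro i
      exact congrArg (modularFunctionFieldFullC k N).val (hc i)
    conv_lhs => rw [hcoe]
    rw [r38hded_thetaFun_sum, Finset.mul_sum]
    refine Finset.sum_congr rfl fun i _ => ?_
    rw [thetaFun_mul, r38hded_thetaFun_pow_char k ℓ, mul_zero, zero_add, hci i]
    ring

end Fermat.Agent.R38

end
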