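import Fermat.Agent.DEU.ModPRFinal

/-!
# R38 / TRES / HOL — piece B1-LIFT: lifting of the functions regular outside the cusps

`k = kA A`, `ℓ ∤ N`, `F̄ = modularFunctionFieldFullC k N`.  Every `c ∈ F̄` integral over `k[j̄]` is the
reduction of a function `C ∈ F_N` with `A`-integral `q`-expansion and poles only at the cusps:

`r38hlift_main : c ∈ F̄ → IntJ j̄ c → ∃ C : A((q)), C ∈ F_N ∧ PolesAtCusps C ∧ C̄ = c`.

Proof: Deuring's reduction of places (`DEU`): `c ∈ L̄(m · r_* (j)_∞)` for `m` large, and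
`red (L(D)) = L̄(r_* D)` in large degree (lifting of sections); a Gauss-integral function with
poles only at the cusps has an `A`-integral `q`-expansion (Lemma R, `StmtLRa`).
-/

set_option autoImplicit false
set_option linter.unusedSectionVars false
set_option linter.style.haveILetI false
set_option synthInstance.maxHeartbeats 400000
set_option maxHeartbeats 1600000

open ModularCurve AlgebraicCurve HahnSeries Module

namespace Fermat.Agent.R38

open Fermat.Agent.ES Fermat.Agent.S24 Fermat.Agent.ES.M Fermat.Agent.DEU Fermat.Agent.ES.I2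

section Abstract

variable {K F : Type*} [Field K] [Field F] [Algebra K F]

/-- an element integral over `K[τ]` lies in every valuation ring (of a place) containing `τ` -/
theorem r38hlift_mem_place (v : Place K F) (τ x : F) (hτ : τ ∈ v.toValuationSubring)
    (p : Polynomial (Polynomial K)) (hp : p.Monic)
    (hx : p.eval₂ (Polynomial.aeval τ).toRingHom x = 0) : x ∈ v.toValuationSubring := by
  let φ : Polynomial K →+* v.toValuationSubring :=
    (Polynomial.aeval (⟨τ, hτ⟩ : v.toValuationSubring)).toRingHom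
  have hφ : (algebraMap v.toValuationSubring F).comp φ = (Polynomial.aeval τ).toRingHom := by
    ext a
    · show algebraMap v.toValuationSubring F
        (Polynomial.aeval (⟨τ, hτ⟩ : v.toValuationSubring) (Polynomial.C a)) =
          Polynomial.aeval τ (Polynomial.C a)
      rw [Polynomial.aeval_C, Polynomial.aeval_C]
      rfl
    · show algebraMap v.toValuationSubring F
        (Polynomial.aeval (⟨τ, hτ⟩ : v.toValuationSubring) Polynomial.X) =
          Polynomial.aeval τ Polynomial.X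
      rw [Polynomial.aeval_X, Polynomial.aeval_X]
      rfl
  have hint : IsIntegral v.toValuationSubring x := by
    refine ⟨p.map φ, hp.map φ, ?_⟩
    rw [Polynomial.eval₂_map, hφ]
    exact hx
  obtain ⟨y, hy⟩ := IsIntegrallyClosed.isIntegral_iff.mp hint
  rw [← hy]
  exact y.2

/-- **lifting of integral functions, abstract form.**  In the setting of Deuring's dimension count
(`DEU.Hyp`), `t ∈ O` with `t̄ ≠ 0` and a pole at `Pinf`: every `c ∈ F̄` integral over `k[t̄]` is the
reduction of an `f ∈ O` which is regular wherever `t` is. -/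
theorem r38hlift_abs {k Fb : Type*} [Field k] [Field Fb] [Algebra k Fb]
    {R : RedData K F k Fb} {Pinf : Place K F} {Qinf : Place k Fb} {g n₀ : ℕ}
    (H : Hyp R Pinf Qinf g n₀) (t : R.O) (ht0 : R.red t ≠ 0) (hPinf : Pinf.ord (t : F) < 0)
    (cF : Fb) (p : Polynomial (Polynomial k)) (hp : p.Monic)
    (hpc : p.eval₂ (Polynomial.aeval (R.red t)).toRingHom cF = 0) :
    ∃ f : R.O, (∀ P : Place K F, 0 ≤ P.ord (t : F) → 0 ≤ P.ord (f : F)) ∧ R.red f = cF := by
  classical
  haveI := H.hpdF
  haveI := H.hpdk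
  have htF0 : (t : F) ≠ 0 := R.coe_ne_zero_of_red_ne_zero ht0
  obtain ⟨Z, hZ, -⟩ := HasPrincipalDivisors.exists_divisor (K := K) (t : F) htF0
  -- the pole divisor of `t`
  let Dinf : Divisor K F := Z.mapRange (fun n => max 0 (-n)) (by simp)
  have hDinf : ∀ P, Dinf P = max 0 (-(P.ord (t : F))) := fun P => by
    show (Z.mapRange (fun n => max 0 (-n)) (by simp)) P = _
    rw [Finsupp.mapRange_apply, hZ]
  have hDinf0 : 0 ≤ Dinf := by
    rw [Finsupp.le_def]
    intro P
    rw [hDinf]
    exact le_max_left _ _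
  have hZD : 0 ≤ Z + Dinf := by
    rw [Finsupp.le_def]
    intro P
    rw [Finsupp.add_apply, hDinf, hZ]
    have := le_max_right 0 (-(P.ord (t : F)))
    simp only [Finsupp.coe_zero, Pi.zero_apply]
    omega
  -- `r_* Dinf`
  have hr0 : ∀ Q, 0 ≤ Finsupp.mapDomain H.r Dinf Q := fun Q => by
    have := Finsupp.le_def.mp (Finsupp.mapDomain_nonneg (f := H.r) hDinf0) Q
    simpa using this
  have hrpole : ∀ Q : Place k Fb, -(Q.ord (R.red t)) ≤ Finsupp.mapDomain H.r Dinf Q := by
    intro Q
    have h1 := Finsupp.le_def.mp (Finsupp.mapDomain_nonneg (f := H.r) hZD) Q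
    rw [Finsupp.mapDomain_add, Finsupp.add_apply, H.mapDomain_r_principal t ht0 Z hZ Q] at h1
    simp only [Finsupp.coe_zero, Pi.zero_apply] at h1
    omega
  -- the degree of `Dinf`
  have hdeg1 : (1 : ℤ) ≤ Divisor.degree Dinf := by
    have h1 : Finsupp.single Pinf (1 : ℤ) ≤ Dinf := by
      rw [Finsupp.le_def]
      intro P
      rw [Finsupp.single_apply]
      split_ifs with h
      · subst h
        rw [hDinf]
        have := le_max_right 0 (-(Pinf.ord (t : F)))
        omega
      · exact Finsupp.le_def.mp hDinf0 P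
    have h2 := Fermat.Agent.ES.R.degree_mono h1
    rw [Divisor.degree_single, Fermat.Agent.ES.R.place_deg_eq_one _ (H.hresF _)] at h2
    simpa using h2
  obtain ⟨Zb, hZb, -⟩ := HasPrincipalDivisors.exists_divisor (K := k) (R.red t) ht0
  set m : ℕ := n₀ + 2 * g + ∑ Q ∈ Zb.support, (Q.ord cF).natAbs with hm
  have hmem : cF ∈ riemannRochSpace (Finsupp.mapDomain H.r ((m : ℤ) • Dinf)) := by
    rw [mem_riemannRochSpace_iff]
    intro Q
    by_cases hc0 : cF = 0
    · exact Or.inl hc0
    right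
    rw [Finsupp.mapDomain_smul, Finsupp.smul_apply, smul_eq_mul]
    by_cases hQj : 0 ≤ Q.ord (R.red t)
    · have h1 : cF ∈ Q.toValuationSubring :=
        r38hlift_mem_place Q (R.red t) cF (PlaceAux.mem_of_ord_nonneg Q hQj) p hp hpc
      have h2 : 0 ≤ Q.ord cF := (PlaceAux.ord_nonneg_iff Q hc0).mpr h1
      have h3 := hr0 Q
      have h4 : 0 ≤ (m : ℤ) * Finsupp.mapDomain H.r Dinf Q :=
        mul_nonneg (Int.natCast_nonneg m) h3
      linarith
    · rw [not_le] at hQj
      have h1 : Q ∈ Zb.support := by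
        rw [Finsupp.mem_support_iff, hZb]
        omega
      have h2 : (Q.ord cF).natAbs ≤ m := by
        have h : (Q.ord cF).natAbs ≤ ∑ Q ∈ Zb.support, (Q.ord cF).natAbs :=
          Finset.single_le_sum (f := fun Q => (Q.ord cF).natAbs)
            (fun _ _ => Nat.zero_le _) h1
        omega
      have h3 := hrpole Q
      have h4 : (m : ℤ) ≤ (m : ℤ) * Finsupp.mapDomain H.r Dinf Q := by
        have h5 : (1 : ℤ) ≤ Finsupp.mapDomain H.r Dinf Q := by omega
        have h6 : (0 : ℤ) ≤ m := Int.natCast_nonneg m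
        nlinarith
      have h5 : -(Q.ord cF) ≤ ((Q.ord cF).natAbs : ℤ) := by omega
      have h6 : ((Q.ord cF).natAbs : ℤ) ≤ (m : ℤ) := by exact_mod_cast h2
      linarith
  -- the degree
  have hdeg : (n₀ : ℤ) + 2 * (g : ℤ) ≤ Divisor.degree ((m : ℤ) • Dinf) := by
    rw [map_zsmul, smul_eq_mul]
    have h1 : (n₀ : ℤ) + 2 * (g : ℤ) ≤ (m : ℤ) := by
      rw [hm]
      push_cast
      have : (0 : ℤ) ≤ ∑ Q ∈ Zb.support, |Q.ord cF| :=
        Finset.sum_nonneg fun _ _ => abs_nonneg _
      linarith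
    nlinarith
  -- lifting of sections
  rw [← H.redSpace_rr_eq_mapDomain _ hdeg] at hmem
  obtain ⟨f, hfL, hfred⟩ := hmem
  refine ⟨f, fun P hP => ?_, hfred⟩
  rcases (mem_riemannRochSpace_iff.mp hfL) P with h0 | h1
  · rw [h0]
    simp [Place.ord]
  · rw [Finsupp.smul_apply, hDinf, max_eq_left (by omega)] at h1
    simpa using h1

end Abstract

section Main

variable (N : ℕ) [NeZero N] (A : ValuationSubring Kb)

/-- the integrality relation of `IntJ`, inside `F̄` -/
theorem r38hlift_intJ_full {c : LaurentSeries (kA A)}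
    (hc : c ∈ modularFunctionFieldFullC (kA A) N) (hint : IntJ (jqModC (kA A)) c) :
    ∃ p : Polynomial (Polynomial (kA A)), p.Monic ∧
      p.eval₂ (Polynomial.aeval (deuGood_jk (kA A) N)).toRingHom
        (⟨c, hc⟩ : ↥(modularFunctionFieldFullC (kA A) N)) = 0 := by
  obtain ⟨p, hp, h0⟩ := hint
  refine ⟨p, hp, ?_⟩
  apply Subtype.val_injective
  have h1 := Polynomial.hom_eval₂ p (Polynomial.aeval (deuGood_jk (kA A) N)).toRingHom
    (modularFunctionFieldFullC (kA A) N).val.toRingHom
    (⟨c, hc⟩ : ↥(modularFunctionFieldFullC (kA A) N))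
  have h2 : ((modularFunctionFieldFullC (kA A) N).val.toRingHom).comp
      (Polynomial.aeval (deuGood_jk (kA A) N)).toRingHom =
        (Polynomial.aeval (R := kA A) (jqModC (kA A))).toRingHom := by
    refine RingHom.ext fun a => ?_
    exact (Polynomial.aeval_algHom_apply (modularFunctionFieldFullC (kA A) N).val
      (deuGood_jk (kA A) N) a).symm
  rw [h2] at h1
  exact h1.trans h0

/-- **B1-LIFT**, from the genus bound `StmtI2` in characteristic `ℓ`. -/
theorem r38hlift_of_stmtI2 (ℓ : ℕ) (hℓ : ℓ.Prime) (hℓN : ¬ ℓ ∣ N) (hA : A.LiesOverPrime ℓ)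
    (hI2 : StmtI2 N A)
    (c : LaurentSeries (kA A)) (hc : c ∈ modularFunctionFieldFullC (kA A) N)
    (hint : IntJ (jqModC (kA A)) c) :
    ∃ (C : LaurentSeries A) (hC : kronIncl A C ∈ modularFunctionFieldBar N),
      PolesAtCusps N ⟨kronIncl A C, hC⟩ ∧ kronRed A C = c := by
  classical
  have hRedF : StmtRedF N A := stmtRedF N A ℓ hℓ hℓN hA
  have hLRa : StmtLRa N A := Fermat.Agent.ES.LR.stmtLRa N ℓ hℓ A hA
  obtain ⟨Pinf, Qinf, n₀, hPinf, hQ, H⟩ := deuAnchor_hyp N A hRedF hLRa hI2
    (Fermat.Agent.ES.R.stmtR N) (modHyp_hresk N A) (modHyp_hpdk N A hℓ hA)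
  -- the function `j`
  have ht : jF N ∈ (deuInst_redData N A hRedF).O := deuGood_jF_mem N A hRedF
  have htred : (deuInst_redData N A hRedF).red ⟨jF N, ht⟩ = deuGood_jk (kA A) N :=
    deuGood_red_jF N A hRedF ht
  have htred0 : (deuInst_redData N A hRedF).red ⟨jF N, ht⟩ ≠ 0 :=
    deuGood_red_jF_ne_zero N A hRedF ht
  obtain ⟨p, hp, hpc⟩ := r38hlift_intJ_full N A hc hint
  rw [← htred] at hpc
  have hPj : Pinf.ord (jF N) < 0 := by
    rw [hPinf.ord_jF]
    norm_num
  obtain ⟨f, hfP, hfred⟩ := r38hlift_abs H ⟨jF N, ht⟩ htred0 hPj ⟨c, hc⟩ p hp hpc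
  have hpoles : PolesAtCusps N (f : FF N) := fun P hP => hfP P hP
  have hgi : GaussInt N A (f : FF N) := f.2
  have hki : KronInt A ((f : FF N) : LaurentSeries Kb) := hLRa _ hpoles hgi
  obtain ⟨Y, hY⟩ := kronInt_iff.mp hki
  have hYmem : kronIncl A Y ∈ modularFunctionFieldBar N := by
    rw [hY]
    exact (f : FF N).2
  have hYf : (⟨kronIncl A Y, hYmem⟩ : FF N) = (f : FF N) := Subtype.ext hY
  refine ⟨Y, hYmem, ?_, ?_⟩
  · rw [hYf]
    exact hpoles
  · have hg1 : GaussRed N A (f : FF N) (kronRed A Y) :=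
      ⟨Y, 1, hYmem, by rw [map_one]; exact one_mem _, by rw [map_one]; exact one_ne_zero,
        by rw [map_one, mul_one, hY], by rw [map_one, mul_one]⟩
    have hg2 : GaussRed N A (f : FF N) c :=
      (deuInst_red_iff N A hRedF _ _).mpr ⟨f.2, by
        have : (⟨(f : FF N), f.2⟩ : (deuInst_redData N A hRedF).O) = f := rfl
        rw [this, hfred]⟩
    exact deuInst_gaussRed_unique N A hg1 hg2

end Main

/-- **B1-LIFT** for `ℓ ≥ 5`, unconditional: every `c ∈ F̄` integral over `k[j̄]` is the reduction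
of a function of `F_N` with `A`-integral `q`-expansion and poles only at the cusps. -/
theorem r38hlift_main (N : ℕ) [NeZero N] (ℓ : ℕ) (hℓ : ℓ.Prime) (h5 : 5 ≤ ℓ) (hℓN : ¬ ℓ ∣ N)
    (A : ValuationSubring Kb) (hA : A.LiesOverPrime ℓ)
    (c : LaurentSeries (kA A)) (hc : c ∈ modularFunctionFieldFullC (kA A) N)
    (hint : IntJ (jqModC (kA A)) c) :
    ∃ (C : LaurentSeries A) (hC : kronIncl A C ∈ modularFunctionFieldBar N),
      PolesAtCusps N ⟨kronIncl A C, hC⟩ ∧ kronRed A C = c :=
  r38hlift_of_stmtI2 N A ℓ hℓ hℓN hA (Fermat.Agent.ES.I2.stmtI2All N ℓ hℓ h5 hℓN A hA) c hc hint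

end Fermat.Agent.R38
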