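import Fermat.Agent.R38.PlanHol
import Fermat.Agent.R38.HolLift

/-!
# R38 / TRES / HOL — piece B1-LIFT in the interface form `StmtHolLift`
-/

set_option autoImplicit false

namespace Fermat.Agent.R38

open Fermat.Agent.ES Fermat.Agent.S24 Fermat.Agent.ES.M

/-- **(B1-LIFT)**, from the genus bound `StmtI2` (any `ℓ ∤ N`). -/
theorem stmtHolLift_of_stmtI2 (N : ℕ) [NeZero N] (ℓ : ℕ) (hℓ : ℓ.Prime) (hℓN : ¬ ℓ ∣ N)
    (A : ValuationSubring Kb) (hA : A.LiesOverPrime ℓ) (hI2 : StmtI2 N A) : StmtHolLift N A :=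
  fun c hc => r38hlift_of_stmtI2 N A ℓ hℓ hℓN hA hI2 c hc.1 hc.2

/-- **(B1-LIFT)** for `ℓ ≥ 5`, unconditional. -/
theorem stmtHolLift (N : ℕ) [NeZero N] (ℓ : ℕ) (hℓ : ℓ.Prime) (h5 : 5 ≤ ℓ) (hℓN : ¬ ℓ ∣ N)
    (A : ValuationSubring Kb) (hA : A.LiesOverPrime ℓ) : StmtHolLift N A :=
  fun c hc => r38hlift_main N ℓ hℓ h5 hℓN A hA c hc.1 hc.2

/-- **(B1-LIFT)**, the `All` form of the interface. -/
theorem stmtHolLiftAll : StmtHolLiftAll :=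
  fun N _ ℓ hℓ h5 hℓN A hA => stmtHolLift N ℓ hℓ h5 hℓN A hA

end Fermat.Agent.R38
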