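import Mathlib

/-!
# R38 TRES, route HOL-dlog, piece `𝔑` (helper26): the ideal `𝔑` — pure algebra

`F` a field, `B ⊂ F` a subring which is ROOT CLOSED in `F` (`xⁿ ∈ B ⇒ x ∈ B`; true for an
integrally closed `B`), `u, v ∈ F` nonzero.
`r38hn_N B u v = {y ∈ B : y² ∈ u B, y³ ∈ v u B}` (for `u = j − 1728`, `v = j`, `B = B̄` these are
the hypotheses `h2`, `h3` of `ES.I2.res_main`).

* `r38hn_zero`, `r38hn_add`, `r38hn_neg`, `r38hn_smul` : `𝔑` is an ideal of `B`;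
* `r38hn_sum` : finite sums `Σ bᵢ yᵢ`;
* `r38hn_leibniz_mul`, … : for a map `D` with the Leibniz rule, `{c ∈ B : D c ∈ 𝔑}` is closed
  under `+`, `·`.
-/

set_option autoImplicit false

namespace Fermat.Agent.R38

section ideal

variable {F : Type*} [Field F]

/-- `y ∈ 𝔑`: `y ∈ B`, `y² = y₂ u`, `y³ = y₁ v u` with `y₁, y₂ ∈ B`. -/
def r38hn_N (B : Subring F) (u v : F) (y : F) : Prop :=
  y ∈ B ∧ (∃ y2 ∈ B, y ^ 2 = y2 * u) ∧ ∃ y1 ∈ B, y ^ 3 = y1 * v * u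

variable {B : Subring F} {u v : F}

theorem r38hn_zero : r38hn_N B u v 0 :=
  ⟨B.zero_mem, ⟨0, B.zero_mem, by ring⟩, ⟨0, B.zero_mem, by ring⟩⟩

theorem r38hn_smul {b y : F} (hb : b ∈ B) (hy : r38hn_N B u v y) : r38hn_N B u v (b * y) := by
  obtain ⟨hyB, ⟨y2, hy2, e2⟩, ⟨y1, hy1, e1⟩⟩ := hy
  refine ⟨B.mul_mem hb hyB, ⟨b ^ 2 * y2, B.mul_mem (B.pow_mem hb 2) hy2, ?_⟩,
    ⟨b ^ 3 * y1, B.mul_mem (B.pow_mem hb 3) hy1, ?_⟩⟩
  · rw [mul_pow, e2]; ring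
  · rw [mul_pow, e1]; ring

theorem r38hn_neg {y : F} (hy : r38hn_N B u v y) : r38hn_N B u v (-y) := by
  have := r38hn_smul (b := -1) (B.neg_mem B.one_mem) hy
  rwa [neg_one_mul] at this

/-- the cross term `y z ∈ u B` -/
theorem r38hn_cross2 (hroot : ∀ x : F, ∀ n : ℕ, 0 < n → x ^ n ∈ B → x ∈ B) (hu : u ≠ 0)
    {y z : F} (hy : r38hn_N B u v y) (hz : r38hn_N B u v z) : ∃ t ∈ B, y * z = t * u := by
  obtain ⟨-, ⟨y2, hy2, e2⟩, -⟩ := hy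
  obtain ⟨-, ⟨z2, hz2, f2⟩, -⟩ := hz
  refine ⟨y * z / u, hroot _ 2 (by norm_num) ?_, by field_simp⟩
  have : (y * z / u) ^ 2 = y2 * z2 := by
    rw [div_pow, mul_pow, e2, f2]
    field_simp
  rw [this]
  exact B.mul_mem hy2 hz2

/-- the cross term `y² z ∈ v u B` -/
theorem r38hn_cross3 (hroot : ∀ x : F, ∀ n : ℕ, 0 < n → x ^ n ∈ B → x ∈ B) (hu : u ≠ 0)
    (hv : v ≠ 0) {y z : F} (hy : r38hn_N B u v y) (hz : r38hn_N B u v z) :
    ∃ s ∈ B, y ^ 2 * z = s * v * u := by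
  obtain ⟨-, -, ⟨y1, hy1, e1⟩⟩ := hy
  obtain ⟨-, -, ⟨z1, hz1, f1⟩⟩ := hz
  refine ⟨y ^ 2 * z / (v * u), hroot _ 3 (by norm_num) ?_, by field_simp⟩
  have : (y ^ 2 * z / (v * u)) ^ 3 = y1 ^ 2 * z1 := by
    have h6 : (y ^ 2 * z) ^ 3 = (y ^ 3) ^ 2 * z ^ 3 := by ring
    rw [div_pow, h6, e1, f1]
    field_simp
  rw [this]
  exact B.mul_mem (B.pow_mem hy1 2) hz1

theorem r38hn_add (hroot : ∀ x : F, ∀ n : ℕ, 0 < n → x ^ n ∈ B → x ∈ B) (hu : u ≠ 0)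
    (hv : v ≠ 0) {y z : F} (hy : r38hn_N B u v y) (hz : r38hn_N B u v z) :
    r38hn_N B u v (y + z) := by
  obtain ⟨t, ht, et⟩ := r38hn_cross2 hroot hu hy hz
  obtain ⟨s, hs, es⟩ := r38hn_cross3 hroot hu hv hy hz
  obtain ⟨s', hs', es'⟩ := r38hn_cross3 hroot hu hv hz hy
  obtain ⟨hyB, ⟨y2, hy2, e2⟩, ⟨y1, hy1, e1⟩⟩ := hy
  obtain ⟨hzB, ⟨z2, hz2, f2⟩, ⟨z1, hz1, f1⟩⟩ := hz
  have h2B : (2 : F) ∈ B := by
    have : (2 : F) = 1 + 1 := by norm_num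
    rw [this]; exact B.add_mem B.one_mem B.one_mem
  have h3B : (3 : F) ∈ B := by
    have : (3 : F) = 2 + 1 := by norm_num
    rw [this]; exact B.add_mem h2B B.one_mem
  refine ⟨B.add_mem hyB hzB,
    ⟨y2 + 2 * t + z2, B.add_mem (B.add_mem hy2 (B.mul_mem h2B ht)) hz2, ?_⟩,
    ⟨y1 + 3 * s + 3 * s' + z1,
      B.add_mem (B.add_mem (B.add_mem hy1 (B.mul_mem h3B hs)) (B.mul_mem h3B hs')) hz1, ?_⟩⟩
  · linear_combination e2 + f2 + 2 * et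
  · linear_combination e1 + f1 + 3 * es + 3 * es'

theorem r38hn_sub (hroot : ∀ x : F, ∀ n : ℕ, 0 < n → x ^ n ∈ B → x ∈ B) (hu : u ≠ 0)
    (hv : v ≠ 0) {y z : F} (hy : r38hn_N B u v y) (hz : r38hn_N B u v z) :
    r38hn_N B u v (y - z) := by
  rw [sub_eq_add_neg]
  exact r38hn_add hroot hu hv hy (r38hn_neg hz)

/-- finite `B`-linear combinations of elements of `𝔑` are in `𝔑` -/
theorem r38hn_sum (hroot : ∀ x : F, ∀ n : ℕ, 0 < n → x ^ n ∈ B → x ∈ B) (hu : u ≠ 0)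
    (hv : v ≠ 0) {ι : Type*} (s : Finset ι) (b y : ι → F) (hb : ∀ i ∈ s, b i ∈ B)
    (hy : ∀ i ∈ s, r38hn_N B u v (y i)) : r38hn_N B u v (∑ i ∈ s, b i * y i) := by
  classical
  induction s using Finset.induction_on with
  | empty => simpa using r38hn_zero
  | insert a s ha ih =>
    rw [Finset.sum_insert ha]
    exact r38hn_add hroot hu hv
      (r38hn_smul (hb a (Finset.mem_insert_self a s)) (hy a (Finset.mem_insert_self a s)))
      (ih (fun i hi => hb i (Finset.mem_insert_of_mem hi))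
        (fun i hi => hy i (Finset.mem_insert_of_mem hi)))

end ideal

section leibniz

variable {F : Type*} [Field F] {B : Subring F} {u v : F}

/-- `{c ∈ B : D c ∈ 𝔑}` is closed under products, for a map `D` with the Leibniz rule -/
theorem r38hn_leibniz_mul (hroot : ∀ x : F, ∀ n : ℕ, 0 < n → x ^ n ∈ B → x ∈ B) (hu : u ≠ 0)
    (hv : v ≠ 0) (D : F → F) (hD : ∀ a b, D (a * b) = a * D b + b * D a) {c d : F}
    (hc : c ∈ B) (hd : d ∈ B) (hDc : r38hn_N B u v (D c)) (hDd : r38hn_N B u v (D d)) :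
    r38hn_N B u v (D (c * d)) := by
  rw [hD]
  exact r38hn_add hroot hu hv (r38hn_smul hc hDd) (r38hn_smul hd hDc)

/-- … and under sums, for an additive `D` -/
theorem r38hn_leibniz_add (hroot : ∀ x : F, ∀ n : ℕ, 0 < n → x ^ n ∈ B → x ∈ B) (hu : u ≠ 0)
    (hv : v ≠ 0) (D : F → F) (hD : ∀ a b, D (a + b) = D a + D b) {c d : F}
    (hDc : r38hn_N B u v (D c)) (hDd : r38hn_N B u v (D d)) :
    r38hn_N B u v (D (c + d)) := by
  rw [hD]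
  exact r38hn_add hroot hu hv hDc hDd

/-- … and under powers -/
theorem r38hn_leibniz_pow (hroot : ∀ x : F, ∀ n : ℕ, 0 < n → x ^ n ∈ B → x ∈ B) (hu : u ≠ 0)
    (hv : v ≠ 0) (D : F → F) (hD : ∀ a b, D (a * b) = a * D b + b * D a) (hD1 : D 1 = 0)
    {c : F} (hc : c ∈ B) (hDc : r38hn_N B u v (D c)) (n : ℕ) :
    r38hn_N B u v (D (c ^ n)) := by
  induction n with
  | zero => rw [pow_zero, hD1]; exact r38hn_zero
  | succ n ih =>
    rw [pow_succ]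
    exact r38hn_leibniz_mul hroot hu hv D hD (B.pow_mem hc n) hc ih hDc

end leibniz

end Fermat.Agent.R38
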