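import Fermat.Agent.R38.PlanHol
import Fermat.Agent.R38.HolN
import Fermat.Agent.ES.I2.Res
import Fermat.Prelude.Thm_ModularCurve_coeff_jqModC_neg_one

/-!
# R38 TRES, route HOL-dlog, piece `𝔑` (helper26): `StmtHolNIdeal`

`B̄ = {z ∈ F̄ : IntJ j̄ z}` as a subring of `F̄ = modularFunctionFieldFullC k N`; it is root closed
(`IsIntegral.of_pow`), `j̄ ≠ 0`, `j̄ − 1728 ≠ 0` (pole at `q = 0`), so `R38/HolN.lean` applies.

* `r38hn_B` : the subring `B̄ ⊂ F̄`;
* `r38hn_holN_iff` : `HolN k N y ↔ y ∈ F̄ ∧ r38hn_N B̄ (j̄ − 1728) j̄ y`;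
* `r38hn_stmtHolNIdeal : StmtHolNIdeal`.
-/

set_option autoImplicit false
set_option linter.style.haveILetI false
set_option linter.unusedSectionVars false

noncomputable section

namespace Fermat.Agent.R38

open ModularCurve HahnSeries Fermat.Agent.ES.I2 Polynomial

variable (k : Type) [Field k] (N : ℕ) [NeZero N]

/-- `B̄`: the elements of `F̄` integral over `k[j̄]`, as a subring of `F̄` -/
def r38hn_B : Subring ↥(modularFunctionFieldFullC k N) where
  carrier := {z | IntJ (jqModC k) (z : LaurentSeries k)}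
  mul_mem' := fun {a b} ha hb => by
    show IntJ (jqModC k) ((a : LaurentSeries k) * (b : LaurentSeries k))
    exact IntJ.mul ha hb
  one_mem' := by
    show IntJ (jqModC k) (1 : LaurentSeries k)
    have := intJ_aeval (jqModC k) (1 : k[X])
    rwa [map_one] at this
  add_mem' := fun {a b} ha hb => by
    show IntJ (jqModC k) ((a : LaurentSeries k) + (b : LaurentSeries k))
    exact IntJ.add ha hb
  zero_mem' := by
    show IntJ (jqModC k) (0 : LaurentSeries k)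
    have := intJ_aeval (jqModC k) (0 : k[X])
    rwa [map_zero] at this
  neg_mem' := fun {a} ha => by
    show IntJ (jqModC k) (-(a : LaurentSeries k))
    have h0 : IntJ (jqModC k) (0 : LaurentSeries k) := by
      have := intJ_aeval (jqModC k) (0 : k[X])
      rwa [map_zero] at this
    have := IntJ.sub h0 ha
    rwa [zero_sub] at this

theorem r38hn_mem_B {z : ↥(modularFunctionFieldFullC k N)} :
    z ∈ r38hn_B k N ↔ IntJ (jqModC k) (z : LaurentSeries k) := Iff.rfl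

theorem r38hn_holInt_iff {z : LaurentSeries k} :
    HolInt k N z ↔ ∃ hz : z ∈ modularFunctionFieldFullC k N, (⟨z, hz⟩ : ↥(modularFunctionFieldFullC k N)) ∈ r38hn_B k N :=
  ⟨fun h => ⟨h.1, h.2⟩, fun ⟨h1, h2⟩ => ⟨h1, h2⟩⟩

/-- `B̄` is root closed in `F̄` -/
theorem r38hn_B_root (x : ↥(modularFunctionFieldFullC k N)) (n : ℕ) (hn : 0 < n)
    (hx : x ^ n ∈ r38hn_B k N) : x ∈ r38hn_B k N := by
  letI : Algebra k[X] (LaurentSeries k) := (Polynomial.aeval (R := k) (jqModC k)).toRingHom.toAlgebra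
  have h1 : IsIntegral k[X] ((x : LaurentSeries k) ^ n) := hx
  exact IsIntegral.of_pow hn h1

theorem r38hn_J_ne_zero : (holJ k N) ≠ 0 := by
  intro h
  have h1 : (jqModC k).coeff (-1 : ℤ) = 1 := coeff_jqModC_neg_one k
  have h2 : ((holJ k N : ↥(modularFunctionFieldFullC k N)) : LaurentSeries k) = 0 := by
    rw [h]; rfl
  have h3 : jqModC k = 0 := h2
  rw [h3, HahnSeries.coeff_zero] at h1
  exact zero_ne_one h1

theorem r38hn_J1728_ne_zero : (holJ k N) - 1728 ≠ 0 := by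
  intro h
  have h1 : (jqModC k).coeff (-1 : ℤ) = 1 := coeff_jqModC_neg_one k
  have h2 : ((holJ k N - 1728 : ↥(modularFunctionFieldFullC k N)) : LaurentSeries k) = 0 := by
    rw [h]; rfl
  have h3 : jqModC k - 1728 = 0 := h2
  have h4 : jqModC k = HahnSeries.C (1728 : k) := by
    rw [sub_eq_zero] at h3
    rw [h3, map_ofNat]
  rw [h4, HahnSeries.C_apply, HahnSeries.coeff_single_of_ne (by norm_num)] at h1
  exact zero_ne_one h1

/-- `HolN` in terms of the abstract ideal `𝔑` of `R38/HolN.lean` -/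
theorem r38hn_holN_coe (y : ↥(modularFunctionFieldFullC k N)) :
    HolN k N (y : LaurentSeries k) ↔
      r38hn_N (r38hn_B k N) (holJ k N - 1728) (holJ k N) y := by
  constructor
  · rintro ⟨⟨-, hyI⟩, ⟨y2, ⟨hy2, hy2I⟩, h2⟩, ⟨y1, ⟨hy1, hy1I⟩, h3⟩⟩
    exact ⟨hyI, ⟨⟨y2, hy2⟩, hy2I, Subtype.ext h2⟩, ⟨⟨y1, hy1⟩, hy1I, Subtype.ext h3⟩⟩
  · rintro ⟨hyI, ⟨y2, hy2I, h2⟩, ⟨y1, hy1I, h3⟩⟩
    refine ⟨⟨y.2, hyI⟩, ⟨(y2 : LaurentSeries k), ⟨y2.2, hy2I⟩, ?_⟩,
      ⟨(y1 : LaurentSeries k), ⟨y1.2, hy1I⟩, ?_⟩⟩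
    · exact congrArg Subtype.val h2
    · exact congrArg Subtype.val h3

theorem r38hn_holN_add {a b : LaurentSeries k} (ha : HolN k N a) (hb : HolN k N b) :
    HolN k N (a + b) := by
  have h1 := (r38hn_holN_coe k N ⟨a, ha.1.1⟩).1 ha
  have h2 := (r38hn_holN_coe k N ⟨b, hb.1.1⟩).1 hb
  have h3 := (r38hn_holN_coe k N (⟨a, ha.1.1⟩ + ⟨b, hb.1.1⟩)).2
    (r38hn_add (r38hn_B_root k N) (r38hn_J1728_ne_zero k N) (r38hn_J_ne_zero k N) h1 h2)
  have e : (((⟨a, ha.1.1⟩ : ↥(modularFunctionFieldFullC k N)) + ⟨b, hb.1.1⟩ :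
      ↥(modularFunctionFieldFullC k N)) : LaurentSeries k) = a + b := rfl
  rw [e] at h3
  exact h3

theorem r38hn_holN_mul {c y : LaurentSeries k} (hc : HolInt k N c) (hy : HolN k N y) :
    HolN k N (c * y) := by
  have h1 := (r38hn_holN_coe k N ⟨y, hy.1.1⟩).1 hy
  have h2 : (⟨c, hc.1⟩ : ↥(modularFunctionFieldFullC k N)) ∈ r38hn_B k N := hc.2
  have h3 := (r38hn_holN_coe k N (⟨c, hc.1⟩ * ⟨y, hy.1.1⟩)).2 (r38hn_smul h2 h1)
  have e : (((⟨c, hc.1⟩ : ↥(modularFunctionFieldFullC k N)) * ⟨y, hy.1.1⟩ :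
      ↥(modularFunctionFieldFullC k N)) : LaurentSeries k) = c * y := rfl
  rw [e] at h3
  exact h3

theorem r38hn_holN_zero : HolN k N 0 := by
  have h3 := (r38hn_holN_coe k N 0).2 r38hn_zero
  have e : ((0 : ↥(modularFunctionFieldFullC k N)) : LaurentSeries k) = 0 := rfl
  rw [e] at h3
  exact h3

/-- **(𝔑)** `𝔑` is an ideal of `B̄`. -/
theorem r38hn_stmtHolNIdeal : StmtHolNIdeal := by
  intro k _ N _
  exact ⟨fun a b ha hb => r38hn_holN_add k N ha hb, fun c y hc hy => r38hn_holN_mul k N hc hy⟩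

end Fermat.Agent.R38

end
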