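import Fermat.Agent.R38.HolFinal
import Fermat.Agent.R38.HolB1Asm
import Fermat.Agent.R38.HolB1MF
import Fermat.Agent.R38.HolLiftFinal
import Fermat.Agent.R38.HolNIdeal
import Fermat.Agent.R38.HolDedMain

/-!
# Row 38, PKG-TRES, route HOL-dlog: (HOL-SPAN) unconditionally  (helper83, T3 sub-captain)

* `stmtHolB1All : StmtHolB1All`   = B1-asm (helper52) ∘ B1-LIFT (helper89) ∘ B1-MF (helper24);
* `stmtHolSpanAll : StmtHolSpanAll` = `stmtHolSpanAll_of` (𝔑-ideal, DED: helper26; B1).

For `p ∤ N`, `5 ≤ p`, `A` over `p`, `k = kA A`: every `r ∈ F̄_N` whose divisor is divisible by `p`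
at the places of `F̄_N / k` has `dlog r = θ r / r` in the `k`-span `S̄` of the reductions of the
`A`-integral weight-2 cusp forms of level `N`.
-/

set_option autoImplicit false

namespace Fermat.Agent.R38

/-- **(B1)** for all levels -/
theorem stmtHolB1All : StmtHolB1All :=
  stmtHolB1Glue stmtHolLiftAll stmtHolMFAll

/-- **(HOL-SPAN)**, unconditional -/
theorem stmtHolSpanAll : StmtHolSpanAll :=
  stmtHolSpanAll_of r38hn_stmtHolNIdeal r38hded_stmtHolDed stmtHolB1All

end Fermat.Agent.R38
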