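import Fermat.Agent.S24.RealizationExists
import Fermat.Agent.S24.LocalCount
import Fermat.Agent.S24.Places
import Fermat.Agent.S24.Transc
import Fermat.Agent.S24.GenusCount
import Fermat.Agent.ES.HModular

/-!
# R38 / HOL-B1 (char 0), part 1: the ramification of `F_N / ℚ̄(j)` over the finite `j`-line

From the realization of `S24` (the places of `F_N` over a point of the `j`-line are the
restrictions of the translates of one place of the big field, with the local property (L)):

* `r38hb1_ram_gen`  : over `c ≠ 0, 1728` the extension is unramified: `ord_v (j - c) = 1`;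
* `r38hb1_ram_1728` : over `1728` the ramification index divides `2`;
* `r38hb1_ram_zero` : over `0` the ramification index divides `3`.
-/

set_option autoImplicit false
set_option linter.style.haveILetI false

noncomputable section

open AlgebraicCurve IntermediateField
open scoped MatrixGroups

namespace Fermat.Agent.R38

open Fermat.Agent.S24

theorem r38hb1_neg_one_mem (N : ℕ) : (-1 : SL(2, ℤ)) ∈ CongruenceSubgroup.Gamma0 N := by
  rw [CongruenceSubgroup.Gamma0_mem]
  simp

/-- the generic ramification bound from a realization: if `ε ^ k = ± 1` and a place of the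
realization over `j = c` has the local property with respect to `ε`, then every place of `F_N`
over `j = c` has `ord_v (j - c) ∣ k`. -/
theorem r38hb1_ord_dvd (N : ℕ) [NeZero N] (R : Realization N) (c : Kb) (ε : SL(2, ℤ)) (k : ℕ)
    (hk : ε ^ k = 1 ∨ ε ^ k = -1)
    (hloc : ∃ w : Place Kb R.M, LocalProp (R.φ (jF N - algebraMap Kb (FF N) c)) (R.act ε) w)
    (v : Place Kb (FF N)) (hv : 0 < v.ord (jF N - algebraMap Kb (FF N) c)) :
    v.ord (jF N - algebraMap Kb (FF N) c) ∣ (k : ℤ) := by
  haveI := R.finite_range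
  haveI hfin : FiniteDimensional Kb⟮jF N⟯ (FF N) :=
    Fermat.Agent.ES.H.finiteDimensional_adjoin_jF N
  have hxj : jF N - algebraMap Kb (FF N) c ∈ Kb⟮jF N⟯ :=
    sub_mem (mem_adjoin_simple_self Kb (jF N)) (IntermediateField.algebraMap_mem _ c)
  have hjx : jF N ∈ Kb⟮jF N - algebraMap Kb (FF N) c⟯ := by
    have h1 : (jF N - algebraMap Kb (FF N) c) + algebraMap Kb (FF N) c = jF N := by ring
    have h2 := add_mem (mem_adjoin_simple_self Kb (jF N - algebraMap Kb (FF N) c))
      (IntermediateField.algebraMap_mem Kb⟮jF N - algebraMap Kb (FF N) c⟯ c)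
    rwa [h1] at h2
  have htr : Transcendental Kb (jF N - algebraMap Kb (FF N) c) := transcendental_jF_sub N c
  haveI : FiniteDimensional Kb⟮jF N - algebraMap Kb (FF N) c⟯ (FF N) :=
    finiteDimensional_adjoin_jF_sub N c hfin
  obtain ⟨w, hw, -, hL⟩ := hloc
  have hfix : ∀ γ, R.act γ (R.φ (jF N - algebraMap Kb (FF N) c)) =
      R.φ (jF N - algebraMap Kb (FF N) c) :=
    fun γ => act_fix_of_mem_adjoin R.φ R.act R.act_j hxj γ
  obtain ⟨g, hg⟩ := exists_restrPlace_eq R.φ R.act R.fixed w hjx hw hfix
    (fun v S' hv hvS hS' => exists_ord_neg _ htr v S' hv hvS hS') v hv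
  rw [← hg]
  refine restrPlace_ord_dvd R.φ R.act w hw hfix ε g hL k ?_
  refine (R.stab_iff _).mpr ?_
  rcases hk with h | h
  · rw [h, mul_one, inv_mul_cancel]
    exact one_mem _
  · have h1 : g⁻¹ * ε ^ k * g = -1 := by
      rw [h, mul_neg, mul_one, neg_mul, inv_mul_cancel]
    rw [h1]
    exact r38hb1_neg_one_mem N

/-- over `c ≠ 0, 1728` the extension `F_N / ℚ̄(j)` is unramified. -/
theorem r38hb1_ram_gen (N : ℕ) [NeZero N] (c : Kb) (hc0 : c ≠ 0) (hc : c ≠ 1728)
    (v : Place Kb (FF N)) (hv : 0 < v.ord (jF N - algebraMap Kb (FF N) c)) :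
    v.ord (jF N - algebraMap Kb (FF N) c) = 1 := by
  obtain ⟨R⟩ := exists_realization N
  have h := r38hb1_ord_dvd N R c 1 1 (Or.inl (pow_one 1)) (R.loc_gen c hc0 hc) v hv
  exact Int.eq_one_of_dvd_one hv.le h

/-- over `1728` the ramification index divides `2`. -/
theorem r38hb1_ram_1728 (N : ℕ) [NeZero N]
    (v : Place Kb (FF N)) (hv : 0 < v.ord (jF N - algebraMap Kb (FF N) 1728)) :
    v.ord (jF N - algebraMap Kb (FF N) 1728) ∣ 2 := by
  obtain ⟨R⟩ := exists_realization N
  exact r38hb1_ord_dvd N R 1728 ModularGroup.S 2 (Or.inr S_sq_eq_neg_one) R.loc_1728 v hv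

/-- over `0` the ramification index divides `3`. -/
theorem r38hb1_ram_zero (N : ℕ) [NeZero N]
    (v : Place Kb (FF N)) (hv : 0 < v.ord (jF N)) : v.ord (jF N) ∣ 3 := by
  obtain ⟨R⟩ := exists_realization N
  have h0 : jF N - algebraMap Kb (FF N) 0 = jF N := by rw [map_zero, sub_zero]
  have hloc : ∃ w : Place Kb R.M,
      LocalProp (R.φ (jF N - algebraMap Kb (FF N) 0)) (R.act (ModularGroup.S * ModularGroup.T)) w := by
    rw [h0]; exact R.loc_zero
  have h := r38hb1_ord_dvd N R 0 (ModularGroup.S * ModularGroup.T) 3 (Or.inr ST_cube_eq_neg_one)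
    hloc v (by rw [h0]; exact hv)
  rwa [h0] at h

end Fermat.Agent.R38
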