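/-
ROW 38, piece TRES-ALG (helper44): the algebra of TRÈS.

`stmtTresP5Of : StmtTresP5Of`, i.e. `StmtTresRed → StmtTresT0 → StmtTorsDivMP → StmtTresP5`.

Argument (NOTES/R38-TRES.md §1).  `x ∈ PDiv (M p) p`, `p x = 0`, new, `t₀ x = n₀ x`,
`T_ℓ₁ x = n₁ x`, fixed by the peu ramifié subgroup, moved by inertia along one line.
 1. `x′ := T_ℓ₁ x − (ℓ₁ + 1) x = c₁ x`, `c₁ = n₁ − ℓ₁ − 1` prime to `p`.
 2. (TRES-RED) gives `y ∈ J₀(M)[p]` with `RedInf x′ y`;  `y ∈ PDiv M p` (TorsDiv).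
 3. `RedInf` is additive and stable under the good `T_ℓ` (`ribmp_hk_redInf`), hence under the
    Hecke polynomial `t₀`: `RedInf (t₀ x′) (t₀ y)`, and `t₀ y = 0` (`r38pkg_oldF`),
    `t₀ x′ = c₁ n₀ x`.  So `c₁ n₀ x` is trivial at `v_∞`; hence so is `x` (`p ∤ c₁ n₀`, `p x = 0`).
 4. (TRES-T0).
-/
import Fermat.Agent.R38.PlanTres
import Fermat.Agent.R38.PkgFrame
import Fermat.Agent.RIB.MP.RedHeckeInf
import Fermat.Agent.RIB.MP.Desc

set_option autoImplicit false
set_option linter.style.haveILetI false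
set_option linter.unusedSectionVars false

noncomputable section

namespace Fermat.Agent.R38

open ModularCurve AlgebraicCurve Fermat.Agent.ES Fermat.Agent.ES.G2 Fermat.Agent.STB
  Fermat.Agent.RIB.MP ExtCitation

/-! ### A relation stable under a commuting family is stable under Hecke polynomials -/

section Generic

variable {J J' : Type} [AddCommGroup J] [AddCommGroup J']

theorem tresalg_rel_zsmul (R : J → J' → Prop) (h0 : R 0 0)
    (hadd : ∀ x x' y y', R x y → R x' y' → R (x + x') (y + y'))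
    (hneg : ∀ x y, R x y → R (-x) (-y)) (n : ℤ) {x : J} {y : J'} (h : R x y) :
    R (n • x) (n • y) := by
  induction n using Int.induction_on with
  | zero => rw [zero_smul, zero_smul]; exact h0
  | succ k ih =>
    rw [add_smul, add_smul, one_smul, one_smul]
    exact hadd _ _ _ _ ih h
  | pred k ih =>
    rw [sub_smul, sub_smul, one_smul, one_smul, sub_eq_add_neg, sub_eq_add_neg]
    exact hadd _ _ _ _ ih (hneg _ _ h)

theorem tresalg_tfEval_rel {T : Nat.Primes → Module.End ℤ J}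
    {T' : Nat.Primes → Module.End ℤ J'} (h : TfComm T) (h' : TfComm T')
    (R : J → J' → Prop) (h0 : R 0 0)
    (hadd : ∀ x x' y y', R x y → R x' y' → R (x + x') (y + y'))
    (hneg : ∀ x y, R x y → R (-x) (-y))
    (G : Set Nat.Primes) (hT : ∀ ℓ ∈ G, ∀ x y, R x y → R (T ℓ x) (T' ℓ y))
    (t : HeckeAlg) (ht : t ∈ MvPolynomial.supported ℤ G) (x : J) (y : J') (hxy : R x y) :
    R (tfEval h t x) (tfEval h' t y) := by
  rw [MvPolynomial.supported_eq_adjoin_X] at ht
  induction ht using Algebra.adjoin_induction generalizing x y with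
  | mem t ht =>
    obtain ⟨ℓ, hℓ, rfl⟩ := ht
    rw [tfEval_X, tfEval_X]
    exact hT ℓ hℓ x y hxy
  | algebraMap r =>
    rw [MvPolynomial.algebraMap_eq, tfEval_C, tfEval_C, Module.End.intCast_apply,
      Module.End.intCast_apply]
    exact tresalg_rel_zsmul R h0 hadd hneg r hxy
  | add s t _ _ hs ht =>
    rw [map_add, map_add, LinearMap.add_apply, LinearMap.add_apply]
    exact hadd _ _ _ _ (hs x y hxy) (ht x y hxy)
  | mul s t _ _ hs ht =>
    rw [map_mul, map_mul, Module.End.mul_apply, Module.End.mul_apply]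
    exact hs _ _ (ht x y hxy)

theorem tresalg_eq_smul_of_coprime {G : Type*} [AddCommGroup G] {p : ℕ} (hp : p.Prime) {k : ℤ}
    (hk : ¬ (p : ℤ) ∣ k) {x : G} (hx : p • x = 0) : ∃ a : ℤ, x = a • (k • x) := by
  have hcop : IsCoprime k (p : ℤ) := by
    rw [isCoprime_comm]
    exact (Nat.prime_iff_prime_int.1 hp).coprime_iff_not_dvd.2 hk
  obtain ⟨a, b, hab⟩ := hcop
  have hx' : (p : ℤ) • x = 0 := by
    rw [natCast_zsmul]; exact hx
  refine ⟨a, ?_⟩
  calc x = (1 : ℤ) • x := (one_smul _ _).symm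
    _ = (a * k + b * p) • x := by rw [hab]
    _ = a • k • x + b • (p : ℤ) • x := by rw [add_smul, mul_smul, mul_smul]
    _ = a • (k • x) := by rw [hx', smul_zero, add_zero]

end Generic

/-! ### `RedInf` and `TrivInf` -/

section RedInf

variable {M₁ q : ℕ} [NeZero M₁] [NeZero q] [NeZero (M₁ * q)] {A : ValuationSubring Qb} {m : ℕ}

theorem tresalg_redInf_zero : RedInf A m (0 : JZero (M₁ * q)) (0 : JZero M₁) := by
  refine ⟨1, 1, KummerRel.zero, KummerRel.zero, ?_⟩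
  rw [map_one, div_one]
  exact GaussConst.one

theorem tresalg_redInf_add {x x' : JZero (M₁ * q)} {y y' : JZero M₁} (h : RedInf A m x y)
    (h' : RedInf A m x' y') : RedInf A m (x + x') (y + y') := by
  obtain ⟨u, v, hu, hv, hG⟩ := h
  obtain ⟨u', v', hu', hv', hG'⟩ := h'
  refine ⟨u * u', v * v', hu.add hu', hv.add hv', ?_⟩
  rw [map_mul, mul_div_mul_comm]
  exact hG.mul hG'

theorem tresalg_redInf_neg {x : JZero (M₁ * q)} {y : JZero M₁} (h : RedInf A m x y) :
    RedInf A m (-x) (-y) := by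
  obtain ⟨u, v, hu, hv, hG⟩ := h
  refine ⟨u⁻¹, v⁻¹, hu.neg, hv.neg, ?_⟩
  rw [map_inv₀, inv_div_inv]
  have h1 : heckeAlphaBar Qb M₁ q v / u = (u / heckeAlphaBar Qb M₁ q v)⁻¹ := (inv_div _ _).symm
  rw [h1]
  exact hG.inv

/-- a class with the same reduction as `0` is trivial at `v_∞` -/
theorem tresalg_trivInf_of_redInf_zero (hm : m ≠ 0) {x : JZero (M₁ * q)}
    (h : RedInf A m x (0 : JZero M₁)) : TrivInf A m x := by
  obtain ⟨u, v, hu, hv, hG⟩ := h
  obtain ⟨k, c, hk, hc0, hc, he⟩ := (KummerRel.zero (n := m)).exists_eq_mul_pow hv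
  obtain ⟨c₀, rfl⟩ := mu_exists_const_of_ord_eq_zero c hc
  have hc₀ : c₀ ≠ 0 := by
    rintro rfl
    exact hc0 (map_zero _)
  have hαv : heckeAlphaBar Qb M₁ q v =
      algebraMap Qb (modularFunctionFieldBar (M₁ * q)) c₀ * heckeAlphaBar Qb M₁ q k ^ m := by
    rw [he, mul_one, map_mul, map_pow, AlgHom.commutes]
  have hαk : heckeAlphaBar Qb M₁ q k ≠ 0 :=
    (map_ne_zero_iff _ (heckeAlphaBar Qb M₁ q).toRingHom.injective).mpr hk
  have hαv0 : heckeAlphaBar Qb M₁ q v ≠ 0 := hG.ne_zero ∘ fun h0 => by rw [h0, div_zero]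
  refine ⟨u / heckeAlphaBar Qb M₁ q v, ?_, hG⟩
  refine ribmp_desc_kummerRel_of_eq hm hu hc₀ hαk (div_ne_zero hu.ne_zero hαv0) ?_
  rw [← hαv, mul_div_cancel₀ _ hαv0]

end RedInf

section TrivInf

variable {M₁ q : ℕ} [NeZero M₁] [NeZero q] [NeZero (M₁ * q)] {A : ValuationSubring Qb} {m : ℕ}

theorem tresalg_trivInf_zero : TrivInf A m (0 : JZero (M₁ * q)) :=
  ⟨1, KummerRel.zero, GaussConst.one⟩

theorem tresalg_trivInf_add {x x' : JZero (M₁ * q)} (h : TrivInf A m x) (h' : TrivInf A m x') :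
    TrivInf A m (x + x') := by
  obtain ⟨u, hu, hG⟩ := h
  obtain ⟨u', hu', hG'⟩ := h'
  exact ⟨u * u', hu.add hu', hG.mul hG'⟩

theorem tresalg_trivInf_neg {x : JZero (M₁ * q)} (h : TrivInf A m x) : TrivInf A m (-x) := by
  obtain ⟨u, hu, hG⟩ := h
  exact ⟨u⁻¹, hu.neg, hG.inv⟩

theorem tresalg_trivInf_zsmul (n : ℤ) {x : JZero (M₁ * q)} (h : TrivInf A m x) :
    TrivInf A m (n • x) := by
  have := tresalg_rel_zsmul (J := JZero (M₁ * q)) (J' := JZero (M₁ * q))
    (fun a _ => TrivInf A m a) tresalg_trivInf_zero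
    (fun _ _ _ _ h1 h2 => tresalg_trivInf_add h1 h2) (fun _ _ h1 => tresalg_trivInf_neg h1)
    n (x := x) (y := x) h
  exact this

/-- `k x` trivial at `v_∞`, `p ∤ k`, `p x = 0`  ⇒  `x` trivial at `v_∞` -/
theorem tresalg_trivInf_of_zsmul {p : ℕ} (hp : p.Prime) {k : ℤ} (hk : ¬ (p : ℤ) ∣ k)
    {x : JZero (M₁ * q)} (hx : p • x = 0) (h : TrivInf A m (k • x)) : TrivInf A m x := by
  obtain ⟨a, e⟩ := tresalg_eq_smul_of_coprime hp hk hx
  have := tresalg_trivInf_zsmul a h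
  rwa [← e] at this

end TrivInf

/-! ### The theorems -/

/-- **TRES-ALG, first half**: `TrivInf` from (TRES-RED). -/
theorem stmtTresTriv_of_red (hRed : StmtTresRed) (hDiv : StmtTorsDivMP) : StmtTresTriv := by
  intro M p _ _ hpF h5 hpM
  letI := pDivGalois (M * p) p
  letI := pDivModule (M * p) p
  intro A hA x hx hα hβ t₀ ht₀ hK n₀ hn₀ hpn₀ ℓ₁ hℓ₁ n₁ hn₁ hpn₁ hpeu hline
  have hp : p.Prime := hpF.out
  -- translation to `JZero`
  have hx' : p • (x : JZero (M * p)) = 0 := by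
    have := congrArg Subtype.val hx
    simpa using this
  have hα' : stbPushAlpha M p (x : JZero (M * p)) = 0 := by
    have := congrArg Subtype.val hα
    rwa [stbPushAlphaP_coe] at this
  have hβ' : stbPushBeta M p (x : JZero (M * p)) = 0 := by
    have := congrArg Subtype.val hβ
    rwa [stbPushBetaP_coe] at this
  have hpeu' : PeuFixed A p (x : JZero (M * p)) := by
    intro σ hσ
    have := congrArg Subtype.val (hpeu σ hσ)
    rwa [pDivGalois_coe] at this
  have hline' : InertiaLine A (x : JZero (M * p)) := by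
    obtain ⟨z₀, hz⟩ := hline
    refine ⟨(z₀ : JZero (M * p)), fun σ hσ => ?_⟩
    obtain ⟨k, hk⟩ := hz σ hσ
    refine ⟨k, ?_⟩
    have := congrArg Subtype.val hk
    simpa [pDivGalois_coe] using this
  have hℓ₁' : ¬ ((ℓ₁ : Nat.Primes) : ℕ) ∣ M * p * p := hℓ₁
  have hcomm := stb_tfComm (p := p) (M * p) hp
  have hcommM := stb_tfComm (p := p) M hp
  -- the eigenvalue of `T_ℓ₁`
  have hT : heckeOperatorBar (M * p) ℓ₁ (x : JZero (M * p)) = n₁ • (x : JZero (M * p)) := by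
    have h1 : (heckeGen ℓ₁ • x : PDiv (M * p) p) = pDivOp (M * p) p ℓ₁ x :=
      tfModule_heckeGen_smul hcomm ℓ₁ x
    have h2 := congrArg Subtype.val (h1.symm.trans hn₁)
    rw [pDivOp_of_good hℓ₁'] at h2
    rw [h2]
    exact AddSubgroup.coe_zsmul _ _ _
  -- step 2: TRES-RED
  obtain ⟨y, hy, hred⟩ := hRed M p hp hpM h5 A hA (x : JZero (M * p)) hx' hα' hβ' hpeu' hline' ℓ₁ hℓ₁'
  set c₁ : ℤ := n₁ - (((ℓ₁ : Nat.Primes) : ℕ) + 1) with hc₁
  have heis : eisKill ℓ₁ (x : JZero (M * p)) = ((c₁ • x : PDiv (M * p) p) : JZero (M * p)) := by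
    rw [eisKill, hT, AddSubgroup.coe_zsmul, hc₁, sub_smul]
    congr 1
  have hyD : y ∈ pDivTors p (JZero M) := hDiv M p hp h5 y ⟨1, by rw [pow_one]; exact hy⟩
  rw [heis] at hred
  -- step 3: Hecke polynomials
  have hpoly := tresalg_tfEval_rel hcomm hcommM
    (fun (a : PDiv (M * p) p) (b : PDiv M p) => RedInf A p (a : JZero (M * p)) (b : JZero M))
    tresalg_redInf_zero
    (fun a a' b b' h1 h2 => by
      show RedInf A p ((a + a' : PDiv (M * p) p) : JZero (M * p)) ((b + b' : PDiv M p) : JZero M)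
      rw [AddSubgroup.coe_add, AddSubgroup.coe_add]
      exact tresalg_redInf_add h1 h2)
    (fun a b h1 => by
      show RedInf A p ((-a : PDiv (M * p) p) : JZero (M * p)) ((-b : PDiv M p) : JZero M)
      rw [AddSubgroup.coe_neg, AddSubgroup.coe_neg]
      exact tresalg_redInf_neg h1)
    (goodPrimes (M * p) p)
    (fun ℓ hℓ a b h1 => by
      show RedInf A p ((pDivOp (M * p) p ℓ a : PDiv (M * p) p) : JZero (M * p))
        ((pDivOp M p ℓ b : PDiv M p) : JZero M)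
      rw [pDivOp_of_good hℓ, pDivOp_of_good (stb_good_of_good hℓ)]
      exact ribmp_hk_redInf A p ℓ (stb_not_dvd_of_good hℓ) h1)
    t₀ ht₀ (c₁ • x) ⟨y, hyD⟩ hred
  have hold : tfEval hcommM t₀ (⟨y, hyD⟩ : PDiv M p) = 0 := by
    rw [← stb_pDiv_smul_def M hp]
    exact r38pkg_oldF M p t₀ ht₀ hK ⟨y, hyD⟩
  have hnew : tfEval hcomm t₀ (c₁ • x) = (c₁ * n₀) • x := by
    rw [map_zsmul, ← stb_pDiv_smul_def (M * p) hp, hn₀, mul_smul]
  rw [hold, hnew] at hpoly
  have htriv0 : TrivInf A p (((c₁ * n₀) • x : PDiv (M * p) p) : JZero (M * p)) :=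
    tresalg_trivInf_of_redInf_zero hp.ne_zero hpoly
  rw [AddSubgroup.coe_zsmul] at htriv0
  have hcn : ¬ (p : ℤ) ∣ c₁ * n₀ := by
    intro h
    rcases (Nat.prime_iff_prime_int.1 hp).dvd_or_dvd h with h1 | h1
    · exact hpn₁ h1
    · exact hpn₀ h1
  exact tresalg_trivInf_of_zsmul hp hcn hx' htriv0

/-- **TRES-ALG, second half**: the clause `StmtTresP5` from `TrivInf` and (TRES-T0). -/
theorem stmtTresP5_of_triv (hTriv : StmtTresTriv) (hT0 : StmtTresT0) : StmtTresP5 := by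
  intro M p _ _ hpF h5 hpM
  letI := pDivGalois (M * p) p
  letI := pDivModule (M * p) p
  intro A hA x hx hα hβ t₀ ht₀ hK n₀ hn₀ hpn₀ ℓ₁ hℓ₁ n₁ hn₁ hpn₁ hpeu hline τ hτ
  have hp2 : p ≠ 2 := by omega
  have hx' : p • (x : JZero (M * p)) = 0 := by
    have := congrArg Subtype.val hx
    simpa using this
  have hα' : stbPushAlpha M p (x : JZero (M * p)) = 0 := by
    have := congrArg Subtype.val hα
    rwa [stbPushAlphaP_coe] at this
  have hβ' : stbPushBeta M p (x : JZero (M * p)) = 0 := by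
    have := congrArg Subtype.val hβ
    rwa [stbPushBetaP_coe] at this
  have htriv : TrivInf A p (x : JZero (M * p)) :=
    hTriv M p h5 hpM A hA x hx hα hβ t₀ ht₀ hK n₀ hn₀ hpn₀ ℓ₁ hℓ₁ n₁ hn₁ hpn₁ hpeu hline
  have key := hT0 M p hp2 hpM A hA (x : JZero (M * p)) hx' hα' hβ' htriv τ hτ
  apply Subtype.ext
  rw [pDivGalois_coe, key]
  exact (AddSubgroup.coe_nsmul _ _ _).symm

/-- **TRES-ALG.** -/
theorem stmtTresP5Of : StmtTresP5Of := fun hRed hT0 hDiv =>
  stmtTresP5_of_triv (stmtTresTriv_of_red hRed hDiv) hT0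

end Fermat.Agent.R38

end
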