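import Fermat.Agent.R38.TresRed
import Fermat.Agent.ES.G2.Prim
import Fermat.Agent.ES.G2.S37Kron
import Fermat.Agent.ES.M.Plan

/-!
# Row 38, PKG-TRES, piece TRES-BR (part 1): `GaussConst` ⇔ the Gauss reduction is a constant (helper42)

`N` any level, `A ⊂ ℚ̄` a valuation ring over a prime, `u ∈ F_N^×`.

* `tresgeo_red_of_gaussConst` : `GaussConst A N u ⇒ R38Red A u 1`;
* `tresgeo_gaussConst_of_red` : `R38Red A u (C a) ⇒ GaussConst A N u`  (uses `ES.G2.stmtPrim`);
* `tresgeo_gaussConst_iff`    : `GaussConst A N u ⇔ ∃ a, R38Red A u (C a)`;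
* `tresgeo_red_of_gaussRed`   : the fraction-form reduction `ES.M.GaussRed N A x w` of a function with
  `w ≠ 0` is a Gauss reduction `R38Red A x w`;
* `tresgeo_exists_red`        : every `u ∈ F_N^×` has a Gauss reduction.
-/

set_option autoImplicit false
set_option linter.unusedSectionVars false
set_option linter.style.haveILetI false

noncomputable section

namespace Fermat.Agent.R38

open HahnSeries ModularCurve AlgebraicCurve Fermat.Agent.ES Fermat.Agent.ES.G2 Fermat.Agent.ES.M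

variable {N : ℕ} [NeZero N] {A : ValuationSubring (AlgebraicClosure ℚ)}

theorem tresgeo_coe_algebraMap (c : AlgebraicClosure ℚ) :
    ((algebraMap (AlgebraicClosure ℚ) (modularFunctionFieldBar N) c : modularFunctionFieldBar N) :
      LaurentSeries (AlgebraicClosure ℚ)) = HahnSeries.C c := by
  rw [← algebraMap_eq_hahnC]
  rfl

theorem tresgeo_C_mem (c : AlgebraicClosure ℚ) :
    (HahnSeries.C c : LaurentSeries (AlgebraicClosure ℚ)) ∈ modularFunctionFieldBar N := by
  rw [← tresgeo_coe_algebraMap (N := N) c]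
  exact Subtype.property _

/-- every nonzero function has a Gauss reduction -/
theorem tresgeo_exists_red {ℓ : ℕ} (hℓ : ℓ.Prime) (hA : A.LiesOverPrime ℓ)
    {u : modularFunctionFieldBar N} (hu : u ≠ 0) :
    ∃ r : LaurentSeries (IsLocalRing.ResidueField A),
      R38Red A (u : LaurentSeries (AlgebraicClosure ℚ)) r := by
  obtain ⟨c, y₁, y₂, hc, -, -, hp₁, hp₂, he⟩ := stmtPrim N ℓ hℓ A hA u hu
  exact r38red_of_prim hc hp₁ hp₂ he

/-- a Gauss-constant function reduces to `1` -/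
theorem tresgeo_red_of_gaussConst {u : modularFunctionFieldBar N} (h : GaussConst A N u) :
    R38Red A (u : LaurentSeries (AlgebraicClosure ℚ)) 1 := by
  obtain ⟨c, hc, y₁, y₂, -, -, hp₁, hp₂, hcong, he⟩ := h
  obtain ⟨Y₁, rfl⟩ := hp₁.1.exists_lift
  obtain ⟨Y₂, rfl⟩ := hp₂.1.exists_lift
  have h1 := (kronPrim_kronIncl_iff Y₁).1 hp₁
  have h2 := (kronPrim_kronIncl_iff Y₂).1 hp₂
  have h3 := (kronCongr_kronIncl_iff Y₁ Y₂).1 hcong
  refine ⟨c⁻¹, Y₁, Y₂, inv_ne_zero hc, h1, h2, ?_, by rw [one_mul, h3]⟩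
  have he' : HahnSeries.C c * (u : LaurentSeries (AlgebraicClosure ℚ)) * kronIncl A Y₂
      = kronIncl A Y₁ := by
    rw [← tresgeo_coe_algebraMap (N := N) c]
    exact he
  have hC : (HahnSeries.C c : LaurentSeries (AlgebraicClosure ℚ)) ≠ 0 := r38red_C_ne_zero hc
  rw [← he', map_inv₀]
  field_simp

/-- a function whose Gauss reduction is a constant is Gauss-constant -/
theorem tresgeo_gaussConst_of_red {ℓ : ℕ} (hℓ : ℓ.Prime) (hA : A.LiesOverPrime ℓ)
    {u : modularFunctionFieldBar N} (hu : u ≠ 0) {a : IsLocalRing.ResidueField A}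
    (h : R38Red A (u : LaurentSeries (AlgebraicClosure ℚ)) (HahnSeries.C a)) :
    GaussConst A N u := by
  obtain ⟨c, y₁, y₂, hc, hy₁, hy₂, hp₁, hp₂, he⟩ := stmtPrim N ℓ hℓ A hA u hu
  obtain ⟨Y₁, rfl⟩ := hp₁.1.exists_lift
  obtain ⟨Y₂, rfl⟩ := hp₂.1.exists_lift
  have h1 := (kronPrim_kronIncl_iff Y₁).1 hp₁
  have h2 := (kronPrim_kronIncl_iff Y₂).1 hp₂
  have hred : R38Red A (u : LaurentSeries (AlgebraicClosure ℚ))
      (kronRed A Y₁ * (kronRed A Y₂)⁻¹) :=
    ⟨c, Y₁, Y₂, hc, h1, h2, he, by rw [mul_assoc, inv_mul_cancel₀ h2, mul_one]⟩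
  obtain ⟨b, hb, hb'⟩ := h.unique hred
  have ha : a ≠ 0 := by
    rintro rfl
    exact h.ne_zero_right (by rw [map_zero])
  -- `Ȳ₁ = C (b a) Ȳ₂`
  have e1 : kronRed A Y₁ = HahnSeries.C (b * a) * kronRed A Y₂ := by
    have : kronRed A Y₁ = (kronRed A Y₁ * (kronRed A Y₂)⁻¹) * kronRed A Y₂ := by
      rw [mul_assoc, inv_mul_cancel₀ h2, mul_one]
    rw [this, hb', map_mul]
  obtain ⟨α, hα⟩ := IsLocalRing.residue_surjective (R := A) (b * a)
  have hba : b * a ≠ 0 := mul_ne_zero hb ha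
  have hα0 : (α : AlgebraicClosure ℚ) ≠ 0 := by
    intro h0
    have : α = 0 := Subtype.ext h0
    rw [this, map_zero] at hα
    exact hba hα.symm
  -- the new denominator `C α * Y₂`
  have e2 : kronRed A (HahnSeries.C α * Y₂) = kronRed A Y₁ := by
    rw [map_mul, r38red_coeffMap_C, hα, e1]
  have e3 : kronIncl A (HahnSeries.C α * Y₂)
      = HahnSeries.C (α : AlgebraicClosure ℚ) * kronIncl A Y₂ := by
    rw [map_mul, r38red_coeffMap_C]
    rfl
  refine ⟨(c * (α : AlgebraicClosure ℚ))⁻¹, inv_ne_zero (mul_ne_zero hc hα0),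
    kronIncl A Y₁, kronIncl A (HahnSeries.C α * Y₂), hy₁, ?_, hp₁, ?_, ?_, ?_⟩
  · rw [e3]
    exact mul_mem (tresgeo_C_mem _) hy₂
  · rw [kronPrim_kronIncl_iff, e2]; exact h1
  · rw [kronCongr_kronIncl_iff, e2]
  · have hCc : (HahnSeries.C c : LaurentSeries (AlgebraicClosure ℚ)) ≠ 0 := r38red_C_ne_zero hc
    have hCα : (HahnSeries.C (α : AlgebraicClosure ℚ) : LaurentSeries (AlgebraicClosure ℚ)) ≠ 0 :=
      r38red_C_ne_zero hα0
    show ((algebraMap (AlgebraicClosure ℚ) (modularFunctionFieldBar N)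
      (c * (α : AlgebraicClosure ℚ))⁻¹ : modularFunctionFieldBar N) :
        LaurentSeries (AlgebraicClosure ℚ)) * (u : LaurentSeries (AlgebraicClosure ℚ))
        * kronIncl A (HahnSeries.C α * Y₂) = kronIncl A Y₁
    rw [tresgeo_coe_algebraMap, e3, map_inv₀, map_mul]
    have e4 : (HahnSeries.C c * HahnSeries.C (α : AlgebraicClosure ℚ))⁻¹
        * (u : LaurentSeries (AlgebraicClosure ℚ))
        * (HahnSeries.C (α : AlgebraicClosure ℚ) * kronIncl A Y₂)
        = (HahnSeries.C c * HahnSeries.C (α : AlgebraicClosure ℚ))⁻¹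
          * HahnSeries.C (α : AlgebraicClosure ℚ)
          * ((u : LaurentSeries (AlgebraicClosure ℚ)) * kronIncl A Y₂) := by ring
    rw [e4, he]
    field_simp

/-- **`GaussConst` ⇔ the Gauss reduction is a constant** -/
theorem tresgeo_gaussConst_iff {ℓ : ℕ} (hℓ : ℓ.Prime) (hA : A.LiesOverPrime ℓ)
    {u : modularFunctionFieldBar N} (hu : u ≠ 0) :
    GaussConst A N u ↔ ∃ a : IsLocalRing.ResidueField A,
      R38Red A (u : LaurentSeries (AlgebraicClosure ℚ)) (HahnSeries.C a) :=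
  ⟨fun h => ⟨1, by rw [map_one]; exact tresgeo_red_of_gaussConst h⟩,
    fun ⟨_, h⟩ => tresgeo_gaussConst_of_red hℓ hA hu h⟩

/-- the fraction-form reduction of `ES/M/Plan.lean` is a Gauss reduction -/
theorem tresgeo_red_of_gaussRed {x : modularFunctionFieldBar N}
    {w : LaurentSeries (IsLocalRing.ResidueField A)} (h : GaussRed N A x w) (hw : w ≠ 0) :
    R38Red A (x : LaurentSeries (AlgebraicClosure ℚ)) w := by
  obtain ⟨Y₁, Y₂, -, -, h2, hx, hr⟩ := h
  refine ⟨1, Y₁, Y₂, one_ne_zero, ?_, h2, by rw [map_one, one_mul]; exact hx, hr⟩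
  rw [← hr]
  exact mul_ne_zero hw h2

end Fermat.Agent.R38
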