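import Fermat.Agent.RIB.MP.RedLiftRed
import Fermat.Agent.R38.PlanTres
import Fermat.Agent.R38.TresGeo

/-!
# TRES-BR: the bridge of row 38  (FAC-p + SURJ-p ⇒ `StmtTresRed`)

Wild twin (`m = p =` residue characteristic) of MP-RED-LIFT (`RIB/MP/RedLift*.lean`, helper85).
There the exponent `m` is prime to the residue characteristic and the lifting of torsion classes
is `RIB.surjq_exists_torsion_lift`; here the lifting of `p`-torsion is a HYPOTHESIS (SURJ-p), and
everything else goes through for any exponent.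

Abstract part (`R : W1.PRData K F k Fk A`, `R.IsPR`, nice curves of the same genus):

* `tresbr_abstract` : if `m • x = 0` and `ū` is a Kummer function (exponent `m`) of `sp x`, there
  is a Kummer function `v ∈ O` of `x` with `red v = ū`;
* `tresbr_torsion_lift` : if the kernel of reduction `J¹` is `m`-divisible, every class of
  `Pic⁰(F̄)[m]` is `sp x` with `m • x = 0`.

Modular part (`h : S15.ModPRG M A hp hA hRedF r sp Pinf Qinf`, the reduction package of `X₀(M)`
at `A ∣ p`, `p ∤ M`):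

* `tresbr_modular` : the same with `sp` of the package and `GaussRed M A v ū`;
* `tresbr_bridge` : `R38Red A u ū`, `R38Red A v ū` ⇒ `GaussConst A (M q) (u / α v)`;
* `tresbr_exists`, `tresbr_redInf` : a Kummer function `u` of `x ∈ J₀(M p)` whose Gauss
  reduction `ū` (`R38Red A u ū`, `R38/TresRed.lean`) lies in `F̄_M` and has all orders divisible
  by `m` gives `y ∈ J₀(M)[m]` with `RedInf A m x y`, PROVIDED the `m`-torsion of `Pic⁰(F̄_M)`
  lifts (`SurjAt h m`).

Props and wiring:

* `StmtFacP`  (FAC-p, sub-wall A): the Gauss reduction of a Kummer function of `eisKill ℓ x`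
  lies in `F̄_M` and its divisor is divisible by `p`;
* `StmtSurjP` (SURJ-p, sub-wall B): the `p`-torsion of `Pic⁰(F̄_M)` lifts to `J₀(M)[p]`;
  `StmtDiv1P` : the kernel of reduction is `p`-divisible; `stmtSurjP_of_div1P`;
* `stmtTresRed_of : StmtFacP → StmtSurjP → StmtTresRed`.
-/

set_option autoImplicit false
set_option linter.unusedSectionVars false
set_option linter.style.haveILetI false
set_option synthInstance.maxHeartbeats 400000
set_option maxHeartbeats 1600000

open ModularCurve AlgebraicCurve Module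

namespace Fermat.Agent.R38

open Fermat.Agent.W1 Fermat.Agent.S15 Fermat.Agent.S24 Fermat.Agent.ES.M Fermat.Agent.DEU
  Fermat.Agent.ES Fermat.Agent.ES.G2 Fermat.Agent.RIB Fermat.Agent.RIB.MP Fermat.Agent.STB

/-! ## 1. Abstract part -/

section Abstract

variable {K F k Fk : Type} [Field K] [Field F] [Algebra K F] [Field k] [Field Fk] [Algebra k Fk]
variable {A : ValuationSubring K}

/-- **the lifting of Kummer functions, any exponent.**  If `m • x = 0` and `ū` is a Kummer
function of `sp x`, then `x` has a Kummer function `v ∈ O` with `red v = ū`. -/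
theorem tresbr_abstract (R : PRData K F k Fk A) (hR : R.IsPR) {g : ℕ}
    (hF : IsNiceCurve K F g) (hFk : IsNiceCurve k Fk g) {m : ℕ}
    {x : Pic0 K F} (hx : m • x = 0) (ub : Fk)
    (hy : KummerRel m (s15red_sp R hR hF.hres hFk.hres x) ub) :
    ∃ v : R.O, KummerRel m x (v : F) ∧ R.red v = ub := by
  haveI := hF.hpd
  haveI := hFk.hpd
  obtain ⟨v₀, hv₀⟩ := exists_kummerRel hx
  obtain ⟨a, ha, h1, hred1⟩ := hR.prim v₀ hv₀.ne_zero
  have ha0 : algebraMap K F a ≠ 0 := (map_ne_zero_iff _ (algebraMap K F).injective).mpr ha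
  have hv₁ : KummerRel m x (algebraMap K F a * v₀) :=
    hv₀.const_mul ha0 (fun v => PlaceAux.ord_algebraMap v a)
  have hK1 : KummerRel m (s15red_sp R hR hF.hres hFk.hres x)
      (R.red ⟨algebraMap K F a * v₀, h1⟩) :=
    ribmp_rl_kummerRel_red R hR hF.hres hFk.hres ⟨algebraMap K F a * v₀, h1⟩ hv₁ hred1
  obtain ⟨gb, cb, hgb, hcb, hcbord, heq⟩ := hy.exists_eq_mul_pow hK1
  obtain ⟨Q₀, -⟩ := hFk.infinite.nonempty
  obtain ⟨ab, hab, rfl⟩ := ribmp_rl_const_of_ord_eq_zero hFk.hres Q₀ hcb hcbord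
  -- lift the constant and the function
  obtain ⟨b, hb⟩ := hR.res_surjective ab
  obtain ⟨G, hG⟩ := hR.red_surjective gb
  have hbO : algebraMap K F (b : K) ∈ R.O := (hR.algebraMap_mem_iff _).mpr b.2
  have hredb : R.red ⟨algebraMap K F (b : K), hbO⟩ = algebraMap k Fk ab := by
    rw [hR.red_algebraMap b hbO, hb]
  set w : R.O := ⟨algebraMap K F (b : K), hbO⟩ * G ^ m with hw
  have hredw : R.red w = algebraMap k Fk ab * gb ^ m := by
    rw [hw, map_mul, map_pow, hredb, hG]
  have hredw0 : R.red w ≠ 0 := by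
    rw [hredw]
    exact mul_ne_zero hcb (pow_ne_zero m hgb)
  have hwu : IsUnit w := by
    have h2 : (w : F) ∉ R.O.nonunits := fun h => hredw0 ((hR.red_eq_zero_iff w).mpr h)
    have h3 : w ∉ nonunits R.O := by
      intro h4
      apply h2
      rw [ValuationSubring.mem_nonunits_iff_exists_mem_maximalIdeal]
      exact ⟨w.2, h4⟩
    simpa [mem_nonunits_iff] using h3
  obtain ⟨wi, hwi⟩ := isUnit_iff_exists_inv.mp hwu
  have hb0 : (b : K) ≠ 0 := by
    rintro h0
    have : R.res b = 0 := by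
      rw [hR.res_eq_zero_iff, h0]
      exact (ValuationSubring.mem_nonunits_iff_or A).mpr (Or.inl rfl)
    rw [hb] at this
    exact hab this
  have hG0 : (G : F) ≠ 0 := by
    rintro h0
    have : G = 0 := Subtype.ext h0
    rw [this, map_zero] at hG
    exact hgb hG.symm
  have hwiF : (wi : F) = (algebraMap K F (b : K))⁻¹ * ((G : F)⁻¹) ^ m := by
    have h5 : (w : F) * (wi : F) = 1 := by
      have := congrArg (Subtype.val) hwi
      simpa using this
    have h6 : (w : F) = algebraMap K F (b : K) * (G : F) ^ m := by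
      rw [hw]
      simp
    have hb0' : algebraMap K F (b : K) ≠ 0 :=
      (map_ne_zero_iff _ (algebraMap K F).injective).mpr hb0
    rw [h6] at h5
    rw [inv_pow]
    field_simp
    rw [← h5]
    ring
  refine ⟨⟨algebraMap K F a * v₀, h1⟩ * wi, ?_, ?_⟩
  · show KummerRel m x ((algebraMap K F a * v₀) * (wi : F))
    rw [hwiF]
    have e : algebraMap K F a * v₀ * ((algebraMap K F (b : K))⁻¹ * ((G : F)⁻¹) ^ m) =
        algebraMap K F (b : K)⁻¹ * ((algebraMap K F a * v₀) * ((G : F)⁻¹) ^ m) := by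
      rw [map_inv₀]
      ring
    rw [e]
    refine (ribmp_rl_kummerRel_mul_pow hv₁ (inv_ne_zero hG0)).const_mul ?_
      (fun v => PlaceAux.ord_algebraMap v _)
    exact (map_ne_zero_iff _ (algebraMap K F).injective).mpr (inv_ne_zero hb0)
  · have h7 : R.red w * R.red wi = 1 := by
      rw [← map_mul, hwi, map_one]
    rw [map_mul, heq]
    calc algebraMap k Fk ab * ub * gb ^ m * R.red wi
        = ub * (algebraMap k Fk ab * gb ^ m * R.red wi) := by ring
      _ = ub * (R.red w * R.red wi) := by rw [hredw]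
      _ = ub := by rw [h7, mul_one]

/-- **(SURJ), abstract form, any exponent**: if the kernel of reduction is `m`-divisible, the
`m`-torsion of `Pic⁰(F̄)` lifts to `m`-torsion. -/
theorem tresbr_torsion_lift (R : PRData K F k Fk A) (hR : R.IsPR) {g : ℕ}
    (hF : IsNiceCurve K F g) (hFk : IsNiceCurve k Fk g) {m : ℕ}
    (hdiv : ∀ z ∈ R.J1, ∃ z' ∈ R.J1, m • z' = z) (y : Pic0 k Fk) (hy : m • y = 0) :
    ∃ x : Pic0 K F, m • x = 0 ∧ s15red_sp R hR hF.hres hFk.hres x = y := by
  obtain ⟨x₀, hx₀⟩ := surjq_sp_surjective R hR hF hFk y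
  have h1 : m • x₀ ∈ R.J1 := by
    rw [← s15red_sp_eq_zero_iff R hR hF.hres hFk.hres, map_nsmul, hx₀, hy]
  obtain ⟨z, hz, hmz⟩ := hdiv (m • x₀) h1
  refine ⟨x₀ - z, ?_, ?_⟩
  · rw [nsmul_sub, hmz, sub_self]
  · rw [map_sub, (s15red_sp_eq_zero_iff R hR hF.hres hFk.hres z).mpr hz, sub_zero, hx₀]

end Abstract

/-! ## 2. Modular part -/

section Modular

variable {N : ℕ} [NeZero N] {A : ValuationSubring Kb} {ℓ : ℕ} {hℓ : ℓ.Prime}
  {hA : A.LiesOverPrime ℓ} {hRedF : StmtRedF N A}
  {r : Place Kb (FF N) → Place (kA A) ↥(modularFunctionFieldFullC (kA A) N)}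
  {sp : JZero N →+ JZeroC (kA A) N} {Pinf : Place Kb (FF N)}
  {Qinf : Place (kA A) ↥(modularFunctionFieldFullC (kA A) N)}

/-- the `m`-torsion of `Pic⁰(F̄_N)` lifts to `J₀(N)[m]` along the specialization map of the
package `h`.  (For `ℓ ∤ m` this is `RIB.surjq_modular`.) -/
def SurjAt (_h : ModPRG N A hℓ hA hRedF r sp Pinf Qinf) (m : ℕ) : Prop :=
  ∀ y : JZeroC (kA A) N, m • y = 0 → ∃ x : JZero N, m • x = 0 ∧ sp x = y

/-- (SURJ-q) is `SurjAt` for exponents prime to the residue characteristic -/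
theorem tresbr_surjAt_of_not_dvd (h : ModPRG N A hℓ hA hRedF r sp Pinf Qinf) {m : ℕ}
    (hm : ¬ ℓ ∣ m) : SurjAt h m :=
  fun y hy => surjq_modular h hm y hy

/-- `SurjAt` from the divisibility of the kernel of reduction -/
theorem tresbr_surjAt_of_div (h : ModPRG N A hℓ hA hRedF r sp Pinf Qinf) {m : ℕ}
    (hdiv : ∀ z ∈ (modPRData N A hRedF r).J1, ∃ z' ∈ (modPRData N A hRedF r).J1, m • z' = z) :
    SurjAt h m := by
  intro y hy
  obtain ⟨x, hx, hxy⟩ := tresbr_torsion_lift (modPRData N A hRedF r) h.modPR.isPR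
    h.modPR.nice h.modPR.nice_k hdiv y hy
  exact ⟨x, hx, by rw [surjq_sp_eq h, hxy]⟩

/-- **the lifting of Kummer functions, modular form, any exponent**: if `m • x = 0` and `ū` is a
Kummer function of `sp x`, then `x` has a Kummer function `v` with Gauss reduction `ū`. -/
theorem tresbr_modular (h : ModPRG N A hℓ hA hRedF r sp Pinf Qinf) {m : ℕ}
    {x : JZero N} (hx : m • x = 0) (ub : ↥(modularFunctionFieldFullC (kA A) N))
    (hy : KummerRel m (sp x) ub) :
    ∃ v : FF N, KummerRel m x v ∧ GaussRed N A v (ub : LaurentSeries (kA A)) := by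
  rw [surjq_sp_eq h] at hy
  obtain ⟨v, hv, hred⟩ := tresbr_abstract (modPRData N A hRedF r) h.modPR.isPR
    h.modPR.nice h.modPR.nice_k hx ub hy
  refine ⟨(v : FF N), hv, ?_⟩
  rw [deuValRed_iff N A hRedF]
  exact ⟨v.2, congrArg Subtype.val hred⟩

end Modular

/-! ## 3. The lifting step at `v_∞` -/

section Red

variable {M q : ℕ} [NeZero M] [NeZero q] [NeZero (M * q)] {A : ValuationSubring Qb}
  {hq : q.Prime} {hA : A.LiesOverPrime q} {hRedF : StmtRedF M A}
  {r : Place Kb (FF M) → Place (kA A) ↥(modularFunctionFieldFullC (kA A) M)}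
  {sp : JZero M →+ JZeroC (kA A) M} {Pinf : Place Kb (FF M)}
  {Qinf : Place (kA A) ↥(modularFunctionFieldFullC (kA A) M)}

/-- two functions with the same Gauss reduction have a Gauss-constant quotient -/
theorem tresbr_bridge {ℓ : ℕ} (hℓ : ℓ.Prime) (hAℓ : A.LiesOverPrime ℓ)
    {u : modularFunctionFieldBar (M * q)} {v : modularFunctionFieldBar M}
    {ub : LaurentSeries (kA A)} (hu : R38Red A (u : LaurentSeries Qb) ub)
    (hv : R38Red A (v : LaurentSeries Qb) ub) :
    GaussConst A (M * q) (u / heckeAlphaBar Qb M q v) := by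
  have hcoe : ((u / heckeAlphaBar Qb M q v : modularFunctionFieldBar (M * q)) :
      LaurentSeries Qb) = (u : LaurentSeries Qb) / (v : LaurentSeries Qb) := by
    rw [IntermediateField.coe_div, coe_heckeAlphaBar]
  have hub : ub ≠ 0 := hu.ne_zero_right
  have h1 : R38Red A ((u / heckeAlphaBar Qb M q v : modularFunctionFieldBar (M * q)) :
      LaurentSeries Qb) (HahnSeries.C (1 : kA A)) := by
    rw [hcoe, map_one, ← div_self hub]
    exact hu.div hv
  have hne : u / heckeAlphaBar Qb M q v ≠ 0 := by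
    intro h0
    apply h1.ne_zero_left
    rw [h0]
    rfl
  exact tresgeo_gaussConst_of_red hℓ hAℓ hne h1

/-- a Kummer function at level `M q` whose Gauss reduction lies in `F̄_M` and has all orders
divisible by `m` is congruent to a Kummer function of a class of `J₀(M)[m]`, if the
`m`-torsion of `Pic⁰(F̄_M)` lifts -/
theorem tresbr_exists (h : ModPRG M A hq hA hRedF r sp Pinf Qinf) {m : ℕ} (hm0 : m ≠ 0)
    (hsurj : SurjAt h m)
    {u : modularFunctionFieldBar (M * q)} {ub : LaurentSeries (kA A)}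
    (hubF : ub ∈ modularFunctionFieldFullC (kA A) M)
    (hred : R38Red A (u : LaurentSeries Qb) ub)
    (hdvd : ∀ Q : Place (kA A) ↥(modularFunctionFieldFullC (kA A) M),
      (m : ℤ) ∣ Q.ord (⟨ub, hubF⟩ : ↥(modularFunctionFieldFullC (kA A) M))) :
    ∃ (y : JZero M) (v : modularFunctionFieldBar M), m • y = 0 ∧ KummerRel m y v ∧
      GaussConst A (M * q) (u / heckeAlphaBar Qb M q v) := by
  haveI := h.modPR.nice_k.hpd
  have hub : ub ≠ 0 := hred.ne_zero_right
  have hub' : (⟨ub, hubF⟩ : ↥(modularFunctionFieldFullC (kA A) M)) ≠ 0 :=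
    fun h0 => hub (congrArg Subtype.val h0)
  obtain ⟨yb, -, hyb⟩ := exists_kummerRel_of_dvd hm0 hub' hdvd
  obtain ⟨y, hy, hyyb⟩ := hsurj yb hyb.nsmul_eq_zero
  obtain ⟨v, hv, hvred⟩ := tresbr_modular h hy ⟨ub, hubF⟩ (by rw [hyyb]; exact hyb)
  exact ⟨y, v, hy, hv, tresbr_bridge hq hA hred (tresgeo_red_of_gaussRed hvred hub)⟩

/-- **TRES-RED, the lifting step at `v_∞`** (any exponent `m ≠ 0`) -/
theorem tresbr_redInf (h : ModPRG M A hq hA hRedF r sp Pinf Qinf) {m : ℕ} (hm0 : m ≠ 0)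
    (hsurj : SurjAt h m)
    {x : JZero (M * q)} {u : modularFunctionFieldBar (M * q)} (hxu : KummerRel m x u)
    {ub : LaurentSeries (kA A)} (hubF : ub ∈ modularFunctionFieldFullC (kA A) M)
    (hred : R38Red A (u : LaurentSeries Qb) ub)
    (hdvd : ∀ Q : Place (kA A) ↥(modularFunctionFieldFullC (kA A) M),
      (m : ℤ) ∣ Q.ord (⟨ub, hubF⟩ : ↥(modularFunctionFieldFullC (kA A) M))) :
    ∃ y : JZero M, m • y = 0 ∧ RedInf A m x y := by
  obtain ⟨y, v, hy, hv, hG⟩ := tresbr_exists h hm0 hsurj hubF hred hdvd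
  exact ⟨y, hy, u, v, hxu, hv, hG⟩

end Red

/-! ## 4. The Props of the two sub-walls and the wiring -/

/-- **(FAC-p)** (sub-wall A).  For `x ∈ J₀(M p)[p]`, new, fixed by the peu ramifié subgroup and
moved by inertia along one line: `T_ℓ x − (ℓ + 1) x` has a Kummer function `u` whose Gauss
reduction `ū` at `v_∞` lies in `F̄_M = k(X₀(M))` and has a divisor divisible by `p`. -/
def StmtFacP : Prop :=
  ∀ (M p : ℕ) [NeZero M] [NeZero p] [NeZero (M * p)] (_ : p.Prime) (_ : ¬ p ∣ M), 5 ≤ p →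
    ∀ A : ValuationSubring Qb, A.LiesOverPrime p →
    ∀ x : JZero (M * p), p • x = 0 → stbPushAlpha M p x = 0 → stbPushBeta M p x = 0 →
      PeuFixed A p x → InertiaLine A x →
    ∀ ℓ : Nat.Primes, ¬ (ℓ : ℕ) ∣ M * p * p →
      ∃ (u : modularFunctionFieldBar (M * p)) (ub : LaurentSeries (kA A))
        (hubF : ub ∈ modularFunctionFieldFullC (kA A) M),
        KummerRel p (eisKill ℓ x) u ∧ R38Red A (u : LaurentSeries Qb) ub ∧
          ∀ Q : Place (kA A) ↥(modularFunctionFieldFullC (kA A) M),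
            (p : ℤ) ∣ Q.ord (⟨ub, hubF⟩ : ↥(modularFunctionFieldFullC (kA A) M))

/-- **(SURJ-p)** (sub-wall B), package form: for every reduction package of `X₀(M)` at `A ∣ p`
the `p`-torsion of `Pic⁰(F̄_M)` lifts to `J₀(M)[p]`. -/
def StmtSurjP : Prop :=
  ∀ (M p : ℕ) [NeZero M] (hp : p.Prime), ¬ p ∣ M → 5 ≤ p →
    ∀ (A : ValuationSubring Kb) (hA : A.LiesOverPrime p) (hRedF : StmtRedF M A)
      (r : Place Kb (FF M) → Place (kA A) ↥(modularFunctionFieldFullC (kA A) M))
      (sp : JZero M →+ JZeroC (kA A) M) (Pinf : Place Kb (FF M))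
      (Qinf : Place (kA A) ↥(modularFunctionFieldFullC (kA A) M))
      (h : ModPRG M A hp hA hRedF r sp Pinf Qinf), SurjAt h p

/-- **(DIV¹-p)**: for every reduction package of `X₀(M)` at `A ∣ p` the kernel of reduction is
`p`-divisible.  (`S15.stmtDiv1` is the same for exponents which are units of `A`.) -/
def StmtDiv1P : Prop :=
  ∀ (M p : ℕ) [NeZero M] (hp : p.Prime), ¬ p ∣ M → 5 ≤ p →
    ∀ (A : ValuationSubring Kb) (hA : A.LiesOverPrime p) (hRedF : StmtRedF M A)
      (r : Place Kb (FF M) → Place (kA A) ↥(modularFunctionFieldFullC (kA A) M))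
      (sp : JZero M →+ JZeroC (kA A) M) (Pinf : Place Kb (FF M))
      (Qinf : Place (kA A) ↥(modularFunctionFieldFullC (kA A) M)),
      ModPRG M A hp hA hRedF r sp Pinf Qinf →
        ∀ z ∈ (modPRData M A hRedF r).J1, ∃ z' ∈ (modPRData M A hRedF r).J1, p • z' = z

/-- (SURJ-p) from the divisibility of the kernel of reduction -/
theorem stmtSurjP_of_div1P (hD : StmtDiv1P) : StmtSurjP :=
  fun M p _ hp hpM h5 A hA hRedF r sp Pinf Qinf h =>
    tresbr_surjAt_of_div h (hD M p hp hpM h5 A hA hRedF r sp Pinf Qinf h)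

/-- **TRES-BR**: (FAC-p) and (SURJ-p) give TRES-RED. -/
theorem stmtTresRed_of (hFac : StmtFacP) (hSurj : StmtSurjP) : StmtTresRed := by
  intro M p _ _ _ hp hpM h5 A hA x hx hα hβ hpeu hline ℓ hℓ
  obtain ⟨u, ub, hubF, hxu, hred, hdvd⟩ := hFac M p hp hpM h5 A hA x hx hα hβ hpeu hline ℓ hℓ
  obtain ⟨hRedF, r, sp, Pinf, Qinf, h⟩ :
      ∃ (hRedF : StmtRedF M A)
        (r : Place Kb (FF M) → Place (kA A) ↥(modularFunctionFieldFullC (kA A) M))
        (sp : JZero M →+ JZeroC (kA A) M) (Pinf : Place Kb (FF M))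
        (Qinf : Place (kA A) ↥(modularFunctionFieldFullC (kA A) M)),
        ModPRG M A hp hA hRedF r sp Pinf Qinf := by
    obtain ⟨r, sp, Pinf, Qinf, h⟩ := s15red_exists_pkg M p hp hpM (Or.inl h5) A hA
    exact ⟨_, r, sp, Pinf, Qinf, h⟩
  exact tresbr_redInf h hp.ne_zero (hSurj M p hp hpM h5 A hA hRedF r sp Pinf Qinf h) hxu hubF
    hred hdvd

end Fermat.Agent.R38
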