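import Fermat.Agent.R38.TresRed

/-!
# Row 38, PKG-TRES, piece TRES-RED: the Gauss reduction commutes with the Hecke operators (helper42)

`A` a valuation subring of the field `L`, `k` its residue field, `ℓ` a prime with `ℓ ≠ 0` in `k`,
`ζ ∈ L` a primitive `ℓ`-th root of unity.

* `r38red_exists_root` : `ζ` comes from a unit `ζA` of `A` whose reduction `ζ̄` is a primitive `ℓ`-th
  root of unity of `k`;
* `R38Red.qExpand`, `R38Red.kronNorm`, `R38Red.kronHecke` : the reduction of `u(q^ℓ)`, of the norm and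
  of `T_ℓ u = kronHecke ℓ ζ u` is `r(q^ℓ)`, the norm, `kronHecke ℓ ζ̄ r`;
* **`R38Red.dlog_kronHecke`** : `b̄(T_ℓ u) = T_ℓ b̄(u)` (`r38heckeT`, weight 2), for every reduction
  `r'` of `T_ℓ u` and `r` of `u`.
-/

set_option autoImplicit false
set_option linter.unusedSectionVars false
set_option linter.style.haveILetI false

noncomputable section

namespace Fermat.Agent.R38

open HahnSeries ModularCurve Fermat.Agent.S28.Deriv Fermat.Agent.ES

section Root

variable {L : Type*} [Field L] (A : ValuationSubring L)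

/-- a primitive `ℓ`-th root of unity of `L` (`ℓ` prime, `ℓ ≠ 0` in `k`) comes from a unit of `A`
whose reduction is a primitive `ℓ`-th root of unity of `k` -/
theorem r38red_exists_root {ℓ : ℕ} (hℓ : ℓ.Prime)
    (hℓk : ((ℓ : ℕ) : IsLocalRing.ResidueField A) ≠ 0) (ζ : Lˣ) (hζ : IsPrimitiveRoot ζ ℓ) :
    ∃ ζA : Aˣ, Units.map (A.subtype : A →* L) ζA = ζ ∧
      IsPrimitiveRoot (Units.map ((IsLocalRing.residue A : A →+* IsLocalRing.ResidueField A) :
        A →* IsLocalRing.ResidueField A) ζA) ℓ := by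
  obtain ⟨ζA, hζA⟩ := kron_exists_unit_lift A hℓ.ne_zero ζ hζ.pow_eq_one
  refine ⟨ζA, hζA, ?_⟩
  have hinj : Function.Injective (Units.map (A.subtype : A →* L)) :=
    Units.map_injective (f := (A.subtype : A →* L)) Subtype.val_injective
  have hpA : IsPrimitiveRoot ζA ℓ := by
    rw [← hζA] at hζ
    exact IsPrimitiveRoot.of_map_of_injective hζ hinj
  set ζb := Units.map ((IsLocalRing.residue A : A →+* IsLocalRing.ResidueField A) :
        A →* IsLocalRing.ResidueField A) ζA with hζb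
  have hpow : ζb ^ ℓ = 1 := by rw [hζb, ← map_pow, hpA.pow_eq_one, map_one]
  have hne : ζb ≠ 1 := by
    intro h1
    -- `∑ ζ^i = 0` in `A`, hence `ℓ = 0` in `k`
    have hpA' : IsPrimitiveRoot (ζA : A) ℓ := IsPrimitiveRoot.coe_units_iff.2 hpA
    have hsum : ∑ i ∈ Finset.range ℓ, (ζA : A) ^ i = 0 := hpA'.geom_sum_eq_zero hℓ.one_lt
    have h2 := congrArg (IsLocalRing.residue A) hsum
    rw [map_sum, map_zero] at h2
    have h3 : ∀ i ∈ Finset.range ℓ, IsLocalRing.residue A ((ζA : A) ^ i) = 1 := by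
      intro i _
      have : IsLocalRing.residue A (ζA : A) = ((ζb : (IsLocalRing.ResidueField A)ˣ) :
          IsLocalRing.ResidueField A) := rfl
      rw [map_pow, this, h1, Units.val_one, one_pow]
    rw [Finset.sum_congr rfl h3, Finset.sum_const, Finset.card_range, nsmul_eq_mul, mul_one] at h2
    exact hℓk h2
  haveI : Fact ℓ.Prime := ⟨hℓ⟩
  have hord : orderOf ζb = ℓ := orderOf_eq_prime hpow hne
  rw [← hord]
  exact IsPrimitiveRoot.orderOf ζb

end Root

section Hecke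

variable {L : Type*} [Field L] {A : ValuationSubring L}

theorem r38red_kronNorm_C {R : Type*} [CommRing R] (ℓ : ℕ) [NeZero ℓ] (ζ : Rˣ) (c : R) :
    kronNorm ℓ ζ (HahnSeries.C c : LaurentSeries R) = HahnSeries.C (c ^ ℓ) := by
  apply kronNorm_unique
  rw [qExpand_C, kronRotProd]
  have h1 : ∀ b ∈ Finset.range ℓ, kronRot (ζ ^ b) (HahnSeries.C c : LaurentSeries R)
      = HahnSeries.C c := by
    intro b _
    ext n
    rw [kronRot_coeff]
    by_cases hn : n = 0
    · subst hn; simp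
    · rw [HahnSeries.C_apply, HahnSeries.coeff_single, if_neg hn, mul_zero]
  rw [Finset.prod_congr rfl h1, Finset.prod_const, Finset.card_range, map_pow]

/-- the reduction commutes with `q ↦ q^ℓ` -/
theorem R38Red.qExpand (ℓ : ℕ) [NeZero ℓ] {u : LaurentSeries L}
    {r : LaurentSeries (IsLocalRing.ResidueField A)} (h : R38Red A u r) :
    R38Red A (ModularCurve.qExpand L ℓ u)
      (ModularCurve.qExpand (IsLocalRing.ResidueField A) ℓ r) := by
  obtain ⟨c, Y₁, Y₂, hc, h1, h2, hu, hr⟩ := h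
  have hq : ∀ Y : LaurentSeries A, kronRed A Y ≠ 0 → kronRed A (ModularCurve.qExpand A ℓ Y) ≠ 0 := by
    intro Y hY
    rw [kronRed, coeffMap_qExpand]
    exact (map_ne_zero_iff _ (RingHom.injective _)).2 hY
  refine ⟨c, ModularCurve.qExpand A ℓ Y₁, ModularCurve.qExpand A ℓ Y₂, hc, hq Y₁ h1, hq Y₂ h2,
    ?_, ?_⟩
  · rw [kronIncl, coeffMap_qExpand, coeffMap_qExpand, ← map_mul, hu, map_mul, qExpand_C]
  · rw [kronRed, coeffMap_qExpand, coeffMap_qExpand, ← map_mul, hr]

/-- the reduction commutes with the norm `f ↦ ∏_b f(ζ^b q^{1/ℓ})` -/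
theorem R38Red.kronNorm (ℓ : ℕ) [NeZero ℓ] (ζA : Aˣ)
    (hζ : IsPrimitiveRoot (Units.map (A.subtype : A →* L) ζA) ℓ)
    (hζb : IsPrimitiveRoot (Units.map ((IsLocalRing.residue A :
      A →+* IsLocalRing.ResidueField A) : A →* IsLocalRing.ResidueField A) ζA) ℓ)
    {u : LaurentSeries L}
    {r : LaurentSeries (IsLocalRing.ResidueField A)} (h : R38Red A u r) :
    R38Red A (Fermat.Agent.ES.kronNorm ℓ (Units.map (A.subtype : A →* L) ζA) u)
      (Fermat.Agent.ES.kronNorm ℓ (Units.map ((IsLocalRing.residue A :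
      A →+* IsLocalRing.ResidueField A) : A →* IsLocalRing.ResidueField A) ζA) r) := by
  obtain ⟨c, Y₁, Y₂, hc, h1, h2, hu, hr⟩ := h
  have hn : ∀ Y : LaurentSeries A, kronRed A Y ≠ 0 →
      kronRed A (Fermat.Agent.ES.kronNorm ℓ ζA Y) ≠ 0 := by
    intro Y hY
    rw [kronRed, coeffMap_kronNorm]
    exact r38dlog_kronNorm_ne_zero ℓ _ hζb hY
  refine ⟨c ^ ℓ, Fermat.Agent.ES.kronNorm ℓ ζA Y₁, Fermat.Agent.ES.kronNorm ℓ ζA Y₂,
    pow_ne_zero _ hc, hn Y₁ h1, hn Y₂ h2, ?_, ?_⟩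
  · rw [kronIncl, coeffMap_kronNorm, coeffMap_kronNorm, ← kronNorm_mul ℓ _ hζ, hu,
      kronNorm_mul ℓ _ hζ, r38red_kronNorm_C]
  · rw [kronRed, coeffMap_kronNorm, coeffMap_kronNorm, ← kronNorm_mul ℓ _ hζb, hr]

/-- the reduction commutes with the multiplicative Hecke operator -/
theorem R38Red.kronHecke (ℓ : ℕ) [NeZero ℓ] (ζA : Aˣ)
    (hζ : IsPrimitiveRoot (Units.map (A.subtype : A →* L) ζA) ℓ)
    (hζb : IsPrimitiveRoot (Units.map ((IsLocalRing.residue A :
      A →+* IsLocalRing.ResidueField A) : A →* IsLocalRing.ResidueField A) ζA) ℓ)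
    {u : LaurentSeries L}
    {r : LaurentSeries (IsLocalRing.ResidueField A)} (h : R38Red A u r) :
    R38Red A (Fermat.Agent.ES.kronHecke ℓ (Units.map (A.subtype : A →* L) ζA) u)
      (Fermat.Agent.ES.kronHecke ℓ (Units.map ((IsLocalRing.residue A :
      A →+* IsLocalRing.ResidueField A) : A →* IsLocalRing.ResidueField A) ζA) r) :=
  (h.qExpand ℓ).mul (h.kronNorm ℓ ζA hζ hζb)

/-- **`b̄(T_ℓ u) = T_ℓ b̄(u)`**: the logarithmic derivative of the reduction turns the
multiplicative Hecke operator into the weight-2 Hecke operator on `q`-expansions. -/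
theorem R38Red.dlog_kronHecke {ℓ : ℕ} [NeZero ℓ] (hℓ : ℓ.Prime)
    (hℓk : ((ℓ : ℕ) : IsLocalRing.ResidueField A) ≠ 0) (ζ : Lˣ) (hζ : IsPrimitiveRoot ζ ℓ)
    {u : LaurentSeries L} {r r' : LaurentSeries (IsLocalRing.ResidueField A)}
    (h : R38Red A u r) (h' : R38Red A (Fermat.Agent.ES.kronHecke ℓ ζ u) r') :
    r38dlog r' = r38heckeT ℓ (r38dlog r) := by
  obtain ⟨ζA, rfl, hζb⟩ := r38red_exists_root A hℓ hℓk ζ hζ
  have h1 := h.kronHecke ℓ ζA hζ hζb
  rw [R38Red.dlog_eq h1 h']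
  exact r38dlog_kronHecke ℓ hℓk _ hζb h.ne_zero_right

end Hecke

end Fermat.Agent.R38
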