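import Fermat.Agent.R38.HolKillFinal
import Fermat.Agent.R38.TresBridge
import Fermat.Agent.R38.TresAlg
import Fermat.Agent.R38.TresRedHecke
import Fermat.Agent.ES.HeckeKummer
import Fermat.Agent.ES.G2.HeckeNorm
import Fermat.Agent.ES.MuUnique

/-!
# Row 38, TRES, route HOL-dlog: the bridge BR′  (helper42)

`stmtTresTriv_of_hol : StmtFacP → StmtHolSpanAll → StmtHolTriv → StmtTresTriv`.

`x ∈ PDiv (M p) p`, `p x = 0`, new, `t₀ x = n₀ x`, `T_ℓ₁ x = n₁ x`, fixed by the peu ramifié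
subgroup, moved by inertia along one line; `x′ = T_ℓ₁ x − (ℓ₁ + 1) x = c₁ x`.
 1. (FAC-p) a Kummer function `u` of `x′` has a Gauss reduction `r ∈ F̄_M` with `p ∣ div r`.
 2. (HOL-SPAN) `b := dlog r ∈ S̄`.
 3. (T2) the relation `HolRel a b` ("`b = dlog` of the Gauss reduction of a Kummer function of
    `a`") is additive, functional, and stable under the good `T_ℓ` (`R38Red.dlog_kronHecke`),
    hence under `t₀`: `t₀ b = b̄(t₀ x′) = n₀ b`.
 4. (KILL) `t₀ b = 0`; so `n₀ b = 0`, `b = 0` (`p ∤ n₀`).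
 5. (D) `dlog r = 0` ⇒ `r = gᵖ`, lift `g` ⇒ `TrivInf x′` ⇒ `TrivInf x` (`p ∤ c₁`).

* `HolRel`, `holRel_zero/_add/_neg/_zsmul/_hecke/_unique`;
* `StmtHolTriv` : step (D) as a Prop (helper52, `R38/HolTriv.lean`);
* `stmtTresTriv_of_hol`.
-/

set_option autoImplicit false
set_option linter.unusedSectionVars false
set_option linter.style.haveILetI false
set_option synthInstance.maxHeartbeats 400000
set_option maxHeartbeats 1600000

noncomputable section

namespace Fermat.Agent.R38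

open ModularCurve AlgebraicCurve HahnSeries Fermat.Agent.ES Fermat.Agent.ES.G2 Fermat.Agent.ES.M
  Fermat.Agent.STB Fermat.Agent.RIB.MP Fermat.Agent.S24 ExtCitation

/-! ## The relation -/

section Rel

variable {N : ℕ} [NeZero N] {A : ValuationSubring Qb} {p : ℕ}

/-- `b` is the logarithmic derivative of the Gauss reduction (at `A`) of a Kummer function
(exponent `p`) of the class `a`. -/
def HolRel (A : ValuationSubring Qb) (p : ℕ) (a : JZero N) (b : LaurentSeries (kA A)) : Prop :=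
  ∃ (u : modularFunctionFieldBar N) (r : LaurentSeries (kA A)),
    KummerRel p a u ∧ R38Red A (u : LaurentSeries Qb) r ∧ r38dlog r = b

theorem holRel_zero : HolRel A p (0 : JZero N) 0 :=
  ⟨1, 1, KummerRel.zero, R38Red.one, r38dlog_one⟩

theorem holRel_add {a a' : JZero N} {b b' : LaurentSeries (kA A)} (h : HolRel A p a b)
    (h' : HolRel A p a' b') : HolRel A p (a + a') (b + b') := by
  obtain ⟨u, r, hu, hr, rfl⟩ := h
  obtain ⟨u', r', hu', hr', rfl⟩ := h'
  exact ⟨u * u', r * r', hu.add hu', hr.mul hr', hr.dlog_mul hr'⟩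

theorem holRel_neg {a : JZero N} {b : LaurentSeries (kA A)} (h : HolRel A p a b) :
    HolRel A p (-a) (-b) := by
  obtain ⟨u, r, hu, hr, rfl⟩ := h
  exact ⟨u⁻¹, r⁻¹, hu.neg, hr.inv, r38dlog_inv r⟩

theorem holRel_zsmul (n : ℤ) {a : JZero N} {b : LaurentSeries (kA A)} (h : HolRel A p a b) :
    HolRel A p (n • a) (n • b) :=
  tresalg_rel_zsmul (fun a b => HolRel A p a b) holRel_zero
    (fun _ _ _ _ h1 h2 => holRel_add h1 h2) (fun _ _ h1 => holRel_neg h1) n h

/-- the relation is stable under the good Hecke operators -/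
theorem holRel_hecke {q : ℕ} (hq : q.Prime) (hA : A.LiesOverPrime q) (ℓ : Nat.Primes)
    (hℓN : ¬ (ℓ : ℕ) ∣ N) (hℓq : (ℓ : ℕ) ≠ q) {a : JZero N} {b : LaurentSeries (kA A)}
    (h : HolRel A p a b) :
    HolRel A p (heckeOperatorBar N ℓ a) (r38holOp (kA A) ℓ b) := by
  haveI : NeZero (ℓ : ℕ) := ⟨ℓ.2.ne_zero⟩
  obtain ⟨u, r, hu, hr, rfl⟩ := h
  obtain ⟨ζ, hζ⟩ := frob_exists_primitiveRoot (ℓ : ℕ) ℓ.2.ne_zero
  have hu₁ := KummerRel.hecke N ℓ hu
  have hcoe := heckeNormFun_coe N stmtHeckeNorm (ℓ : ℕ) ℓ.2 hℓN ζ hζ u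
  obtain ⟨r₁, hr₁⟩ := tresgeo_exists_red hq hA hu₁.ne_zero
  haveI : CharP (kA A) q := kron_charP_residueField hq hA
  have hℓk : (((ℓ : ℕ) : ℕ) : kA A) ≠ 0 := by
    intro h0
    have hd : q ∣ (ℓ : ℕ) := (CharP.cast_eq_zero_iff (kA A) q (ℓ : ℕ)).1 h0
    exact hℓq ((Nat.prime_dvd_prime_iff_eq hq ℓ.2).1 hd).symm
  refine ⟨heckeNormFun N (ℓ : ℕ) u, r₁, hu₁, hr₁, ?_⟩
  rw [hcoe] at hr₁
  rw [r38holOp_apply]
  exact R38Red.dlog_kronHecke ℓ.2 hℓk ζ hζ hr hr₁

/-- the relation is functional -/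
theorem holRel_unique (hp : p.Prime) (hA : A.LiesOverPrime p) {a : JZero N}
    {b b' : LaurentSeries (kA A)} (h : HolRel A p a b) (h' : HolRel A p a b') : b' = b := by
  haveI : Fact p.Prime := ⟨hp⟩
  haveI : CharP (kA A) p := kron_charP_residueField hp hA
  obtain ⟨u, r, hu, hr, rfl⟩ := h
  obtain ⟨u', r', hu', hr', rfl⟩ := h'
  obtain ⟨g, c, hg, hc0, hc, he⟩ := hu.exists_eq_mul_pow hu'
  obtain ⟨c₀, rfl⟩ := mu_exists_const_of_ord_eq_zero c hc
  have hc₀ : c₀ ≠ 0 := by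
    rintro rfl
    exact hc0 (map_zero _)
  obtain ⟨s, hs⟩ := tresgeo_exists_red hp hA hg
  have he' : (u' : LaurentSeries Qb) =
      HahnSeries.C c₀ * (u : LaurentSeries Qb) * (g : LaurentSeries Qb) ^ p := by
    rw [← tresgeo_coe_algebraMap (N := N) c₀, he]
    rfl
  exact R38Red.dlog_eq_of_eq_mul_pow p hc₀ hr hr' hs he'

end Rel

/-! ## Step (D) as a Prop -/

/-- **(D)** a Kummer function whose Gauss reduction lies in `F̄_M` and has `dlog = 0` can be
made Gauss-constant: `r = gᵖ` (`tres1_dlog_eq_zero_iff`), lift `g`.  (helper52,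
`R38/HolTriv.lean`.) -/
def StmtHolTriv : Prop :=
  ∀ (M p : ℕ) [NeZero M] [NeZero p] [NeZero (M * p)] (_ : p.Prime) (_ : ¬ p ∣ M), 5 ≤ p →
    ∀ (A : ValuationSubring Qb), A.LiesOverPrime p →
    ∀ (x : JZero (M * p)) (u : modularFunctionFieldBar (M * p)), KummerRel p x u →
    ∀ r : LaurentSeries (kA A), r ∈ modularFunctionFieldFullC (kA A) M →
      R38Red A (u : LaurentSeries Qb) r → r38dlog r = 0 → TrivInf A p x

/-! ## The bridge -/

/-- **BR′**: (FAC-p), (HOL-SPAN), (KILL, landed) and (D) give `StmtTresTriv`. -/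
theorem stmtTresTriv_of_hol (hFac : StmtFacP) (hSpan : StmtHolSpanAll) (hD : StmtHolTriv) :
    StmtTresTriv := by
  intro M p _ _ hpF h5 hpM
  letI := pDivGalois (M * p) p
  letI := pDivModule (M * p) p
  intro A hA x hx hα hβ t₀ ht₀ hK n₀ hn₀ hpn₀ ℓ₁ hℓ₁ n₁ hn₁ hpn₁ hpeu hline
  have hp : p.Prime := hpF.out
  haveI : CharP (kA A) p := kron_charP_residueField hp hA
  -- translation to `JZero`
  have hx' : p • (x : JZero (M * p)) = 0 := by
    have := congrArg Subtype.val hx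
    simpa using this
  have hα' : stbPushAlpha M p (x : JZero (M * p)) = 0 := by
    have := congrArg Subtype.val hα
    rwa [stbPushAlphaP_coe] at this
  have hβ' : stbPushBeta M p (x : JZero (M * p)) = 0 := by
    have := congrArg Subtype.val hβ
    rwa [stbPushBetaP_coe] at this
  have hpeu' : PeuFixed A p (x : JZero (M * p)) := by
    intro σ hσ
    have := congrArg Subtype.val (hpeu σ hσ)
    rwa [pDivGalois_coe] at this
  have hline' : InertiaLine A (x : JZero (M * p)) := by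
    obtain ⟨z₀, hz⟩ := hline
    refine ⟨(z₀ : JZero (M * p)), fun σ hσ => ?_⟩
    obtain ⟨k, hk⟩ := hz σ hσ
    refine ⟨k, ?_⟩
    have := congrArg Subtype.val hk
    simpa [pDivGalois_coe] using this
  have hℓ₁' : ¬ ((ℓ₁ : Nat.Primes) : ℕ) ∣ M * p * p := hℓ₁
  have hcomm := stb_tfComm (p := p) (M * p) hp
  -- the eigenvalue of `T_ℓ₁`
  have hT : heckeOperatorBar (M * p) ℓ₁ (x : JZero (M * p)) = n₁ • (x : JZero (M * p)) := by
    have h1 : (heckeGen ℓ₁ • x : PDiv (M * p) p) = pDivOp (M * p) p ℓ₁ x :=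
      tfModule_heckeGen_smul hcomm ℓ₁ x
    have h2 := congrArg Subtype.val (h1.symm.trans hn₁)
    rw [pDivOp_of_good hℓ₁'] at h2
    rw [h2]
    exact AddSubgroup.coe_zsmul _ _ _
  set c₁ : ℤ := n₁ - (((ℓ₁ : Nat.Primes) : ℕ) + 1) with hc₁
  have heis : eisKill ℓ₁ (x : JZero (M * p)) = ((c₁ • x : PDiv (M * p) p) : JZero (M * p)) := by
    rw [eisKill, hT, AddSubgroup.coe_zsmul, hc₁, sub_smul]
    congr 1
  -- step 1: (FAC-p)
  obtain ⟨u, r, hrF, hxu, hred, hdvd⟩ :=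
    hFac M p hp hpM h5 A hA (x : JZero (M * p)) hx' hα' hβ' hpeu' hline' ℓ₁ hℓ₁'
  -- step 2: (HOL-SPAN)
  have hb : r38dlog r ∈ holSpan (kA A) M :=
    hSpan M p hp h5 hpM A hA r hred.ne_zero_right ⟨hrF, hdvd⟩
  -- step 3: (T2)
  have hrel : HolRel A p ((c₁ • x : PDiv (M * p) p) : JZero (M * p)) (r38dlog r) := by
    rw [← heis]
    exact ⟨u, r, hxu, hred, rfl⟩
  have hpoly := tresalg_tfEval_rel hcomm (r38hol_tfComm (kA A))
    (fun (a : PDiv (M * p) p) (b : LaurentSeries (kA A)) => HolRel A p (a : JZero (M * p)) b)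
    holRel_zero
    (fun a a' b b' h1 h2 => by
      show HolRel A p ((a + a' : PDiv (M * p) p) : JZero (M * p)) (b + b')
      rw [AddSubgroup.coe_add]
      exact holRel_add h1 h2)
    (fun a b h1 => by
      show HolRel A p ((-a : PDiv (M * p) p) : JZero (M * p)) (-b)
      rw [AddSubgroup.coe_neg]
      exact holRel_neg h1)
    (goodPrimes (M * p) p)
    (fun ℓ hℓ a b h1 => by
      show HolRel A p ((pDivOp (M * p) p ℓ a : PDiv (M * p) p) : JZero (M * p))
        (r38holOp (kA A) ℓ b)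
      rw [pDivOp_of_good hℓ]
      have hℓ' : ¬ ((ℓ : Nat.Primes) : ℕ) ∣ M * p * p := hℓ
      exact holRel_hecke hp hA ℓ (fun h => hℓ' (h.mul_right p))
        (fun h => hℓ' (by rw [h]; exact dvd_mul_left p (M * p))) h1)
    t₀ ht₀ (c₁ • x) (r38dlog r) hrel
  have hnew : tfEval hcomm t₀ (c₁ • x) = n₀ • (c₁ • x) := by
    rw [map_zsmul, ← stb_pDiv_smul_def (M * p) hp, hn₀, smul_comm]
  rw [hnew, AddSubgroup.coe_zsmul] at hpoly
  have heig : n₀ • r38dlog r = tfEval (r38hol_tfComm (kA A)) t₀ (r38dlog r) :=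
    holRel_unique hp hA hpoly (holRel_zsmul n₀ hrel)
  -- step 4: (KILL)
  have hkill : tfEval (r38hol_tfComm (kA A)) t₀ (r38dlog r) = 0 := by
    have := stmtHolKill M (kA A) (goodPrimes (M * p) p)
      (fun ℓ hℓ h => hℓ ((h.mul_right p).mul_right p)) t₀ ht₀ hK (r38dlog r) hb
    rwa [r38hol_smul_def] at this
  rw [hkill] at heig
  have hn₀k : ((n₀ : ℤ) : kA A) ≠ 0 := by
    intro h0
    exact hpn₀ ((CharP.intCast_eq_zero_iff (kA A) p n₀).1 h0)
  have hb0 : r38dlog r = 0 := by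
    rw [← Int.cast_smul_eq_zsmul (kA A)] at heig
    exact (smul_eq_zero.1 heig).resolve_left hn₀k
  -- step 5: (D)
  have htriv : TrivInf A p (eisKill ℓ₁ (x : JZero (M * p))) :=
    hD M p hp hpM h5 A hA _ u hxu r hrF hred hb0
  rw [heis, AddSubgroup.coe_zsmul] at htriv
  exact tresalg_trivInf_of_zsmul hp hpn₁ hx' htriv

end Fermat.Agent.R38

end
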