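/-
ROW 38, PKG-TRES, route HOL-dlog (sub-captain helper83), piece **HOL-CUSP**, abstract part
(helper55): orders of logarithmic derivatives in `k((Q))`, characteristic `p`.

* `r38hcusp_order_eq`, `r38hcusp_order_inv`, `r38hcusp_order_sub_C`, `r38hcusp_order_theta`;
* `r38hcusp_theta_order` : `p ∣ ord R`, `θ R ≠ 0` ⇒ `ord (θ R) ≥ ord R + 1`;
* `r38hcusp_dlog_coeff` : `p ∣ ord R` ⇒ `θ R / R ∈ Q k[[Q]]`;
* `r38hcusp_abs` : `ord J = −N < 0`, `N ≠ 0` in `k`, `p ∣ ord R` ⇒
  `J (J − c) (θ R / θ J) / R` has order `≥ 1 − N`.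
-/
import Mathlib
import Fermat.Agent.S28.Deriv

set_option autoImplicit false

namespace Fermat.Agent.R38

open Fermat.Agent.S28.Deriv

section Laurent

variable {k : Type*} [Field k]

theorem r38hcusp_coeff_order_ne_zero {x : LaurentSeries k} (hx : x ≠ 0) :
    x.coeff x.order ≠ 0 := fun h => hx (HahnSeries.coeff_order_eq_zero.mp h)

/-- characterisation of the order of a Laurent series -/
theorem r38hcusp_order_eq {x : LaurentSeries k} {a : ℤ} (h1 : ∀ n < a, x.coeff n = 0)
    (h2 : x.coeff a ≠ 0) : x.order = a := by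
  have hx : x ≠ 0 := fun h => h2 (by rw [h, HahnSeries.coeff_zero])
  apply le_antisymm
  · exact HahnSeries.order_le_of_coeff_ne_zero h2
  · by_contra hlt
    push Not at hlt
    exact r38hcusp_coeff_order_ne_zero hx (h1 _ hlt)

theorem r38hcusp_order_inv {x : LaurentSeries k} (hx : x ≠ 0) : (x⁻¹).order = -x.order := by
  have h := HahnSeries.order_mul hx (inv_ne_zero hx)
  rw [mul_inv_cancel₀ hx, HahnSeries.order_one] at h
  omega

/-- subtracting a constant does not change a negative order -/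
theorem r38hcusp_order_sub_C {x : LaurentSeries k} (hx : x ≠ 0) (hneg : x.order < 0) (c : k) :
    (x - HahnSeries.C c).order = x.order := by
  apply r38hcusp_order_eq
  · intro n hn
    rw [HahnSeries.coeff_sub, HahnSeries.coeff_eq_zero_of_lt_order hn, HahnSeries.C_apply,
      HahnSeries.coeff_single_of_ne (by omega), sub_zero]
  · rw [HahnSeries.coeff_sub, HahnSeries.C_apply, HahnSeries.coeff_single_of_ne (by omega),
      sub_zero]
    exact r38hcusp_coeff_order_ne_zero hx

/-- `θ` does not change an order which is nonzero in `k` -/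
theorem r38hcusp_order_theta {x : LaurentSeries k} (hx : x ≠ 0)
    (ha : ((x.order : ℤ) : k) ≠ 0) : (thetaFun x).order = x.order := by
  apply r38hcusp_order_eq
  · intro n hn
    rw [thetaFun_coeff, HahnSeries.coeff_eq_zero_of_lt_order hn, mul_zero]
  · rw [thetaFun_coeff]
    exact mul_ne_zero ha (r38hcusp_coeff_order_ne_zero hx)

/-- `θ R` has order `> ord R` if `p ∣ ord R` (characteristic `p`). -/
theorem r38hcusp_theta_order (p : ℕ) [CharP k p] {R : LaurentSeries k}
    (hp : (p : ℤ) ∣ R.order) (hθ : thetaFun R ≠ 0) : R.order + 1 ≤ (thetaFun R).order := by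
  by_contra hlt
  push Not at hlt
  have hle : (thetaFun R).order ≤ R.order := by omega
  have h0 : (thetaFun R).coeff (thetaFun R).order = 0 := by
    rw [thetaFun_coeff]
    rcases lt_or_eq_of_le hle with h | h
    · rw [HahnSeries.coeff_eq_zero_of_lt_order h, mul_zero]
    · rw [h]
      obtain ⟨c, hc⟩ := hp
      have h1 : ((R.order : ℤ) : k) = 0 := by
        rw [hc, Int.cast_mul, Int.cast_natCast, CharP.cast_eq_zero, zero_mul]
      rw [h1, zero_mul]
  exact r38hcusp_coeff_order_ne_zero hθ h0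

/-- the logarithmic derivative `θ R / R` lies in `Q k[[Q]]` if `p ∣ ord R` -/
theorem r38hcusp_dlog_coeff (p : ℕ) [CharP k p] {R : LaurentSeries k} (hR : R ≠ 0)
    (hp : (p : ℤ) ∣ R.order) (m : ℤ) (hm : m ≤ 0) : (thetaFun R * R⁻¹).coeff m = 0 := by
  by_cases hθ : thetaFun R = 0
  · rw [hθ, zero_mul, HahnSeries.coeff_zero]
  · apply HahnSeries.coeff_eq_zero_of_lt_order
    rw [HahnSeries.order_mul hθ (inv_ne_zero hR), r38hcusp_order_inv hR]
    have := r38hcusp_theta_order p hp hθ
    omega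

/-- **HOL-CUSP, abstract form**: for `J` of order `−N < 0` (`N ≠ 0` in `k`) and `R ≠ 0` with
`p ∣ ord R`, the series `J (J − c) (θ R / θ J) / R` has order `≥ 1 − N`. -/
theorem r38hcusp_abs (p : ℕ) [CharP k p] {J R : LaurentSeries k} {N : ℕ} (hN : 0 < N)
    (hNk : ((N : ℕ) : k) ≠ 0) (hJ0 : J ≠ 0) (hJ : J.order = -(N : ℤ)) (c : k) (hR : R ≠ 0)
    (hp : (p : ℤ) ∣ R.order) (m : ℤ) (hm : m ≤ -(N : ℤ)) :
    (J * (J - HahnSeries.C c) * (thetaFun R * (thetaFun J)⁻¹) * R⁻¹).coeff m = 0 := by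
  have hJneg : J.order < 0 := by rw [hJ]; omega
  have hJc : (J - HahnSeries.C c).order = -(N : ℤ) := by
    rw [r38hcusp_order_sub_C hJ0 hJneg, hJ]
  have hJc0 : J - HahnSeries.C c ≠ 0 := by
    intro h
    rw [h, HahnSeries.order_zero] at hJc
    omega
  have hak : ((J.order : ℤ) : k) ≠ 0 := by
    rw [hJ, Int.cast_neg, Int.cast_natCast]
    exact neg_ne_zero.mpr hNk
  have hθJ : (thetaFun J).order = -(N : ℤ) := by
    rw [r38hcusp_order_theta hJ0 hak, hJ]
  have hθJ0 : thetaFun J ≠ 0 := by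
    intro h
    rw [h, HahnSeries.order_zero] at hθJ
    omega
  by_cases hθ : thetaFun R = 0
  · rw [hθ, zero_mul, mul_zero, zero_mul, HahnSeries.coeff_zero]
  · apply HahnSeries.coeff_eq_zero_of_lt_order
    have h1 := r38hcusp_theta_order p hp hθ
    rw [HahnSeries.order_mul (mul_ne_zero (mul_ne_zero hJ0 hJc0)
        (mul_ne_zero hθ (inv_ne_zero hθJ0))) (inv_ne_zero hR),
      HahnSeries.order_mul (mul_ne_zero hJ0 hJc0) (mul_ne_zero hθ (inv_ne_zero hθJ0)),
      HahnSeries.order_mul hJ0 hJc0, HahnSeries.order_mul hθ (inv_ne_zero hθJ0),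
      r38hcusp_order_inv hθJ0, r38hcusp_order_inv hR, hJ, hJc, hθJ]
    omega

end Laurent

end Fermat.Agent.R38
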