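import Fermat.Agent.S28.Deriv
import Fermat.Agent.ES.Kronecker

/-!
# Row 38, PKG-TRES, piece T1 (formal part): the logarithmic derivative on `k((q))` (helper42)

`θ = q d/dq` (`S28.Deriv.thetaFun`), `dlog f = θ f / f` on Laurent series over a field `k`.

* `r38dlog_mul`, `r38dlog_inv`, `r38dlog_div`, `r38dlog_pow`, `r38dlog_C` : the usual rules;
* `r38dlog_pow_char` : `dlog (f ^ p) = 0` in characteristic `p`;
* `r38dlog_eq_zero_iff` : `dlog f = 0 ↔ θ f = 0` (`f ≠ 0`);
* `r38dlog_theta_eq_zero_iff` : in characteristic `p`, `θ f = 0 ↔ f` is a series in `q ^ p`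
  (`f = qExpand k p g`);
* `r38dlog_exists_pow_of_theta_eq_zero` : over a perfect field of characteristic `p`,
  `θ f = 0 ↔ f` is a `p`-th power in `k((q))`;
* `r38dlog_eq_iff` : `dlog f = dlog g ↔ f / g` is a `p`-th power in `k((q))` (`k` perfect).
-/

set_option autoImplicit false
set_option linter.unusedSectionVars false
set_option linter.style.haveILetI false

noncomputable section

namespace Fermat.Agent.R38

open HahnSeries ModularCurve Fermat.Agent.S28.Deriv Fermat.Agent.ES

variable {k : Type*} [Field k]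

/-- **the logarithmic derivative** `θ f / f` on `k((q))` -/
def r38dlog (f : LaurentSeries k) : LaurentSeries k := thetaFun f * f⁻¹

theorem r38dlog_zero : r38dlog (0 : LaurentSeries k) = 0 := by
  rw [r38dlog, thetaFun_zero, zero_mul]

theorem r38dlog_one : r38dlog (1 : LaurentSeries k) = 0 := by
  rw [r38dlog, thetaFun_one, zero_mul]

theorem r38dlog_C (a : k) : r38dlog (HahnSeries.C a : LaurentSeries k) = 0 := by
  rw [r38dlog, thetaFun_C, zero_mul]

theorem r38dlog_mul_self {f : LaurentSeries k} (hf : f ≠ 0) : r38dlog f * f = thetaFun f := by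
  rw [r38dlog, mul_assoc, inv_mul_cancel₀ hf, mul_one]

theorem r38dlog_mul {f g : LaurentSeries k} (hf : f ≠ 0) (hg : g ≠ 0) :
    r38dlog (f * g) = r38dlog f + r38dlog g := by
  rw [r38dlog, r38dlog, r38dlog, thetaFun_mul]
  field_simp
  ring

theorem r38dlog_inv (f : LaurentSeries k) : r38dlog f⁻¹ = -r38dlog f := by
  by_cases hf : f = 0
  · rw [hf, inv_zero, r38dlog_zero, neg_zero]
  · have h := r38dlog_mul hf (inv_ne_zero hf)
    rw [mul_inv_cancel₀ hf, r38dlog_one] at h
    exact eq_neg_of_add_eq_zero_right h.symm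

theorem r38dlog_div {f g : LaurentSeries k} (hf : f ≠ 0) (hg : g ≠ 0) :
    r38dlog (f / g) = r38dlog f - r38dlog g := by
  rw [div_eq_mul_inv, r38dlog_mul hf (inv_ne_zero hg), r38dlog_inv, sub_eq_add_neg]

theorem r38dlog_pow (f : LaurentSeries k) (n : ℕ) : r38dlog (f ^ n) = (n : LaurentSeries k) * r38dlog f := by
  by_cases hf : f = 0
  · rcases Nat.eq_zero_or_pos n with rfl | hn
    · rw [pow_zero, r38dlog_one, Nat.cast_zero, zero_mul]
    · rw [hf, zero_pow hn.ne', r38dlog_zero, mul_zero]
  · induction n with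
    | zero => rw [pow_zero, r38dlog_one, Nat.cast_zero, zero_mul]
    | succ n ih =>
      rw [pow_succ, r38dlog_mul (pow_ne_zero n hf) hf, ih]
      push_cast
      ring

theorem r38dlog_C_mul (a : k) (ha : a ≠ 0) {f : LaurentSeries k} (hf : f ≠ 0) :
    r38dlog (HahnSeries.C a * f) = r38dlog f := by
  have hC : (HahnSeries.C a : LaurentSeries k) ≠ 0 := by
    intro h
    apply ha
    have := congrArg (fun x : LaurentSeries k => x.coeff 0) h
    simpa using this
  rw [r38dlog_mul hC hf, r38dlog_C, zero_add]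

theorem r38dlog_eq_zero_iff {f : LaurentSeries k} (hf : f ≠ 0) :
    r38dlog f = 0 ↔ thetaFun f = 0 := by
  rw [r38dlog, mul_eq_zero]
  constructor
  · rintro (h | h)
    · exact h
    · exact absurd (inv_eq_zero.mp h) hf
  · intro h
    exact Or.inl h

section CharP

variable (p : ℕ) [hp : Fact p.Prime] [CharP k p]

/-- in characteristic `p`, `dlog (f ^ p) = 0` -/
theorem r38dlog_pow_char (f : LaurentSeries k) : r38dlog (f ^ p) = 0 := by
  rw [r38dlog_pow]
  have : ((p : ℕ) : LaurentSeries k) = 0 := by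
    have h1 : ((p : ℕ) : LaurentSeries k) = HahnSeries.C ((p : ℕ) : k) := by
      rw [map_natCast]
    rw [h1, CharP.cast_eq_zero k p, map_zero]
  rw [this, zero_mul]

/-- in characteristic `p`, `θ f = 0` iff `f` is supported on the multiples of `p` -/
theorem r38dlog_theta_eq_zero_iff_support (f : LaurentSeries k) :
    thetaFun f = 0 ↔ ∀ n : ℤ, f.coeff n ≠ 0 → (p : ℤ) ∣ n := by
  constructor
  · intro h n hn
    have h1 : (thetaFun f).coeff n = 0 := by rw [h]; rfl
    rw [thetaFun_coeff, mul_eq_zero] at h1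
    rcases h1 with h1 | h1
    · exact (CharP.intCast_eq_zero_iff k p n).mp h1
    · exact absurd h1 hn
  · intro h
    ext n
    rw [thetaFun_coeff]
    by_cases hn : f.coeff n = 0
    · rw [hn, mul_zero]; rfl
    · rw [(CharP.intCast_eq_zero_iff k p n).mpr (h n hn), zero_mul]; rfl

/-- in characteristic `p`, `θ f = 0` iff `f` is a series in `q ^ p` -/
theorem r38dlog_theta_eq_zero_iff (f : LaurentSeries k) :
    thetaFun f = 0 ↔ ∃ g : LaurentSeries k, f = qExpand k p g := by
  haveI : NeZero p := ⟨hp.out.ne_zero⟩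
  rw [r38dlog_theta_eq_zero_iff_support p]
  constructor
  · intro h
    have hp0 : (0 : ℤ) < (p : ℤ) := by exact_mod_cast hp.out.pos
    have hinj : Function.Injective (fun n : ℤ => (p : ℤ) * n) :=
      mul_right_injective₀ hp0.ne'
    have hb : BddBelow (Function.support (fun n : ℤ => f.coeff ((p : ℤ) * n))) := by
      refine ⟨-|f.order|, fun m hm0 => ?_⟩
      by_contra hm'
      have hm : m < -|f.order| := lt_of_not_ge hm'
      apply hm0
      show f.coeff ((p : ℤ) * m) = 0
      apply HahnSeries.coeff_eq_zero_of_lt_order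
      have h1 : m < 0 := lt_of_lt_of_le hm (neg_nonpos.mpr (abs_nonneg _))
      have h2 : (p : ℤ) * m ≤ m := by nlinarith
      have h3 : -|f.order| ≤ f.order := neg_abs_le _
      linarith
    refine ⟨HahnSeries.ofSuppBddBelow _ hb, ?_⟩
    · ext n
      by_cases hn : (p : ℤ) ∣ n
      · obtain ⟨m, rfl⟩ := hn
        rw [qExpand_coeff_mul]
        rfl
      · rw [qExpand_coeff_of_not_dvd p _ hn]
        by_contra h0
        exact hn (h n h0)
  · rintro ⟨g, rfl⟩ n hn
    by_contra hdvd
    exact hn (qExpand_coeff_of_not_dvd p g hdvd)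

/-- over a perfect field of characteristic `p`, a series in `q ^ p` is a `p`-th power -/
theorem r38dlog_qExpand_eq_pow [PerfectField k] (g : LaurentSeries k) :
    ∃ F : LaurentSeries k, F ^ p = qExpand k p g := by
  haveI : NeZero p := ⟨hp.out.ne_zero⟩
  haveI : ExpChar k p := ExpChar.prime hp.out
  refine ⟨coeffMap ((frobeniusEquiv k p).symm : k →+* k) g, ?_⟩
  rw [kron_frobenius_pow p]
  congr 1
  ext n
  rw [coeffMap_coeff, coeffMap_coeff]
  exact frobenius_apply_frobeniusEquiv_symm k p _

/-- **over a perfect field of characteristic `p`, `θ f = 0` iff `f` is a `p`-th power** -/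
theorem r38dlog_theta_eq_zero_iff_pow [PerfectField k] (f : LaurentSeries k) :
    thetaFun f = 0 ↔ ∃ F : LaurentSeries k, F ^ p = f := by
  constructor
  · intro h
    obtain ⟨g, rfl⟩ := (r38dlog_theta_eq_zero_iff p f).mp h
    exact r38dlog_qExpand_eq_pow p g
  · rintro ⟨F, rfl⟩
    by_cases hF : F = 0
    · rw [hF, zero_pow hp.out.ne_zero, thetaFun_zero]
    · exact (r38dlog_eq_zero_iff (pow_ne_zero p hF)).mp (r38dlog_pow_char p F)

/-- `dlog f = dlog g` iff `f / g` is a `p`-th power in `k((q))` (`k` perfect of characteristic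
`p`) -/
theorem r38dlog_eq_iff [PerfectField k] {f g : LaurentSeries k} (hf : f ≠ 0) (hg : g ≠ 0) :
    r38dlog f = r38dlog g ↔ ∃ F : LaurentSeries k, F ^ p = f / g := by
  rw [← r38dlog_theta_eq_zero_iff_pow p, ← r38dlog_eq_zero_iff (div_ne_zero hf hg),
    r38dlog_div hf hg, sub_eq_zero]

end CharP

end Fermat.Agent.R38
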