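import Mathlib
import Fermat.Agent.S28.Deriv
import Fermat.Agent.R38.TresDlog

/-!
# Row 38, PKG-TRES, piece T1 (algebra) (helper66): the kernel of `θ = q d/dq` on a function field

`k` a perfect field of characteristic `p`, `K` a field finite over `k(s)`, `s` transcendental.

* `tres1_relfinrank_pow` : `[K : K^p] = p`;
* `tres1_eq_pow_of_ne_top` : a proper subfield of `K` containing `K^p` is `K^p`;
* `tres1_exists_pow_of_theta_eq_zero` : for `K ⊂ k((q))` containing some `t` with `θ t ≠ 0`:
  `f ∈ K`, `θ f = 0` ⇒ `f = g ^ p` with `g ∈ K`   ("`k(C) ∩ k((q^p)) = k(C)^p`");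
* `tres1_dlog_eq_zero_iff`, `tres1_dlog_eq_iff` : for `f, g ∈ K` nonzero: `r38dlog f = 0 ↔ f ∈ K^p`,
  `r38dlog f = r38dlog g ↔ f / g ∈ K^p` (`r38dlog` of `R38/TresDlog.lean`, which has the same
  statements with `p`-th powers in `k((q))` only).
-/

set_option autoImplicit false

namespace Fermat.Agent.R38

open Polynomial IntermediateField

/-! ### `[K : K^p] = p` -/

section Abstract

variable {K : Type*} [Field K] (p : ℕ) [hp : Fact p.Prime] [CharP K p]

/-- the subfield `K^p` of `p`-th powers -/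
def tres1Pow (K : Type*) [Field K] (p : ℕ) [Fact p.Prime] [CharP K p] : Subfield K :=
  (⊤ : Subfield K).map (frobenius K p)

theorem tres1_mem_pow {x : K} : x ∈ tres1Pow K p ↔ ∃ y : K, y ^ p = x := by
  unfold tres1Pow
  rw [Subfield.mem_map]
  constructor
  · rintro ⟨y, -, rfl⟩
    exact ⟨y, rfl⟩
  · rintro ⟨y, rfl⟩
    exact ⟨y, Subfield.mem_top y, rfl⟩

theorem tres1_map_le (E₀ : Subfield K) : E₀.map (frobenius K p) ≤ E₀ := by
  intro x hx
  rw [Subfield.mem_map] at hx
  obtain ⟨y, hy, rfl⟩ := hx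
  exact pow_mem hy p

/-- `[K : K^p] = p` as soon as some subfield `E₀` has `[K : E₀] < ∞` and `[E₀ : E₀^p] = p`. -/
theorem tres1_relfinrank_pow (E₀ : Subfield K) (hfin : Subfield.relfinrank E₀ ⊤ ≠ 0)
    (hE₀ : Subfield.relfinrank (E₀.map (frobenius K p)) E₀ = p) :
    Subfield.relfinrank (tres1Pow K p) ⊤ = p := by
  set E' := E₀.map (frobenius K p) with hE'
  have h1 : E' ≤ E₀ := tres1_map_le p E₀
  have h2 : E' ≤ tres1Pow K p := by
    intro x hx
    obtain ⟨y, -, rfl⟩ := Subfield.mem_map.mp hx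
    exact Subfield.mem_map.mpr ⟨y, Subfield.mem_top y, rfl⟩
  have e1 := Subfield.relfinrank_mul_relfinrank h1 (le_top : E₀ ≤ ⊤)
  have e2 := Subfield.relfinrank_mul_relfinrank h2 (le_top : tres1Pow K p ≤ ⊤)
  have e3 : Subfield.relfinrank E' (tres1Pow K p) = Subfield.relfinrank E₀ ⊤ :=
    Subfield.relfinrank_map_map E₀ ⊤ (frobenius K p)
  rw [hE₀] at e1
  rw [e3, ← e1] at e2
  exact Nat.eq_of_mul_eq_mul_left (Nat.pos_of_ne_zero hfin) (e2.trans (mul_comm p _))

/-- a proper subfield containing `K^p` is `K^p` (when `[K : K^p] = p`) -/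
theorem tres1_eq_pow_of_ne_top (hrank : Subfield.relfinrank (tres1Pow K p) ⊤ = p)
    (Z : Subfield K) (hZ : tres1Pow K p ≤ Z) (hZne : Z ≠ ⊤) : Z = tres1Pow K p := by
  have e := Subfield.relfinrank_mul_relfinrank hZ (le_top : Z ≤ ⊤)
  rw [hrank] at e
  rcases (Nat.Prime.eq_one_or_self_of_dvd hp.out _ (Dvd.intro_left _ e)) with h | h
  · exact absurd (top_le_iff.mp (Subfield.relfinrank_eq_one_iff.mp h)) hZne
  · rw [h] at e
    have h1 : Subfield.relfinrank (tres1Pow K p) Z = 1 := by
      have hp0 : 0 < p := hp.out.pos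
      exact Nat.eq_of_mul_eq_mul_right hp0 (by rw [e, one_mul])
    exact le_antisymm (Subfield.relfinrank_eq_one_iff.mp h1) hZ

end Abstract

/-! ### `[k(s) : k(s)^p] = p` -/

section RatFunc

variable {k K : Type*} [Field k] [Field K] [Algebra k K] (p : ℕ) [hp : Fact p.Prime]

/-- a transcendental element `s` is not a `p`-th power in `k(s)` -/
theorem tres1_not_pow {s : K} (hs : Transcendental k s) (y : K) (hy : y ∈ k⟮s⟯) : y ^ p ≠ s := by
  intro h
  obtain ⟨a, b, rfl⟩ := (mem_adjoin_simple_iff k y).mp hy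
  have hs0 : s ≠ 0 := fun h0 => hs (h0 ▸ isAlgebraic_zero)
  by_cases hb : aeval s b = 0
  · rw [hb, div_zero, zero_pow hp.out.ne_zero] at h
    exact hs0 h.symm
  · have hb0 : b ≠ 0 := fun h0 => hb (by rw [h0, map_zero])
    rw [div_pow, div_eq_iff (pow_ne_zero p hb)] at h
    have h2 : aeval s (a ^ p - X * b ^ p) = 0 := by
      simp only [map_sub, map_mul, map_pow, aeval_X]
      rw [h]
      ring
    have h3 : a ^ p - X * b ^ p = 0 := by
      by_contra hne
      exact hs ⟨_, hne, h2⟩
    have h4 : a ^ p = X * b ^ p := sub_eq_zero.mp h3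
    have h5 := congrArg natDegree h4
    rw [natDegree_pow, natDegree_X_mul (pow_ne_zero p hb0), natDegree_pow] at h5
    have h6 : p ∣ 1 := by
      have h7 : p ∣ p * b.natDegree + 1 := h5 ▸ dvd_mul_right p _
      exact (Nat.dvd_add_right (dvd_mul_right p _)).mp h7
    exact hp.out.one_lt.ne' (Nat.dvd_one.mp h6)

variable [CharP K p] [CharP k p] [PerfectRing k p]

/-- `[k(s) : k(s)^p] = p` for `s` transcendental over the perfect field `k` -/
theorem tres1_relfinrank_adjoin {s : K} (hs : Transcendental k s) :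
    Subfield.relfinrank ((k⟮s⟯.toSubfield).map (frobenius K p)) k⟮s⟯.toSubfield = p := by
  set E₀ : Subfield K := k⟮s⟯.toSubfield with hE₀
  set E' : Subfield K := E₀.map (frobenius K p) with hE'
  have hle : E' ≤ E₀ := tres1_map_le p E₀
  rw [Subfield.relfinrank_eq_finrank_of_le hle]
  have hs' : s ∈ E₀ := mem_adjoin_simple_self k s
  have hsp : s ^ p ∈ E' := Subfield.mem_map.mpr ⟨s, hs', rfl⟩
  have hkE' : ∀ c : k, algebraMap k K c ∈ E' := by
    intro c
    obtain ⟨d, hd⟩ := surjective_frobenius k p c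
    refine Subfield.mem_map.mpr ⟨algebraMap k K d, ?_, ?_⟩
    · exact k⟮s⟯.algebraMap_mem d
    · rw [← hd, frobenius_def, frobenius_def, map_pow]
  have key : Subfield.extendScalars hle = IntermediateField.adjoin E' {s} := by
    apply le_antisymm
    · intro x hx
      have hx' : x ∈ E₀ := hx
      rw [hE₀, IntermediateField.adjoin_toSubfield] at hx'
      have hsub : Subfield.closure (Set.range (algebraMap k K) ∪ {s})
          ≤ (IntermediateField.adjoin E' {s}).toSubfield := by
        rw [Subfield.closure_le]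
        rintro z (⟨c, rfl⟩ | hz)
        · exact (IntermediateField.adjoin E' {s}).algebraMap_mem ⟨_, hkE' c⟩
        · rw [Set.mem_singleton_iff] at hz
          rw [hz]
          exact mem_adjoin_simple_self E' s
      exact hsub hx'
    · rw [IntermediateField.adjoin_le_iff]
      intro x hx
      rw [Set.mem_singleton_iff] at hx
      rw [hx]
      exact hs'
  rw [key]
  -- the minimal polynomial of `s` over `E'`
  set a' : E' := ⟨s ^ p, hsp⟩ with ha'
  have hmonic : (X ^ p - C a' : E'[X]).Monic := monic_X_pow_sub_C a' hp.out.ne_zero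
  have hroot : aeval s (X ^ p - C a' : E'[X]) = 0 := by
    simp only [map_sub, map_pow, aeval_X, aeval_C]
    exact sub_self _
  have hirr : Irreducible (X ^ p - C a' : E'[X]) := by
    rw [X_pow_sub_C_irreducible_iff_of_prime hp.out]
    intro b hb
    obtain ⟨y, hy, hyb⟩ := Subfield.mem_map.mp b.2
    have h1 : ((b : E') : K) ^ p = s ^ p := by
      have := congrArg (fun z : E' => (z : K)) hb
      simpa using this
    rw [← hyb, frobenius_def] at h1
    have h2 : y ^ p = s := frobenius_inj K p (by rw [frobenius_def, frobenius_def]; exact h1)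
    exact tres1_not_pow p hs y hy h2
  have hint : IsIntegral E' s := ⟨_, hmonic, hroot⟩
  rw [IntermediateField.adjoin.finrank hint,
    ← minpoly.eq_of_irreducible_of_monic hirr hroot hmonic, natDegree_X_pow_sub_C]

/-- **`[K : K^p] = p`** for a field `K` finite over `k(s)`, `k` perfect, `s` transcendental. -/
theorem tres1_relfinrank_pow_of_finite {s : K} (hs : Transcendental k s)
    (hfin : FiniteDimensional k⟮s⟯ K) :
    Subfield.relfinrank (tres1Pow K p) ⊤ = p := by
  refine tres1_relfinrank_pow p k⟮s⟯.toSubfield ?_ (tres1_relfinrank_adjoin p hs)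
  rw [Subfield.relfinrank_top_right]
  have h := Module.finrank_pos (R := k⟮s⟯) (M := K)
  exact h.ne'

end RatFunc

/-! ### the kernel of `θ` -/

section Laurent

open Fermat.Agent.S28.Deriv

variable {k : Type*} [Field k] (p : ℕ) [hp : Fact p.Prime] [CharP k p]

omit hp in
theorem tres1_natCast_eq_zero : ((p : ℕ) : LaurentSeries k) = 0 := by
  have h : ((p : ℕ) : LaurentSeries k) = algebraMap k (LaurentSeries k) (p : k) := by
    rw [map_natCast]
  rw [h, CharP.cast_eq_zero, map_zero]

omit hp in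
/-- `θ` kills `p`-th powers -/
theorem tres1_theta_pow (g : LaurentSeries k) : thetaFun (g ^ p) = 0 := by
  rw [thetaFun_pow, tres1_natCast_eq_zero, zero_mul, zero_mul]

/-- `θ (f⁻¹) = 0` if `θ f = 0` -/
theorem tres1_theta_inv {f : LaurentSeries k} (hf : thetaFun f = 0) : thetaFun f⁻¹ = 0 := by
  by_cases h0 : f = 0
  · rw [h0, inv_zero, thetaFun_zero]
  · have h1 : thetaFun (f * f⁻¹) = 0 := by rw [mul_inv_cancel₀ h0, thetaFun_one]
    rw [thetaFun_mul, hf, mul_zero, add_zero] at h1
    exact (mul_eq_zero.mp h1).resolve_left h0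

/-- the kernel of `θ` in an intermediate field `Kf ⊂ k((q))`, as a subfield of `Kf` -/
def tres1Ker (Kf : IntermediateField k (LaurentSeries k)) : Subfield Kf where
  carrier := {f | thetaFun (f : LaurentSeries k) = 0}
  mul_mem' := by
    intro a b ha hb
    show thetaFun ((a : LaurentSeries k) * (b : LaurentSeries k)) = 0
    rw [thetaFun_mul, show thetaFun (a : LaurentSeries k) = 0 from ha,
      show thetaFun (b : LaurentSeries k) = 0 from hb, mul_zero, mul_zero, add_zero]
  one_mem' := thetaFun_one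
  add_mem' := by
    intro a b ha hb
    show thetaFun ((a : LaurentSeries k) + (b : LaurentSeries k)) = 0
    rw [thetaFun_add, show thetaFun (a : LaurentSeries k) = 0 from ha,
      show thetaFun (b : LaurentSeries k) = 0 from hb, add_zero]
  zero_mem' := thetaFun_zero
  neg_mem' := by
    intro a ha
    show thetaFun (-(a : LaurentSeries k)) = 0
    rw [thetaFun_neg, show thetaFun (a : LaurentSeries k) = 0 from ha, neg_zero]
  inv_mem' := by
    intro a ha
    show thetaFun ((a : LaurentSeries k)⁻¹) = 0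
    exact tres1_theta_inv ha

theorem tres1_mem_ker {Kf : IntermediateField k (LaurentSeries k)} {f : Kf} :
    f ∈ tres1Ker Kf ↔ thetaFun (f : LaurentSeries k) = 0 := Iff.rfl

variable [PerfectRing k p]

/-- **T1 (algebra).**  `Kf ⊂ k((q))` finite over `k(s)` (`s` transcendental, `k` perfect of
characteristic `p`), containing some `t` with `θ t ≠ 0`.  Then every `f ∈ Kf` with `θ f = 0` is a
`p`-th power in `Kf`. -/
theorem tres1_exists_pow_of_theta_eq_zero (Kf : IntermediateField k (LaurentSeries k))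
    {s : Kf} (hs : Transcendental k s) (hfin : FiniteDimensional k⟮s⟯ Kf)
    {t : LaurentSeries k} (ht : t ∈ Kf) (hθt : thetaFun t ≠ 0)
    {f : LaurentSeries k} (hf : f ∈ Kf) (hθf : thetaFun f = 0) :
    ∃ g ∈ Kf, g ^ p = f := by
  have : CharP Kf p := charP_of_injective_algebraMap (algebraMap k Kf).injective p
  have hrank := tres1_relfinrank_pow_of_finite (K := Kf) p hs hfin
  have hle : tres1Pow Kf p ≤ tres1Ker Kf := by
    intro x hx
    obtain ⟨y, rfl⟩ := (tres1_mem_pow p).mp hx
    show thetaFun (((y ^ p : Kf) : LaurentSeries k)) = 0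
    rw [show ((y ^ p : Kf) : LaurentSeries k) = (y : LaurentSeries k) ^ p from rfl]
    exact tres1_theta_pow p _
  have hne : tres1Ker Kf ≠ ⊤ := by
    intro h
    have : (⟨t, ht⟩ : Kf) ∈ tres1Ker Kf := by rw [h]; exact Subfield.mem_top _
    exact hθt this
  have heq := tres1_eq_pow_of_ne_top p hrank (tres1Ker Kf) hle hne
  have hmem : (⟨f, hf⟩ : Kf) ∈ tres1Pow Kf p := by
    rw [← heq]
    exact hθf
  obtain ⟨y, hy⟩ := (tres1_mem_pow p).mp hmem
  exact ⟨y, y.2, congrArg Subtype.val hy⟩

/-! ### `dlog` (`r38dlog` of `R38/TresDlog.lean`, helper42) -/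

/-- **T1**: for `f ≠ 0` in `Kf`: `dlog f = 0 ↔ f` is a `p`-th power IN `Kf`. -/
theorem tres1_dlog_eq_zero_iff (Kf : IntermediateField k (LaurentSeries k))
    {s : Kf} (hs : Transcendental k s) (hfin : FiniteDimensional k⟮s⟯ Kf)
    {t : LaurentSeries k} (ht : t ∈ Kf) (hθt : thetaFun t ≠ 0)
    {f : LaurentSeries k} (hf : f ∈ Kf) (hf0 : f ≠ 0) :
    r38dlog f = 0 ↔ ∃ g ∈ Kf, g ^ p = f := by
  rw [r38dlog_eq_zero_iff hf0]
  constructor
  · exact tres1_exists_pow_of_theta_eq_zero p Kf hs hfin ht hθt hf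
  · rintro ⟨g, -, rfl⟩
    exact tres1_theta_pow p g

/-- **T1**: for `f, g ≠ 0` in `Kf`: `dlog f = dlog g ↔ f / g` is a `p`-th power IN `Kf`. -/
theorem tres1_dlog_eq_iff (Kf : IntermediateField k (LaurentSeries k))
    {s : Kf} (hs : Transcendental k s) (hfin : FiniteDimensional k⟮s⟯ Kf)
    {t : LaurentSeries k} (ht : t ∈ Kf) (hθt : thetaFun t ≠ 0)
    {f g : LaurentSeries k} (hf : f ∈ Kf) (hg : g ∈ Kf) (hf0 : f ≠ 0) (hg0 : g ≠ 0) :
    r38dlog f = r38dlog g ↔ ∃ h ∈ Kf, h ^ p = f / g := by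
  rw [← tres1_dlog_eq_zero_iff p Kf hs hfin ht hθt (Kf.div_mem hf hg) (div_ne_zero hf0 hg0),
    r38dlog_div hf0 hg0, sub_eq_zero]

end Laurent

end Fermat.Agent.R38
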