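/-
ROW 38, PKG-TRES, route HOL-dlog (sub-captain helper83), piece **HOL-DER** (helper55).

`k` a perfect field of characteristic `p`, `Kf ⊂ k((q))` a field finite over `k(s)`
(`s` transcendental), `t ∈ Kf` with `θ t ≠ 0` (`θ = q d/dq`, `thetaFun`).

* `r38hder_exists` : for every ring homomorphism `τ : Kf → k((q))` and every `f ∈ Kf` there is
  `g ∈ Kf` with `θ f = g · θ t` AND `θ (τ f) = τ g · θ (τ t)`:
  the derivation `D = θ / θ t` preserves `Kf` and commutes with `τ`
  (`τ ∘ D = D_τ ∘ τ`, `D_τ = θ / θ (τ t)`).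
  Proof (p-basis trick of helper56): the set of `f` with this property is a subfield of `Kf`
  containing `Kf^p` and `t ∉ Kf^p`; `[Kf : Kf^p] = p` (`tres1_relfinrank_pow_of_finite`).
* `r38hder_full_*` : the instance `Kf = F̄ = modularFunctionFieldFullC k N`, `s = t = j̄`:
  `r38hder_full_transcendental`, `r38hder_full_finite` (the hypotheses `hs`, `hfin` of
  `R38/TresDlogAlg.lean` for `F̄`), `r38hder_full_exists`, and
  `r38hder_full_mem : f ∈ F̄ → θ f / θ j̄ ∈ F̄`,
  `r38hder_full_comm : τ (θ f / θ j̄) = θ (τ f) / θ (τ j̄)`.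
-/
import Mathlib
import Fermat.Agent.S28.Deriv
import Fermat.Agent.R38.TresDlogAlg

set_option autoImplicit false

namespace Fermat.Agent.R38

open Fermat.Agent.S28.Deriv IntermediateField

section Abs

variable {k : Type*} [Field k]

/-- `θ (f⁻¹) = − f⁻² θ f` -/
theorem r38hder_theta_inv {f : LaurentSeries k} (hf : f ≠ 0) :
    thetaFun f⁻¹ = -(f⁻¹ * f⁻¹ * thetaFun f) := by
  have h1 : thetaFun (f * f⁻¹) = 0 := by rw [mul_inv_cancel₀ hf, thetaFun_one]
  rw [thetaFun_mul] at h1
  have h2 : f * thetaFun f⁻¹ = -(f⁻¹ * thetaFun f) := eq_neg_of_add_eq_zero_left h1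
  calc thetaFun f⁻¹ = f⁻¹ * (f * thetaFun f⁻¹) := by
        rw [← mul_assoc, inv_mul_cancel₀ hf, one_mul]
    _ = -(f⁻¹ * f⁻¹ * thetaFun f) := by rw [h2]; ring

/-- The property of the pair `f, g ∈ Kf`: `θ f = g · θ t`, and `θ (τ f) = τ g · θ T`. -/
def R38HDerGood (Kf : IntermediateField k (LaurentSeries k)) (t : LaurentSeries k)
    (τ : Kf →+* LaurentSeries k) (T : LaurentSeries k) (f g : Kf) : Prop :=
  thetaFun (f : LaurentSeries k) = (g : LaurentSeries k) * thetaFun t ∧
    thetaFun (τ f) = τ g * thetaFun T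

/-- the subfield of the elements of `Kf` with a good derivative -/
def r38hderSub (Kf : IntermediateField k (LaurentSeries k)) (t : LaurentSeries k)
    (τ : Kf →+* LaurentSeries k) (T : LaurentSeries k) : Subfield Kf where
  carrier := {f | ∃ g : Kf, R38HDerGood Kf t τ T f g}
  mul_mem' := by
    rintro a b ⟨ga, ha1, ha2⟩ ⟨gb, hb1, hb2⟩
    refine ⟨a * gb + b * ga, ?_, ?_⟩
    · show thetaFun ((a : LaurentSeries k) * (b : LaurentSeries k)) =
        ((a : LaurentSeries k) * (gb : LaurentSeries k) +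
          (b : LaurentSeries k) * (ga : LaurentSeries k)) * thetaFun t
      rw [thetaFun_mul, ha1, hb1]
      ring
    · rw [map_mul, thetaFun_mul, ha2, hb2, map_add, map_mul, map_mul]
      ring
  one_mem' := by
    refine ⟨0, ?_, ?_⟩
    · show thetaFun (1 : LaurentSeries k) = (0 : LaurentSeries k) * thetaFun t
      rw [thetaFun_one, zero_mul]
    · rw [map_one, thetaFun_one, map_zero, zero_mul]
  add_mem' := by
    rintro a b ⟨ga, ha1, ha2⟩ ⟨gb, hb1, hb2⟩
    refine ⟨ga + gb, ?_, ?_⟩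
    · show thetaFun ((a : LaurentSeries k) + (b : LaurentSeries k)) =
        ((ga : LaurentSeries k) + (gb : LaurentSeries k)) * thetaFun t
      rw [thetaFun_add, ha1, hb1, add_mul]
    · rw [map_add, thetaFun_add, ha2, hb2, map_add, add_mul]
  zero_mem' := by
    refine ⟨0, ?_, ?_⟩
    · show thetaFun (0 : LaurentSeries k) = (0 : LaurentSeries k) * thetaFun t
      rw [thetaFun_zero, zero_mul]
    · rw [map_zero, thetaFun_zero, zero_mul]
  neg_mem' := by
    rintro a ⟨ga, ha1, ha2⟩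
    refine ⟨-ga, ?_, ?_⟩
    · show thetaFun (-(a : LaurentSeries k)) = (-(ga : LaurentSeries k)) * thetaFun t
      rw [thetaFun_neg, ha1, neg_mul]
    · rw [map_neg, thetaFun_neg, ha2, map_neg, neg_mul]
  inv_mem' := by
    rintro a ⟨ga, ha1, ha2⟩
    by_cases h0 : a = 0
    · refine ⟨0, ?_, ?_⟩
      · show thetaFun ((a : LaurentSeries k)⁻¹) = (0 : LaurentSeries k) * thetaFun t
        rw [h0]
        show thetaFun ((0 : LaurentSeries k)⁻¹) = _
        rw [inv_zero, thetaFun_zero, zero_mul]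
      · rw [h0, inv_zero, map_zero, thetaFun_zero, zero_mul]
    · have h0' : (a : LaurentSeries k) ≠ 0 := fun h => h0 (Subtype.ext h)
      have h0'' : τ a ≠ 0 := fun h => h0 ((map_eq_zero τ).mp h)
      refine ⟨-(a⁻¹ * a⁻¹ * ga), ?_, ?_⟩
      · show thetaFun ((a : LaurentSeries k)⁻¹) =
          (-((a : LaurentSeries k)⁻¹ * (a : LaurentSeries k)⁻¹ * (ga : LaurentSeries k))) *
            thetaFun t
        rw [r38hder_theta_inv h0', ha1]
        ring
      · rw [map_inv₀, r38hder_theta_inv h0'', ha2, map_neg, map_mul, map_mul, map_inv₀]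
        ring

theorem r38hder_mem_sub {Kf : IntermediateField k (LaurentSeries k)} {t : LaurentSeries k}
    {τ : Kf →+* LaurentSeries k} {T : LaurentSeries k} {f : Kf} :
    f ∈ r38hderSub Kf t τ T ↔ ∃ g : Kf, R38HDerGood Kf t τ T f g := Iff.rfl

/-- **HOL-DER, abstract form.**  `D = θ / θ t` preserves `Kf` and commutes with every
ring homomorphism `τ : Kf → k((q))`. -/
theorem r38hder_exists (p : ℕ) [hp : Fact p.Prime] [CharP k p] [PerfectRing k p]
    (Kf : IntermediateField k (LaurentSeries k))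
    {s : Kf} (hs : Transcendental k s) (hfin : FiniteDimensional k⟮s⟯ Kf)
    {t : LaurentSeries k} (ht : t ∈ Kf) (hθt : thetaFun t ≠ 0)
    (τ : Kf →+* LaurentSeries k) (f : Kf) :
    ∃ g : Kf, thetaFun (f : LaurentSeries k) = (g : LaurentSeries k) * thetaFun t ∧
      thetaFun (τ f) = τ g * thetaFun (τ ⟨t, ht⟩) := by
  have : CharP Kf p := charP_of_injective_algebraMap (algebraMap k Kf).injective p
  have hrank := tres1_relfinrank_pow_of_finite (K := Kf) p hs hfin
  have hle : tres1Pow Kf p ≤ r38hderSub Kf t τ (τ ⟨t, ht⟩) := by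
    intro x hx
    obtain ⟨y, rfl⟩ := (tres1_mem_pow p).mp hx
    refine ⟨0, ?_, ?_⟩
    · show thetaFun ((y : LaurentSeries k) ^ p) = (0 : LaurentSeries k) * thetaFun t
      rw [tres1_theta_pow p, zero_mul]
    · rw [map_pow, tres1_theta_pow p, map_zero, zero_mul]
  have htZ : (⟨t, ht⟩ : Kf) ∈ r38hderSub Kf t τ (τ ⟨t, ht⟩) := by
    refine ⟨1, ?_, ?_⟩
    · show thetaFun t = (1 : LaurentSeries k) * thetaFun t
      rw [one_mul]
    · rw [map_one, one_mul]
  have hne : r38hderSub Kf t τ (τ ⟨t, ht⟩) ≠ tres1Pow Kf p := by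
    intro h
    rw [h] at htZ
    obtain ⟨y, hy⟩ := (tres1_mem_pow p).mp htZ
    apply hθt
    have h1 : t = (y : LaurentSeries k) ^ p := (congrArg Subtype.val hy).symm
    rw [h1]
    exact tres1_theta_pow p _
  have htop : r38hderSub Kf t τ (τ ⟨t, ht⟩) = ⊤ := by
    by_contra h
    exact hne (tres1_eq_pow_of_ne_top p hrank _ hle h)
  have hf : f ∈ r38hderSub Kf t τ (τ ⟨t, ht⟩) := by
    rw [htop]
    exact Subfield.mem_top f
  exact hf

end Abs

end Fermat.Agent.R38
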