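/-
ROW 38, PKG-TRES, route HOL-dlog (sub-captain helper83), piece **HOL-DER**, concrete part
(helper55): the instance `Kf = F̄ = modularFunctionFieldFullC k N`, `s = t = j̄ = jqModC k` of
`R38/HolDer.lean` and of `R38/TresDlogAlg.lean`.

* `r38hderJ k N` : `j̄` as an element of `F̄`;
* `r38hder_full_transcendental`, `r38hder_full_finite` : the hypotheses `hs`, `hfin`
  (`Transcendental k s`, `FiniteDimensional k⟮s⟯ F̄`) of `tres1_*` and of `r38hder_exists`;
* `r38hder_full_exists` : `θ f = g · θ j̄`, `θ (τ f) = τ g · θ (τ j̄)` with `g ∈ F̄`;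
* `r38hder_full_mem`  : `f ∈ F̄ → θ f / θ j̄ ∈ F̄`   (`D = θ / θ j̄` preserves `F̄`);
* `r38hder_full_comm` : `τ (θ f / θ j̄) = θ (τ f) / θ (τ j̄)` for a `k`-algebra map
  `τ : F̄ → k((q))` with `θ (τ j̄) ≠ 0`.
-/
import Fermat.Agent.R38.HolDer
import Fermat.Agent.ES.I2.TraceNorm

set_option autoImplicit false
set_option linter.style.haveILetI false

noncomputable section

namespace Fermat.Agent.R38

open ModularCurve IntermediateField Fermat.Agent.S28 Fermat.Agent.S28.Deriv Fermat.Agent.ES.I2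

section Full

variable (k : Type) [Field k] (N : ℕ) [NeZero N]

/-- `j̄` as an element of `F̄` -/
def r38hderJ : ↥(modularFunctionFieldFullC k N) := ⟨jqModC k, jqModC_mem_full k N⟩

omit [NeZero N] in
@[simp] theorem r38hderJ_coe : ((r38hderJ k N : ↥(modularFunctionFieldFullC k N)) :
    LaurentSeries k) = jqModC k := rfl

omit [NeZero N] in
theorem r38hder_full_transcendental : Transcendental k (r38hderJ k N) := by
  intro h
  exact red_transcendental_jqModC k (h.algHom (modularFunctionFieldFullC k N).val)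

omit [NeZero N] in
theorem r38hder_lift_eq :
    IntermediateField.lift (k⟮r38hderJ k N⟯) = k⟮jqModC k⟯ :=
  lift_adjoin_simple k _ _

/-- `k(j̄) ⊂ k((q))` and `k(j̄) ⊂ F̄` -/
def r38hderE1 : ↥(k⟮jqModC k⟯) ≃+* ↥(k⟮r38hderJ k N⟯) where
  toFun x := ⟨⟨x.1, tn_le k N x.2⟩,
    (mem_lift (⟨x.1, tn_le k N x.2⟩ : ↥(modularFunctionFieldFullC k N))).mp
      (by rw [r38hder_lift_eq]; exact x.2)⟩
  invFun y := ⟨y.1.1, by rw [← r38hder_lift_eq k N]; exact (mem_lift y.1).mpr y.2⟩
  left_inv _ := rfl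
  right_inv _ := rfl
  map_mul' _ _ := rfl
  map_add' _ _ := rfl

/-- `F̄` over `k(j̄)` and `F̄` over `k` -/
def r38hderE2 : ↥(tnL k N) ≃+* ↥(modularFunctionFieldFullC k N) where
  toFun x := ⟨x.1, x.2⟩
  invFun y := ⟨y.1, y.2⟩
  left_inv _ := rfl
  right_inv _ := rfl
  map_mul' _ _ := rfl
  map_add' _ _ := rfl

/-- `F̄` is finite over `k(j̄)` (`k(j̄)` formed inside `F̄`). -/
theorem r38hder_full_finite :
    FiniteDimensional (k⟮r38hderJ k N⟯) ↥(modularFunctionFieldFullC k N) := by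
  haveI := tn_finite k N
  exact Module.Finite.of_equiv_equiv (r38hderE1 k N) (r38hderE2 k N) (RingHom.ext fun _ => rfl)

/-- **HOL-DER** for `F̄`: `θ f = g · θ j̄` and `θ (τ f) = τ g · θ (τ j̄)` with `g ∈ F̄`. -/
theorem r38hder_full_exists (p : ℕ) [hp : Fact p.Prime] [CharP k p] [PerfectRing k p]
    (τ : ↥(modularFunctionFieldFullC k N) →+* LaurentSeries k)
    (f : ↥(modularFunctionFieldFullC k N)) :
    ∃ g : ↥(modularFunctionFieldFullC k N),
      thetaFun (f : LaurentSeries k) = (g : LaurentSeries k) * thetaFun (jqModC k) ∧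
        thetaFun (τ f) = τ g * thetaFun (τ (r38hderJ k N)) :=
  r38hder_exists p (modularFunctionFieldFullC k N) (r38hder_full_transcendental k N)
    (r38hder_full_finite k N) (jqModC_mem_full k N) (tn_thetaFun_jqModC_ne_zero k) τ f

/-- **HOL-DER**: `D = θ / θ j̄` preserves `F̄`. -/
theorem r38hder_full_mem (p : ℕ) [hp : Fact p.Prime] [CharP k p] [PerfectRing k p]
    {f : LaurentSeries k} (hf : f ∈ modularFunctionFieldFullC k N) :
    thetaFun f / thetaFun (jqModC k) ∈ modularFunctionFieldFullC k N := by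
  obtain ⟨g, hg, -⟩ := r38hder_full_exists k N p
    (modularFunctionFieldFullC k N).val.toRingHom ⟨f, hf⟩
  have h : thetaFun f = (g : LaurentSeries k) * thetaFun (jqModC k) := hg
  rw [h, mul_div_assoc, div_self (tn_thetaFun_jqModC_ne_zero k), mul_one]
  exact g.2

/-- **HOL-DER**: `D = θ / θ j̄` commutes with ring homomorphisms `τ : F̄ → k((q))`:
`τ (θ f / θ j̄) = θ (τ f) / θ (τ j̄)`. -/
theorem r38hder_full_comm (p : ℕ) [hp : Fact p.Prime] [CharP k p] [PerfectRing k p]
    (τ : ↥(modularFunctionFieldFullC k N) →+* LaurentSeries k)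
    (hτ : thetaFun (τ (r38hderJ k N)) ≠ 0) {f : LaurentSeries k}
    (hf : f ∈ modularFunctionFieldFullC k N) :
    τ ⟨thetaFun f / thetaFun (jqModC k), r38hder_full_mem k N p hf⟩ =
      thetaFun (τ ⟨f, hf⟩) / thetaFun (τ (r38hderJ k N)) := by
  obtain ⟨g, hg, hg'⟩ := r38hder_full_exists k N p τ ⟨f, hf⟩
  have h : thetaFun f = (g : LaurentSeries k) * thetaFun (jqModC k) := hg
  have h1 : (⟨thetaFun f / thetaFun (jqModC k), r38hder_full_mem k N p hf⟩ :
      ↥(modularFunctionFieldFullC k N)) = g := by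
    apply Subtype.ext
    show thetaFun f / thetaFun (jqModC k) = (g : LaurentSeries k)
    rw [h, mul_div_assoc, div_self (tn_thetaFun_jqModC_ne_zero k), mul_one]
  rw [h1, hg', mul_div_assoc, div_self hτ, mul_one]

end Full

end Fermat.Agent.R38

end
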