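/-
ROW 38, PKG-TRES, route HOL-dlog (sub-captain helper83), piece **HOL-CUSP** (helper55).

`k` a perfect field of characteristic `p`, `(N : k) ≠ 0`, `F̄ = modularFunctionFieldFullC k N`,
`r ∈ F̄ˣ` with `p ∣ ord_Q r` at ALL places `Q` of `F̄` (the output of FAC-p, `R38.StmtFacP`).

* `r38hcuspD k N p r = θ r / θ j̄ ∈ F̄`,
  `r38hcuspY k N p r = j̄ (j̄ − 1728) · θ r / (θ j̄ · r) ∈ F̄` — the function `y` of
  `ES.I2.res_main` for `fq = dlog r = r38dlog r`;
* `r38hcusp_rel`  : `y · θ j̄ = dlog r · j̄ · (j̄ − 1728)`  (the hypothesis `hrel` of `res_main`);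
* `r38hcusp_dvd_order` : for a `k`-algebra map `τ : F → k((Q))` (with a pole), `n ∣ ord_Q r` at
  all places `Q` of `F` ⇒ `n ∣ ord (τ r)`;
* `r38hcusp_main` : for `τ : F̄ → k((Q))` with `τ j̄ = j̄(Q^N)`:  `τ y` has `Q`-order `> −N`
  (the hypothesis `hyord` of `res_main`);
* `r38hcusp_dlog_coeff_le` : `dlog r ∈ q k[[q]]` (hypothesis `hb0` of HOL-DUAL).
-/
import Fermat.Agent.R38.HolDerFull
import Fermat.Agent.R38.HolCuspAbs
import Fermat.Agent.S24.PlaceOfValuation
import Fermat.Agent.ES.M.CuspInfty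
import Fermat.Agent.S28.LaurentRank
import Fermat.Agent.S28.InductionLaurent

set_option autoImplicit false
set_option linter.style.haveILetI false
set_option linter.unusedSectionVars false

noncomputable section

namespace Fermat.Agent.R38

open ModularCurve AlgebraicCurve IntermediateField WithZero
  Fermat.Agent.S28 Fermat.Agent.S28.Deriv Fermat.Agent.S24 Fermat.Agent.ES.I2 Fermat.Agent.ES.M

/-! ### places and embeddings into `k((Q))` -/

section Place

variable {k : Type*} [Field k] {F : Type*} [Field F] [Algebra k F]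

/-- the valuation of `F` through `τ : F → k((Q))` -/
def r38hcuspVal (τ : F →+* LaurentSeries k) : Valuation F ℤᵐ⁰ :=
  (Valued.v : Valuation (LaurentSeries k) ℤᵐ⁰).comap τ

theorem r38hcuspVal_apply (τ : F →+* LaurentSeries k) (f : F) :
    r38hcuspVal τ f = Valued.v (τ f) := rfl

theorem r38hcusp_vord (τ : F →+* LaurentSeries k) {f : F} (hf : f ≠ 0) :
    vord (r38hcuspVal τ) f = (τ f).order := by
  have hf' : τ f ≠ 0 := (map_ne_zero τ).mpr hf
  rw [vord, r38hcuspVal_apply, laurent_valued_eq_exp_neg_order hf', log_exp, neg_neg]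

theorem r38hcusp_val_le_one_iff (f : LaurentSeries k) :
    (Valued.v f : ℤᵐ⁰) ≤ 1 ↔ ∀ n : ℤ, n < 0 → f.coeff n = 0 := by
  have h := LaurentSeries.valuation_le_iff_coeff_lt_eq_zero (K := k) (D := 0) (f := f)
  simpa using h

/-- **divisibility of the order at all places passes to every embedding into `k((Q))`** -/
theorem r38hcusp_dvd_order (τ : F →ₐ[k] LaurentSeries k)
    (hpole : ∃ x : F, x ≠ 0 ∧ 0 < (τ x).order) {r : F} (hr : r ≠ 0) (n : ℤ)
    (hn : ∀ Q : Place k F, n ∣ Q.ord r) : n ∣ (τ r).order := by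
  have hK : ∀ a : k, r38hcuspVal (τ : F →+* LaurentSeries k) (algebraMap k F a) ≤ 1 := by
    intro a
    rw [r38hcuspVal_apply, r38hcusp_val_le_one_iff]
    intro m hm
    have h1 : (τ : F →+* LaurentSeries k) (algebraMap k F a) =
        algebraMap k (LaurentSeries k) a := τ.commutes a
    rw [h1, algebraMap_eq_C, HahnSeries.C_apply, HahnSeries.coeff_single_of_ne hm.ne]
  have hx : ∃ x : F, x ≠ 0 ∧ r38hcuspVal (τ : F →+* LaurentSeries k) x < 1 := by
    obtain ⟨x, hx0, hx1⟩ := hpole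
    refine ⟨x, hx0, ?_⟩
    have hx' : τ x ≠ 0 := (map_ne_zero τ).mpr hx0
    rw [r38hcuspVal_apply]
    show (Valued.v (τ x) : ℤᵐ⁰) < 1
    rw [laurent_valued_eq_exp_neg_order hx', ← WithZero.exp_zero, WithZero.exp_lt_exp]
    omega
  obtain ⟨w, e₀, -, -, hord⟩ := exists_place_of_valuation (K := k)
    (r38hcuspVal (τ : F →+* LaurentSeries k)) hK hx
  have h := hord r hr
  rw [r38hcusp_vord _ hr] at h
  have h2 : (τ r).order = e₀ * w.ord r := h
  rw [h2]
  exact Dvd.dvd.mul_left (hn w) e₀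

end Place

/-! ### the function `y` of the residue theorem -/

section Main

variable (k : Type) [Field k] (N : ℕ) [NeZero N] (p : ℕ) [hp : Fact p.Prime] [CharP k p]
  [PerfectRing k p]

/-- `D r = θ r / θ j̄ ∈ F̄` -/
def r38hcuspD (r : ↥(modularFunctionFieldFullC k N)) : ↥(modularFunctionFieldFullC k N) :=
  ⟨thetaFun (r : LaurentSeries k) / thetaFun (jqModC k), r38hder_full_mem k N p r.2⟩

/-- `y = j̄ (j̄ − 1728) · D r / r ∈ F̄` -/
def r38hcuspY (r : ↥(modularFunctionFieldFullC k N)) : ↥(modularFunctionFieldFullC k N) :=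
  r38hderJ k N * (r38hderJ k N - 1728) * r38hcuspD k N p r * r⁻¹

theorem r38hcuspY_coe (r : ↥(modularFunctionFieldFullC k N)) :
    ((r38hcuspY k N p r : ↥(modularFunctionFieldFullC k N)) : LaurentSeries k) =
      jqModC k * (jqModC k - 1728) *
        (thetaFun (r : LaurentSeries k) / thetaFun (jqModC k)) * (r : LaurentSeries k)⁻¹ := rfl

/-- the hypothesis `hrel` of `ES.I2.res_main` for `fq = dlog r` -/
theorem r38hcusp_rel (r : ↥(modularFunctionFieldFullC k N)) :
    ((r38hcuspY k N p r : ↥(modularFunctionFieldFullC k N)) : LaurentSeries k) *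
        thetaFun (jqModC k) =
      r38dlog (r : LaurentSeries k) * jqModC k * (jqModC k - 1728) := by
  have h : (thetaFun (jqModC k))⁻¹ * thetaFun (jqModC k) = 1 :=
    inv_mul_cancel₀ (tn_thetaFun_jqModC_ne_zero k)
  rw [r38hcuspY_coe, r38dlog, div_eq_mul_inv]
  linear_combination (jqModC k * (jqModC k - 1728) * thetaFun (r : LaurentSeries k) *
    (r : LaurentSeries k)⁻¹) * h

theorem r38hcusp_order_J : (qExpand k N (jqModC k)).order = -(N : ℤ) := by
  rw [Fermat.Agent.S28.order_qExpand, Fermat.Agent.S28.order_jqModC, mul_neg, mul_one]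

theorem r38hcusp_J_ne_zero : qExpand k N (jqModC k) ≠ 0 := by
  intro h
  have h1 := r38hcusp_order_J k N
  rw [h, HahnSeries.order_zero] at h1
  have : 0 < N := Nat.pos_of_ne_zero (NeZero.ne N)
  omega

theorem r38hcusp_theta_J_ne_zero (hNk : ((N : ℕ) : k) ≠ 0) :
    thetaFun (qExpand k N (jqModC k)) ≠ 0 := by
  have hak : (((qExpand k N (jqModC k)).order : ℤ) : k) ≠ 0 := by
    rw [r38hcusp_order_J, Int.cast_neg, Int.cast_natCast]
    exact neg_ne_zero.mpr hNk
  have h1 := r38hcusp_order_theta (r38hcusp_J_ne_zero k N) hak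
  intro h
  rw [h, HahnSeries.order_zero, r38hcusp_order_J] at h1
  have : 0 < N := Nat.pos_of_ne_zero (NeZero.ne N)
  omega

/-- an embedding with `τ j̄ = j̄(Q^N)` has a pole -/
theorem r38hcusp_pole (τ : ↥(modularFunctionFieldFullC k N) →ₐ[k] LaurentSeries k)
    (hj : τ (r38hderJ k N) = qExpand k N (jqModC k)) :
    ∃ x : ↥(modularFunctionFieldFullC k N), x ≠ 0 ∧ 0 < (τ x).order := by
  have hJ0 : r38hderJ k N ≠ 0 := by
    intro h
    have h1 : τ (r38hderJ k N) = 0 := by rw [h, map_zero]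
    rw [hj] at h1
    exact r38hcusp_J_ne_zero k N h1
  refine ⟨(r38hderJ k N)⁻¹, inv_ne_zero hJ0, ?_⟩
  have h2 : τ (r38hderJ k N)⁻¹ = (qExpand k N (jqModC k))⁻¹ := by
    rw [← hj]
    exact map_inv₀ (τ : ↥(modularFunctionFieldFullC k N) →+* LaurentSeries k) _
  rw [h2, r38hcusp_order_inv (r38hcusp_J_ne_zero k N), r38hcusp_order_J]
  have : 0 < N := Nat.pos_of_ne_zero (NeZero.ne N)
  omega

/-- **HOL-CUSP** (the hypothesis `hyord` of `ES.I2.res_main`): if `p ∣ ord_Q r` at all places of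
`F̄`, then `τ y` has `Q`-order `> −N` for every `k`-embedding `τ` with `τ j̄ = j̄(Q^N)`. -/
theorem r38hcusp_main (hNk : ((N : ℕ) : k) ≠ 0)
    (τ : ↥(modularFunctionFieldFullC k N) →ₐ[k] LaurentSeries k)
    (hj : τ (r38hderJ k N) = qExpand k N (jqModC k))
    (r : ↥(modularFunctionFieldFullC k N)) (hr : r ≠ 0)
    (hord : ∀ Q : Place k ↥(modularFunctionFieldFullC k N), (p : ℤ) ∣ Q.ord r) :
    ∀ m : ℤ, m ≤ -(N : ℤ) → (τ (r38hcuspY k N p r)).coeff m = 0 := by
  intro m hm
  have hN : 0 < N := Nat.pos_of_ne_zero (NeZero.ne N)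
  have hdvd : (p : ℤ) ∣ (τ r).order :=
    r38hcusp_dvd_order τ (r38hcusp_pole k N τ hj) hr (p : ℤ) hord
  have hτr : τ r ≠ 0 := (map_ne_zero τ).mpr hr
  have hj' : (τ : ↥(modularFunctionFieldFullC k N) →+* LaurentSeries k) (r38hderJ k N) =
      qExpand k N (jqModC k) := hj
  have hθ : thetaFun ((τ : ↥(modularFunctionFieldFullC k N) →+* LaurentSeries k)
      (r38hderJ k N)) ≠ 0 := by
    rw [hj']
    exact r38hcusp_theta_J_ne_zero k N hNk
  have hcomm : (τ : ↥(modularFunctionFieldFullC k N) →+* LaurentSeries k)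
      (r38hcuspD k N p r) = thetaFun (τ r) / thetaFun (qExpand k N (jqModC k)) := by
    have h := r38hder_full_comm k N p
      (τ : ↥(modularFunctionFieldFullC k N) →+* LaurentSeries k) hθ r.2
    rw [hj'] at h
    exact h
  have h1728 : (τ : ↥(modularFunctionFieldFullC k N) →+* LaurentSeries k) 1728 =
      HahnSeries.C (1728 : k) := by
    rw [map_ofNat, map_ofNat]
  have hY : τ (r38hcuspY k N p r) =
      qExpand k N (jqModC k) * (qExpand k N (jqModC k) - HahnSeries.C (1728 : k)) *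
        (thetaFun (τ r) * (thetaFun (qExpand k N (jqModC k)))⁻¹) * (τ r)⁻¹ := by
    show (τ : ↥(modularFunctionFieldFullC k N) →+* LaurentSeries k) (r38hcuspY k N p r) = _
    rw [r38hcuspY, map_mul, map_mul, map_mul, map_sub, map_inv₀, hcomm, hj', h1728,
      div_eq_mul_inv]
    rfl
  rw [hY]
  exact r38hcusp_abs p hN hNk (r38hcusp_J_ne_zero k N) (r38hcusp_order_J k N) (1728 : k) hτr
    hdvd m hm

/-- `dlog r ∈ q k[[q]]` if `p ∣ ord_Q r` at all places of `F̄` (the cusp `∞` is a place). -/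
theorem r38hcusp_dlog_coeff_le (r : ↥(modularFunctionFieldFullC k N)) (hr : r ≠ 0)
    (hord : ∀ Q : Place k ↥(modularFunctionFieldFullC k N), (p : ℤ) ∣ Q.ord r) :
    ∀ m : ℤ, m ≤ 0 → (r38dlog (r : LaurentSeries k)).coeff m = 0 := by
  intro m hm
  have hr' : (r : LaurentSeries k) ≠ 0 := fun h => hr (Subtype.ext h)
  have hpole : ∃ x : ↥(modularFunctionFieldFullC k N),
      x ≠ 0 ∧ 0 < ((modularFunctionFieldFullC k N).val x).order := by
    have hj0 : jqModC k ≠ 0 := jqModC_ne_zero_of_nontrivial k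
    have hJ0 : r38hderJ k N ≠ 0 := fun h => hj0 (congrArg Subtype.val h)
    refine ⟨(r38hderJ k N)⁻¹, inv_ne_zero hJ0, ?_⟩
    show 0 < ((jqModC k)⁻¹).order
    rw [r38hcusp_order_inv hj0, Fermat.Agent.S28.order_jqModC]
    omega
  have hdvd := r38hcusp_dvd_order (modularFunctionFieldFullC k N).val hpole hr (p : ℤ) hord
  exact r38hcusp_dlog_coeff p hr' hdvd m hm

end Main

end Fermat.Agent.R38

end
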