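import Fermat.Agent.ES.I2.Final
import Fermat.Agent.ES.M.Q2
import Fermat.Agent.ES.M.LemmaW
import Fermat.Agent.ES.M.GaussRed
import Fermat.Agent.ES.M.RedF
import Fermat.Agent.ES.M.CuspInfty
import Fermat.Agent.ES.Riemann
import Fermat.Agent.ES.LR.Final

/-!
# R38 TRES, piece HOL-DUAL: the annihilator of `W` is the space of reduced cusp forms

Route "HOL-dlog" of helper83 (board 23:20Z) for the step (T3) of `NOTES/R38-TRES.md`.

`k = kA A`, `A ⊂ ℚ̄` a valuation ring over `ℓ ≥ 5`, `ℓ ∤ N`; `W = {w : InW N A w}` the functions of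
the reduced curve which are regular outside the cusp `∞`; `S̄` the `k`-span of the reductions of
the cusp forms of weight `2` with integer `q`-expansion.

* `r38hold_core` : the abstract count.  If `dim W_n ≥ n + 1 - g` for arbitrarily large `n`, the
  `F i` (`i < g`) are independent, vanish at `q = 0` and are orthogonal to `W` for the pairing
  `a₀ (w b)`, then every `b` vanishing at `q = 0` and orthogonal to `W` lies in the span of the
  `F i`.  (Otherwise `I2aux.i2_count` for the `g + 1` independent series `F i, b` gives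
  `dim W_n ≤ n - g`.)
* `r38hold_lower` : `n + 1 ≤ dim W_n + g` for `n ≥ g` (Riemann's inequality in characteristic `0`,
  orthonormal bases (Q2), Lemma W).
* `r38hold_dual` : **(DUAL)** `b ∈ q k[[q]]`, `a₀ (w b) = 0` for all `w ∈ W`  ⇒  `b ∈ S̄`.
-/

set_option autoImplicit false
set_option linter.style.haveILetI false

noncomputable section

namespace Fermat.Agent.R38

open ModularCurve AlgebraicCurve HahnSeries Fermat.Agent.ES Fermat.Agent.S24 Fermat.Agent.ES.M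
open Fermat.Agent.ES.I2

/-- **the abstract count behind (DUAL)** -/
theorem r38hold_core {k : Type*} [Field k] (W : ℕ → Submodule k (LaurentSeries k))
    (hW : ∀ n, ∀ w ∈ W n, ∀ m : ℤ, m < -(n : ℤ) → w.coeff m = 0)
    (g : ℕ) (F : Fin g → LaurentSeries k)
    (hF0 : ∀ i (m : ℤ), m ≤ 0 → (F i).coeff m = 0) (hFli : LinearIndependent k F)
    (hres : ∀ n, ∀ w ∈ W n, ∀ i, (w * F i).coeff 0 = 0)
    (hconst : ∀ n, ∀ w ∈ W n, (∀ m : ℤ, m ≤ 0 → w.coeff m = 0) → w = 0)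
    (hlow : ∀ n₀ : ℕ, ∃ n, n₀ ≤ n ∧
      (Module.Finite k ↥(W n) → n + 1 ≤ Module.finrank k ↥(W n) + g))
    (b : LaurentSeries k) (hb0 : ∀ m : ℤ, m ≤ 0 → b.coeff m = 0)
    (hbres : ∀ n, ∀ w ∈ W n, (w * b).coeff 0 = 0) :
    b ∈ Submodule.span k (Set.range F) := by
  by_contra hb
  have hli : LinearIndependent k (Fin.snoc F b : Fin (g + 1) → LaurentSeries k) :=
    linearIndependent_finSnoc.2 ⟨hFli, hb⟩
  have h0 : ∀ (i : Fin (g + 1)) (m : ℤ), m ≤ 0 →
      ((Fin.snoc F b : Fin (g + 1) → LaurentSeries k) i).coeff m = 0 := by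
    intro i
    refine Fin.lastCases ?_ (fun j => ?_) i
    · intro m hm
      rw [Fin.snoc_last]
      exact hb0 m hm
    · intro m hm
      rw [Fin.snoc_castSucc]
      exact hF0 j m hm
  have hr : ∀ n, ∀ w ∈ W n, ∀ i : Fin (g + 1),
      (w * (Fin.snoc F b : Fin (g + 1) → LaurentSeries k) i).coeff 0 = 0 := by
    intro n w hw i
    refine Fin.lastCases ?_ (fun j => ?_) i
    · rw [Fin.snoc_last]
      exact hbres n w hw
    · rw [Fin.snoc_castSucc]
      exact hres n w hw j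
  obtain ⟨n₀, hn₀⟩ := Fermat.Agent.ES.I2aux.i2_count W hW (g + 1)
    (Fin.snoc F b : Fin (g + 1) → LaurentSeries k) h0 hli hr hconst
  obtain ⟨n, hn, hl⟩ := hlow n₀
  obtain ⟨hfin, hrank⟩ := hn₀ n hn
  have := hl hfin
  omega

section Concrete

variable (N : ℕ) [NeZero N] (A : ValuationSubring Kb)

/-- **the lower bound** `dim W_n ≥ n + 1 - g` (`n ≥ g`): Riemann's inequality in characteristic
`0`, orthonormal bases and Lemma W. -/
theorem r38hold_lower (gr : GRApi N A) (lw : LWApi N A) (hRedF : StmtRedF N A)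
    (hLRa : StmtLRa N A) (hQ2 : StmtQ2 N A) (hR : StmtR N) (n : ℕ) (hn : gN N ≤ n)
    [Module.Finite (kA A) ↥(Wn N A n)] :
    n + 1 ≤ Module.finrank (kA A) ↥(Wn N A n) + gN N := by
  obtain ⟨Pinf, hPinf, hdeg⟩ := exists_isCuspInfty N
  have hD : ∀ P : Place Kb (FF N), ((1 : ℕ) : ℤ) * (0 : Divisor Kb (FF N)) P = P.ord (1 : FF N) := by
    intro P
    rw [P.ord_one]
    simp
  have hdegE : Divisor.degree ((0 : Divisor Kb (FF N)) + Finsupp.single Pinf (n : ℤ)) = n := by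
    rw [map_add, map_zero, Divisor.degree_single, hdeg]
    simp
  obtain ⟨a, ha, haL⟩ := lw.exists_indep hR
    ((0 : Divisor Kb (FF N)) + Finsupp.single Pinf (n : ℤ)) (n + 1 - gN N)
    (by rw [hdegE]; omega)
  obtain ⟨b, w, hb, hbw, hw⟩ := hQ2 (n + 1 - gN N) a ha
  have hbL : ∀ i, b i ∈ riemannRochSpace ((0 : Divisor Kb (FF N)) + Finsupp.single Pinf (n : ℤ)) :=
    fun i => (Submodule.span_le.mpr (by rintro _ ⟨j, rfl⟩; exact haL j)) (hb i)
  have hwW : ∀ i, w i ∈ Wn N A n := fun i =>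
    lw.mem_Wn hRedF hLRa 1 one_pos 1 one_ne_zero gr.one 0 hD Pinf hPinf n (b i) (hbL i) (w i)
      (hbw i)
  have hw' : LinearIndependent (kA A) (fun i => (⟨w i, hwW i⟩ : ↥(Wn N A n))) :=
    LinearIndependent.of_comp (Wn N A n).subtype hw
  have h1 := hw'.fintype_card_le_finrank
  rw [Fintype.card_fin] at h1
  omega

/-- **(DUAL)**, at one `(N, A)`, from the inputs at `(N, A)`. -/
theorem r38hold_dual_of (gr : GRApi N A) (lw : LWApi N A) (hRedF : StmtRedF N A)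
    (hLRa : StmtLRa N A) (hQ2 : StmtQ2 N A) (hR : StmtR N)
    (hTau : StmtTau N A) (hMFk : StmtMFk N A) (hConst : StmtConst N A) (hRes : StmtRes N A)
    (f : Fin (gN N) → CuspForm (CongruenceSubgroup.Gamma0 N) 2) (z : Fin (gN N) → ℕ → ℤ)
    (hz : ∀ t n, ModularFormClass.qCoeff (f t) n = (z t n : ℂ))
    (hli : LinearIndependent (kA A) (fun t => coeffMap (Int.castRingHom (kA A)) (fqZ (z t))))
    (b : LaurentSeries (kA A)) (hb0 : ∀ m : ℤ, m ≤ 0 → b.coeff m = 0)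
    (hres : ∀ w : LaurentSeries (kA A), InW N A w → (w * b).coeff 0 = 0) :
    b ∈ Submodule.span (kA A)
      (Set.range fun t => coeffMap (Int.castRingHom (kA A)) (fqZ (z t))) := by
  obtain ⟨τ, i₀, hτ⟩ := hTau
  refine r38hold_core (fun n => Wn N A n) (fun n w hw => ((mem_Wn N A).1 hw).2) (gN N)
    (fun t => coeffMap (Int.castRingHom (kA A)) (fqZ (z t)))
    (fun t => (hMFk τ i₀ hτ (f t) (z t) (hz t)).1) hli
    (fun n w hw t => hRes w ((mem_Wn N A).1 hw).1 (f t) (z t) (hz t))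
    (fun n w hw h0 => hConst w ((mem_Wn N A).1 hw).1 h0) ?_ b hb0
    (fun n w hw => hres w ((mem_Wn N A).1 hw).1)
  intro n₀
  refine ⟨max n₀ (gN N), le_max_left _ _, fun hfin => ?_⟩
  haveI := hfin
  exact r38hold_lower N A gr lw hRedF hLRa hQ2 hR (max n₀ (gN N)) (le_max_right _ _)

end Concrete

/-- **(DUAL)**: a power series `b ∈ q k[[q]]` which is orthogonal to `W` (the functions of the
reduction of `X₀(N)` at `ℓ ≥ 5`, `ℓ ∤ N`, regular outside `∞`) for the pairing `a₀ (w b)` is a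
`k`-linear combination of reductions of cusp forms of weight `2` with integer `q`-expansion. -/
theorem r38hold_dual (N : ℕ) [NeZero N] (ℓ : ℕ) (hℓ : ℓ.Prime) (h5 : 5 ≤ ℓ) (hℓN : ¬ ℓ ∣ N)
    (A : ValuationSubring Kb) (hA : A.LiesOverPrime ℓ)
    (b : LaurentSeries (kA A)) (hb0 : ∀ m : ℤ, m ≤ 0 → b.coeff m = 0)
    (hres : ∀ w : LaurentSeries (kA A), InW N A w → (w * b).coeff 0 = 0) :
    ∃ (f : Fin (gN N) → CuspForm (CongruenceSubgroup.Gamma0 N) 2) (z : Fin (gN N) → ℕ → ℤ),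
      (∀ t n, ModularFormClass.qCoeff (f t) n = (z t n : ℂ)) ∧
      LinearIndependent (kA A) (fun t => coeffMap (Int.castRingHom (kA A)) (fqZ (z t))) ∧
      b ∈ Submodule.span (kA A)
        (Set.range fun t => coeffMap (Int.castRingHom (kA A)) (fqZ (z t))) := by
  obtain ⟨f, z, hz, hli⟩ := stmtBAll N ℓ hℓ A hA
  have gr : GRApi N A := stmtGRApi N A
  refine ⟨f, z, hz, hli, ?_⟩
  exact r38hold_dual_of N A gr (stmtLWApi N A gr) (stmtRedFAll N ℓ hℓ hℓN A hA)
    (Fermat.Agent.ES.LR.stmtLRaAll N ℓ hℓ hℓN A hA) (stmtQ2All N ℓ hℓ hℓN A hA)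
    (Fermat.Agent.ES.R.stmtRAll N) (stmtTauAll N ℓ hℓ hℓN A hA) (stmtMFkAll N ℓ hℓ hℓN A hA)
    (stmtConstAll N ℓ hℓ hℓN A hA) (stmtResAll N ℓ hℓ h5 hℓN A hA) f z hz hli b hb0 hres

/-- the reduced cusp forms are orthogonal to `W` and vanish at `q = 0` (`ES.I2.stmtResAll`,
`ES.I2.stmtMFkAll`), in the shape used with `r38hold_dual`. -/
theorem r38hold_span_orth (N : ℕ) [NeZero N] (ℓ : ℕ) (hℓ : ℓ.Prime) (h5 : 5 ≤ ℓ) (hℓN : ¬ ℓ ∣ N)
    (A : ValuationSubring Kb) (hA : A.LiesOverPrime ℓ)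
    (f : CuspForm (CongruenceSubgroup.Gamma0 N) 2) (z : ℕ → ℤ)
    (hz : ∀ n, ModularFormClass.qCoeff f n = (z n : ℂ)) :
    (∀ m : ℤ, m ≤ 0 → (coeffMap (Int.castRingHom (kA A)) (fqZ z)).coeff m = 0) ∧
    ∀ w : LaurentSeries (kA A), InW N A w →
      (w * coeffMap (Int.castRingHom (kA A)) (fqZ z)).coeff 0 = 0 := by
  obtain ⟨τ, i₀, hτ⟩ := stmtTauAll N ℓ hℓ hℓN A hA
  exact ⟨(stmtMFkAll N ℓ hℓ hℓN A hA τ i₀ hτ f z hz).1,
    fun w hw => stmtResAll N ℓ hℓ h5 hℓN A hA w hw f z hz⟩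

end Fermat.Agent.R38

end
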