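import Fermat.Agent.ES.I2aux.Count

/-!
# Row 38, PKG-TRES, route HOL-dlog: the duality lemma (helper83)

`k` a field, `W n ⊆ k((q))` subspaces of series with pole order `≤ n`, and `F_1, …, F_g ∈ q k[[q]]`
linearly independent ("reductions of cusp forms"), orthogonal to all `W n` for the pairing
`(w, y) ↦ a₀ (w y)`.  If `dim W n ≥ n + 1 - g` for all large `n` (Riemann's inequality on the
reduced curve), then the orthogonal complement of `⋃ W n` in `q k[[q]]` is EXACTLY the span of
the `F_i` (`r38hol_dual`).  This is the converse of the count `ES.I2aux.i2_count`.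
-/

set_option autoImplicit false

noncomputable section

namespace Fermat.Agent.R38

open HahnSeries Module Fermat.Agent.ES.I2aux

variable {k : Type*} [Field k]

/-- **the duality**: a series of `q k[[q]]` orthogonal to all the `W n` is a combination of the
`F i`. -/
theorem r38hol_dual_abs (W : ℕ → Submodule k (LaurentSeries k))
    (hW : ∀ n, ∀ w ∈ W n, ∀ m : ℤ, m < -(n : ℤ) → w.coeff m = 0)
    (g : ℕ) (F : Fin g → LaurentSeries k)
    (hF0 : ∀ i (m : ℤ), m ≤ 0 → (F i).coeff m = 0) (hFli : LinearIndependent k F)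
    (hres : ∀ n, ∀ w ∈ W n, ∀ i, (w * F i).coeff 0 = 0)
    (hconst : ∀ n, ∀ w ∈ W n, (∀ m : ℤ, m ≤ 0 → w.coeff m = 0) → w = 0)
    (hlow : ∃ n₀ : ℕ, ∀ n, n₀ ≤ n → n + 1 ≤ Module.finrank k ↥(W n) + g)
    (b : LaurentSeries k) (hb0 : ∀ m : ℤ, m ≤ 0 → b.coeff m = 0)
    (hb : ∀ n, ∀ w ∈ W n, (w * b).coeff 0 = 0) :
    b ∈ Submodule.span k (Set.range F) := by
  classical
  -- pivots
  obtain ⟨bb, p, hbspan, -, hδ⟩ := Fermat.Agent.ES.M.q2_elim (⊤ : Subring k) (cntCoeff (k := k))
    (⊤ : Submodule k (LaurentSeries k))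
    (by
      intro x _ hx
      have : ∃ n₀, x.coeff n₀ ≠ 0 := by
        by_contra hcon
        push Not at hcon
        exact hx (HahnSeries.ext (funext hcon))
      obtain ⟨n₀, hn₀⟩ := this
      exact ⟨n₀, hn₀, fun _ => Subring.mem_top _⟩)
    g F hFli (fun _ => Submodule.mem_top)
  -- the set of series in `q k[[q]]` orthogonal to `W` is a subspace
  have hsub : ∀ x ∈ Submodule.span k (Set.range F), (∀ m : ℤ, m ≤ 0 → x.coeff m = 0) ∧
      ∀ n, ∀ w ∈ W n, (w * x).coeff 0 = 0 := by
    intro x hx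
    refine Submodule.span_induction (p := fun x _ => (∀ m : ℤ, m ≤ 0 → x.coeff m = 0) ∧
      ∀ n, ∀ w ∈ W n, (w * x).coeff 0 = 0) ?_ ?_ ?_ ?_ hx
    · rintro _ ⟨j, rfl⟩
      exact ⟨hF0 j, fun n w hw => hres n w hw j⟩
    · exact ⟨fun _ _ => rfl, fun n w _ => by rw [mul_zero, HahnSeries.coeff_zero]⟩
    · rintro x y _ _ ⟨hx1, hx2⟩ ⟨hy1, hy2⟩
      refine ⟨fun m hm => ?_, fun n w hw => ?_⟩
      · rw [HahnSeries.coeff_add, hx1 m hm, hy1 m hm, add_zero]
      · rw [mul_add, HahnSeries.coeff_add, hx2 n w hw, hy2 n w hw, add_zero]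
    · rintro c x _ ⟨hx1, hx2⟩
      refine ⟨fun m hm => ?_, fun n w hw => ?_⟩
      · rw [HahnSeries.coeff_smul, hx1 m hm, smul_zero]
      · rw [← HahnSeries.C_mul_eq_smul, mul_left_comm, HahnSeries.C_mul_eq_smul,
          HahnSeries.coeff_smul, hx2 n w hw, smul_zero]
  have hbb : ∀ i, (∀ m : ℤ, m ≤ 0 → (bb i).coeff m = 0) ∧
      ∀ n, ∀ w ∈ W n, (w * bb i).coeff 0 = 0 := fun i => hsub _ (hbspan i)
  have hp : ∀ j, 0 < p j := by
    intro j
    by_contra h
    have h1 := (hbb j).1 (p j) (by omega)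
    have h2 := hδ j j
    rw [cntCoeff_apply, h1, if_pos rfl] at h2
    exact zero_ne_one h2
  -- the correction
  set s : LaurentSeries k := ∑ j, b.coeff (p j) • bb j with hs
  have hsmem : s ∈ Submodule.span k (Set.range F) :=
    Submodule.sum_mem _ fun j _ => Submodule.smul_mem _ _ (hbspan j)
  have hscoeff : ∀ m : ℤ, s.coeff m = ∑ j, b.coeff (p j) * (bb j).coeff m := by
    intro m
    rw [hs, HahnSeries.coeff_sum]
    refine Finset.sum_congr rfl fun j _ => ?_
    rw [HahnSeries.coeff_smul, smul_eq_mul]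
  have hsp : ∀ j, s.coeff (p j) = b.coeff (p j) := by
    intro j
    rw [hscoeff, Finset.sum_eq_single j]
    · have := hδ j j
      rw [cntCoeff_apply, if_pos rfl] at this
      rw [this, mul_one]
    · intro i _ hij
      have := hδ i j
      rw [cntCoeff_apply, if_neg hij] at this
      rw [this, mul_zero]
    · intro h
      exact absurd (Finset.mem_univ _) h
  set b' : LaurentSeries k := b - s with hb'
  have hb'0 : ∀ m : ℤ, m ≤ 0 → b'.coeff m = 0 := by
    intro m hm
    rw [hb', HahnSeries.coeff_sub, hb0 m hm, (hsub s hsmem).1 m hm, sub_zero]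
  have hb'res : ∀ n, ∀ w ∈ W n, (w * b').coeff 0 = 0 := by
    intro n w hw
    rw [hb', mul_sub, HahnSeries.coeff_sub, hb n w hw, (hsub s hsmem).2 n w hw, sub_zero]
  have hb'p : ∀ j, b'.coeff (p j) = 0 := by
    intro j
    rw [hb', HahnSeries.coeff_sub, hsp, sub_self]
  suffices hzero : b' = 0 by
    have h1 : b = s := sub_eq_zero.1 hzero
    rw [h1]
    exact hsmem
  obtain ⟨n₀, hn₀⟩ := hlow
  refine HahnSeries.ext (funext fun m => ?_)
  rw [HahnSeries.coeff_zero]
  by_cases hm : m ≤ 0
  · exact hb'0 m hm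
  push Not at hm
  -- the level
  set n : ℕ := max (max n₀ m.toNat) (Finset.univ.sup fun j => (p j).toNat) with hn
  have hn0 : n₀ ≤ n := le_trans (le_max_left _ _) (le_max_left _ _)
  have hmn : m.toNat ≤ n := le_trans (le_max_right _ _) (le_max_left _ _)
  have hpn : ∀ j, (p j).toNat ≤ n := fun j =>
    (Finset.le_sup (f := fun j => (p j).toNat) (Finset.mem_univ j)).trans (le_max_right _ _)
  -- principal parts
  set φ : ↥(W n) →ₗ[k] (Fin (n + 1) → k) :=
    { toFun := fun w m => (w : LaurentSeries k).coeff (-((m : ℕ) : ℤ))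
      map_add' := fun x y => by
        ext m
        simp only [Submodule.coe_add, HahnSeries.coeff_add, Pi.add_apply]
      map_smul' := fun c x => by
        ext m
        simp only [Submodule.coe_smul, HahnSeries.coeff_smul, Pi.smul_apply, RingHom.id_apply] }
    with hφ
  have hφinj : Function.Injective φ := by
    rw [← LinearMap.ker_eq_bot, LinearMap.ker_eq_bot']
    intro w hw0
    apply Subtype.ext
    refine hconst n w w.2 fun m hm => ?_
    by_cases h1 : m < -(n : ℤ)
    · exact hW n w w.2 m h1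
    · have hlt : (-m).toNat < n + 1 := by omega
      have h2 := congrFun hw0 ⟨(-m).toNat, hlt⟩
      have e : -(((⟨(-m).toNat, hlt⟩ : Fin (n + 1)) : ℕ) : ℤ) = m := by
        simp only
        omega
      simp only [hφ, LinearMap.coe_mk, AddHom.coe_mk, Pi.zero_apply] at h2
      rw [e] at h2
      exact h2
  have hfin : Module.Finite k ↥(W n) := Module.Finite.of_injective φ hφinj
  -- the conditions
  set Φ : (Fin (n + 1) → k) →ₗ[k] (Fin g → k) :=
    { toFun := fun c i => ∑ m : Fin (n + 1), c m * (bb i).coeff ((m : ℕ) : ℤ)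
      map_add' := fun x y => by
        ext i
        simp only [Pi.add_apply, add_mul, Finset.sum_add_distrib]
      map_smul' := fun c x => by
        ext i
        simp only [Pi.smul_apply, smul_eq_mul, RingHom.id_apply, Finset.mul_sum, mul_assoc] }
    with hΦ
  have hΦφ : ∀ w : ↥(W n), Φ (φ w) = 0 := by
    intro w
    ext i
    have h1 := cnt_coeff_zero_mul n (w : LaurentSeries k) (bb i) (hW n w w.2) (hbb i).1
    rw [(hbb i).2 n w w.2] at h1
    simp only [hΦ, hφ, LinearMap.coe_mk, AddHom.coe_mk, Pi.zero_apply]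
    exact h1.symm
  -- the pivot indices
  set e : Fin g → Fin (n + 1) := fun j => ⟨(p j).toNat, Nat.lt_succ_of_le (hpn j)⟩ with he
  have hecoe : ∀ j, (((e j : Fin (n + 1)) : ℕ) : ℤ) = p j := by
    intro j
    simp only [he]
    have := hp j
    omega
  have hΦsingle : ∀ (j : Fin g) (i : Fin g),
      Φ (Pi.single (e j) (1 : k)) i = if i = j then 1 else 0 := by
    intro j i
    simp only [hΦ, LinearMap.coe_mk, AddHom.coe_mk]
    rw [Finset.sum_eq_single (e j)]
    · rw [Pi.single_eq_same, one_mul, hecoe]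
      have := hδ i j
      rwa [cntCoeff_apply] at this
    · intro m _ hm
      rw [Pi.single_eq_of_ne hm, zero_mul]
    · intro h
      exact absurd (Finset.mem_univ _) h
  have hΦsurj : Function.Surjective Φ := by
    intro v
    refine ⟨∑ j, v j • Pi.single (e j) 1, ?_⟩
    rw [map_sum]
    ext i
    rw [Finset.sum_apply]
    have h1 : ∀ j, (Φ (v j • Pi.single (e j) (1 : k))) i = if i = j then v j else 0 := by
      intro j
      rw [map_smul, Pi.smul_apply, smul_eq_mul, hΦsingle]
      split_ifs <;> simp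
    rw [Finset.sum_congr rfl fun j _ => h1 j, Finset.sum_ite_eq Finset.univ i]
    simp
  have hker : Module.finrank k (LinearMap.ker Φ) + g = n + 1 := by
    have h1 := LinearMap.finrank_range_add_finrank_ker Φ
    rw [LinearMap.range_eq_top.2 hΦsurj, finrank_top, Module.finrank_fin_fun,
      Module.finrank_fin_fun] at h1
    omega
  -- the principal parts fill the kernel
  have hrange_le : LinearMap.range φ ≤ LinearMap.ker Φ := by
    rintro _ ⟨w, rfl⟩
    exact LinearMap.mem_ker.2 (hΦφ w)
  have hrange : LinearMap.range φ = LinearMap.ker Φ := by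
    refine Submodule.eq_of_le_of_finrank_le hrange_le ?_
    rw [LinearMap.finrank_range_of_inj hφinj]
    have := hn₀ n hn0
    omega
  -- the test vector
  have hmlt : m.toNat < n + 1 := Nat.lt_succ_of_le hmn
  set em : Fin (n + 1) := ⟨m.toNat, hmlt⟩ with hem
  have hemcoe : (((em : Fin (n + 1)) : ℕ) : ℤ) = m := by
    simp only [hem]
    omega
  set c : Fin (n + 1) → k :=
    Pi.single em 1 - ∑ j, (bb j).coeff m • Pi.single (e j) (1 : k) with hc
  have hΦem : ∀ i, Φ (Pi.single em (1 : k)) i = (bb i).coeff m := by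
    intro i
    simp only [hΦ, LinearMap.coe_mk, AddHom.coe_mk]
    rw [Finset.sum_eq_single em]
    · rw [Pi.single_eq_same, one_mul, hemcoe]
    · intro m' _ hm'
      rw [Pi.single_eq_of_ne hm', zero_mul]
    · intro h
      exact absurd (Finset.mem_univ _) h
  have hcker : c ∈ LinearMap.ker Φ := by
    rw [LinearMap.mem_ker]
    ext i
    rw [hc, map_sub, map_sum, Pi.sub_apply, Finset.sum_apply, hΦem, Pi.zero_apply]
    have h1 : ∀ j, (Φ ((bb j).coeff m • Pi.single (e j) (1 : k))) i =
        if i = j then (bb j).coeff m else 0 := by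
      intro j
      rw [map_smul, Pi.smul_apply, smul_eq_mul, hΦsingle]
      split_ifs <;> simp
    rw [Finset.sum_congr rfl fun j _ => h1 j, Finset.sum_ite_eq Finset.univ i]
    simp
  rw [← hrange] at hcker
  obtain ⟨w, hw⟩ := hcker
  -- the pairing with `b'`
  have h1 := cnt_coeff_zero_mul n (w : LaurentSeries k) b' (hW n w w.2) hb'0
  rw [hb'res n w w.2] at h1
  have h2 : ∀ m' : Fin (n + 1), (w : LaurentSeries k).coeff (-((m' : ℕ) : ℤ)) = c m' := by
    intro m'
    have := congrFun hw m'
    simpa [hφ] using this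
  simp only [h2] at h1
  -- evaluate
  have h3 : ∑ m' : Fin (n + 1), c m' * b'.coeff ((m' : ℕ) : ℤ) = b'.coeff m := by
    have hsplit : ∀ m' : Fin (n + 1), c m' * b'.coeff ((m' : ℕ) : ℤ) =
        (Pi.single em (1 : k) : Fin (n + 1) → k) m' * b'.coeff ((m' : ℕ) : ℤ) -
          ∑ j, (bb j).coeff m * ((Pi.single (e j) (1 : k) : Fin (n + 1) → k) m' *
            b'.coeff ((m' : ℕ) : ℤ)) := by
      intro m'
      rw [hc, Pi.sub_apply, Finset.sum_apply, sub_mul, Finset.sum_mul]
      congr 1
      refine Finset.sum_congr rfl fun j _ => ?_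
      rw [Pi.smul_apply, smul_eq_mul, mul_assoc]
    rw [Finset.sum_congr rfl fun m' _ => hsplit m', Finset.sum_sub_distrib]
    have hA : ∑ m' : Fin (n + 1), (Pi.single em (1 : k) : Fin (n + 1) → k) m' *
        b'.coeff ((m' : ℕ) : ℤ) = b'.coeff m := by
      rw [Finset.sum_eq_single em]
      · rw [Pi.single_eq_same, one_mul, hemcoe]
      · intro m' _ hm'
        rw [Pi.single_eq_of_ne hm', zero_mul]
      · intro h
        exact absurd (Finset.mem_univ _) h
    have hB : ∑ m' : Fin (n + 1), ∑ j, (bb j).coeff m *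
        ((Pi.single (e j) (1 : k) : Fin (n + 1) → k) m' * b'.coeff ((m' : ℕ) : ℤ)) = 0 := by
      rw [Finset.sum_comm]
      refine Finset.sum_eq_zero fun j _ => ?_
      rw [← Finset.mul_sum, Finset.sum_eq_single (e j)]
      · rw [Pi.single_eq_same, one_mul, hecoe, hb'p, mul_zero]
      · intro m' _ hm'
        rw [Pi.single_eq_of_ne hm', zero_mul]
      · intro h
        exact absurd (Finset.mem_univ _) h
    rw [hA, hB, sub_zero]
  rw [h3] at h1
  exact h1.symm

end Fermat.Agent.R38

end
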