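/-
ROW 38, PKG-TRES, step T3 by the route HOL-dlog — INTERFACE of the sub-captain (helper83).
Plan and piece table: NOTES/R38-HOL.md.  Definitions and statements only.

Setting: `ℓ ≥ 5` a prime, `ℓ ∤ N`, `A ⊂ ℚ̄` a valuation ring over `ℓ`, `k = kA A`,
`F̄ = modularFunctionFieldFullC k N ⊂ k((q))` (function field of `C = X₀(N) mod ℓ`), `j̄ = jqModC k`,
`θ = q d/dq` (`S28.Deriv.thetaFun`), `B̄` = integral closure of `k[j̄]` in `F̄` (`HolInt`),
`𝔑 = {y ∈ B̄ : y² ∈ (j̄ − 1728) B̄, y³ ∈ j̄ (j̄ − 1728) B̄}` (`HolN`; the radical of `j̄(j̄ − 1728) B̄`),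
`W = {w : InW N A w}` (functions of `C` regular outside the cusp `∞`),
`S̄ = holSpan N k` = the `k`-span of the reductions of the cusp forms of weight `2`, level `N`,
with integer `q`-expansion.

TARGET  `StmtHolSpan` : `r ∈ F̄ˣ` with `ℓ ∣ ord_Q r` at ALL places `Q` of `F̄`  ⇒  `dlog r = θr / r ∈ S̄`.
        = `StmtHolRes` (`a₀ (w · dlog r) = 0` for `w ∈ W`; `ES.I2.res_main` with `fq := dlog r`,
          `y := j̄ (j̄ − 1728) θr / (r θj̄)`)  +  (DUAL) `r38hold_dual` (helper41, landed).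
PIECES of `StmtHolRes` (the hypotheses of `res_main` for `y`):
* `StmtHolDer`    (DER)   `θ f = g · θ j̄` with `g ∈ F̄` for `f ∈ F̄`   (`D := θ / θ j̄` preserves `F̄`);
* `StmtHolDerTau` (DER-τ) `θ (τ f) = τ g · θ (τ j̄)` for every `k`-algebra map `τ : F̄ → k((Q))`;
* `StmtHolNIdeal` (𝔑)     `𝔑` is an ideal of `B̄`;
* `StmtHolLift`   (B1-LIFT) every element of `B̄` is the reduction of an `A`-integral function of
                          `F_N` with poles only at the cusps (DEU, lifting of sections);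
* `StmtHolMF`     (B1-MF) characteristic `0`: for `C ∈ F_N` with poles only at the cusps,
                          `Yt = j (j − 1728) θC / θj`, `Yt² / (j − 1728)`, `Yt³ / (j (j − 1728))`
                          lie in `F_N` and have poles only at the cusps;
* `StmtHolB1`     (B1)    `D′ (B̄) ⊂ 𝔑`, `D′ := j̄ (j̄ − 1728) θ / θ j̄`;
* `StmtHolDed`    (DED)   `ℓ ∣ ord_Q r` at the finite places  ⇒  `θ r = r · Σ cᵢ θ dᵢ`, `cᵢ, dᵢ ∈ B̄`;
* `StmtHolOrd`    (ORD)   `ℓ ∣ ord_Q r` at all places ⇒ `ℓ ∣ ord (τ r)` for the embeddings `τ`;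
* `StmtHolCusp`   (CUSP)  `ℓ ∣ ord (τ r)` ⇒ `τ y` has `Q`-order `> −N`.
HECKE:
* `r38holModule k` : the formal Hecke module structure on `k((q))` (`T_ℓ ↦ r38heckeT ℓ`,
                    through `ES.tfModule`; genuine because the formal operators commute);
* `StmtHolKill`   (KILL)  a good Hecke polynomial killing `S₂(Γ₀(N))` kills `S̄`.
-/
import Fermat.Agent.ES.I2.Plan2
import Fermat.Agent.ES.TopFaith
import Fermat.Agent.R38.Plan
import Fermat.Agent.R38.TresDlogHecke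

set_option autoImplicit false
set_option linter.style.haveILetI false

noncomputable section

namespace Fermat.Agent.R38

open ModularCurve AlgebraicCurve HahnSeries Fermat.Agent.ES Fermat.Agent.S24 Fermat.Agent.ES.M
open Fermat.Agent.ES.I2 Fermat.Agent.S28.Deriv

/-! ### Definitions -/

section Defs

variable (k : Type) [Field k] (N : ℕ) [NeZero N]

/-- `z ∈ B̄`: an element of `F̄` integral over `k[j̄]`. -/
def HolInt (z : LaurentSeries k) : Prop :=
  z ∈ modularFunctionFieldFullC k N ∧ IntJ (jqModC k) z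

/-- `y ∈ 𝔑`: `y ∈ B̄`, `y² ∈ (j̄ − 1728) B̄` and `y³ ∈ j̄ (j̄ − 1728) B̄`. -/
def HolN (y : LaurentSeries k) : Prop :=
  HolInt k N y ∧ (∃ y2, HolInt k N y2 ∧ y ^ 2 = y2 * (jqModC k - 1728)) ∧
    ∃ y1, HolInt k N y1 ∧ y ^ 3 = y1 * jqModC k * (jqModC k - 1728)

/-- the reductions of the cusp forms of weight `2` and level `N` with integer `q`-expansion -/
def holForms : Set (LaurentSeries k) :=
  {s | ∃ (f : CuspForm (CongruenceSubgroup.Gamma0 N) 2) (z : ℕ → ℤ),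
    (∀ n, ModularFormClass.qCoeff f n = (z n : ℂ)) ∧
      s = coeffMap (Int.castRingHom k) (fqZ z)}

/-- `S̄`: the `k`-span of the reduced cusp forms -/
def holSpan : Submodule k (LaurentSeries k) := Submodule.span k (holForms k N)

/-- the element `j̄` of `F̄` -/
abbrev holJ : ↥(modularFunctionFieldFullC k N) := ⟨jqModC k, jqModC_mem_full k N⟩

/-- `r ∈ F̄` and `ℓ ∣ ord_Q r` at ALL places `Q` of `F̄` (the output of (FAC-p)).
(Stated for a generic field `k` so that the instances on `F̄` are found quickly; use it at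
`k := kA A`.) -/
def HolDiv (ℓ : ℕ) (r : LaurentSeries k) : Prop :=
  ∃ hr : r ∈ modularFunctionFieldFullC k N,
    ∀ Q : Place k ↥(modularFunctionFieldFullC k N), (ℓ : ℤ) ∣ Q.ord ⟨r, hr⟩

end Defs

/-! ### The formal Hecke module -/

section Hecke

variable (k : Type) [Field k]

/-- the formal weight-2 Hecke operator `T_ℓ` on `k((q))` as an additive endomorphism -/
def r38holOp (ℓ : Nat.Primes) : Module.End ℤ (LaurentSeries k) :=
  haveI : NeZero (ℓ : ℕ) := ⟨ℓ.2.ne_zero⟩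
  (AddMonoidHom.mk' (r38heckeT (k := k) (ℓ : ℕ)) (r38heckeT_add (ℓ : ℕ))).toIntLinearMap

theorem r38holOp_apply (ℓ : Nat.Primes) (b : LaurentSeries k) :
    r38holOp k ℓ b = (haveI : NeZero (ℓ : ℕ) := ⟨ℓ.2.ne_zero⟩; r38heckeT (ℓ : ℕ) b) := rfl

/-- the formal Hecke module structure on `k((q))`: `heckeGen ℓ • b = r38heckeT ℓ b`
(`ES.tfModule`; it is genuine as soon as `TfComm (r38holOp k)` is known — piece KILL). -/
@[implicit_reducible]
def r38holModule : Module HeckeAlg (LaurentSeries k) := tfModule (r38holOp k)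

end Hecke

/-! ### The pieces in characteristic `ℓ` (generic field `k`) -/

/-- **(𝔑)** `𝔑` is an ideal of `B̄` (pure algebra: `B̄` is integrally closed in `F̄`). -/
def StmtHolNIdeal : Prop :=
  ∀ (k : Type) [Field k] (N : ℕ) [NeZero N],
    (∀ a b, HolN k N a → HolN k N b → HolN k N (a + b)) ∧
    (∀ c y, HolInt k N c → HolN k N y → HolN k N (c * y))

/-- **(DER)** `D = θ / θ j̄` preserves `F̄`. -/
def StmtHolDer : Prop :=
  ∀ (k : Type) [Field k] (ℓ : ℕ) [Fact ℓ.Prime] [CharP k ℓ] [PerfectRing k ℓ]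
    (N : ℕ) [NeZero N], ((N : ℕ) : k) ≠ 0 →
    ∀ f : LaurentSeries k, f ∈ modularFunctionFieldFullC k N →
      ∃ g ∈ modularFunctionFieldFullC k N, thetaFun f = g * thetaFun (jqModC k)

/-- **(DER-τ)** every `k`-algebra map `τ : F̄ → k((Q))` commutes with `D`:
`θ (τ f) = τ (D f) · θ (τ j̄)`. -/
def StmtHolDerTau : Prop :=
  ∀ (k : Type) [Field k] (ℓ : ℕ) [Fact ℓ.Prime] [CharP k ℓ] [PerfectRing k ℓ]
    (N : ℕ) [NeZero N], ((N : ℕ) : k) ≠ 0 →
    ∀ (τ : ↥(modularFunctionFieldFullC k N) →ₐ[k] LaurentSeries k)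
      (f g : ↥(modularFunctionFieldFullC k N)),
      thetaFun (f : LaurentSeries k) = (g : LaurentSeries k) * thetaFun (jqModC k) →
        thetaFun (τ f) = τ g * thetaFun (τ (holJ k N))

/-- **(ORD)** divisibility of the orders at all places gives divisibility of the `Q`-order of
`τ r` for every embedding `τ` over `j̄ ↦ j̄(Q^N)` (`S24.exists_place_of_valuation`). -/
def StmtHolOrd : Prop :=
  ∀ (k : Type) [Field k] (ℓ : ℕ) [Fact ℓ.Prime] [CharP k ℓ] [PerfectRing k ℓ]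
    (N : ℕ) [NeZero N], ((N : ℕ) : k) ≠ 0 →
    ∀ (τ : ↥(modularFunctionFieldFullC k N) →ₐ[k] LaurentSeries k),
      τ (holJ k N) = qExpand k N (jqModC k) →
      ∀ r : ↥(modularFunctionFieldFullC k N), r ≠ 0 →
        (∀ Q : Place k ↥(modularFunctionFieldFullC k N), (ℓ : ℤ) ∣ Q.ord r) →
          (ℓ : ℤ) ∣ (τ r).order

/-- **(CUSP)** if `ℓ ∣ ord (τ r)` and `y · θ j̄ · r = θ r · j̄ (j̄ − 1728)`, then `τ y` has `Q`-order
`> −N` (the differential `dlog r` is regular at the cusp of `τ`). -/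
def StmtHolCusp : Prop :=
  ∀ (k : Type) [Field k] (ℓ : ℕ) [Fact ℓ.Prime] [CharP k ℓ] [PerfectRing k ℓ]
    (N : ℕ) [NeZero N], ((N : ℕ) : k) ≠ 0 →
    ∀ (τ : ↥(modularFunctionFieldFullC k N) →ₐ[k] LaurentSeries k),
      τ (holJ k N) = qExpand k N (jqModC k) →
      ∀ r y : ↥(modularFunctionFieldFullC k N), r ≠ 0 → (ℓ : ℤ) ∣ (τ r).order →
        (y : LaurentSeries k) * thetaFun (jqModC k) * (r : LaurentSeries k) =
            thetaFun (r : LaurentSeries k) * jqModC k * (jqModC k - 1728) →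
        ∀ m : ℤ, m ≤ -(N : ℤ) → (τ y).coeff m = 0

/-- **(DED)** the Dedekind trick: if `ℓ ∣ ord_Q r` at every place `Q` where `j̄` is regular, then
`θ r = r · Σ cᵢ θ dᵢ` with `cᵢ, dᵢ ∈ B̄`
(`r B̄ = 𝔞^ℓ`, `𝔞^ℓ` is generated by `ℓ`-th powers: `r = Σ dᵢ aᵢ^ℓ`, `cᵢ = aᵢ^ℓ / r`). -/
def StmtHolDed : Prop :=
  ∀ (k : Type) [Field k] (ℓ : ℕ) [Fact ℓ.Prime] [CharP k ℓ] [PerfectRing k ℓ]
    (N : ℕ) [NeZero N], ((N : ℕ) : k) ≠ 0 →
    ∀ r : ↥(modularFunctionFieldFullC k N), r ≠ 0 →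
      (∀ Q : Place k ↥(modularFunctionFieldFullC k N), 0 ≤ Q.ord (holJ k N) →
        (ℓ : ℤ) ∣ Q.ord r) →
      ∃ (n : ℕ) (c d : Fin n → LaurentSeries k),
        (∀ i, HolInt k N (c i)) ∧ (∀ i, HolInt k N (d i)) ∧
          thetaFun (r : LaurentSeries k) = (r : LaurentSeries k) * ∑ i, c i * thetaFun (d i)

/-! ### The pieces at `(N, A)` -/

section AtNA

variable (N : ℕ) [NeZero N] (A : ValuationSubring Kb)

/-- **(B1-LIFT)** every element of `B̄` is the reduction of an `A`-integral function with poles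
only at the cusps. -/
def StmtHolLift : Prop :=
  ∀ c : LaurentSeries (kA A), HolInt (kA A) N c →
    ∃ (C : LaurentSeries A) (hC : kronIncl A C ∈ modularFunctionFieldBar N),
      PolesAtCusps N ⟨kronIncl A C, hC⟩ ∧ kronRed A C = c

/-- **(B1)** `D′ (B̄) ⊂ 𝔑`. -/
def StmtHolB1 : Prop :=
  ∀ c : LaurentSeries (kA A), HolInt (kA A) N c →
    ∃ y : LaurentSeries (kA A), HolN (kA A) N y ∧
      y * thetaFun (jqModC (kA A)) = thetaFun c * jqModC (kA A) * (jqModC (kA A) - 1728)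

/-- **(RES)** the residue theorem for `dlog r`: `a₀ (w · dlog r) = 0` for `w ∈ W`. -/
def StmtHolRes (ℓ : ℕ) : Prop :=
  ∀ r : LaurentSeries (kA A), r ≠ 0 → HolDiv (kA A) N ℓ r →
    ∀ w : LaurentSeries (kA A), InW N A w → (w * r38dlog r).coeff 0 = 0

/-- **(HOL-SPAN)** the target: `dlog r ∈ S̄`. -/
def StmtHolSpan (ℓ : ℕ) : Prop :=
  ∀ r : LaurentSeries (kA A), r ≠ 0 → HolDiv (kA A) N ℓ r → r38dlog r ∈ holSpan (kA A) N

end AtNA

/-- **(B1-MF)** characteristic `0`: for `C ∈ F_N` with poles only at the cusps the functions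
`Yt = j (j − 1728) θC / θj = −θC · E₄E₆ / Δ`, `Y2 = Yt² / (j − 1728)`, `Y1 = Yt³ / (j (j − 1728))`
lie in `F_N` and have poles only at the cusps
(`C = Σ cᵢ Gᵢ / Δ^m`; `θ (G / Δ^m) = ∂G / Δ^m`, Serre derivative; `ES/Riemann.lean`, `ES/I2/MF.lean`). -/
def StmtHolMF (N : ℕ) [NeZero N] : Prop :=
  ∀ C : FF N, PolesAtCusps N C →
    ∃ Yt Y1 Y2 : FF N, PolesAtCusps N Yt ∧ PolesAtCusps N Y1 ∧ PolesAtCusps N Y2 ∧
      (Yt : LaurentSeries Kb) * thetaFun jBar =
          thetaFun (C : LaurentSeries Kb) * jBar * (jBar - 1728) ∧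
      (Yt : LaurentSeries Kb) ^ 2 = (Y2 : LaurentSeries Kb) * (jBar - 1728) ∧
      (Yt : LaurentSeries Kb) ^ 3 = (Y1 : LaurentSeries Kb) * jBar * (jBar - 1728)

/-! ### The `All` versions and the glue -/

def StmtHolLiftAll : Prop :=
  ∀ (N : ℕ) [NeZero N] (ℓ : ℕ), ℓ.Prime → 5 ≤ ℓ → ¬ ℓ ∣ N →
    ∀ A : ValuationSubring Kb, A.LiesOverPrime ℓ → StmtHolLift N A

def StmtHolMFAll : Prop := ∀ (N : ℕ) [NeZero N], StmtHolMF N

def StmtHolB1All : Prop :=
  ∀ (N : ℕ) [NeZero N] (ℓ : ℕ), ℓ.Prime → 5 ≤ ℓ → ¬ ℓ ∣ N →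
    ∀ A : ValuationSubring Kb, A.LiesOverPrime ℓ → StmtHolB1 N A

def StmtHolResAll : Prop :=
  ∀ (N : ℕ) [NeZero N] (ℓ : ℕ), ℓ.Prime → 5 ≤ ℓ → ¬ ℓ ∣ N →
    ∀ A : ValuationSubring Kb, A.LiesOverPrime ℓ → StmtHolRes N A ℓ

def StmtHolSpanAll : Prop :=
  ∀ (N : ℕ) [NeZero N] (ℓ : ℕ), ℓ.Prime → 5 ≤ ℓ → ¬ ℓ ∣ N →
    ∀ A : ValuationSubring Kb, A.LiesOverPrime ℓ → StmtHolSpan N A ℓ

/-- piece B1-asm: lifting + the characteristic-`0` functions + `ES.I2.stmtIRAll` -/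
def StmtHolB1Glue : Prop := StmtHolLiftAll → StmtHolMFAll → StmtHolB1All

/-- piece RES-asm: `ES.I2.res_main` with `fq := dlog r` -/
def StmtHolResGlue : Prop :=
  StmtHolNIdeal → StmtHolDer → StmtHolDerTau → StmtHolOrd → StmtHolCusp → StmtHolDed →
    StmtHolB1All → StmtHolResAll

/-- piece SPAN-asm: (RES) + (DUAL) (`r38hold_dual`) + `a₀ (dlog r) = ord_q r = 0` in `k` -/
def StmtHolSpanGlue : Prop := StmtHolOrd → StmtHolResAll → StmtHolSpanAll

/-- **(KILL)** a Hecke polynomial in the `T_ℓ`, `ℓ ∤ N`, which acts as zero on `S₂(Γ₀(N))`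
kills the reduced cusp forms (formal Hecke action on `k((q))`). -/
def StmtHolKill : Prop :=
  ∀ (N : ℕ) [NeZero N] (k : Type) [Field k] (S : Set Nat.Primes),
    (∀ ℓ ∈ S, ¬ ((ℓ : Nat.Primes) : ℕ) ∣ N) →
    ∀ t ∈ MvPolynomial.supported ℤ S, KillsForms N t →
      ∀ s ∈ holSpan k N, (letI := r38holModule k; t • s) = 0

/-- the formal Hecke operators commute (part of piece KILL; makes `r38holModule` genuine) -/
def StmtHolComm : Prop := ∀ (k : Type) [Field k], TfComm (r38holOp k)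

end Fermat.Agent.R38

end
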