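import Fermat.Agent.ES.I2.Final
import Fermat.Agent.R38.TresDlog
import Fermat.Agent.R38.HolDual
import Fermat.Agent.R38.HolN
import Fermat.Agent.R38.PlanHol

/-!
# R38 TRES, route HOL-dlog, piece RES-asm (helper32): the residue pairing kills `dlog r`

`k = kA A`, `A ⊂ ℚ̄` a valuation ring over `ℓ ≥ 5`, `ℓ ∤ N`, `F̄ = modularFunctionFieldFullC k N`.

* `r38hres_dlog_pos` : in characteristic `p`, `dlog f = θ f / f ∈ q k[[q]]` when `p ∣ ord f`;
* `r38hres_res` : **(RES)** `a₀ (w · fq) = 0` for all `w ∈ W`, for ANY series `fq` such that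
  `y = j (j - 1728) fq / θ j` lies in `F̄`, is integral over `k[j]` together with
  `y² / (j - 1728)` and `y³ / (j (j - 1728))`, and has `Q`-order `> -N` under the reduced
  embeddings `τ_i` (this is `ES.I2.res_main` with all the modular inputs discharged);
* `r38hres_res_N` : the same with the hypothesis in the form `y ∈ 𝔑` (`r38hn_N`, helper26);
* `r38hres_span` : **(HOL-SPAN), assembly**: such an `fq ∈ q k[[q]]` is a `k`-linear combination
  of reductions of cusp forms of weight `2` with integer `q`-expansion (with `r38hold_dual`);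
* `r38hres_span_dlog` : the case `fq = dlog r`, `p ∣ ord_q r`.
-/

set_option autoImplicit false
set_option linter.style.haveILetI false

noncomputable section

namespace Fermat.Agent.R38

open ModularCurve AlgebraicCurve HahnSeries Fermat.Agent.ES Fermat.Agent.S24 Fermat.Agent.ES.M
open Fermat.Agent.ES.I2 Fermat.Agent.S28.Deriv

section Formal

variable {k : Type*} [Field k]

/-- in characteristic `p`, the logarithmic derivative of a series whose order is divisible by `p`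
has no term of degree `≤ 0`. -/
theorem r38hres_dlog_pos (p : ℕ) [Fact p.Prime] [CharP k p] (f : LaurentSeries k)
    (hf : (p : ℤ) ∣ f.order) : ∀ m : ℤ, m ≤ 0 → (r38dlog f).coeff m = 0 := by
  intro m hm
  by_cases hf0 : f = 0
  · rw [hf0, r38dlog_zero]; rfl
  by_cases hb : r38dlog f = 0
  · rw [hb]; rfl
  have hmul : r38dlog f * f = thetaFun f := r38dlog_mul_self hf0
  have hz : thetaFun f ≠ 0 := by
    rw [← hmul]
    exact mul_ne_zero hb hf0
  have hord : (thetaFun f).order = (r38dlog f).order + f.order := by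
    rw [← hmul, HahnSeries.order_mul hb hf0]
  have hc : (thetaFun f).coeff ((r38dlog f).order + f.order) ≠ 0 := by
    rw [← hord]
    exact fun h => hz (HahnSeries.coeff_order_eq_zero.1 h)
  rw [thetaFun_coeff] at hc
  have hpos : 0 < (r38dlog f).order := by
    by_contra hneg
    push Not at hneg
    rcases lt_or_eq_of_le hneg with h1 | h1
    · apply hc
      rw [HahnSeries.coeff_eq_zero_of_lt_order (by omega), mul_zero]
    · apply hc
      rw [h1, zero_add, (CharP.intCast_eq_zero_iff k p f.order).mpr hf, zero_mul]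
  exact HahnSeries.coeff_eq_zero_of_lt_order (lt_of_le_of_lt hm hpos)

end Formal

section Res

variable (N : ℕ) [NeZero N] (A : ValuationSubring Kb)

/-- **(RES)**: the residue pairing with the functions regular outside `∞` kills every series `fq`
for which `y = j (j - 1728) fq / θ j` behaves like a regular differential. -/
theorem r38hres_res (ℓ : ℕ) (hℓ : ℓ.Prime) (h5 : 5 ≤ ℓ) (hℓN : ¬ ℓ ∣ N)
    (hA : A.LiesOverPrime ℓ) (fq : LaurentSeries (kA A))
    (y y1 y2 : ↥(modularFunctionFieldFullC (kA A) N))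
    (hrel : (y : LaurentSeries (kA A)) * thetaFun (jqModC (kA A)) =
      fq * jqModC (kA A) * (jqModC (kA A) - 1728))
    (h2 : (y : LaurentSeries (kA A)) ^ 2 = (y2 : LaurentSeries (kA A)) * (jqModC (kA A) - 1728))
    (h3 : (y : LaurentSeries (kA A)) ^ 3 =
      (y1 : LaurentSeries (kA A)) * jqModC (kA A) * (jqModC (kA A) - 1728))
    (hyI : IntJ (jqModC (kA A)) (y : LaurentSeries (kA A)))
    (hy1I : IntJ (jqModC (kA A)) (y1 : LaurentSeries (kA A)))
    (hy2I : IntJ (jqModC (kA A)) (y2 : LaurentSeries (kA A)))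
    (hyord : ∀ (τ : Fin (dedekindPsi N) →
        (↥(modularFunctionFieldFullC (kA A) N) →ₐ[kA A] LaurentSeries (kA A)))
      (i₀ : Fin (dedekindPsi N)), IsTau N A τ i₀ →
      ∀ i, ∀ m : ℤ, m ≤ -(N : ℤ) → (τ i y).coeff m = 0)
    (w : LaurentSeries (kA A)) (hw : InW N A w) : (w * fq).coeff 0 = 0 := by
  haveI : Fact ℓ.Prime := ⟨hℓ⟩
  haveI : CharP (kA A) ℓ := kron_charP_residueField hℓ hA
  haveI : PerfectRing (kA A) ℓ := Fermat.Agent.INJ.nf_perfectRing_residueField A ℓ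
  have hNk : ((N : ℕ) : kA A) ≠ 0 := redF_natCast_ne_zero N A ℓ hℓ hℓN hA
  have h1728 : (1728 : kA A) ≠ 0 := res_1728_ne_zero ℓ hℓ h5
  obtain ⟨τ, i₀, hτ⟩ := stmtTauAll N ℓ hℓ hℓN A hA
  obtain ⟨hS2a, hS2b⟩ := stmtS2All N ℓ hℓ hℓN A hA
  exact res_main (kA A) ℓ h1728 N hNk stmtNilp stmtTN τ i₀ hτ.inj hτ.infty hτ.jmap ⟨w, hw.1⟩
    (hS2a w hw) (hS2b τ i₀ hτ w hw) fq y y1 y2 hrel h2 h3 hyI hy1I hy2I (hyord τ i₀ hτ)

/-- the function `j̄` as an element of `F̄` -/
def r38hresJ (k : Type*) [Field k] (N : ℕ) : ↥(modularFunctionFieldFullC k N) :=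
  ⟨jqModC k, jqModC_mem_full k N⟩

omit [NeZero N] in
@[simp] theorem r38hresJ_coe (k : Type*) [Field k] :
    ((r38hresJ k N : ↥(modularFunctionFieldFullC k N)) : LaurentSeries k) = jqModC k := rfl

/-- **(RES)** with the hypothesis in the form `y ∈ 𝔑` (`r38hn_N`), for any subring `B` of `F̄`
whose elements are integral over `k[j̄]`. -/
theorem r38hres_res_N (ℓ : ℕ) (hℓ : ℓ.Prime) (h5 : 5 ≤ ℓ) (hℓN : ¬ ℓ ∣ N)
    (hA : A.LiesOverPrime ℓ) (B : Subring ↥(modularFunctionFieldFullC (kA A) N))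
    (hB : ∀ x ∈ B, IntJ (jqModC (kA A)) ((x : ↥(modularFunctionFieldFullC (kA A) N)) :
      LaurentSeries (kA A)))
    (fq : LaurentSeries (kA A)) (y : ↥(modularFunctionFieldFullC (kA A) N))
    (hy : r38hn_N B (r38hresJ (kA A) N - 1728) (r38hresJ (kA A) N) y)
    (hrel : (y : LaurentSeries (kA A)) * thetaFun (jqModC (kA A)) =
      fq * jqModC (kA A) * (jqModC (kA A) - 1728))
    (hyord : ∀ (τ : Fin (dedekindPsi N) →
        (↥(modularFunctionFieldFullC (kA A) N) →ₐ[kA A] LaurentSeries (kA A)))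
      (i₀ : Fin (dedekindPsi N)), IsTau N A τ i₀ →
      ∀ i, ∀ m : ℤ, m ≤ -(N : ℤ) → (τ i y).coeff m = 0)
    (w : LaurentSeries (kA A)) (hw : InW N A w) : (w * fq).coeff 0 = 0 := by
  obtain ⟨hyB, ⟨y2, hy2B, e2⟩, ⟨y1, hy1B, e1⟩⟩ := hy
  have h1728 : (((1728 : ↥(modularFunctionFieldFullC (kA A) N)) :
      ↥(modularFunctionFieldFullC (kA A) N)) : LaurentSeries (kA A)) = 1728 :=
    map_ofNat (IntermediateField.val (modularFunctionFieldFullC (kA A) N)) 1728
  refine r38hres_res N A ℓ hℓ h5 hℓN hA fq y y1 y2 hrel ?_ ?_ (hB y hyB) (hB y1 hy1B)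
    (hB y2 hy2B) hyord w hw
  · have := congrArg (fun x : ↥(modularFunctionFieldFullC (kA A) N) =>
      (x : LaurentSeries (kA A))) e2
    simp only [SubmonoidClass.coe_pow, MulMemClass.coe_mul, AddSubgroupClass.coe_sub,
      r38hresJ_coe, h1728] at this
    exact this
  · have := congrArg (fun x : ↥(modularFunctionFieldFullC (kA A) N) =>
      (x : LaurentSeries (kA A))) e1
    simp only [SubmonoidClass.coe_pow, MulMemClass.coe_mul, AddSubgroupClass.coe_sub,
      r38hresJ_coe, h1728] at this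
    exact this

/-- **(HOL-SPAN), assembly**: a series `fq ∈ q k[[q]]` for which `y = j (j - 1728) fq / θ j`
lies in `𝔑` and has `Q`-order `> -N` at all cusps is a `k`-linear combination of reductions of
cusp forms of weight `2` with integer `q`-expansion. -/
theorem r38hres_span (ℓ : ℕ) (hℓ : ℓ.Prime) (h5 : 5 ≤ ℓ) (hℓN : ¬ ℓ ∣ N)
    (hA : A.LiesOverPrime ℓ) (B : Subring ↥(modularFunctionFieldFullC (kA A) N))
    (hB : ∀ x ∈ B, IntJ (jqModC (kA A)) ((x : ↥(modularFunctionFieldFullC (kA A) N)) :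
      LaurentSeries (kA A)))
    (fq : LaurentSeries (kA A)) (hfq0 : ∀ m : ℤ, m ≤ 0 → fq.coeff m = 0)
    (y : ↥(modularFunctionFieldFullC (kA A) N))
    (hy : r38hn_N B (r38hresJ (kA A) N - 1728) (r38hresJ (kA A) N) y)
    (hrel : (y : LaurentSeries (kA A)) * thetaFun (jqModC (kA A)) =
      fq * jqModC (kA A) * (jqModC (kA A) - 1728))
    (hyord : ∀ (τ : Fin (dedekindPsi N) →
        (↥(modularFunctionFieldFullC (kA A) N) →ₐ[kA A] LaurentSeries (kA A)))
      (i₀ : Fin (dedekindPsi N)), IsTau N A τ i₀ →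
      ∀ i, ∀ m : ℤ, m ≤ -(N : ℤ) → (τ i y).coeff m = 0) :
    ∃ (f : Fin (gN N) → CuspForm (CongruenceSubgroup.Gamma0 N) 2) (z : Fin (gN N) → ℕ → ℤ),
      (∀ t n, ModularFormClass.qCoeff (f t) n = (z t n : ℂ)) ∧
      LinearIndependent (kA A) (fun t => coeffMap (Int.castRingHom (kA A)) (fqZ (z t))) ∧
      fq ∈ Submodule.span (kA A)
        (Set.range fun t => coeffMap (Int.castRingHom (kA A)) (fqZ (z t))) :=
  r38hold_dual N ℓ hℓ h5 hℓN A hA fq hfq0
    (r38hres_res_N N A ℓ hℓ h5 hℓN hA B hB fq y hy hrel hyord)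

/-- **(HOL-SPAN) for `dlog r`**: `r ∈ F̄ˣ` with `ℓ ∣ ord_q r`, such that
`y = j (j - 1728) θ r / (r θ j)` lies in `𝔑` and has `Q`-order `> -N` at all cusps. -/
theorem r38hres_span_dlog (ℓ : ℕ) (hℓ : ℓ.Prime) (h5 : 5 ≤ ℓ) (hℓN : ¬ ℓ ∣ N)
    (hA : A.LiesOverPrime ℓ) (B : Subring ↥(modularFunctionFieldFullC (kA A) N))
    (hB : ∀ x ∈ B, IntJ (jqModC (kA A)) ((x : ↥(modularFunctionFieldFullC (kA A) N)) :
      LaurentSeries (kA A)))
    (r : LaurentSeries (kA A)) (hr : (ℓ : ℤ) ∣ r.order)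
    (y : ↥(modularFunctionFieldFullC (kA A) N))
    (hy : r38hn_N B (r38hresJ (kA A) N - 1728) (r38hresJ (kA A) N) y)
    (hrel : (y : LaurentSeries (kA A)) * thetaFun (jqModC (kA A)) =
      r38dlog r * jqModC (kA A) * (jqModC (kA A) - 1728))
    (hyord : ∀ (τ : Fin (dedekindPsi N) →
        (↥(modularFunctionFieldFullC (kA A) N) →ₐ[kA A] LaurentSeries (kA A)))
      (i₀ : Fin (dedekindPsi N)), IsTau N A τ i₀ →
      ∀ i, ∀ m : ℤ, m ≤ -(N : ℤ) → (τ i y).coeff m = 0) :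
    ∃ (f : Fin (gN N) → CuspForm (CongruenceSubgroup.Gamma0 N) 2) (z : Fin (gN N) → ℕ → ℤ),
      (∀ t n, ModularFormClass.qCoeff (f t) n = (z t n : ℂ)) ∧
      LinearIndependent (kA A) (fun t => coeffMap (Int.castRingHom (kA A)) (fqZ (z t))) ∧
      r38dlog r ∈ Submodule.span (kA A)
        (Set.range fun t => coeffMap (Int.castRingHom (kA A)) (fqZ (z t))) := by
  haveI : Fact ℓ.Prime := ⟨hℓ⟩
  haveI : CharP (kA A) ℓ := kron_charP_residueField hℓ hA
  exact r38hres_span N A ℓ hℓ h5 hℓN hA B hB (r38dlog r) (r38hres_dlog_pos ℓ r hr) y hy hrel hyord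

end Res

/-! ### The glue `StmtHolResGlue` of `R38/PlanHol.lean` -/

section Glue

variable {k : Type} [Field k] {N : ℕ} [NeZero N]

omit [NeZero N] in
theorem r38hres_holInt_zero : HolInt k N 0 :=
  ⟨zero_mem _, by
    have := intJ_aeval (jqModC k) (0 : Polynomial k)
    rwa [map_zero] at this⟩

omit [NeZero N] in
theorem r38hres_holN_zero : HolN k N 0 :=
  ⟨r38hres_holInt_zero, ⟨0, r38hres_holInt_zero, by ring⟩, ⟨0, r38hres_holInt_zero, by ring⟩⟩

omit [NeZero N] in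
/-- finite `B̄`-linear combinations of elements of `𝔑` lie in `𝔑` -/
theorem r38hres_holN_sum (hN : (∀ a b, HolN k N a → HolN k N b → HolN k N (a + b)) ∧
      (∀ c y, HolInt k N c → HolN k N y → HolN k N (c * y)))
    {ι : Type*} (s : Finset ι) (c y : ι → LaurentSeries k)
    (hc : ∀ i ∈ s, HolInt k N (c i)) (hy : ∀ i ∈ s, HolN k N (y i)) :
    HolN k N (∑ i ∈ s, c i * y i) := by
  classical
  induction s using Finset.induction_on with
  | empty =>
    rw [Finset.sum_empty]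
    exact r38hres_holN_zero
  | insert a s ha ih =>
    rw [Finset.sum_insert ha]
    exact hN.1 _ _ (hN.2 _ _ (hc a (Finset.mem_insert_self a s))
        (hy a (Finset.mem_insert_self a s)))
      (ih (fun i hi => hc i (Finset.mem_insert_of_mem hi))
        (fun i hi => hy i (Finset.mem_insert_of_mem hi)))

end Glue

/-- **piece RES-asm**: `ES.I2.res_main` with `fq := dlog r`, `y := Σ cᵢ D′ dᵢ`. -/
theorem stmtHolResGlue : StmtHolResGlue := by
  intro hNI _hDer _hDerTau hOrd hCusp hDed hB1 N _ ℓ hℓ h5 hℓN A hA r hr0 hdiv w hw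
  haveI : Fact ℓ.Prime := ⟨hℓ⟩
  haveI : CharP (kA A) ℓ := kron_charP_residueField hℓ hA
  haveI : PerfectRing (kA A) ℓ := Fermat.Agent.INJ.nf_perfectRing_residueField A ℓ
  have hNk : ((N : ℕ) : kA A) ≠ 0 := redF_natCast_ne_zero N A ℓ hℓ hℓN hA
  obtain ⟨hr, hdivQ⟩ := hdiv
  have hR0 : (⟨r, hr⟩ : ↥(modularFunctionFieldFullC (kA A) N)) ≠ 0 := fun h =>
    hr0 (congrArg Subtype.val h)
  -- (DED)
  obtain ⟨n, c, d, hc, hd, hθ⟩ := hDed (kA A) ℓ N hNk ⟨r, hr⟩ hR0 (fun Q _ => hdivQ Q)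
  -- (B1)
  choose yy hyN hyrel using fun i => hB1 N ℓ hℓ h5 hℓN A hA (d i) (hd i)
  -- the element `y`
  have hyN' : HolN (kA A) N (∑ i, c i * yy i) :=
    r38hres_holN_sum (hNI (kA A) N) Finset.univ c yy (fun i _ => hc i) (fun i _ => hyN i)
  obtain ⟨⟨hyF, hyI⟩, ⟨y2, ⟨hy2F, hy2I⟩, e2⟩, ⟨y1, ⟨hy1F, hy1I⟩, e1⟩⟩ := hyN'
  have hdlog : r38dlog r = ∑ i, c i * thetaFun (d i) := by
    have h1 : (r : LaurentSeries (kA A)) * ∑ i, c i * thetaFun (d i) = thetaFun r := hθ.symm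
    rw [r38dlog, ← h1, mul_comm r, mul_assoc, mul_inv_cancel₀ hr0, mul_one]
  have hrel : (∑ i, c i * yy i) * thetaFun (jqModC (kA A)) =
      r38dlog r * jqModC (kA A) * (jqModC (kA A) - 1728) := by
    rw [hdlog, Finset.sum_mul, Finset.sum_mul, Finset.sum_mul]
    refine Finset.sum_congr rfl fun i _ => ?_
    rw [mul_assoc, hyrel i]
    ring
  refine r38hres_res N A ℓ hℓ h5 hℓN hA (r38dlog r) ⟨_, hyF⟩ ⟨y1, hy1F⟩ ⟨y2, hy2F⟩ hrel e2 e1
    hyI hy1I hy2I ?_ w hw
  intro τ i₀ hτ i m hm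
  have hjτ : τ i (holJ (kA A) N) = qExpand (kA A) N (jqModC (kA A)) := hτ.jmap i
  have hord : (ℓ : ℤ) ∣ (τ i ⟨r, hr⟩).order :=
    hOrd (kA A) ℓ N hNk (τ i) hjτ ⟨r, hr⟩ hR0 hdivQ
  refine hCusp (kA A) ℓ N hNk (τ i) hjτ ⟨r, hr⟩ ⟨_, hyF⟩ hR0 hord ?_ m hm
  show (∑ i, c i * yy i) * thetaFun (jqModC (kA A)) * r =
    thetaFun r * jqModC (kA A) * (jqModC (kA A) - 1728)
  rw [hrel, r38dlog]
  have : thetaFun r * r⁻¹ * jqModC (kA A) * (jqModC (kA A) - 1728) * r =
      thetaFun r * jqModC (kA A) * (jqModC (kA A) - 1728) * (r⁻¹ * r) := by ring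
  rw [this, inv_mul_cancel₀ hr0, mul_one]

end Fermat.Agent.R38
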