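import Fermat.Agent.R38.PlanHol
import Fermat.Agent.R38.HolDual
import Fermat.Agent.ES.I2aux.Residue

/-!
# Row 38, PKG-TRES, route HOL-dlog: piece SPAN-asm (helper83)

`stmtHolSpanGlue : StmtHolSpanGlue` (`= StmtHolOrd → StmtHolResAll → StmtHolSpanAll`):
for `r ∈ F̄ˣ` with `ℓ ∣ ord_Q r` at all places, `b̄ = dlog r` lies in `q k[[q]]`
(`a₀ (dlog r) = ord_q r`, divisible by `ℓ` by (ORD) at the cusp `∞`), it is orthogonal to `W` by
(RES), hence it lies in the span `S̄` of the reduced cusp forms by (DUAL) (`r38hold_dual`).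
-/

set_option autoImplicit false
set_option linter.style.haveILetI false

noncomputable section

namespace Fermat.Agent.R38

open ModularCurve AlgebraicCurve HahnSeries Fermat.Agent.ES Fermat.Agent.S24 Fermat.Agent.ES.M
open Fermat.Agent.ES.I2 Fermat.Agent.S28.Deriv

section Formal

variable {k : Type*} [Field k]

/-- `dlog r` has no pole -/
theorem r38hol_dlog_coeff_neg (r : LaurentSeries k) (m : ℤ) (hm : m < 0) :
    (r38dlog r).coeff m = 0 := by
  by_cases hr : r = 0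
  · rw [hr, r38dlog_zero, HahnSeries.coeff_zero]
  by_cases hθ : thetaFun r = 0
  · rw [r38dlog, hθ, zero_mul, HahnSeries.coeff_zero]
  have hinv : r⁻¹ ≠ 0 := inv_ne_zero hr
  have h1 : r.order + (r⁻¹).order = 0 := by
    rw [← HahnSeries.order_mul hr hinv, mul_inv_cancel₀ hr, HahnSeries.order_one]
  have h2 : r.order ≤ (thetaFun r).order := by
    rw [HahnSeries.le_order_iff_forall hθ]
    intro i hi
    by_contra hne
    have hmem : i ∈ (thetaFun r).support := hne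
    have := thetaFun_support_subset r hmem
    exact this (HahnSeries.coeff_eq_zero_of_lt_order hi)
  apply HahnSeries.coeff_eq_zero_of_lt_order
  rw [r38dlog, HahnSeries.order_mul hθ hinv]
  omega

/-- `a₀ (dlog r) = ord_q r` -/
theorem r38hol_dlog_coeff_zero (r : LaurentSeries k) (hr : r ≠ 0) :
    (r38dlog r).coeff 0 = ((r.order : ℤ) : k) := by
  rw [r38dlog, mul_comm]
  exact Fermat.Agent.ES.I2aux.res_inv_mul_theta r hr

end Formal

/-- **piece SPAN-asm** -/
theorem stmtHolSpanGlue : StmtHolSpanGlue := by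
  intro hOrd hRes N _ ℓ hℓ h5 hℓN A hA r hr0 hdiv
  haveI : Fact ℓ.Prime := ⟨hℓ⟩
  haveI : CharP (kA A) ℓ := kron_charP_residueField hℓ hA
  haveI : PerfectRing (kA A) ℓ := Fermat.Agent.INJ.nf_perfectRing_residueField A ℓ
  have hNk : ((N : ℕ) : kA A) ≠ 0 := redF_natCast_ne_zero N A ℓ hℓ hℓN hA
  obtain ⟨hr, hQ⟩ := hdiv
  -- the order at the cusp `∞`
  have hrne : (⟨r, hr⟩ : ↥(modularFunctionFieldFullC (kA A) N)) ≠ 0 := fun h =>
    hr0 (congrArg Subtype.val h)
  have h1 : (ℓ : ℤ) ∣ (iotaK (kA A) N ⟨r, hr⟩).order :=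
    hOrd (kA A) ℓ N hNk (iotaK (kA A) N) (iotaK_apply (kA A) N _) ⟨r, hr⟩ hrne hQ
  rw [iotaK_apply, Fermat.Agent.S28.order_qExpand] at h1
  have h2 : (ℓ : ℤ) ∣ r.order := by
    have hcop : IsCoprime (ℓ : ℤ) (N : ℤ) := by
      rw [Int.isCoprime_iff_gcd_eq_one]
      have : Nat.Coprime ℓ N := (Nat.Prime.coprime_iff_not_dvd hℓ).2 hℓN
      exact_mod_cast this
    exact hcop.dvd_of_dvd_mul_left h1
  have h3 : (r38dlog r).coeff 0 = 0 := by
    rw [r38hol_dlog_coeff_zero r hr0]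
    obtain ⟨c, hc⟩ := h2
    rw [hc, Int.cast_mul, Int.cast_natCast, CharP.cast_eq_zero, zero_mul]
  have hb0 : ∀ m : ℤ, m ≤ 0 → (r38dlog r).coeff m = 0 := by
    intro m hm
    rcases hm.lt_or_eq with h | h
    · exact r38hol_dlog_coeff_neg r m h
    · rw [h]; exact h3
  obtain ⟨f, z, hz, -, hmem⟩ := r38hold_dual N ℓ hℓ h5 hℓN A hA (r38dlog r) hb0
    (fun w hw => hRes N ℓ hℓ h5 hℓN A hA r hr0 ⟨hr, hQ⟩ w hw)
  refine Submodule.span_mono ?_ hmem
  rintro _ ⟨t, rfl⟩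
  exact ⟨f t, z t, hz t, rfl⟩

end Fermat.Agent.R38

end
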