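import Fermat.Agent.R38.HolPieces
import Fermat.Agent.R38.HolRes
import Fermat.Agent.R38.HolSpan

/-!
# Row 38, PKG-TRES, route HOL-dlog: assembly of `StmtHolSpanAll` (helper83)

`stmtHolSpanAll_of : StmtHolNIdeal → StmtHolDed → StmtHolB1All → StmtHolSpanAll`
(the other pieces DER, DER-τ, ORD, CUSP (helper55), RES-asm (helper32), DUAL (helper41),
SPAN-asm are discharged).
-/

set_option autoImplicit false

namespace Fermat.Agent.R38

/-- (RES) from the three remaining pieces -/
theorem stmtHolResAll_of (hN : StmtHolNIdeal) (hDed : StmtHolDed) (hB1 : StmtHolB1All) :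
    StmtHolResAll :=
  stmtHolResGlue hN stmtHolDer stmtHolDerTau stmtHolOrd stmtHolCusp hDed hB1

/-- **(HOL-SPAN)** from the three remaining pieces -/
theorem stmtHolSpanAll_of (hN : StmtHolNIdeal) (hDed : StmtHolDed) (hB1 : StmtHolB1All) :
    StmtHolSpanAll :=
  stmtHolSpanGlue stmtHolOrd (stmtHolResAll_of hN hDed hB1)

end Fermat.Agent.R38
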