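import Fermat.Agent.R38.TresDlogHecke
import Fermat.Agent.S49.QExp
import Fermat.Prelude.Def_CuspForm_HeckeEvalForms

/-!
# Row 38, PKG-TRES, route HOL-dlog (helper83), piece HOL-KILL (helper52)

The formal weight-2 Hecke operators `r38heckeT ℓ` on `k((q))` commute; `r38hkillEval k t` is the
formal evaluation of `t ∈ HeckeAlg = ℤ[X_ℓ]` at them (a `k`-linear endomorphism of `k((q))`).

* `r38hkillEval_X / _C / _add / _mul / _one / _zero` : the API of the evaluation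
  (`r38hkillEval k (X ℓ) b = r38heckeT ℓ b`, …).
* `R38HkillRed M k f b` : `b` is the reduction of the `q`-expansion of the cusp form `f`
  (which has integer coefficients).
* `r38hkill_red_eval` : `R38HkillRed f b`, `t` supported on the primes `ℓ ∤ M`  ⇒
  `R38HkillRed (t f) (r38hkillEval k t b)`  (**`(T f)‾ = T f̄`**).
* **`r38hkill_main`** : if `t` (supported on the primes `ℓ ∤ M`) acts as zero on `S₂(Γ₀(M))`
  (`CuspForm.heckeEvalForms M 2 t = 0`, i.e. `KillsForms M t`), then `r38hkillEval k t` kills the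
  reduction of every cusp form with integer `q`-expansion;
* **`r38hkill_span`** : … and every `k`-linear combination of such reductions.
-/

set_option autoImplicit false
set_option linter.unusedSectionVars false
set_option linter.style.haveILetI false

noncomputable section

namespace Fermat.Agent.R38

open HahnSeries ModularCurve Fermat.Agent.ES

/-! ## the formal Hecke operators as linear maps -/

section Formal

variable (k : Type*) [Field k]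

theorem r38hkill_heckeT_smul (ℓ : ℕ) [NeZero ℓ] (c : k) (b : LaurentSeries k) :
    r38heckeT ℓ (c • b) = c • r38heckeT ℓ b := by
  ext n
  by_cases hn : (ℓ : ℤ) ∣ n
  · obtain ⟨m, rfl⟩ := hn
    simp only [r38heckeT_coeff, HahnSeries.coeff_smul, qExpand_coeff_mul, smul_eq_mul]
    ring
  · simp only [r38heckeT_coeff, HahnSeries.coeff_smul, qExpand_coeff_of_not_dvd ℓ _ hn,
      smul_eq_mul]
    ring

/-- `r38heckeT ℓ` as a `k`-linear map -/
def r38hkillT (ℓ : ℕ) [NeZero ℓ] : Module.End k (LaurentSeries k) where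
  toFun := r38heckeT ℓ
  map_add' := r38heckeT_add ℓ
  map_smul' c b := r38hkill_heckeT_smul k ℓ c b

@[simp] theorem r38hkillT_apply (ℓ : ℕ) [NeZero ℓ] (b : LaurentSeries k) :
    r38hkillT k ℓ b = r38heckeT ℓ b := rfl

/-- the coefficients of `f(q^ℓ)` -/
theorem r38hkill_qExpand_coeff (ℓ : ℕ) [NeZero ℓ] (b : LaurentSeries k) (n : ℤ) :
    (qExpand k ℓ b).coeff n = if (ℓ : ℤ) ∣ n then b.coeff (n / ℓ) else 0 := by
  have hℓ : (ℓ : ℤ) ≠ 0 := by exact_mod_cast NeZero.ne ℓ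
  split_ifs with h
  · obtain ⟨m, rfl⟩ := h
    rw [qExpand_coeff_mul, Int.mul_ediv_cancel_left _ hℓ]
  · exact qExpand_coeff_of_not_dvd ℓ b h

/-- the coefficients of `T_ℓ b` -/
theorem r38hkill_heckeT_coeff (ℓ : ℕ) [NeZero ℓ] (b : LaurentSeries k) (n : ℤ) :
    (r38heckeT ℓ b).coeff n
      = b.coeff ((ℓ : ℤ) * n) + ((ℓ : ℕ) : k) * (if (ℓ : ℤ) ∣ n then b.coeff (n / ℓ) else 0) := by
  rw [r38heckeT_coeff, r38hkill_qExpand_coeff]

/-- `T_ℓ` at a multiple of `ℓ` -/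
theorem r38hkill_heckeT_coeff_mul (ℓ : ℕ) [NeZero ℓ] (b : LaurentSeries k) (m : ℤ) :
    (r38heckeT ℓ b).coeff ((ℓ : ℤ) * m)
      = b.coeff ((ℓ : ℤ) * ((ℓ : ℤ) * m)) + ((ℓ : ℕ) : k) * b.coeff m := by
  rw [r38heckeT_coeff, qExpand_coeff_mul]

/-- `T_ℓ` at a non-multiple of `ℓ` -/
theorem r38hkill_heckeT_coeff_not (ℓ : ℕ) [NeZero ℓ] (b : LaurentSeries k) {n : ℤ}
    (hn : ¬ (ℓ : ℤ) ∣ n) :
    (r38heckeT ℓ b).coeff n = b.coeff ((ℓ : ℤ) * n) := by
  rw [r38heckeT_coeff, qExpand_coeff_of_not_dvd ℓ b hn, mul_zero, add_zero]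

/-- two formal Hecke operators at distinct primes commute -/
theorem r38hkill_comm {ℓ ℓ' : ℕ} [NeZero ℓ] [NeZero ℓ'] (hℓ : ℓ.Prime) (hℓ' : ℓ'.Prime)
    (hne : ℓ ≠ ℓ') (b : LaurentSeries k) :
    r38heckeT ℓ (r38heckeT ℓ' b) = r38heckeT ℓ' (r38heckeT ℓ b) := by
  have hcop : IsCoprime (ℓ : ℤ) (ℓ' : ℤ) :=
    Nat.isCoprime_iff_coprime.mpr ((Nat.coprime_primes hℓ hℓ').mpr hne)
  -- divisibility facts
  have hd1 : ∀ n : ℤ, (ℓ' : ℤ) ∣ (ℓ : ℤ) * n → (ℓ' : ℤ) ∣ n := fun n h =>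
    hcop.symm.dvd_of_dvd_mul_left h
  have hd2 : ∀ n : ℤ, (ℓ : ℤ) ∣ (ℓ' : ℤ) * n → (ℓ : ℤ) ∣ n := fun n h =>
    hcop.dvd_of_dvd_mul_left h
  have hsw : ∀ x : ℤ, (ℓ : ℤ) * ((ℓ' : ℤ) * x) = (ℓ' : ℤ) * ((ℓ : ℤ) * x) := fun x => by ring
  ext n
  by_cases h1 : (ℓ : ℤ) ∣ n <;> by_cases h2 : (ℓ' : ℤ) ∣ n
  · obtain ⟨m₁, rfl⟩ := h1
    obtain ⟨m, rfl⟩ := hd1 _ h2
    -- `n = ℓ (ℓ' m)`
    have hL : (r38heckeT ℓ (r38heckeT ℓ' b)).coeff ((ℓ : ℤ) * ((ℓ' : ℤ) * m))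
        = b.coeff ((ℓ' : ℤ) * ((ℓ' : ℤ) * ((ℓ : ℤ) * ((ℓ : ℤ) * m))))
          + ((ℓ' : ℕ) : k) * b.coeff ((ℓ : ℤ) * ((ℓ : ℤ) * m))
          + ((ℓ : ℕ) : k) * (b.coeff ((ℓ' : ℤ) * ((ℓ' : ℤ) * m)) + ((ℓ' : ℕ) : k) * b.coeff m) := by
      rw [r38hkill_heckeT_coeff_mul, r38hkill_heckeT_coeff_mul,
        show (ℓ : ℤ) * ((ℓ : ℤ) * ((ℓ' : ℤ) * m)) = (ℓ' : ℤ) * ((ℓ : ℤ) * ((ℓ : ℤ) * m)) by ring,
        r38hkill_heckeT_coeff_mul]
    have hR : (r38heckeT ℓ' (r38heckeT ℓ b)).coeff ((ℓ' : ℤ) * ((ℓ : ℤ) * m))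
        = b.coeff ((ℓ : ℤ) * ((ℓ : ℤ) * ((ℓ' : ℤ) * ((ℓ' : ℤ) * m))))
          + ((ℓ : ℕ) : k) * b.coeff ((ℓ' : ℤ) * ((ℓ' : ℤ) * m))
          + ((ℓ' : ℕ) : k) * (b.coeff ((ℓ : ℤ) * ((ℓ : ℤ) * m)) + ((ℓ : ℕ) : k) * b.coeff m) := by
      rw [r38hkill_heckeT_coeff_mul, r38hkill_heckeT_coeff_mul,
        show (ℓ' : ℤ) * ((ℓ' : ℤ) * ((ℓ : ℤ) * m)) = (ℓ : ℤ) * ((ℓ' : ℤ) * ((ℓ' : ℤ) * m)) by ring,
        r38hkill_heckeT_coeff_mul]
    rw [hL, hsw, hR,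
      show (ℓ' : ℤ) * ((ℓ' : ℤ) * ((ℓ : ℤ) * ((ℓ : ℤ) * m)))
        = (ℓ : ℤ) * ((ℓ : ℤ) * ((ℓ' : ℤ) * ((ℓ' : ℤ) * m))) by ring]
    ring
  · obtain ⟨m, rfl⟩ := h1
    have h2' : ¬ (ℓ' : ℤ) ∣ m := fun h => h2 (Dvd.dvd.mul_left h _)
    have h2'' : ¬ (ℓ' : ℤ) ∣ (ℓ : ℤ) * ((ℓ : ℤ) * m) := fun h => h2 (hd1 _ h)
    have hL : (r38heckeT ℓ (r38heckeT ℓ' b)).coeff ((ℓ : ℤ) * m)
        = b.coeff ((ℓ' : ℤ) * ((ℓ : ℤ) * ((ℓ : ℤ) * m)))
          + ((ℓ : ℕ) : k) * b.coeff ((ℓ' : ℤ) * m) := by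
      rw [r38hkill_heckeT_coeff_mul, r38hkill_heckeT_coeff_not k ℓ' b h2'',
        r38hkill_heckeT_coeff_not k ℓ' b h2']
    have hR : (r38heckeT ℓ' (r38heckeT ℓ b)).coeff ((ℓ : ℤ) * m)
        = b.coeff ((ℓ : ℤ) * ((ℓ : ℤ) * ((ℓ' : ℤ) * m)))
          + ((ℓ : ℕ) : k) * b.coeff ((ℓ' : ℤ) * m) := by
      rw [r38hkill_heckeT_coeff_not k ℓ' _ h2, ← hsw, r38hkill_heckeT_coeff_mul]
    rw [hL, hR, show (ℓ' : ℤ) * ((ℓ : ℤ) * ((ℓ : ℤ) * m))
        = (ℓ : ℤ) * ((ℓ : ℤ) * ((ℓ' : ℤ) * m)) by ring]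
  · obtain ⟨m, rfl⟩ := h2
    have h1' : ¬ (ℓ : ℤ) ∣ m := fun h => h1 (Dvd.dvd.mul_left h _)
    have h1'' : ¬ (ℓ : ℤ) ∣ (ℓ' : ℤ) * ((ℓ' : ℤ) * m) := fun h => h1 (hd2 _ h)
    have hR : (r38heckeT ℓ' (r38heckeT ℓ b)).coeff ((ℓ' : ℤ) * m)
        = b.coeff ((ℓ : ℤ) * ((ℓ' : ℤ) * ((ℓ' : ℤ) * m)))
          + ((ℓ' : ℕ) : k) * b.coeff ((ℓ : ℤ) * m) := by
      rw [r38hkill_heckeT_coeff_mul, r38hkill_heckeT_coeff_not k ℓ b h1'',
        r38hkill_heckeT_coeff_not k ℓ b h1']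
    have hL : (r38heckeT ℓ (r38heckeT ℓ' b)).coeff ((ℓ' : ℤ) * m)
        = b.coeff ((ℓ' : ℤ) * ((ℓ' : ℤ) * ((ℓ : ℤ) * m)))
          + ((ℓ' : ℕ) : k) * b.coeff ((ℓ : ℤ) * m) := by
      rw [r38hkill_heckeT_coeff_not k ℓ _ h1, hsw, r38hkill_heckeT_coeff_mul]
    rw [hL, hR, show (ℓ' : ℤ) * ((ℓ' : ℤ) * ((ℓ : ℤ) * m))
        = (ℓ : ℤ) * ((ℓ' : ℤ) * ((ℓ' : ℤ) * m)) by ring]
  · have h1' : ¬ (ℓ : ℤ) ∣ (ℓ' : ℤ) * n := fun h => h1 (hd2 _ h)
    have h2' : ¬ (ℓ' : ℤ) ∣ (ℓ : ℤ) * n := fun h => h2 (hd1 _ h)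
    rw [r38hkill_heckeT_coeff_not k ℓ _ h1, r38hkill_heckeT_coeff_not k ℓ' _ h2',
      r38hkill_heckeT_coeff_not k ℓ' _ h2, r38hkill_heckeT_coeff_not k ℓ _ h1', hsw]

/-- the formal Hecke operator at the prime `ℓ` -/
def r38hkillGen (ℓ : Nat.Primes) : Module.End k (LaurentSeries k) :=
  haveI : NeZero (ℓ : ℕ) := ⟨ℓ.2.ne_zero⟩
  r38hkillT k ℓ

theorem r38hkillGen_apply (ℓ : Nat.Primes) (b : LaurentSeries k) :
    r38hkillGen k ℓ b = (haveI : NeZero (ℓ : ℕ) := ⟨ℓ.2.ne_zero⟩; r38heckeT (ℓ : ℕ) b) := rfl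

theorem r38hkillGen_commute (ℓ ℓ' : Nat.Primes) :
    Commute (r38hkillGen k ℓ) (r38hkillGen k ℓ') := by
  by_cases h : ℓ = ℓ'
  · subst h
    exact Commute.refl _
  · haveI : NeZero (ℓ : ℕ) := ⟨ℓ.2.ne_zero⟩
    haveI : NeZero (ℓ' : ℕ) := ⟨ℓ'.2.ne_zero⟩
    have hne : (ℓ : ℕ) ≠ (ℓ' : ℕ) := fun e => h (Subtype.ext e)
    apply LinearMap.ext
    intro b
    exact r38hkill_comm k ℓ.2 ℓ'.2 hne b

/-- the commutative algebra of the formal Hecke operators -/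
def r38hkillAlg : Subalgebra ℤ (Module.End k (LaurentSeries k)) :=
  Algebra.adjoin ℤ (Set.range (r38hkillGen k))

instance r38hkillAlg.instIsMulCommutative : IsMulCommutative (r38hkillAlg k) :=
  Algebra.isMulCommutative_adjoin ℤ (by
    rintro _ ⟨ℓ, rfl⟩ _ ⟨ℓ', rfl⟩
    exact r38hkillGen_commute k ℓ ℓ')

open scoped IsMulCommutative in
instance r38hkillAlg.instCommRing : CommRing (r38hkillAlg k) := inferInstance

/-- the generator in the algebra -/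
def r38hkillGenA (ℓ : Nat.Primes) : r38hkillAlg k :=
  ⟨r38hkillGen k ℓ, Algebra.subset_adjoin ⟨ℓ, rfl⟩⟩

/-- **the formal evaluation** of a Hecke polynomial on `k((q))` -/
def r38hkillEval (t : HeckeAlg) : Module.End k (LaurentSeries k) :=
  (MvPolynomial.aeval (r38hkillGenA k) t : r38hkillAlg k).1

/-! ## API of the evaluation -/

theorem r38hkillEval_X (ℓ : Nat.Primes) :
    r38hkillEval k (MvPolynomial.X ℓ) = r38hkillGen k ℓ := by
  unfold r38hkillEval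
  rw [MvPolynomial.aeval_X]
  rfl

theorem r38hkillEval_X_apply (ℓ : Nat.Primes) (b : LaurentSeries k) :
    r38hkillEval k (MvPolynomial.X ℓ) b =
      (haveI : NeZero (ℓ : ℕ) := ⟨ℓ.2.ne_zero⟩; r38heckeT (ℓ : ℕ) b) := by
  rw [r38hkillEval_X]
  rfl

theorem r38hkillEval_heckeGen_apply (ℓ : Nat.Primes) (b : LaurentSeries k) :
    r38hkillEval k (heckeGen ℓ) b =
      (haveI : NeZero (ℓ : ℕ) := ⟨ℓ.2.ne_zero⟩; r38heckeT (ℓ : ℕ) b) :=
  r38hkillEval_X_apply k ℓ b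

theorem r38hkillEval_add (s t : HeckeAlg) :
    r38hkillEval k (s + t) = r38hkillEval k s + r38hkillEval k t := by
  unfold r38hkillEval
  rw [map_add]
  rfl

theorem r38hkillEval_add_apply (s t : HeckeAlg) (b : LaurentSeries k) :
    r38hkillEval k (s + t) b = r38hkillEval k s b + r38hkillEval k t b := by
  rw [r38hkillEval_add]
  rfl

theorem r38hkillEval_mul (s t : HeckeAlg) :
    r38hkillEval k (s * t) = r38hkillEval k s * r38hkillEval k t := by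
  unfold r38hkillEval
  rw [map_mul]
  rfl

theorem r38hkillEval_mul_apply (s t : HeckeAlg) (b : LaurentSeries k) :
    r38hkillEval k (s * t) b = r38hkillEval k s (r38hkillEval k t b) := by
  rw [r38hkillEval_mul]
  rfl

theorem r38hkillEval_zero : r38hkillEval k 0 = 0 := by
  unfold r38hkillEval
  rw [map_zero]
  rfl

theorem r38hkillEval_one : r38hkillEval k 1 = 1 := by
  unfold r38hkillEval
  rw [map_one]
  rfl

theorem r38hkillEval_C (a : ℤ) :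
    r38hkillEval k (MvPolynomial.C a) = a • (1 : Module.End k (LaurentSeries k)) := by
  unfold r38hkillEval
  rw [MvPolynomial.aeval_C, Algebra.algebraMap_eq_smul_one]
  rfl

theorem r38hkillEval_C_apply (a : ℤ) (b : LaurentSeries k) :
    r38hkillEval k (MvPolynomial.C a) b = ((a : ℤ) : k) • b := by
  rw [r38hkillEval_C, LinearMap.smul_apply, Module.End.one_apply, Int.cast_smul_eq_zsmul]

theorem r38hkillEval_neg (t : HeckeAlg) : r38hkillEval k (-t) = -r38hkillEval k t := by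
  unfold r38hkillEval
  rw [map_neg]
  rfl

theorem r38hkillEval_sub (s t : HeckeAlg) :
    r38hkillEval k (s - t) = r38hkillEval k s - r38hkillEval k t := by
  unfold r38hkillEval
  rw [map_sub]
  rfl

theorem r38hkillEval_zsmul (a : ℤ) (t : HeckeAlg) :
    r38hkillEval k (a • t) = a • r38hkillEval k t := by
  unfold r38hkillEval
  rw [map_zsmul]
  rfl

/-- the evaluation of a polynomial in renamed variables -/
theorem r38hkillEval_rename {σ : Type*} (g : σ → Nat.Primes) (t : MvPolynomial σ ℤ) :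
    r38hkillEval k (MvPolynomial.rename g t) =
      (MvPolynomial.aeval (fun i => r38hkillGenA k (g i)) t : r38hkillAlg k).1 := by
  unfold r38hkillEval
  rw [MvPolynomial.aeval_rename]
  rfl

end Formal

/-! ## reductions of cusp forms with integer `q`-expansion -/

section Red

open ModularFormClass CongruenceSubgroup Fermat.Agent.S49

variable (M : ℕ) (k : Type*) [Field k]

/-- the series `∑ z_n q^n` over `ℤ` (it is `ES.I2.fqZ z`) -/
abbrev r38hkillZ (z : ℕ → ℤ) : LaurentSeries ℤ :=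
  HahnSeries.ofPowerSeries ℤ ℤ (PowerSeries.mk z)

theorem r38hkillZ_coeff_natCast (z : ℕ → ℤ) (n : ℕ) : (r38hkillZ z).coeff (n : ℤ) = z n := by
  rw [r38hkillZ, HahnSeries.ofPowerSeries_apply_coeff, PowerSeries.coeff_mk]

theorem r38hkillZ_coeff_neg (z : ℕ → ℤ) (m : ℤ) (hm : m < 0) : (r38hkillZ z).coeff m = 0 := by
  rw [r38hkillZ, HahnSeries.ofPowerSeries_apply]
  rw [HahnSeries.embDomain_of_notMem_range]
  rintro ⟨n, hn⟩
  have h1 : ((n : ℕ) : ℤ) = m := hn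
  omega

/-- the reduction of `∑ z_n q^n` to `k` -/
def r38hkillZk (z : ℕ → ℤ) : LaurentSeries k :=
  coeffMap (Int.castRingHom k) (r38hkillZ z)

theorem r38hkillZk_coeff_natCast (z : ℕ → ℤ) (n : ℕ) :
    (r38hkillZk k z).coeff (n : ℤ) = ((z n : ℤ) : k) := by
  rw [r38hkillZk, coeffMap_coeff, r38hkillZ_coeff_natCast]
  rfl

theorem r38hkillZk_coeff_neg (z : ℕ → ℤ) (m : ℤ) (hm : m < 0) :
    (r38hkillZk k z).coeff m = 0 := by
  rw [r38hkillZk, coeffMap_coeff, r38hkillZ_coeff_neg z m hm, map_zero]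

theorem r38hkillZk_ext {z z' : ℕ → ℤ} (h : ∀ n, ((z n : ℤ) : k) = ((z' n : ℤ) : k)) :
    r38hkillZk k z = r38hkillZk k z' := by
  ext m
  rcases lt_or_ge m 0 with hm | hm
  · rw [r38hkillZk_coeff_neg k z m hm, r38hkillZk_coeff_neg k z' m hm]
  · obtain ⟨n, rfl⟩ := Int.eq_ofNat_of_zero_le hm
    rw [r38hkillZk_coeff_natCast, r38hkillZk_coeff_natCast, h n]

theorem r38hkillZk_zero : r38hkillZk k (fun _ => 0) = 0 := by
  ext m
  rcases lt_or_ge m 0 with hm | hm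
  · rw [r38hkillZk_coeff_neg k _ m hm, HahnSeries.coeff_zero]
  · obtain ⟨n, rfl⟩ := Int.eq_ofNat_of_zero_le hm
    rw [r38hkillZk_coeff_natCast, HahnSeries.coeff_zero, Int.cast_zero]

theorem r38hkillZk_add (z z' : ℕ → ℤ) :
    r38hkillZk k (fun n => z n + z' n) = r38hkillZk k z + r38hkillZk k z' := by
  ext m
  rcases lt_or_ge m 0 with hm | hm
  · rw [HahnSeries.coeff_add, r38hkillZk_coeff_neg k _ m hm, r38hkillZk_coeff_neg k _ m hm,
      r38hkillZk_coeff_neg k _ m hm, add_zero]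
  · obtain ⟨n, rfl⟩ := Int.eq_ofNat_of_zero_le hm
    rw [HahnSeries.coeff_add, r38hkillZk_coeff_natCast, r38hkillZk_coeff_natCast,
      r38hkillZk_coeff_natCast, Int.cast_add]

theorem r38hkillZk_smul (a : ℤ) (z : ℕ → ℤ) :
    r38hkillZk k (fun n => a * z n) = ((a : ℤ) : k) • r38hkillZk k z := by
  ext m
  rcases lt_or_ge m 0 with hm | hm
  · rw [HahnSeries.coeff_smul, r38hkillZk_coeff_neg k _ m hm, r38hkillZk_coeff_neg k _ m hm,
      smul_zero]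
  · obtain ⟨n, rfl⟩ := Int.eq_ofNat_of_zero_le hm
    rw [HahnSeries.coeff_smul, r38hkillZk_coeff_natCast, r38hkillZk_coeff_natCast,
      Int.cast_mul, smul_eq_mul]

/-- the formal Hecke operator on the reduction of an integer series -/
theorem r38hkillZk_heckeT (ℓ : ℕ) [NeZero ℓ] (z : ℕ → ℤ) :
    r38heckeT ℓ (r38hkillZk k z) =
      r38hkillZk k (fun n => z (n * ℓ) + if ℓ ∣ n then (ℓ : ℤ) * z (n / ℓ) else 0) := by
  have hℓ : (0 : ℤ) < (ℓ : ℤ) := by exact_mod_cast Nat.pos_of_ne_zero (NeZero.ne ℓ)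
  ext m
  rcases lt_or_ge m 0 with hm | hm
  · rw [r38hkillZk_coeff_neg k _ m hm]
    by_cases hd : (ℓ : ℤ) ∣ m
    · obtain ⟨m', rfl⟩ := hd
      have hm' : m' < 0 := by
        by_contra h
        have := mul_nonneg hℓ.le (not_lt.mp h)
        omega
      rw [r38hkill_heckeT_coeff_mul, r38hkillZk_coeff_neg k _ _ hm', mul_zero, add_zero,
        r38hkillZk_coeff_neg k _ _ (mul_neg_of_pos_of_neg hℓ hm)]
    · rw [r38hkill_heckeT_coeff_not k ℓ _ hd,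
        r38hkillZk_coeff_neg k _ _ (mul_neg_of_pos_of_neg hℓ hm)]
  · obtain ⟨n, rfl⟩ := Int.eq_ofNat_of_zero_le hm
    rw [r38hkillZk_coeff_natCast]
    by_cases hd : ℓ ∣ n
    · obtain ⟨n', rfl⟩ := hd
      rw [if_pos (dvd_mul_right _ _), Nat.mul_div_cancel_left _ (Nat.pos_of_ne_zero (NeZero.ne ℓ))]
      have e1 : ((ℓ * n' : ℕ) : ℤ) = (ℓ : ℤ) * (n' : ℤ) := by push_cast; ring
      have e2 : (ℓ : ℤ) * ((ℓ : ℤ) * (n' : ℤ)) = ((ℓ * n' * ℓ : ℕ) : ℤ) := by push_cast; ring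
      rw [e1, r38hkill_heckeT_coeff_mul, e2, r38hkillZk_coeff_natCast, r38hkillZk_coeff_natCast]
      push_cast
      ring
    · have hd' : ¬ (ℓ : ℤ) ∣ (n : ℤ) := fun h => hd (Int.natCast_dvd_natCast.mp h)
      have e2 : (ℓ : ℤ) * (n : ℤ) = ((n * ℓ : ℕ) : ℤ) := by push_cast; ring
      rw [if_neg hd, r38hkill_heckeT_coeff_not k ℓ _ hd', e2, r38hkillZk_coeff_natCast, add_zero]

/-- **`b` is the reduction of the `q`-expansion of `f`**: `f` has integer `q`-expansion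
`∑ z_n q^n` and `b = ∑ z̄_n q^n`. -/
def R38HkillRed (f : CuspForm (Gamma0 M) 2) (b : LaurentSeries k) : Prop :=
  ∃ z : ℕ → ℤ, (∀ n, qCoeff f n = (z n : ℂ)) ∧ b = r38hkillZk k z

variable {M k}

theorem R38HkillRed.unique {f : CuspForm (Gamma0 M) 2} {b b' : LaurentSeries k}
    (h : R38HkillRed M k f b) (h' : R38HkillRed M k f b') : b = b' := by
  obtain ⟨z, hz, rfl⟩ := h
  obtain ⟨z', hz', rfl⟩ := h'
  refine r38hkillZk_ext k fun n => ?_
  have : z n = z' n := by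
    have := (hz n).symm.trans (hz' n)
    exact_mod_cast this
  rw [this]

theorem r38hkillRed_zero : R38HkillRed M k (0 : CuspForm (Gamma0 M) 2) 0 :=
  ⟨fun _ => 0, fun n => by
    have := (qCoeffLin M 2 n).map_zero
    rw [qCoeffLin_apply] at this
    rw [this, Int.cast_zero], (r38hkillZk_zero k).symm⟩

theorem R38HkillRed.add {f f' : CuspForm (Gamma0 M) 2} {b b' : LaurentSeries k}
    (h : R38HkillRed M k f b) (h' : R38HkillRed M k f' b') : R38HkillRed M k (f + f') (b + b') := by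
  obtain ⟨z, hz, rfl⟩ := h
  obtain ⟨z', hz', rfl⟩ := h'
  refine ⟨fun n => z n + z' n, fun n => ?_, (r38hkillZk_add k z z').symm⟩
  rw [qCoeff_add, hz, hz']
  push_cast
  rfl

theorem R38HkillRed.zsmul {f : CuspForm (Gamma0 M) 2} {b : LaurentSeries k}
    (h : R38HkillRed M k f b) (a : ℤ) : R38HkillRed M k (a • f) (((a : ℤ) : k) • b) := by
  obtain ⟨z, hz, rfl⟩ := h
  refine ⟨fun n => a * z n, fun n => ?_, (r38hkillZk_smul k a z).symm⟩
  have : a • f = (a : ℂ) • f := by rw [Int.cast_smul_eq_zsmul]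
  rw [this, qCoeff_smul, hz]
  push_cast
  rfl

/-- **`(T_ℓ f)‾ = T_ℓ f̄`** for `ℓ ∤ M` -/
theorem R38HkillRed.heckeT {f : CuspForm (Gamma0 M) 2} {b : LaurentSeries k}
    (h : R38HkillRed M k f b) {ℓ : ℕ} [NeZero ℓ] (hℓ : ℓ.Prime) (hℓM : ¬ ℓ ∣ M) :
    R38HkillRed M k (CuspForm.heckeTLin 2 hℓ hℓM f) (r38heckeT ℓ b) := by
  obtain ⟨z, hz, rfl⟩ := h
  refine ⟨fun n => z (n * ℓ) + if ℓ ∣ n then (ℓ : ℤ) * z (n / ℓ) else 0, fun n => ?_,
    r38hkillZk_heckeT k ℓ z⟩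
  rw [qCoeff_heckeTLin, hz, hz]
  show _ = (((z (n * ℓ) + if ℓ ∣ n then (ℓ : ℤ) * z (n / ℓ) else 0 : ℤ)) : ℂ)
  by_cases hd : ℓ ∣ n
  · rw [if_pos hd, if_pos hd]
    push_cast
    norm_num
  · rw [if_neg hd, if_neg hd]
    push_cast
    rfl

end Red

/-! ## the main theorem -/

section Main

open ModularFormClass CongruenceSubgroup Fermat.Agent.S49

variable {M : ℕ} [NeZero M] {k : Type*} [Field k]

/-- the primes not dividing `M` -/
def r38hkillGood (M : ℕ) : Set Nat.Primes := {ℓ | ¬ (ℓ : ℕ) ∣ M}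

theorem r38hkill_red_eval_aux (t' : MvPolynomial (↥(r38hkillGood M)) ℤ) :
    ∀ (f : CuspForm (Gamma0 M) 2) (b : LaurentSeries k), R38HkillRed M k f b →
      R38HkillRed M k ((CuspForm.heckeEvalForms M 2 (MvPolynomial.rename Subtype.val t')).1 f)
        (r38hkillEval k (MvPolynomial.rename Subtype.val t') b) := by
  induction t' using MvPolynomial.induction_on with
  | C a =>
    intro f b h
    rw [MvPolynomial.rename_C, r38hkillEval_C_apply, CuspForm.heckeEvalForms_C]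
    have e : ((algebraMap ℤ (CuspForm.heckeAlgebra M 2 ∅) a).1) f = a • f := by
      rw [Algebra.algebraMap_eq_smul_one]
      rfl
    rw [e]
    exact h.zsmul a
  | add p q hp hq =>
    intro f b h
    rw [map_add, map_add, r38hkillEval_add_apply]
    exact (hp f b h).add (hq f b h)
  | mul_X p i hp =>
    intro f b h
    haveI : NeZero ((i : Nat.Primes) : ℕ) := ⟨(i : Nat.Primes).2.ne_zero⟩
    have hi : ¬ ((i : Nat.Primes) : ℕ) ∣ M := i.2
    rw [map_mul, MvPolynomial.rename_X, map_mul, r38hkillEval_mul_apply, r38hkillEval_X_apply]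
    have e : ((CuspForm.heckeEvalForms M 2 (MvPolynomial.rename Subtype.val p) *
        CuspForm.heckeEvalForms M 2 (MvPolynomial.X (i : Nat.Primes))).1) f =
        (CuspForm.heckeEvalForms M 2 (MvPolynomial.rename Subtype.val p)).1
          (CuspForm.heckeTLin 2 (i : Nat.Primes).2 hi f) := by
      have e1 : CuspForm.heckeEvalForms M 2 (MvPolynomial.X (i : Nat.Primes)) =
          CuspForm.heckeAlgebra.T (i : Nat.Primes).2 hi (Set.notMem_empty _) :=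
        CuspForm.heckeEvalForms_heckeGen_of_not_dvd hi
      rw [e1]
      rfl
    rw [e]
    exact hp _ _ (h.heckeT (i : Nat.Primes).2 hi)

/-- **`(t f)‾ = t f̄`**: the reduction commutes with every Hecke polynomial in the `T_ℓ`,
`ℓ ∤ M`. -/
theorem r38hkill_red_eval (s : Set Nat.Primes) (hs : ∀ ℓ ∈ s, ¬ (ℓ : ℕ) ∣ M) (t : HeckeAlg)
    (ht : t ∈ MvPolynomial.supported ℤ s) (f : CuspForm (Gamma0 M) 2) (b : LaurentSeries k)
    (h : R38HkillRed M k f b) :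
    R38HkillRed M k ((CuspForm.heckeEvalForms M 2 t).1 f) (r38hkillEval k t b) := by
  have ht' : t ∈ MvPolynomial.supported ℤ (r38hkillGood M) :=
    MvPolynomial.supported_mono (fun ℓ hℓ => hs ℓ hℓ) ht
  rw [MvPolynomial.supported_eq_range_rename] at ht'
  obtain ⟨t', rfl⟩ := ht'
  exact r38hkill_red_eval_aux t' f b h

/-- **HOL-KILL.**  If the Hecke polynomial `t` in the `T_ℓ`, `ℓ ∤ M`, acts as zero on
`S₂(Γ₀(M))`, the formal operator `r38hkillEval k t` kills the reduction of every cusp form with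
integer `q`-expansion. -/
theorem r38hkill_main (s : Set Nat.Primes) (hs : ∀ ℓ ∈ s, ¬ (ℓ : ℕ) ∣ M) (t : HeckeAlg)
    (ht : t ∈ MvPolynomial.supported ℤ s) (hkill : CuspForm.heckeEvalForms M 2 t = 0)
    (f : CuspForm (Gamma0 M) 2) (b : LaurentSeries k) (h : R38HkillRed M k f b) :
    r38hkillEval k t b = 0 := by
  have h1 := r38hkill_red_eval s hs t ht f b h
  rw [hkill] at h1
  have e : ((0 : CuspForm.heckeAlgebra M 2 ∅).1) f = 0 := rfl
  rw [e] at h1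
  exact h1.unique r38hkillRed_zero

/-- the same in the shape of the output of HOL-DUAL: `z i` the integer `q`-expansions of cusp
forms `f i` -/
theorem r38hkill_series (s : Set Nat.Primes) (hs : ∀ ℓ ∈ s, ¬ (ℓ : ℕ) ∣ M) (t : HeckeAlg)
    (ht : t ∈ MvPolynomial.supported ℤ s) (hkill : CuspForm.heckeEvalForms M 2 t = 0)
    (f : CuspForm (Gamma0 M) 2) (z : ℕ → ℤ) (hz : ∀ n, qCoeff f n = (z n : ℂ)) :
    r38hkillEval k t (coeffMap (Int.castRingHom k)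
      (HahnSeries.ofPowerSeries ℤ ℤ (PowerSeries.mk z))) = 0 :=
  r38hkill_main s hs t ht hkill f _ ⟨z, hz, rfl⟩

/-- **HOL-KILL on the span** `S̄`: `t` kills every `k`-linear combination of reductions of
cusp forms with integer `q`-expansion. -/
theorem r38hkill_span (s : Set Nat.Primes) (hs : ∀ ℓ ∈ s, ¬ (ℓ : ℕ) ∣ M) (t : HeckeAlg)
    (ht : t ∈ MvPolynomial.supported ℤ s) (hkill : CuspForm.heckeEvalForms M 2 t = 0)
    {ι : Type*} (S : Finset ι) (f : ι → CuspForm (Gamma0 M) 2) (z : ι → ℕ → ℤ) (c : ι → k)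
    (hz : ∀ i n, qCoeff (f i) n = (z i n : ℂ)) :
    r38hkillEval k t (∑ i ∈ S, c i • coeffMap (Int.castRingHom k)
      (HahnSeries.ofPowerSeries ℤ ℤ (PowerSeries.mk (z i)))) = 0 := by
  rw [map_sum]
  refine Finset.sum_eq_zero fun i _ => ?_
  rw [map_smul, r38hkill_series s hs t ht hkill (f i) (z i) (hz i), smul_zero]

/-- the same for a `Fintype` sum (the shape of `r38hold_dual`) -/
theorem r38hkill_span_univ (s : Set Nat.Primes) (hs : ∀ ℓ ∈ s, ¬ (ℓ : ℕ) ∣ M) (t : HeckeAlg)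
    (ht : t ∈ MvPolynomial.supported ℤ s) (hkill : CuspForm.heckeEvalForms M 2 t = 0)
    {ι : Type*} [Fintype ι] (f : ι → CuspForm (Gamma0 M) 2) (z : ι → ℕ → ℤ) (c : ι → k)
    (hz : ∀ i n, qCoeff (f i) n = (z i n : ℂ)) :
    r38hkillEval k t (∑ i, c i • coeffMap (Int.castRingHom k)
      (HahnSeries.ofPowerSeries ℤ ℤ (PowerSeries.mk (z i)))) = 0 :=
  r38hkill_span s hs t ht hkill Finset.univ f z c hz

/-- **eigen form of HOL-KILL**: if moreover `r38hkillEval k t b = n₀ • b` with `n₀ ≠ 0` in `k`,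
then `b = 0`. -/
theorem r38hkill_eq_zero_of_eigen {t : HeckeAlg} {b : LaurentSeries k}
    (h0 : r38hkillEval k t b = 0) (n₀ : ℤ) (hn : ((n₀ : ℤ) : k) ≠ 0)
    (he : r38hkillEval k t b = ((n₀ : ℤ) : k) • b) : b = 0 := by
  rw [h0] at he
  exact (smul_eq_zero.mp he.symm).resolve_left hn

end Main

end Fermat.Agent.R38

end
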