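import Fermat.Agent.R38.PlanHol
import Fermat.Agent.R38.HolKill

/-!
# Row 38, PKG-TRES, route HOL-dlog, piece HOL-KILL — the Props of `R38/PlanHol.lean` (helper52)

* `stmtHolComm : StmtHolComm` — the formal Hecke operators `r38holOp k ℓ` commute, so the module
  structure `r38holModule k` is the genuine one (`r38hol_smul_def`);
* `r38hol_eval_eq` — `tfEval h t b = r38hkillEval k t b` (the two formal evaluations agree);
* `stmtHolKill : StmtHolKill` — a good Hecke polynomial killing `S₂(Γ₀(N))` kills `S̄ = holSpan`.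
* API for the glue (T2 induction): `r38hol_smul_def`, `r38hol_heckeGen_smul`, `r38hol_C_smul`,
  `r38hol_add_smul`, `r38hol_mul_smul`, `r38hol_smul_add`, `r38hol_smul_zero`,
  `r38hol_smul_ksmul` (`k`-linearity), `r38hol_smul_eq_zero_of_eigen`.
-/

set_option autoImplicit false
set_option linter.unusedSectionVars false
set_option linter.style.haveILetI false

noncomputable section

namespace Fermat.Agent.R38

open HahnSeries ModularCurve Fermat.Agent.ES Fermat.Agent.ES.I2

section

variable (k : Type) [Field k]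

/-- **(COMM)** the formal Hecke operators commute -/
theorem r38hol_tfComm : TfComm (r38holOp k) := by
  intro ℓ ℓ'
  by_cases h : ℓ = ℓ'
  · subst h
    rfl
  · haveI : NeZero (ℓ : ℕ) := ⟨ℓ.2.ne_zero⟩
    haveI : NeZero (ℓ' : ℕ) := ⟨ℓ'.2.ne_zero⟩
    have hne : (ℓ : ℕ) ≠ (ℓ' : ℕ) := fun e => h (Subtype.ext e)
    apply LinearMap.ext
    intro b
    exact r38hkill_comm k ℓ.2 ℓ'.2 hne b

theorem stmtHolComm : StmtHolComm := fun k _ => r38hol_tfComm k

/-- the module structure `r38holModule` is the evaluation at the formal Hecke operators -/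
theorem r38hol_smul_def (t : HeckeAlg) (b : LaurentSeries k) :
    (letI := r38holModule k; t • b) = tfEval (r38hol_tfComm k) t b :=
  tfModule_smul_def (r38hol_tfComm k) t b

/-- the two formal evaluations agree -/
theorem r38hol_eval_eq (t : HeckeAlg) (b : LaurentSeries k) :
    tfEval (r38hol_tfComm k) t b = r38hkillEval k t b := by
  induction t using MvPolynomial.induction_on generalizing b with
  | C a =>
    rw [tfEval_C, Module.End.intCast_apply, r38hkillEval_C_apply, Int.cast_smul_eq_zsmul]
  | add s t hs ht =>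
    rw [map_add, LinearMap.add_apply, hs, ht, r38hkillEval_add_apply]
  | mul_X s ℓ hs =>
    rw [map_mul, Module.End.mul_apply, tfEval_X, hs, r38hkillEval_mul_apply,
      r38hkillEval_X_apply]
    rfl

theorem r38hol_smul_eq (t : HeckeAlg) (b : LaurentSeries k) :
    (letI := r38holModule k; t • b) = r38hkillEval k t b := by
  rw [r38hol_smul_def, r38hol_eval_eq]

/-! ### API of the formal module structure -/

theorem r38hol_heckeGen_smul (ℓ : Nat.Primes) (b : LaurentSeries k) :
    (letI := r38holModule k; heckeGen ℓ • b) =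
      (haveI : NeZero (ℓ : ℕ) := ⟨ℓ.2.ne_zero⟩; r38heckeT (ℓ : ℕ) b) := by
  rw [r38hol_smul_eq]
  exact r38hkillEval_heckeGen_apply k ℓ b

theorem r38hol_X_smul (ℓ : Nat.Primes) (b : LaurentSeries k) :
    (letI := r38holModule k; (MvPolynomial.X ℓ : HeckeAlg) • b) =
      (haveI : NeZero (ℓ : ℕ) := ⟨ℓ.2.ne_zero⟩; r38heckeT (ℓ : ℕ) b) :=
  r38hol_heckeGen_smul k ℓ b

theorem r38hol_C_smul (a : ℤ) (b : LaurentSeries k) :
    (letI := r38holModule k; (MvPolynomial.C a : HeckeAlg) • b) = ((a : ℤ) : k) • b := by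
  rw [r38hol_smul_eq, r38hkillEval_C_apply]

theorem r38hol_add_smul (s t : HeckeAlg) (b : LaurentSeries k) :
    (letI := r38holModule k; (s + t) • b) =
      (letI := r38holModule k; s • b) + (letI := r38holModule k; t • b) := by
  rw [r38hol_smul_eq, r38hol_smul_eq, r38hol_smul_eq, r38hkillEval_add_apply]

theorem r38hol_mul_smul (s t : HeckeAlg) (b : LaurentSeries k) :
    (letI := r38holModule k; (s * t) • b) =
      (letI := r38holModule k; s • (letI := r38holModule k; t • b)) := by
  rw [r38hol_smul_eq, r38hol_smul_eq, r38hol_smul_eq, r38hkillEval_mul_apply]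

theorem r38hol_smul_add (t : HeckeAlg) (b c : LaurentSeries k) :
    (letI := r38holModule k; t • (b + c)) =
      (letI := r38holModule k; t • b) + (letI := r38holModule k; t • c) := by
  rw [r38hol_smul_eq, r38hol_smul_eq, r38hol_smul_eq, map_add]

theorem r38hol_smul_zero (t : HeckeAlg) :
    (letI := r38holModule k; t • (0 : LaurentSeries k)) = 0 := by
  rw [r38hol_smul_eq, map_zero]

/-- the formal Hecke action is `k`-linear -/
theorem r38hol_smul_ksmul (t : HeckeAlg) (c : k) (b : LaurentSeries k) :
    (letI := r38holModule k; t • (c • b)) = c • (letI := r38holModule k; t • b) := by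
  rw [r38hol_smul_eq, r38hol_smul_eq, map_smul]

/-- **eigen form**: `t • b = 0` and `t • b = n₀ b`, `n₀ ≠ 0` in `k`  ⇒  `b = 0` -/
theorem r38hol_smul_eq_zero_of_eigen {t : HeckeAlg} {b : LaurentSeries k}
    (h0 : (letI := r38holModule k; t • b) = 0) (n₀ : ℤ) (hn : ((n₀ : ℤ) : k) ≠ 0)
    (he : (letI := r38holModule k; t • b) = ((n₀ : ℤ) : k) • b) : b = 0 := by
  rw [h0] at he
  exact (smul_eq_zero.mp he.symm).resolve_left hn

end

/-- **(KILL)** a Hecke polynomial in the `T_ℓ`, `ℓ ∤ N`, which acts as zero on `S₂(Γ₀(N))`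
kills the span `S̄` of the reduced cusp forms. -/
theorem stmtHolKill : StmtHolKill := by
  intro N _ k _ S hS t ht hkill s hs
  rw [r38hol_smul_eq]
  have hkill' : CuspForm.heckeEvalForms N 2 t = 0 := hkill
  refine Submodule.span_induction (p := fun s _ => r38hkillEval k t s = 0) ?_ ?_ ?_ ?_ hs
  · rintro x ⟨f, z, hz, rfl⟩
    exact r38hkill_series S hS t ht hkill' f z hz
  · exact map_zero _
  · intro x y _ _ hx hy
    rw [map_add, hx, hy, add_zero]
  · intro c x _ hx
    rw [map_smul, hx, smul_zero]

end Fermat.Agent.R38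

end
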