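import Fermat.Agent.R38.PlanHol
import Fermat.Agent.R38.HolCusp

/-!
# Row 38, PKG-TRES, route HOL-dlog: the pieces DER, DER-τ, ORD, CUSP in the interface shapes

Wrappers (helper83) of helper55's `R38/HolDerFull.lean`, `R38/HolCusp.lean`:
`stmtHolDer : StmtHolDer`, `stmtHolDerTau : StmtHolDerTau`, `stmtHolOrd : StmtHolOrd`,
`stmtHolCusp : StmtHolCusp` (Props of `R38/PlanHol.lean`).
-/

set_option autoImplicit false
set_option linter.style.haveILetI false

noncomputable section

namespace Fermat.Agent.R38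

open ModularCurve AlgebraicCurve HahnSeries Fermat.Agent.ES Fermat.Agent.S24 Fermat.Agent.ES.M
open Fermat.Agent.ES.I2 Fermat.Agent.S28.Deriv

/-- **(DER)** -/
theorem stmtHolDer : StmtHolDer := by
  intro k _ ℓ _ _ _ N _ _ f hf
  obtain ⟨g, hg, -⟩ := r38hder_full_exists k N ℓ
    (modularFunctionFieldFullC k N).val.toRingHom ⟨f, hf⟩
  exact ⟨g, g.2, hg⟩

/-- **(DER-τ)** -/
theorem stmtHolDerTau : StmtHolDerTau := by
  intro k _ ℓ _ _ _ N _ _ τ f g hfg
  obtain ⟨g', hg', hτ⟩ := r38hder_full_exists k N ℓ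
    (τ : ↥(modularFunctionFieldFullC k N) →+* LaurentSeries k) f
  have hθ : thetaFun (jqModC k) ≠ 0 := tn_thetaFun_jqModC_ne_zero k
  have hgg : g = g' := by
    apply Subtype.ext
    have h : (g : LaurentSeries k) * thetaFun (jqModC k) =
        (g' : LaurentSeries k) * thetaFun (jqModC k) := by rw [← hfg, ← hg']
    exact mul_right_cancel₀ hθ h
  rw [hgg]
  exact hτ

/-- **(ORD)** -/
theorem stmtHolOrd : StmtHolOrd := by
  intro k _ ℓ _ _ _ N _ _ τ hj r hr hQ
  exact r38hcusp_dvd_order τ (r38hcusp_pole k N τ hj) hr (ℓ : ℤ) hQ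

/-- **(CUSP)** -/
theorem stmtHolCusp : StmtHolCusp := by
  intro k _ ℓ _ _ _ N _ hNk τ hj r y hr hdvd hrel m hm
  have hN : 0 < N := Nat.pos_of_ne_zero (NeZero.ne N)
  have hτr : τ r ≠ 0 := (map_ne_zero τ).mpr hr
  have hr' : (r : LaurentSeries k) ≠ 0 := fun h => hr (Subtype.ext h)
  have hθj : thetaFun (jqModC k) ≠ 0 := tn_thetaFun_jqModC_ne_zero k
  have hj' : (τ : ↥(modularFunctionFieldFullC k N) →+* LaurentSeries k) (r38hderJ k N) =
      qExpand k N (jqModC k) := hj
  have hθ : thetaFun ((τ : ↥(modularFunctionFieldFullC k N) →+* LaurentSeries k)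
      (r38hderJ k N)) ≠ 0 := by
    rw [hj']
    exact r38hcusp_theta_J_ne_zero k N hNk
  -- `y` is the function of helper55
  have hy : y = r38hcuspY k N ℓ r := by
    apply Subtype.ext
    rw [r38hcuspY_coe]
    have h1 : (y : LaurentSeries k) * (thetaFun (jqModC k) * (r : LaurentSeries k)) =
        thetaFun (r : LaurentSeries k) * jqModC k * (jqModC k - 1728) := by
      rw [← mul_assoc]; exact hrel
    have h2 : thetaFun (jqModC k) * (r : LaurentSeries k) ≠ 0 := mul_ne_zero hθj hr'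
    rw [eq_div_iff h2 |>.mpr h1, div_eq_mul_inv, mul_inv, div_eq_mul_inv]
    ring
  have hcomm : (τ : ↥(modularFunctionFieldFullC k N) →+* LaurentSeries k)
      (r38hcuspD k N ℓ r) = thetaFun (τ r) / thetaFun (qExpand k N (jqModC k)) := by
    have h := r38hder_full_comm k N ℓ
      (τ : ↥(modularFunctionFieldFullC k N) →+* LaurentSeries k) hθ r.2
    rw [hj'] at h
    exact h
  have h1728 : (τ : ↥(modularFunctionFieldFullC k N) →+* LaurentSeries k) 1728 =
      HahnSeries.C (1728 : k) := by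
    rw [map_ofNat, map_ofNat]
  have hY : τ (r38hcuspY k N ℓ r) =
      qExpand k N (jqModC k) * (qExpand k N (jqModC k) - HahnSeries.C (1728 : k)) *
        (thetaFun (τ r) * (thetaFun (qExpand k N (jqModC k)))⁻¹) * (τ r)⁻¹ := by
    show (τ : ↥(modularFunctionFieldFullC k N) →+* LaurentSeries k) (r38hcuspY k N ℓ r) = _
    rw [r38hcuspY, map_mul, map_mul, map_mul, map_sub, map_inv₀, hcomm, hj', h1728,
      div_eq_mul_inv]
    rfl
  rw [hy, hY]
  exact r38hcusp_abs ℓ hN hNk (r38hcusp_J_ne_zero k N) (r38hcusp_order_J k N) (1728 : k) hτr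
    hdvd m hm

end Fermat.Agent.R38

end
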