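import Fermat.Agent.R38.TresBridge
import Fermat.Agent.R38.TresDlogAlg
import Fermat.Agent.DEU.ResField

/-!
# Row 38, PKG-TRES, route HOL-dlog, the LAST STEP (D) (helper52, for helper42's glue BR′)

`r38holtriv_main` : a Kummer function `u` of `x ∈ J₀(M p)` whose Gauss reduction `r` at `v_∞`
lies in `F̄_M = k(X₀(M))` and has `dlog r = θ r / r = 0` gives `TrivInf A p x`
(`x` has a Gauss-constant Kummer function).

Proof.  (1) `dlog r = 0` ⇒ `r = gᵖ` with `g ∈ F̄_M` (`tres1_dlog_eq_zero_iff`, helper66);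
(2) lift `g` to `G ∈ F_M` with Gauss reduction `g` (the reduction package of `X₀(M)` at `A`,
`S15.s15red_exists_pkg`; `red` is onto); (3) `u / α (Gᵖ)` is a Kummer function of `x`
(`ribmp_rl_kummerRel_mul_pow`) and it is Gauss-constant (`tresbr_bridge`).
-/

set_option autoImplicit false
set_option linter.unusedSectionVars false
set_option linter.style.haveILetI false
set_option synthInstance.maxHeartbeats 400000
set_option maxHeartbeats 1600000

open ModularCurve AlgebraicCurve Module

namespace Fermat.Agent.R38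

open Fermat.Agent.W1 Fermat.Agent.S15 Fermat.Agent.S24 Fermat.Agent.ES.M Fermat.Agent.DEU
  Fermat.Agent.ES Fermat.Agent.ES.G2 Fermat.Agent.RIB Fermat.Agent.RIB.MP Fermat.Agent.STB

/-- **step (1)**: in `F̄_M` (over a perfect field of characteristic `p`) a nonzero function with
`dlog = 0` is a `p`-th power. -/
theorem r38holtriv_pow (k : Type) [Field k] (p : ℕ) [Fact p.Prime] [CharP k p] [PerfectRing k p]
    (M : ℕ) [NeZero M] {r : LaurentSeries k} (hrF : r ∈ modularFunctionFieldFullC k M)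
    (hr0 : r ≠ 0) (h0 : r38dlog r = 0) :
    ∃ g ∈ modularFunctionFieldFullC k M, g ^ p = r := by
  have hθ : Fermat.Agent.S28.Deriv.thetaFun (jqModC k) ≠ 0 := by
    intro h
    have h1 := congrArg (fun z : LaurentSeries k => z.coeff (-1)) h
    simp only [Fermat.Agent.S28.Deriv.thetaFun_coeff, HahnSeries.coeff_zero,
      coeff_jqModC_neg_one] at h1
    simp at h1
  exact (tres1_dlog_eq_zero_iff p (modularFunctionFieldFullC k M)
    (deuResF_transcendental_j k M) (deuResF_finiteDimensional k M)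
    (jqModC_mem_full k M) hθ hrF hr0).mp h0

/-- **the last step (D) of HOL-dlog**: `dlog` of the Gauss reduction vanishes ⇒ `TrivInf`. -/
theorem r38holtriv_main {M p : ℕ} [NeZero M] [NeZero p] [NeZero (M * p)] (hp : p.Prime)
    (hpM : ¬ p ∣ M) (h5 : 5 ≤ p) (A : ValuationSubring Qb) (hA : A.LiesOverPrime p)
    {x : JZero (M * p)} {u : modularFunctionFieldBar (M * p)} (hxu : KummerRel p x u)
    {r : LaurentSeries (kA A)} (hrF : r ∈ modularFunctionFieldFullC (kA A) M)
    (hred : R38Red A (u : LaurentSeries Qb) r) (h0 : r38dlog r = 0) :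
    RIB.MP.TrivInf A p x := by
  haveI : Fact p.Prime := ⟨hp⟩
  haveI : CharP (kA A) p := kron_charP_residueField hp hA
  haveI : IsAlgClosed (kA A) := Fermat.Agent.RED.isAlgClosed_residueField A
  haveI : PerfectRing (kA A) p := inferInstance
  have hr0 : r ≠ 0 := hred.ne_zero_right
  -- (1) `r = gᵖ`
  obtain ⟨g, hgF, hgr⟩ := r38holtriv_pow (kA A) p M hrF hr0 h0
  have hg0 : g ≠ 0 := by
    rintro rfl
    rw [zero_pow hp.ne_zero] at hgr
    exact hr0 hgr.symm
  -- (2) the package and the lift of `g`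
  obtain ⟨rr, sp, Pinf, Qinf, h⟩ := s15red_exists_pkg M p hp hpM (Or.inl h5) A hA
  obtain ⟨G, hG⟩ := h.modPR.isPR.red_surjective ⟨g, hgF⟩
  have hGred : GaussRed M A (G : FF M) g := by
    rw [deuValRed_iff M A (stmtRedF M A p hp hpM hA)]
    exact ⟨G.2, congrArg Subtype.val hG⟩
  have hGR : R38Red A (((G : FF M) : modularFunctionFieldBar M) : LaurentSeries Qb) g :=
    tresgeo_red_of_gaussRed hGred hg0
  -- `v = Gᵖ` has Gauss reduction `gᵖ = r`
  have hvR : R38Red A ((((G : FF M) ^ p : modularFunctionFieldBar M)) : LaurentSeries Qb) r := by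
    have := hGR.pow p
    rw [hgr] at this
    exact this
  -- (3) the bridge
  have hGC := tresbr_bridge (M := M) (q := p) hp hA hred hvR
  have hG0 : (G : FF M) ≠ 0 := by
    intro hG0
    apply hGR.ne_zero_left
    rw [hG0]
    rfl
  have hαG0 : heckeAlphaBar Qb M p (G : FF M) ≠ 0 :=
    (map_ne_zero_iff _ (heckeAlphaBar Qb M p).injective).mpr hG0
  refine ⟨u / heckeAlphaBar Qb M p ((G : FF M) ^ p), ?_, hGC⟩
  have e : u / heckeAlphaBar Qb M p ((G : FF M) ^ p) =
      u * ((heckeAlphaBar Qb M p (G : FF M))⁻¹) ^ p := by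
    rw [map_pow, inv_pow, div_eq_mul_inv]
  rw [e]
  haveI := Fermat.Agent.ES.H.hasPrincipalDivisors_FF (M * p)
  exact ribmp_rl_kummerRel_mul_pow hxu (inv_ne_zero hαG0)

end Fermat.Agent.R38
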