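import Fermat.Agent.R38.HolTriv
import Fermat.Agent.R38.HolBridge

/-!
# Row 38, PKG-TRES, route HOL-dlog: step (D) in the form of the bridge BR′

`stmtHolTriv : StmtHolTriv` (`R38/HolBridge.lean`) from helper52's `r38holtriv_main`
(`R38/HolTriv.lean`).
-/

set_option autoImplicit false
set_option linter.style.haveILetI false
set_option synthInstance.maxHeartbeats 400000
set_option maxHeartbeats 1600000

namespace Fermat.Agent.R38

/-- **step (D)** of HOL-dlog, in the form consumed by `stmtTresTriv_of_hol`. -/
theorem stmtHolTriv : StmtHolTriv :=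
  fun _ _ _ _ _ hp hpM h5 A hA _ _ hxu _ hrF hred h0 =>
    r38holtriv_main hp hpM h5 A hA hxu hrF hred h0

end Fermat.Agent.R38
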