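import Fermat.Agent.DEU.ModPRFinal
import Fermat.Agent.Common.FrobProfinite

/-!
# R38 / TRES / HOL — the Riemann UPPER bound for `F_N` in characteristic `0`

`r38hup_main : ∃ d₀, ∀ D : Divisor ℚ̄ F_N, d₀ ≤ deg D → dim L(D) + g ≤ deg D + 1`, `g = dim S₂(Γ₀(N))`.

Proof: reduce at one prime `ℓ ≥ 5`, `ℓ ∤ N` (Deuring's dimension count, `DEU`):
`dim L(D) ≤ dim L̄(r_* D)` (semicontinuity) `≤ deg (r_* D) + 1 − g` (upper bound on the residue
side, from `ES.I2`) and `deg (r_* D) = deg D`.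
-/

set_option autoImplicit false
set_option linter.unusedSectionVars false
set_option linter.style.haveILetI false
set_option synthInstance.maxHeartbeats 400000
set_option maxHeartbeats 1600000

open ModularCurve AlgebraicCurve HahnSeries Module

namespace Fermat.Agent.R38

open Fermat.Agent.ES Fermat.Agent.S24 Fermat.Agent.ES.M Fermat.Agent.DEU

section Abstract

variable {K F k Fb : Type*} [Field K] [Field F] [Algebra K F] [Field k] [Field Fb] [Algebra k Fb]

/-- **Riemann's upper bound in characteristic `0`**, abstract form: in the setting of Deuring's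
dimension count, `dim L(D) + g ≤ deg D + 1` for `deg D ≥ n₀ + g`. -/
theorem r38hup_abs {R : RedData K F k Fb} {Pinf : Place K F} {Qinf : Place k Fb} {g n₀ : ℕ}
    (H : Hyp R Pinf Qinf g n₀) (D : Divisor K F) (hD : (n₀ : ℤ) + g ≤ Divisor.degree D) :
    (finrank K ↥(riemannRochSpace D) : ℤ) + g ≤ Divisor.degree D + 1 := by
  have h1 := H.finrank_rr_le_mapDomain D
  have hdeg : Divisor.degree (Finsupp.mapDomain H.r D) = Divisor.degree D := by
    rw [← H.rhoExt_eq_mapDomain, H.degree_rhoExt]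
  have h2 := H.riemann_upper_res (Finsupp.mapDomain H.r D) (by rw [hdeg]; exact hD)
  rw [hdeg] at h2
  have h3 : (finrank K ↥(riemannRochSpace D) : ℤ) ≤
      (finrank k ↥(riemannRochSpace (Finsupp.mapDomain H.r D)) : ℤ) := by exact_mod_cast h1
  linarith

end Abstract

/-- **Riemann's upper bound for `F_N`** (characteristic `0`): `dim L(D) + g ≤ deg D + 1` for all
divisors of large degree, `g = dim S₂(Γ₀(N))`. -/
theorem r38hup_main (N : ℕ) [NeZero N] :
    ∃ d₀ : ℕ, ∀ D : Divisor Kb (FF N), (d₀ : ℤ) ≤ Divisor.degree D →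
      (finrank Kb ↥(riemannRochSpace D) : ℤ) + gN N ≤ Divisor.degree D + 1 := by
  obtain ⟨ℓ, hle, hℓ⟩ := Nat.exists_infinite_primes (max 5 (N + 1))
  have h5 : 5 ≤ ℓ := le_trans (le_max_left _ _) hle
  have hNℓ : N < ℓ := lt_of_lt_of_le (Nat.lt_succ_self N) (le_trans (le_max_right _ _) hle)
  have hℓN : ¬ ℓ ∣ N := Nat.not_dvd_of_pos_of_lt (Nat.pos_of_ne_zero (NeZero.ne N)) hNℓ
  obtain ⟨A, hA⟩ := Fermat.Agent.Common.exists_liesOverPrime ℓ hℓ
  have hRedF : StmtRedF N A := stmtRedF N A ℓ hℓ hℓN hA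
  have hLRa : StmtLRa N A := Fermat.Agent.ES.LR.stmtLRa N ℓ hℓ A hA
  have hI2 : StmtI2 N A := Fermat.Agent.ES.I2.stmtI2All N ℓ hℓ h5 hℓN A hA
  obtain ⟨Pinf, Qinf, n₀, -, -, H⟩ := deuAnchor_hyp N A hRedF hLRa hI2
    (Fermat.Agent.ES.R.stmtR N) (modHyp_hresk N A) (modHyp_hpdk N A hℓ hA)
  refine ⟨n₀ + gN N, fun D hD => r38hup_abs H D ?_⟩
  push_cast at hD
  exact hD

end Fermat.Agent.R38
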