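import Fermat.Agent.ES.M.Plan
import Fermat.Agent.S28.UpperBound

/-!
# Row 38, PKG-TRES, piece FAC-EIS (C): the statement of the Hecke norm on the `k`-side
(interface between helper60's `R38/TresEisK.lean` and the glue `R38/TresEisGlue.lean`)

`k = kA A` (`A ⊂ ℚ̄` over `p`), `F̄_M = modularFunctionFieldFullC k M ⊂ F̄_{Mℓ}` (inclusion).
`StmtEisNormK`: for `f ∈ F̄_M` and `g = f(q^ℓ) ∈ F̄_{Mℓ}`,
`N_{F̄_{Mℓ}/F̄_M} g = kronHecke ℓ ζ̄ f` on `q`-expansions.

Statement only.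
-/

set_option autoImplicit false
set_option linter.style.haveILetI false
set_option synthInstance.maxHeartbeats 400000
set_option maxHeartbeats 1600000

noncomputable section

namespace Fermat.Agent.R38

open ModularCurve Fermat.Agent.ES Fermat.Agent.ES.G2 Fermat.Agent.ES.M

/-- **(C)**, the Hecke norm on the `k`-side: for `f ∈ F̄_M` and `g = f(q^ℓ) ∈ F̄_{Mℓ}`,
`N_{F̄_{Mℓ}/F̄_M} g = kronHecke ℓ ζ̄ f` on `q`-expansions (`F̄_{Mℓ}` an `F̄_M`-algebra by the
inclusion). -/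
def StmtEisNormK : Prop :=
  ∀ (M p : ℕ) [NeZero M] (_ : p.Prime) (_ : ¬ p ∣ M), 5 ≤ p →
    ∀ A : ValuationSubring Qb, A.LiesOverPrime p →
    ∀ (ℓ : ℕ) [NeZero ℓ], ℓ.Prime → ¬ ℓ ∣ M → ℓ ≠ p →
    ∀ ζ : (kA A)ˣ, IsPrimitiveRoot ζ ℓ →
    ∀ (f : ↥(modularFunctionFieldFullC (kA A) M))
      (g : ↥(modularFunctionFieldFullC (kA A) (M * ℓ))),
      (g : LaurentSeries (kA A)) = qExpand (kA A) ℓ (f : LaurentSeries (kA A)) →
        letI := (IntermediateField.inclusion
          (Fermat.Agent.S28.UB.full_mono (kA A) (Dvd.intro ℓ rfl) :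
            modularFunctionFieldFullC (kA A) M ≤
              modularFunctionFieldFullC (kA A) (M * ℓ))).toRingHom.toAlgebra
        ((Algebra.norm ↥(modularFunctionFieldFullC (kA A) M) g :
            ↥(modularFunctionFieldFullC (kA A) M)) : LaurentSeries (kA A)) =
          kronHecke ℓ ζ (f : LaurentSeries (kA A))

end Fermat.Agent.R38

end
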