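/-
ROW 38, (FAC-p) = MONO + EIS — the INTERFACE between the two halves (captain helper44).
Owner tables: NOTES/R38-TRES.md (row 38), NOTES/R38-FAC.md (MONO, sub-captain helper92).

* `StmtFacMono` — OUTPUT of MONO (FAC-ASM: `R38/TresMono*.lean`), INPUT of FAC-EIS (helper60):
  for `x ∈ J₀(M p)[p]` new, fixed by the peu ramifié subgroup and moved by inertia along one line
  (NO Hecke operator in the hypotheses), a Kummer function `u` of `x` has a Gauss reduction `r`
  at `v_∞` in `F̄_M = k(X₀(M))` with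
      `p ∣ a · ord_Q r − b · ord_Q h`  at the places `Q` off the cusps (`0 ≤ ord_Q j̄`),
      `p ∣ ord_Q r`                    at the cusps (`ord_Q j̄ < 0`),
  where `p ∤ a` and `h ∈ F̄_M` is "Eisenstein": `T̄_ℓ h = c · h ^ (ℓ + 1)` on `q`-expansions for
  all primes `ℓ ≠ p`   [`h` = reduction of the Ogg unit `Δ(q^p)/Δ(q)`, `a = 12 (p − 1)`,
  `b = ∓ c̃`, `c̃ = m^0 − m^∞` the difference of the vertical valuations of `u″` on the cover].
* `StmtFacEis := StmtFacMono → StmtFacP`  (the deliverable of FAC-EIS; `StmtFacP` is in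
  `R38/TresBridge.lean`, helper42).

Definitions and statements only.
-/
import Fermat.Agent.R38.TresBridge

set_option autoImplicit false
set_option linter.style.haveILetI false

noncomputable section

namespace Fermat.Agent.R38

open ModularCurve AlgebraicCurve Fermat.Agent.ES Fermat.Agent.ES.G2 Fermat.Agent.STB
  Fermat.Agent.RIB.MP Fermat.Agent.S24 Fermat.Agent.DEU Fermat.Agent.ES.M Fermat.Agent.W1
  Fermat.Agent.S15 Fermat.Agent.RIB

/-- **(FAC-MONO)**: the output of the monodromy argument on the cover (no Hecke operator in the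
hypotheses). -/
def StmtFacMono : Prop :=
  ∀ (M p : ℕ) [NeZero M] [NeZero p] [NeZero (M * p)] (_ : p.Prime) (_ : ¬ p ∣ M), 5 ≤ p →
    ∀ A : ValuationSubring Qb, A.LiesOverPrime p →
    ∀ x : JZero (M * p), p • x = 0 → stbPushAlpha M p x = 0 → stbPushBeta M p x = 0 →
      PeuFixed A p x → InertiaLine A x →
      ∃ (u : modularFunctionFieldBar (M * p)) (r h : LaurentSeries (kA A))
        (hr : r ∈ modularFunctionFieldFullC (kA A) M)
        (hh : h ∈ modularFunctionFieldFullC (kA A) M) (a b : ℤ),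
        KummerRel p x u ∧ R38Red A (u : LaurentSeries Qb) r ∧ h ≠ 0 ∧ ¬ (p : ℤ) ∣ a ∧
        (∀ Q : Place (kA A) ↥(modularFunctionFieldFullC (kA A) M),
          0 ≤ Q.ord (⟨jqModC (kA A), jqModC_mem_full (kA A) M⟩ :
              ↥(modularFunctionFieldFullC (kA A) M)) →
            (p : ℤ) ∣ a * Q.ord (⟨r, hr⟩ : ↥(modularFunctionFieldFullC (kA A) M)) -
              b * Q.ord (⟨h, hh⟩ : ↥(modularFunctionFieldFullC (kA A) M))) ∧
        (∀ Q : Place (kA A) ↥(modularFunctionFieldFullC (kA A) M),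
          Q.ord (⟨jqModC (kA A), jqModC_mem_full (kA A) M⟩ :
              ↥(modularFunctionFieldFullC (kA A) M)) < 0 →
            (p : ℤ) ∣ Q.ord (⟨r, hr⟩ : ↥(modularFunctionFieldFullC (kA A) M))) ∧
        (∀ (ℓ : ℕ) [NeZero ℓ], ℓ.Prime → ℓ ≠ p → ∀ ζ : (kA A)ˣ, IsPrimitiveRoot ζ ℓ →
          ∃ c : kA A, c ≠ 0 ∧ kronHecke ℓ ζ h = HahnSeries.C c * h ^ (ℓ + 1))

/-- **(FAC-EIS)**: the Eisenstein step on the `k`-side (push–pull in `F̄_{Mℓ} / F̄_M`). -/
def StmtFacEis : Prop :=
  StmtFacMono → StmtFacP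

/-- (FAC-p) from its two halves. -/
theorem stmtFacP_of (hEis : StmtFacEis) (hMono : StmtFacMono) : StmtFacP :=
  hEis hMono

end Fermat.Agent.R38

end
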