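/-
ROW 38, PKG-TRES, route HOL-dlog, piece B1-MF — INTERFACE of the split (helper83).
Plan: NOTES/R38-HOL.md.  Statements only.

* `StmtHolSurj` (B1-SURJ): every `C ∈ F_N` with poles only at the cusps is a `ℚ̄`-combination of
  the series `G / Δ^m` (`ES.R.ratSeries m z`), `G` cusp forms of weight `12 m` on `Γ₀(N)` with
  integer `q`-expansion, for one `m ≥ 1`.
  [`C ∈ L(cuspDivisor N S m)` for `m ≫ 0`; `G ↦ G / Δ^m` is injective into `L(cuspDivisor N S m)`
  (`ES.R.ratSeries_mem_rr`, proof of `ES.R.finrank_le_finrank_rr`);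
  `dim S_{12 m} = deg + 1 − g` (`ES.R.finrank_cusp_twelve`) and
  `dim L(D) ≤ deg D + 1 − g` for `deg D ≫ 0` (DEU: `Hyp.finrank_rr_le_mapDomain` +
  `Hyp.riemann_upper_res` at one good prime `ℓ ≥ 5`, `ℓ ∤ N`).]
-/
import Fermat.Agent.R38.PlanHol
import Fermat.Agent.ES.RiemannRat

set_option autoImplicit false

noncomputable section

namespace Fermat.Agent.R38

open ModularCurve AlgebraicCurve HahnSeries Fermat.Agent.ES Fermat.Agent.S24 Fermat.Agent.ES.M
open Fermat.Agent.ES.R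

/-- **(B1-SURJ)** functions with poles only at the cusps are combinations of `G / Δ^m`. -/
def StmtHolSurj (N : ℕ) [NeZero N] : Prop :=
  ∀ C : FF N, PolesAtCusps N C →
    ∃ (m : ℕ) (_ : 1 ≤ m) (n : ℕ) (c : Fin n → Kb)
      (G : Fin n → CuspForm (CongruenceSubgroup.Gamma0 N) (12 * (m : ℤ))) (z : Fin n → ℕ → ℤ),
      (∀ i n', (UpperHalfPlane.qExpansion 1 (G i)).coeff n' = (z i n' : ℂ)) ∧
      (C : LaurentSeries Kb) = ∑ i, HahnSeries.C (c i) * ratSeries m (z i)

def StmtHolSurjAll : Prop := ∀ (N : ℕ) [NeZero N], StmtHolSurj N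

end Fermat.Agent.R38

end
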