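/-
ROW 38, TRES, piece FAC-LINE (helper44): the normal form of the line.

Hypotheses of `StmtTresRed` / `StmtFacMono`: `x ∈ J₀(M p)[p]`, new, and the inertia group `I` of
`A ∣ p` moves `x` along ONE line (`InertiaLine A x`: `σ x − x ∈ ℤ z` for all `σ ∈ I`).

* `tresline_kummer`     : `u` a Kummer function of `x` ⇒ `σ u / u` is one of `σ x − x`;
* `tresline_trivInf`    : for `σ ∈ I` the class `σ x − x` is trivial at `v_∞`
                          (`σ u / u` is Gauss-constant: `ES.G2.stmtGCInertia`);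
* `tresline_group`      : in a cyclic group the `p`-torsion is generated by any of its nonzero
                          elements;
* `tresline_main`       : EITHER `I` fixes `x` (no cover is needed), OR there is `σ₀ ∈ I` such
                          that `z₀ := σ₀ x − x ≠ 0` is `p`-torsion, new, trivial at `v_∞`,
                          TORIC (`τ z₀ = ω(τ) z₀` for `τ ∈ I`, by `StmtTresT0`), and
                          `σ x − x ∈ ℤ z₀` for all `σ ∈ I`.
The Kummer function of `z₀` is `w₀ = σ₀ u / u = gcInertiaOp (M p) σ₀ u`; the cover of FAC-MONO is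
`F_N(w₀^{1/p})`.
-/
import Fermat.Agent.R38.PlanTres
import Fermat.Agent.ES.G2.S37Kron
import Fermat.Agent.ES.G2.Prim
import Fermat.Agent.ES.KummerMu
import Fermat.Agent.STB.PushGalois

set_option autoImplicit false
set_option linter.style.haveILetI false

noncomputable section

namespace Fermat.Agent.R38

open ModularCurve AlgebraicCurve Fermat.Agent.ES Fermat.Agent.ES.G2 Fermat.Agent.STB
  Fermat.Agent.RIB.MP ExtCitation

/-! ### Arithmetic -/

/-- `d ∣ p a`, `d ∤ a`, `d ∣ p b` ⇒ `b ∈ (a) + (d)`. -/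
theorem tresline_int {d a b : ℤ} {p : ℕ} (hp : p.Prime) (h1 : d ∣ p * a) (h2 : ¬ d ∣ a)
    (h3 : d ∣ p * b) : ∃ c : ℤ, d ∣ b - c * a := by
  have hp0 : (p : ℤ) ≠ 0 := by exact_mod_cast hp.ne_zero
  obtain ⟨d₁, hd₁⟩ : ((Int.gcd d a : ℤ)) ∣ d := Int.gcd_dvd_left d a
  obtain ⟨a₁, ha₁⟩ : ((Int.gcd d a : ℤ)) ∣ a := Int.gcd_dvd_right d a
  set g : ℤ := (Int.gcd d a : ℤ) with hg
  have hg0 : g ≠ 0 := by
    intro h
    apply h2
    rw [ha₁, h, zero_mul]
    exact dvd_zero d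
  -- `g = d s + a t`
  have hbez : g = d * Int.gcdA d a + a * Int.gcdB d a := Int.gcd_eq_gcd_ab d a
  -- `d₁` and `a₁` are coprime
  have hcop : IsCoprime d₁ a₁ := by
    refine ⟨Int.gcdA d a, Int.gcdB d a, ?_⟩
    apply mul_left_cancel₀ hg0
    calc g * (Int.gcdA d a * d₁ + Int.gcdB d a * a₁)
        = (g * d₁) * Int.gcdA d a + (g * a₁) * Int.gcdB d a := by ring
      _ = d * Int.gcdA d a + a * Int.gcdB d a := by rw [← hd₁, ← ha₁]
      _ = g * 1 := by rw [← hbez, mul_one]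
  -- `d₁ ∣ p`
  have hd₁p : d₁ ∣ (p : ℤ) := by
    have h : g * d₁ ∣ g * ((p : ℤ) * a₁) := by
      have e : g * ((p : ℤ) * a₁) = p * a := by rw [ha₁]; ring
      rw [e, ← hd₁]
      exact h1
    exact hcop.dvd_of_dvd_mul_right ((mul_dvd_mul_iff_left hg0).1 h)
  -- `p ∣ d₁`
  have hpd₁ : (p : ℤ) ∣ d₁ := by
    have h := Int.natAbs_dvd_natAbs.2 hd₁p
    rw [Int.natAbs_natCast] at h
    rcases (Nat.dvd_prime hp).1 h with h1' | hp'
    · exfalso
      apply h2
      have hu : IsUnit d₁ := Int.isUnit_iff_natAbs_eq.2 h1'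
      obtain ⟨v, hv⟩ := hu.exists_right_inv
      refine ⟨v * a₁, ?_⟩
      calc a = g * a₁ := ha₁
        _ = g * (d₁ * v) * a₁ := by rw [hv, mul_one]
        _ = d * (v * a₁) := by rw [hd₁]; ring
    · rw [Int.natCast_dvd, hp']
  -- `g ∣ b`
  have hgb : g ∣ b := by
    obtain ⟨e, he⟩ := hpd₁
    have h : (p : ℤ) * g ∣ p * b := by
      refine dvd_trans ⟨e, ?_⟩ h3
      rw [hd₁, he]; ring
    exact (mul_dvd_mul_iff_left hp0).1 h
  obtain ⟨b₁, hb₁⟩ := hgb
  refine ⟨b₁ * Int.gcdB d a, b₁ * Int.gcdA d a, ?_⟩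
  calc b - b₁ * Int.gcdB d a * a = g * b₁ - b₁ * Int.gcdB d a * a := by rw [← hb₁]
    _ = (d * Int.gcdA d a + a * Int.gcdB d a) * b₁ - b₁ * Int.gcdB d a * a := by rw [← hbez]
    _ = d * (b₁ * Int.gcdA d a) := by ring

/-- In a cyclic group the `p`-torsion is generated by any of its nonzero elements. -/
theorem tresline_group {G : Type*} [AddCommGroup G] {p : ℕ} (hp : p.Prime) {z z₀ y : G}
    (hz₀ : z₀ ≠ 0) (hpz₀ : p • z₀ = 0) (hpy : p • y = 0) {a b : ℤ} (ha : z₀ = a • z)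
    (hb : y = b • z) : ∃ c : ℤ, y = c • z₀ := by
  have key : ∀ n : ℤ, ((addOrderOf z : ℕ) : ℤ) ∣ n ↔ n • z = 0 := fun n =>
    addOrderOf_dvd_iff_zsmul_eq_zero
  have h1 : ((addOrderOf z : ℕ) : ℤ) ∣ (p : ℤ) * a := by
    rw [key, mul_smul, ← ha, natCast_zsmul, hpz₀]
  have h2 : ¬ ((addOrderOf z : ℕ) : ℤ) ∣ a := by
    rw [key, ← ha]
    exact hz₀
  have h3 : ((addOrderOf z : ℕ) : ℤ) ∣ (p : ℤ) * b := by
    rw [key, mul_smul, ← hb, natCast_zsmul, hpy]
  obtain ⟨c, hc⟩ := tresline_int hp h1 h2 h3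
  refine ⟨c, ?_⟩
  have h := (key _).1 hc
  rw [sub_smul, mul_smul, ← ha, ← hb] at h
  exact sub_eq_zero.1 h

/-- `σ x − x` is `p`-torsion if `x` is (generic form) -/
theorem tresline_gen_tors {G Γ : Type*} [AddCommGroup G] [Monoid Γ] [DistribMulAction Γ G]
    (p : ℕ) (σ : Γ) {x : G} (hx : p • x = 0) : p • (σ • x - x) = 0 := by
  have h := map_nsmul (DistribMulAction.toAddMonoidHom G σ) p x
  simp only [DistribMulAction.toAddMonoidHom_apply] at h
  rw [nsmul_sub, hx, sub_zero, ← h, hx, smul_zero]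

/-- `σ x − x` is killed by an equivariant map which kills `x` (generic form) -/
theorem tresline_gen_new {G H Γ : Type*} [AddCommGroup G] [AddCommGroup H] [Monoid Γ]
    [DistribMulAction Γ G] [DistribMulAction Γ H] (f : G →+ H)
    (hf : ∀ (σ : Γ) (x : G), f (σ • x) = σ • f x) (σ : Γ) {x : G} (hx : f x = 0) :
    f (σ • x - x) = 0 := by
  rw [map_sub, hf, hx, smul_zero, sub_zero]

/-! ### The classes `σ x − x` -/

section Line

variable {N : ℕ} [NeZero N]

/-- `σ u / u` is a Kummer function of `σ x − x`. -/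
theorem tresline_kummer {n : ℕ} {x : JZero N} {u : modularFunctionFieldBar N}
    (hu : KummerRel n x u) (σ : GQ) : KummerRel n (σ • x - x) (gcInertiaOp N σ u) :=
  (KummerRel.galois σ hu).sub hu

/-- For `σ` in the inertia group of `A`, `σ u / u` is Gauss-constant. -/
theorem tresline_gaussConst {ℓ : ℕ} (hℓ : ℓ.Prime) {A : ValuationSubring Qb}
    (hA : A.LiesOverPrime ℓ) {σ : GQ} (hσ : σ ∈ A.inertiaSubgroupIn ℚ)
    {u : modularFunctionFieldBar N} (hu : u ≠ 0) : GaussConst A N (gcInertiaOp N σ u) :=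
  stmtGCInertia stmtPrim N ℓ hℓ A hA σ hσ u hu

end Line

section Main

variable (M p : ℕ) [NeZero M] [NeZero p] [NeZero (M * p)]

/-- For `σ` in the inertia group the class `σ x − x` is trivial at `v_∞`. -/
theorem tresline_trivInf (hp : p.Prime) {A : ValuationSubring Qb} (hA : A.LiesOverPrime p)
    {x : JZero (M * p)} (hx : p • x = 0) {σ : GQ} (hσ : σ ∈ A.inertiaSubgroupIn ℚ) :
    TrivInf A p (σ • x - x) := by
  obtain ⟨u, hu⟩ := exists_kummerRel (n := p) hx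
  exact ⟨gcInertiaOp (M * p) σ u, tresline_kummer hu σ, tresline_gaussConst hp hA hσ hu.ne_zero⟩

/-- **FAC-LINE.**  Either the inertia group fixes `x`, or the line is spanned by a nonzero TORIC
class `z₀ = σ₀ x − x`. -/
theorem tresline_main [Fact p.Prime] (hT0 : StmtTresT0) (hp2 : p ≠ 2) (hpM : ¬ p ∣ M)
    (A : ValuationSubring Qb) (hA : A.LiesOverPrime p) (x : JZero (M * p)) (hx : p • x = 0)
    (hα : stbPushAlpha M p x = 0) (hβ : stbPushBeta M p x = 0) (hline : InertiaLine A x) :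
    (∀ σ ∈ A.inertiaSubgroupIn ℚ, σ • x = x) ∨
      ∃ σ₀ ∈ A.inertiaSubgroupIn ℚ, σ₀ • x - x ≠ 0 ∧ p • (σ₀ • x - x) = 0 ∧
        stbPushAlpha M p (σ₀ • x - x) = 0 ∧ stbPushBeta M p (σ₀ • x - x) = 0 ∧
        TrivInf A p (σ₀ • x - x) ∧
        (∀ τ ∈ A.inertiaSubgroupIn ℚ, τ • (σ₀ • x - x) = cycloExp p τ • (σ₀ • x - x)) ∧
        ∀ σ ∈ A.inertiaSubgroupIn ℚ, ∃ k : ℤ, σ • x - x = k • (σ₀ • x - x) := by
  have hp : p.Prime := Fact.out
  by_cases hfix : ∀ σ ∈ A.inertiaSubgroupIn ℚ, σ • x = x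
  · exact Or.inl hfix
  right
  push Not at hfix
  obtain ⟨σ₀, hσ₀, hne⟩ := hfix
  have hptors : ∀ σ : GQ, p • (σ • x - x) = 0 := by
    intro σ
    exact tresline_gen_tors p σ hx
  have hnewα : ∀ σ : GQ, stbPushAlpha M p (σ • x - x) = 0 := by
    intro σ
    exact tresline_gen_new (stbPushAlpha M p) (stbPushAlpha_galois M p) σ hα
  have hnewβ : ∀ σ : GQ, stbPushBeta M p (σ • x - x) = 0 := by
    intro σ
    exact tresline_gen_new (stbPushBeta M p) (stbPushBeta_galois M p) σ hβ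
  have hz₀ : σ₀ • x - x ≠ 0 := fun h => hne (sub_eq_zero.1 h)
  have htriv : TrivInf A p (σ₀ • x - x) := tresline_trivInf M p hp hA hx hσ₀
  refine ⟨σ₀, hσ₀, hz₀, hptors σ₀, hnewα σ₀, hnewβ σ₀, htriv, ?_, ?_⟩
  · exact hT0 M p hp2 hpM A hA (σ₀ • x - x) (hptors σ₀) (hnewα σ₀) (hnewβ σ₀) htriv
  · obtain ⟨z, hz⟩ := hline
    obtain ⟨a, ha⟩ := hz σ₀ hσ₀
    intro σ hσ
    obtain ⟨b, hb⟩ := hz σ hσ
    exact tresline_group hp hz₀ (hptors σ₀) (hptors σ) ha hb

end Main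

end Fermat.Agent.R38

end
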