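/-
ROW 38, FAC-MONO — the top of the assembly (captain helper44).

`StmtFacMono` (`R38/PlanFac.lean`) is split along FAC-LINE (`tresline_main`, `R38/TresLine.lean`):

* `FacMonoConcl M p A x`  — the conclusion of `StmtFacMono` for one class `x`;
* `StmtMonoFix`   (ASM-NOCOVER, `R38/TresMonoFix*.lean`): the inertia group FIXES `x` — no cover;
* `StmtMonoCover` (ASM-MAIN, `R38/TresMono*.lean`): there is `σ₀ ∈ I` such that
  `z₀ = σ₀ x − x ≠ 0` is `p`-torsion, new, trivial at `v_∞`, TORIC, and spans the line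
  (the cover is `F_N(w₀^{1/p})`, `w₀ = σ₀ u / u`);
* `stmtFacMono_of : StmtTresT0 → StmtMonoFix → StmtMonoCover → StmtFacMono`.
-/
import Fermat.Agent.R38.PlanFac
import Fermat.Agent.R38.TresLine

set_option autoImplicit false
set_option linter.style.haveILetI false

noncomputable section

namespace Fermat.Agent.R38

open ModularCurve AlgebraicCurve Fermat.Agent.ES Fermat.Agent.ES.G2 Fermat.Agent.STB
  Fermat.Agent.RIB.MP Fermat.Agent.S24 Fermat.Agent.DEU Fermat.Agent.ES.M Fermat.Agent.W1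
  Fermat.Agent.S15 Fermat.Agent.RIB ExtCitation

/-- the conclusion of `StmtFacMono` for the class `x` -/
def FacMonoConcl (M p : ℕ) [NeZero M] [NeZero p] [NeZero (M * p)] (A : ValuationSubring Qb)
    (x : JZero (M * p)) : Prop :=
  ∃ (u : modularFunctionFieldBar (M * p)) (r h : LaurentSeries (kA A))
    (hr : r ∈ modularFunctionFieldFullC (kA A) M)
    (hh : h ∈ modularFunctionFieldFullC (kA A) M) (a b : ℤ),
    KummerRel p x u ∧ R38Red A (u : LaurentSeries Qb) r ∧ h ≠ 0 ∧ ¬ (p : ℤ) ∣ a ∧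
    (∀ Q : Place (kA A) ↥(modularFunctionFieldFullC (kA A) M),
      0 ≤ Q.ord (⟨jqModC (kA A), jqModC_mem_full (kA A) M⟩ :
          ↥(modularFunctionFieldFullC (kA A) M)) →
        (p : ℤ) ∣ a * Q.ord (⟨r, hr⟩ : ↥(modularFunctionFieldFullC (kA A) M)) -
          b * Q.ord (⟨h, hh⟩ : ↥(modularFunctionFieldFullC (kA A) M))) ∧
    (∀ Q : Place (kA A) ↥(modularFunctionFieldFullC (kA A) M),
      Q.ord (⟨jqModC (kA A), jqModC_mem_full (kA A) M⟩ :
          ↥(modularFunctionFieldFullC (kA A) M)) < 0 →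
        (p : ℤ) ∣ Q.ord (⟨r, hr⟩ : ↥(modularFunctionFieldFullC (kA A) M))) ∧
    (∀ (ℓ : ℕ) [NeZero ℓ], ℓ.Prime → ℓ ≠ p → ∀ ζ : (kA A)ˣ, IsPrimitiveRoot ζ ℓ →
      ∃ c : kA A, c ≠ 0 ∧ kronHecke ℓ ζ h = HahnSeries.C c * h ^ (ℓ + 1))

/-- **ASM-NOCOVER**: the case where the inertia group fixes `x`. -/
def StmtMonoFix : Prop :=
  ∀ (M p : ℕ) [NeZero M] [NeZero p] [NeZero (M * p)] (_ : p.Prime) (_ : ¬ p ∣ M), 5 ≤ p →
    ∀ A : ValuationSubring Qb, A.LiesOverPrime p →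
    ∀ x : JZero (M * p), p • x = 0 → stbPushAlpha M p x = 0 → stbPushBeta M p x = 0 →
      (∀ σ ∈ A.inertiaSubgroupIn ℚ, σ • x = x) → FacMonoConcl M p A x

/-- **ASM-MAIN**: the case of a nonzero toric line (the cover `F_N(w₀^{1/p})`). -/
def StmtMonoCover : Prop :=
  ∀ (M p : ℕ) [NeZero M] [NeZero p] [NeZero (M * p)] [Fact p.Prime] (_ : ¬ p ∣ M), 5 ≤ p →
    ∀ A : ValuationSubring Qb, A.LiesOverPrime p →
    ∀ x : JZero (M * p), p • x = 0 → stbPushAlpha M p x = 0 → stbPushBeta M p x = 0 →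
      PeuFixed A p x →
    ∀ σ₀ ∈ A.inertiaSubgroupIn ℚ, σ₀ • x - x ≠ 0 → p • (σ₀ • x - x) = 0 →
      stbPushAlpha M p (σ₀ • x - x) = 0 → stbPushBeta M p (σ₀ • x - x) = 0 →
      TrivInf A p (σ₀ • x - x) →
      (∀ τ ∈ A.inertiaSubgroupIn ℚ, τ • (σ₀ • x - x) = cycloExp p τ • (σ₀ • x - x)) →
      (∀ σ ∈ A.inertiaSubgroupIn ℚ, ∃ k : ℤ, σ • x - x = k • (σ₀ • x - x)) →
      FacMonoConcl M p A x

/-- **FAC-MONO from its two cases.** -/
theorem stmtFacMono_of (hT0 : StmtTresT0) (hFix : StmtMonoFix) (hCov : StmtMonoCover) :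
    StmtFacMono := by
  intro M p _ _ _ hp hpM h5 A hA x hx hα hβ hpeu hline
  haveI : Fact p.Prime := ⟨hp⟩
  have hp2 : p ≠ 2 := by omega
  rcases tresline_main M p hT0 hp2 hpM A hA x hx hα hβ hline with hfix |
    ⟨σ₀, hσ₀, hz, hpz, hzα, hzβ, htriv, htor, hspan⟩
  · exact hFix M p hp hpM h5 A hA x hx hα hβ hfix
  · exact hCov M p hpM h5 A hA x hx hα hβ hpeu σ₀ hσ₀ hz hpz hzα hzβ htriv htor hspan

end Fermat.Agent.R38

end
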