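import Mathlib
import Fermat.Agent.EC.DetCharLA

/-!
# R38-REP, algebra: the Boston–Lenstra–Ribet factorisation in dimension two

`k` a field of characteristic `≠ 2`, `ρ : G →* A` with `k`-span of `ρ(G)` equal to `A`,
`tr : A →ₗ[k] k`, `d : G →* k`, `Θ : G →* B` with
`Θ(g)² − tr(ρ g) Θ(g) + d(g) = 0` for all `g`, and `a, a' ∈ A` with `[a, a']² = 1`.
Then `Θ` factors through `ρ`: there is an algebra homomorphism `F : A →ₐ[k] B` with
`F (ρ g) = Θ g` (`r38rep_exists_algHom`).

Consequence (`r38rep_embed`): for `A = End E`, `dim E = 2`, `B = End U`, every `u ≠ 0` of `U`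
gives an injective `G`-equivariant linear map `E → U`.
-/

set_option autoImplicit false

namespace Fermat.Agent.R38

section Key

variable {k : Type*} [Field k] {G : Type*} [Group G]
  {A : Type*} [Ring A] [Algebra k A] {B : Type*} [Ring B] [Algebra k B]

/-- the `k`-span of the graph of `g ↦ (ρ g, Θ g)` -/
def r38repP (k : Type*) [Field k] {G : Type*} [Group G] {A : Type*} [Ring A] [Algebra k A]
    {B : Type*} [Ring B] [Algebra k B] (ρ : G →* A) (Θ : G →* B) : Submodule k (A × B) :=
  Submodule.span k (Set.range (ρ.prod Θ))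

theorem r38rep_gen_mem (ρ : G →* A) (Θ : G →* B) (g : G) : (ρ g, Θ g) ∈ r38repP k ρ Θ :=
  Submodule.subset_span ⟨g, rfl⟩

theorem r38rep_P_eq_adjoin (ρ : G →* A) (Θ : G →* B) :
    Subalgebra.toSubmodule (Algebra.adjoin k (Set.range (ρ.prod Θ))) = r38repP k ρ Θ := by
  have h1 := Algebra.adjoin_eq_span k (Set.range (ρ.prod Θ))
  have hcl : (Submonoid.closure (Set.range (ρ.prod Θ)) : Set (A × B)) = Set.range (ρ.prod Θ) := by
    rw [← MonoidHom.coe_mrange, Submonoid.closure_eq]
  rw [hcl] at h1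
  exact h1

theorem r38rep_mul_mem (ρ : G →* A) (Θ : G →* B) {x y : A × B} (hx : x ∈ r38repP k ρ Θ)
    (hy : y ∈ r38repP k ρ Θ) : x * y ∈ r38repP k ρ Θ := by
  rw [← r38rep_P_eq_adjoin, Subalgebra.mem_toSubmodule] at hx hy ⊢
  exact mul_mem hx hy

theorem r38rep_one_mem (ρ : G →* A) (Θ : G →* B) : (1 : A × B) ∈ r38repP k ρ Θ := by
  rw [← r38rep_P_eq_adjoin, Subalgebra.mem_toSubmodule]
  exact one_mem _

/-- rearranging the quadratic relation -/
theorem r38rep_quad_left (X : B) (t d : k) (h : X * X - t • X + d • (1 : B) = 0) :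
    (t • (1 : B) - X) * X = d • (1 : B) := by
  have e : (t • (1 : B) - X) * X = -(X * X - t • X + d • (1 : B)) + d • (1 : B) := by
    rw [sub_mul, smul_mul_assoc, one_mul]
    abel
  rw [e, h, neg_zero, zero_add]

/-- the anti-multiplicativity of `x ↦ tr x − Θ x`, on generators -/
theorem r38rep_S_gen (ρ : G →* A) (Θ : G →* B) (tr : A →ₗ[k] k) (d : G →* k)
    (hrel : ∀ g, Θ g * Θ g - tr (ρ g) • Θ g + d g • (1 : B) = 0) (g h : G) :
    tr (ρ g * ρ h) • (1 : B) - Θ g * Θ h
      = (tr (ρ h) • (1 : B) - Θ h) * (tr (ρ g) • (1 : B) - Θ g) := by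
  have hg := r38rep_quad_left _ _ _ (hrel g)
  have hh := r38rep_quad_left _ _ _ (hrel h)
  have hgh := r38rep_quad_left _ _ _ (hrel (g * h))
  rw [map_mul ρ, map_mul Θ, map_mul d] at hgh
  have hinv : Θ g * Θ h * Θ (g * h)⁻¹ = 1 := by
    rw [← map_mul, ← map_mul, mul_inv_cancel, map_one]
  have e1 : (tr (ρ h) • (1 : B) - Θ h) * (tr (ρ g) • (1 : B) - Θ g) * (Θ g * Θ h)
      = (d g * d h) • (1 : B) := by
    calc (tr (ρ h) • (1 : B) - Θ h) * (tr (ρ g) • (1 : B) - Θ g) * (Θ g * Θ h)
        = (tr (ρ h) • (1 : B) - Θ h) * (((tr (ρ g) • (1 : B) - Θ g) * Θ g) * Θ h) := by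
          simp only [mul_assoc]
      _ = (tr (ρ h) • (1 : B) - Θ h) * (d g • Θ h) := by
          rw [hg, smul_mul_assoc, one_mul]
      _ = d g • ((tr (ρ h) • (1 : B) - Θ h) * Θ h) := by
          rw [mul_smul_comm]
      _ = (d g * d h) • (1 : B) := by
          rw [hh, smul_smul]
  calc tr (ρ g * ρ h) • (1 : B) - Θ g * Θ h
      = (tr (ρ g * ρ h) • (1 : B) - Θ g * Θ h) * (Θ g * Θ h * Θ (g * h)⁻¹) := by
        rw [hinv, mul_one]
    _ = ((tr (ρ g * ρ h) • (1 : B) - Θ g * Θ h) * (Θ g * Θ h)) * Θ (g * h)⁻¹ := by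
        simp only [mul_assoc]
    _ = ((tr (ρ h) • (1 : B) - Θ h) * (tr (ρ g) • (1 : B) - Θ g) * (Θ g * Θ h))
          * Θ (g * h)⁻¹ := by
        rw [hgh, e1]
    _ = (tr (ρ h) • (1 : B) - Θ h) * (tr (ρ g) • (1 : B) - Θ g)
          * (Θ g * Θ h * Θ (g * h)⁻¹) := by
        simp only [mul_assoc]
    _ = (tr (ρ h) • (1 : B) - Θ h) * (tr (ρ g) • (1 : B) - Θ g) := by
        rw [hinv, mul_one]

/-- the anti-multiplicativity of `x ↦ tr x − Θ x` on the span -/
theorem r38rep_S (ρ : G →* A) (Θ : G →* B) (tr : A →ₗ[k] k) (d : G →* k)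
    (hrel : ∀ g, Θ g * Θ g - tr (ρ g) • Θ g + d g • (1 : B) = 0)
    {x y : A × B} (hx : x ∈ r38repP k ρ Θ) (hy : y ∈ r38repP k ρ Θ) :
    tr (x.1 * y.1) • (1 : B) - x.2 * y.2
      = (tr y.1 • (1 : B) - y.2) * (tr x.1 • (1 : B) - x.2) := by
  unfold r38repP at hx hy
  induction hx using Submodule.span_induction with
  | mem x hx =>
    obtain ⟨g, rfl⟩ := hx
    induction hy using Submodule.span_induction with
    | mem y hy =>
      obtain ⟨h, rfl⟩ := hy
      exact r38rep_S_gen ρ Θ tr d hrel g h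
    | zero => simp
    | add y z _ _ hy hz =>
      simp only [Prod.fst_add, Prod.snd_add, mul_add, map_add, add_smul]
      have e : (tr y.1 • (1 : B) + tr z.1 • (1 : B) - (y.2 + z.2))
          = (tr y.1 • (1 : B) - y.2) + (tr z.1 • (1 : B) - z.2) := by abel
      rw [e, add_mul, ← hy, ← hz]
      abel
    | smul c y _ hy =>
      simp only [Prod.smul_fst, Prod.smul_snd, mul_smul_comm, map_smul, smul_eq_mul]
      have e : ((c * tr y.1) • (1 : B) - c • y.2) = c • (tr y.1 • (1 : B) - y.2) := by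
        rw [smul_sub, smul_smul]
      rw [e, smul_mul_assoc, ← hy, smul_sub, smul_smul]
  | zero => simp
  | add x z _ _ hx hz =>
    simp only [Prod.fst_add, Prod.snd_add, add_mul, map_add, add_smul]
    have e : (tr x.1 • (1 : B) + tr z.1 • (1 : B) - (x.2 + z.2))
        = (tr x.1 • (1 : B) - x.2) + (tr z.1 • (1 : B) - z.2) := by abel
    rw [e, mul_add, ← hx, ← hz]
    abel
  | smul c x _ hx =>
    simp only [Prod.smul_fst, Prod.smul_snd, smul_mul_assoc, map_smul, smul_eq_mul]
    have e : ((c * tr x.1) • (1 : B) - c • x.2) = c • (tr x.1 • (1 : B) - x.2) := by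
      rw [smul_sub, smul_smul]
    rw [e, mul_smul_comm, ← hx, smul_sub, smul_smul]

/-- `n Y + Y n = tr(a) n` for `(0, n)` and `(a, Y)` in the span -/
theorem r38rep_anti (ρ : G →* A) (Θ : G →* B) (tr : A →ₗ[k] k) (d : G →* k)
    (hrel : ∀ g, Θ g * Θ g - tr (ρ g) • Θ g + d g • (1 : B) = 0)
    {n : B} (hn : ((0 : A), n) ∈ r38repP k ρ Θ) {y : A × B} (hy : y ∈ r38repP k ρ Θ) :
    n * y.2 + y.2 * n = tr y.1 • n := by
  have h := r38rep_S ρ Θ tr d hrel hn hy
  simp only [zero_mul, map_zero, zero_smul, zero_sub] at h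
  -- h : -(n * y.2) = (tr y.1 • 1 - y.2) * -n
  have e : (tr y.1 • (1 : B) - y.2) * -n = -(tr y.1 • n) + y.2 * n := by
    rw [mul_neg, sub_mul, smul_mul_assoc, one_mul]
    abel
  rw [e] at h
  have h' : n * y.2 = tr y.1 • n - y.2 * n := by
    have := congrArg (fun z => -z) h
    simp only [neg_neg, neg_add_rev] at this
    rw [this]
    abel
  rw [h']
  abel

/-- **Key lemma**: the span of the graph is a graph. -/
theorem r38rep_key (h2 : (2 : k) ≠ 0) (ρ : G →* A) (Θ : G →* B) (tr : A →ₗ[k] k) (d : G →* k)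
    (hrel : ∀ g, Θ g * Θ g - tr (ρ g) • Θ g + d g • (1 : B) = 0)
    (hspan : Submodule.span k (Set.range ρ) = ⊤)
    (a a' : A) (haa : (a * a' - a' * a) * (a * a' - a' * a) = 1)
    {n : B} (hn : ((0 : A), n) ∈ r38repP k ρ Θ) : n = 0 := by
  -- square zero
  have hsq : ∀ m : B, ((0 : A), m) ∈ r38repP k ρ Θ → m * m = 0 := by
    intro m hm
    have h := r38rep_anti ρ Θ tr d hrel hm hm
    simp only [map_zero, zero_smul] at h
    have h' : (2 : k) • (m * m) = 0 := by rw [two_smul]; exact h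
    rcases smul_eq_zero.mp h' with h0 | h0
    · exact absurd h0 h2
    · exact h0
  -- the first projection is onto
  have hsurj : ∀ x : A, ∃ Y : B, (x, Y) ∈ r38repP k ρ Θ := by
    intro x
    have hx : x ∈ Submodule.span k (Set.range ρ) := by rw [hspan]; trivial
    induction hx using Submodule.span_induction with
    | mem x hx =>
      obtain ⟨g, rfl⟩ := hx
      exact ⟨Θ g, r38rep_gen_mem ρ Θ g⟩
    | zero => exact ⟨0, Submodule.zero_mem _⟩
    | add x y _ _ hx hy =>
      obtain ⟨X, hX⟩ := hx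
      obtain ⟨Y, hY⟩ := hy
      exact ⟨X + Y, by simpa using Submodule.add_mem _ hX hY⟩
    | smul c x _ hx =>
      obtain ⟨X, hX⟩ := hx
      exact ⟨c • X, by simpa using Submodule.smul_mem _ c hX⟩
  -- `n` kills commutators
  have hcomm : ∀ m : B, ((0 : A), m) ∈ r38repP k ρ Θ → ∀ y ∈ r38repP k ρ Θ,
      ∀ z ∈ r38repP k ρ Θ, m * (y.2 * z.2 - z.2 * y.2) = 0 := by
    intro m hm y hy z hz
    have hmy : ((0 : A), m * y.2) ∈ r38repP k ρ Θ := by
      have := r38rep_mul_mem ρ Θ hm hy
      have e : ((0 : A), m) * y = (0, m * y.2) := by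
        ext <;> simp
      rwa [e] at this
    have h1 := r38rep_anti ρ Θ tr d hrel hmy hz
    have h2' := r38rep_anti ρ Θ tr d hrel hm hz
    -- h1 : m y z + z m y = t m y ;  h2' : m z + z m = t m
    have h3 : z.2 * m = tr z.1 • m - m * z.2 := by
      rw [← h2']
      abel
    have h4 : m * y.2 * z.2 + z.2 * (m * y.2) = tr z.1 • (m * y.2) := h1
    rw [← mul_assoc, h3, sub_mul, smul_mul_assoc] at h4
    rw [mul_sub, ← mul_assoc, ← mul_assoc]
    have h5 : m * y.2 * z.2 - m * z.2 * y.2
        = (m * y.2 * z.2 + (tr z.1 • (m * y.2) - m * z.2 * y.2)) - tr z.1 • (m * y.2) := by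
      abel
    rw [h5, h4, sub_self]
  obtain ⟨Y, hY⟩ := hsurj a
  obtain ⟨Y', hY'⟩ := hsurj a'
  set c : B := Y * Y' - Y' * Y with hc
  have hnc : ∀ m : B, ((0 : A), m) ∈ r38repP k ρ Θ → m * c = 0 := fun m hm =>
    hcomm m hm _ hY _ hY'
  -- (1, c * c) is in the span
  have hcP : (a * a' - a' * a, c) ∈ r38repP k ρ Θ := by
    have h1 := r38rep_mul_mem ρ Θ hY hY'
    have h2' := r38rep_mul_mem ρ Θ hY' hY
    have := Submodule.sub_mem _ h1 h2'
    simpa using this
  have hccP : ((1 : A), c * c) ∈ r38repP k ρ Θ := by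
    have := r38rep_mul_mem ρ Θ hcP hcP
    rw [Prod.mk_mul_mk, haa] at this
    exact this
  have hn' : ((0 : A), 1 - c * c) ∈ r38repP k ρ Θ := by
    have := Submodule.sub_mem _ (r38rep_one_mem (k := k) ρ Θ) hccP
    have e : (1 : A × B) - ((1 : A), c * c) = (0, 1 - c * c) := by
      ext <;> simp
    rwa [e] at this
  have e1 : n = n * (1 - c * c) := by
    rw [mul_sub, mul_one, ← mul_assoc, hnc n hn, zero_mul, sub_zero]
  have e2 : (1 - c * c) * (1 - c * c) = 0 := hsq _ hn'
  calc n = n * (1 - c * c) := e1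
    _ = n * (1 - c * c) * (1 - c * c) := congrArg (· * (1 - c * c)) e1
    _ = 0 := by rw [mul_assoc, e2, mul_zero]

/-- **The factorisation**: `Θ` factors through `ρ`. -/
theorem r38rep_exists_algHom (h2 : (2 : k) ≠ 0) (ρ : G →* A) (Θ : G →* B) (tr : A →ₗ[k] k)
    (d : G →* k) (hrel : ∀ g, Θ g * Θ g - tr (ρ g) • Θ g + d g • (1 : B) = 0)
    (hspan : Submodule.span k (Set.range ρ) = ⊤)
    (a a' : A) (haa : (a * a' - a' * a) * (a * a' - a' * a) = 1) :
    ∃ F : A →ₐ[k] B, ∀ g, F (ρ g) = Θ g := by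
  classical
  have hkey : ∀ n : B, ((0 : A), n) ∈ r38repP k ρ Θ → n = 0 := fun n hn =>
    r38rep_key h2 ρ Θ tr d hrel hspan a a' haa hn
  have huniq : ∀ (x : A) (Y Y' : B), (x, Y) ∈ r38repP k ρ Θ → (x, Y') ∈ r38repP k ρ Θ →
      Y = Y' := by
    intro x Y Y' hY hY'
    have := Submodule.sub_mem _ hY hY'
    rw [Prod.mk_sub_mk, sub_self] at this
    exact sub_eq_zero.mp (hkey _ this)
  have hsurj : ∀ x : A, ∃ Y : B, (x, Y) ∈ r38repP k ρ Θ := by
    intro x
    have hx : x ∈ Submodule.span k (Set.range ρ) := by rw [hspan]; trivial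
    induction hx using Submodule.span_induction with
    | mem x hx =>
      obtain ⟨g, rfl⟩ := hx
      exact ⟨Θ g, r38rep_gen_mem ρ Θ g⟩
    | zero => exact ⟨0, Submodule.zero_mem _⟩
    | add x y _ _ hx hy =>
      obtain ⟨X, hX⟩ := hx
      obtain ⟨Y, hY⟩ := hy
      exact ⟨X + Y, by simpa using Submodule.add_mem _ hX hY⟩
    | smul c x _ hx =>
      obtain ⟨X, hX⟩ := hx
      exact ⟨c • X, by simpa using Submodule.smul_mem _ c hX⟩
  choose f hf using hsurj
  have hfeq : ∀ (x : A) (Y : B), (x, Y) ∈ r38repP k ρ Θ → f x = Y := fun x Y hY =>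
    huniq x _ _ (hf x) hY
  refine ⟨AlgHom.ofLinearMap
    { toFun := f
      map_add' := fun x y => hfeq _ _ (by simpa using Submodule.add_mem _ (hf x) (hf y))
      map_smul' := fun c x => hfeq _ _ (by simpa using Submodule.smul_mem _ c (hf x)) }
    (hfeq _ _ (r38rep_one_mem (k := k) ρ Θ))
    (fun x y => hfeq _ _ (by simpa using r38rep_mul_mem ρ Θ (hf x) (hf y))), fun g => ?_⟩
  exact hfeq _ _ (r38rep_gen_mem ρ Θ g)

end Key

section Embed

variable {k : Type*} [Field k] {G : Type*} [Group G]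
  {E : Type*} [AddCommGroup E] [Module k E] {U : Type*} [AddCommGroup U] [Module k U]

/-- two endomorphisms of a plane whose commutator squares to `1` -/
theorem r38rep_exists_comm (hdim : Module.finrank k E = 2) :
    ∃ a a' : Module.End k E, (a * a' - a' * a) * (a * a' - a' * a) = 1 := by
  classical
  have hfin : Module.Finite k E := Module.finite_of_finrank_eq_succ hdim
  let b : Module.Basis (Fin 2) k E := Module.finBasisOfFinrankEq k E hdim
  let e : Module.End k E ≃ₐ[k] Matrix (Fin 2) (Fin 2) k := LinearMap.toMatrixAlgEquiv b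
  obtain ⟨M, M', h⟩ : ∃ M M' : Matrix (Fin 2) (Fin 2) k,
      (M * M' - M' * M) * (M * M' - M' * M) = 1 := by
    refine ⟨Matrix.of ![![0, 1], ![0, 0]], Matrix.of ![![0, 0], ![1, 0]], ?_⟩
    ext i j
    fin_cases i <;> fin_cases j <;> simp [Matrix.mul_apply, Fin.sum_univ_two]
  refine ⟨e.symm M, e.symm M', ?_⟩
  rw [← map_mul, ← map_mul, ← map_sub, ← map_mul, h, map_one]

/-- a representation spanning `End E` has no proper nonzero stable subspace -/
theorem r38rep_irr_of_span (ρ : G →* Module.End k E)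
    (h : Submodule.span k (Set.range ρ) = ⊤) (W : Submodule k E)
    (hW : ∀ g : G, ∀ x ∈ W, ρ g x ∈ W) : W = ⊥ ∨ W = ⊤ := by
  have hall : ∀ f : Module.End k E, ∀ x ∈ W, f x ∈ W := by
    intro f
    have hf : f ∈ Submodule.span k (Set.range ρ) := by rw [h]; trivial
    induction hf using Submodule.span_induction with
    | mem y hy =>
      obtain ⟨g, rfl⟩ := hy
      exact hW g
    | zero => intro x _; simp
    | add y z _ _ hy hz =>
      intro x hx
      rw [LinearMap.add_apply]
      exact W.add_mem (hy x hx) (hz x hx)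
    | smul c y _ hy =>
      intro x hx
      rw [LinearMap.smul_apply]
      exact W.smul_mem c (hy x hx)
  by_cases hbot : W = ⊥
  · exact Or.inl hbot
  right
  obtain ⟨w, hwW, hw0⟩ := (Submodule.ne_bot_iff W).mp hbot
  obtain ⟨φ, hφ⟩ : ∃ φ : Module.Dual k E, φ w ≠ 0 := by
    by_contra hcon
    push Not at hcon
    exact hw0 ((Module.forall_dual_apply_eq_zero_iff k w).mp hcon)
  rw [eq_top_iff]
  intro v _
  have := hall (φ.smulRight ((φ w)⁻¹ • v)) w hwW
  rw [LinearMap.smulRight_apply, smul_smul, mul_inv_cancel₀ hφ, one_smul] at this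
  exact this

/-- **The embedding**: if `Θ` satisfies the characteristic polynomials of the absolutely
irreducible two-dimensional `ρ`, every nonzero vector of `U` gives an equivariant embedding of
`E` into `U`. -/
theorem r38rep_embed (h2 : (2 : k) ≠ 0) (hdim : Module.finrank k E = 2)
    (ρ : G →* Module.End k E) (Θ : G →* Module.End k U)
    (hrel : ∀ g, Θ g * Θ g - LinearMap.trace k E (ρ g) • Θ g
      + LinearMap.det (ρ g) • (1 : Module.End k U) = 0)
    (hspan : Submodule.span k (Set.range ρ) = ⊤) (u : U) (hu : u ≠ 0) :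
    ∃ φ : E →ₗ[k] U, Function.Injective φ ∧ ∀ g x, φ (ρ g x) = Θ g (φ x) := by
  classical
  have hfin : Module.Finite k E := Module.finite_of_finrank_eq_succ hdim
  obtain ⟨a, a', haa⟩ := r38rep_exists_comm (k := k) (E := E) hdim
  obtain ⟨F, hF⟩ := r38rep_exists_algHom h2 ρ Θ (LinearMap.trace k E)
    ((LinearMap.det : Module.End k E →* k).comp ρ) hrel hspan a a' haa
  let b : Module.Basis (Fin 2) k E := Module.finBasisOfFinrankEq k E hdim
  -- the rank one decomposition of the identity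
  have hone : (1 : Module.End k E) = ∑ i, (b.coord i).smulRight (b i) := by
    apply LinearMap.ext
    intro x
    rw [Module.End.one_apply, LinearMap.sum_apply]
    simp only [LinearMap.smulRight_apply, Module.Basis.coord_apply]
    exact (b.sum_repr x).symm
  have hu' : ∃ i, F ((b.coord i).smulRight (b i)) u ≠ 0 := by
    by_contra hcon
    push Not at hcon
    apply hu
    have h1 : F 1 u = u := by rw [map_one]; rfl
    rw [← h1, hone, map_sum, LinearMap.sum_apply]
    exact Finset.sum_eq_zero fun i _ => hcon i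
  obtain ⟨i, hi⟩ := hu'
  let f : Module.Dual k E := b.coord i
  let φ : E →ₗ[k] U :=
    { toFun := fun e => F (f.smulRight e) u
      map_add' := fun x y => by
        have : f.smulRight (x + y) = f.smulRight x + f.smulRight y := by
          apply LinearMap.ext
          intro z
          simp
        rw [this, map_add, LinearMap.add_apply]
      map_smul' := fun c x => by
        have : f.smulRight (c • x) = c • f.smulRight x := by
          apply LinearMap.ext
          intro z
          rw [LinearMap.smul_apply, LinearMap.smulRight_apply, LinearMap.smulRight_apply,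
            smul_comm]
        rw [this, map_smul, LinearMap.smul_apply, RingHom.id_apply] }
  have hφ : ∀ e, φ e = F (f.smulRight e) u := fun _ => rfl
  have hequiv : ∀ g x, φ (ρ g x) = Θ g (φ x) := by
    intro g x
    have : f.smulRight (ρ g x) = ρ g * f.smulRight x := by
      apply LinearMap.ext
      intro z
      simp
    rw [hφ, hφ, this, map_mul, hF, Module.End.mul_apply]
  refine ⟨φ, ?_, hequiv⟩
  rw [← LinearMap.ker_eq_bot]
  rcases r38rep_irr_of_span ρ hspan (LinearMap.ker φ) (fun g x hx => by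
    rw [LinearMap.mem_ker] at hx ⊢
    rw [hequiv, hx, map_zero]) with h | h
  · exact h
  · exfalso
    apply hi
    have : b i ∈ LinearMap.ker φ := by rw [h]; trivial
    exact LinearMap.mem_ker.mp this

end Embed

section Powers

variable {k : Type*} [Field k]

/-- the Lucas sequence `V_m(t, d)` -/
def r38repLuc (t d : k) : ℕ → k
  | 0 => 2
  | 1 => t
  | (m + 2) => t * r38repLuc t d (m + 1) - d * r38repLuc t d m

/-- the Lucas recursion, with the explicit sequence -/
theorem r38rep_lucas_pair {R : Type*} [Ring R] [Algebra k R] (X Y : R)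
    (hXY : X * Y = 1) (hYX : Y * X = 1) (t d : k) (h : X + d • Y = t • (1 : R)) (m : ℕ) :
    X ^ m + d ^ m • Y ^ m = r38repLuc t d m • (1 : R) ∧
      X ^ (m + 1) + d ^ (m + 1) • Y ^ (m + 1) = r38repLuc t d (m + 1) • (1 : R) := by
  induction m with
  | zero =>
    refine ⟨?_, ?_⟩
    · simp only [pow_zero, one_smul, r38repLuc]
      rw [two_smul]
    · simpa [r38repLuc] using h
  | succ m ih =>
    obtain ⟨h₀, h₁⟩ := ih
    refine ⟨h₁, ?_⟩
    have e1 : X * Y ^ (m + 1) = Y ^ m := by
      rw [pow_succ', ← mul_assoc, hXY, one_mul]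
    have e2 : Y * X ^ (m + 1) = X ^ m := by
      rw [pow_succ', ← mul_assoc, hYX, one_mul]
    have key : (X + d • Y) * (X ^ (m + 1) + d ^ (m + 1) • Y ^ (m + 1))
        = (X ^ (m + 1 + 1) + d ^ (m + 1 + 1) • Y ^ (m + 1 + 1)) + d • (X ^ m + d ^ m • Y ^ m) := by
      have e3 : X * X ^ (m + 1) = X ^ (m + 1 + 1) := (pow_succ' X (m + 1)).symm
      have e4 : Y * Y ^ (m + 1) = Y ^ (m + 1 + 1) := (pow_succ' Y (m + 1)).symm
      simp only [add_mul, mul_add, smul_mul_assoc, mul_smul_comm, e1, e2, e3, e4, smul_smul,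
        smul_add]
      rw [pow_succ d (m + 1), pow_succ' d m]
      abel
    rw [h, h₁, h₀] at key
    have : X ^ (m + 1 + 1) + d ^ (m + 1 + 1) • Y ^ (m + 1 + 1)
        = t • (1 : R) * r38repLuc t d (m + 1) • (1 : R) - d • r38repLuc t d m • (1 : R) := by
      rw [key]; abel
    rw [this, smul_mul_smul_comm, mul_one, smul_smul]
    show _ = (t * r38repLuc t d (m + 1) - d * r38repLuc t d m) • (1 : R)
    rw [sub_smul]

theorem r38rep_lucas {R : Type*} [Ring R] [Algebra k R] (X Y : R)
    (hXY : X * Y = 1) (hYX : Y * X = 1) (t d : k) (h : X + d • Y = t • (1 : R)) (m : ℕ) :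
    X ^ m + d ^ m • Y ^ m = r38repLuc t d m • (1 : R) :=
  (r38rep_lucas_pair X Y hXY hYX t d h m).1

/-- from the quadratic relation to the linear one -/
theorem r38rep_lin_of_quad {R : Type*} [Ring R] [Algebra k R] (X Y : R)
    (hXY : X * Y = 1) (t d : k) (h : X * X - t • X + d • (1 : R) = 0) :
    X + d • Y = t • (1 : R) := by
  have h1 := congrArg (· * Y) h
  simp only [add_mul, sub_mul, zero_mul, smul_mul_assoc, one_mul, mul_assoc, hXY, mul_one] at h1
  -- h1 : X - t • 1 + d • Y = 0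
  have : X + d • Y = (X - t • (1 : R) + d • Y) + t • (1 : R) := by abel
  rw [this, h1, zero_add]

/-- from the linear relation to the quadratic one -/
theorem r38rep_quad_of_lin {R : Type*} [Ring R] [Algebra k R] (X Y : R)
    (hYX : Y * X = 1) (t d : k) (h : X + d • Y = t • (1 : R)) :
    X * X - t • X + d • (1 : R) = 0 := by
  have h1 := congrArg (· * X) h
  simp only [add_mul, smul_mul_assoc, one_mul, hYX] at h1
  -- h1 : X * X + d • 1 = t • X
  rw [← h1]
  abel

/-- **Powers**: if `X` satisfies the characteristic polynomial of the invertible plane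
endomorphism `R`, then `X ^ m` satisfies the characteristic polynomial of `R ^ m`. -/
theorem r38rep_rel_pow {E : Type*} [AddCommGroup E] [Module k E]
    (hdim : Module.finrank k E = 2) {B : Type*} [Ring B] [Algebra k B]
    (R Ri : Module.End k E) (hR : R * Ri = 1) (hRi : Ri * R = 1)
    (X Y : B) (hXY : X * Y = 1) (hYX : Y * X = 1)
    (hrel : X * X - LinearMap.trace k E R • X + LinearMap.det R • (1 : B) = 0) (m : ℕ) :
    X ^ m * X ^ m - LinearMap.trace k E (R ^ m) • X ^ m
      + LinearMap.det (R ^ m) • (1 : B) = 0 := by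
  have hCH := Fermat.Agent.EC.DetChar.cayley_hamilton_two hdim R
  rw [pow_two] at hCH
  have hRlin := r38rep_lin_of_quad R Ri hR _ _ hCH
  have hXlin := r38rep_lin_of_quad X Y hXY _ _ hrel
  have hRm := r38rep_lucas R Ri hR hRi _ _ hRlin m
  have hXm := r38rep_lucas X Y hXY hYX _ _ hXlin m
  have hRRm : R ^ m * Ri ^ m = 1 := by
    rw [← (Commute.mul_pow (show Commute R Ri from by rw [Commute, SemiconjBy, hR, hRi]) m),
      hR, one_pow]
  have hYXm : Y ^ m * X ^ m = 1 := by
    rw [← (Commute.mul_pow (show Commute Y X from by rw [Commute, SemiconjBy, hXY, hYX]) m),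
      hYX, one_pow]
  have hCHm := Fermat.Agent.EC.DetChar.cayley_hamilton_two hdim (R ^ m)
  rw [pow_two] at hCHm
  have hdet : LinearMap.det (R ^ m) = LinearMap.det R ^ m :=
    map_pow (LinearMap.det : Module.End k E →* k) R m
  have hRmlin := r38rep_lin_of_quad (R ^ m) (Ri ^ m) hRRm _ _ hCHm
  rw [hdet, hRm] at hRmlin
  -- the Lucas number is the trace
  have hL : r38repLuc (LinearMap.trace k E R) (LinearMap.det R) m
      = LinearMap.trace k E (R ^ m) := by
    have h0 : (r38repLuc (LinearMap.trace k E R) (LinearMap.det R) m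
        - LinearMap.trace k E (R ^ m)) • (1 : Module.End k E) = 0 := by
      rw [sub_smul, hRmlin, sub_self]
    exact sub_eq_zero.mp (Fermat.Agent.EC.DetChar.smul_one_end_eq_zero hdim h0)
  rw [hL] at hXm
  rw [hdet]
  exact r38rep_quad_of_lin (X ^ m) (Y ^ m) hYXm _ _ hXm

end Powers

end Fermat.Agent.R38
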