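import Fermat.Agent.R38.Plan
import Fermat.Agent.R38.RepAlg
import Fermat.Agent.RED.ModelTrace
import Fermat.Agent.EC.Abs
import Fermat.Agent.S53.BurnsideRep
import Fermat.Agent.Cheb.Final

/-!
# R38-REP: a copy of `E[p]` in the Jacobian

`stmtRep : StmtRep`.  In a `p`-adic Eichler–Shimura module `J` of level `M p`, the eigen-space
`U ⊆ J[p]` of the system `a_ℓ(W)` (good `ℓ`) is a `G_ℚ`-module on which every `σ` satisfies the
characteristic polynomial of `ρ̄_E(σ)` (weak Chebotarev, Eichler–Shimura relation, Lucas recursion).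
As `ρ̄_E` is absolutely irreducible (`p` odd: irreducible + odd), the action on `U` factors through
`End E[p]` (`r38rep_exists_algHom`), and every nonzero vector of `U` gives an equivariant embedding
`E[p] ↪ U` (`r38rep_embed`).
-/

set_option autoImplicit false

noncomputable section

namespace Fermat.Agent.R38

open ModularCurve Fermat.Agent.ES Fermat.Agent.S42 Fermat.Agent.RED Fermat.Agent.EC.DetChar
open WeierstrassCurve WeierstrassCurve.Affine WeierstrassCurve.Affine.Point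

/-! ### absolute irreducibility of `E[p]` -/

/-- the image of `G_ℚ` spans `End E[p]` (`p` odd, `E[p]` irreducible) -/
theorem r38rep_span (W : WeierstrassCurve ℤ) (hΔ : W.Δ ≠ 0) (p : ℕ) [hpF : Fact p.Prime]
    (hp2 : p ≠ 2) (hirr : W.ModRepIsIrreducible p) :
    Submodule.span (ZMod p) (Set.range (rhoBar (W.map (Int.castRingHom ℚ)) p)) = ⊤ := by
  have hp : p.Prime := hpF.out
  have hcard := card_torsQbar W hΔ hp.ne_zero
  have hfin : Finite (TorsQbar (W.map (Int.castRingHom ℚ)) p) := finite_of_card hcard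
  have hker : GaloisFactorsThroughFiniteLevel
      (galoisRepModuleEnd (K := AlgebraicClosure ℚ) ℚ (W.map (Int.castRingHom ℚ)) p) := by
    obtain ⟨E₀, hE₀, h⟩ := finite_level_of_finite_torsion (W.map (Int.castRingHom ℚ)) p hfin
    refine ⟨E₀, hE₀, fun σ hσ => ?_⟩
    apply LinearMap.ext
    intro x
    exact h σ hσ x
  let ρres : ResidualGaloisRep (ZMod p) :=
    (W.map (Int.castRingHom ℚ)).residualGaloisRepOf p hcard hker
  have hirr' : ρres.IsIrreducible := fun N hN => hirr.2 N fun σ x hx => hN σ x hx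
  have hodd : ρres.IsOdd := by
    intro c hcc hc1
    have h := det_of_model W hΔ hirr c
    have hc : cycloChar p c = -1 :=
      Fermat.Agent.EC.modularCyclotomicCharacter_involution (cyclo_card p) c hcc hc1
    rw [hc, Units.val_neg, Units.val_one] at h
    exact h
  have h2 : (2 : ZMod p) ≠ 0 := by
    intro h
    have h' : ((2 : ℕ) : ZMod p) = 0 := by exact_mod_cast h
    rw [ZMod.natCast_eq_zero_iff] at h'
    exact hp2 ((Nat.prime_dvd_prime_iff_eq hp Nat.prime_two).1 h')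
  have habs := Fermat.Agent.EC.isAbsolutelyIrreducible_of_isOdd h2 ρres hirr' hodd
  exact Fermat.Agent.S53.Burnside.span_range_eq_top ρres habs

/-! ### the eigen-space -/

section Eigen

variable (W : WeierstrassCurve ℤ) (M p : ℕ) (J : Type) [AddCommGroup J] [Module HeckeAlg J]

/-- the eigen-space of the system `a_ℓ(W)` in `J[p]` -/
def r38repU : AddSubgroup J where
  carrier := {x | p • x = 0 ∧
    ∀ ℓ ∈ goodFor W M p, heckeGen ℓ • x = (W.apOfModel ℓ : ℤ) • x}
  zero_mem' := ⟨smul_zero _, fun ℓ _ => by rw [smul_zero, smul_zero]⟩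
  add_mem' := by
    rintro x y ⟨hx, hx'⟩ ⟨hy, hy'⟩
    refine ⟨by rw [smul_add, hx, hy, add_zero], fun ℓ hℓ => ?_⟩
    rw [smul_add, smul_add, hx' ℓ hℓ, hy' ℓ hℓ]
  neg_mem' := by
    rintro x ⟨hx, hx'⟩
    refine ⟨by rw [smul_neg, hx, _root_.neg_zero], fun ℓ hℓ => ?_⟩
    rw [smul_neg, smul_neg, hx' ℓ hℓ]

variable {W M p J}

theorem r38rep_mem_U {x : J} : x ∈ r38repU W M p J ↔ p • x = 0 ∧
    ∀ ℓ ∈ goodFor W M p, heckeGen ℓ • x = (W.apOfModel ℓ : ℤ) • x := Iff.rfl

instance r38repUModule : Module (ZMod p) (r38repU W M p J) :=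
  AddCommGroup.zmodModule fun x => Subtype.ext (by
    rw [AddSubgroup.coe_nsmul, AddSubgroup.coe_zero]
    exact x.2.1)

variable [DistribMulAction GQ J]

theorem r38rep_stable (hcomm : ∀ (σ : GQ) (t : HeckeAlg) (x : J), σ • t • x = t • σ • x)
    (σ : GQ) {x : J} (hx : x ∈ r38repU W M p J) : σ • x ∈ r38repU W M p J := by
  refine ⟨?_, fun ℓ hℓ => ?_⟩
  · have := map_nsmul (DistribSMul.toAddMonoidHom J σ) p x
    simp only [DistribSMul.toAddMonoidHom_apply] at this
    rw [← this, hx.1, smul_zero]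
  · rw [← hcomm, hx.2 ℓ hℓ]
    have := map_zsmul (DistribSMul.toAddMonoidHom J σ) (W.apOfModel ℓ) x
    simpa only [DistribSMul.toAddMonoidHom_apply] using this

/-- the action of `G_ℚ` on the eigen-space -/
def r38repTheta (hcomm : ∀ (σ : GQ) (t : HeckeAlg) (x : J), σ • t • x = t • σ • x) :
    GQ →* Module.End (ZMod p) (r38repU W M p J) where
  toFun σ := AddMonoidHom.toZModLinearMap p
    { toFun := fun x => ⟨σ • (x : J), r38rep_stable hcomm σ x.2⟩
      map_zero' := Subtype.ext (smul_zero σ)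
      map_add' := fun x y => Subtype.ext (smul_add σ (x : J) (y : J)) }
  map_one' := by
    apply LinearMap.ext
    intro x
    exact Subtype.ext (one_smul GQ (x : J))
  map_mul' σ τ := by
    apply LinearMap.ext
    intro x
    exact Subtype.ext (mul_smul σ τ (x : J))

@[simp] theorem r38rep_theta_apply
    (hcomm : ∀ (σ : GQ) (t : HeckeAlg) (x : J), σ • t • x = t • σ • x) (σ : GQ)
    (x : r38repU W M p J) :
    ((r38repTheta hcomm σ x : r38repU W M p J) : J) = σ • (x : J) := rfl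

end Eigen

/-! ### the characteristic polynomials -/

section Main

variable {W : WeierstrassCurve ℤ} {M p : ℕ} {J : Type} [AddCommGroup J] [Module HeckeAlg J]
  [DistribMulAction GQ J]

/-- the Eichler–Shimura relation on the eigen-space, for a Frobenius at a good prime, in terms of
the trace and the determinant on `E[p]` -/
theorem r38rep_frob_rel [hpF : Fact p.Prime] (hΔ : W.Δ ≠ 0) (hirr : W.ModRepIsIrreducible p)
    (hM : 0 < M) (hES : ESDataInf (M * p) p J) {ℓ : ℕ} (hℓ : ℓ.Prime)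
    (hℓS : ℓ ∉ excSet W p ∪ (M * p).primeFactors)
    {A : ValuationSubring (AlgebraicClosure ℚ)} (hA : A.LiesOverPrime ℓ) {τ : GQ}
    (hτ : A.IsFrobeniusAt τ ℓ) :
    r38repTheta (W := W) (M := M) (p := p) hES.smul_comm τ * r38repTheta hES.smul_comm τ
      - LinearMap.trace (ZMod p) (TorsQbar (W.map (Int.castRingHom ℚ)) p)
          (rhoBar (W.map (Int.castRingHom ℚ)) p τ) • r38repTheta hES.smul_comm τ
      + LinearMap.det (rhoBar (W.map (Int.castRingHom ℚ)) p τ)
          • (1 : Module.End (ZMod p) (r38repU W M p J)) = 0 := by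
  have hp : p.Prime := hpF.out
  obtain ⟨h2, hd, hg⟩ := (not_mem_excSet_iff W hΔ hp.ne_zero hℓ).1
    (fun h => hℓS (Finset.mem_union_left _ h))
  have hℓMp : ¬ ℓ ∣ M * p := fun h => hℓS (Finset.mem_union_right _
    (Nat.mem_primeFactors.mpr ⟨hℓ, h, Nat.mul_ne_zero hM.ne' hp.ne_zero⟩))
  have hℓp : ℓ ≠ p := by
    rintro rfl
    exact hd dvd_rfl
  have hℓMpp : ¬ ℓ ∣ M * p * p := fun h => (hℓ.dvd_mul.mp h).elim hℓMp hd
  have htr : LinearMap.trace (ZMod p) (TorsQbar (W.map (Int.castRingHom ℚ)) p)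
      (rhoBar (W.map (Int.castRingHom ℚ)) p τ) = (W.apOfModel ℓ : ZMod p) :=
    galoisTrace_frob_of_model W hΔ hirr hℓ h2 hℓp hg hA hτ
  have hdet : LinearMap.det (rhoBar (W.map (Int.castRingHom ℚ)) p τ) = (ℓ : ZMod p) := by
    rw [det_of_model W hΔ hirr τ, cycloChar_frob p hp ℓ hℓ hℓp A hA τ hτ]
  rw [htr, hdet]
  apply LinearMap.ext
  intro x
  apply Subtype.ext
  rw [LinearMap.add_apply, LinearMap.sub_apply, Module.End.mul_apply, LinearMap.smul_apply,
    LinearMap.smul_apply, Module.End.one_apply, LinearMap.zero_apply, Int.cast_smul_eq_zsmul,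
    Nat.cast_smul_eq_nsmul, AddSubgroup.coe_add, AddSubgroup.coe_sub, AddSubgroup.coe_zsmul,
    AddSubgroup.coe_nsmul, AddSubgroup.coe_zero, r38rep_theta_apply, r38rep_theta_apply]
  have hfrob := hES.frob ℓ hℓ hℓMpp A hA τ hτ (x : J) ⟨1, by rw [pow_one]; exact x.2.1⟩
  have heig := (r38rep_stable hES.smul_comm τ x.2).2 ⟨ℓ, hℓ⟩ ⟨hℓMpp, hg⟩
  rw [heig] at hfrob
  exact hfrob

/-- a common finite level of `E[p]` and of the eigen-space -/
theorem r38rep_level [hpF : Fact p.Prime] (hΔ : W.Δ ≠ 0) (hES : ESDataInf (M * p) p J) :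
    ∃ F : IntermediateField ℚ (AlgebraicClosure ℚ), FiniteDimensional ℚ F ∧ IsGalois ℚ F ∧
      ∀ σ σ' : GQ, (∀ x ∈ F, σ x = σ' x) →
        rhoBar (W.map (Int.castRingHom ℚ)) p σ = rhoBar (W.map (Int.castRingHom ℚ)) p σ' ∧
        r38repTheta (W := W) (M := M) (p := p) hES.smul_comm σ = r38repTheta hES.smul_comm σ' := by
  classical
  have hp : p.Prime := hpF.out
  have hcard := card_torsQbar W hΔ hp.ne_zero
  obtain ⟨F₁, hF₁fin, -, hρ, -⟩ := exists_level (finite_of_card hcard) p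
  -- the levels of the points of `J[p]`
  have hJfin : Finite {x : J | p ^ 1 • x = 0} := (hES.finite 1).to_subtype
  let _ : Fintype {x : J | p ^ 1 • x = 0} := Fintype.ofFinite _
  have hlev : ∀ x : {x : J | p ^ 1 • x = 0}, ∃ E : IntermediateField ℚ (AlgebraicClosure ℚ),
      FiniteDimensional ℚ E ∧ ∀ σ : GQ, (∀ a ∈ E, σ a = a) → σ • (x : J) = x :=
    fun x => hES.finite_level x ⟨1, x.2⟩
  choose Ev hEvfin hEv using hlev
  obtain ⟨F, hFfin, hFnorm, hFle⟩ := stmtHull (insert F₁ (Finset.univ.image Ev)) (by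
    intro E hE
    rcases Finset.mem_insert.mp hE with rfl | hE
    · exact hF₁fin
    obtain ⟨v, -, rfl⟩ := Finset.mem_image.mp hE
    exact hEvfin v)
  have hF₁ : F₁ ≤ F := hFle _ (Finset.mem_insert_self _ _)
  have hFv : ∀ v, Ev v ≤ F := fun v => hFle _
    (Finset.mem_insert_of_mem (Finset.mem_image_of_mem Ev (Finset.mem_univ v)))
  refine ⟨F, hFfin, IsGalois.mk, fun σ σ' h => ⟨hρ σ σ' fun x hx => h x (hF₁ hx), ?_⟩⟩
  apply LinearMap.ext
  intro x
  apply Subtype.ext
  rw [r38rep_theta_apply, r38rep_theta_apply]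
  have hx : (x : J) ∈ {x : J | p ^ 1 • x = 0} := by
    show p ^ 1 • (x : J) = 0
    rw [pow_one]
    exact x.2.1
  have hfix : ∀ a ∈ Ev ⟨x, hx⟩, (σ'⁻¹ * σ) a = a := by
    intro a ha
    rw [AlgEquiv.mul_apply, h a (hFv _ ha)]
    exact σ'.symm_apply_apply a
  have := hEv ⟨x, hx⟩ _ hfix
  rw [mul_smul, inv_smul_eq_iff] at this
  exact this

/-- **every `σ` satisfies, on the eigen-space, the characteristic polynomial of `ρ̄_E(σ)`** -/
theorem r38rep_hrel [hpF : Fact p.Prime] (hΔ : W.Δ ≠ 0) (hirr : W.ModRepIsIrreducible p)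
    (hM : 0 < M) (hES : ESDataInf (M * p) p J) (σ : GQ) :
    r38repTheta (W := W) (M := M) (p := p) hES.smul_comm σ * r38repTheta hES.smul_comm σ
      - LinearMap.trace (ZMod p) (TorsQbar (W.map (Int.castRingHom ℚ)) p)
          (rhoBar (W.map (Int.castRingHom ℚ)) p σ) • r38repTheta hES.smul_comm σ
      + LinearMap.det (rhoBar (W.map (Int.castRingHom ℚ)) p σ)
          • (1 : Module.End (ZMod p) (r38repU W M p J)) = 0 := by
  have hp : p.Prime := hpF.out
  have hcard := card_torsQbar W hΔ hp.ne_zero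
  have hdim := finrank_of_card hcard
  obtain ⟨F, hFfin, hFgal, hlev⟩ := r38rep_level (W := W) (M := M) hΔ hES
  obtain ⟨ℓ, A, τ, m, hℓ, hℓS, hA, hτ, hm⟩ :=
    Fermat.Agent.Cheb.exists_frobenius_pow_eq F (excSet W p ∪ (M * p).primeFactors) σ
  obtain ⟨h1, h2⟩ := hlev (τ ^ m) σ hm
  rw [← h1, ← h2, map_pow, map_pow]
  have hfr := r38rep_frob_rel hΔ hirr hM hES hℓ hℓS hA hτ
  refine r38rep_rel_pow hdim (rhoBar (W.map (Int.castRingHom ℚ)) p τ)
    (rhoBar (W.map (Int.castRingHom ℚ)) p τ⁻¹) ?_ ?_ (r38repTheta hES.smul_comm τ)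
    (r38repTheta hES.smul_comm τ⁻¹) ?_ ?_ hfr m
  · rw [← map_mul, mul_inv_cancel, map_one]
  · rw [← map_mul, inv_mul_cancel, map_one]
  · rw [← map_mul, mul_inv_cancel, map_one]
  · rw [← map_mul, inv_mul_cancel, map_one]

end Main

/-! ### R38-REP -/

/-- **R38-REP**. -/
theorem stmtRep : StmtRep := by
  intro W hΔ p hp hp2 hirr M hM J _ _ _ hES v hv0 hpv heig
  have hpF : Fact p.Prime := ⟨hp⟩
  have hcard := card_torsQbar W hΔ hp.ne_zero
  have hdim := finrank_of_card hcard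
  have h2 : (2 : ZMod p) ≠ 0 := by
    intro h
    have h' : ((2 : ℕ) : ZMod p) = 0 := by exact_mod_cast h
    rw [ZMod.natCast_eq_zero_iff] at h'
    exact hp2 ((Nat.prime_dvd_prime_iff_eq hp Nat.prime_two).1 h')
  have hvU : v ∈ r38repU W M p J := ⟨hpv, heig⟩
  have hu : (⟨v, hvU⟩ : r38repU W M p J) ≠ 0 := fun h => hv0 (congrArg Subtype.val h)
  obtain ⟨φ, hφinj, hφ⟩ := r38rep_embed h2 hdim (rhoBar (W.map (Int.castRingHom ℚ)) p)
    (r38repTheta (W := W) (M := M) (p := p) hES.smul_comm) (r38rep_hrel hΔ hirr hM hES)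
    (r38rep_span W hΔ p hp2 hirr) ⟨v, hvU⟩ hu
  -- the embedding into `J`
  let ψ : TorsQbar (W.map (Int.castRingHom ℚ)) p →+ J :=
    (r38repU W M p J).subtype.comp φ.toAddMonoidHom
  have hψ : ∀ y, ψ y = ((φ y : r38repU W M p J) : J) := fun _ => rfl
  have hψinj : Function.Injective ψ := fun y y' h => hφinj (Subtype.ext h)
  have hψσ : ∀ (σ : GQ) y, ψ (σ • y) = σ • ψ y := by
    intro σ y
    have := congrArg Subtype.val (hφ σ y)
    rw [r38rep_theta_apply] at this
    exact this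
  refine ⟨ψ.range, (AddMonoidHom.ofInjective hψinj).symm, ?_, ?_, ?_, ?_⟩
  · rintro x ⟨y, rfl⟩
    exact (φ y).2.1
  · rintro x ⟨y, rfl⟩ ℓ hℓ
    exact (φ y).2.2 ℓ hℓ
  · rintro σ x ⟨y, rfl⟩
    exact ⟨σ • y, hψσ σ y⟩
  · intro σ x
    rw [AddEquiv.symm_apply_eq]
    apply Subtype.ext
    rw [AddMonoidHom.ofInjective_apply, hψσ]
    have hx : ψ ((AddMonoidHom.ofInjective hψinj).symm x) = (x : J) := by
      rw [← AddMonoidHom.ofInjective_apply hψinj, AddEquiv.apply_symm_apply]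
    rw [hx]

end Fermat.Agent.R38
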