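import Fermat.Agent.R38.Plan
import Fermat.Agent.S33.PlanKey
import Fermat.Agent.STB.PushPoly

/-!
# R38, piece PKG-TORIC (wiring): the `toric` clause from `S33.StmtWildT`

`S33.StmtWildT` (= C3 + C4 of S33 v2): the inertia group at `P ∣ p` acts through the cyclotomic
character on the new part of exponent `p` of the inertia span of `J₀(Mp)[pⁿ]`.

* `r38toric_cycloExp` : `σ ζ = ζ ^ cycloExp p σ` for every `p`-th root of unity `ζ`;
* `r38toric_jZero` : the `toric` clause on `J₀(Mp)(ℚ̄) = JZero (M * p)`;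
* `r38toric_pDiv`  : the `toric` clause on `PDiv (M * p) p` (action `pDivGalois`,
  `π = (stbPushAlphaP, stbPushBetaP)`).
-/

set_option autoImplicit false
set_option linter.style.haveILetI false

noncomputable section

namespace Fermat.Agent.R38

open ModularCurve Fermat.Agent.ES Fermat.Agent.STB Fermat.Agent.S33 ExtCitation

/-- the defining property of `cycloExp` -/
theorem r38toric_cycloExp (p : ℕ) [hpF : Fact p.Prime] (σ : GQ) (ζ : Qb) (hζ : ζ ^ p = 1) :
    σ ζ = ζ ^ cycloExp p σ := by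
  haveI : NeZero p := ⟨hpF.out.ne_zero⟩
  have hζ0 : ζ ≠ 0 := by
    rintro rfl
    rw [zero_pow hpF.out.ne_zero] at hζ
    exact zero_ne_one hζ
  let t : Qbˣ := Units.mk0 ζ hζ0
  have ht : t ∈ rootsOfUnity p Qb := by
    rw [mem_rootsOfUnity]
    apply Units.ext
    simpa [t] using hζ
  have h := modularCyclotomicCharacter.spec Qb (card_rootsOfUnity_eq_self p)
    (σ : Qb ≃+* Qb) (t := t) ht
  simpa [cycloExp, t] using h

section

variable (M p : ℕ) [NeZero M] [hpF : Fact p.Prime]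

/-- **PKG-TORIC on `J₀(Mp)(ℚ̄)`.** -/
theorem r38toric_jZero (hW : StmtWildT) (hp2 : p ≠ 2) (hpM : ¬ p ∣ M)
    (A : ValuationSubring Qb) (hA : A.LiesOverPrime p)
    (x : JZero (M * p)) (hx : p • x = 0)
    (hα : haveI : NeZero p := ⟨hpF.out.ne_zero⟩; stbPushAlpha M p x = 0)
    (hβ : haveI : NeZero p := ⟨hpF.out.ne_zero⟩; stbPushBeta M p x = 0)
    (σ : GQ) (hσ : σ ∈ A.inertiaSubgroupIn ℚ) (τ : GQ) (hτ : τ ∈ A.inertiaSubgroupIn ℚ) :
    τ • (σ • x - x) = cycloExp p τ • (σ • x - x) := by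
  haveI : NeZero p := ⟨hpF.out.ne_zero⟩
  have hmem : σ • x - x ∈ c2New M p (A.inertiaSubgroupIn ℚ) 1 := by
    rw [c2_mem_new_iff]
    refine ⟨?_, ?_, ?_, ?_⟩
    · have hxT : x ∈ ntsTors (JZero (M * p)) (p ^ 1) := by
        show p ^ 1 • x = 0
        rw [pow_one]
        exact hx
      exact sub_mem_ntsSpan (act := jAct (M * p)) hσ hxT
    · rw [map_sub, ← jAct_apply, c2_alpha_equivariant, hα, sub_zero]
      exact jAct_zero M σ
    · rw [map_sub, ← jAct_apply, c2_beta_equivariant, hβ, sub_zero]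
      exact jAct_zero M σ
    · rw [nsmul_sub, ← jAct_apply, ← jAct_nsmul, hx, sub_zero]
      exact jAct_zero (M * p) σ
  exact hW M p hpF.out hp2 hpM A hA τ hτ (cycloExp p τ)
    (fun ζ hζ => r38toric_cycloExp p τ ζ hζ) 1 (σ • x - x) hmem

/-- **PKG-TORIC on `PDiv (M * p) p`**, the `J` of the Eichler–Shimura package. -/
theorem r38toric_pDiv (hW : StmtWildT) (hp2 : p ≠ 2) (hpM : ¬ p ∣ M)
    (A : ValuationSubring Qb) (hA : A.LiesOverPrime p) :
    letI := pDivGalois (M * p) p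
    haveI : NeZero p := ⟨hpF.out.ne_zero⟩
    ∀ x : PDiv (M * p) p, p • x = 0 →
      stbPushAlphaP M p p x = 0 → stbPushBetaP M p p x = 0 →
      ∀ σ ∈ A.inertiaSubgroupIn ℚ, ∀ τ ∈ A.inertiaSubgroupIn ℚ,
        τ • (σ • x - x) = cycloExp p τ • (σ • x - x) := by
  letI := pDivGalois (M * p) p
  haveI : NeZero p := ⟨hpF.out.ne_zero⟩
  intro x hx hα hβ σ hσ τ hτ
  apply Subtype.ext
  have hx' : p • (x : JZero (M * p)) = 0 := by
    have := congrArg Subtype.val hx
    simpa using this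
  have hα' : stbPushAlpha M p (x : JZero (M * p)) = 0 := by
    have := congrArg Subtype.val hα
    rwa [stbPushAlphaP_coe] at this
  have hβ' : stbPushBeta M p (x : JZero (M * p)) = 0 := by
    have := congrArg Subtype.val hβ
    rwa [stbPushBetaP_coe] at this
  have key := r38toric_jZero M p hW hp2 hpM A hA (x : JZero (M * p)) hx' hα' hβ' σ hσ τ hτ
  simpa [pDivGalois_coe] using key

end

end Fermat.Agent.R38
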