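import Fermat.Agent.R38.PkgFrame
import Fermat.Agent.R38.Toric

/-!
# R38, piece PKG-TORIC: `StmtToricP` from `S33.StmtWildT`

`stmtToricP_of : S33.StmtWildT → StmtToricP` (the `toric` clause of the frame `R38/PkgFrame.lean`).
-/

set_option autoImplicit false

namespace Fermat.Agent.R38

/-- **PKG-TORIC** from C3 + C4 of S33 v2. -/
theorem stmtToricP_of (hW : Fermat.Agent.S33.StmtWildT) : StmtToricP := by
  intro M p _ _ _ hp2 hpM A hA x hx hα hβ σ hσ τ hτ
  exact r38toric_pDiv M p hW hp2 hpM A hA x hx hα hβ σ hσ τ hτ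

end Fermat.Agent.R38
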