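import Fermat.Agent.S33.WildOfKummer
import Fermat.Agent.RIB.MP.Plan
import Fermat.Agent.R38.Toric
import Fermat.Agent.ES.HModular
import Fermat.Agent.R38.PlanTres

/-!
# Row 38, PKG-TRES, piece T0 (helper53): DEPTH⁺ ⇒ toric

`N = M p`, `p ∤ M`, `p` odd, `A ⊂ ℚ̄` a valuation ring over `p`, `x ∈ J₀(Mp)[p]` NEW in the
push-forward sense (`α_* x = 0 = β_* x`).  If one Kummer function of `x` is, up to a `p`-th power,
Gauss-constant at `v_∞` (or at `v_0`), then the inertia group of `A` acts on `x` through the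
cyclotomic character.

Proof: the norms of a Kummer function `u` of `x` along `α`, `β` are Kummer functions of
`α_* x = 0`, `β_* x = 0`, so constants times `p`-th powers; with the Gauss-constancy
`S33.stmtNewSplit` (C3, on main) makes `u` split, and (C4) `S33.StmtWildKummer` gives
`τ u / u ^ a ∈ F^{× p}`, `a = cycloExp p τ`, i.e. `τ x = a x`.

* `trest0_kummerRel_div_pow` : `u / k ^ n` is a Kummer function of `x` if `u` is;
* `trest0_split` : new + Gauss-constant at `v_∞` or `v_0` ⇒ split (`IsSplitFn`);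
* `trest0_jZero_of_gauss` : the statement for a Kummer function which is Gauss-constant at `v_∞`
  or at `v_0`;
* `trest0_jZero_of_depth` : the same with `u / k ^ p` Gauss-constant (DEPTH⁺);
* `trest0_jZero_trivInf`, `trest0_jZero_trivZero` : in the vocabulary `TrivInf`, `TrivZero` of
  `RIB/MP/Plan.lean`;
* `trest0_pDiv_trivInf`, `trest0_pDiv_trivZero` : on `PDiv (M * p) p`, the `J` of the package of
  row 38.
-/

set_option autoImplicit false
set_option linter.style.haveILetI false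
set_option linter.unusedSectionVars false

noncomputable section

namespace Fermat.Agent.R38

open ModularCurve AlgebraicCurve Fermat.Agent.ES Fermat.Agent.ES.G2 Fermat.Agent.STB
  Fermat.Agent.S33 Fermat.Agent.RIB.MP ExtCitation

section Generic

variable {K F : Type*} [Field K] [Field F] [Algebra K F]

/-- dividing a Kummer function by an `n`-th power -/
theorem trest0_kummerRel_div_pow [HasPrincipalDivisors K F] {n : ℕ} (hn : n ≠ 0)
    {x : Pic0 K F} {u : F} (h : KummerRel n x u) {k : F} (hk : k ≠ 0) :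
    KummerRel n x (u / k ^ n) := by
  have hkn : k ^ n ≠ 0 := pow_ne_zero n hk
  have hu : u ≠ 0 := h.ne_zero
  have hdvd : ∀ v : Place K F, (n : ℤ) ∣ v.ord (u / k ^ n) := by
    intro v
    have h1 : v.ord (k ^ n) = (n : ℤ) * v.ord k := by
      have := v.ord_zpow k (n : ℤ)
      rwa [zpow_natCast] at this
    rw [div_eq_mul_inv, v.ord_mul hu (inv_ne_zero hkn), v.ord_inv, h1]
    exact dvd_add (wok_dvd_ord h v) (Dvd.intro _ rfl).neg_right
  obtain ⟨x', -, hx'⟩ := exists_kummerRel_of_dvd hn (div_ne_zero hu hkn) hdvd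
  have h2 : KummerRel n (x - x') (u / (u / k ^ n)) := h.sub hx'
  have e : u / (u / k ^ n) = 1 * k ^ n := by
    field_simp
  rw [e] at h2
  have h3 : x - x' = 0 := KummerRel.eq_zero_of_pow hn (fun v => v.ord_one) h2
  rw [sub_eq_zero.mp h3]
  exact hx'

end Generic

section Main

variable (M p : ℕ) [NeZero M] [hpF : Fact p.Prime]

/-- **C3 for new classes**: a Kummer function of a new class which is Gauss-constant at `v_∞` or
at `v_0` is split. -/
theorem trest0_split (hpM : ¬ p ∣ M) (A : ValuationSubring Qb) (hA : A.LiesOverPrime p) :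
    haveI : NeZero p := ⟨hpF.out.ne_zero⟩
    ∀ (x : JZero (M * p)), stbPushAlpha M p x = 0 → stbPushBeta M p x = 0 →
      ∀ u : modularFunctionFieldBar (M * p), KummerRel p x u →
        (GaussConst A (M * p) u ∨
          GaussConst A (M * p) (Fermat.Agent.UNIP.atkinLehnerBar hpF.out hpM u)) →
        IsSplitFn hpF.out hpM A u := by
  haveI : NeZero p := ⟨hpF.out.ne_zero⟩
  intro x hα hβ u hu hG
  have hNα : ∃ (a : Qb) (f : modularFunctionFieldBar M),
      stbNormAlpha M p u = algebraMap Qb (modularFunctionFieldBar M) a * f ^ p := by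
    have := stb_kummerRel_pushAlpha M p hu
    rw [hα] at this
    exact s33nc_const_pow_of_kummerRel_zero M p this
  have hNβ : ∃ (a : Qb) (f : modularFunctionFieldBar M),
      stbNormBeta M p u = algebraMap Qb (modularFunctionFieldBar M) a * f ^ p := by
    have := stb_kummerRel_pushBeta M p hu
    rw [hβ] at this
    exact s33nc_const_pow_of_kummerRel_zero M p this
  exact stmtNewSplit hpF.out hpM A hA u hu.ne_zero hNα hNβ hG

/-- **TRES-T0 on `J₀(Mp)(ℚ̄)`**, for a Kummer function which is Gauss-constant at `v_∞` or at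
`v_0`. -/
theorem trest0_jZero_of_gauss (hW : StmtWildKummer) (hp2 : p ≠ 2) (hpM : ¬ p ∣ M)
    (A : ValuationSubring Qb) (hA : A.LiesOverPrime p) :
    haveI : NeZero p := ⟨hpF.out.ne_zero⟩
    ∀ (x : JZero (M * p)), stbPushAlpha M p x = 0 → stbPushBeta M p x = 0 →
      ∀ u : modularFunctionFieldBar (M * p), KummerRel p x u →
        (GaussConst A (M * p) u ∨
          GaussConst A (M * p) (Fermat.Agent.UNIP.atkinLehnerBar hpF.out hpM u)) →
        ∀ τ ∈ A.inertiaSubgroupIn ℚ, τ • x = cycloExp p τ • x := by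
  haveI : NeZero p := ⟨hpF.out.ne_zero⟩
  intro x hα hβ u hu hG τ hτ
  have hsplit := trest0_split M p hpM A hA x hα hβ u hu hG
  obtain ⟨k, hk⟩ := hW p M hpF.out hpM hp2 A hA τ hτ (cycloExp p τ)
    (fun ζ hζ => r38toric_cycloExp p τ ζ hζ) u hu.ne_zero (wok_dvd_ord hu) hsplit
  exact wok_smul_eq_nsmul (arithmeticGalois (modularFunctionFieldFull (M * p)) τ)
    hpF.out.ne_zero hu (cycloExp p τ) hk

/-- **TRES-T0 on `J₀(Mp)(ℚ̄)`, DEPTH⁺ form**: some Kummer function of `x` is, up to a `p`-th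
power, Gauss-constant at `v_∞` or at `v_0`. -/
theorem trest0_jZero_of_depth (hW : StmtWildKummer) (hp2 : p ≠ 2) (hpM : ¬ p ∣ M)
    (A : ValuationSubring Qb) (hA : A.LiesOverPrime p) :
    haveI : NeZero p := ⟨hpF.out.ne_zero⟩
    ∀ (x : JZero (M * p)), stbPushAlpha M p x = 0 → stbPushBeta M p x = 0 →
      ∀ u : modularFunctionFieldBar (M * p), KummerRel p x u →
        ∀ k : modularFunctionFieldBar (M * p), k ≠ 0 →
        (GaussConst A (M * p) (u / k ^ p) ∨
          GaussConst A (M * p) (Fermat.Agent.UNIP.atkinLehnerBar hpF.out hpM (u / k ^ p))) →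
        ∀ τ ∈ A.inertiaSubgroupIn ℚ, τ • x = cycloExp p τ • x := by
  haveI : NeZero p := ⟨hpF.out.ne_zero⟩
  intro x hα hβ u hu k hk hG τ hτ
  haveI : HasPrincipalDivisors (AlgebraicClosure ℚ) (modularFunctionFieldBar (M * p)) :=
    Fermat.Agent.ES.H.hasPrincipalDivisors_FF (M * p)
  exact trest0_jZero_of_gauss M p hW hp2 hpM A hA x hα hβ (u / k ^ p)
    (trest0_kummerRel_div_pow hpF.out.ne_zero hu hk) hG τ hτ

/-- **TRES-T0**, `TrivInf` form. -/
theorem trest0_jZero_trivInf (hW : StmtWildKummer) (hp2 : p ≠ 2) (hpM : ¬ p ∣ M)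
    (A : ValuationSubring Qb) (hA : A.LiesOverPrime p) :
    haveI : NeZero p := ⟨hpF.out.ne_zero⟩
    ∀ (x : JZero (M * p)), stbPushAlpha M p x = 0 → stbPushBeta M p x = 0 →
      TrivInf A p x → ∀ τ ∈ A.inertiaSubgroupIn ℚ, τ • x = cycloExp p τ • x := by
  haveI : NeZero p := ⟨hpF.out.ne_zero⟩
  intro x hα hβ hT τ hτ
  obtain ⟨u, hu, hG⟩ := hT
  exact trest0_jZero_of_gauss M p hW hp2 hpM A hA x hα hβ u hu (Or.inl hG) τ hτ

/-- **TRES-T0**, `TrivZero` form. -/
theorem trest0_jZero_trivZero (hW : StmtWildKummer) (hp2 : p ≠ 2) (hpM : ¬ p ∣ M)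
    (A : ValuationSubring Qb) (hA : A.LiesOverPrime p) :
    haveI : NeZero p := ⟨hpF.out.ne_zero⟩
    ∀ (x : JZero (M * p)), stbPushAlpha M p x = 0 → stbPushBeta M p x = 0 →
      TrivZero hpF.out hpM A p x → ∀ τ ∈ A.inertiaSubgroupIn ℚ, τ • x = cycloExp p τ • x := by
  haveI : NeZero p := ⟨hpF.out.ne_zero⟩
  intro x hα hβ hT τ hτ
  obtain ⟨u, hu, hG⟩ := hT
  exact trest0_jZero_of_gauss M p hW hp2 hpM A hA x hα hβ u hu (Or.inr hG) τ hτ

/-- **TRES-T0 on `PDiv (M * p) p`**, `TrivInf` form. -/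
theorem trest0_pDiv_trivInf (hW : StmtWildKummer) (hp2 : p ≠ 2) (hpM : ¬ p ∣ M)
    (A : ValuationSubring Qb) (hA : A.LiesOverPrime p) :
    letI := pDivGalois (M * p) p
    haveI : NeZero p := ⟨hpF.out.ne_zero⟩
    ∀ x : PDiv (M * p) p, stbPushAlphaP M p p x = 0 → stbPushBetaP M p p x = 0 →
      TrivInf A p (x : JZero (M * p)) →
      ∀ τ ∈ A.inertiaSubgroupIn ℚ, τ • x = cycloExp p τ • x := by
  letI := pDivGalois (M * p) p
  haveI : NeZero p := ⟨hpF.out.ne_zero⟩
  intro x hα hβ hT τ hτ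
  apply Subtype.ext
  have hα' : stbPushAlpha M p (x : JZero (M * p)) = 0 := by
    have := congrArg Subtype.val hα
    rwa [stbPushAlphaP_coe] at this
  have hβ' : stbPushBeta M p (x : JZero (M * p)) = 0 := by
    have := congrArg Subtype.val hβ
    rwa [stbPushBetaP_coe] at this
  have key := trest0_jZero_trivInf M p hW hp2 hpM A hA (x : JZero (M * p)) hα' hβ' hT τ hτ
  simpa [pDivGalois_coe] using key

/-- **TRES-T0 on `PDiv (M * p) p`**, `TrivZero` form. -/
theorem trest0_pDiv_trivZero (hW : StmtWildKummer) (hp2 : p ≠ 2) (hpM : ¬ p ∣ M)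
    (A : ValuationSubring Qb) (hA : A.LiesOverPrime p) :
    letI := pDivGalois (M * p) p
    haveI : NeZero p := ⟨hpF.out.ne_zero⟩
    ∀ x : PDiv (M * p) p, stbPushAlphaP M p p x = 0 → stbPushBetaP M p p x = 0 →
      TrivZero hpF.out hpM A p (x : JZero (M * p)) →
      ∀ τ ∈ A.inertiaSubgroupIn ℚ, τ • x = cycloExp p τ • x := by
  letI := pDivGalois (M * p) p
  haveI : NeZero p := ⟨hpF.out.ne_zero⟩
  intro x hα hβ hT τ hτ
  apply Subtype.ext
  have hα' : stbPushAlpha M p (x : JZero (M * p)) = 0 := by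
    have := congrArg Subtype.val hα
    rwa [stbPushAlphaP_coe] at this
  have hβ' : stbPushBeta M p (x : JZero (M * p)) = 0 := by
    have := congrArg Subtype.val hβ
    rwa [stbPushBetaP_coe] at this
  have key := trest0_jZero_trivZero M p hW hp2 hpM A hA (x : JZero (M * p)) hα' hβ' hT τ hτ
  simpa [pDivGalois_coe] using key

end Main

end Fermat.Agent.R38

namespace Fermat.Agent.R38

open Fermat.Agent.S33 in
/-- **TRES-T0** (`R38/PlanTres.lean`) from (C4) of S33 v2 in Kummer form. -/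
theorem stmtTresT0_of (hW : StmtWildKummer) : StmtTresT0 := by
  intro M p _ _ _ _ hp2 hpM A hA x _ hα hβ hT τ hτ
  exact trest0_jZero_trivInf M p hW hp2 hpM A hA x hα hβ hT τ hτ

end Fermat.Agent.R38
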