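/-
ROW 38, target S44: the top wiring (helper44).

`s44_of : S33.StmtWildKummer → StmtTresTriv → StmtEpmFrey → RIB.StmtP`
(`RIB.StmtP` is the shape of the frozen S44; it is also the input `StmtP` of row 37).

What is left of row 38 after this file:
* `S33.StmtWildKummer`  (S33, block C4: the wild team of S33);
* `StmtTresTriv`        (TRES: (FAC-p) + HOL-dlog, NOTES/R38-TRES.md);
* `StmtEpmFrey`         (EPEU-MULT: the Frey curve at `p ∣ abc` is peu ramifié, NOTES/R38-EPM.md).
-/
import Fermat.Agent.R38.Glue5
import Fermat.Agent.R38.TresAlg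
import Fermat.Agent.R38.TresT0
import Fermat.Agent.R38.ToricP
import Fermat.Agent.R38.Lift
import Fermat.Agent.R38.Rep
import Fermat.Agent.R38.EDet

set_option autoImplicit false

namespace Fermat.Agent.R38

/-- **Row 38 (S44 form) from the three open inputs.** -/
theorem s44_of (hWK : Fermat.Agent.S33.StmtWildKummer) (hTriv : StmtTresTriv)
    (hEpm : StmtEpmFrey) : Fermat.Agent.RIB.StmtP :=
  stmtP_of stmtLift stmtRep stmtEDet hEpm
    (stmtPkgCore5_of (stmtToricP_of (Fermat.Agent.S33.stmtWildT_of_kummer hWK))
      (stmtTresP5_of_triv hTriv (stmtTresT0_of hWK)))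

end Fermat.Agent.R38
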