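/-
ROW 38, target S44 (helper44): the LAST open input.

`S33.stmtWildKummer` (S33 block C4, landed) and `stmtEpmFrey` (EPEU-MULT, landed) are plugged
into the top wiring `s44_of` (`R38/S44Of.lean`):

* `stmtTresT0 : StmtTresT0`            (TRES-T0, unconditional);
* `stmtToricP' : StmtToricP`           is inside `s44_of`;
* `s44_of_tres : StmtTresTriv → RIB.StmtP` — S44 (and the input `StmtP` of row 37) from TRES-TRIV.
-/
import Fermat.Agent.R38.S44Of
import Fermat.Agent.R38.EPM.Final
import Fermat.Agent.S33.WildKummerFinal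

set_option autoImplicit false

namespace Fermat.Agent.R38

/-- **TRES-T0**, unconditional. -/
theorem stmtTresT0 : StmtTresT0 :=
  stmtTresT0_of Fermat.Agent.S33.stmtWildKummer

/-- **Row 38 (S44 form) from TRES-TRIV alone.** -/
theorem s44_of_tres (hTriv : StmtTresTriv) : Fermat.Agent.RIB.StmtP :=
  s44_of Fermat.Agent.S33.stmtWildKummer hTriv stmtEpmFrey

end Fermat.Agent.R38
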