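import Fermat.Agent.R38.TresBigAbs
import Fermat.Agent.S33.WildTopField
import Fermat.Agent.S33.WildPtsFinal

/-!
# ROW 38, TRES, piece FAC-BIG (helper16), part 2: the local shape of a SPLIT function over the big
field `E′`, at every closed point of the two charts and at the two vertical valuations

Setting of `S33.wtop_field` (level `M p`, residue characteristic `p`):
`E′ = mgcE A K₁ = ℚ̄^I · K₁`, `A′ = mgcA A K₁` (a discrete valuation ring, uniformizer `π`),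
`F′ = mgcF A K₁ (M p)`, charts `j = mgcT …`, `1 / j`, `V = mgvV hπ ιC hp hpM`
(`true ↦ V_∞`, `false ↦ V_0`), `ζ ∈ A′` a primitive `p`-th root of unity, `λ = ζ − 1`.

* `tres5b_field` : **E′-level.**  `u₀ ∈ F′^×`, `p ∣ div u₀`, rational support (`MgcRat`), split
  (`hsplit`).  Then at every closed point `i` of the special fibre of both charts
  `∃ g ≠ 0, ∃ y ∈ O_i, u₀ / g ^ p − 1 = λ ^ p · π · y`.
* `tres5b_field_vert` : the same at `V_∞`, `V_0` (`y ∈ V c`).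
* `tres5b_bar` : **ℚ̄-level.**  `u ∈ F̄_{Mp}^×`, `p ∣ div u`, `IsSplitFn hp hpM A u` (the output of
  C3 / of `R38.trest0_split`), `p ≥ 3`, `p = 3 → 2 ∣ M`.  There is a number field `K₀` such that
  for EVERY number field `K₁ ⊇ K₀`, Galois over `ℚ`, with `A′ = mgcA A K₁` discrete, every
  uniformizer `π`, every primitive `p`-th root of unity `ζ ∈ A′` and every model `u₀ ∈ F′` of `u`
  (models exist: `hex`): both shapes hold.
Together with `tres5b_root` (`R38/TresBigAbs.lean`): in `L = F′(Y)`, `Y ^ p = u₀`, the element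
`z = (Y / g − 1) / λ` is a root of `P = ∏_{k<p} (Z − c_k) − π y`, `c_k = 1 + ζ + … + ζ^{k−1} ≡ k`,
monic of degree `p` over `O_i` (resp. `V c`), split with distinct roots modulo the maximal ideal:
the input of FAC-COV (`Tres5Gen`), FAC-ET and K-FORM.
-/

set_option autoImplicit false
set_option linter.style.haveILetI false
set_option linter.unusedSectionVars false
set_option linter.unusedVariables false

noncomputable section

namespace Fermat.Agent.R38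

open ModularCurve AlgebraicCurve Fermat.Agent.ES Fermat.Agent.ES.G2 Fermat.Agent.INJ
open Fermat.Agent.UNIP Fermat.Agent.STB Fermat.Agent.S33 IntermediateField

section Field

variable {A : ValuationSubring Qb} {K₁ : IntermediateField ℚ Qb} {M p : ℕ} [NeZero M] [NeZero p]
  [NeZero (M * p)]
  [IsDiscreteValuationRing ↥(mgcA A K₁)] {π : ↥(mgcA A K₁)} (hπ : Irreducible π)
  (ιC : ↥(mgcE A K₁) →+* ℂ) (hp : p.Prime) (hpM : ¬ p ∣ M)

variable [NumberField K₁] [IsGalois ℚ K₁]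

set_option synthInstance.maxHeartbeats 400000 in
set_option maxHeartbeats 1600000 in
/-- **FAC-BIG, `E′`-level**: the local shape of a split function at every closed point of the
special fibre of both charts. -/
theorem tres5b_field (hA : A.LiesOverPrime p) (h2 : p = 2 → 3 ∣ M) (h3 : p = 3 → 2 ∣ M)
    {ζ : ↥(mgcA A K₁)} (hζ : IsPrimitiveRoot ζ p)
    {u₀ : ↥(mgcF A K₁ (M * p))} (hu₀ : u₀ ≠ 0)
    (hdiv : ∀ P : Place Qb (modularFunctionFieldBar (M * p)),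
      ((p : ℕ) : ℤ) ∣ P.ord (nfEmb (mgcE A K₁) (M * p) u₀))
    (hR : MgcRat A K₁ (M * p) u₀)
    (hsplit : ∀ c, ∃ h : ↥(mgcF A K₁ (M * p)), h ≠ 0 ∧
      (mgvV hπ ιC hp hpM c).valuation (u₀ / h ^ p - 1) ≤
        (mgvV hπ ιC hp hpM c).valuation
          ((algebraMap ↥(mgcA A K₁) ↥(mgcF A K₁ (M * p)) ζ - 1) ^ p *
            algebraMap ↥(mgcA A K₁) ↥(mgcF A K₁ (M * p)) π)) :
    ∀ i, ∃ g : ↥(mgcF A K₁ (M * p)), g ≠ 0 ∧ ∃ y ∈ atO π (mgcT A K₁ (M * p)) i,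
      u₀ / g ^ p - 1 =
        (algebraMap ↥(mgcA A K₁) ↥(mgcF A K₁ (M * p)) ζ - 1) ^ p *
          algebraMap ↥(mgcA A K₁) ↥(mgcF A K₁ (M * p)) π * y := by
  haveI := mgc_finiteDimensional A K₁ (M * p)
  have ht := mgc_transcendental A K₁ (M * p)
  have hSS1 := mgcb_reg_SS1_J (K₀ := mgcE A K₁) hπ ιC hp hpM hA
    (stb_regChart_conc_J M hp hA le_sup_left hπ hpM h2 h3)
  have hrat' : ∀ P : Place ↥(mgcE A K₁) ↥(mgcF A K₁ (M * p)), P.ord u₀ ≠ 0 →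
      ∀ f ∈ P.toValuationSubring, ∃ c : ↥(mgcE A K₁),
        f - algebraMap ↥(mgcE A K₁) ↥(mgcF A K₁ (M * p)) c ∈
          P.toValuationSubring.nonunits := by
    intro P hP f hf
    refine hR P 1 1 (fun a => rfl) ?_ f hf
    rw [map_one, one_smul]
    exact hP
  exact tres5b_hloc_main hπ ht hp hζ (wtop_hlam hπ hp hA hζ.pow_eq_one)
    (mgvV hπ ιC hp hpM) true false (fun c => by cases c <;> simp) (mgvl_hne hπ ιC hp hpM hA)
    (mgv_hBV₁ hπ ιC hp hpM) (mgv_hBV₂ hπ ιC hp hpM) (mgv_hπV hπ ιC hp hpM) hSS1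
    (mgv_harch hπ ιC hp hpM) (mgv_hVloc₁ hπ ιC hp hpM hA hSS1)
    (mgv_hVloc₂ hπ ιC hp hpM hA hSS1) hu₀ hsplit
    (mg_hfin (mgcE A K₁) (M * p) u₀ hu₀) (mg_dvd_ord (mgcE A K₁) (M * p) _ u₀ hdiv) hrat'
    (wpt_pts₁ K₁ hp hpM hA h2 h3 hπ ιC) (wpt_pts₂ K₁ hp hpM hA h2 h3 hπ ιC)

/-- **FAC-BIG, `E′`-level, vertical valuations.** -/
theorem tres5b_field_vert
    {ζ : ↥(mgcA A K₁)} (hζ : IsPrimitiveRoot ζ p)
    {u₀ : ↥(mgcF A K₁ (M * p))}
    (hsplit : ∀ c, ∃ h : ↥(mgcF A K₁ (M * p)), h ≠ 0 ∧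
      (mgvV hπ ιC hp hpM c).valuation (u₀ / h ^ p - 1) ≤
        (mgvV hπ ιC hp hpM c).valuation
          ((algebraMap ↥(mgcA A K₁) ↥(mgcF A K₁ (M * p)) ζ - 1) ^ p *
            algebraMap ↥(mgcA A K₁) ↥(mgcF A K₁ (M * p)) π)) :
    ∀ c, ∃ g : ↥(mgcF A K₁ (M * p)), g ≠ 0 ∧ ∃ y ∈ mgvV hπ ιC hp hpM c,
      u₀ / g ^ p - 1 =
        (algebraMap ↥(mgcA A K₁) ↥(mgcF A K₁ (M * p)) ζ - 1) ^ p *
          algebraMap ↥(mgcA A K₁) ↥(mgcF A K₁ (M * p)) π * y := by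
  intro c
  have hπ0 : algebraMap ↥(mgcA A K₁) ↥(mgcF A K₁ (M * p)) π ≠ 0 :=
    unip_algebraMap_irreducible_ne_zero ↥(mgcE A K₁) hπ
  have hinj : Function.Injective (algebraMap ↥(mgcA A K₁) ↥(mgcF A K₁ (M * p))) :=
    zch_algebraMap_injective (A₀ := ↥(mgcA A K₁)) (E := ↥(mgcE A K₁))
  have hζ1 : algebraMap ↥(mgcA A K₁) ↥(mgcF A K₁ (M * p)) ζ - 1 ≠ 0 := by
    rw [sub_ne_zero]
    exact (hζ.map_of_injective hinj).ne_one hp.one_lt
  exact tres5b_vert (mgvV hπ ιC hp hpM c) (mul_ne_zero (pow_ne_zero p hζ1) hπ0) (hsplit c)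

end Field

section Bar

variable {p M : ℕ} [NeZero p] [NeZero M] [NeZero (M * p)]

set_option synthInstance.maxHeartbeats 400000 in
set_option maxHeartbeats 1600000 in
/-- **FAC-BIG, `ℚ̄`-level.**  For a split function `u` of `F̄_{Mp}` with `p ∣ div u`: over every
sufficiently large number field `K₁`, every model `u₀` of `u` over `E′ = ℚ̄^I K₁` has the Kummer
local shape at the two vertical valuations and at every closed point of both charts. -/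
theorem tres5b_bar (hp : p.Prime) (hpM : ¬ p ∣ M) (hp3 : 3 ≤ p) (h3 : p = 3 → 2 ∣ M)
    (A : ValuationSubring Qb) (hA : A.LiesOverPrime p)
    (u : modularFunctionFieldBar (M * p)) (hu : u ≠ 0)
    (hdiv : ∀ P : Place Qb (modularFunctionFieldBar (M * p)), (p : ℤ) ∣ P.ord u)
    (hsplit : IsSplitFn hp hpM A u) :
    ∃ K₀ : IntermediateField ℚ Qb, FiniteDimensional ℚ K₀ ∧
      ∀ (K₁ : IntermediateField ℚ Qb), K₀ ≤ K₁ → ∀ [NumberField K₁] [IsGalois ℚ K₁]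
        [IsDiscreteValuationRing ↥(mgcA A K₁)] {π : ↥(mgcA A K₁)} (hπ : Irreducible π)
        {ζ : ↥(mgcA A K₁)}, IsPrimitiveRoot ζ p →
        (∃ u₀ : ↥(mgcF A K₁ (M * p)), nfEmb (mgcE A K₁) (M * p) u₀ = u) ∧
        ∀ u₀ : ↥(mgcF A K₁ (M * p)), nfEmb (mgcE A K₁) (M * p) u₀ = u →
          (∀ c, ∃ g : ↥(mgcF A K₁ (M * p)), g ≠ 0 ∧
            ∃ y ∈ mgvV hπ (mgdIota (mgcE A K₁)) hp hpM c,
              u₀ / g ^ p - 1 =
                (algebraMap ↥(mgcA A K₁) ↥(mgcF A K₁ (M * p)) ζ - 1) ^ p *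
                  algebraMap ↥(mgcA A K₁) ↥(mgcF A K₁ (M * p)) π * y) ∧
          (∀ i, ∃ g : ↥(mgcF A K₁ (M * p)), g ≠ 0 ∧ ∃ y ∈ atO π (mgcT A K₁ (M * p)) i,
            u₀ / g ^ p - 1 =
              (algebraMap ↥(mgcA A K₁) ↥(mgcF A K₁ (M * p)) ζ - 1) ^ p *
                algebraMap ↥(mgcA A K₁) ↥(mgcF A K₁ (M * p)) π * y) := by
  have hp2 : p ≠ 2 := by omega
  -- the bridge
  obtain ⟨Kb, hKbfin, hbridge⟩ := wdb_hsplit_of_isSplitFn hp hpM hp3 A hsplit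
  -- a number field of definition of `u`
  obtain ⟨K', hK'fin, -, hK'⟩ := mg_exists_descent (N := M * p) ∅ u.2
  haveI := hK'fin
  haveI := hKbfin
  have hE₁fin : FiniteDimensional ℚ ↥(K' ⊔ Kb) := IntermediateField.finiteDimensional_sup K' Kb
  obtain ⟨K₀, hE₁K₀, hK₀fin, -, hrat⟩ :=
    rat_exists_field_rational (N := M * p) u hu (K' ⊔ Kb) hE₁fin
  refine ⟨K₀, hK₀fin, fun K₁ hK₀₁ _ _ _ π hπ ζ hζ => ?_⟩
  have hK₁E : K₁ ≤ mgcE A K₁ := le_sup_right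
  have hK₀E : K₀ ≤ mgcE A K₁ := hK₀₁.trans hK₁E
  have hK'E : K' ≤ mgcE A K₁ := (le_sup_left.trans hE₁K₀).trans hK₀E
  have hKbE : Kb ≤ mgcE A K₁ := (le_sup_right.trans hE₁K₀).trans hK₀E
  refine ⟨hK' (mgcE A K₁) hK'E, fun u₀ hu₀ => ?_⟩
  have hu₀0 : u₀ ≠ 0 := by
    rintro rfl
    apply hu
    rw [← hu₀, map_zero]
  have hlam : π ∣ ζ - 1 := wtop_hlam hπ hp hA hζ.pow_eq_one
  have hR : MgcRat A K₁ (M * p) u₀ := fun Q s σ' hs hQ f hf =>
    hrat (mgcE A K₁) hK₀E u₀ hu₀ Q s σ' hs hQ f hf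
  have hsp := hbridge (mgcE A K₁) hKbE hπ (mgdIota (mgcE A K₁)) hζ hlam u₀ hu₀
  exact ⟨tres5b_field_vert hπ (mgdIota (mgcE A K₁)) hp hpM hζ hsp,
    tres5b_field hπ (mgdIota (mgcE A K₁)) hp hpM hA (fun h => absurd h hp2) h3 hζ hu₀0
      (by rw [hu₀]; exact hdiv) hR hsp⟩

end Bar

end Fermat.Agent.R38
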