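import Fermat.Agent.S33.WildHT4

/-!
# ROW 38, TRES, piece FAC-BIG (helper16), part 1: the LOCAL SHAPE of a split function at every
closed point of both charts, abstract form (twin of `S33.wht_main` without the automorphism)

Chart setting of `S33.wht_main` (ramified base `A₀`, uniformizer `π`, `ζ ∈ A₀` a primitive `p`-th
root of unity, `π ∣ ζ − 1`, vertical valuation rings `V c`, point data `WhtPtData` at every closed
point of the charts `t`, `1 / t`).  `λ := ζ − 1`.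

* `tres5b_hloc_main` : for `u ≠ 0` with `p ∣ div u`, finite rational support, split at the
  vertical valuations (`hsplit`, deep form): at EVERY closed point `i` of both charts
  `∃ g ≠ 0, ∃ y ∈ O_i,  u / g ^ p − 1 = λ ^ p · π · y`      (`S33.wab_hloc_point`).
* `tres5b_vert` : the same shape at a valuation ring `V` from `hsplit` (`y ∈ V`).
* `tres5b_root` : **the Kummer generator.**  `L ⊇ F` a field, `Y ∈ L` with `Y ^ p = u`,
  `u / g ^ p − 1 = λ ^ p · a` in `F` (`a = π y`).  Then `z := (Y / g − 1) / λ` satisfies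
  `∏_{k < p} (z − c_k) = a`, `c_k := 1 + ζ + … + ζ^{k−1}` (`= (ζ^k − 1) / (ζ − 1)`).
* `tres5b_c_sub` : `c_k − c_j = ζ ^ j · c_{k − j}` (`j ≤ k`), `tres5b_c_congr` :
  `c_k = k + λ · (…)`, and `tres5b_c_isUnit` : `c_k − c_j` is a unit of every local ring of residue
  characteristic `p` with `λ ∈ 𝔪` (`j < k < p`).
-/

set_option autoImplicit false
set_option linter.style.haveILetI false
set_option linter.unusedSectionVars false
set_option linter.unusedVariables false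

namespace Fermat.Agent.R38

open Polynomial IntermediateField Fermat.Agent.INJ AlgebraicCurve Fermat.Agent.UNIP
  Fermat.Agent.STB Fermat.Agent.S33

section Main

universe u

variable {A₀ E F : Type u} [CommRing A₀] [IsDomain A₀] [IsDiscreteValuationRing A₀]
  [Field E] [Algebra A₀ E] [IsFractionRing A₀ E] [CharZero E]
  [Field F] [Algebra E F] [Algebra A₀ F] [IsScalarTower A₀ E F]
  {π : A₀} {κ : Type*}

/-- **The local shape at every closed point of both charts**, from the point data. -/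
theorem tres5b_hloc_main (hπ : Irreducible π) {t : F} (ht : Transcendental E t)
    [FiniteDimensional E⟮t⟯ F]
    {p : ℕ} (hp : p.Prime) {ζ : A₀} (hζ : IsPrimitiveRoot ζ p)
    (hlam : π ∣ ζ - 1)
    [Finite κ] (V : κ → ValuationSubring F) (c₁ c₂ : κ) (hκ : ∀ c, c = c₁ ∨ c = c₂)
    (hne : V c₁ ≠ V c₂)
    (hBV₁ : ∀ c (b : F), IsIntegral ↥(Algebra.adjoin A₀ {t}) b → b ∈ V c)
    (hBV₂ : ∀ c (b : F), IsIntegral ↥(Algebra.adjoin A₀ {t⁻¹}) b → b ∈ V c)
    (hπV : ∀ c, algebraMap A₀ F π ∈ (V c).nonunits)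
    (hSS1 : ∀ b : F, IsIntegral ↥(Algebra.adjoin A₀ {t}) b → (∀ c, b ∈ (V c).nonunits) →
      ∃ b' : F, IsIntegral ↥(Algebra.adjoin A₀ {t}) b' ∧ b = algebraMap A₀ F π * b')
    (harch : ∀ c (a x : F), a ∈ (V c).nonunits → ∃ N : ℕ, a ^ N * x ∈ (V c).nonunits)
    (hVloc₁ : ∀ c (x : F), x ∈ V c → ∃ b s : F, IsIntegral ↥(Algebra.adjoin A₀ {t}) b ∧
      IsIntegral ↥(Algebra.adjoin A₀ {t}) s ∧ s ∉ (V c).nonunits ∧ s * x = b)
    (hVloc₂ : ∀ c (x : F), x ∈ V c → ∃ b s : F, IsIntegral ↥(Algebra.adjoin A₀ {t⁻¹}) b ∧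
      IsIntegral ↥(Algebra.adjoin A₀ {t⁻¹}) s ∧ s ∉ (V c).nonunits ∧ s * x = b)
    {u : F} (hu : u ≠ 0)
    (hsplit : ∀ c, ∃ h : F, h ≠ 0 ∧ (V c).valuation (u / h ^ p - 1) ≤
      (V c).valuation ((algebraMap A₀ F ζ - 1) ^ p * algebraMap A₀ F π))
    (hfin : {P : Place E F | P.ord u ≠ 0}.Finite)
    (hm : ∀ P : Place E F, (p : ℤ) ∣ P.ord u)
    (hrat : ∀ P : Place E F, P.ord u ≠ 0 → ∀ f ∈ P.toValuationSubring,
      ∃ c : E, f - algebraMap E F c ∈ P.toValuationSubring.nonunits)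
    (hdat₁ : ∀ 𝔫 : AtPt (F := F) π t, WhtPtData V c₁ c₂ 𝔫)
    (hdat₂ : ∀ 𝔫 : AtPt (F := F) π t⁻¹, WhtPtData V c₁ c₂ 𝔫) :
    ∀ i, ∃ g : F, g ≠ 0 ∧ ∃ y ∈ atO π t i,
      u / g ^ p - 1 = (algebraMap A₀ F ζ - 1) ^ p * algebraMap A₀ F π * y := by
  have hπ0 : algebraMap A₀ F π ≠ 0 := unip_algebraMap_irreducible_ne_zero E hπ
  have ht' : Transcendental E t⁻¹ := zch_transcendental_inv ht
  haveI : FiniteDimensional E⟮t⁻¹⟯ F := at_finiteDimensional_inv t
  haveI : IsNoetherianRing ↥(zchClosure (A₀ := A₀) ({t} : Set F)) :=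
    chart_closure_isNoetherianRing (A₀ := A₀) (E := E) ht
  haveI : IsNoetherianRing ↥(zchClosure (A₀ := A₀) ({t⁻¹} : Set F)) :=
    chart_closure_isNoetherianRing (A₀ := A₀) (E := E) ht'
  have hSS1' := ats_SS1_inv ht hπ V hBV₁ hSS1
  have hinj : Function.Injective (algebraMap A₀ F) :=
    zch_algebraMap_injective (A₀ := A₀) (E := E)
  have hc : c₁ ≠ c₂ := fun h => hne (by rw [h])
  have hne' : ∀ c c', c ≠ c' → V c ≠ V c' := by
    intro c c' hcc' h
    rcases hκ c with rfl | rfl <;> rcases hκ c' with rfl | rfl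
    · exact hcc' rfl
    · exact hne h
    · exact hne h.symm
    · exact hcc' rfl
  have hnle := wht_hnle hπ0 V hπV hne' harch
  -- `hsplit` in the weak form
  have hsplit' : ∀ c, ∃ h : F, h ≠ 0 ∧ (V c).valuation (u / h ^ p - 1) < 1 := by
    intro c
    obtain ⟨h, hh0, hval⟩ := hsplit c
    refine ⟨h, hh0, lt_of_le_of_lt hval ?_⟩
    have h1 : (algebraMap A₀ F ζ - 1) ^ p ∈ V c := by
      have e : (algebraMap A₀ F ζ - 1) ^ p = algebraMap A₀ F ((ζ - 1) ^ p) := by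
        rw [map_pow, map_sub, map_one]
      rw [e]
      exact hBV₁ c _ (mem_zchClosure.mp
        (algebraMap A₀ ↥(zchClosure (A₀ := A₀) ({t} : Set F)) ((ζ - 1) ^ p)).2)
    exact wh_val_mul_lt (V c) ((V c).valuation_le_one_iff _ |>.2 h1)
      ((ValuationSubring.mem_nonunits_iff (V c)).1 (hπV c))
  have hunif : ∀ c, ∀ x ∈ (V c).nonunits, ∃ y ∈ V c, x = algebraMap A₀ F π * y := fun c =>
    stb_sp_princ V hBV₁ hSS1 hVloc₁ c fun c' hc' => hnle c c' (Ne.symm hc')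
  have hT4 := wht_hT4 hπ ht V c₁ c₂ hκ hBV₁ hBV₂ hπV hSS1 hVloc₁ hVloc₂ hne' harch hdat₁ hdat₂
    hu hp.ne_zero hfin hm hrat hsplit'
  have hN := wn_hN V hBV₁ hBV₂ hπV hVloc₁ hVloc₂
    (fun 𝔫 => wht_wnPtData V c₁ c₂ hκ 𝔫 (hdat₁ 𝔫))
    (fun 𝔫 => wht_wnPtData V c₁ c₂ hκ 𝔫 (hdat₂ 𝔫)) hp.two_le
  rintro (𝔫 | 𝔫)
  · exact wab_hloc_point hπ hinj V c₁ c₂ hκ hBV₁ hπV hSS1 hunif hp hζ hlam 𝔫
      (hN (Sum.inl 𝔫))
      (fun h₁ h₂ => wht_hS_point hπ0 V c₁ c₂ hc hBV₁ hπV hSS1 hVloc₁ hne' harch 𝔫 (hdat₁ 𝔫)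
        h₁ h₂)
      (hT4 (Sum.inl 𝔫)) hsplit
  · exact wab_hloc_point hπ hinj V c₁ c₂ hκ hBV₂ hπV hSS1' hunif hp hζ hlam 𝔫
      (hN (Sum.inr 𝔫))
      (fun h₁ h₂ => wht_hS_point hπ0 V c₁ c₂ hc hBV₂ hπV hSS1' hVloc₂ hne' harch 𝔫 (hdat₂ 𝔫)
        h₁ h₂)
      (hT4 (Sum.inr 𝔫)) hsplit

end Main

section Vert

variable {F : Type*} [Field F]

/-- the same shape at a valuation ring, from `hsplit` -/
theorem tres5b_vert (V : ValuationSubring F) {u d : F} (hd : d ≠ 0) {p : ℕ}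
    (hsplit : ∃ h : F, h ≠ 0 ∧ V.valuation (u / h ^ p - 1) ≤ V.valuation d) :
    ∃ g : F, g ≠ 0 ∧ ∃ y ∈ V, u / g ^ p - 1 = d * y := by
  obtain ⟨h, hh0, hval⟩ := hsplit
  refine ⟨h, hh0, (u / h ^ p - 1) / d, ?_, ?_⟩
  · rw [← V.valuation_le_one_iff, map_div₀]
    have hd0 : V.valuation d ≠ 0 := (Valuation.ne_zero_iff _).2 hd
    rw [div_le_iff₀ (lt_of_le_of_ne zero_le hd0.symm), one_mul]
    exact hval
  · rw [mul_div_cancel₀ _ hd]

end Vert

section Kummer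

variable {L : Type*} [Field L]

/-- the reduced roots `c_k = 1 + ζ + … + ζ^{k−1} = (ζ^k − 1) / (ζ − 1)` -/
noncomputable def tres5bC {R : Type*} [CommRing R] (ζ : R) (k : ℕ) : R :=
  ∑ j ∈ Finset.range k, ζ ^ j

theorem tres5bC_mul {R : Type*} [CommRing R] (ζ : R) (k : ℕ) :
    tres5bC ζ k * (ζ - 1) = ζ ^ k - 1 := by
  rw [tres5bC]
  exact geom_sum_mul ζ k

theorem tres5bC_map {R S : Type*} [CommRing R] [CommRing S] (f : R →+* S) (ζ : R) (k : ℕ) :
    f (tres5bC ζ k) = tres5bC (f ζ) k := by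
  simp [tres5bC, map_sum, map_pow]

/-- `c_k − c_j = ζ ^ j · c_{k − j}` -/
theorem tres5b_c_sub {R : Type*} [CommRing R] (ζ : R) {j k : ℕ} (hjk : j ≤ k) :
    tres5bC ζ k - tres5bC ζ j = ζ ^ j * tres5bC ζ (k - j) := by
  obtain ⟨m, rfl⟩ := Nat.exists_eq_add_of_le hjk
  rw [Nat.add_sub_cancel_left, tres5bC, tres5bC, tres5bC, Finset.sum_range_add, add_sub_cancel_left,
    Finset.mul_sum]
  exact Finset.sum_congr rfl fun i _ => pow_add ζ j i

/-- `c_k = k + (ζ − 1) · (…)` -/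
theorem tres5b_c_congr {R : Type*} [CommRing R] (ζ : R) (k : ℕ) :
    ∃ r : R, tres5bC ζ k = (k : R) + (ζ - 1) * r := by
  induction k with
  | zero => exact ⟨0, by simp [tres5bC]⟩
  | succ k ih =>
    obtain ⟨r, hr⟩ := ih
    refine ⟨r + tres5bC ζ k, ?_⟩
    have h1 : tres5bC ζ (k + 1) = tres5bC ζ k + ζ ^ k := by
      rw [tres5bC, tres5bC, Finset.sum_range_succ]
    have h2 := tres5bC_mul ζ k
    rw [h1]
    push_cast
    linear_combination hr - h2

/-- `c_k − c_j` is a unit of a local ring of residue characteristic `p` (`j < k < p`,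
`ζ − 1 ∈ 𝔪`): the roots of `∏ (Z − c_k)` are pairwise distinct modulo `𝔪`. -/
theorem tres5b_c_isUnit {R : Type*} [CommRing R] [IsLocalRing R] {p : ℕ} (hp : p.Prime)
    (hpR : (p : R) ∈ IsLocalRing.maximalIdeal R) {ζ : R} (hζ : ζ ^ p = 1)
    (hlam : ζ - 1 ∈ IsLocalRing.maximalIdeal R) {j k : ℕ} (hjk : j < k) (hk : k < p) :
    IsUnit (tres5bC ζ k - tres5bC ζ j) := by
  rw [tres5b_c_sub ζ hjk.le]
  have hζu : IsUnit ζ := IsUnit.of_pow_eq_one hζ hp.ne_zero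
  refine (hζu.pow j).mul ?_
  obtain ⟨r, hr⟩ := tres5b_c_congr ζ (k - j)
  rw [hr]
  -- `k − j` is a unit
  have hm : IsUnit ((k - j : ℕ) : R) := by
    have hcop : Nat.Coprime (k - j) p := by
      refine (Nat.coprime_comm.1 ((Nat.Prime.coprime_iff_not_dvd hp).2 fun hd => ?_))
      have := Nat.le_of_dvd (by omega) hd
      omega
    by_contra hnu
    have hmem : ((k - j : ℕ) : R) ∈ IsLocalRing.maximalIdeal R :=
      (IsLocalRing.mem_maximalIdeal _).2 hnu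
    have h1 : ((Nat.gcd (k - j) p : ℕ) : R) ∈ IsLocalRing.maximalIdeal R := by
      have hb := Nat.gcd_eq_gcd_ab (k - j) p
      have e : ((Nat.gcd (k - j) p : ℕ) : R)
          = ((k - j : ℕ) : R) * ((Nat.gcdA (k - j) p : ℤ) : R)
            + ((p : ℕ) : R) * ((Nat.gcdB (k - j) p : ℤ) : R) := by
        have := congrArg (fun x : ℤ => (x : R)) hb
        push_cast at this
        exact_mod_cast this
      rw [e]
      exact Ideal.add_mem _ (Ideal.mul_mem_right _ _ hmem) (Ideal.mul_mem_right _ _ hpR)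
    rw [hcop, Nat.cast_one] at h1
    exact (IsLocalRing.maximalIdeal.isMaximal R).ne_top ((Ideal.eq_top_iff_one _).2 h1)
  have hnil : (ζ - 1) * r ∈ IsLocalRing.maximalIdeal R := Ideal.mul_mem_right _ _ hlam
  by_contra hnu
  have h2 : ((k - j : ℕ) : R) + (ζ - 1) * r ∈ IsLocalRing.maximalIdeal R :=
    (IsLocalRing.mem_maximalIdeal _).2 hnu
  have h3 : ((k - j : ℕ) : R) ∈ IsLocalRing.maximalIdeal R := by
    have := Ideal.sub_mem _ h2 hnil
    rwa [add_sub_cancel_right] at this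
  exact (IsLocalRing.mem_maximalIdeal _).1 h3 hm

/-- **the Kummer generator**: `∏_{k < p} (z − c_k) · λ ^ p = (1 + λ z) ^ p − 1`. -/
theorem tres5b_prod_mul {p : ℕ} (hp : 0 < p) {ζ : L} (hζ : IsPrimitiveRoot ζ p) (z : L) :
    (∏ k ∈ Finset.range p, (z - tres5bC ζ k)) * (ζ - 1) ^ p = (1 + (ζ - 1) * z) ^ p - 1 := by
  classical
  have : NeZero p := ⟨hp.ne'⟩
  have h1 : (1 + (ζ - 1) * z) ^ p - 1 = ∏ k ∈ Finset.range p, ((1 + (ζ - 1) * z) - ζ ^ k) := by
    have h2 := hζ.pow_sub_pow_eq_prod_sub_mul (1 + (ζ - 1) * z) 1 hp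
    rw [one_pow] at h2
    rw [h2]
    have himg : Polynomial.nthRootsFinset p (1 : L) =
        (Finset.range p).image (fun k => ζ ^ k) := by
      ext x
      rw [Polynomial.mem_nthRootsFinset hp, Finset.mem_image]
      constructor
      · intro hx
        obtain ⟨i, hi, rfl⟩ := hζ.eq_pow_of_pow_eq_one hx
        exact ⟨i, Finset.mem_range.2 hi, rfl⟩
      · rintro ⟨i, -, rfl⟩
        rw [← pow_mul, mul_comm, pow_mul, hζ.pow_eq_one, one_pow]
    rw [himg, Finset.prod_image]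
    · exact Finset.prod_congr rfl fun k _ => by rw [mul_one]
    · intro a ha b hb hab
      exact hζ.pow_inj (Finset.mem_range.1 ha) (Finset.mem_range.1 hb) hab
  rw [h1, ← Finset.card_range p, ← Finset.prod_const, Finset.card_range, ← Finset.prod_mul_distrib]
  refine Finset.prod_congr rfl fun k _ => ?_
  have h3 := tres5bC_mul ζ k
  linear_combination -h3

/-- **the Kummer generator, root form.**  `Y ^ p = u`, `u / g ^ p − 1 = λ ^ p · a` ⇒
`z := (Y / g − 1) / λ` is a root of `∏_{k<p} (Z − c_k) − a`. -/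
theorem tres5b_root {p : ℕ} (hp : 2 ≤ p) {ζ : L} (hζ : IsPrimitiveRoot ζ p)
    {Y u g a : L} (hg : g ≠ 0) (hY : Y ^ p = u) (hu : u / g ^ p - 1 = (ζ - 1) ^ p * a) :
    ∏ k ∈ Finset.range p, ((Y / g - 1) / (ζ - 1) - tres5bC ζ k) = a := by
  have hζ1 : ζ - 1 ≠ 0 := sub_ne_zero.2 (hζ.ne_one (by omega))
  have h1 := tres5b_prod_mul (by omega : 0 < p) hζ ((Y / g - 1) / (ζ - 1))
  have h2 : 1 + (ζ - 1) * ((Y / g - 1) / (ζ - 1)) = Y / g := by
    rw [mul_div_cancel₀ _ hζ1]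
    ring
  rw [h2, div_pow, hY, hu, mul_comm] at h1
  exact mul_left_cancel₀ (pow_ne_zero p hζ1) h1

/-- **the Kummer generator over a base field `F ⊆ L`.**  `Y ^ p = u`, `u / g ^ p − 1 = λ ^ p · a`
in `F` ⇒ `z := (Y / g − 1) / λ ∈ L` is a root of `∏_{k<p} (Z − c_k) − a ∈ F[Z]`;
`Y = g · (1 + λ z)`. -/
theorem tres5b_root_map {F : Type*} [Field F] [Algebra F L] {p : ℕ} (hp : 2 ≤ p) {ζ : F}
    (hζ : IsPrimitiveRoot ζ p) {Y : L} {u g a : F} (hg : g ≠ 0)
    (hY : Y ^ p = algebraMap F L u) (hu : u / g ^ p - 1 = (ζ - 1) ^ p * a) :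
    ∏ k ∈ Finset.range p, ((Y / algebraMap F L g - 1) / (algebraMap F L ζ - 1)
      - algebraMap F L (tres5bC ζ k)) = algebraMap F L a := by
  have hζL : IsPrimitiveRoot (algebraMap F L ζ) p :=
    hζ.map_of_injective (algebraMap F L).injective
  have hgL : algebraMap F L g ≠ 0 := (_root_.map_ne_zero _).2 hg
  have huL : algebraMap F L u / algebraMap F L g ^ p - 1
      = (algebraMap F L ζ - 1) ^ p * algebraMap F L a := by
    have := congrArg (algebraMap F L) hu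
    simpa only [map_sub, map_div₀, map_pow, map_one, map_mul] using this
  have h := tres5b_root hp hζL hgL hY huL
  simpa only [tres5bC_map] using h

/-- `Y = g · (1 + λ z)` for `z = (Y / g − 1) / λ` -/
theorem tres5b_Y_eq {g lam Y : L} (hg : g ≠ 0) (hlam : lam ≠ 0) :
    Y = g * (1 + lam * ((Y / g - 1) / lam)) := by
  rw [mul_div_cancel₀ _ hlam]
  field_simp
  ring

end Kummer

end Fermat.Agent.R38
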