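import Fermat.Agent.R38.TresT0
import Fermat.Agent.R38.TresLevelUp
import Fermat.Agent.S28.PrimeHypMain
import Fermat.Agent.ES.G2.HeckeDeg
import Fermat.Agent.ES.MuUnique
import Fermat.Agent.UNIP.Descent

/-!
# ROW 38, TRES, piece FAC-BIG (IN) (helper9): the INPUTS of the big instance at `V_∞`

The hypotheses `hu`, `hdiv`, `hsplit`, `hnp` of helper16's `tres5biv_kum` / `tres5bit_descend`
(`R38/TresBigInstV.lean`, `R38/TresBigInstT.lean`) at the frame level `M₁ p`, `M₁ = M q'`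
(e.g. `M₁ = lcm (M, 4)`), for `u = ι w₀`, `ι = STB.stbdUp M p q' : F̄_{Mp} → F̄_{M q' p}`, from the
hypotheses of `StmtMonoCover` on `z₀ = σ₀ x − x`:

  `z₀ ≠ 0`, `α_* z₀ = 0 = β_* z₀`, `TrivInf A p z₀`, and ANY Kummer function `w₀` of `z₀`.

* `tres5bin_psi_ratio` : `ψ (N d) = c ψ (N)` with `p ∤ c` when every prime `ℓ ∣ d` has `ℓ + 1 < p`;
* `tres5bin_relfinrank_mul` : `[F̄_{N d} : F̄_N] · ψ (N) = ψ (N d)` (Igusa + tower law);
* `tres5bin_coprime` : `[F̄_{N d} : F̄_N]` is prime to `p`;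
* `tres5bin_not_pow` : `z₀ ≠ 0` ⇒ `w₀` is not a `p`-th power in `F̄_{Mp}`;
* `tres5bin_not_pow_up` (d) : then `ι w₀` is not a `p`-th power in `F̄_{M q' p}`;
* `tres5bin_depthInf_mul`, `tres5bin_split_mul` : `DepthInf`, `IsSplitFn` are invariant under
  `ℚ̄^× · F^{× p}`;
* `tres5bin_split` (c, level `M p`) : every Kummer function of a new class which is trivial at
  `v_∞` is split;
* `tres5bin_inputs` : **(a)–(d) for `ι w₀`**;
* `tres5bin_inputs_le` : the same in the subtype shape `⟨w₀, hle w₀.2⟩` of `tres5bit_descend`,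
  for any `M₁ = M q'`;
* `tres5bin_lcm_four`, `tres5bin_inputs_lcm_four` : the rigid level `M₁ = lcm (M, 4)`.
-/

set_option autoImplicit false
set_option linter.style.haveILetI false
set_option linter.unusedSectionVars false
set_option linter.unusedVariables false
set_option synthInstance.maxHeartbeats 400000
set_option maxHeartbeats 1600000

noncomputable section

namespace Fermat.Agent.R38

open ModularCurve AlgebraicCurve IntermediateField Fermat.Agent.ES Fermat.Agent.ES.G2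
  Fermat.Agent.STB Fermat.Agent.UNIP Fermat.Agent.S33 Fermat.Agent.RIB.MP

/-! ### The degree of `F̄_{N d} / F̄_N` is prime to `p` -/

section Degree

/-- `ψ (N d) = c ψ (N)` with `p ∤ c`, when every prime factor `ℓ` of `d` has `ℓ + 1 < p`. -/
theorem tres5bin_psi_ratio {p : ℕ} (hp : p.Prime) (d : ℕ)
    (hd : ∀ ℓ : ℕ, ℓ.Prime → ℓ ∣ d → ℓ + 1 < p) :
    ∀ N : ℕ, N ≠ 0 → ∃ c : ℕ, dedekindPsi (N * d) = c * dedekindPsi N ∧ ¬ p ∣ c := by
  induction d using Nat.recOnMul with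
  | zero =>
      have := hd p hp (dvd_zero p)
      omega
  | one =>
      intro N _
      refine ⟨1, by rw [mul_one, one_mul], fun h => ?_⟩
      exact hp.one_lt.ne' (Nat.dvd_one.mp h)
  | prime ℓ hℓ =>
      intro N hN
      have hlt := hd ℓ hℓ dvd_rfl
      by_cases h : ℓ ∣ N
      · refine ⟨ℓ, ?_, fun hdvd => ?_⟩
        · rw [mul_comm N ℓ, Fermat.Agent.S28.UB.psi_mul_of_dvd hℓ h hN]
        · have := Nat.le_of_dvd hℓ.pos hdvd
          omega
      · refine ⟨ℓ + 1, ?_, fun hdvd => ?_⟩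
        · rw [mul_comm N ℓ, Fermat.Agent.S28.UB.psi_mul_of_not_dvd hℓ h]
        · have := Nat.le_of_dvd (Nat.succ_pos ℓ) hdvd
          omega
  | mul a b iha ihb =>
      intro N hN
      have ha0 : a ≠ 0 := by
        rintro rfl
        have := hd p hp (by rw [zero_mul]; exact dvd_zero p)
        omega
      obtain ⟨c₁, h1, hc₁⟩ := iha (fun ℓ hℓ hℓa => hd ℓ hℓ (hℓa.mul_right b)) N hN
      obtain ⟨c₂, h2, hc₂⟩ := ihb (fun ℓ hℓ hℓb => hd ℓ hℓ (hℓb.mul_left a)) (N * a)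
        (Nat.mul_ne_zero hN ha0)
      refine ⟨c₂ * c₁, ?_, fun h => ?_⟩
      · rw [← mul_assoc, h2, h1, mul_assoc]
      · exact (hp.dvd_mul.mp h).elim hc₂ hc₁

/-- Igusa + tower law: `[F̄_{N d} : F̄_N] · ψ (N) = ψ (N d)`. -/
theorem tres5bin_relfinrank_mul (N d : ℕ) [NeZero N] [NeZero d] :
    (modularFunctionFieldBar N).relfinrank (modularFunctionFieldBar (N * d)) * dedekindPsi N =
      dedekindPsi (N * d) := by
  show (laurentBaseChange (AlgebraicClosure ℚ) (modularFunctionFieldFull N)).relfinrank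
    (laurentBaseChange (AlgebraicClosure ℚ) (modularFunctionFieldFull (N * d))) * dedekindPsi N =
      dedekindPsi (N * d)
  rw [hdeg_laurentBaseChange_full, hdeg_laurentBaseChange_full]
  have hN : ((N : ℕ) : AlgebraicClosure ℚ) ≠ 0 := Nat.cast_ne_zero.mpr (NeZero.ne N)
  have hNd : ((N * d : ℕ) : AlgebraicClosure ℚ) ≠ 0 := Nat.cast_ne_zero.mpr (NeZero.ne (N * d))
  have h1 := Fermat.Agent.S28.relfinrank_full_eq_dedekindPsi (AlgebraicClosure ℚ) N hN
  have h2 := Fermat.Agent.S28.relfinrank_full_eq_dedekindPsi (AlgebraicClosure ℚ) (N * d) hNd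
  have hle1 : adjoin (AlgebraicClosure ℚ) {jqModC (AlgebraicClosure ℚ)} ≤
      modularFunctionFieldFullC (AlgebraicClosure ℚ) N :=
    Fermat.Agent.S28.UB.K0_le_full (AlgebraicClosure ℚ) N
  have hle2 : modularFunctionFieldFullC (AlgebraicClosure ℚ) N ≤
      modularFunctionFieldFullC (AlgebraicClosure ℚ) (N * d) :=
    Fermat.Agent.S28.UB.full_mono (AlgebraicClosure ℚ) (Dvd.intro _ rfl)
  have h3 := relfinrank_mul_relfinrank hle1 hle2
  rw [h1, h2] at h3
  rw [mul_comm]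
  exact h3

/-- the degree of `F̄_{N d} / F̄_N` is prime to `p`, when every prime `ℓ ∣ d` has `ℓ + 1 < p` -/
theorem tres5bin_coprime {p : ℕ} (hp : p.Prime) (N d : ℕ) [NeZero N] [NeZero d]
    (hd : ∀ ℓ : ℕ, ℓ.Prime → ℓ ∣ d → ℓ + 1 < p) :
    Nat.Coprime ((modularFunctionFieldBar N).relfinrank (modularFunctionFieldBar (N * d))) p := by
  obtain ⟨c, hc, hpc⟩ := tres5bin_psi_ratio hp d hd N (NeZero.ne N)
  have h := tres5bin_relfinrank_mul N d
  rw [hc] at h
  have hψ : dedekindPsi N ≠ 0 := by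
    intro h0
    have hpos : 0 < dedekindPsi N := by
      unfold dedekindPsi
      apply Finset.sum_pos'
      · intro i _
        exact Nat.zero_le _
      · refine ⟨1, ?_, ?_⟩
        · rw [Finset.mem_filter, Nat.mem_divisors]
          exact ⟨⟨one_dvd N, NeZero.ne N⟩, squarefree_one⟩
        · rw [Nat.div_one]
          exact Nat.pos_of_ne_zero (NeZero.ne N)
    omega
  have hD : (modularFunctionFieldBar N).relfinrank (modularFunctionFieldBar (N * d)) = c :=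
    Nat.eq_of_mul_eq_mul_right (Nat.pos_of_ne_zero hψ) h
  rw [hD]
  exact ((Nat.Prime.coprime_iff_not_dvd hp).mpr hpc).symm

end Degree

/-! ### (d) : not a `p`-th power -/

section NotPow

variable (M p q' : ℕ) [NeZero M] [NeZero p] [NeZero q'] [NeZero (M * p)] [NeZero (M * q' * p)]

/-- `z₀ ≠ 0` ⇒ a Kummer function of `z₀` is not a `p`-th power (any level `N`). -/
theorem tres5bin_not_pow {N p : ℕ} [NeZero N] (hp0 : p ≠ 0) {z₀ : JZero N} (hz : z₀ ≠ 0)
    {w₀ : modularFunctionFieldBar N} (hw : KummerRel p z₀ w₀) :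
    ∀ c : modularFunctionFieldBar N, c ^ p ≠ w₀ := by
  intro c hc
  apply hz
  refine KummerRel.eq_zero_of_pow (n := p) (c := 1) (k := c) hp0 (fun v => v.ord_one) ?_
  rw [one_mul, hc]
  exact hw

/-- **(d)** : a function of level `M p` which is not a `p`-th power is not a `p`-th power at the
level `M q' p`, when every prime `ℓ ∣ q'` has `ℓ + 1 < p`. -/
theorem tres5bin_not_pow_up (hp : p.Prime) (hq' : ∀ ℓ : ℕ, ℓ.Prime → ℓ ∣ q' → ℓ + 1 < p)
    {w₀ : modularFunctionFieldBar (M * p)}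
    (hw₀ : ∀ c : modularFunctionFieldBar (M * p), c ^ p ≠ w₀) :
    ∀ c : modularFunctionFieldBar (M * q' * p), c ^ p ≠ stbdUp M p q' w₀ := by
  intro c hc
  have hcop : Nat.Coprime
      ((modularFunctionFieldBar (M * p)).relfinrank (modularFunctionFieldBar (M * q' * p))) p := by
    rw [← stb_d_level_eq]
    exact tres5bin_coprime hp (M * p) q' hq'
  have hfin : (modularFunctionFieldBar (M * p)).relfinrank
      (modularFunctionFieldBar (M * q' * p)) ≠ 0 := by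
    intro h0
    rw [h0, Nat.coprime_zero_left] at hcop
    exact hp.one_lt.ne' hcop
  have hw' : (w₀ : LaurentSeries Qb) = (c : LaurentSeries Qb) ^ p := by
    rw [← coe_stbdUp M p q' w₀, ← hc]
    exact SubmonoidClass.coe_pow c p
  obtain ⟨g, hg, hgw⟩ := unip_descent_generic (stb_d_le M p q') hfin hcop
    (w₀ : LaurentSeries Qb) (c : LaurentSeries Qb) w₀.2 c.2 hw'
  refine hw₀ ⟨g, hg⟩ (Subtype.ext ?_)
  rw [hgw]
  exact SubmonoidClass.coe_pow (⟨g, hg⟩ : modularFunctionFieldBar (M * p)) p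

end NotPow

/-! ### (c) : split -/

section Split

/-- `DepthInf` is invariant under `ℚ̄^× · F^{× p}` -/
theorem tres5bin_depthInf_mul {A : ValuationSubring Qb} {N : ℕ} [NeZero N] {p : ℕ} {ϖ : Qb}
    {u : modularFunctionFieldBar N} (h : DepthInf A N p ϖ u) {a : Qb} (ha : a ≠ 0)
    {f : modularFunctionFieldBar N} (hf : f ≠ 0) :
    DepthInf A N p ϖ (algebraMap Qb (modularFunctionFieldBar N) a * u * f ^ p) := by
  obtain ⟨c, g, hc, hg, hcong⟩ := h
  refine ⟨a * c, f * g, mul_ne_zero ha hc, mul_ne_zero hf hg, ?_⟩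
  have ha' : algebraMap Qb (modularFunctionFieldBar N) a ≠ 0 := by
    rw [Ne, map_eq_zero_iff _ (algebraMap Qb (modularFunctionFieldBar N)).injective]
    exact ha
  have hc' : algebraMap Qb (modularFunctionFieldBar N) c ≠ 0 := by
    rw [Ne, map_eq_zero_iff _ (algebraMap Qb (modularFunctionFieldBar N)).injective]
    exact hc
  have hfp : f ^ p ≠ 0 := pow_ne_zero p hf
  have hgp : g ^ p ≠ 0 := pow_ne_zero p hg
  have e : algebraMap Qb (modularFunctionFieldBar N) a * u * f ^ p /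
      (algebraMap Qb (modularFunctionFieldBar N) (a * c) * (f * g) ^ p) =
      u / (algebraMap Qb (modularFunctionFieldBar N) c * g ^ p) := by
    rw [map_mul, mul_pow]
    field_simp
  rw [e]
  exact hcong

variable {p M : ℕ} [NeZero p] [NeZero M] [NeZero (M * p)] (hp : p.Prime) (hpM : ¬ p ∣ M)

/-- `IsSplitFn` is invariant under `ℚ̄^× · F^{× p}` -/
theorem tres5bin_split_mul {A : ValuationSubring Qb} {u : modularFunctionFieldBar (M * p)}
    (h : IsSplitFn hp hpM A u) {a : Qb} (ha : a ≠ 0)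
    {f : modularFunctionFieldBar (M * p)} (hf : f ≠ 0) :
    IsSplitFn hp hpM A (algebraMap Qb (modularFunctionFieldBar (M * p)) a * u * f ^ p) := by
  intro k
  refine ⟨tres5bin_depthInf_mul (h k).1 ha hf, ?_⟩
  have h2 := (h k).2
  unfold DepthZero at h2 ⊢
  rw [map_mul, map_mul, map_pow, AlgEquiv.commutes]
  exact tres5bin_depthInf_mul h2 ha
    ((map_ne_zero_iff _ (atkinLehnerBar hp hpM).injective).mpr hf)

/-- **(c) at the level `M p`** : EVERY Kummer function of a new class which is trivial at `v_∞`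
is split. -/
theorem tres5bin_split (A : ValuationSubring Qb) (hA : A.LiesOverPrime p)
    {z₀ : JZero (M * p)} (hα : stbPushAlpha M p z₀ = 0) (hβ : stbPushBeta M p z₀ = 0)
    (htriv : TrivInf A p z₀) {w₀ : modularFunctionFieldBar (M * p)} (hw : KummerRel p z₀ w₀) :
    IsSplitFn hp hpM A w₀ := by
  haveI : Fact p.Prime := ⟨hp⟩
  obtain ⟨w₁, hw₁, hG⟩ := htriv
  have hs : IsSplitFn hp hpM A w₁ := trest0_split M p hpM A hA z₀ hα hβ w₁ hw₁ (Or.inl hG)
  obtain ⟨k, c, hk, hc, hcord, he⟩ := KummerRel.exists_eq_mul_pow hw₁ hw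
  obtain ⟨c₀, hc₀⟩ := mu_exists_const_of_ord_eq_zero c hcord
  have hc₀0 : c₀ ≠ 0 := by
    rintro rfl
    rw [map_zero] at hc₀
    exact hc hc₀.symm
  rw [he, ← hc₀]
  exact tres5bin_split_mul hp hpM hs hc₀0 hk

end Split

/-! ### The rigid level `lcm (M, 4)` -/

section Lcm

/-- `lcm (M, 4) = M q'` with `q' ∣ 4` -/
theorem tres5bin_lcm_four (M : ℕ) : ∃ q' : ℕ, q' ∣ 4 ∧ Nat.lcm M 4 = M * q' := by
  refine ⟨4 / Nat.gcd M 4, Nat.div_dvd_of_dvd (Nat.gcd_dvd_right M 4), ?_⟩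
  rw [Nat.lcm, Nat.mul_div_assoc M (Nat.gcd_dvd_right M 4)]

/-- the inclusion `F̄_{M p} ≤ F̄_{lcm (M, 4) p}` -/
theorem tres5bin_le_lcm_four (M p : ℕ) :
    modularFunctionFieldBar (M * p) ≤ modularFunctionFieldBar (Nat.lcm M 4 * p) := by
  obtain ⟨q', -, hlcm⟩ := tres5bin_lcm_four M
  rw [hlcm]
  exact stb_d_le M p q'

end Lcm

/-! ### The four inputs at the frame level -/

section Main

variable {p M : ℕ} [NeZero p] [NeZero M] [NeZero (M * p)] (hp : p.Prime) (hpM : ¬ p ∣ M)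

include hpM

/-- **FAC-BIG (IN), `stbdUp` shape.**  The four inputs of `tres5biv_kum` at the level `M q' p` for
`u = ι w₀`, `w₀` ANY Kummer function of the new nonzero class `z₀`, trivial at `v_∞`. -/
theorem tres5bin_inputs (q' : ℕ) [NeZero q'] [NeZero (M * q')] [NeZero (M * q' * p)]
    (hpM' : ¬ p ∣ M * q') (hq' : ∀ ℓ : ℕ, ℓ.Prime → ℓ ∣ q' → ℓ + 1 < p)
    (A : ValuationSubring Qb) (hA : A.LiesOverPrime p)
    {z₀ : JZero (M * p)} (hz : z₀ ≠ 0)
    (hα : stbPushAlpha M p z₀ = 0) (hβ : stbPushBeta M p z₀ = 0)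
    (htriv : TrivInf A p z₀) {w₀ : modularFunctionFieldBar (M * p)} (hw : KummerRel p z₀ w₀) :
    stbdUp M p q' w₀ ≠ 0 ∧
      (∀ P : Place Qb (modularFunctionFieldBar (M * q' * p)),
        (p : ℤ) ∣ P.ord (stbdUp M p q' w₀)) ∧
      IsSplitFn hp hpM' A (stbdUp M p q' w₀) ∧
      ∀ c : modularFunctionFieldBar (M * q' * p), c ^ p ≠ stbdUp M p q' w₀ :=
  ⟨(treslu_ne_zero M p q').mpr hw.ne_zero,
    fun P => treslu_div M p q' p w₀ (fun Q => wok_dvd_ord hw Q) P,
    treslu_split q' hp hpM hpM' A (tres5bin_split hp hpM A hA hα hβ htriv hw),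
    tres5bin_not_pow_up M p q' hp hq' (tres5bin_not_pow hp.ne_zero hz hw)⟩

/-- **FAC-BIG (IN), subtype shape** (= the hypotheses `hdiv`, `hsplit`, `hnp` of helper16's
`tres5bit_descend`, with `N := M * p`, frame level `M₁ * p`, `M₁ = M * q'`, any `hle`). -/
theorem tres5bin_inputs_le (M₁ : ℕ) [NeZero M₁] [NeZero (M₁ * p)] (hpM₁ : ¬ p ∣ M₁)
    (q' : ℕ) (hM₁ : M₁ = M * q') (hq' : ∀ ℓ : ℕ, ℓ.Prime → ℓ ∣ q' → ℓ + 1 < p)
    (A : ValuationSubring Qb) (hA : A.LiesOverPrime p)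
    {z₀ : JZero (M * p)} (hz : z₀ ≠ 0)
    (hα : stbPushAlpha M p z₀ = 0) (hβ : stbPushBeta M p z₀ = 0)
    (htriv : TrivInf A p z₀) {w₀ : modularFunctionFieldBar (M * p)} (hw : KummerRel p z₀ w₀)
    (hle : modularFunctionFieldBar (M * p) ≤ modularFunctionFieldBar (M₁ * p)) :
    (⟨(w₀ : LaurentSeries Qb), hle w₀.2⟩ : modularFunctionFieldBar (M₁ * p)) ≠ 0 ∧
      (∀ P : Place Qb (modularFunctionFieldBar (M₁ * p)),
        (p : ℤ) ∣ P.ord (⟨(w₀ : LaurentSeries Qb), hle w₀.2⟩ :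
          modularFunctionFieldBar (M₁ * p))) ∧
      IsSplitFn hp hpM₁ A
        (⟨(w₀ : LaurentSeries Qb), hle w₀.2⟩ : modularFunctionFieldBar (M₁ * p)) ∧
      ∀ c : modularFunctionFieldBar (M₁ * p),
        c ^ p ≠ (⟨(w₀ : LaurentSeries Qb), hle w₀.2⟩ : modularFunctionFieldBar (M₁ * p)) := by
  subst hM₁
  have hq0 : q' ≠ 0 := by
    rintro rfl
    exact NeZero.ne (M * 0) (mul_zero M)
  haveI : NeZero q' := ⟨hq0⟩
  have e : (⟨(w₀ : LaurentSeries Qb), hle w₀.2⟩ : modularFunctionFieldBar (M * q' * p)) =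
      stbdUp M p q' w₀ := Subtype.ext (coe_stbdUp M p q' w₀).symm
  rw [e]
  exact tres5bin_inputs hp hpM q' hpM₁ hq' A hA hz hα hβ htriv hw

/-- **FAC-BIG (IN) at the rigid level `lcm (M, 4)`**, `p ≥ 5`. -/
theorem tres5bin_inputs_lcm_four [NeZero (Nat.lcm M 4)] [NeZero (Nat.lcm M 4 * p)] (h5 : 5 ≤ p)
    (A : ValuationSubring Qb) (hA : A.LiesOverPrime p)
    {z₀ : JZero (M * p)} (hz : z₀ ≠ 0)
    (hα : stbPushAlpha M p z₀ = 0) (hβ : stbPushBeta M p z₀ = 0)
    (htriv : TrivInf A p z₀) {w₀ : modularFunctionFieldBar (M * p)} (hw : KummerRel p z₀ w₀)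
    (hle : modularFunctionFieldBar (M * p) ≤ modularFunctionFieldBar (Nat.lcm M 4 * p)) :
    ∃ hpM₁ : ¬ p ∣ Nat.lcm M 4,
      (⟨(w₀ : LaurentSeries Qb), hle w₀.2⟩ : modularFunctionFieldBar (Nat.lcm M 4 * p)) ≠ 0 ∧
      (∀ P : Place Qb (modularFunctionFieldBar (Nat.lcm M 4 * p)),
        (p : ℤ) ∣ P.ord (⟨(w₀ : LaurentSeries Qb), hle w₀.2⟩ :
          modularFunctionFieldBar (Nat.lcm M 4 * p))) ∧
      IsSplitFn hp hpM₁ A
        (⟨(w₀ : LaurentSeries Qb), hle w₀.2⟩ : modularFunctionFieldBar (Nat.lcm M 4 * p)) ∧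
      ∀ c : modularFunctionFieldBar (Nat.lcm M 4 * p),
        c ^ p ≠ (⟨(w₀ : LaurentSeries Qb), hle w₀.2⟩ :
          modularFunctionFieldBar (Nat.lcm M 4 * p)) := by
  obtain ⟨q', hq4, hlcm⟩ := tres5bin_lcm_four M
  have hq' : ∀ ℓ : ℕ, ℓ.Prime → ℓ ∣ q' → ℓ + 1 < p := by
    intro ℓ hℓ hℓq
    have h4 : ℓ ∣ 2 * 2 := hℓq.trans hq4
    have h2 : ℓ ∣ 2 := (hℓ.dvd_mul.mp h4).elim id id
    have := Nat.le_of_dvd (by norm_num) h2
    omega
  have hpM₁ : ¬ p ∣ Nat.lcm M 4 := by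
    intro h
    have h1 : p ∣ M * 4 := h.trans (Nat.lcm_dvd_mul M 4)
    rcases hp.dvd_mul.mp h1 with h2 | h2
    · exact hpM h2
    · have h4 : p ∣ 2 * 2 := h2
      have h3 : p ∣ 2 := (hp.dvd_mul.mp h4).elim id id
      have := Nat.le_of_dvd (by norm_num) h3
      omega
  exact ⟨hpM₁, tres5bin_inputs_le hp hpM (Nat.lcm M 4) hpM₁ q' hlcm hq' A hA hz hα hβ htriv hw hle⟩

end Main

end Fermat.Agent.R38

end
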