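import Fermat.Agent.R38.TresT0
import Fermat.Agent.R38.TresLevelUp

/-!
# Row 38, TRES, FAC-BIG instance, the INPUT (IN) (c) `hsplit` (helper69)

Frame of `R38/TresBigInstV.lean` / `R38/TresBigInstT.lean` (`tres5biv_kum`, `tres5bit_descend`,
helper16): `u := STB.stbdUp M p q' w₀ = ⟨w₀, hle w₀.2⟩` at the level `M q' p`
(`M q' = lcm (M, 4)`), `w₀` ANY Kummer function (exponent `p`) of a class `z ∈ J₀(M p)[p]` with
`α_* z = 0 = β_* z`, `TrivInf A p z`.  [(IN) (d) `hw` is helper16's `R38/TresBigInstInD.lean`.]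

* `tres5binc_depthInf_mul`, `tres5binc_split_mul` : `S33.DepthInf`, `S33.IsSplitFn` are invariant
  under `ℚ̄^× · F^{× p}`;
* `tres5binc_kummer_eq` : two Kummer functions of the same class differ by `ℚ̄^× · F^{× p}`;
* `tres5binc_split` : **(c) at the level `M p`**: every Kummer function of `z` is split
  (`TrivInf` gives ONE Gauss-constant Kummer function, `trest0_split`);
* `tres5binc_split_up` : **(c)**: `IsSplitFn … (stbdUp M p q' w₀)` (`treslu_split`);
* `tres5binc_up_eq`, `tres5binc_hsplit` : **(c)** in the subtype form `⟨w₀, hle w₀.2⟩` of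
  `tres5bit_descend` (hypothesis `hsplit`).
-/

set_option autoImplicit false
set_option linter.unusedSectionVars false
set_option linter.unusedVariables false
set_option linter.style.haveILetI false

noncomputable section

namespace Fermat.Agent.R38

open ModularCurve AlgebraicCurve Fermat.Agent.ES Fermat.Agent.ES.G2 Fermat.Agent.STB
  Fermat.Agent.UNIP Fermat.Agent.S33 Fermat.Agent.RIB.MP

/-! ### invariance of the depth under `ℚ̄^× · F^{× p}` -/

section Inv

variable {N : ℕ} [NeZero N] (A : ValuationSubring Qb)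

/-- `DepthInf` is invariant under `ℚ̄^× · F^{× n}` -/
theorem tres5binc_depthInf_mul {n : ℕ} {ϖ : Qb} {u : modularFunctionFieldBar N} {a : Qb}
    (ha : a ≠ 0) {f : modularFunctionFieldBar N} (hf : f ≠ 0) (h : DepthInf A N n ϖ u) :
    DepthInf A N n ϖ (algebraMap Qb (modularFunctionFieldBar N) a * f ^ n * u) := by
  obtain ⟨c, g, hc, hg, hcong⟩ := h
  refine ⟨a * c, f * g, mul_ne_zero ha hc, mul_ne_zero hf hg, ?_⟩
  have ha' : algebraMap Qb (modularFunctionFieldBar N) a ≠ 0 := (map_ne_zero _).mpr ha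
  have hc' : algebraMap Qb (modularFunctionFieldBar N) c ≠ 0 := (map_ne_zero _).mpr hc
  have hfn : f ^ n ≠ 0 := pow_ne_zero _ hf
  have hgn : g ^ n ≠ 0 := pow_ne_zero _ hg
  have e : algebraMap Qb (modularFunctionFieldBar N) a * f ^ n * u /
      (algebraMap Qb (modularFunctionFieldBar N) (a * c) * (f * g) ^ n) =
      u / (algebraMap Qb (modularFunctionFieldBar N) c * g ^ n) := by
    rw [map_mul, mul_pow, div_eq_div_iff (mul_ne_zero (mul_ne_zero ha' hc') (mul_ne_zero hfn hgn))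
      (mul_ne_zero hc' hgn)]
    ring
  rw [e]
  exact hcong

end Inv

section InvSplit

variable {p M : ℕ} [NeZero p] [NeZero M] [NeZero (M * p)] (hp : p.Prime) (hpM : ¬ p ∣ M)
  (A : ValuationSubring Qb)

/-- `IsSplitFn` is invariant under `ℚ̄^× · F^{× p}` -/
theorem tres5binc_split_mul {u : modularFunctionFieldBar (M * p)} {a : Qb} (ha : a ≠ 0)
    {f : modularFunctionFieldBar (M * p)} (hf : f ≠ 0) (h : IsSplitFn hp hpM A u) :
    IsSplitFn hp hpM A (algebraMap Qb (modularFunctionFieldBar (M * p)) a * f ^ p * u) := by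
  intro k
  refine ⟨tres5binc_depthInf_mul A ha hf (h k).1, ?_⟩
  unfold DepthZero
  rw [map_mul, map_mul, map_pow, AlgEquiv.commutes]
  exact tres5binc_depthInf_mul A ha ((map_ne_zero _).mpr hf) (h k).2

end InvSplit

/-! ### (c) `hsplit` -/

section C

variable (M p : ℕ) [NeZero M] [hpF : Fact p.Prime]

/-- two Kummer functions of the same class differ by `ℚ̄^× · F^{× p}` -/
theorem tres5binc_kummer_eq :
    haveI : NeZero p := ⟨hpF.out.ne_zero⟩
    ∀ (z : JZero (M * p)) (w₀ w₁ : modularFunctionFieldBar (M * p)),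
      KummerRel p z w₀ → KummerRel p z w₁ →
      ∃ (a : Qb) (f : modularFunctionFieldBar (M * p)), a ≠ 0 ∧ f ≠ 0 ∧
        w₀ = algebraMap Qb (modularFunctionFieldBar (M * p)) a * f ^ p * w₁ := by
  haveI : NeZero p := ⟨hpF.out.ne_zero⟩
  intro z w₀ w₁ h₀ h₁
  have h := h₀.sub h₁
  rw [sub_self] at h
  obtain ⟨a, f, haf⟩ := s33nc_const_pow_of_kummerRel_zero (M * p) p h
  have hw₁ : w₁ ≠ 0 := h₁.ne_zero
  have hq : w₀ / w₁ ≠ 0 := div_ne_zero h₀.ne_zero hw₁
  rw [haf] at hq
  have ha : a ≠ 0 := by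
    rintro rfl
    rw [map_zero, zero_mul] at hq
    exact hq rfl
  have hf : f ≠ 0 := by
    rintro rfl
    rw [zero_pow hpF.out.ne_zero, mul_zero] at hq
    exact hq rfl
  refine ⟨a, f, ha, hf, ?_⟩
  rw [← haf, div_mul_cancel₀ _ hw₁]

/-- **(c) at the level `M p`**: every Kummer function of a new class which is trivial at `v_∞`
is split. -/
theorem tres5binc_split (hpM : ¬ p ∣ M) (A : ValuationSubring Qb) (hA : A.LiesOverPrime p) :
    haveI : NeZero p := ⟨hpF.out.ne_zero⟩
    ∀ (z : JZero (M * p)), stbPushAlpha M p z = 0 → stbPushBeta M p z = 0 → TrivInf A p z →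
      ∀ w₀ : modularFunctionFieldBar (M * p), KummerRel p z w₀ →
        IsSplitFn hpF.out hpM A w₀ := by
  haveI : NeZero p := ⟨hpF.out.ne_zero⟩
  intro z hα hβ htriv w₀ hw₀
  obtain ⟨w₁, hw₁, hG⟩ := htriv
  have hs := trest0_split M p hpM A hA z hα hβ w₁ hw₁ (Or.inl hG)
  obtain ⟨a, f, ha, hf, e⟩ := tres5binc_kummer_eq M p z w₀ w₁ hw₀ hw₁
  rw [e]
  exact tres5binc_split_mul hpF.out hpM A ha hf hs

/-- **(c)** `hsplit` of `tres5biv_kum` for `u = stbdUp M p q' w₀`. -/
theorem tres5binc_split_up (q' : ℕ) [NeZero (M * q')] (hpM : ¬ p ∣ M) (hpM' : ¬ p ∣ M * q')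
    (A : ValuationSubring Qb) (hA : A.LiesOverPrime p) :
    haveI : NeZero p := ⟨hpF.out.ne_zero⟩
    ∀ (z : JZero (M * p)), stbPushAlpha M p z = 0 → stbPushBeta M p z = 0 → TrivInf A p z →
      ∀ w₀ : modularFunctionFieldBar (M * p), KummerRel p z w₀ →
        IsSplitFn hpF.out hpM' A (stbdUp M p q' w₀) := by
  haveI : NeZero p := ⟨hpF.out.ne_zero⟩
  intro z hα hβ htriv w₀ hw₀
  exact treslu_split q' hpF.out hpM hpM' A (tres5binc_split M p hpM A hA z hα hβ htriv w₀ hw₀)

end C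

/-! ### (c) in the form of `tres5bit_descend` (subtype form) -/

section Sub

variable (M p : ℕ) [NeZero M] [hpF : Fact p.Prime]

/-- `stbdUp M p q' w₀` is `⟨w₀, hle w₀.2⟩` -/
theorem tres5binc_up_eq (q' : ℕ) (w₀ : modularFunctionFieldBar (M * p))
    (hle : modularFunctionFieldBar (M * p) ≤ modularFunctionFieldBar (M * q' * p)) :
    (⟨(w₀ : LaurentSeries Qb), hle w₀.2⟩ : modularFunctionFieldBar (M * q' * p)) =
      stbdUp M p q' w₀ :=
  Subtype.ext (coe_stbdUp M p q' w₀).symm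

/-- **(c)** in the form of `tres5bit_descend` -/
theorem tres5binc_hsplit (q' : ℕ) [NeZero (M * q')] (hpM : ¬ p ∣ M) (hpM' : ¬ p ∣ M * q')
    (A : ValuationSubring Qb) (hA : A.LiesOverPrime p)
    (hle : modularFunctionFieldBar (M * p) ≤ modularFunctionFieldBar (M * q' * p)) :
    haveI : NeZero p := ⟨hpF.out.ne_zero⟩
    ∀ (z : JZero (M * p)), stbPushAlpha M p z = 0 → stbPushBeta M p z = 0 → TrivInf A p z →
      ∀ w₀ : modularFunctionFieldBar (M * p), KummerRel p z w₀ →
        IsSplitFn hpF.out hpM' A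
          (⟨(w₀ : LaurentSeries Qb), hle w₀.2⟩ : modularFunctionFieldBar (M * q' * p)) := by
  haveI : NeZero p := ⟨hpF.out.ne_zero⟩
  intro z hα hβ htriv w₀ hw₀
  rw [tres5binc_up_eq M p q' w₀ hle]
  exact tres5binc_split_up M p q' hpM hpM' A hA z hα hβ htriv w₀ hw₀

end Sub

end Fermat.Agent.R38
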