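import Fermat.Agent.R38.TresDescJ
import Fermat.Agent.ES.LaurentRoot
import Fermat.Agent.ES.G2.S37Place

/-!
# R38-TRES, piece FAC-DESC [T5 (a)]: existence of the root `y` and of the deck transformation

* `tresdesc_not_pow`     : a Kummer function of a nonzero class is not an `m`-th power;
* `tresdesc_exists_root` : a Kummer function `w₀` (exponent `m`) has an `m`-th root in `ℚ̄((Q))`;
* `tresdesc_exists_deck` : `p` prime, `w₀ ∈ F_N(ℚ̄)` not a `p`-th power, `y ^ p = w₀`, `ζ ^ p = 1`: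
  there is a ring homomorphism `t` of the cover `F′ = F_N(ℚ̄)(y)` into itself fixing `F_N(ℚ̄)`
  with `t y = C ζ · y`;
* `tresdesc_exists` : everything together: for `x` moved by `G` along the line `ℤ z₀`, `z₀ ≠ 0`
  toric for `G`, the cover, the deck transformation and the output of FAC-DESC.
-/

set_option autoImplicit false
set_option linter.unusedSectionVars false
set_option linter.unusedVariables false
set_option linter.style.haveILetI false

noncomputable section

open ModularCurve AlgebraicCurve Fermat.Agent.ES Fermat.Agent.ES.G2 Fermat.Agent.INJ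
  Fermat.Agent.UNIP Fermat.Agent.S36 Fermat.Agent.RIB.MP

namespace Fermat.Agent.R38

section Ex

variable {N : ℕ} [NeZero N]

/-- a Kummer function of a nonzero class is not an `m`-th power -/
theorem tresdesc_not_pow {m : ℕ} (hm : m ≠ 0) {z₀ : JZero N}
    {w₀ : modularFunctionFieldBar N} (hw : KummerRel m z₀ w₀) (hz : z₀ ≠ 0) :
    ∀ b : modularFunctionFieldBar N, b ^ m ≠ w₀ := by
  intro b hb
  apply hz
  have h1 : KummerRel m z₀ (1 * b ^ m) := by
    rw [one_mul, hb]
    exact hw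
  exact KummerRel.eq_zero_of_pow hm (fun v => v.ord_one) h1

/-- a Kummer function has a root in `ℚ̄((Q))` -/
theorem tresdesc_exists_root {m : ℕ} (hm : m ≠ 0) {z₀ : JZero N}
    {w₀ : modularFunctionFieldBar N} (hw : KummerRel m z₀ w₀) :
    ∃ y : LaurentSeries NfQb, y ^ m = (w₀ : LaurentSeries NfQb) := by
  obtain ⟨P₀, hP₀, -⟩ := s37_exists_cusp_place N
  obtain ⟨D, -, hw0, hD⟩ := hw
  have h1 := hD P₀
  rw [hP₀ w₀ hw0] at h1
  exact Fermat.Agent.ES.LaurentRoot.exists_pow_eq_laurentSeries (Nat.pos_of_ne_zero hm) _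
    (fun h => hw0 (Subtype.ext h)) ⟨_, h1.symm⟩

/-- **existence of the deck transformation** -/
theorem tresdesc_exists_deck {p : ℕ} (hp : p.Prime) {w₀ : modularFunctionFieldBar N}
    (hw : ∀ b : modularFunctionFieldBar N, b ^ p ≠ w₀) {y : LaurentSeries NfQb}
    (hy : y ^ p = (w₀ : LaurentSeries NfQb)) {ζ : NfQb} (hζ : ζ ^ p = 1) :
    ∃ t : ↥(tresCov N y) →+* LaurentSeries NfQb, (∀ z, t z ∈ tresCov N y) ∧
      (∀ (f : LaurentSeries NfQb) (hf : f ∈ modularFunctionFieldBar N),
        t ⟨f, tresCov_mem_of_mem y hf⟩ = f) ∧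
      t ⟨y, tresCov_self_mem y⟩ = HahnSeries.C ζ * y := by
  classical
  have hirr : Irreducible
      (Polynomial.X ^ p - Polynomial.C w₀ : Polynomial (modularFunctionFieldBar N)) :=
    X_pow_sub_C_irreducible_of_prime hp hw
  have hmonic :
      (Polynomial.X ^ p - Polynomial.C w₀ : Polynomial (modularFunctionFieldBar N)).Monic :=
    Polynomial.monic_X_pow_sub_C w₀ hp.ne_zero
  have hwL : algebraMap (modularFunctionFieldBar N) (LaurentSeries NfQb) w₀ =
      (w₀ : LaurentSeries NfQb) := rfl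
  have haeval : Polynomial.aeval y
      (Polynomial.X ^ p - Polynomial.C w₀ : Polynomial (modularFunctionFieldBar N)) = 0 := by
    rw [map_sub, map_pow, Polynomial.aeval_X, Polynomial.aeval_C, hwL, hy, sub_self]
  have hint : IsIntegral (modularFunctionFieldBar N) y := ⟨_, hmonic, haeval⟩
  have hmin : minpoly (modularFunctionFieldBar N) y = Polynomial.X ^ p - Polynomial.C w₀ :=
    (minpoly.eq_of_irreducible_of_monic hirr haeval hmonic).symm
  have hroot : HahnSeries.C ζ * y ∈
      (minpoly (modularFunctionFieldBar N) y).aroots (LaurentSeries NfQb) := by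
    rw [Polynomial.mem_aroots', hmin]
    refine ⟨(hmonic.map _).ne_zero, ?_⟩
    rw [map_sub, map_pow, Polynomial.aeval_X, Polynomial.aeval_C, hwL, mul_pow, hy, ← map_pow,
      hζ, map_one, one_mul, sub_self]
  set φ : ↥(IntermediateField.adjoin (modularFunctionFieldBar N) {y}) →ₐ[modularFunctionFieldBar N] LaurentSeries NfQb :=
    (IntermediateField.algHomAdjoinIntegralEquiv (modularFunctionFieldBar N) hint).symm
      ⟨_, hroot⟩ with hφ
  have hφgen : φ (IntermediateField.AdjoinSimple.gen (modularFunctionFieldBar N) y) =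
      HahnSeries.C ζ * y :=
    IntermediateField.algHomAdjoinIntegralEquiv_symm_apply_gen (modularFunctionFieldBar N) hint
      ⟨_, hroot⟩
  -- the carriers agree
  have hcar : ∀ z : LaurentSeries NfQb, z ∈ tresCov N y ↔ z ∈ IntermediateField.adjoin (modularFunctionFieldBar N) {y} := by
    intro z
    have h1 := IntermediateField.restrictScalars_adjoin (F := NfQb) (modularFunctionFieldBar N)
      ({y} : Set (LaurentSeries NfQb))
    have h2 : z ∈ IntermediateField.restrictScalars NfQb (IntermediateField.adjoin (modularFunctionFieldBar N) {y}) ↔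
        z ∈ IntermediateField.adjoin (modularFunctionFieldBar N) {y} := Iff.rfl
    rw [← h2, h1]
    rfl
  have hCmem : ∀ a : NfQb, (HahnSeries.C a : LaurentSeries NfQb) ∈
      IntermediateField.adjoin (modularFunctionFieldBar N) {y} := fun a =>
    (hcar _).1 (tresdesc_C_mem _ a)
  -- `φ` maps the cover into itself
  have hφmem : ∀ (x : LaurentSeries NfQb) (hx : x ∈ IntermediateField.adjoin (modularFunctionFieldBar N) {y}),
      φ ⟨x, hx⟩ ∈ IntermediateField.adjoin (modularFunctionFieldBar N) {y} := by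
    intro x hx
    induction hx using IntermediateField.adjoin_induction with
    | mem x hx =>
      rw [Set.mem_singleton_iff] at hx
      subst hx
      have : φ ⟨x, IntermediateField.subset_adjoin _ _ rfl⟩ = HahnSeries.C ζ * x := hφgen
      rw [this]
      exact mul_mem (hCmem ζ) (IntermediateField.mem_adjoin_simple_self _ x)
    | algebraMap f =>
      have : φ ⟨algebraMap (modularFunctionFieldBar N) (LaurentSeries NfQb) f,
          IntermediateField.algebraMap_mem _ f⟩ =
          algebraMap (modularFunctionFieldBar N) (LaurentSeries NfQb) f :=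
        φ.commutes f
      rw [this]
      exact IntermediateField.algebraMap_mem _ f
    | add x z hx hz h1 h2 =>
      have e : (⟨x + z, add_mem hx hz⟩ : ↥(IntermediateField.adjoin (modularFunctionFieldBar N) {y})) =
          ⟨x, hx⟩ + ⟨z, hz⟩ := rfl
      rw [e, map_add]
      exact add_mem h1 h2
    | inv x hx h1 =>
      have e : (⟨x⁻¹, inv_mem hx⟩ : ↥(IntermediateField.adjoin (modularFunctionFieldBar N) {y})) =
          (⟨x, hx⟩ : ↥(IntermediateField.adjoin (modularFunctionFieldBar N) {y}))⁻¹ := rfl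
      rw [e, map_inv₀]
      exact inv_mem h1
    | mul x z hx hz h1 h2 =>
      have e : (⟨x * z, mul_mem hx hz⟩ : ↥(IntermediateField.adjoin (modularFunctionFieldBar N) {y})) =
          ⟨x, hx⟩ * ⟨z, hz⟩ := rfl
      rw [e, map_mul]
      exact mul_mem h1 h2
  set e : ↥(tresCov N y) →+* ↥(IntermediateField.adjoin (modularFunctionFieldBar N) {y}) :=
    RingHom.codRestrict (algebraMap ↥(tresCov N y) (LaurentSeries NfQb))
      (IntermediateField.adjoin (modularFunctionFieldBar N) {y}) (fun z => (hcar _).1 z.2) with he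
  refine ⟨(φ : ↥(IntermediateField.adjoin (modularFunctionFieldBar N) {y}) →+* LaurentSeries NfQb).comp e, ?_, ?_, ?_⟩
  · intro z
    exact (hcar _).2 (hφmem _ (e z).2)
  · intro f hf
    show φ (e ⟨f, _⟩) = f
    have e1 : e ⟨f, tresCov_mem_of_mem y hf⟩ =
        algebraMap (modularFunctionFieldBar N) ↥(IntermediateField.adjoin (modularFunctionFieldBar N) {y}) ⟨f, hf⟩ :=
      Subtype.ext rfl
    rw [e1, φ.commutes]
    rfl
  · show φ (e ⟨y, _⟩) = HahnSeries.C ζ * y
    have e1 : e ⟨y, tresCov_self_mem y⟩ =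
        IntermediateField.AdjoinSimple.gen (modularFunctionFieldBar N) y := Subtype.ext rfl
    rw [e1, hφgen]

/-- **FAC-DESC, existence form.**  `p` prime, `x ∈ J₀(N)` with Kummer function `u`, moved by `G`
along the line `ℤ z₀`, `z₀ ≠ 0` with Kummer function `w₀`, `G` acting on `z₀` and on the
`p`-th root of unity `ζ` through the same exponents.  Then there are a root `y` of `w₀`, a deck
transformation `t` of `F′ = F_N(ℚ̄)(y)` with `t y = C ζ · y`, and `u″, γ, h ∈ F′`, `α ∈ ℚ̄ˣ` with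
`u = C (lc u) · γ ^ p · u″`, `u″, h, α ^ p` fixed by `G`, `t u″ = C (α ^ p) · h ^ p · u″`, and
`α` fixed by every `σ ∈ G` fixing `x`. -/
theorem tresdesc_exists {p : ℕ} (hp : p.Prime) (G : Subgroup (NfQb ≃ₐ[ℚ] NfQb))
    {x z₀ : JZero N} {u w₀ : modularFunctionFieldBar N} (hu : KummerRel p x u)
    (hw : KummerRel p z₀ w₀) (hz : z₀ ≠ 0)
    (hline : ∀ σ ∈ G, ∃ k : ℤ, σ • x - x = k • z₀)
    {ζ : NfQb} (hζ : ζ ^ p = 1)
    (htor : ∀ σ ∈ G, ∃ g : ℤ, σ • z₀ = g • z₀ ∧ σ ζ = ζ ^ g) :
    ∃ (y : LaurentSeries NfQb) (t : ↥(tresCov N y) →+* LaurentSeries NfQb)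
      (u'' γ h : LaurentSeries NfQb) (α : NfQb) (hu''F : u'' ∈ tresCov N y),
      y ^ p = (w₀ : LaurentSeries NfQb) ∧ (∀ z, t z ∈ tresCov N y) ∧
      (∀ (f : LaurentSeries NfQb) (hf : f ∈ modularFunctionFieldBar N),
        t ⟨f, tresCov_mem_of_mem y hf⟩ = f) ∧
      t ⟨y, tresCov_self_mem y⟩ = HahnSeries.C ζ * y ∧
      γ ∈ tresCov N y ∧ h ∈ tresCov N y ∧ u'' ≠ 0 ∧ γ ≠ 0 ∧ h ≠ 0 ∧ α ≠ 0 ∧
      (u : LaurentSeries NfQb) =
        HahnSeries.C (u : LaurentSeries NfQb).leadingCoeff * γ ^ p * u'' ∧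
      (∀ σ ∈ G, coeffMap ((σ : NfQb ≃ₐ[ℚ] NfQb) : NfQb →+* NfQb) u'' = u'') ∧
      (∀ σ ∈ G, coeffMap ((σ : NfQb ≃ₐ[ℚ] NfQb) : NfQb →+* NfQb) h = h) ∧
      t ⟨u'', hu''F⟩ = HahnSeries.C (α ^ p) * h ^ p * u'' ∧
      (∀ σ ∈ G, σ (α ^ p) = α ^ p) ∧
      ∀ σ ∈ G, σ • x = x → σ α = α := by
  have hp0 : p ≠ 0 := hp.ne_zero
  obtain ⟨y, hy⟩ := tresdesc_exists_root hp0 hw
  obtain ⟨t, htmem, htF, hty⟩ :=
    tresdesc_exists_deck hp (tresdesc_not_pow hp0 hw hz) hy hζ
  have hζ0 : ζ ≠ 0 := by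
    rintro rfl
    rw [zero_pow hp0] at hζ
    exact zero_ne_one hζ
  obtain ⟨u'', γ, h, α, hu''F, hγF, hhF, hu'', hγ, hh, hα, hU, hfix, hhfix, hth, hαm, hαfix⟩ :=
    tresdesc_final hp0 G hu hw hy hline t htmem htF hζ0 hty htor
  exact ⟨y, t, u'', γ, h, α, hu''F, hy, htmem, htF, hty, hγF, hhF, hu'', hγ, hh, hα, hU, hfix,
    hhfix, hth, hαm, hαfix⟩

end Ex

end Fermat.Agent.R38

end
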