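/-
ROW 38, piece PKG-TRES / FAC-RIG (helper35): THE k-SIDE DESCENT FROM A RIGID LEVEL.

`k` a field of characteristic `p ≥ 5`, `M ∣ M'` with `M' = 2^a * 3^b * M` (e.g. `M' = lcm (M, 4)`
or `lcm (M, 9)`), `F̄_M = modularFunctionFieldFullC k M ≤ F̄_{M'}` inside `k((q))`.

If `p ∣ c * ord_{Q'} r - d * ord_{Q'} h` at every place `Q'` of `F̄_{M'}` off the cusps and
`p ∣ ord_{Q'} r` at the cusps (`r, h ∈ F̄_M`), then the same holds at every place `Q` of `F̄_M`.

Route (no sum formula `Σ e f = n`, no norm formula): the tower `F̄_M ⊂ F̄_{ℓ M} ⊂ …` has steps of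
degree `≤ ℓ + 1 ≤ 4 < p` (`S28.UB.relrank_step`), so each step is separable, every place extends
(going up in the Dedekind domain `integralClosure O_Q F'`), and its ramification index is
`≤ [F' : F] < p`, hence prime to `p`.

* `tresrig_isSeparable_of_finrank_lt` : degree `< p` ⇒ separable (characteristic `p`);
* `tresrig_ord_sum_gt`, `tresrig_sum_ne_zero` : ultrametric lemmas for `Place.ord`;
* `tresrig_ramificationIndex_le_finrank` : `e ≤ [F' : F]` (prelude `Place.ramificationIndex`);
* `tresrig_exists_place_over` : going up for a finite separable extension (any characteristic);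
* `tresrig_exists_place_coprime` : `[F' : F] < p` ⇒ every place of `F` has a place of `F'` above it
  with ramification index prime to `p`;
* `tresrig_if_step` : the same for intermediate fields `A ≤ B` of `L/k` (with `relrank`);
* `TresRigUp k p M M'`, `tresrig_up_refl`, `tresrig_up_trans`, `tresrig_up_step`,
  `tresrig_up_pow`, `tresrig_up_two_three`, `tresrig_up_of_eq`, `tresrig_up_mul_four`,
  `tresrig_up_mul_nine`, `tresrig_up_lcm_four`, `tresrig_up_lcm_nine`;
* `tresrig_descent_of_up`, `tresrig_descent`, `tresrig_descent_lcm_four`,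
  `tresrig_descent_lcm_nine` : the descent (shape (R2) of helper44's note).
-/
import Fermat.Agent.S28.PrimeHypMain
import Fermat.Agent.S24.PlaceBasic
import Fermat.Agent.S24.PlaceDict
import Fermat.Prelude.Def_AlgebraicCurve_DivisorPushPull

set_option autoImplicit false
set_option linter.unusedSectionVars false
set_option linter.unusedVariables false
set_option linter.style.haveILetI false

noncomputable section

namespace Fermat.Agent.R38

open AlgebraicCurve ModularCurve IsDedekindDomain Fermat.Agent.S24 Fermat.Agent.S28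

section Sep

variable {F F' : Type*} [Field F] [Field F'] [Algebra F F']

/-- A finite extension of degree `< p` in characteristic `p` is separable. -/
theorem tresrig_isSeparable_of_finrank_lt (p : ℕ) (hp : p.Prime) [CharP F p]
    [FiniteDimensional F F'] (h : Module.finrank F F' < p) : Algebra.IsSeparable F F' := by
  refine ⟨fun x => ?_⟩
  have hint : IsIntegral F x := Algebra.IsIntegral.isIntegral x
  have hirr := minpoly.irreducible hint
  obtain ⟨n, g, hg, hexp⟩ := Polynomial.exists_separable_of_irreducible p hirr hp.ne_zero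
  have hdeg : (minpoly F x).natDegree ≤ Module.finrank F F' := minpoly.natDegree_le x
  have hdeg' : (minpoly F x).natDegree = g.natDegree * p ^ n := by
    rw [← hexp, Polynomial.natDegree_expand]
  have hg0 : g.natDegree ≠ 0 := by
    intro h0
    have : (minpoly F x).natDegree = 0 := by rw [hdeg', h0, zero_mul]
    exact (minpoly.natDegree_pos hint).ne' this
  rcases Nat.eq_zero_or_pos n with rfl | hn
  · have : minpoly F x = g := by
      rw [← hexp, pow_zero, Polynomial.expand_one]
    show (minpoly F x).Separable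
    rw [this]
    exact hg
  · exfalso
    have h1 : p ≤ p ^ n := by
      calc p = p ^ 1 := (pow_one p).symm
        _ ≤ p ^ n := Nat.pow_le_pow_right hp.pos hn
    have h2 : p ^ n ≤ g.natDegree * p ^ n :=
      Nat.le_mul_of_pos_left _ (Nat.pos_of_ne_zero hg0)
    omega

end Sep

section Ord

variable {K F : Type*} [Field K] [Field F] [Algebra K F] (v : Place K F)

/-- a finite sum of terms which are zero or of order `> m` is zero or of order `> m` -/
theorem tresrig_ord_sum_gt {ι : Type*} (s : Finset ι) (f : ι → F) (m : ℤ)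
    (h : ∀ i ∈ s, f i = 0 ∨ m < v.ord (f i)) :
    (∑ i ∈ s, f i) = 0 ∨ m < v.ord (∑ i ∈ s, f i) := by
  classical
  induction s using Finset.induction_on with
  | empty => left; simp
  | insert i s hi ih =>
    rw [Finset.sum_insert hi]
    have ih' := ih (fun j hj => h j (Finset.mem_insert_of_mem hj))
    by_cases hfi : f i = 0
    · rw [hfi, zero_add]; exact ih'
    · have hi1 : m < v.ord (f i) := (h i (Finset.mem_insert_self i s)).resolve_left hfi
      by_cases hs0 : ∑ j ∈ s, f j = 0
      · rw [hs0, add_zero]; exact Or.inr hi1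
      · have h1 : m < v.ord (∑ j ∈ s, f j) := ih'.resolve_left hs0
        by_cases hsum : f i + ∑ j ∈ s, f j = 0
        · exact Or.inl hsum
        · right
          have := PlaceAux.le_ord_add v hfi hs0 hsum
          exact lt_of_lt_of_le (lt_min hi1 h1) this

/-- a finite sum with one nonzero term of strictly smallest order is nonzero -/
theorem tresrig_sum_ne_zero {ι : Type*} (s : Finset ι) (f : ι → F) (i₀ : ι) (hi₀ : i₀ ∈ s)
    (h0 : f i₀ ≠ 0) (h : ∀ i ∈ s, i ≠ i₀ → f i = 0 ∨ v.ord (f i₀) < v.ord (f i)) :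
    (∑ i ∈ s, f i) ≠ 0 := by
  classical
  intro hsum
  rw [← Finset.add_sum_erase s f hi₀] at hsum
  have hrest := tresrig_ord_sum_gt v (s.erase i₀) f (v.ord (f i₀))
    (fun i hi => h i (Finset.mem_of_mem_erase hi) (Finset.ne_of_mem_erase hi))
  have e : f i₀ = -(∑ i ∈ s.erase i₀, f i) := eq_neg_of_add_eq_zero_left hsum
  rcases hrest with hr | hr
  · rw [hr, neg_zero] at e
    exact h0 e
  · have : v.ord (f i₀) = v.ord (∑ i ∈ s.erase i₀, f i) := by
      conv_lhs => rw [e]
      exact PlaceAux.ord_neg v _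
    omega

end Ord

section Ram

variable {K F F' : Type*} [Field K] [Field F] [Field F'] [Algebra K F] [Algebra K F']
  [Algebra F F'] [IsScalarTower K F F']

/-- **`e ≤ n`**: the ramification index of a place of `F'` over `F` is at most `[F' : F]`
(`1, π', …, π'^(e-1)` are linearly independent over `F`). -/
theorem tresrig_ramificationIndex_le_finrank [FiniteDimensional F F'] (w : Place K F') :
    w.ramificationIndex F ≤ Module.finrank F F' := by
  classical
  haveI : Algebra.IsIntegral F F' := Algebra.IsIntegral.of_finite F F'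
  set e := w.ramificationIndex F with he
  have hepos : 0 < e := w.ramificationIndex_pos (F := F)
  obtain ⟨π, hπ⟩ := IsDiscreteValuationRing.exists_irreducible w.toValuationSubring
  have hπord : w.ord (π : F') = 1 := w.ord_coe_irreducible hπ
  have hπ0 : (π : F') ≠ 0 := by
    intro h
    rw [h, w.ord_zero] at hπord
    exact zero_ne_one hπord
  have hli : LinearIndependent F (fun i : Fin e => (π : F') ^ (i : ℕ)) := by
    rw [Fintype.linearIndependent_iff]
    intro g hg
    by_contra hne
    push Not at hne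
    obtain ⟨i₁, hi₁⟩ := hne
    set t : Fin e → F' := fun i => g i • (π : F') ^ (i : ℕ) with ht
    have htne : ∀ i, g i ≠ 0 → t i ≠ 0 := by
      intro i hi
      rw [ht]
      simp only [Algebra.smul_def]
      exact mul_ne_zero ((map_ne_zero _).mpr hi) (pow_ne_zero _ hπ0)
    have htord : ∀ i, g i ≠ 0 →
        w.ord (t i) = (e : ℤ) * (w.restrict F).ord (g i) + ((i : ℕ) : ℤ) := by
      intro i hi
      rw [ht]
      simp only [Algebra.smul_def]
      rw [w.ord_mul ((map_ne_zero _).mpr hi) (pow_ne_zero _ hπ0), w.ord_restrict (g i),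
        ← zpow_natCast, w.ord_zpow, hπord, mul_one]
    set S : Finset (Fin e) := Finset.univ.filter (fun i => g i ≠ 0) with hS
    have hSne : S.Nonempty := ⟨i₁, by simp [hS, hi₁]⟩
    obtain ⟨i₀, hi₀S, hmin⟩ := Finset.exists_min_image S (fun i => w.ord (t i)) hSne
    have hgi₀ : g i₀ ≠ 0 := by simpa [hS] using hi₀S
    refine tresrig_sum_ne_zero w Finset.univ t i₀ (Finset.mem_univ _) (htne i₀ hgi₀) ?_ hg
    intro j _ hj
    by_cases hgj : g j = 0
    · left
      rw [ht]
      simp [hgj]
    · right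
      have hjS : j ∈ S := by simp [hS, hgj]
      have hle := hmin j hjS
      have hneq : w.ord (t i₀) ≠ w.ord (t j) := by
        intro heq
        rw [htord i₀ hgi₀, htord j hgj] at heq
        have h1 : ((i₀ : ℕ) : ℤ) - ((j : ℕ) : ℤ) =
            (e : ℤ) * ((w.restrict F).ord (g j) - (w.restrict F).ord (g i₀)) := by
          linarith
        have h2 : (e : ℤ) ∣ ((i₀ : ℕ) : ℤ) - ((j : ℕ) : ℤ) := ⟨_, h1⟩
        have hi₀lt : ((i₀ : ℕ) : ℤ) < e := by exact_mod_cast i₀.2
        have hjlt : ((j : ℕ) : ℤ) < e := by exact_mod_cast j.2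
        have hi₀nn : (0 : ℤ) ≤ ((i₀ : ℕ) : ℤ) := Int.natCast_nonneg _
        have hjnn : (0 : ℤ) ≤ ((j : ℕ) : ℤ) := Int.natCast_nonneg _
        have h3 : ((i₀ : ℕ) : ℤ) - ((j : ℕ) : ℤ) = 0 := by
          apply Int.eq_zero_of_abs_lt_dvd h2
          rw [abs_lt]
          constructor <;> omega
        have h4 : (i₀ : ℕ) = (j : ℕ) := by omega
        exact hj (Fin.ext h4.symm)
      exact lt_of_le_of_ne hle hneq
  have := hli.fintype_card_le_finrank
  simpa using this

end Ram

section GoingUp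

variable {K F F' : Type*} [Field K] [Field F] [Field F'] [Algebra K F] [Algebra K F']
  [Algebra F F'] [IsScalarTower K F F']

theorem tresrig_hK (v : Place K F) :
    ∀ a : K, ∃ r : integralClosure v.toValuationSubring F',
      algebraMap (integralClosure v.toValuationSubring F') F' r = algebraMap K F' a := by
  intro a
  have h : algebraMap K F' a =
      algebraMap v.toValuationSubring F' (algebraMap K v.toValuationSubring a) := by
    show _ = algebraMap F F' ((algebraMap K v.toValuationSubring a : v.toValuationSubring) : F)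
    rw [Place.coe_algebraMap, ← IsScalarTower.algebraMap_apply]
  exact ⟨⟨algebraMap K F' a, by rw [h]; exact isIntegral_algebraMap⟩, rfl⟩

/-- **going up** (finite separable extension, any characteristic): every place of `F` is the
restriction of a place of `F'`. -/
theorem tresrig_exists_place_over [FiniteDimensional F F'] [Algebra.IsSeparable F F']
    (v : Place K F) : ∃ w : Place K F', w.restrict F = v := by
  haveI : IsDedekindDomain (integralClosure v.toValuationSubring F') :=
    integralClosure.isDedekindDomain v.toValuationSubring F F'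
  haveI : IsFractionRing (integralClosure v.toValuationSubring F') F' :=
    integralClosure.isFractionRing_of_finite_extension F F'
  have hnf : ¬ IsField (integralClosure v.toValuationSubring F') := by
    intro hB
    have hinj : Function.Injective
        (algebraMap v.toValuationSubring (integralClosure v.toValuationSubring F')) := by
      intro a b hab
      have h1 : algebraMap v.toValuationSubring F' a = algebraMap v.toValuationSubring F' b :=
        congrArg (fun x : integralClosure v.toValuationSubring F' => (x : F')) hab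
      exact Subtype.ext ((algebraMap F F').injective h1)
    have hA : IsField v.toValuationSubring := isField_of_isIntegral_of_isField hinj hB
    exact ValuationSubring.not_isField_of_ne_top F v.ne_top' hA
  obtain ⟨M, hM⟩ := Ideal.exists_maximal (integralClosure v.toValuationSubring F')
  have hMbot : M ≠ ⊥ := by
    intro h
    apply hnf
    rw [h] at hM
    exact Ring.isField_iff_isSimpleOrder_ideal.mpr
      (by
        constructor
        intro I
        by_cases hI : I = ⊥
        · exact Or.inl hI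
        · right
          by_contra hIt
          exact hI (hM.eq_of_le hIt bot_le).symm)
  let P : HeightOneSpectrum (integralClosure v.toValuationSubring F') := ⟨M, hM.isPrime, hMbot⟩
  refine ⟨placeOfPrime (tresrig_hK v) P, ?_⟩
  symm
  apply Place.ext
  refine ValuationSubring.eq_of_le_of_ne_top _ ?_
    ((placeOfPrime (tresrig_hK v) P).restrict F).ne_top'
  intro a ha
  rw [Place.restrict_toValuationSubring, ValuationSubring.mem_comap]
  show algebraMap F F' a ∈ (P.valuation F').valuationSubring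
  rw [Valuation.mem_valuationSubring_iff]
  have hint : IsIntegral v.toValuationSubring (algebraMap F F' a) := by
    have : algebraMap F F' a = algebraMap v.toValuationSubring F' ⟨a, ha⟩ := rfl
    rw [this]
    exact isIntegral_algebraMap
  have : algebraMap F F' a =
      algebraMap (integralClosure v.toValuationSubring F') F' ⟨algebraMap F F' a, hint⟩ := rfl
  rw [this]
  exact P.valuation_le_one _

end GoingUp

section Coprime

variable {K F F' : Type*} [Field K] [Field F] [Field F'] [Algebra K F] [Algebra K F']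
  [Algebra F F'] [IsScalarTower K F F']

/-- `[F' : F] < p` (characteristic `p`): every place of `F` has a place of `F'` above it whose
ramification index is prime to `p`. -/
theorem tresrig_exists_place_coprime [FiniteDimensional F F'] (p : ℕ) (hp : p.Prime) [CharP F p]
    (hlt : Module.finrank F F' < p) (v : Place K F) :
    ∃ w : Place K F', w.restrict F = v ∧ 0 < w.ramificationIndex F ∧
      ¬ p ∣ w.ramificationIndex F := by
  haveI : Algebra.IsSeparable F F' := tresrig_isSeparable_of_finrank_lt p hp hlt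
  haveI : Algebra.IsIntegral F F' := Algebra.IsIntegral.of_finite F F'
  obtain ⟨w, hw⟩ := tresrig_exists_place_over (K := K) (F := F) (F' := F') v
  have he := tresrig_ramificationIndex_le_finrank (K := K) (F := F) w
  have hepos := w.ramificationIndex_pos (F := F)
  exact ⟨w, hw, hepos, Nat.not_dvd_of_pos_of_lt hepos (lt_of_le_of_lt he hlt)⟩

end Coprime

section IF

variable {k L : Type*} [Field k] [Field L] [Algebra k L] {A B : IntermediateField k L}

/-- the identity, as an `A`-linear equivalence `extendScalars hAB ≃ B` -/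
def tresrigEquiv (hAB : A ≤ B) :
    letI := (IntermediateField.inclusion hAB).toRingHom.toAlgebra
    (IntermediateField.extendScalars hAB) ≃ₗ[A] B :=
  letI := (IntermediateField.inclusion hAB).toRingHom.toAlgebra
  { toFun := fun x => ⟨x.1, x.2⟩
    invFun := fun y => ⟨y.1, y.2⟩
    map_add' := fun _ _ => rfl
    map_smul' := fun _ _ => rfl
    left_inv := fun _ => rfl
    right_inv := fun _ => rfl }

/-- **one step**, intermediate field form: `A ≤ B` of finite relative degree `< p` over a field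
of characteristic `p`.  Every place `Q` of `A` has a place `Q'` of `B` above it with
`ord_{Q'} x = e * ord_Q x` on `A`, `e > 0` prime to `p`. -/
theorem tresrig_if_step (hAB : A ≤ B) (p : ℕ) (hp : p.Prime) [CharP k p]
    (hfin : A.relrank B < Cardinal.aleph0) (hlt : A.relfinrank B < p) (Q : Place k A) :
    ∃ (Q' : Place k B) (e : ℕ), 0 < e ∧ ¬ p ∣ e ∧
      ∀ (x : L) (hx : x ∈ A) (hx' : x ∈ B),
        Q'.ord (⟨x, hx'⟩ : B) = (e : ℤ) * Q.ord (⟨x, hx⟩ : A) := by
  letI alg : Algebra A B := (IntermediateField.inclusion hAB).toRingHom.toAlgebra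
  haveI : IsScalarTower k A B := IsScalarTower.of_algebraMap_eq (fun x => rfl)
  have hrank : Module.rank A (IntermediateField.extendScalars hAB) < Cardinal.aleph0 := by
    rwa [← IntermediateField.relrank_eq_rank_of_le hAB]
  haveI : FiniteDimensional A (IntermediateField.extendScalars hAB) :=
    IsNoetherian.iff_fg.mp (IsNoetherian.iff_rank_lt_aleph0.mpr hrank)
  haveI : FiniteDimensional A B := Module.Finite.equiv (tresrigEquiv hAB)
  have hfr : Module.finrank A B = A.relfinrank B := by
    rw [IntermediateField.relfinrank_eq_finrank_of_le hAB]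
    exact (tresrigEquiv hAB).finrank_eq.symm
  haveI : CharP A p := charP_of_injective_algebraMap (algebraMap k A).injective p
  haveI : Algebra.IsIntegral A B := Algebra.IsIntegral.of_finite A B
  obtain ⟨w, hw, hepos, hpe⟩ := tresrig_exists_place_coprime (K := k) (F := A) (F' := B) p hp
    (by rw [hfr]; exact hlt) Q
  refine ⟨w, w.ramificationIndex A, hepos, hpe, ?_⟩
  intro x hx hx'
  have h1 := w.ord_restrict (⟨x, hx⟩ : A)
  rw [hw] at h1
  exact h1

end IF

section Mod

variable (k : Type*) [Field k]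

theorem tresrig_psi_ne_zero {M : ℕ} (hM : M ≠ 0) : dedekindPsi M ≠ 0 := by
  unfold dedekindPsi
  have h1 : (1 : ℕ) ∈ M.divisors.filter (fun d => Squarefree d) := by
    simp [hM]
  have := Finset.single_le_sum (f := fun d => M / d) (fun _ _ => Nat.zero_le _) h1
  have hN : 0 < M := Nat.pos_of_ne_zero hM
  simp only [Nat.div_one] at this
  omega

/-- the degree of one step `M → ℓ M` of the tower is at most `ℓ + 1` -/
theorem tresrig_relrank_step {ℓ M : ℕ} (hℓ : ℓ.Prime) (hM : M ≠ 0)
    (hΦ : ∀ r (hr : r.Prime), r ∣ ℓ * M → @UB.ModEq k _ r ⟨hr.ne_zero⟩) :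
    ∃ n : ℕ, n ≤ ℓ + 1 ∧
      (modularFunctionFieldFullC k M).relrank (modularFunctionFieldFullC k (ℓ * M)) = (n : Cardinal) := by
  have hstep := UB.relrank_step k hℓ hM hΦ
  have hψ0 := tresrig_psi_ne_zero hM
  have hψ : dedekindPsi (ℓ * M) ≤ (ℓ + 1) * dedekindPsi M := by
    by_cases hd : ℓ ∣ M
    · rw [UB.psi_mul_of_dvd hℓ hd hM]
      exact Nat.mul_le_mul_right _ (Nat.le_succ ℓ)
    · rw [UB.psi_mul_of_not_dvd hℓ hd]
  set c := (modularFunctionFieldFullC k M).relrank (modularFunctionFieldFullC k (ℓ * M)) with hc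
  have hcle : c ≤ c * (dedekindPsi M : Cardinal) :=
    Cardinal.le_mul_right (Nat.cast_ne_zero.mpr hψ0)
  have hfin : c < Cardinal.aleph0 := (hcle.trans hstep).trans_lt (Cardinal.natCast_lt_aleph0)
  obtain ⟨n, hn⟩ := Cardinal.lt_aleph0.mp hfin
  refine ⟨n, ?_, hn⟩
  rw [hn] at hstep
  have h2 : n * dedekindPsi M ≤ dedekindPsi (ℓ * M) := by exact_mod_cast hstep
  exact Nat.le_of_mul_le_mul_right (h2.trans hψ) (Nat.pos_of_ne_zero hψ0)

/-- **the lifting property** for places from level `M` to level `M'`: every place `Q` of `F̄_M`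
has a place `Q'` of `F̄_{M'}` with `ord_{Q'} = e * ord_Q` on `F̄_M`, `e > 0` prime to `p`. -/
def TresRigUp (p M M' : ℕ) : Prop :=
  ∀ Q : Place k (modularFunctionFieldFullC k M),
    ∃ (Q' : Place k (modularFunctionFieldFullC k M')) (e : ℕ), 0 < e ∧ ¬ p ∣ e ∧
      ∀ (x : LaurentSeries k) (hx : x ∈ modularFunctionFieldFullC k M)
        (hx' : x ∈ modularFunctionFieldFullC k M'),
        Q'.ord (⟨x, hx'⟩ : modularFunctionFieldFullC k M') =
          (e : ℤ) * Q.ord (⟨x, hx⟩ : modularFunctionFieldFullC k M)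

theorem tresrig_up_refl {p : ℕ} (hp : p.Prime) (M : ℕ) : TresRigUp k p M M := fun Q =>
  ⟨Q, 1, one_pos, fun h => hp.one_lt.ne' (Nat.dvd_one.mp h), fun x hx hx' => by
    rw [Nat.cast_one, one_mul]⟩

theorem tresrig_up_trans {p M M₁ M₂ : ℕ} (hp : p.Prime) (h01 : M ∣ M₁)
    (h1 : TresRigUp k p M M₁) (h2 : TresRigUp k p M₁ M₂) : TresRigUp k p M M₂ := by
  intro Q
  obtain ⟨Q₁, e₁, he₁, hpe₁, h₁⟩ := h1 Q
  obtain ⟨Q₂, e₂, he₂, hpe₂, h₂⟩ := h2 Q₁
  refine ⟨Q₂, e₂ * e₁, Nat.mul_pos he₂ he₁, ?_, ?_⟩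
  · intro hdvd
    rcases (Nat.Prime.dvd_mul hp).mp hdvd with h | h
    · exact hpe₂ h
    · exact hpe₁ h
  · intro x hx hx'
    have hx1 : x ∈ modularFunctionFieldFullC k M₁ := UB.full_mono k h01 hx
    rw [h₂ x hx1 hx', h₁ x hx hx1]
    push_cast
    ring

/-- one step `M → ℓ M` with `ℓ + 1 < p` -/
theorem tresrig_up_step {p ℓ M : ℕ} (hp : p.Prime) [CharP k p] (hℓ : ℓ.Prime) (hℓp : ℓ + 1 < p)
    (hM : M ≠ 0) : TresRigUp k p M (ℓ * M) := by
  intro Q
  have hAB : modularFunctionFieldFullC k M ≤ modularFunctionFieldFullC k (ℓ * M) :=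
    UB.full_mono k (Dvd.intro_left ℓ rfl)
  obtain ⟨n, hn, hrel⟩ := tresrig_relrank_step k hℓ hM
    (fun r hr _ => @ub_modEq k _ r ⟨hr.ne_zero⟩ hr)
  have hfin : (modularFunctionFieldFullC k M).relrank (modularFunctionFieldFullC k (ℓ * M)) <
      Cardinal.aleph0 := by
    rw [hrel]
    exact Cardinal.natCast_lt_aleph0
  have hlt : (modularFunctionFieldFullC k M).relfinrank (modularFunctionFieldFullC k (ℓ * M)) <
      p := by
    rw [IntermediateField.relfinrank_eq_toNat_relrank, hrel, Cardinal.toNat_natCast]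
    omega
  exact tresrig_if_step hAB p hp hfin hlt Q

theorem tresrig_up_pow {p ℓ M : ℕ} (hp : p.Prime) [CharP k p] (hℓ : ℓ.Prime) (hℓp : ℓ + 1 < p)
    (hM : M ≠ 0) (a : ℕ) : TresRigUp k p M (ℓ ^ a * M) := by
  induction a with
  | zero =>
    rw [pow_zero, one_mul]
    exact tresrig_up_refl k hp M
  | succ a ih =>
    have e : ℓ ^ (a + 1) * M = ℓ * (ℓ ^ a * M) := by ring
    rw [e]
    exact tresrig_up_trans k hp (Dvd.intro_left _ rfl) ih
      (tresrig_up_step k hp hℓ hℓp (mul_ne_zero (pow_ne_zero _ hℓ.ne_zero) hM))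

/-- **the tower**: `p ≥ 5`, `M' = 2^a * (3^b * M)` -/
theorem tresrig_up_two_three {p M : ℕ} (hp : p.Prime) [CharP k p] (hp5 : 5 ≤ p) (hM : M ≠ 0)
    (a b : ℕ) : TresRigUp k p M (2 ^ a * (3 ^ b * M)) :=
  tresrig_up_trans k hp (Dvd.intro_left _ rfl)
    (tresrig_up_pow k hp Nat.prime_three (by omega) hM b)
    (tresrig_up_pow k hp Nat.prime_two (by omega)
      (mul_ne_zero (pow_ne_zero _ (by norm_num)) hM) a)

theorem tresrig_up_of_eq {p M M' : ℕ} (hp : p.Prime) [CharP k p] (hp5 : 5 ≤ p) (hM : M ≠ 0)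
    (a b : ℕ) (hM' : M' = 2 ^ a * (3 ^ b * M)) : TresRigUp k p M M' :=
  hM' ▸ tresrig_up_two_three k hp hp5 hM a b

theorem tresrig_up_mul_four {p M : ℕ} (hp : p.Prime) [CharP k p] (hp5 : 5 ≤ p) (hM : M ≠ 0) :
    TresRigUp k p M (M * 4) :=
  tresrig_up_of_eq k hp hp5 hM 2 0 (by ring)

theorem tresrig_up_mul_nine {p M : ℕ} (hp : p.Prime) [CharP k p] (hp5 : 5 ≤ p) (hM : M ≠ 0) :
    TresRigUp k p M (M * 9) :=
  tresrig_up_of_eq k hp hp5 hM 0 2 (by ring)

theorem tresrig_lcm_four (M : ℕ) : ∃ a : ℕ, Nat.lcm M 4 = 2 ^ a * (3 ^ 0 * M) := by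
  have hg : Nat.gcd M 4 ∣ 4 := Nat.gcd_dvd_right M 4
  have hmul : Nat.gcd M 4 * Nat.lcm M 4 = M * 4 := Nat.gcd_mul_lcm M 4
  have hle : Nat.gcd M 4 ≤ 4 := Nat.le_of_dvd (by norm_num) hg
  have hpos : 0 < Nat.gcd M 4 := Nat.gcd_pos_of_pos_right M (by norm_num)
  interval_cases hgv : Nat.gcd M 4
  · exact ⟨2, by rw [pow_zero, one_mul]; omega⟩
  · exact ⟨1, by rw [pow_zero, one_mul]; omega⟩
  · exfalso; omega
  · exact ⟨0, by rw [pow_zero, one_mul, pow_zero, one_mul]; omega⟩

theorem tresrig_lcm_nine (M : ℕ) : ∃ b : ℕ, Nat.lcm M 9 = 2 ^ 0 * (3 ^ b * M) := by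
  have hg : Nat.gcd M 9 ∣ 9 := Nat.gcd_dvd_right M 9
  have hmul : Nat.gcd M 9 * Nat.lcm M 9 = M * 9 := Nat.gcd_mul_lcm M 9
  have hdiv : Nat.gcd M 9 ∈ Nat.divisors 9 := Nat.mem_divisors.mpr ⟨hg, by norm_num⟩
  have h9 : Nat.divisors 9 = {1, 3, 9} := by decide
  rw [h9] at hdiv
  simp only [Finset.mem_insert, Finset.mem_singleton] at hdiv
  rcases hdiv with h | h | h
  · exact ⟨2, by rw [pow_zero, one_mul]; rw [h] at hmul; omega⟩
  · exact ⟨1, by rw [pow_zero, one_mul]; rw [h] at hmul; omega⟩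
  · exact ⟨0, by rw [pow_zero, one_mul, pow_zero, one_mul]; rw [h] at hmul; omega⟩

theorem tresrig_up_lcm_four {p M : ℕ} (hp : p.Prime) [CharP k p] (hp5 : 5 ≤ p) (hM : M ≠ 0) :
    TresRigUp k p M (Nat.lcm M 4) := by
  obtain ⟨a, ha⟩ := tresrig_lcm_four M
  rw [ha]
  exact tresrig_up_two_three k hp hp5 hM a 0

theorem tresrig_up_lcm_nine {p M : ℕ} (hp : p.Prime) [CharP k p] (hp5 : 5 ≤ p) (hM : M ≠ 0) :
    TresRigUp k p M (Nat.lcm M 9) := by
  obtain ⟨b, hb⟩ := tresrig_lcm_nine M
  rw [hb]
  exact tresrig_up_two_three k hp hp5 hM 0 b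

/-- **FAC-RIG, abstract descent**: from the lifting property. -/
theorem tresrig_descent_of_up {p M M' : ℕ} (hp : p.Prime) (hMM' : M ∣ M')
    (hup : TresRigUp k p M M')
    (r h : LaurentSeries k) (hr : r ∈ modularFunctionFieldFullC k M)
    (hh : h ∈ modularFunctionFieldFullC k M) (c d : ℤ)
    (H : ∀ Q' : Place k (modularFunctionFieldFullC k M'),
      0 ≤ Q'.ord (⟨jqModC k, jqModC_mem_full k M'⟩ : modularFunctionFieldFullC k M') →
      (p : ℤ) ∣ c * Q'.ord (⟨r, UB.full_mono k hMM' hr⟩ : modularFunctionFieldFullC k M') -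
        d * Q'.ord (⟨h, UB.full_mono k hMM' hh⟩ : modularFunctionFieldFullC k M'))
    (Hc : ∀ Q' : Place k (modularFunctionFieldFullC k M'),
      Q'.ord (⟨jqModC k, jqModC_mem_full k M'⟩ : modularFunctionFieldFullC k M') < 0 →
      (p : ℤ) ∣ Q'.ord (⟨r, UB.full_mono k hMM' hr⟩ : modularFunctionFieldFullC k M')) :
    (∀ Q : Place k (modularFunctionFieldFullC k M),
      0 ≤ Q.ord (⟨jqModC k, jqModC_mem_full k M⟩ : modularFunctionFieldFullC k M) →
      (p : ℤ) ∣ c * Q.ord (⟨r, hr⟩ : modularFunctionFieldFullC k M) -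
        d * Q.ord (⟨h, hh⟩ : modularFunctionFieldFullC k M)) ∧
    (∀ Q : Place k (modularFunctionFieldFullC k M),
      Q.ord (⟨jqModC k, jqModC_mem_full k M⟩ : modularFunctionFieldFullC k M) < 0 →
      (p : ℤ) ∣ Q.ord (⟨r, hr⟩ : modularFunctionFieldFullC k M)) := by
  have hcop : ∀ e : ℕ, ¬ p ∣ e → IsCoprime (p : ℤ) (e : ℤ) := fun e he =>
    Nat.isCoprime_iff_coprime.mpr ((Nat.Prime.coprime_iff_not_dvd hp).mpr he)
  constructor
  · intro Q hQ
    obtain ⟨Q', e, hepos, hpe, hord⟩ := hup Q
    have hj := hord (jqModC k) (jqModC_mem_full k M) (jqModC_mem_full k M')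
    have he0 : (0 : ℤ) < (e : ℤ) := by exact_mod_cast hepos
    have h1 := H Q' (by rw [hj]; exact mul_nonneg he0.le hQ)
    rw [hord r hr (UB.full_mono k hMM' hr), hord h hh (UB.full_mono k hMM' hh)] at h1
    have h2 : (p : ℤ) ∣ (e : ℤ) * (c * Q.ord (⟨r, hr⟩ : modularFunctionFieldFullC k M) -
        d * Q.ord (⟨h, hh⟩ : modularFunctionFieldFullC k M)) := by
      have e' : (e : ℤ) * (c * Q.ord (⟨r, hr⟩ : modularFunctionFieldFullC k M) -
          d * Q.ord (⟨h, hh⟩ : modularFunctionFieldFullC k M)) =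
          c * ((e : ℤ) * Q.ord (⟨r, hr⟩ : modularFunctionFieldFullC k M)) -
          d * ((e : ℤ) * Q.ord (⟨h, hh⟩ : modularFunctionFieldFullC k M)) := by ring
      rw [e']
      exact h1
    exact (hcop e hpe).dvd_of_dvd_mul_left h2
  · intro Q hQ
    obtain ⟨Q', e, hepos, hpe, hord⟩ := hup Q
    have hj := hord (jqModC k) (jqModC_mem_full k M) (jqModC_mem_full k M')
    have he0 : (0 : ℤ) < (e : ℤ) := by exact_mod_cast hepos
    have h1 := Hc Q' (by rw [hj]; exact mul_neg_of_pos_of_neg he0 hQ)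
    rw [hord r hr (UB.full_mono k hMM' hr)] at h1
    exact (hcop e hpe).dvd_of_dvd_mul_left h1

/-- **FAC-RIG** for `M' = 2^a * (3^b * M)`, characteristic `p ≥ 5`. -/
theorem tresrig_descent {p M M' : ℕ} (hp : p.Prime) [CharP k p] (hp5 : 5 ≤ p) (hM : M ≠ 0)
    (hMM' : M ∣ M') (a b : ℕ) (hM' : M' = 2 ^ a * (3 ^ b * M))
    (r h : LaurentSeries k) (hr : r ∈ modularFunctionFieldFullC k M)
    (hh : h ∈ modularFunctionFieldFullC k M) (c d : ℤ)
    (H : ∀ Q' : Place k (modularFunctionFieldFullC k M'),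
      0 ≤ Q'.ord (⟨jqModC k, jqModC_mem_full k M'⟩ : modularFunctionFieldFullC k M') →
      (p : ℤ) ∣ c * Q'.ord (⟨r, UB.full_mono k hMM' hr⟩ : modularFunctionFieldFullC k M') -
        d * Q'.ord (⟨h, UB.full_mono k hMM' hh⟩ : modularFunctionFieldFullC k M'))
    (Hc : ∀ Q' : Place k (modularFunctionFieldFullC k M'),
      Q'.ord (⟨jqModC k, jqModC_mem_full k M'⟩ : modularFunctionFieldFullC k M') < 0 →
      (p : ℤ) ∣ Q'.ord (⟨r, UB.full_mono k hMM' hr⟩ : modularFunctionFieldFullC k M')) :
    (∀ Q : Place k (modularFunctionFieldFullC k M),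
      0 ≤ Q.ord (⟨jqModC k, jqModC_mem_full k M⟩ : modularFunctionFieldFullC k M) →
      (p : ℤ) ∣ c * Q.ord (⟨r, hr⟩ : modularFunctionFieldFullC k M) -
        d * Q.ord (⟨h, hh⟩ : modularFunctionFieldFullC k M)) ∧
    (∀ Q : Place k (modularFunctionFieldFullC k M),
      Q.ord (⟨jqModC k, jqModC_mem_full k M⟩ : modularFunctionFieldFullC k M) < 0 →
      (p : ℤ) ∣ Q.ord (⟨r, hr⟩ : modularFunctionFieldFullC k M)) :=
  tresrig_descent_of_up k hp hMM' (hM' ▸ tresrig_up_two_three k hp hp5 hM a b)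
    r h hr hh c d H Hc

/-- **FAC-RIG** for the rigid level `lcm (M, 4)`. -/
theorem tresrig_descent_lcm_four {p M : ℕ} (hp : p.Prime) [CharP k p] (hp5 : 5 ≤ p) (hM : M ≠ 0)
    (r h : LaurentSeries k) (hr : r ∈ modularFunctionFieldFullC k M)
    (hh : h ∈ modularFunctionFieldFullC k M) (c d : ℤ)
    (H : ∀ Q' : Place k (modularFunctionFieldFullC k (Nat.lcm M 4)),
      0 ≤ Q'.ord (⟨jqModC k, jqModC_mem_full k _⟩ : modularFunctionFieldFullC k (Nat.lcm M 4)) →
      (p : ℤ) ∣ c * Q'.ord (⟨r, UB.full_mono k (Nat.dvd_lcm_left M 4) hr⟩ :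
          modularFunctionFieldFullC k (Nat.lcm M 4)) -
        d * Q'.ord (⟨h, UB.full_mono k (Nat.dvd_lcm_left M 4) hh⟩ :
          modularFunctionFieldFullC k (Nat.lcm M 4)))
    (Hc : ∀ Q' : Place k (modularFunctionFieldFullC k (Nat.lcm M 4)),
      Q'.ord (⟨jqModC k, jqModC_mem_full k _⟩ : modularFunctionFieldFullC k (Nat.lcm M 4)) < 0 →
      (p : ℤ) ∣ Q'.ord (⟨r, UB.full_mono k (Nat.dvd_lcm_left M 4) hr⟩ :
          modularFunctionFieldFullC k (Nat.lcm M 4))) :
    (∀ Q : Place k (modularFunctionFieldFullC k M),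
      0 ≤ Q.ord (⟨jqModC k, jqModC_mem_full k M⟩ : modularFunctionFieldFullC k M) →
      (p : ℤ) ∣ c * Q.ord (⟨r, hr⟩ : modularFunctionFieldFullC k M) -
        d * Q.ord (⟨h, hh⟩ : modularFunctionFieldFullC k M)) ∧
    (∀ Q : Place k (modularFunctionFieldFullC k M),
      Q.ord (⟨jqModC k, jqModC_mem_full k M⟩ : modularFunctionFieldFullC k M) < 0 →
      (p : ℤ) ∣ Q.ord (⟨r, hr⟩ : modularFunctionFieldFullC k M)) :=
  tresrig_descent_of_up k hp (Nat.dvd_lcm_left M 4) (tresrig_up_lcm_four k hp hp5 hM)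
    r h hr hh c d H Hc

/-- **FAC-RIG** for the rigid level `lcm (M, 9)`. -/
theorem tresrig_descent_lcm_nine {p M : ℕ} (hp : p.Prime) [CharP k p] (hp5 : 5 ≤ p) (hM : M ≠ 0)
    (r h : LaurentSeries k) (hr : r ∈ modularFunctionFieldFullC k M)
    (hh : h ∈ modularFunctionFieldFullC k M) (c d : ℤ)
    (H : ∀ Q' : Place k (modularFunctionFieldFullC k (Nat.lcm M 9)),
      0 ≤ Q'.ord (⟨jqModC k, jqModC_mem_full k _⟩ : modularFunctionFieldFullC k (Nat.lcm M 9)) →
      (p : ℤ) ∣ c * Q'.ord (⟨r, UB.full_mono k (Nat.dvd_lcm_left M 9) hr⟩ :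
          modularFunctionFieldFullC k (Nat.lcm M 9)) -
        d * Q'.ord (⟨h, UB.full_mono k (Nat.dvd_lcm_left M 9) hh⟩ :
          modularFunctionFieldFullC k (Nat.lcm M 9)))
    (Hc : ∀ Q' : Place k (modularFunctionFieldFullC k (Nat.lcm M 9)),
      Q'.ord (⟨jqModC k, jqModC_mem_full k _⟩ : modularFunctionFieldFullC k (Nat.lcm M 9)) < 0 →
      (p : ℤ) ∣ Q'.ord (⟨r, UB.full_mono k (Nat.dvd_lcm_left M 9) hr⟩ :
          modularFunctionFieldFullC k (Nat.lcm M 9))) :
    (∀ Q : Place k (modularFunctionFieldFullC k M),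
      0 ≤ Q.ord (⟨jqModC k, jqModC_mem_full k M⟩ : modularFunctionFieldFullC k M) →
      (p : ℤ) ∣ c * Q.ord (⟨r, hr⟩ : modularFunctionFieldFullC k M) -
        d * Q.ord (⟨h, hh⟩ : modularFunctionFieldFullC k M)) ∧
    (∀ Q : Place k (modularFunctionFieldFullC k M),
      Q.ord (⟨jqModC k, jqModC_mem_full k M⟩ : modularFunctionFieldFullC k M) < 0 →
      (p : ℤ) ∣ Q.ord (⟨r, hr⟩ : modularFunctionFieldFullC k M)) :=
  tresrig_descent_of_up k hp (Nat.dvd_lcm_left M 9) (tresrig_up_lcm_nine k hp hp5 hM)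
    r h hr hh c d H Hc

end Mod

end Fermat.Agent.R38
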