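import Fermat.Agent.UNIP.Descent
import Fermat.Agent.R38.TresDeckEx
import Fermat.Agent.R38.TresRig

/-!
# ROW 38, TRES, piece FAC-BIG (helper16), part 6: input (IN d) of the instance — a Kummer function
of a nonzero class is not an `m`-th power at the rigid level

The frame of the K-FORM descent lives at the rigid level `N′ = lcm (M, 4) · p = 2 ^ a · (M p)`;
the Kummer function `w₀` of `z₀ ∈ J₀(M p)` lives at level `N = M p`.

* `tres5bind_psi_pow_two` : `ψ (2 ^ a X) = c ψ (X)` with `c ∣ 6 ^ a`;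
* `tres5bind_relfinrank_bar` : `ψ (N) · [F̄_{N′} : F̄_N] = ψ (N′)` for `N ∣ N′` (Igusa + tower law);
* `tres5bind_descent` : for `N′ = 2 ^ a N` and `gcd (6, m) = 1`, an element of `F̄_N` which is an
  `m`-th power in `F̄_{N′}` is an `m`-th power in `F̄_N` (norm descent);
* `tres5bind_hw` : **(IN d)** a Kummer function `w₀` (exponent `m`, `gcd (6, m) = 1`) of a nonzero
  class `z₀ ∈ J₀(N)` is not an `m`-th power in `F̄_{N′}`, `N′ = 2 ^ a N`;
* `tres5bind_hw_lcm_four` : the same at `N = M p`, `N′ = lcm (M, 4) · p`, `m = p ≥ 5` prime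
  (= the hypothesis `hnp` of `tres5bit_descend`, `hw` of `tres5biv_kum`).
-/

set_option autoImplicit false
set_option linter.style.haveILetI false
set_option linter.unusedSectionVars false
set_option linter.unusedVariables false

noncomputable section

namespace Fermat.Agent.R38

open ModularCurve AlgebraicCurve IntermediateField Fermat.Agent.ES Fermat.Agent.ES.G2
  Fermat.Agent.INJ Fermat.Agent.UNIP

section Psi

theorem tres5bind_psi_pow_two (a X : ℕ) (hX : X ≠ 0) :
    ∃ c : ℕ, c ∣ 6 ^ a ∧ dedekindPsi (2 ^ a * X) = c * dedekindPsi X := by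
  induction a with
  | zero => exact ⟨1, by simp, by simp⟩
  | succ a ih =>
    obtain ⟨c, hc, h⟩ := ih
    have e : 2 ^ (a + 1) * X = 2 * (2 ^ a * X) := by ring
    have hX' : 2 ^ a * X ≠ 0 := mul_ne_zero (pow_ne_zero _ two_ne_zero) hX
    have e6 : (6 : ℕ) ^ (a + 1) = 6 * 6 ^ a := by ring
    by_cases hd : 2 ∣ 2 ^ a * X
    · refine ⟨2 * c, ?_, ?_⟩
      · rw [e6]
        exact Nat.mul_dvd_mul (by norm_num) hc
      · rw [e, Fermat.Agent.S28.UB.psi_mul_of_dvd Nat.prime_two hd hX', h, mul_assoc]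
    · refine ⟨3 * c, ?_, ?_⟩
      · rw [e6]
        exact Nat.mul_dvd_mul (by norm_num) hc
      · rw [e, Fermat.Agent.S28.UB.psi_mul_of_not_dvd Nat.prime_two hd, h, mul_assoc]

end Psi

section Degree

/-- Igusa + tower law over any field of characteristic `0` -/
theorem tres5bind_relfinrank_mul (K : Type*) [Field K] [CharZero K] {N N' : ℕ} [NeZero N]
    [NeZero N'] (h : N ∣ N') :
    dedekindPsi N *
      (modularFunctionFieldFullC K N).relfinrank (modularFunctionFieldFullC K N') =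
        dedekindPsi N' := by
  have hN : ((N : ℕ) : K) ≠ 0 := Nat.cast_ne_zero.mpr (NeZero.ne N)
  have hN' : ((N' : ℕ) : K) ≠ 0 := Nat.cast_ne_zero.mpr (NeZero.ne N')
  have h1 := Fermat.Agent.S28.relfinrank_full_eq_dedekindPsi K N hN
  have h2 := Fermat.Agent.S28.relfinrank_full_eq_dedekindPsi K N' hN'
  have hle1 : adjoin K {jqModC K} ≤ modularFunctionFieldFullC K N :=
    Fermat.Agent.S28.UB.K0_le_full K N
  have h3 := relfinrank_mul_relfinrank hle1 (Fermat.Agent.S28.UB.full_mono K h)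
  rw [h1, h2] at h3
  exact h3

/-- Igusa + tower law for `F̄_N ≤ F̄_{N′}` -/
theorem tres5bind_relfinrank_bar {N N' : ℕ} [NeZero N] [NeZero N'] (h : N ∣ N') :
    dedekindPsi N *
      (modularFunctionFieldBar N).relfinrank (modularFunctionFieldBar N') =
        dedekindPsi N' := by
  show dedekindPsi N *
    (laurentBaseChange (AlgebraicClosure ℚ) (modularFunctionFieldFull N)).relfinrank
      (laurentBaseChange (AlgebraicClosure ℚ) (modularFunctionFieldFull N')) = _
  rw [hdeg_laurentBaseChange_full, hdeg_laurentBaseChange_full]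
  exact tres5bind_relfinrank_mul (AlgebraicClosure ℚ) h

/-- the degree of `F̄_{2^a N} / F̄_N` divides `6 ^ a` -/
theorem tres5bind_relfinrank_dvd {N N' : ℕ} [NeZero N] [NeZero N'] (a : ℕ)
    (hN' : N' = 2 ^ a * N) :
    (modularFunctionFieldBar N).relfinrank (modularFunctionFieldBar N') ∣ 6 ^ a := by
  obtain ⟨c, hc, hψ⟩ := tres5bind_psi_pow_two a N (NeZero.ne N)
  have hdvd : N ∣ N' := hN' ▸ Dvd.intro_left _ rfl
  have h1 := tres5bind_relfinrank_bar hdvd
  have hψ0 : dedekindPsi N ≠ 0 := tresrig_psi_ne_zero (NeZero.ne N)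
  have h2 : dedekindPsi N *
      (modularFunctionFieldBar N).relfinrank (modularFunctionFieldBar N') =
        dedekindPsi N * c := by
    rw [h1, hN', hψ, Nat.mul_comm]
  rw [Nat.eq_of_mul_eq_mul_left (Nat.pos_of_ne_zero hψ0) h2]
  exact hc

end Degree

section Descent

/-- **norm descent along `F̄_N ≤ F̄_{2^a N}`** for exponents prime to `6` -/
theorem tres5bind_descent {N N' : ℕ} [NeZero N] [NeZero N'] (a : ℕ) (hN' : N' = 2 ^ a * N)
    {m : ℕ} (hm : Nat.Coprime 6 m)
    (hle : modularFunctionFieldBar N ≤ modularFunctionFieldBar N')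
    (w h' : LaurentSeries Qb) (hw : w ∈ modularFunctionFieldBar N)
    (hh : h' ∈ modularFunctionFieldBar N') (hwh : w = h' ^ m) :
    ∃ g ∈ modularFunctionFieldBar N, w = g ^ m := by
  have hdvd := tres5bind_relfinrank_dvd (N := N) (N' := N') a hN'
  have h0 : (modularFunctionFieldBar N).relfinrank (modularFunctionFieldBar N') ≠ 0 := by
    intro h
    rw [h, zero_dvd_iff] at hdvd
    exact absurd hdvd (pow_ne_zero a (by norm_num))
  have hcop : Nat.Coprime
      ((modularFunctionFieldBar N).relfinrank (modularFunctionFieldBar N')) m :=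
    Nat.Coprime.coprime_dvd_left hdvd (Nat.Coprime.pow_left a hm)
  exact unip_descent_generic hle h0 hcop w h' hw hh hwh

variable {N N' : ℕ} [NeZero N] [NeZero N']

/-- **(IN d)** a Kummer function of a nonzero class of `J₀(N)` is not an `m`-th power at the
level `N′ = 2 ^ a N` (`gcd (6, m) = 1`). -/
theorem tres5bind_hw (a : ℕ) (hN' : N' = 2 ^ a * N) {m : ℕ} (hm : Nat.Coprime 6 m)
    (hm0 : m ≠ 0) {z₀ : JZero N} {w₀ : modularFunctionFieldBar N} (hw : KummerRel m z₀ w₀)
    (hz : z₀ ≠ 0) (hle : modularFunctionFieldBar N ≤ modularFunctionFieldBar N') :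
    ∀ c : ↥(modularFunctionFieldBar N'),
      c ^ m ≠ (⟨(w₀ : LaurentSeries Qb), hle w₀.2⟩ : modularFunctionFieldBar N') := by
  intro c hc
  have h1 : (w₀ : LaurentSeries Qb) = (c : LaurentSeries Qb) ^ m := by
    have h2 := congrArg (fun z : modularFunctionFieldBar N' => (z : LaurentSeries Qb)) hc
    exact h2.symm
  obtain ⟨g, hg, hwg⟩ := tres5bind_descent a hN' hm hle _ _ w₀.2 c.2 h1
  exact tresdesc_not_pow hm0 hw hz ⟨g, hg⟩ (Subtype.ext hwg.symm)

end Descent

section LcmFour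

variable {M p : ℕ} [NeZero M] [NeZero p] [NeZero (M * p)] [NeZero (Nat.lcm M 4 * p)]

theorem tres5bind_lcm_four_eq (M p : ℕ) : ∃ a : ℕ, Nat.lcm M 4 * p = 2 ^ a * (M * p) := by
  obtain ⟨a, ha⟩ := tresrig_lcm_four M
  refine ⟨a, ?_⟩
  rw [ha]
  ring

/-- `F̄_{Mp} ≤ F̄_{lcm(M,4) p}` -/
theorem tres5bind_bar_le (M p : ℕ) :
    modularFunctionFieldBar (M * p) ≤ modularFunctionFieldBar (Nat.lcm M 4 * p) := by
  show laurentBaseChange (AlgebraicClosure ℚ) (modularFunctionFieldFull (M * p)) ≤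
    laurentBaseChange (AlgebraicClosure ℚ) (modularFunctionFieldFull (Nat.lcm M 4 * p))
  rw [hdeg_laurentBaseChange_full, hdeg_laurentBaseChange_full]
  exact Fermat.Agent.S28.UB.full_mono (AlgebraicClosure ℚ)
    (Nat.mul_dvd_mul_right (Nat.dvd_lcm_left M 4) p)

/-- **(IN d) at the rigid level `lcm (M, 4) · p`**, `p ≥ 5` prime. -/
theorem tres5bind_hw_lcm_four (hp : p.Prime) (hp5 : 5 ≤ p) {z₀ : JZero (M * p)}
    {w₀ : modularFunctionFieldBar (M * p)} (hw : KummerRel p z₀ w₀) (hz : z₀ ≠ 0)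
    (hle : modularFunctionFieldBar (M * p) ≤ modularFunctionFieldBar (Nat.lcm M 4 * p)) :
    ∀ c : ↥(modularFunctionFieldBar (Nat.lcm M 4 * p)),
      c ^ p ≠ (⟨(w₀ : LaurentSeries Qb), hle w₀.2⟩ :
        modularFunctionFieldBar (Nat.lcm M 4 * p)) := by
  obtain ⟨a, ha⟩ := tres5bind_lcm_four_eq M p
  have hcop : Nat.Coprime 6 p := by
    have h2 : Nat.Coprime 2 p := (Nat.coprime_primes Nat.prime_two hp).mpr (by omega)
    have h3 : Nat.Coprime 3 p := (Nat.coprime_primes Nat.prime_three hp).mpr (by omega)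
    have : (6 : ℕ) = 2 * 3 := by norm_num
    rw [this]
    exact Nat.Coprime.mul_left h2 h3
  exact tres5bind_hw a ha hcop hp.ne_zero hw hz hle

end LcmFour

end Fermat.Agent.R38

end
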