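/-
R38-TRES, FAC-LOC, pieces (ET1) + (ET2) (helper28): the ÉTALE LOCAL STRUCTURE of `R[z]`.

Abstract setting (Mathlib + `UNIP.ls_localSubring` only).  `R` a LOCAL integrally closed domain
with maximal ideal `𝔫` and fraction field `F` (the local ring `O_𝔫` of a chart of `X`), `L = F[z]`
a finite extension (the function field of the cover), `P ∈ R[Z]` the minimal polynomial of `z`,
monic, and
      `P ≡ ∏ i, (Z - c i)  mod 𝔫`,   the `c i ∈ R` pairwise distinct mod `𝔫`
(for the cover of R38-TRES: `P ≡ Zᵖ - Z`, `c i = i`).  This is `Tres5eSplit F z P c`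
(constructors `tres5e_split_of_natDegree`, `tres5e_split_of_irreducible`).

(ET1)  `tres5e_integral_mem` : `R` integrally closed, `L = F[z]`, `P'(z) ∈ R[z]ˣ`  ⇒  `R[z]` is the
       integral closure of `R` in `L`.   In the split situation: `Tres5eSplit.integral_mem`,
       `Tres5eSplit.hBic` (shape of `UNIP.ls_isIntegral_mem_localSubring`), `.derivative_isUnit`,
       `.inter_base` (`R[z] ∩ F = R`), `.exists_aeval_lt`, `.eq_zero_of_aeval` (`R[z]` is free).
(ET2)  `tres5eMax R z a = (𝔫, z - a)`, `tres5eRes` the residue map `R[z] → R/𝔫`, `z ↦ a`: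
       `tres5e_max_eq_ker`, `tres5e_max_isMaximal`, `tres5e_aeval_mem_max`, `tres5e_max_residue`,
       `tres5e_max_eq_iff`;  `Tres5eSplit.exists_eq_of_isMaximal` (the maximal ideals of `R[z]` are
       the `(𝔫, z - c i)`), `.max_injective`, `.exists_mem_of_prime`, `.prod_mem`.
       LOCAL RINGS `O'_i = ls_localSubring (tres5eMax R z (c i)) ⊆ L`:
       `.unram`, `.loc_nonunit`   : `𝔪(O'_i) = 𝔫 O'_i`   (unramified);
       `.loc_residue`             : `O'_i = R + 𝔪(O'_i)`  (same residue field);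
       `.loc_inter`               : `O'_i ∩ F = R`        (faithfully flat);
       `.loc_normal`, `.loc_isLocalRing`;
       `.val_center`, `.val_center_unique`, `.loc_le_val` : a valuation ring of `L` dominating `R`
                                    has centre exactly one `(𝔫, z - c i)` and contains `O'_i`;
       `.deck_max`, `.loc_deck`   : `ρ ∈ Aut(L/F)` with `ρ z ≡ c j` mod `(𝔫, z - c i)` maps `O'_j`
                                    onto `O'_i`.
For `O : Subring F`: `tres5e_isFractionRing_subring`, `tres5e_isIntegrallyClosed_subring`,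
`tres5e_isIntegral_mem_of_val`, `tres5e_isLocalRing_subring` produce the instances.
-/
import Mathlib
import Fermat.Agent.UNIP.LocalShapeChart

set_option autoImplicit false
set_option linter.unusedSectionVars false
set_option linter.unusedVariables false
set_option linter.style.haveILetI false

namespace Fermat.Agent.R38

open Polynomial IntermediateField Fermat.Agent.UNIP

section ET1

variable {R F L : Type*} [CommRing R] [IsDomain R] [Field F] [Field L]
  [Algebra R F] [IsFractionRing R F] [IsIntegrallyClosed R]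
  [Algebra F L] [Algebra R L] [IsScalarTower R F L]

/-- the minimal polynomial over `F` of an integral element is the image of a monic polynomial
over `R` which is irreducible over `F` and kills it. -/
theorem tres5e_minpoly_of_irreducible {z : L} {P : R[X]} (hPm : P.Monic)
    (hPz : aeval z P = 0) (hirr : Irreducible (P.map (algebraMap R F))) :
    minpoly F z = P.map (algebraMap R F) := by
  refine (minpoly.eq_of_irreducible_of_monic hirr ?_ (hPm.map _)).symm
  rw [aeval_map_algebraMap]; exact hPz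

/-- the same from the degree: `deg P = [L : F]` and `L = F[z]`. -/
theorem tres5e_minpoly_of_natDegree {z : L} {P : R[X]} (hPm : P.Monic)
    (hPz : aeval z P = 0) (htop : Algebra.adjoin F ({z} : Set L) = ⊤)
    (hdeg : P.natDegree = Module.finrank F L) :
    minpoly F z = P.map (algebraMap R F) := by
  have hzR : IsIntegral R z := ⟨P, hPm, hPz⟩
  have hzF : IsIntegral F z := hzR.tower_top
  have hroot : aeval z (P.map (algebraMap R F)) = 0 := by
    rw [aeval_map_algebraMap]; exact hPz
  have hdvd : minpoly F z ∣ P.map (algebraMap R F) := minpoly.dvd F z hroot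
  have hfr : Module.finrank F L = (minpoly F z).natDegree := by
    have h1 := (PowerBasis.ofAdjoinEqTop hzF htop).finrank
    rw [h1]; rfl
  have hd2 : (P.map (algebraMap R F)).natDegree = (minpoly F z).natDegree := by
    rw [hPm.natDegree_map, hdeg, hfr]
  exact (Polynomial.eq_of_monic_of_dvd_of_natDegree_le (minpoly.monic hzF) (hPm.map _) hdvd
    hd2.le).symm

/-- `minpoly R z = P` in the situation above. -/
theorem tres5e_minpoly_eq {z : L} {P : R[X]} (hPm : P.Monic) (hPz : aeval z P = 0)
    (hmin : minpoly F z = P.map (algebraMap R F)) : minpoly R z = P := by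
  have hzR : IsIntegral R z := ⟨P, hPm, hPz⟩
  have h1 := minpoly.isIntegrallyClosed_eq_field_fractions' F hzR
  rw [hmin] at h1
  exact (Polynomial.map_injective _ (IsFractionRing.injective R F) h1).symm

/-- elements of `R[z]` are integral over `R`. -/
theorem tres5e_isIntegral_of_mem {z : L} (hz : IsIntegral R z) {y : L}
    (hy : y ∈ Algebra.adjoin R ({z} : Set L)) : IsIntegral R y :=
  adjoin_le_integralClosure hz hy

/-- `L = F[z]` separable over `F` as soon as the derivative of the minimal polynomial does not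
vanish at `z`. -/
theorem tres5e_isSeparable {z : L} (hzF : IsIntegral F z)
    (htop : Algebra.adjoin F ({z} : Set L) = ⊤)
    (hd : aeval z (derivative (minpoly F z)) ≠ 0) : Algebra.IsSeparable F L := by
  have hsep : IsSeparable F z := by
    rw [IsSeparable, separable_iff_derivative_ne_zero (minpoly.irreducible hzF)]
    intro h0
    apply hd
    rw [h0, map_zero]
  have h1 : Algebra.IsSeparable F ↥F⟮z⟯ :=
    (IntermediateField.isSeparable_adjoin_simple_iff_isSeparable F L).mpr hsep
  have h2 : F⟮z⟯ = ⊤ := IntermediateField.adjoin_eq_top_of_algebra F _ htop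
  rw [h2] at h1
  exact AlgEquiv.Algebra.isSeparable (IntermediateField.topEquiv (F := F) (E := L))

/-- **(ET1)**  `R` an integrally closed domain with fraction field `F`, `L = F[z]` with `z`
integral over `R`, and `P'(z)` a unit of `R[z]` (`P` the minimal polynomial): then `R[z]` is the
integral closure of `R` in `L`. -/
theorem tres5e_integral_mem {z : L} (hz : IsIntegral R z)
    (htop : Algebra.adjoin F ({z} : Set L) = ⊤)
    (hu : ∃ t ∈ Algebra.adjoin R ({z} : Set L), aeval z (derivative (minpoly R z)) * t = 1)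
    {y : L} (hy : IsIntegral R y) : y ∈ Algebra.adjoin R ({z} : Set L) := by
  classical
  obtain ⟨t, ht, hdt⟩ := hu
  have hzF : IsIntegral F z := hz.tower_top
  set d : L := aeval z (derivative (minpoly R z)) with hd
  have hmin : minpoly F z = (minpoly R z).map (algebraMap R F) :=
    minpoly.isIntegrallyClosed_eq_field_fractions' F hz
  have hdF : aeval z (derivative (minpoly F z)) = d := by
    rw [hmin, derivative_map, aeval_map_algebraMap]
  have hd0 : d ≠ 0 := fun h0 => by rw [h0, zero_mul] at hdt; exact zero_ne_one hdt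
  haveI hsep : Algebra.IsSeparable F L := tres5e_isSeparable hzF htop (by rw [hdF]; exact hd0)
  set pb : PowerBasis F L := PowerBasis.ofAdjoinEqTop hzF htop with hpb
  have hgen : pb.gen = z := rfl
  haveI : Module.Finite F L := pb.finite
  -- the norms
  have hdR : IsIntegral R d := by
    rw [hd, aeval_def]
    exact tres5e_isIntegral_of_mem hz (by
      rw [← aeval_def]
      rw [Algebra.adjoin_singleton_eq_range_aeval]
      exact ⟨_, rfl⟩)
  have htR : IsIntegral R t := tres5e_isIntegral_of_mem hz ht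
  obtain ⟨a, ha⟩ := (isIntegrallyClosed_iff F).mp inferInstance
    (Algebra.isIntegral_norm F hdR)
  obtain ⟨b, hb⟩ := (isIntegrallyClosed_iff F).mp inferInstance
    (Algebra.isIntegral_norm F htR)
  have hab : a * b = 1 := by
    apply IsFractionRing.injective R F
    rw [map_mul, ha, hb, ← map_mul, hdt, map_one, map_one]
  -- the discriminant
  have hdisc : Algebra.discr F pb.basis =
      algebraMap R F ((-1) ^ (Module.finrank F L * (Module.finrank F L - 1) / 2) * a) := by
    rw [Algebra.discr_powerBasis_eq_norm, hgen, hdF, map_mul, map_pow, map_neg, map_one, ha]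
  have hmem := Algebra.discr_mul_isIntegral_mem_adjoin (K := F) (R := R) (B := pb)
    (by rw [hgen]; exact hz) hy
  rw [hgen, hdisc, algebraMap_smul] at hmem
  have h2 := Subalgebra.smul_mem _ hmem
    ((-1) ^ (Module.finrank F L * (Module.finrank F L - 1) / 2) * b)
  rw [smul_smul] at h2
  have h3 : ((-1 : R) ^ (Module.finrank F L * (Module.finrank F L - 1) / 2) * b *
      ((-1) ^ (Module.finrank F L * (Module.finrank F L - 1) / 2) * a)) = 1 := by
    have : ((-1 : R) ^ (Module.finrank F L * (Module.finrank F L - 1) / 2)) *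
        ((-1 : R) ^ (Module.finrank F L * (Module.finrank F L - 1) / 2)) = 1 := by
      rw [← mul_pow]; simp
    calc _ = ((-1 : R) ^ (Module.finrank F L * (Module.finrank F L - 1) / 2) *
        (-1 : R) ^ (Module.finrank F L * (Module.finrank F L - 1) / 2)) * (a * b) := by ring
      _ = 1 := by rw [this, hab, mul_one]
  rw [h3, one_smul] at h2
  exact h2

end ET1

section ET2

theorem tres5e_algebraMap_injective (R F L : Type*) [CommRing R] [Field F] [Field L]
    [Algebra R F] [IsFractionRing R F] [Algebra F L] [Algebra R L] [IsScalarTower R F L] :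
    Function.Injective (algebraMap R L) := by
  rw [IsScalarTower.algebraMap_eq R F L]
  exact (algebraMap F L).injective.comp (IsFractionRing.injective R F)

theorem tres5e_faithfulSMul (R F L : Type*) [CommRing R] [Field F] [Field L]
    [Algebra R F] [IsFractionRing R F] [Algebra F L] [Algebra R L] [IsScalarTower R F L] :
    FaithfulSMul R L :=
  (faithfulSMul_iff_algebraMap_injective R L).mpr (tres5e_algebraMap_injective R F L)

theorem tres5e_torsionFree (R F L : Type*) [CommRing R] [IsDomain R] [Field F] [Field L]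
    [Algebra R F] [IsFractionRing R F] [Algebra F L] [Algebra R L] [IsScalarTower R F L] :
    Module.IsTorsionFree R L := by
  haveI := tres5e_faithfulSMul R F L
  infer_instance

variable {R L : Type*} (F : Type*) [CommRing R] [IsDomain R] [Field F] [Field L]
  [Algebra R F] [IsFractionRing R F] [IsIntegrallyClosed R] [IsLocalRing R]
  [Algebra F L] [Algebra R L] [IsScalarTower R F L]

/-- `z` as an element of `R[z]`. -/
def tres5eGen (R : Type*) {L : Type*} [CommRing R] [Field L] [Algebra R L] (z : L) :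
    ↥(Algebra.adjoin R ({z} : Set L)) :=
  ⟨z, Algebra.self_mem_adjoin_singleton R z⟩

@[simp] theorem tres5eGen_coe (R : Type*) {L : Type*} [CommRing R] [Field L] [Algebra R L]
    (z : L) : ((tres5eGen R z : ↥(Algebra.adjoin R ({z} : Set L))) : L) = z := rfl

/-- the ideal `(𝔫, z - a)` of `R[z]`. -/
def tres5eMax (R : Type*) {L : Type*} [CommRing R] [IsLocalRing R] [Field L] [Algebra R L]
    (z : L) (a : R) : Ideal ↥(Algebra.adjoin R ({z} : Set L)) :=
  (IsLocalRing.maximalIdeal R).map (algebraMap R ↥(Algebra.adjoin R ({z} : Set L))) ⊔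
    Ideal.span {tres5eGen R z - algebraMap R _ a}

/-- every element of `R[z]` is a polynomial in `z`. -/
theorem tres5e_coe_aeval (z : L) (q : R[X]) :
    ((aeval (tres5eGen R z) q : ↥(Algebra.adjoin R ({z} : Set L))) : L) = aeval z q :=
  aeval_subalgebra_coe q _ (tres5eGen R z)

theorem tres5e_exists_aeval (z : L) (b : ↥(Algebra.adjoin R ({z} : Set L))) :
    ∃ q : R[X], aeval (tres5eGen R z) q = b := by
  have hb : (b : L) ∈ (aeval z : R[X] →ₐ[R] L).range := by
    rw [← Algebra.adjoin_singleton_eq_range_aeval]; exact b.2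
  obtain ⟨q, hq⟩ := hb
  refine ⟨q, Subtype.ext ?_⟩
  rw [tres5e_coe_aeval]
  exact hq

/-- polynomials with coefficients in `I` take values in `I · R[z]`. -/
theorem tres5e_aeval_mem_map {A : Type*} [CommRing A] [Algebra R A] (I : Ideal R) (b : A)
    (q : R[X]) (hq : ∀ n, q.coeff n ∈ I) : aeval b q ∈ I.map (algebraMap R A) := by
  rw [aeval_eq_sum_range]
  refine Ideal.sum_mem _ fun n _ => ?_
  rw [Algebra.smul_def]
  exact Ideal.mul_mem_right _ _ (Ideal.mem_map_of_mem _ (hq n))

include F in
/-- the residue homomorphism `R[z] → R/𝔫`, `z ↦ a`, at a root `a` of `P` mod `𝔫`. -/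
noncomputable def tres5eRes {z : L} (hz : IsIntegral R z) (a : R)
    (ha : (minpoly R z).eval a ∈ IsLocalRing.maximalIdeal R) :
    ↥(Algebra.adjoin R ({z} : Set L)) →+* R ⧸ IsLocalRing.maximalIdeal R :=
  letI := tres5e_torsionFree R F L
  (AdjoinRoot.lift (Ideal.Quotient.mk (IsLocalRing.maximalIdeal R))
    (Ideal.Quotient.mk (IsLocalRing.maximalIdeal R) a) (by
      rw [eval₂_at_apply]
      exact Ideal.Quotient.eq_zero_iff_mem.mpr ha)).comp
    (minpoly.equivAdjoin hz).symm.toAlgHom.toRingHom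


theorem tres5eRes_aeval {z : L} (hz : IsIntegral R z) (a : R)
    (ha : (minpoly R z).eval a ∈ IsLocalRing.maximalIdeal R) (q : R[X]) :
    tres5eRes F hz a ha (aeval (tres5eGen R z) q) =
      Ideal.Quotient.mk (IsLocalRing.maximalIdeal R) (q.eval a) := by
  letI := tres5e_torsionFree R F L
  have h1 : (minpoly.equivAdjoin hz).symm (aeval (tres5eGen R z) q) =
      AdjoinRoot.mk (minpoly R z) q := by
    rw [AlgEquiv.symm_apply_eq]
    have h2 : (minpoly.equivAdjoin hz) (AdjoinRoot.mk (minpoly R z) q) =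
        AdjoinRoot.Minpoly.toAdjoin R z (AdjoinRoot.mk (minpoly R z) q) := by
      rw [← minpoly.equivAdjoin_toAlgHom hz]; rfl
    rw [h2]
    apply Subtype.ext
    rw [tres5e_coe_aeval]
    have h3 : AdjoinRoot.mk (minpoly R z) q = aeval (AdjoinRoot.root (minpoly R z)) q := by
      rw [AdjoinRoot.aeval_eq]
    rw [h3, ← aeval_algHom_apply, aeval_subalgebra_coe, ← AdjoinRoot.mk_X,
      AdjoinRoot.Minpoly.coe_toAdjoin_mk_X]
  unfold tres5eRes
  rw [RingHom.comp_apply]
  have h4 : ((minpoly.equivAdjoin hz).symm.toAlgHom.toRingHom) (aeval (tres5eGen R z) q) =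
      (minpoly.equivAdjoin hz).symm (aeval (tres5eGen R z) q) := rfl
  rw [h4, h1, AdjoinRoot.lift_mk, eval₂_at_apply]


theorem tres5eRes_algebraMap {z : L} (hz : IsIntegral R z) (a : R)
    (ha : (minpoly R z).eval a ∈ IsLocalRing.maximalIdeal R) (r : R) :
    tres5eRes F hz a ha (algebraMap R _ r) =
      Ideal.Quotient.mk (IsLocalRing.maximalIdeal R) r := by
  have h := tres5eRes_aeval F hz a ha (C r)
  rwa [aeval_C, eval_C] at h

theorem tres5eRes_gen {z : L} (hz : IsIntegral R z) (a : R)
    (ha : (minpoly R z).eval a ∈ IsLocalRing.maximalIdeal R) :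
    tres5eRes F hz a ha (tres5eGen R z) =
      Ideal.Quotient.mk (IsLocalRing.maximalIdeal R) a := by
  have h := tres5eRes_aeval F hz a ha X
  rwa [aeval_X, eval_X] at h

theorem tres5eRes_surjective {z : L} (hz : IsIntegral R z) (a : R)
    (ha : (minpoly R z).eval a ∈ IsLocalRing.maximalIdeal R) :
    Function.Surjective (tres5eRes F hz a ha) := by
  intro x
  obtain ⟨r, rfl⟩ := Ideal.Quotient.mk_surjective x
  exact ⟨algebraMap R _ r, tres5eRes_algebraMap F hz a ha r⟩

/-- `(𝔫, z - a)` is the kernel of the residue homomorphism. -/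
theorem tres5e_max_eq_ker {z : L} (hz : IsIntegral R z) (a : R)
    (ha : (minpoly R z).eval a ∈ IsLocalRing.maximalIdeal R) :
    tres5eMax R z a = RingHom.ker (tres5eRes F hz a ha) := by
  apply le_antisymm
  · rw [tres5eMax, sup_le_iff]
    constructor
    · rw [Ideal.map_le_iff_le_comap]
      intro r hr
      rw [Ideal.mem_comap, RingHom.mem_ker, tres5eRes_algebraMap]
      exact Ideal.Quotient.eq_zero_iff_mem.mpr hr
    · rw [Ideal.span_le, Set.singleton_subset_iff, SetLike.mem_coe, RingHom.mem_ker, map_sub,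
        tres5eRes_gen, tres5eRes_algebraMap, sub_self]
  · intro b hb
    obtain ⟨q, rfl⟩ := tres5e_exists_aeval z b
    rw [RingHom.mem_ker, tres5eRes_aeval, Ideal.Quotient.eq_zero_iff_mem] at hb
    obtain ⟨g, hg⟩ := X_sub_C_dvd_sub_C_eval (a := a) (p := q)
    have hq : q = C (eval a q) + (X - C a) * g := by rw [← hg]; ring
    rw [hq, map_add, map_mul, map_sub, aeval_X, aeval_C, aeval_C]
    refine Ideal.add_mem _ (Ideal.mem_sup_left (Ideal.mem_map_of_mem _ hb))
      (Ideal.mem_sup_right (Ideal.mul_mem_right _ _ (Ideal.subset_span rfl)))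

include F in
/-- `(𝔫, z - a)` is a maximal ideal of `R[z]`. -/
theorem tres5e_max_isMaximal {z : L} (hz : IsIntegral R z) (a : R)
    (ha : (minpoly R z).eval a ∈ IsLocalRing.maximalIdeal R) :
    (tres5eMax R z a).IsMaximal := by
  rw [tres5e_max_eq_ker F hz a ha]
  letI : Field (R ⧸ IsLocalRing.maximalIdeal R) := Ideal.Quotient.field _
  exact RingHom.ker_isMaximal_of_surjective _ (tres5eRes_surjective F hz a ha)

include F in
/-- membership in `(𝔫, z - a)` of a polynomial in `z`. -/
theorem tres5e_aeval_mem_max {z : L} (hz : IsIntegral R z) (a : R)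
    (ha : (minpoly R z).eval a ∈ IsLocalRing.maximalIdeal R) (q : R[X]) :
    aeval (tres5eGen R z) q ∈ tres5eMax R z a ↔ q.eval a ∈ IsLocalRing.maximalIdeal R := by
  rw [tres5e_max_eq_ker F hz a ha, RingHom.mem_ker, tres5eRes_aeval,
    Ideal.Quotient.eq_zero_iff_mem]

include F in
/-- constants in `(𝔫, z - a)`. -/
theorem tres5e_algebraMap_mem_max {z : L} (hz : IsIntegral R z) (a : R)
    (ha : (minpoly R z).eval a ∈ IsLocalRing.maximalIdeal R) (r : R) :
    algebraMap R ↥(Algebra.adjoin R ({z} : Set L)) r ∈ tres5eMax R z a ↔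
      r ∈ IsLocalRing.maximalIdeal R := by
  have h := tres5e_aeval_mem_max F hz a ha (C r)
  rwa [aeval_C, eval_C] at h

/-- residue field: every element of `R[z]` is congruent to a constant mod `(𝔫, z - a)`. -/
theorem tres5e_max_residue (z : L) (a : R) (b : ↥(Algebra.adjoin R ({z} : Set L))) :
    ∃ r : R, b - algebraMap R _ r ∈ tres5eMax R z a := by
  obtain ⟨q, rfl⟩ := tres5e_exists_aeval z b
  refine ⟨q.eval a, ?_⟩
  obtain ⟨g, hg⟩ := X_sub_C_dvd_sub_C_eval (a := a) (p := q)
  have : aeval (tres5eGen R z) q - algebraMap R _ (q.eval a) =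
      (tres5eGen R z - algebraMap R _ a) * aeval (tres5eGen R z) g := by
    rw [← aeval_C (tres5eGen R z), ← map_sub, hg, map_mul, map_sub, aeval_X, aeval_C]
  rw [this]
  exact Ideal.mem_sup_right (Ideal.mul_mem_right _ _ (Ideal.subset_span rfl))

include F in
/-- `(𝔫, z - a) = (𝔫, z - a')` iff `a ≡ a'` mod `𝔫`. -/
theorem tres5e_max_eq_iff {z : L} (hz : IsIntegral R z) (a a' : R)
    (ha : (minpoly R z).eval a ∈ IsLocalRing.maximalIdeal R)
    (ha' : (minpoly R z).eval a' ∈ IsLocalRing.maximalIdeal R) :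
    tres5eMax R z a = tres5eMax R z a' ↔ a - a' ∈ IsLocalRing.maximalIdeal R := by
  constructor
  · intro h
    have h1 : aeval (tres5eGen R z) (X - C a') ∈ tres5eMax R z a := by
      rw [h, map_sub, aeval_X, aeval_C]
      exact Ideal.mem_sup_right (Ideal.subset_span rfl)
    rw [tres5e_aeval_mem_max F hz a ha, eval_sub, eval_X, eval_C] at h1
    exact h1
  · intro h
    have hle : tres5eMax R z a' ≤ tres5eMax R z a := by
      rw [tres5eMax, sup_le_iff]
      refine ⟨le_sup_left, ?_⟩
      rw [Ideal.span_le, Set.singleton_subset_iff, SetLike.mem_coe]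
      have h1 : aeval (tres5eGen R z) (X - C a') ∈ tres5eMax R z a := by
        rw [tres5e_aeval_mem_max F hz a ha, eval_sub, eval_X, eval_C]
        exact h
      rwa [map_sub, aeval_X, aeval_C] at h1
    exact ((tres5e_max_isMaximal F hz a' ha').eq_of_le
      (tres5e_max_isMaximal F hz a ha).ne_top hle).symm


/-- values of polynomials with coefficients in `I`. -/
theorem tres5e_eval_mem (I : Ideal R) (a : R) (q : R[X]) (hq : ∀ n, q.coeff n ∈ I) :
    q.eval a ∈ I := by
  rw [eval_eq_sum_range]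
  exact Ideal.sum_mem _ fun n _ => Ideal.mul_mem_right _ _ (hq n)

variable {ι : Type*} [Fintype ι]

/-- **The split situation**: `L = F[z]`, `P ∈ R[Z]` the minimal polynomial of `z`, and
`P ≡ ∏ (Z - c i)` mod `𝔫` with the `c i` pairwise distinct mod `𝔫`. -/
structure Tres5eSplit (z : L) (P : R[X]) (c : ι → R) : Prop where
  monic : P.Monic
  root : aeval z P = 0
  minpoly_eq : minpoly F z = P.map (algebraMap R F)
  top : Algebra.adjoin F ({z} : Set L) = ⊤
  sep : ∀ i j, i ≠ j → IsUnit (c i - c j)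
  red : ∀ n, (P - ∏ i, (X - C (c i))).coeff n ∈ IsLocalRing.maximalIdeal R

namespace Tres5eSplit

variable {F} {z : L} {P : R[X]} {c : ι → R}

theorem isIntegral (H : Tres5eSplit F z P c) : IsIntegral R z := ⟨P, H.monic, H.root⟩

theorem minpolyR (H : Tres5eSplit F z P c) : minpoly R z = P := by
  have h1 := minpoly.isIntegrallyClosed_eq_field_fractions' F H.isIntegral
  rw [H.minpoly_eq] at h1
  exact (Polynomial.map_injective _ (IsFractionRing.injective R F) h1).symm

theorem eval_prod_root (_H : Tres5eSplit F z P c) (i : ι) :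
    (∏ j, (X - C (c j))).eval (c i) = 0 := by
  rw [Polynomial.eval_prod]
  exact Finset.prod_eq_zero (Finset.mem_univ i) (by simp)

theorem eval_mem (H : Tres5eSplit F z P c) (i : ι) :
    (minpoly R z).eval (c i) ∈ IsLocalRing.maximalIdeal R := by
  rw [H.minpolyR]
  have h1 := tres5e_eval_mem (IsLocalRing.maximalIdeal R) (c i) _ H.red
  rwa [eval_sub, H.eval_prod_root i, sub_zero] at h1

theorem isMaximal (H : Tres5eSplit F z P c) (i : ι) : (tres5eMax R z (c i)).IsMaximal :=
  tres5e_max_isMaximal F H.isIntegral (c i) (H.eval_mem i)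

theorem isPrime (H : Tres5eSplit F z P c) (i : ι) : (tres5eMax R z (c i)).IsPrime :=
  (H.isMaximal i).isPrime

theorem aeval_gen (H : Tres5eSplit F z P c) : aeval (tres5eGen R z) P = 0 := by
  apply Subtype.ext
  rw [tres5e_coe_aeval]
  exact H.root

/-- `∏ (z - c i) ∈ 𝔫 R[z]`. -/
theorem prod_mem (H : Tres5eSplit F z P c) :
    ∏ i, (tres5eGen R z - algebraMap R _ (c i)) ∈
      (IsLocalRing.maximalIdeal R).map (algebraMap R ↥(Algebra.adjoin R ({z} : Set L))) := by
  have h1 := tres5e_aeval_mem_map (IsLocalRing.maximalIdeal R) (tres5eGen R z) _ H.red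
  rw [map_sub, H.aeval_gen, zero_sub, map_prod] at h1
  have h2 := Ideal.neg_mem_iff _ |>.mp h1
  simpa using h2

theorem max_injective (H : Tres5eSplit F z P c) {i j : ι}
    (h : tres5eMax R z (c i) = tres5eMax R z (c j)) : i = j := by
  by_contra hij
  have h1 := (tres5e_max_eq_iff F H.isIntegral (c i) (c j) (H.eval_mem i) (H.eval_mem j)).mp h
  exact (IsLocalRing.mem_maximalIdeal _).mp h1 (H.sep i j hij)

/-- a prime of `R[z]` containing `𝔫` contains some `z - c i`. -/
theorem exists_mem_of_prime (H : Tres5eSplit F z P c)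
    (𝔮 : Ideal ↥(Algebra.adjoin R ({z} : Set L))) [h𝔮 : 𝔮.IsPrime]
    (hle : (IsLocalRing.maximalIdeal R).map (algebraMap R _) ≤ 𝔮) :
    ∃ i, tres5eMax R z (c i) ≤ 𝔮 := by
  have h1 := hle H.prod_mem
  obtain ⟨i, -, hi⟩ := (Ideal.IsPrime.prod_mem_iff).mp h1
  refine ⟨i, ?_⟩
  rw [tres5eMax, sup_le_iff]
  exact ⟨hle, by rw [Ideal.span_le, Set.singleton_subset_iff]; exact hi⟩

/-- **(ET2)** the maximal ideals of `R[z]` are the `(𝔫, z - c i)`. -/
theorem exists_eq_of_isMaximal (H : Tres5eSplit F z P c)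
    (𝔐 : Ideal ↥(Algebra.adjoin R ({z} : Set L))) [h𝔐 : 𝔐.IsMaximal] :
    ∃ i, 𝔐 = tres5eMax R z (c i) := by
  haveI : Algebra.IsIntegral R ↥(Algebra.adjoin R ({z} : Set L)) :=
    Algebra.IsIntegral.adjoin (by
      intro s hs
      rw [Set.mem_singleton_iff] at hs
      rw [hs]; exact H.isIntegral)
  have h1 : (𝔐.comap (algebraMap R ↥(Algebra.adjoin R ({z} : Set L)))).IsMaximal :=
    Ideal.isMaximal_comap_of_isIntegral_of_isMaximal 𝔐
  have h2 := IsLocalRing.eq_maximalIdeal h1
  have hle : (IsLocalRing.maximalIdeal R).map (algebraMap R _) ≤ 𝔐 := by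
    rw [Ideal.map_le_iff_le_comap, h2]
  obtain ⟨i, hi⟩ := H.exists_mem_of_prime 𝔐 hle
  exact ⟨i, ((H.isMaximal i).eq_of_le h𝔐.ne_top hi).symm⟩


/-- `P'(c i)` is a unit. -/
theorem eval_derivative_isUnit (H : Tres5eSplit F z P c) (i : ι) :
    IsUnit ((derivative P).eval (c i)) := by
  classical
  have h1 : P = (P - ∏ j, (X - C (c j))) + ∏ j, (X - C (c j)) := by ring
  have h2 : (derivative (P - ∏ j, (X - C (c j)))).eval (c i) ∈ IsLocalRing.maximalIdeal R := by
    refine tres5e_eval_mem _ _ _ fun n => ?_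
    rw [coeff_derivative]
    exact Ideal.mul_mem_right _ _ (H.red (n + 1))
  have h3 : (derivative (∏ j, (X - C (c j)))).eval (c i) =
      ∏ j ∈ Finset.univ.erase i, (c i - c j) := by
    rw [derivative_prod_finset, eval_finsetSum]
    rw [Finset.sum_eq_single i]
    · rw [derivative_sub, derivative_X, derivative_C, sub_zero, mul_one, Polynomial.eval_prod]
      refine Finset.prod_congr rfl fun j _ => ?_
      rw [eval_sub, eval_X, eval_C]
    · intro k _ hki
      rw [eval_mul, Polynomial.eval_prod]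
      rw [Finset.prod_eq_zero (Finset.mem_erase.mpr ⟨Ne.symm hki, Finset.mem_univ i⟩) (by simp),
        zero_mul]
    · intro h; exact absurd (Finset.mem_univ i) h
  have h4 : IsUnit (∏ j ∈ Finset.univ.erase i, (c i - c j)) := by
    refine Finset.prod_induction _ IsUnit (fun a b ha hb => ha.mul hb) isUnit_one fun j hj => ?_
    exact H.sep i j (Finset.ne_of_mem_erase hj).symm
  rw [h1, derivative_add, eval_add, h3]
  by_contra hnu
  have h5 := (IsLocalRing.mem_maximalIdeal _).mpr hnu
  have h6 := (Ideal.add_mem_iff_right _ h2).mp h5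
  exact (IsLocalRing.mem_maximalIdeal _).mp h6 h4

/-- `P'(z)` is a unit of `R[z]`. -/
theorem derivative_isUnit (H : Tres5eSplit F z P c) :
    IsUnit (aeval (tres5eGen R z) (derivative P)) := by
  by_contra hnu
  obtain ⟨𝔐, h𝔐, hmem⟩ := exists_max_ideal_of_mem_nonunits hnu
  obtain ⟨i, rfl⟩ := H.exists_eq_of_isMaximal 𝔐
  rw [tres5e_aeval_mem_max F H.isIntegral (c i) (H.eval_mem i)] at hmem
  exact (IsLocalRing.mem_maximalIdeal _).mp hmem (H.eval_derivative_isUnit i)


/-- **(ET1) in the split situation**: `R[z]` is the integral closure of `R` in `L`. -/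
theorem integral_mem (H : Tres5eSplit F z P c) {y : L} (hy : IsIntegral R y) :
    y ∈ Algebra.adjoin R ({z} : Set L) := by
  refine tres5e_integral_mem (F := F) H.isIntegral H.top ?_ hy
  obtain ⟨u, hu⟩ := H.derivative_isUnit
  set t : ↥(Algebra.adjoin R ({z} : Set L)) := ↑u⁻¹ with ht
  refine ⟨(t : L), t.2, ?_⟩
  have h1 : (aeval (tres5eGen R z) (derivative P)) * t = 1 := by
    rw [← hu, ht]; exact u.mul_inv
  have h2 := congrArg (Subtype.val) h1
  rw [H.minpolyR]
  rw [← tres5e_coe_aeval]
  exact h2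

theorem algebraIsIntegral (H : Tres5eSplit F z P c) :
    Algebra.IsIntegral R ↥(Algebra.adjoin R ({z} : Set L)) :=
  Algebra.IsIntegral.adjoin (by
    intro s hs
    rw [Set.mem_singleton_iff] at hs
    rw [hs]; exact H.isIntegral)

/-- `R[z]` is integrally closed in `L` (the hypothesis `hBic` of
`UNIP.ls_isIntegral_mem_localSubring`). -/
theorem hBic (H : Tres5eSplit F z P c) (y : L)
    (hy : IsIntegral ↥(Algebra.adjoin R ({z} : Set L)) y) :
    y ∈ (algebraMap ↥(Algebra.adjoin R ({z} : Set L)) L).range := by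
  haveI := H.algebraIsIntegral
  have h1 : IsIntegral R y := isIntegral_trans (A := ↥(Algebra.adjoin R ({z} : Set L))) y hy
  exact ⟨⟨y, H.integral_mem h1⟩, rfl⟩

/-- `R[z] ∩ F = R`. -/
theorem inter_base (H : Tres5eSplit F z P c) (x : F)
    (hx : algebraMap F L x ∈ Algebra.adjoin R ({z} : Set L)) :
    ∃ r : R, algebraMap R F r = x := by
  have h1 : IsIntegral R (algebraMap F L x) := tres5e_isIntegral_of_mem H.isIntegral hx
  have h2 : IsIntegral R x := (isIntegral_algebraMap_iff (algebraMap F L).injective).mp h1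
  exact (isIntegrallyClosed_iff F).mp inferInstance h2


/-- elements of `R[z]` are polynomials of degree `< deg P` in `z`. -/
theorem exists_aeval_lt (H : Tres5eSplit F z P c) (b : ↥(Algebra.adjoin R ({z} : Set L))) :
    ∃ q : R[X], q.degree < P.degree ∧ aeval (tres5eGen R z) q = b := by
  haveI : Nontrivial R := inferInstance
  obtain ⟨q, rfl⟩ := tres5e_exists_aeval z b
  refine ⟨q %ₘ P, degree_modByMonic_lt q H.monic, ?_⟩
  exact aeval_modByMonic_eq_self_of_root H.aeval_gen

/-- a polynomial of degree `< deg P` vanishing at `z` is zero. -/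
theorem eq_zero_of_aeval (H : Tres5eSplit F z P c) (q : R[X]) (hdeg : q.degree < P.degree)
    (h0 : aeval z q = 0) : q = 0 := by
  haveI := tres5e_torsionFree R F L
  have h1 := minpoly.isIntegrallyClosed_dvd H.isIntegral h0
  rw [H.minpolyR] at h1
  exact Polynomial.eq_zero_of_dvd_of_degree_lt h1 hdeg

/-- **unramifiedness**: `(𝔫, z - c i)` and `𝔫 R[z]` agree up to a unit at `(𝔫, z - c i)`. -/
theorem unram (H : Tres5eSplit F z P c) (i : ι) {b : ↥(Algebra.adjoin R ({z} : Set L))}
    (hb : b ∈ tres5eMax R z (c i)) :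
    ∃ u, u ∉ tres5eMax R z (c i) ∧
      u * b ∈ (IsLocalRing.maximalIdeal R).map
        (algebraMap R ↥(Algebra.adjoin R ({z} : Set L))) := by
  classical
  haveI := H.isPrime i
  set u : ↥(Algebra.adjoin R ({z} : Set L)) :=
    ∏ j ∈ Finset.univ.erase i, (tres5eGen R z - algebraMap R _ (c j)) with hu
  have hu𝔐 : u ∉ tres5eMax R z (c i) := by
    intro h
    obtain ⟨j, hj, hmem⟩ := (Ideal.IsPrime.prod_mem_iff).mp h
    have h1 : aeval (tres5eGen R z) (X - C (c j)) ∈ tres5eMax R z (c i) := by
      rw [map_sub, aeval_X, aeval_C]; exact hmem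
    rw [tres5e_aeval_mem_max F H.isIntegral (c i) (H.eval_mem i), eval_sub, eval_X, eval_C] at h1
    exact (IsLocalRing.mem_maximalIdeal _).mp h1 (H.sep i j (Finset.ne_of_mem_erase hj).symm)
  have hprod : u * (tres5eGen R z - algebraMap R _ (c i)) ∈
      (IsLocalRing.maximalIdeal R).map (algebraMap R ↥(Algebra.adjoin R ({z} : Set L))) := by
    have := H.prod_mem
    rw [← Finset.mul_prod_erase _ _ (Finset.mem_univ i)] at this
    rw [hu, mul_comm]; exact this
  refine ⟨u, hu𝔐, ?_⟩
  rw [tres5eMax] at hb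
  obtain ⟨n, hn, t, ht, rfl⟩ := Submodule.mem_sup.mp hb
  obtain ⟨t', rfl⟩ := Ideal.mem_span_singleton'.mp ht
  rw [mul_add]
  refine Ideal.add_mem _ (Ideal.mul_mem_left _ _ hn) ?_
  have : u * (t' * (tres5eGen R z - algebraMap R _ (c i))) =
      t' * (u * (tres5eGen R z - algebraMap R _ (c i))) := by ring
  rw [this]
  exact Ideal.mul_mem_left _ _ hprod

/-- `𝔫 R[z] ⊆ (𝔫, z - a)`. -/
theorem _root_.Fermat.Agent.R38.tres5e_map_le_max (z : L) (a : R) :
    (IsLocalRing.maximalIdeal R).map (algebraMap R ↥(Algebra.adjoin R ({z} : Set L))) ≤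
      tres5eMax R z a := le_sup_left

/-- **the local rings of `R[z]` dominate `R` with `O' ∩ F = R`** (faithful flatness). -/
theorem loc_inter (H : Tres5eSplit F z P c) (i : ι) [(tres5eMax R z (c i)).IsPrime] (x : F)
    (hx : algebraMap F L x ∈ ls_localSubring (F := L) (tres5eMax R z (c i))) :
    ∃ r : R, algebraMap R F r = x := by
  obtain ⟨b, s, hs, hbs⟩ := hx
  obtain ⟨B, hBdeg, rfl⟩ := H.exists_aeval_lt b
  obtain ⟨S, hSdeg, rfl⟩ := H.exists_aeval_lt s
  obtain ⟨r₁, r₂, hr₂, rfl⟩ := IsFractionRing.div_surjective (A := R) x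
  have hr₂0 : algebraMap R F r₂ ≠ 0 :=
    IsFractionRing.to_map_ne_zero_of_mem_nonZeroDivisors hr₂
  have hr₂L : algebraMap R L r₂ ≠ 0 := by
    rw [IsScalarTower.algebraMap_eq R F L, RingHom.comp_apply]
    exact (map_ne_zero (algebraMap F L)).mpr hr₂0
  have hbs' : aeval z S * algebraMap F L (algebraMap R F r₁ / algebraMap R F r₂) = aeval z B := by
    have h1 : algebraMap ↥(Algebra.adjoin R ({z} : Set L)) L (aeval (tres5eGen R z) S) =
        aeval z S := tres5e_coe_aeval z S
    have h2 : algebraMap ↥(Algebra.adjoin R ({z} : Set L)) L (aeval (tres5eGen R z) B) =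
        aeval z B := tres5e_coe_aeval z B
    rw [← h1, ← h2]; exact hbs
  have hQ : aeval z (C r₁ * S - C r₂ * B) = 0 := by
    rw [map_sub, map_mul, map_mul, aeval_C, aeval_C, ← hbs', map_div₀,
      ← IsScalarTower.algebraMap_apply R F L, ← IsScalarTower.algebraMap_apply R F L]
    field_simp
    ring
  have hQdeg : (C r₁ * S - C r₂ * B).degree < P.degree := by
    refine lt_of_le_of_lt (degree_sub_le _ _) (max_lt ?_ ?_)
    · exact lt_of_le_of_lt (by rw [C_mul']; exact degree_smul_le _ _) hSdeg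
    · exact lt_of_le_of_lt (by rw [C_mul']; exact degree_smul_le _ _) hBdeg
  have hQ0 := H.eq_zero_of_aeval _ hQdeg hQ
  have hcoeff : ∀ k, r₁ * S.coeff k = r₂ * B.coeff k := by
    intro k
    have := congrArg (fun q => q.coeff k) hQ0
    simp only [coeff_sub, coeff_C_mul, coeff_zero] at this
    exact sub_eq_zero.mp this
  by_cases hall : ∀ k, S.coeff k ∈ IsLocalRing.maximalIdeal R
  · exact absurd (tres5e_map_le_max z (c i)
      (tres5e_aeval_mem_map (IsLocalRing.maximalIdeal R) (tres5eGen R z) S hall)) hs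
  · push Not at hall
    obtain ⟨k, hk⟩ := hall
    have hunit : IsUnit (S.coeff k) := by
      by_contra h; exact hk ((IsLocalRing.mem_maximalIdeal _).mpr h)
    obtain ⟨v, hv⟩ := hunit
    refine ⟨↑v⁻¹ * B.coeff k, ?_⟩
    have h3 : r₁ = r₂ * (↑v⁻¹ * B.coeff k) := by
      have h4 := hcoeff k
      rw [← hv] at h4
      calc r₁ = r₁ * (↑v * ↑v⁻¹) := by rw [v.mul_inv, mul_one]
        _ = (r₁ * ↑v) * ↑v⁻¹ := by ring
        _ = r₂ * (↑v⁻¹ * B.coeff k) := by rw [h4]; ring
    rw [h3, map_mul (algebraMap R F) r₂, mul_div_cancel_left₀ _ hr₂0]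


/-- the maximal ideal of the local ring at `(𝔫, z - c i)` is generated by `𝔫`:
`x = b / s` with `b ∈ (𝔫, z - c i)` can be written `x = n / s'` with `n ∈ 𝔫 R[z]`. -/
theorem loc_nonunit (H : Tres5eSplit F z P c) (i : ι) {x : L}
    {b s : ↥(Algebra.adjoin R ({z} : Set L))} (hb : b ∈ tres5eMax R z (c i))
    (hs : s ∉ tres5eMax R z (c i)) (h : (s : L) * x = b) :
    ∃ n s' : ↥(Algebra.adjoin R ({z} : Set L)),
      n ∈ (IsLocalRing.maximalIdeal R).map
        (algebraMap R ↥(Algebra.adjoin R ({z} : Set L))) ∧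
      s' ∉ tres5eMax R z (c i) ∧ (s' : L) * x = n := by
  haveI := H.isPrime i
  obtain ⟨u, hu, hub⟩ := H.unram i hb
  refine ⟨u * b, u * s, hub, fun hmem => ?_, ?_⟩
  · rcases (H.isPrime i).mem_or_mem hmem with h1 | h1
    · exact hu h1
    · exact hs h1
  · push_cast
    rw [mul_assoc, h]

/-- residue field of the local ring at `(𝔫, z - c i)`: every element is congruent to a
constant of `R`. -/
theorem loc_residue (H : Tres5eSplit F z P c) (i : ι) [(tres5eMax R z (c i)).IsPrime] {x : L}
    (hx : x ∈ ls_localSubring (F := L) (tres5eMax R z (c i))) :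
    ∃ (r : R) (b s : ↥(Algebra.adjoin R ({z} : Set L))), b ∈ tres5eMax R z (c i) ∧
      s ∉ tres5eMax R z (c i) ∧ (s : L) * (x - algebraMap R L r) = b := by
  obtain ⟨b, s, hs, hbs⟩ := hx
  obtain ⟨b₀, hb₀⟩ := tres5e_max_residue z (c i) b
  obtain ⟨s₀, hs₀⟩ := tres5e_max_residue z (c i) s
  have hs₀u : IsUnit s₀ := by
    by_contra hnu
    have h1 := (tres5e_algebraMap_mem_max F H.isIntegral (c i) (H.eval_mem i) s₀).mpr
      ((IsLocalRing.mem_maximalIdeal _).mpr hnu)
    have h2 := Ideal.add_mem _ hs₀ h1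
    rw [sub_add_cancel] at h2
    exact hs h2
  obtain ⟨v, hv⟩ := hs₀u
  refine ⟨↑v⁻¹ * b₀, b - algebraMap R _ b₀ - (s - algebraMap R _ s₀) * algebraMap R _ (↑v⁻¹ * b₀),
    s, ?_, hs, ?_⟩
  · exact Ideal.sub_mem _ hb₀ (Ideal.mul_mem_right _ _ hs₀)
  · have h3 : (b : L) = (s : L) * x := hbs.symm
    have h4 : s₀ * (↑v⁻¹ * b₀) = b₀ := by
      rw [← hv, ← mul_assoc, v.mul_inv, one_mul]
    have h5 : algebraMap R L b₀ = algebraMap R L s₀ * algebraMap R L (↑v⁻¹ * b₀) := by
      rw [← map_mul, h4]
    have e1 : ((b - algebraMap R _ b₀ - (s - algebraMap R _ s₀) * algebraMap R _ (↑v⁻¹ * b₀) :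
        ↥(Algebra.adjoin R ({z} : Set L))) : L) =
        (b : L) - algebraMap R L b₀ -
          ((s : L) - algebraMap R L s₀) * algebraMap R L (↑v⁻¹ * b₀) := rfl
    rw [e1, h3]
    linear_combination h5

/-- **normality of the local rings** of `R[z]`. -/
theorem loc_normal (H : Tres5eSplit F z P c) (i : ι) [(tres5eMax R z (c i)).IsPrime] (y : L)
    (hy : IsIntegral (ls_localSubring (F := L) (tres5eMax R z (c i))) y) :
    y ∈ ls_localSubring (F := L) (tres5eMax R z (c i)) :=
  ls_isIntegral_mem_localSubring H.hBic _ y hy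

/-- the local rings of `R[z]` are local. -/
theorem loc_isLocalRing (H : Tres5eSplit F z P c) (i : ι) [(tres5eMax R z (c i)).IsPrime] :
    IsLocalRing (ls_localSubring (F := L) (tres5eMax R z (c i))) :=
  ls_localSubring_isLocalRing (fun a b h => Subtype.ext h) _


end Tres5eSplit

/-- elements integral over `R` lie in every valuation ring of `L` containing `R`. -/
theorem tres5e_mem_val_of_isIntegral {R L : Type*} [CommRing R] [Field L] [Algebra R L]
    (W : ValuationSubring L) (hRW : ∀ r : R, algebraMap R L r ∈ W) {y : L}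
    (hy : IsIntegral R y) : y ∈ W := by
  obtain ⟨p, hp, hpy⟩ := hy
  set f : R →+* ↥W := (algebraMap R L).codRestrict W.toSubring hRW with hf
  have hcomp : (algebraMap ↥W L).comp f = algebraMap R L := by ext r; rfl
  have hint : IsIntegral ↥W y := by
    refine ⟨p.map f, hp.map f, ?_⟩
    rw [eval₂_map, hcomp]; exact hpy
  obtain ⟨w, hw⟩ := (isIntegrallyClosed_iff L).mp inferInstance hint
  rw [← hw]; exact w.2

namespace Tres5eSplit

variable {F} {z : L} {P : R[X]} {c : ι → R}

/-- `R[z]` lies in every valuation ring of `L` containing `R`. -/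
theorem mem_val (H : Tres5eSplit F z P c) (W : ValuationSubring L)
    (hRW : ∀ r : R, algebraMap R L r ∈ W) (b : ↥(Algebra.adjoin R ({z} : Set L))) :
    (b : L) ∈ W :=
  tres5e_mem_val_of_isIntegral W hRW (tres5e_isIntegral_of_mem H.isIntegral b.2)

/-- **centre of a valuation ring over the closed point**: a valuation ring `W` of `L` which
dominates `R` has centre `(𝔫, z - c i)` on `R[z]` for exactly one `i`. -/
theorem val_center (H : Tres5eSplit F z P c) (W : ValuationSubring L)
    (hRW : ∀ r : R, algebraMap R L r ∈ W)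
    (h𝔫W : ∀ r ∈ IsLocalRing.maximalIdeal R, algebraMap R L r ∈ W.nonunits) :
    ∃ i, ∀ b : ↥(Algebra.adjoin R ({z} : Set L)),
      b ∈ tres5eMax R z (c i) ↔ (b : L) ∈ W.nonunits := by
  set g : ↥(Algebra.adjoin R ({z} : Set L)) →+* ↥W :=
    (Algebra.adjoin R ({z} : Set L)).val.toRingHom.codRestrict W.toSubring
      (fun b => H.mem_val W hRW b) with hg
  set 𝔮 : Ideal ↥(Algebra.adjoin R ({z} : Set L)) :=
    Ideal.comap g (IsLocalRing.maximalIdeal ↥W) with h𝔮
  haveI : 𝔮.IsPrime := Ideal.IsPrime.comap g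
  have hmem : ∀ b : ↥(Algebra.adjoin R ({z} : Set L)), b ∈ 𝔮 ↔ (b : L) ∈ W.nonunits := by
    intro b
    rw [h𝔮, Ideal.mem_comap, ValuationSubring.valuation_lt_one_iff,
      ValuationSubring.mem_nonunits_iff]
    rfl
  have hle : (IsLocalRing.maximalIdeal R).map (algebraMap R _) ≤ 𝔮 := by
    rw [Ideal.map_le_iff_le_comap]
    intro r hr
    rw [Ideal.mem_comap, hmem]
    exact h𝔫W r hr
  obtain ⟨i, hi⟩ := H.exists_mem_of_prime 𝔮 hle
  have heq := (H.isMaximal i).eq_of_le (Ideal.IsPrime.ne_top inferInstance) hi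
  refine ⟨i, fun b => ?_⟩
  rw [heq, hmem]

/-- the centre determines `i`. -/
theorem val_center_unique (H : Tres5eSplit F z P c) (W : ValuationSubring L)
    (hRW : ∀ r : R, algebraMap R L r ∈ W) {i j : ι}
    (hi : z - algebraMap R L (c i) ∈ W.nonunits) (hj : z - algebraMap R L (c j) ∈ W.nonunits) :
    i = j := by
  by_contra hij
  obtain ⟨v, hv⟩ := H.sep i j hij
  have h1 : algebraMap R L (c i - c j) ∈ W.nonunits := by
    have : algebraMap R L (c i - c j) = (z - algebraMap R L (c j)) - (z - algebraMap R L (c i)) := by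
      rw [map_sub]; ring
    rw [this, ValuationSubring.mem_nonunits_iff]
    rw [ValuationSubring.mem_nonunits_iff] at hi hj
    exact lt_of_le_of_lt (Valuation.map_sub _ _ _) (max_lt hj hi)
  have h2 : algebraMap R L (↑v⁻¹ : R) ∈ W := hRW _
  have h3 : algebraMap R L (c i - c j) * algebraMap R L (↑v⁻¹ : R) = 1 := by
    rw [← map_mul, ← hv, v.mul_inv, map_one]
  rw [ValuationSubring.mem_nonunits_iff] at h1
  have h4 := (ValuationSubring.valuation_le_one_iff W _).mpr h2
  have h5 : W.valuation (1 : L) < 1 := by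
    rw [← h3, map_mul]
    calc W.valuation (algebraMap R L (c i - c j)) * W.valuation (algebraMap R L (↑v⁻¹ : R))
        ≤ W.valuation (algebraMap R L (c i - c j)) * 1 := mul_le_mul' le_rfl h4
      _ < 1 := by rw [mul_one]; exact h1
  rw [map_one] at h5
  exact lt_irrefl _ h5

/-- the local ring at the centre lies in the valuation ring, and its non-units are non-units. -/
theorem loc_le_val (H : Tres5eSplit F z P c) (i : ι) [(tres5eMax R z (c i)).IsPrime]
    (W : ValuationSubring L)
    (hW : ∀ b : ↥(Algebra.adjoin R ({z} : Set L)),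
      b ∈ tres5eMax R z (c i) ↔ (b : L) ∈ W.nonunits)
    (hΛW : ∀ b : ↥(Algebra.adjoin R ({z} : Set L)), (b : L) ∈ W) {x : L}
    (hx : x ∈ ls_localSubring (F := L) (tres5eMax R z (c i))) :
    x ∈ W ∧ ((∃ b s : ↥(Algebra.adjoin R ({z} : Set L)), b ∈ tres5eMax R z (c i) ∧
      s ∉ tres5eMax R z (c i) ∧ (s : L) * x = b) → x ∈ W.nonunits) := by
  have hunit : ∀ s : ↥(Algebra.adjoin R ({z} : Set L)), s ∉ tres5eMax R z (c i) →
      W.valuation (s : L) = 1 := by
    intro s hs
    have h1 : ¬ W.valuation (s : L) < 1 := fun h => hs ((hW s).mpr h)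
    exact le_antisymm ((ValuationSubring.valuation_le_one_iff W _).mpr (hΛW s)) (not_lt.mp h1)
  constructor
  · obtain ⟨b, s, hs, hbs⟩ := hx
    have h1 : W.valuation ((s : L) * x) = W.valuation (b : L) := congrArg _ hbs
    rw [map_mul, hunit s hs, one_mul] at h1
    rw [← ValuationSubring.valuation_le_one_iff, h1]
    exact (ValuationSubring.valuation_le_one_iff W _).mpr (hΛW b)
  · rintro ⟨b, s, hb, hs, hbs⟩
    have h1 : W.valuation ((s : L) * x) = W.valuation (b : L) := congrArg _ hbs
    rw [map_mul, hunit s hs, one_mul] at h1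
    rw [ValuationSubring.mem_nonunits_iff, h1]
    exact (hW b).mp hb

/-- an `F`-automorphism of `L` preserves `R[z]`. -/
theorem map_mem (H : Tres5eSplit F z P c) (ρ : L ≃ₐ[F] L)
    (b : ↥(Algebra.adjoin R ({z} : Set L))) : ρ (b : L) ∈ Algebra.adjoin R ({z} : Set L) := by
  refine H.integral_mem ?_
  have hb : IsIntegral R (b : L) := tres5e_isIntegral_of_mem H.isIntegral b.2
  exact hb.map (ρ.restrictScalars R)

/-- the ring endomorphism of `R[z]` induced by an `F`-automorphism of `L`. -/
noncomputable def mapAdj (H : Tres5eSplit F z P c) (ρ : L ≃ₐ[F] L) :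
    ↥(Algebra.adjoin R ({z} : Set L)) →+* ↥(Algebra.adjoin R ({z} : Set L)) :=
  ((ρ : L →+* L).comp (Algebra.adjoin R ({z} : Set L)).val.toRingHom).codRestrict
    (Algebra.adjoin R ({z} : Set L)).toSubring (fun b => H.map_mem ρ b)

@[simp] theorem mapAdj_coe (H : Tres5eSplit F z P c) (ρ : L ≃ₐ[F] L)
    (b : ↥(Algebra.adjoin R ({z} : Set L))) : ((H.mapAdj ρ b : ↥(Algebra.adjoin R _)) : L) =
      ρ (b : L) := rfl

theorem mapAdj_algebraMap (H : Tres5eSplit F z P c) (ρ : L ≃ₐ[F] L) (r : R) :
    H.mapAdj ρ (algebraMap R _ r) = algebraMap R _ r := by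
  apply Subtype.ext
  rw [mapAdj_coe]
  show ρ (algebraMap R L r) = algebraMap R L r
  rw [IsScalarTower.algebraMap_apply R F L, AlgEquiv.commutes]

/-- **deck transformations permute the closed points**: if `ρ z ≡ c j` mod `(𝔫, z - c i)`,
then `ρ` maps `(𝔫, z - c j)` onto `(𝔫, z - c i)`. -/
theorem deck_max (H : Tres5eSplit F z P c) (i j : ι) (ρ : L ≃ₐ[F] L)
    (hρ : ∃ b ∈ tres5eMax R z (c i), ρ z = algebraMap R L (c j) + (b : L))
    (b : ↥(Algebra.adjoin R ({z} : Set L))) :
    b ∈ tres5eMax R z (c j) ↔ H.mapAdj ρ b ∈ tres5eMax R z (c i) := by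
  haveI := H.isPrime i
  set 𝔮 : Ideal ↥(Algebra.adjoin R ({z} : Set L)) :=
    Ideal.comap (H.mapAdj ρ) (tres5eMax R z (c i)) with h𝔮
  haveI : 𝔮.IsPrime := Ideal.IsPrime.comap _
  have hle : tres5eMax R z (c j) ≤ 𝔮 := by
    rw [tres5eMax, sup_le_iff]
    constructor
    · rw [Ideal.map_le_iff_le_comap]
      intro r hr
      rw [Ideal.mem_comap, h𝔮, Ideal.mem_comap, H.mapAdj_algebraMap]
      exact tres5e_map_le_max z (c i) (Ideal.mem_map_of_mem _ hr)
    · rw [Ideal.span_le, Set.singleton_subset_iff, SetLike.mem_coe, h𝔮, Ideal.mem_comap,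
        map_sub, H.mapAdj_algebraMap]
      obtain ⟨b₀, hb₀, hb₀z⟩ := hρ
      have : H.mapAdj ρ (tres5eGen R z) - algebraMap R _ (c j) = b₀ := by
        apply Subtype.ext
        show ρ z - algebraMap R L (c j) = b₀
        rw [hb₀z]; ring
      rw [this]; exact hb₀
  have heq := (H.isMaximal j).eq_of_le (Ideal.IsPrime.ne_top inferInstance) hle
  rw [heq, h𝔮, Ideal.mem_comap]

/-- **deck transformations permute the local rings** of `R[z]`. -/
theorem loc_deck (H : Tres5eSplit F z P c) (i j : ι) [(tres5eMax R z (c i)).IsPrime]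
    [(tres5eMax R z (c j)).IsPrime] (ρ : L ≃ₐ[F] L)
    (hρ : ∃ b ∈ tres5eMax R z (c i), ρ z = algebraMap R L (c j) + (b : L)) (x : L) :
    x ∈ ls_localSubring (F := L) (tres5eMax R z (c j)) ↔
      ρ x ∈ ls_localSubring (F := L) (tres5eMax R z (c i)) := by
  constructor
  · rintro ⟨b, s, hs, hbs⟩
    refine ⟨H.mapAdj ρ b, H.mapAdj ρ s, fun h => hs ((H.deck_max i j ρ hρ s).mpr h), ?_⟩
    show ρ (s : L) * ρ x = ρ (b : L)
    rw [← map_mul]
    exact congrArg ρ hbs
  · rintro ⟨b, s, hs, hbs⟩
    have h1 : ∀ t : ↥(Algebra.adjoin R ({z} : Set L)),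
        H.mapAdj ρ (H.mapAdj ρ.symm t) = t := fun t => by
      apply Subtype.ext
      rw [mapAdj_coe, mapAdj_coe, AlgEquiv.apply_symm_apply]
    refine ⟨H.mapAdj ρ.symm b, H.mapAdj ρ.symm s, fun h => hs ?_, ?_⟩
    · have := (H.deck_max i j ρ hρ _).mp h
      rwa [h1] at this
    · show ρ.symm (s : L) * x = ρ.symm (b : L)
      have h2 : (s : L) * ρ x = (b : L) := hbs
      rw [← h2, map_mul, AlgEquiv.symm_apply_apply]

end Tres5eSplit

/-- the split situation from the degree: `deg P = [L : F]`. -/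
theorem tres5e_split_of_natDegree {z : L} {P : R[X]} {c : ι → R} (hPm : P.Monic)
    (hPz : aeval z P = 0) (htop : Algebra.adjoin F ({z} : Set L) = ⊤)
    (hdeg : P.natDegree = Module.finrank F L)
    (hsep : ∀ i j, i ≠ j → IsUnit (c i - c j))
    (hred : ∀ n, (P - ∏ i, (X - C (c i))).coeff n ∈ IsLocalRing.maximalIdeal R) :
    Tres5eSplit F z P c :=
  ⟨hPm, hPz, tres5e_minpoly_of_natDegree hPm hPz htop hdeg, htop, hsep, hred⟩

/-- the split situation from irreducibility of `P` over `F`. -/
theorem tres5e_split_of_irreducible {z : L} {P : R[X]} {c : ι → R} (hPm : P.Monic)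
    (hPz : aeval z P = 0) (htop : Algebra.adjoin F ({z} : Set L) = ⊤)
    (hirr : Irreducible (P.map (algebraMap R F)))
    (hsep : ∀ i j, i ≠ j → IsUnit (c i - c j))
    (hred : ∀ n, (P - ∏ i, (X - C (c i))).coeff n ∈ IsLocalRing.maximalIdeal R) :
    Tres5eSplit F z P c :=
  ⟨hPm, hPz, tres5e_minpoly_of_irreducible hPm hPz hirr, htop, hsep, hred⟩

end ET2
section Subring

variable {F : Type*} [Field F]

/-- `F` is the fraction field of the subring `O`. -/
theorem tres5e_isFractionRing_subring (O : Subring F)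
    (h : ∀ x : F, ∃ a ∈ O, ∃ b ∈ O, b ≠ 0 ∧ x * b = a) : IsFractionRing ↥O F := by
  refine IsFractionRing.of_field ↥O F fun x => ?_
  obtain ⟨a, ha, b, hb, hb0, hab⟩ := h x
  refine ⟨⟨a, ha⟩, ⟨b, hb⟩, ?_⟩
  show x = a / b
  rw [← hab, mul_div_assoc, div_self hb0, mul_one]

/-- a subring which is integrally closed in its fraction field `F`. -/
theorem tres5e_isIntegrallyClosed_subring (O : Subring F) [IsFractionRing ↥O F]
    (h : ∀ x : F, IsIntegral ↥O x → x ∈ O) : IsIntegrallyClosed ↥O :=
  (isIntegrallyClosed_iff F).mpr fun {x} hx => ⟨⟨x, h x hx⟩, rfl⟩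

/-- an intersection of valuation rings is integrally closed. -/
theorem tres5e_isIntegral_mem_of_val (O : Subring F) (𝒱 : Set (ValuationSubring F))
    (h : ∀ x : F, x ∈ O ↔ ∀ V ∈ 𝒱, x ∈ V) (x : F) (hx : IsIntegral ↥O x) : x ∈ O := by
  rw [h]
  intro V hV
  exact tres5e_mem_val_of_isIntegral (R := ↥O) V (fun r : ↥O => (h (r : F)).mp r.2 V hV) hx

/-- a subring of `F` whose non-units form an ideal is local. -/
theorem tres5e_isLocalRing_subring (O : Subring F)
    (h : ∀ x ∈ O, x⁻¹ ∈ O ∨ (1 - x)⁻¹ ∈ O) : IsLocalRing ↥O := by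
  refine IsLocalRing.of_isUnit_or_isUnit_one_sub_self fun x => ?_
  have key : ∀ y : ↥O, (y : F) ≠ 0 → (y : F)⁻¹ ∈ O → IsUnit y := fun y hy0 hy =>
    IsUnit.of_mul_eq_one ⟨(y : F)⁻¹, hy⟩ (Subtype.ext (mul_inv_cancel₀ hy0))
  by_cases hx0 : (x : F) = 0
  · right
    have : (1 : ↥O) - x = 1 := by
      apply Subtype.ext
      show (1 : F) - (x : F) = 1
      rw [hx0, sub_zero]
    rw [this]; exact isUnit_one
  by_cases hx1 : (1 : F) - (x : F) = 0
  · left
    have : x = 1 := by
      apply Subtype.ext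
      show (x : F) = 1
      exact (sub_eq_zero.mp hx1).symm
    rw [this]; exact isUnit_one
  rcases h x x.2 with h1 | h1
  · exact Or.inl (key x hx0 h1)
  · exact Or.inr (key (1 - x) hx1 h1)

end Subring

end Fermat.Agent.R38
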