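import Fermat.Agent.R38.TresBigAbs
import Fermat.Agent.R38.TresEtale
import Fermat.Agent.UNIP.Adapter

/-!
# ROW 38, TRES, piece FAC-BIG (helper16), part 3 (P2): the split situation `Tres5eSplit` at a
closed point from the Kummer local shape

Frame of helper28's `R38/TresEtale.lean`: `R` a local integrally closed domain with fraction
field `F` (the local ring `atLoc 𝔫` of a chart over the big field), `L ⊇ F` a field,
`Y ∈ L`, `Y ^ p = u`, `F(Y) = L`, `u` not a `p`-th power in `F`; `ζ ∈ R` a primitive `p`-th root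
of unity, `λ = ζ − 1 ∈ 𝔪_R`, `p ∈ 𝔪_R`, and THE SHAPE (`tres5b_field`, `tres5b_bar`)
      `u / g ^ p − 1 = λ ^ p · a`,   `a ∈ 𝔪_R`   (`a = π y`).

* `tres5bpC p ζ k = 1 + ζ + … + ζ^{k.val − 1}` (`k : ZMod p`), `tres5bpP p ζ a = ∏_k (X − c_k) − a`,
  `tres5bpZ ζ g Y = (Y / g − 1) / λ`.
* `tres5bp_split` : `Tres5eSplit F (tres5bpZ ζ g Y) (tres5bpP p ζ a) (tres5bpC p ζ)`
  — the input of helper53's `tres5kp_descend` (index type `ZMod p`) and of helper28's ET1/ET2.
* `tres5bp_finrank` : `[L : F] = p`.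
* `tres5bp_deck` : a deck transformation `ρ Y = ζ Y` satisfies `ρ z = c_{i+1} + ζ (z − c_i)`:
  the hypothesis `hρ` of `tres5kp_descend` / `Tres5eSplit.deck_max`.
-/

set_option autoImplicit false
set_option linter.style.haveILetI false
set_option linter.unusedSectionVars false
set_option linter.unusedVariables false

namespace Fermat.Agent.R38

open Polynomial IntermediateField Fermat.Agent.UNIP Fermat.Agent.INJ Fermat.Agent.S33

section Prod

/-- a product over `ZMod p` as a product over `range p` -/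
theorem tres5bp_prod_zmod {M : Type*} [CommMonoid M] (p : ℕ) [NeZero p] (f : ℕ → M) :
    ∏ k : ZMod p, f k.val = ∏ k ∈ Finset.range p, f k := by
  cases p with
  | zero => exact absurd rfl (NeZero.ne 0)
  | succ n => exact Fin.prod_univ_eq_prod_range f (n + 1)

end Prod

section Abs

variable {R F L : Type*} [CommRing R] [IsDomain R] [Field F] [Field L]
  [Algebra R F] [IsFractionRing R F] [IsIntegrallyClosed R] [IsLocalRing R]
  [Algebra F L] [Algebra R L] [IsScalarTower R F L]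

/-- the reduced roots, indexed by `ZMod p` -/
noncomputable def tres5bpC (p : ℕ) (ζ : R) (k : ZMod p) : R := tres5bC ζ k.val

/-- the polynomial `∏ (X − c_k) − a` -/
noncomputable def tres5bpP (p : ℕ) [NeZero p] (ζ a : R) : R[X] :=
  ∏ k : ZMod p, (X - C (tres5bpC p ζ k)) - C a

/-- the generator `(Y / g − 1) / (ζ − 1)` -/
noncomputable def tres5bpZ (ζ : R) (g : F) (Y : L) : L :=
  (Y / algebraMap F L g - 1) / (algebraMap R L ζ - 1)

omit [IsDomain R] [IsFractionRing R F] [IsIntegrallyClosed R] [IsLocalRing R] in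
/-- `[L : F] = p` for a Kummer extension of prime degree -/
theorem tres5bp_finrank {p : ℕ} (hp : p.Prime) {u : F} {Y : L} (hY : Y ^ p = algebraMap F L u)
    (htop : IntermediateField.adjoin F {Y} = ⊤) (hw : ∀ b : F, b ^ p ≠ u) :
    Module.finrank F L = p := by
  have hint : IsIntegral F Y := ⟨X ^ p - C u, monic_X_pow_sub_C _ hp.ne_zero, by simp [hY]⟩
  have hmin : minpoly F Y = X ^ p - C u :=
    (minpoly.eq_of_irreducible_of_monic (X_pow_sub_C_irreducible_of_prime hp hw)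
      (by simp [hY]) (monic_X_pow_sub_C _ hp.ne_zero)).symm
  haveI : FiniteDimensional F ↥(IntermediateField.adjoin F {Y}) :=
    IntermediateField.adjoin.finiteDimensional hint
  haveI : FiniteDimensional F L := by
    have e : ↥(IntermediateField.adjoin F {Y}) ≃ₗ[F] L := by
      rw [htop]
      exact (IntermediateField.topEquiv (F := F) (E := L)).toLinearEquiv
    exact Module.Finite.equiv e
  rw [← (Field.primitive_element_iff_minpoly_natDegree_eq F Y).1 htop, hmin,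
    natDegree_X_pow_sub_C]

omit [IsDomain R] [IsFractionRing R F] [IsIntegrallyClosed R] [IsLocalRing R] in
theorem tres5bp_prod_monic (p : ℕ) [NeZero p] (ζ : R) :
    (∏ k : ZMod p, (X - C (tres5bpC p ζ k))).Monic :=
  monic_prod_of_monic _ _ fun k _ => monic_X_sub_C _

omit [IsDomain R] [IsFractionRing R F] [IsIntegrallyClosed R] [IsLocalRing R] in
theorem tres5bp_prod_natDegree (p : ℕ) [NeZero p] [Nontrivial R] (ζ : R) :
    (∏ k : ZMod p, (X - C (tres5bpC p ζ k))).natDegree = p := by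
  rw [natDegree_prod_of_monic _ _ (fun k _ => monic_X_sub_C _)]
  simp

omit [IsFractionRing R F] [IsIntegrallyClosed R] [IsLocalRing R] in
theorem tres5bp_degree_C_lt (p : ℕ) [NeZero p] (hp1 : 0 < p) (ζ a : R) :
    (C a : R[X]).degree < (∏ k : ZMod p, (X - C (tres5bpC p ζ k))).degree := by
  rw [degree_eq_natDegree (tres5bp_prod_monic p ζ).ne_zero, tres5bp_prod_natDegree p ζ]
  exact lt_of_le_of_lt degree_C_le (by exact_mod_cast hp1)

omit [IsFractionRing R F] [IsIntegrallyClosed R] [IsLocalRing R] in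
theorem tres5bpP_monic (p : ℕ) [NeZero p] (hp1 : 0 < p) (ζ a : R) : (tres5bpP p ζ a).Monic :=
  (tres5bp_prod_monic p ζ).sub_of_left (tres5bp_degree_C_lt p hp1 ζ a)

omit [IsFractionRing R F] [IsIntegrallyClosed R] [IsLocalRing R] in
theorem tres5bpP_natDegree (p : ℕ) [NeZero p] (hp1 : 0 < p) (ζ a : R) :
    (tres5bpP p ζ a).natDegree = p := by
  have h1 := tres5bp_degree_C_lt p hp1 ζ a
  have h2 : (tres5bpP p ζ a).degree = (∏ k : ZMod p, (X - C (tres5bpC p ζ k))).degree := by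
    rw [tres5bpP]
    exact degree_sub_eq_left_of_degree_lt h1
  have h3 := natDegree_eq_of_degree_eq h2
  rw [h3, tres5bp_prod_natDegree p ζ]

omit [IsIntegrallyClosed R] [IsLocalRing R] in
/-- `z` is a root of `P` -/
theorem tres5bpP_aeval (p : ℕ) [NeZero p] (hp : 2 ≤ p) {ζ : R} (hζ : IsPrimitiveRoot ζ p)
    {a : R} {u g : F} (hg : g ≠ 0)
    (hu : u / g ^ p - 1 = (algebraMap R F ζ - 1) ^ p * algebraMap R F a)
    {Y : L} (hY : Y ^ p = algebraMap F L u) :
    aeval (tres5bpZ ζ g Y) (tres5bpP p ζ a) = 0 := by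
  have hζF : IsPrimitiveRoot (algebraMap R F ζ) p :=
    hζ.map_of_injective (IsFractionRing.injective R F)
  have h := tres5b_root_map (L := L) hp hζF hg hY hu
  have e1 : ∀ r : R, algebraMap R L r = algebraMap F L (algebraMap R F r) := fun r =>
    IsScalarTower.algebraMap_apply R F L r
  rw [tres5bpP, map_sub, map_prod, aeval_C, sub_eq_zero, e1 a, ← h,
    ← tres5bp_prod_zmod p (fun k => (Y / algebraMap F L g - 1) /
      (algebraMap F L (algebraMap R F ζ) - 1) - algebraMap F L (tres5bC (algebraMap R F ζ) k))]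
  refine Finset.prod_congr rfl fun k _ => ?_
  rw [map_sub, aeval_X, aeval_C, tres5bpZ, tres5bpC, e1, e1, tres5bC_map]

omit [IsDomain R] [IsFractionRing R F] [IsIntegrallyClosed R] [IsLocalRing R] in
/-- `F[z] = L` -/
theorem tres5bp_adjoin_top {p : ℕ} (hp : p ≠ 0) {ζ : R} (hζ1 : algebraMap R L ζ - 1 ≠ 0)
    {u g : F} (hg : g ≠ 0) {Y : L} (hY : Y ^ p = algebraMap F L u)
    (htop : IntermediateField.adjoin F {Y} = ⊤) :
    Algebra.adjoin F ({tres5bpZ ζ g Y} : Set L) = ⊤ := by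
  have hint : IsIntegral F Y := ⟨X ^ p - C u, monic_X_pow_sub_C _ hp, by simp [hY]⟩
  have h1 : Algebra.adjoin F ({Y} : Set L) = ⊤ := by
    rw [← IntermediateField.adjoin_simple_toSubalgebra_of_isAlgebraic hint.isAlgebraic, htop]
    rfl
  rw [eq_top_iff, ← h1]
  refine Algebra.adjoin_le ?_
  intro x hx
  rw [Set.mem_singleton_iff.1 hx]
  have hgL : algebraMap F L g ≠ 0 := (_root_.map_ne_zero _).2 hg
  have hY' : Y = algebraMap F L g * (1 + (algebraMap R L ζ - 1) * tres5bpZ ζ g Y) :=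
    tres5b_Y_eq hgL hζ1
  have hz : tres5bpZ ζ g Y ∈ Algebra.adjoin F ({tres5bpZ ζ g Y} : Set L) :=
    Algebra.self_mem_adjoin_singleton F _
  have hc : ∀ r : R, algebraMap R L r ∈ Algebra.adjoin F ({tres5bpZ ζ g Y} : Set L) := fun r => by
    rw [IsScalarTower.algebraMap_apply R F L r]
    exact Subalgebra.algebraMap_mem _ _
  have key : algebraMap F L g * (1 + (algebraMap R L ζ - 1) * tres5bpZ ζ g Y) ∈
      Algebra.adjoin F ({tres5bpZ ζ g Y} : Set L) :=
    mul_mem (Subalgebra.algebraMap_mem _ _)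
      (add_mem (one_mem _) (mul_mem (sub_mem (hc ζ) (one_mem _)) hz))
  rw [← hY'] at key
  exact key

omit [IsFractionRing R F] [IsIntegrallyClosed R] [IsLocalRing R] in
/-- `c_{i+1} = 1 + ζ c_i` (`i : ZMod p`, cyclically) -/
theorem tres5bpC_succ (p : ℕ) [hp : Fact p.Prime] {ζ : R} (hζ : IsPrimitiveRoot ζ p)
    (i : ZMod p) : tres5bpC p ζ (i + 1) = 1 + ζ * tres5bpC p ζ i := by
  have hsucc : ∀ k : ℕ, tres5bC ζ (k + 1) = 1 + ζ * tres5bC ζ k := by
    intro k
    rw [tres5bC, tres5bC, Finset.sum_range_succ', Finset.mul_sum, pow_zero, add_comm]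
    congr 1
    exact Finset.sum_congr rfl fun j _ => by rw [pow_succ, mul_comm]
  have hζ1 : ζ - 1 ≠ 0 := sub_ne_zero.2 (hζ.ne_one hp.out.one_lt)
  have hp0 : tres5bC ζ p = 0 := by
    have h := tres5bC_mul ζ p
    rw [hζ.pow_eq_one, sub_self] at h
    exact (mul_eq_zero.1 h).resolve_right hζ1
  rw [tres5bpC, tres5bpC, ← hsucc]
  by_cases h : i.val + 1 = p
  · have h0 : i + 1 = 0 := by
      have : ((i.val + 1 : ℕ) : ZMod p) = 0 := by rw [h]; exact ZMod.natCast_self p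
      rwa [Nat.cast_add, ZMod.natCast_zmod_val, Nat.cast_one] at this
    rw [h0, ZMod.val_zero, h, hp0]
    simp [tres5bC]
  · have hlt : i.val + 1 < p := lt_of_le_of_ne (Nat.succ_le_of_lt (ZMod.val_lt i)) h
    have hv : (i + 1).val = i.val + 1 := by
      have h1 : ((i.val + 1 : ℕ) : ZMod p) = i + 1 := by
        rw [Nat.cast_add, ZMod.natCast_zmod_val, Nat.cast_one]
      rw [← h1, ZMod.val_natCast, Nat.mod_eq_of_lt hlt]
    rw [hv]

omit [IsIntegrallyClosed R] in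
/-- **the deck transformation** `ρ Y = ζ Y` in the coordinates `z`, `c`:
`ρ z = c_{i+1} + ζ (z − c_i)`, with `ζ (z − c_i) ∈ (𝔫, z − c_i)`. -/
theorem tres5bp_deck (p : ℕ) [hp : Fact p.Prime] {ζ : R} (hζ : IsPrimitiveRoot ζ p)
    (g : F) {Y : L} (ρ : L ≃ₐ[F] L) (hρ : ρ Y = algebraMap R L ζ * Y) (i : ZMod p) :
    ∃ b ∈ tres5eMax R (tres5bpZ ζ g Y) (tres5bpC p ζ i),
      ρ (tres5bpZ ζ g Y) = algebraMap R L (tres5bpC p ζ (i + 1)) + (b : L) := by
  have hinjL : Function.Injective (algebraMap R L) := by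
    rw [IsScalarTower.algebraMap_eq R F L]
    exact (algebraMap F L).injective.comp (IsFractionRing.injective R F)
  have hζ1 : algebraMap R L ζ - 1 ≠ 0 := by
    rw [sub_ne_zero]
    exact (hζ.map_of_injective hinjL).ne_one hp.out.one_lt
  have hfix : ∀ r : R, ρ (algebraMap R L r) = algebraMap R L r := fun r => by
    rw [IsScalarTower.algebraMap_apply R F L r]
    exact ρ.commutes _
  refine ⟨algebraMap R _ ζ * (tres5eGen R (tres5bpZ ζ g Y) - algebraMap R _ (tres5bpC p ζ i)),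
    Ideal.mul_mem_left _ _ (Ideal.mem_sup_right (Ideal.subset_span rfl)), ?_⟩
  have e1 : ρ (tres5bpZ ζ g Y) =
      (algebraMap R L ζ * Y / algebraMap F L g - 1) / (algebraMap R L ζ - 1) := by
    rw [tres5bpZ, map_div₀, map_sub, map_sub, map_div₀, map_one, hρ, hfix, ρ.commutes]
  have e2 : ((algebraMap R ↥(Algebra.adjoin R ({tres5bpZ ζ g Y} : Set L)) ζ *
      (tres5eGen R (tres5bpZ ζ g Y) - algebraMap R _ (tres5bpC p ζ i)) :
        ↥(Algebra.adjoin R ({tres5bpZ ζ g Y} : Set L))) : L) =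
      algebraMap R L ζ * (tres5bpZ ζ g Y - algebraMap R L (tres5bpC p ζ i)) := rfl
  rw [e1, e2, tres5bpC_succ p hζ i, map_add, map_one, map_mul, tres5bpZ]
  field_simp
  ring

/-- **(P2) the split situation at a closed point from the Kummer local shape.** -/
theorem tres5bp_split (p : ℕ) [hp : Fact p.Prime]
    (hpR : (p : R) ∈ IsLocalRing.maximalIdeal R)
    {ζ : R} (hζ : IsPrimitiveRoot ζ p) (hlam : ζ - 1 ∈ IsLocalRing.maximalIdeal R)
    {a : R} (ha : a ∈ IsLocalRing.maximalIdeal R)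
    {u g : F} (hg : g ≠ 0)
    (hu : u / g ^ p - 1 = (algebraMap R F ζ - 1) ^ p * algebraMap R F a)
    {Y : L} (hY : Y ^ p = algebraMap F L u)
    (htop : IntermediateField.adjoin F {Y} = ⊤) (hw : ∀ b : F, b ^ p ≠ u) :
    Tres5eSplit F (tres5bpZ ζ g Y) (tres5bpP p ζ a) (tres5bpC p ζ) := by
  have hp' := hp.out
  have hinjL : Function.Injective (algebraMap R L) := by
    rw [IsScalarTower.algebraMap_eq R F L]
    exact (algebraMap F L).injective.comp (IsFractionRing.injective R F)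
  have hζ1 : algebraMap R L ζ - 1 ≠ 0 := by
    rw [sub_ne_zero]
    exact (hζ.map_of_injective hinjL).ne_one hp'.one_lt
  refine tres5e_split_of_natDegree F (tres5bpP_monic p hp'.pos ζ a)
    (tres5bpP_aeval p hp'.two_le hζ hg hu hY)
    (tres5bp_adjoin_top hp'.ne_zero hζ1 hg hY htop) ?_ ?_ ?_
  · rw [tres5bpP_natDegree p hp'.pos ζ a, tres5bp_finrank hp' hY htop hw]
  · intro i j hij
    have hval : i.val ≠ j.val := fun h => hij (ZMod.val_injective p h)
    rcases lt_or_gt_of_ne hval with h | h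
    · have h1 := tres5b_c_isUnit hp' hpR hζ.pow_eq_one hlam h (ZMod.val_lt j)
      have e : tres5bpC p ζ i - tres5bpC p ζ j = -(tres5bC ζ j.val - tres5bC ζ i.val) := by
        rw [tres5bpC, tres5bpC]; ring
      rw [e]
      exact h1.neg
    · exact tres5b_c_isUnit hp' hpR hζ.pow_eq_one hlam h (ZMod.val_lt i)
  · intro n
    have e : tres5bpP p ζ a - ∏ i : ZMod p, (X - C (tres5bpC p ζ i)) = -C a := by
      rw [tres5bpP]; ring
    rw [e, coeff_neg, coeff_C]
    split_ifs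
    · exact neg_mem ha
    · rw [neg_zero]; exact zero_mem _

end Abs

section Subring

variable {F L : Type*} [Field F] [Field L] [Algebra F L]

/-- **(P2) for a local subring `O ⊆ F`** (`O = atLoc 𝔫`): the split situation from the shape
`u / g ^ p − 1 = (ζ − 1) ^ p · π · y`, `ζ, π, y ∈ O`, `π ∈ 𝔪_O`, `p ∈ 𝔪_O`, `ζ − 1 ∈ 𝔪_O`. -/
theorem tres5bp_split_subring (O : Subring F) [IsFractionRing ↥O F] [IsIntegrallyClosed ↥O]
    [IsLocalRing ↥O] [Algebra ↥O L] [IsScalarTower ↥O F L]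
    (p : ℕ) [hp : Fact p.Prime] {ζ ϖ y : F} (hζO : ζ ∈ O) (hϖO : ϖ ∈ O) (hyO : y ∈ O)
    (hϖm : (⟨ϖ, hϖO⟩ : ↥O) ∈ IsLocalRing.maximalIdeal ↥O)
    (hpm : ((p : ℕ) : ↥O) ∈ IsLocalRing.maximalIdeal ↥O)
    (hlam : (⟨ζ, hζO⟩ : ↥O) - 1 ∈ IsLocalRing.maximalIdeal ↥O)
    (hζ : IsPrimitiveRoot ζ p) {u g : F} (hg : g ≠ 0)
    (hu : u / g ^ p - 1 = (ζ - 1) ^ p * ϖ * y)
    {Y : L} (hY : Y ^ p = algebraMap F L u)
    (htop : IntermediateField.adjoin F {Y} = ⊤) (hw : ∀ b : F, b ^ p ≠ u) :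
    Tres5eSplit F (tres5bpZ (⟨ζ, hζO⟩ : ↥O) g Y)
      (tres5bpP p (⟨ζ, hζO⟩ : ↥O) (⟨ϖ, hϖO⟩ * ⟨y, hyO⟩)) (tres5bpC p (⟨ζ, hζO⟩ : ↥O)) := by
  have hζ' : IsPrimitiveRoot (⟨ζ, hζO⟩ : ↥O) p :=
    IsPrimitiveRoot.of_map_of_injective (f := O.subtype) hζ Subtype.val_injective
  refine tres5bp_split p hpm hζ' hlam (Ideal.mul_mem_right _ _ hϖm) hg ?_ hY htop hw
  rw [hu, mul_assoc]
  rfl

end Subring

section Chart

variable {A₀ E F : Type*} [CommRing A₀] [IsDomain A₀] [IsDiscreteValuationRing A₀]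
  [Field E] [Algebra A₀ E] [IsFractionRing A₀ E] [CharZero E]
  [Field F] [Algebra E F] [Algebra A₀ F] [IsScalarTower A₀ E F]
  {π : A₀}

/-- the local ring of a closed point is local -/
theorem tres5bp_isLocalRing {u : F} (𝔫 : AtPt (F := F) π u) : IsLocalRing ↥(atLoc 𝔫) :=
  haveI := 𝔫.2.1.isPrime
  ls_localSubring_isLocalRing (F := F) Subtype.val_injective 𝔫.1

/-- `F` is the fraction field of the local ring of a closed point -/
theorem tres5bp_isFractionRing (u : F) [FiniteDimensional E⟮u⟯ F] (𝔫 : AtPt (F := F) π u) :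
    IsFractionRing ↥(atLoc 𝔫) F := by
  haveI := 𝔫.2.1.isPrime
  refine tres5e_isFractionRing_subring (atLoc 𝔫) fun x => ?_
  obtain ⟨y, hy0, hy⟩ := (ad_isAlgebraic (A₀ := A₀) (E := E) u x).exists_integral_multiple
  have hyx : y • x ∈ zchClosure (A₀ := A₀) ({u} : Set F) := mem_zchClosure.mpr hy
  have hyB : (y : F) ∈ zchClosure (A₀ := A₀) ({u} : Set F) :=
    mem_zchClosure.mpr (isIntegral_algebraMap (x := y))
  refine ⟨y • x, ?_, (y : F), ?_, ?_, ?_⟩
  · exact ls_algebraMap_mem (F := F) 𝔫.1 ⟨y • x, hyx⟩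
  · exact ls_algebraMap_mem (F := F) 𝔫.1 ⟨(y : F), hyB⟩
  · intro h0
    exact hy0 (Subtype.ext h0)
  · rw [Algebra.smul_def, mul_comm]
    rfl

/-- the local ring of a closed point is integrally closed -/
theorem tres5bp_isIntegrallyClosed (u : F) [FiniteDimensional E⟮u⟯ F]
    (𝔫 : AtPt (F := F) π u) : IsIntegrallyClosed ↥(atLoc 𝔫) := by
  haveI := 𝔫.2.1.isPrime
  haveI := tres5bp_isFractionRing (A₀ := A₀) (E := E) u 𝔫
  exact tres5e_isIntegrallyClosed_subring (atLoc 𝔫) fun x hx =>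
    ls_isIntegral_mem_localSubring (fun x hx => at_chart_integrallyClosed u x hx) 𝔫.1 x hx

/-- multiples of `π` are in the maximal ideal of the local ring of a closed point -/
theorem tres5bp_pi_mul_mem {u : F} (𝔫 : AtPt (F := F) π u) [IsLocalRing ↥(atLoc 𝔫)]
    (a : A₀) (hπa : π ∣ a) :
    (⟨algebraMap A₀ F a, wab_const_mem_atLoc 𝔫 a⟩ : ↥(atLoc 𝔫)) ∈
      IsLocalRing.maximalIdeal ↥(atLoc 𝔫) := by
  haveI := 𝔫.2.1.isPrime
  obtain ⟨c, rfl⟩ := hπa
  have hne : ls_localIdeal (F := F) 𝔫.1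
      (algebraMap A₀ ↥(zchClosure (A₀ := A₀) ({u} : Set F)) π) ≠ ⊤ :=
    ls_localIdeal_ne_top (F := F) Subtype.val_injective 𝔫.1
      (algebraMap A₀ ↥(zchClosure (A₀ := A₀) ({u} : Set F)) π) 𝔫.2.2
  have hmem : (⟨algebraMap A₀ F (π * c), wab_const_mem_atLoc 𝔫 (π * c)⟩ :
      ↥(ls_localSubring (F := F) 𝔫.1)) ∈
      ls_localIdeal (F := F) 𝔫.1
        (algebraMap A₀ ↥(zchClosure (A₀ := A₀) ({u} : Set F)) π) :=
    (ls_mem_localIdeal (F := F) 𝔫.1
      (algebraMap A₀ ↥(zchClosure (A₀ := A₀) ({u} : Set F)) π)).2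
      ⟨algebraMap A₀ F c, wab_const_mem_atLoc 𝔫 c, by
        show algebraMap A₀ F (π * c) = algebraMap A₀ F π * algebraMap A₀ F c
        rw [map_mul]⟩
  exact IsLocalRing.le_maximalIdeal (R := ↥(atLoc 𝔫)) hne hmem

/-- **(P2) at a closed point of a chart**: the split situation `Tres5eSplit` over
`R = atLoc 𝔫` from the Kummer local shape (`tres5b_field`, `tres5b_bar`). -/
theorem tres5bp_split_atLoc {t : F} [FiniteDimensional E⟮t⟯ F] (𝔫 : AtPt (F := F) π t)
    {L : Type*} [Field L] [Algebra F L]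
    [IsFractionRing ↥(atLoc 𝔫) F] [IsIntegrallyClosed ↥(atLoc 𝔫)] [IsLocalRing ↥(atLoc 𝔫)]
    [Algebra ↥(atLoc 𝔫) L] [IsScalarTower ↥(atLoc 𝔫) F L]
    (p : ℕ) [hp : Fact p.Prime] (hpπ : π ∣ (p : A₀)) {ζ : A₀} (hζ : IsPrimitiveRoot ζ p)
    (hlam : π ∣ ζ - 1)
    {u g y : F} (hg : g ≠ 0) (hy : y ∈ atLoc 𝔫)
    (hu : u / g ^ p - 1 = (algebraMap A₀ F ζ - 1) ^ p * algebraMap A₀ F π * y)
    {Y : L} (hY : Y ^ p = algebraMap F L u)
    (htop : IntermediateField.adjoin F {Y} = ⊤) (hw : ∀ b : F, b ^ p ≠ u) :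
    Tres5eSplit F
      (tres5bpZ (⟨algebraMap A₀ F ζ, wab_const_mem_atLoc 𝔫 ζ⟩ : ↥(atLoc 𝔫)) g Y)
      (tres5bpP p (⟨algebraMap A₀ F ζ, wab_const_mem_atLoc 𝔫 ζ⟩ : ↥(atLoc 𝔫))
        (⟨algebraMap A₀ F π, wab_const_mem_atLoc 𝔫 π⟩ * ⟨y, hy⟩))
      (tres5bpC p (⟨algebraMap A₀ F ζ, wab_const_mem_atLoc 𝔫 ζ⟩ : ↥(atLoc 𝔫))) := by
  have hinj : Function.Injective (algebraMap A₀ F) :=
    zch_algebraMap_injective (A₀ := A₀) (E := E)
  have h1 := tres5bp_pi_mul_mem 𝔫 π dvd_rfl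
  have h2 := tres5bp_pi_mul_mem 𝔫 (p : A₀) hpπ
  have h3 := tres5bp_pi_mul_mem 𝔫 (ζ - 1) hlam
  refine tres5bp_split_subring (atLoc 𝔫) p (wab_const_mem_atLoc 𝔫 ζ) (wab_const_mem_atLoc 𝔫 π)
    hy ?_ ?_ ?_ (hζ.map_of_injective hinj) hg hu hY htop hw
  · exact h1
  · convert h2 using 1
    apply Subtype.ext
    simp
  · convert h3 using 1
    apply Subtype.ext
    simp

end Chart

end Fermat.Agent.R38
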