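import Fermat.Agent.R38.TresCoverConc

/-!
# R38 TRES, (FAC-p), piece ASM-COV, part 3: forms of generated fields (the retraction trick)

`E ⊆ Ω` fields, `Ω / E` algebraic, `ι = algebraMap E Ω`.  An `E`-linear form `τ : Ω → E` with
`τ ∘ ι = id` gives, coefficientwise, an `E((q))`-linear retraction
`tres5cT τ : Ω((q)) → E((q))` of `coeffMap ι`.

* `tres5cT_coeffMap`, `tres5cT_mul` : `T (coeffMap f) = f`, `T (coeffMap f * g) = f * T g`;
* **`tres5c_retract_mem`** : `F₁` an intermediate field of `E((q)) / E`; `T` maps the subfield of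
  `Ω((q))` generated by `coeffMap F₁` and the constants `Ω` into `F₁`;
* **`tres5c_form_le`** : hence a Laurent series with coefficients in `E` which lies in the field
  generated by `coeffMap F₁` and `Ω` lies in `F₁` ("the `E`-form of `Ω · F₁` is `F₁`").

No Galois theory is used.  Mathlib + `coeffMap` only.
-/

set_option autoImplicit false
set_option linter.style.haveILetI false
set_option linter.unusedSectionVars false

noncomputable section

open Polynomial IntermediateField ModularCurve

namespace Fermat.Agent.R38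

section Retract

variable {E Ω : Type*} [Field E] [Field Ω] [Algebra E Ω]

/-- coefficientwise application of an `E`-linear form `τ : Ω → E` -/
def tres5cT (τ : Ω →ₗ[E] E) : LaurentSeries Ω →+ LaurentSeries E where
  toFun g := g.map τ
  map_zero' := by
    ext n
    simp
  map_add' x y := by
    ext n
    simp

@[simp]
theorem tres5cT_coeff (τ : Ω →ₗ[E] E) (g : LaurentSeries Ω) (n : ℤ) :
    (tres5cT τ g).coeff n = τ (g.coeff n) := rfl

theorem tres5cT_coeffMap {τ : Ω →ₗ[E] E} (hτ : ∀ c : E, τ (algebraMap E Ω c) = c)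
    (f : LaurentSeries E) : tres5cT τ (coeffMap (algebraMap E Ω) f) = f := by
  ext n
  rw [tres5cT_coeff, coeffMap_coeff, hτ]

theorem tres5cT_support (τ : Ω →ₗ[E] E) (g : LaurentSeries Ω) :
    (tres5cT τ g).support ⊆ g.support := by
  intro n hn
  rw [HahnSeries.mem_support] at hn ⊢
  intro h
  apply hn
  rw [tres5cT_coeff, h, map_zero]

theorem tres5c_coeffMap_support {R S : Type*} [CommRing R] [CommRing S] (φ : R →+* S)
    (f : LaurentSeries R) : (coeffMap φ f).support ⊆ f.support := by
  intro n hn
  rw [HahnSeries.mem_support] at hn ⊢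
  intro h
  apply hn
  rw [coeffMap_coeff, h, map_zero]

/-- `T` is `E((q))`-linear -/
theorem tres5cT_mul (τ : Ω →ₗ[E] E) (f : LaurentSeries E) (g : LaurentSeries Ω) :
    tres5cT τ (coeffMap (algebraMap E Ω) f * g) = f * tres5cT τ g := by
  ext n
  rw [tres5cT_coeff,
    HahnSeries.coeff_mul_left' f.isPWO_support (tres5c_coeffMap_support (algebraMap E Ω) f),
    HahnSeries.coeff_mul_right' g.isPWO_support (tres5cT_support τ g), map_sum]
  refine Finset.sum_congr rfl fun ij _ => ?_
  rw [coeffMap_coeff, tres5cT_coeff, ← Algebra.smul_def, map_smul, smul_eq_mul]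

theorem tres5cT_algebraMap (τ : Ω →ₗ[E] E) (e : Ω) :
    tres5cT τ (algebraMap Ω (LaurentSeries Ω) e) = algebraMap E (LaurentSeries E) (τ e) := by
  rw [algebraMap_laurentSeries_eq_single, algebraMap_laurentSeries_eq_single]
  ext n
  rw [tres5cT_coeff]
  rcases eq_or_ne n 0 with rfl | hn
  · rw [HahnSeries.coeff_single_same, HahnSeries.coeff_single_same]
  · rw [HahnSeries.coeff_single_of_ne hn, HahnSeries.coeff_single_of_ne hn, map_zero]

/-- an `E`-linear retraction of `E → Ω` exists -/
theorem tres5c_exists_tau (E Ω : Type*) [Field E] [Field Ω] [Algebra E Ω] :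
    ∃ τ : Ω →ₗ[E] E, ∀ c : E, τ (algebraMap E Ω c) = c := by
  obtain ⟨g, hg⟩ := LinearMap.exists_leftInverse_of_injective (Algebra.linearMap E Ω)
    (LinearMap.ker_eq_bot.2 (FaithfulSMul.algebraMap_injective E Ω))
  exact ⟨g, fun c => by
    have := LinearMap.congr_fun hg c
    simpa using this⟩

theorem tres5c_coeffMap_algebraMap (c : E) :
    coeffMap (algebraMap E Ω) (algebraMap E (LaurentSeries E) c)
      = algebraMap Ω (LaurentSeries Ω) (algebraMap E Ω c) := by
  rw [algebraMap_laurentSeries_eq_single, algebraMap_laurentSeries_eq_single, coeffMap_single]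

variable [Algebra.IsAlgebraic E Ω]

/-- **The retraction maps `Ω · F₁` into `F₁`.** -/
theorem tres5c_retract_mem (F₁ : IntermediateField E (LaurentSeries E)) (τ : Ω →ₗ[E] E)
    {x : LaurentSeries Ω}
    (hx : x ∈ Subfield.closure
      ((coeffMap (algebraMap E Ω) '' (F₁ : Set (LaurentSeries E))) ∪
        Set.range (algebraMap Ω (LaurentSeries Ω)))) :
    tres5cT τ x ∈ F₁ := by
  classical
  letI alg : Algebra ↥F₁ (LaurentSeries Ω) :=
    ((coeffMap (algebraMap E Ω)).comp (algebraMap ↥F₁ (LaurentSeries E))).toAlgebra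
  have halg : ∀ a : ↥F₁, algebraMap ↥F₁ (LaurentSeries Ω) a
      = coeffMap (algebraMap E Ω) (a : LaurentSeries E) := fun a => rfl
  set S : Set (LaurentSeries Ω) := Set.range (algebraMap Ω (LaurentSeries Ω)) with hS
  -- the constants are algebraic over `F₁`
  have hcomp : (algebraMap ↥F₁ (LaurentSeries Ω)).comp (algebraMap E ↥F₁)
      = (algebraMap Ω (LaurentSeries Ω)).comp (algebraMap E Ω) := by
    ext1 c
    rw [RingHom.comp_apply, RingHom.comp_apply, halg]
    exact tres5c_coeffMap_algebraMap c
  have hSalg : ∀ s ∈ S, IsAlgebraic ↥F₁ s := by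
    rintro _ ⟨e, rfl⟩
    obtain ⟨P, hP0, hP⟩ := Algebra.IsAlgebraic.isAlgebraic (R := E) e
    refine ⟨P.map (algebraMap E ↥F₁), ?_, ?_⟩
    · exact (Polynomial.map_ne_zero_iff (FaithfulSMul.algebraMap_injective E ↥F₁)).2 hP0
    · rw [Polynomial.aeval_def, Polynomial.eval₂_map, hcomp, ← Polynomial.hom_eval₂]
      rw [Polynomial.aeval_def] at hP
      rw [hP, map_zero]
  -- `x` lies in the subalgebra generated by the constants
  have hx1 : x ∈ (IntermediateField.adjoin ↥F₁ S).toSubfield := by
    revert x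
    show Subfield.closure _ ≤ (IntermediateField.adjoin ↥F₁ S).toSubfield
    rw [Subfield.closure_le]
    rintro z (⟨f, hf, rfl⟩ | hz)
    · exact (IntermediateField.adjoin ↥F₁ S).algebraMap_mem ⟨f, hf⟩
    · exact IntermediateField.subset_adjoin _ _ hz
  have hx2 : x ∈ Algebra.adjoin ↥F₁ S := by
    rw [← IntermediateField.adjoin_toSubalgebra_of_isAlgebraic hSalg]
    exact hx1
  have hx3 : x ∈ Submodule.span ↥F₁ ((Submonoid.closure S : Submonoid (LaurentSeries Ω)) :
      Set (LaurentSeries Ω)) := by
    rw [← Algebra.adjoin_eq_span]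
    exact hx2
  have hclos : ∀ z ∈ Submonoid.closure S, z ∈ S := by
    intro z hz
    induction hz using Submonoid.closure_induction with
    | mem z hz => exact hz
    | one => exact ⟨1, map_one _⟩
    | mul a b _ _ ha hb =>
      obtain ⟨a', rfl⟩ := ha
      obtain ⟨b', rfl⟩ := hb
      exact ⟨a' * b', map_mul _ _ _⟩
  have key : ∀ z, z ∈ Submodule.span ↥F₁ ((Submonoid.closure S : Submonoid (LaurentSeries Ω)) :
      Set (LaurentSeries Ω)) → tres5cT τ z ∈ F₁ := by
    intro z hz
    induction hz using Submodule.span_induction with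
    | mem z hz =>
      obtain ⟨e, rfl⟩ := hclos z hz
      rw [tres5cT_algebraMap]
      exact F₁.algebraMap_mem _
    | zero =>
      rw [map_zero]
      exact F₁.zero_mem
    | add a b _ _ ha hb =>
      rw [map_add]
      exact F₁.add_mem ha hb
    | smul a z _ hz =>
      rw [Algebra.smul_def, halg, tres5cT_mul]
      exact F₁.mul_mem a.2 hz
  exact key x hx3

/-- **The `E`-form of `Ω · F₁` is `F₁`.** -/
theorem tres5c_form_le (F₁ : IntermediateField E (LaurentSeries E))
    {f : LaurentSeries E}
    (hf : coeffMap (algebraMap E Ω) f ∈ Subfield.closure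
      ((coeffMap (algebraMap E Ω) '' (F₁ : Set (LaurentSeries E))) ∪
        Set.range (algebraMap Ω (LaurentSeries Ω)))) :
    f ∈ F₁ := by
  obtain ⟨τ, hτ⟩ := tres5c_exists_tau E Ω
  have h := tres5c_retract_mem F₁ τ hf
  rwa [tres5cT_coeffMap hτ] at h

end Retract

end Fermat.Agent.R38
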