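import Fermat.Agent.R38.TresCoverForm
import Fermat.Agent.R38.TresCoverRetr

/-!
# R38 TRES, (FAC-p), piece ASM-COV, part 4: the forms of the cover are generated by `y`

* `tres5cForm_eq_adjoin` (generic) : if `Fb′ ⊆ Ω · F₀(y_E)` and `coeffMap y_E ∈ Fb′` then the
  `E`-form of `Fb′` is `F₀(y_E)`;
* `tres5c_ff_desc` : `F_N(ℚ̄) ∩ E((q)) = F_N(E)` for EVERY intermediate field `E` of `ℚ̄ / ℚ`;
* `tres5cL_eq_adjoin` : if `y = coeffMap y_E` (`y` has coefficients in `E`) then
  `L_E = F_N(E)(y_E)`;
* `tres5cGenL`, `tres5cL_adjoin_gen` : the generator `y_E` of `L_E`, `F_N(E)⟮y_E⟯ = ⊤`;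
* `tres5cKumL` : the `Tres5Kum` structure on `L_E / F_N(E)` at a valuation `V` with (H1).
-/

set_option autoImplicit false
set_option linter.style.haveILetI false
set_option linter.unusedSectionVars false

noncomputable section

open Polynomial IntermediateField ModularCurve Fermat.Agent.INJ

namespace Fermat.Agent.R38

section Generic

variable {F Ω : Type*} [Field F] [Field Ω] [Algebra F Ω]

/-- a generator of an intermediate field generates it as a field over the base -/
theorem tres5c_adjoin_mk (K : IntermediateField F Ω) {y : Ω} (hy : y ∈ K) (h : K = F⟮y⟯) :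
    IntermediateField.adjoin F {(⟨y, hy⟩ : ↥K)} = (⊤ : IntermediateField F ↥K) := by
  apply IntermediateField.map_injective K.val
  rw [IntermediateField.adjoin_map, Set.image_singleton, ← AlgHom.fieldRange_eq_map,
    IntermediateField.fieldRange_val]
  exact h.symm

end Generic

section GenericForm

variable {E Ω : Type*} [Field E] [Field Ω] [Algebra E Ω] [Algebra.IsAlgebraic E Ω]

/-- **the `E`-form is generated by `y_E`** -/
theorem tres5cForm_eq_adjoin (F₀ : IntermediateField E (LaurentSeries E))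
    (Fb' : Subfield (LaurentSeries Ω))
    (hF : ∀ x ∈ F₀, coeffMap (algebraMap E Ω) x ∈ Fb') (yE : LaurentSeries E)
    (h1 : coeffMap (algebraMap E Ω) yE ∈ Fb')
    (h2 : ∀ x ∈ Fb', x ∈ Subfield.closure
      ((coeffMap (algebraMap E Ω) ''
          ((IntermediateField.restrictScalars E F₀⟮yE⟯ :
            IntermediateField E (LaurentSeries E)) : Set (LaurentSeries E))) ∪
        Set.range (algebraMap Ω (LaurentSeries Ω)))) :
    tres5cForm (algebraMap E Ω) F₀ Fb' hF = F₀⟮yE⟯ := by
  apply le_antisymm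
  · intro f hf
    have h3 := tres5c_form_le (IntermediateField.restrictScalars E F₀⟮yE⟯) (h2 _ hf)
    exact h3
  · rw [IntermediateField.adjoin_le_iff]
    intro z hz
    rw [Set.mem_singleton_iff] at hz
    subst hz
    exact h1

end GenericForm

section Concrete

variable (E : IntermediateField ℚ NfQb) (N : ℕ)

theorem tres5c_isAlgebraic : Algebra.IsAlgebraic ↥E NfQb :=
  haveI : Algebra.IsAlgebraic ℚ NfQb := AlgebraicClosure.isAlgebraic ℚ
  Algebra.IsAlgebraic.tower_top (K := ℚ) ↥E

/-- `F_N(ℚ̄)` lies in the field generated by the image of `F_N(E)` and the constants -/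
theorem tres5c_bar_mem_closure (F₁ : IntermediateField ↥E (LaurentSeries ↥E))
    (hF₁ : modularFunctionFieldFullC ↥E N ≤ F₁) {x : LaurentSeries NfQb}
    (hx : x ∈ modularFunctionFieldBar N) :
    x ∈ Subfield.closure
      ((coeffMap (algebraMap ↥E NfQb) '' (F₁ : Set (LaurentSeries ↥E))) ∪
        Set.range (algebraMap NfQb (LaurentSeries NfQb))) := by
  have hx' : x ∈ Subfield.closure
      (Set.range (algebraMap NfQb (LaurentSeries NfQb)) ∪ divisorExpansionsC NfQb N) :=
    nf_bar_le_fullC N hx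
  clear hx
  revert x
  show Subfield.closure _ ≤ Subfield.closure _
  rw [Subfield.closure_le]
  rintro z (hz | ⟨d, hd, hdN, rfl⟩)
  · exact Subfield.subset_closure (Or.inr hz)
  · refine Subfield.subset_closure (Or.inl ⟨qExpand ↥E d (jqModC ↥E), ?_, ?_⟩)
    · exact hF₁ (jqModCd_mem_full ↥E N hdN)
    · exact coeffMap_jqNModC (algebraMap ↥E NfQb) d

/-- **`F_N(ℚ̄) ∩ E((q)) = F_N(E)`** -/
theorem tres5c_ff_desc {f : LaurentSeries ↥E}
    (hf : coeffMap (algebraMap ↥E NfQb) f ∈ modularFunctionFieldBar N) :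
    f ∈ modularFunctionFieldFullC ↥E N :=
  haveI := tres5c_isAlgebraic E
  tres5c_form_le (modularFunctionFieldFullC ↥E N)
    (tres5c_bar_mem_closure E N _ le_rfl hf)

variable (y : LaurentSeries NfQb)

/-- the cover lies in the field generated by the image of `F₁ ∋ y_E` and the constants -/
theorem tres5c_field_mem_closure (F₁ : IntermediateField ↥E (LaurentSeries ↥E))
    (hF₁ : modularFunctionFieldFullC ↥E N ≤ F₁) {yE : LaurentSeries ↥E} (hyE : yE ∈ F₁)
    (hy : coeffMap (algebraMap ↥E NfQb) yE = y) {x : LaurentSeries NfQb}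
    (hx : x ∈ tres5cField N y) :
    x ∈ Subfield.closure
      ((coeffMap (algebraMap ↥E NfQb) '' (F₁ : Set (LaurentSeries ↥E))) ∪
        Set.range (algebraMap NfQb (LaurentSeries NfQb))) := by
  have hx' : x ∈ Subfield.closure
      (Set.range (algebraMap NfQb (LaurentSeries NfQb)) ∪
        ((modularFunctionFieldBar N : Set (LaurentSeries NfQb)) ∪ {y})) := hx
  clear hx
  revert x
  show Subfield.closure _ ≤ Subfield.closure _
  rw [Subfield.closure_le]
  rintro z (hz | hz | hz)
  · exact Subfield.subset_closure (Or.inr hz)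
  · exact tres5c_bar_mem_closure E N F₁ hF₁ hz
  · rw [Set.mem_singleton_iff] at hz
    subst hz
    exact Subfield.subset_closure (Or.inl ⟨yE, hyE, hy⟩)

/-- **`L_E = F_N(E)(y_E)`** if `y` has coefficients in `E`. -/
theorem tres5cL_eq_adjoin {yE : LaurentSeries ↥E}
    (hy : coeffMap (algebraMap ↥E NfQb) yE = y) :
    tres5cL E N y = (modularFunctionFieldFullC ↥E N)⟮yE⟯ := by
  haveI := tres5c_isAlgebraic E
  refine tres5cForm_eq_adjoin _ _ _ yE ?_ ?_
  · show coeffMap (algebraMap ↥E NfQb) yE ∈ tres5cField N y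
    rw [hy]
    exact tres5c_y_mem N y
  · intro x hx
    refine tres5c_field_mem_closure E N y _ ?_ ?_ hy hx
    · intro z hz
      exact (IntermediateField.adjoin (↥(modularFunctionFieldFullC ↥E N)) {yE}).algebraMap_mem
        ⟨z, hz⟩
    · exact IntermediateField.mem_adjoin_simple_self _ yE

variable {E N y} in
theorem tres5c_gen_mem {yE : LaurentSeries ↥E} (hy : coeffMap (algebraMap ↥E NfQb) yE = y) :
    yE ∈ tres5cL E N y := by
  rw [mem_tres5cL, hy]
  exact tres5c_y_mem N y

/-- the generator `y_E` of `L_E` -/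
def tres5cGenL {yE : LaurentSeries ↥E} (hy : coeffMap (algebraMap ↥E NfQb) yE = y) :
    ↥(tres5cL E N y) := ⟨yE, tres5c_gen_mem hy⟩

@[simp]
theorem tres5cGenL_coe {yE : LaurentSeries ↥E} (hy : coeffMap (algebraMap ↥E NfQb) yE = y) :
    ((tres5cGenL E N y hy : ↥(tres5cL E N y)) : LaurentSeries ↥E) = yE := rfl

/-- **`L_E` is generated by `y_E` over `F_N(E)`** -/
theorem tres5cL_adjoin_gen {yE : LaurentSeries ↥E}
    (hy : coeffMap (algebraMap ↥E NfQb) yE = y) :
    IntermediateField.adjoin ↥(modularFunctionFieldFullC ↥E N) {tres5cGenL E N y hy}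
      = (⊤ : IntermediateField ↥(modularFunctionFieldFullC ↥E N) ↥(tres5cL E N y)) :=
  tres5c_adjoin_mk (tres5cL E N y) (tres5c_gen_mem hy) (tres5cL_eq_adjoin E N y hy)

end Concrete

end Fermat.Agent.R38
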