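/-
ROW 38, TRES, MONO, K-FORM (B) instance, leaf (B-big-pt) (helper26): FAC-BIG AT THE CLOSED POINTS
IN THE CONCRETE FRAME of the cover `L_E = tres5cL E N y` (helper78), `E = mgcE A K₁`.

* `tres5bip_of_shape` : abstract chart.  From the Kummer local shape at the closed point `𝔫`
  (`u / g ^ p − 1 = (ζ − 1) ^ p π y`, `y ∈ atLoc 𝔫`: the conclusion of `tres5b_bar` at
  `i = Sum.inl 𝔫` / `Sum.inr 𝔫`), `L = F(Y)`, `Y ^ p = u`, and a deck transformation `ρ Y = ζ Y`: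
  the split structure `Tres5eSplit F z P c` over `atLoc 𝔫` (index `ZMod p`) and the deck relation
  `ρ z ≡ c (i + 1)` modulo `(𝔫, z − c i)`: EXACTLY the hypotheses `H`, `hρ` of
  `tres5kd_point` / `tres5ki_point`.
* `tres5bip_finrank` : `[L_E : F_E] = p` (the hypothesis `hfin`).
* `tres5bip_split_of_shape` : the same on `L_E = tres5cL E (M p) y`, `Y = tres5cGenL …`, at every
  closed point of BOTH charts `j`, `1 / j` of `F_E = mgcF A K₁ (M p)`.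
  (`hshape` = the last clause of helper16's `tres5biv_frame`; `hpπ = S33.wmg_dvd_p hπ hA`,
  `hlam = S33.wtop_hlam hπ hp hA hζ.pow_eq_one`.)
* (`R38/TresBigInstPtBar.lean`) `tres5bip_split` : the same from the hypotheses of `tres5b_bar`.
* `tres5bip_chart`, `tres5bip_chart_inv` : the `E`-chart coordinate is the image of the
  `K`-chart coordinate.
-/
import Fermat.Agent.R38.TresBigPt
import Fermat.Agent.R38.TresCoverFormE
import Fermat.Agent.R38.TresCoverTower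
import Fermat.Agent.UNIP.MGConcrete
import Fermat.Agent.INJ.TSGlue

set_option autoImplicit false
set_option linter.style.haveILetI false
set_option linter.unusedSectionVars false
set_option linter.unusedVariables false

noncomputable section

namespace Fermat.Agent.R38

open Polynomial ModularCurve IntermediateField Fermat.Agent.INJ Fermat.Agent.ES.G2
  Fermat.Agent.UNIP Fermat.Agent.S33

section Abs

variable {A₀ E F : Type*} [CommRing A₀] [IsDomain A₀] [IsDiscreteValuationRing A₀]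
  [Field E] [Algebra A₀ E] [IsFractionRing A₀ E] [CharZero E]
  [Field F] [Algebra E F] [Algebra A₀ F] [IsScalarTower A₀ E F]
  {π : A₀}

/-- **(B-big-pt), abstract chart**: `H` and `hρ` of `tres5kd_point` at a closed point `𝔫` from
the Kummer local shape at `𝔫`. -/
theorem tres5bip_of_shape {t : F} [FiniteDimensional E⟮t⟯ F] (𝔫 : AtPt (F := F) π t)
    {L : Type*} [Field L] [Algebra F L]
    [IsLocalRing ↥(atLoc 𝔫)] [IsFractionRing ↥(atLoc 𝔫) F] [IsIntegrallyClosed ↥(atLoc 𝔫)]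
    [Algebra ↥(atLoc 𝔫) L] [IsScalarTower ↥(atLoc 𝔫) F L]
    (p : ℕ) [hp : Fact p.Prime] (hpπ : π ∣ (p : A₀)) {ζ : A₀} (hζ : IsPrimitiveRoot ζ p)
    (hlam : π ∣ ζ - 1) {u : F}
    (hshape : ∃ g : F, g ≠ 0 ∧ ∃ y ∈ atLoc 𝔫,
      u / g ^ p - 1 = (algebraMap A₀ F ζ - 1) ^ p * algebraMap A₀ F π * y)
    {Y : L} (hY : Y ^ p = algebraMap F L u)
    (htop : IntermediateField.adjoin F {Y} = ⊤) (hw : ∀ b : F, b ^ p ≠ u)
    (ρ : L ≃ₐ[F] L) (hρ : ρ Y = algebraMap F L (algebraMap A₀ F ζ) * Y) :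
    ∃ (z : L) (P : (↥(atLoc 𝔫))[X]) (c : ZMod p → ↥(atLoc 𝔫)), Tres5eSplit F z P c ∧
      ∀ i : ZMod p, ∃ b ∈ tres5eMax ↥(atLoc 𝔫) z (c i),
        ρ z = algebraMap ↥(atLoc 𝔫) L (c (i + 1)) + (b : L) := by
  obtain ⟨g, hg, y, hy, hu⟩ := hshape
  have hinj : Function.Injective (algebraMap A₀ F) :=
    zch_algebraMap_injective (A₀ := A₀) (E := E)
  have hζ' : IsPrimitiveRoot
      (⟨algebraMap A₀ F ζ, wab_const_mem_atLoc 𝔫 ζ⟩ : ↥(atLoc 𝔫)) p :=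
    IsPrimitiveRoot.of_map_of_injective (f := (atLoc 𝔫).subtype)
      (hζ.map_of_injective hinj) Subtype.val_injective
  have hρ' : ρ Y = algebraMap ↥(atLoc 𝔫) L
      (⟨algebraMap A₀ F ζ, wab_const_mem_atLoc 𝔫 ζ⟩ : ↥(atLoc 𝔫)) * Y := by
    rw [hρ, IsScalarTower.algebraMap_apply ↥(atLoc 𝔫) F L]
    rfl
  exact ⟨_, _, _, tres5bp_split_atLoc (A₀ := A₀) (E := E) 𝔫 p hpπ hζ hlam hg hy hu hY htop hw,
    fun i => tres5bp_deck p hζ' g ρ hρ' i⟩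

end Abs

section Conc

variable {A : ValuationSubring Qb} {K₁ : IntermediateField ℚ Qb} {M p : ℕ} [NeZero M] [NeZero p]
  [NeZero (M * p)]
  [IsDiscreteValuationRing ↥(mgcA A K₁)] {π : ↥(mgcA A K₁)}

/-- **`hfin`** of `tres5kd_point`: `[L_E : F_E] = p`. -/
theorem tres5bip_finrank (hp : p.Prime) {u₀ : ↥(mgcF A K₁ (M * p))}
    (y : LaurentSeries NfQb) {yE : LaurentSeries ↥(mgcE A K₁)}
    (hyE : coeffMap (algebraMap ↥(mgcE A K₁) NfQb) yE = y)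
    (hy : yE ^ p = (u₀ : LaurentSeries ↥(mgcE A K₁)))
    (hw : ∀ b : ↥(mgcF A K₁ (M * p)), b ^ p ≠ u₀) :
    Module.finrank ↥(mgcF A K₁ (M * p)) ↥(tres5cL (mgcE A K₁) (M * p) y) = p :=
  tres5bp_finrank (F := ↥(mgcF A K₁ (M * p))) (L := ↥(tres5cL (mgcE A K₁) (M * p) y)) hp
    (u := u₀) (Y := tres5cGenL (mgcE A K₁) (M * p) y hyE) (Subtype.ext hy)
    (tres5cL_adjoin_gen (mgcE A K₁) (M * p) y hyE) hw

set_option synthInstance.maxHeartbeats 400000 in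
set_option maxHeartbeats 1600000 in
/-- **(B-big-pt) on the cover, from the shape**: `H` and `hρ` of `tres5kd_point` at every closed
point of both charts of `F_E = mgcF A K₁ (M p)`, for `L_E = tres5cL E (M p) y`. -/
theorem tres5bip_split_of_shape (hp : p.Prime) (hpπ : π ∣ ((p : ℕ) : ↥(mgcA A K₁)))
    {ζ : ↥(mgcA A K₁)} (hζ : IsPrimitiveRoot ζ p) (hlam : π ∣ ζ - 1)
    {u₀ : ↥(mgcF A K₁ (M * p))}
    (hshape : ∀ i, ∃ g : ↥(mgcF A K₁ (M * p)), g ≠ 0 ∧ ∃ y ∈ atO π (mgcT A K₁ (M * p)) i,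
      u₀ / g ^ p - 1 =
        (algebraMap ↥(mgcA A K₁) ↥(mgcF A K₁ (M * p)) ζ - 1) ^ p *
          algebraMap ↥(mgcA A K₁) ↥(mgcF A K₁ (M * p)) π * y)
    (y : LaurentSeries NfQb) {yE : LaurentSeries ↥(mgcE A K₁)}
    (hyE : coeffMap (algebraMap ↥(mgcE A K₁) NfQb) yE = y)
    (hy : yE ^ p = (u₀ : LaurentSeries ↥(mgcE A K₁)))
    (hw : ∀ b : ↥(mgcF A K₁ (M * p)), b ^ p ≠ u₀)
    (ρ : ↥(tres5cL (mgcE A K₁) (M * p) y) ≃ₐ[↥(mgcF A K₁ (M * p))]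
      ↥(tres5cL (mgcE A K₁) (M * p) y))
    (hρ : ρ (tres5cGenL (mgcE A K₁) (M * p) y hyE) =
      algebraMap ↥(mgcF A K₁ (M * p)) ↥(tres5cL (mgcE A K₁) (M * p) y)
        (algebraMap ↥(mgcA A K₁) ↥(mgcF A K₁ (M * p)) ζ) *
        tres5cGenL (mgcE A K₁) (M * p) y hyE) :
    (∀ 𝔫E : AtPt (F := ↥(mgcF A K₁ (M * p))) π (mgcT A K₁ (M * p)),
      ∀ [IsLocalRing ↥(atLoc 𝔫E)] [IsFractionRing ↥(atLoc 𝔫E) ↥(mgcF A K₁ (M * p))]
        [IsIntegrallyClosed ↥(atLoc 𝔫E)]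
        [Algebra ↥(atLoc 𝔫E) ↥(tres5cL (mgcE A K₁) (M * p) y)]
        [IsScalarTower ↥(atLoc 𝔫E) ↥(mgcF A K₁ (M * p)) ↥(tres5cL (mgcE A K₁) (M * p) y)],
      ∃ (z : ↥(tres5cL (mgcE A K₁) (M * p) y)) (P : (↥(atLoc 𝔫E))[X])
        (c : ZMod p → ↥(atLoc 𝔫E)),
        haveI : Fact p.Prime := ⟨hp⟩
        Tres5eSplit ↥(mgcF A K₁ (M * p)) z P c ∧
        ∀ i : ZMod p, ∃ b ∈ tres5eMax ↥(atLoc 𝔫E) z (c i),
          ρ z = algebraMap ↥(atLoc 𝔫E) ↥(tres5cL (mgcE A K₁) (M * p) y) (c (i + 1)) +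
            (b : ↥(tres5cL (mgcE A K₁) (M * p) y))) ∧
    (∀ 𝔫E : AtPt (F := ↥(mgcF A K₁ (M * p))) π (mgcT A K₁ (M * p))⁻¹,
      ∀ [IsLocalRing ↥(atLoc 𝔫E)] [IsFractionRing ↥(atLoc 𝔫E) ↥(mgcF A K₁ (M * p))]
        [IsIntegrallyClosed ↥(atLoc 𝔫E)]
        [Algebra ↥(atLoc 𝔫E) ↥(tres5cL (mgcE A K₁) (M * p) y)]
        [IsScalarTower ↥(atLoc 𝔫E) ↥(mgcF A K₁ (M * p)) ↥(tres5cL (mgcE A K₁) (M * p) y)],
      ∃ (z : ↥(tres5cL (mgcE A K₁) (M * p) y)) (P : (↥(atLoc 𝔫E))[X])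
        (c : ZMod p → ↥(atLoc 𝔫E)),
        haveI : Fact p.Prime := ⟨hp⟩
        Tres5eSplit ↥(mgcF A K₁ (M * p)) z P c ∧
        ∀ i : ZMod p, ∃ b ∈ tres5eMax ↥(atLoc 𝔫E) z (c i),
          ρ z = algebraMap ↥(atLoc 𝔫E) ↥(tres5cL (mgcE A K₁) (M * p) y) (c (i + 1)) +
            (b : ↥(tres5cL (mgcE A K₁) (M * p) y))) := by
  haveI : Fact p.Prime := ⟨hp⟩
  haveI hfd := mgc_finiteDimensional A K₁ (M * p)
  haveI hfd' : FiniteDimensional (↥(mgcE A K₁))⟮(mgcT A K₁ (M * p))⁻¹⟯ ↥(mgcF A K₁ (M * p)) :=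
    tsg_finiteDimensional_of_eq (zch_adjoin_inv (mgcT A K₁ (M * p)))
  have hY : (tres5cGenL (mgcE A K₁) (M * p) y hyE) ^ p =
      algebraMap ↥(mgcF A K₁ (M * p)) ↥(tres5cL (mgcE A K₁) (M * p) y) u₀ := Subtype.ext hy
  have htop := tres5cL_adjoin_gen (mgcE A K₁) (M * p) y hyE
  refine ⟨fun 𝔫E _ _ _ _ _ => ?_, fun 𝔫E _ _ _ _ _ => ?_⟩
  · exact tres5bip_of_shape (A₀ := ↥(mgcA A K₁)) (E := ↥(mgcE A K₁)) 𝔫E p hpπ hζ hlam
      (hshape (Sum.inl 𝔫E)) hY htop hw ρ hρ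
  · exact tres5bip_of_shape (A₀ := ↥(mgcA A K₁)) (E := ↥(mgcE A K₁)) 𝔫E p hpπ hζ hlam
      (hshape (Sum.inr 𝔫E)) hY htop hw ρ hρ

end Conc

section ChartCoord

variable {K E : IntermediateField ℚ NfQb}

/-- the `E`-chart coordinate `j` is the image of the `K`-chart coordinate -/
theorem tres5bip_chart (N : ℕ) (h : K ≤ E) :
    tres5cBaseIncl N h (bgJ ↥K N) = bgJ ↥E N :=
  Subtype.ext (coeffMap_jqModC _)

/-- the same in the `mgc` vocabulary -/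
theorem tres5bip_chart_mgc (A : ValuationSubring Qb) (K₁ : IntermediateField ℚ Qb) (N : ℕ)
    (h : K ≤ mgcE A K₁) :
    tres5cBaseIncl N h (bgJ ↥K N) = mgcT A K₁ N :=
  Subtype.ext (coeffMap_jqModC _)

end ChartCoord

end Fermat.Agent.R38
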