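import Fermat.Agent.R38.TresCoverKum
import Fermat.Prelude.Def_ModularCurve_LaurentCoeff

/-!
# R38 TRES, (FAC-p), piece ASM-COV, part 1: the cover as a field (generic part)

Mathlib + `coeffMap` only.

## (A) Kummer theory of a `Tres5Kum`

`S : Tres5Kum F L V p` (`L = F(y)`, `y ^ p = w`, `w` not a `p`-th power, `ζ ∈ F`):

* `S.irreducible`, `S.isSplittingField`, `S.isGalois`;
* `S.deck : L ≃ₐ[F] L` with `S.deck_y : ρ y = ζ y`, `S.deck_pow : ρ ^ p = 1`,
  `S.deck_pow_y : ρ^m y = ζ^m y`, `S.exists_deck_pow` (every automorphism is a power of `ρ`),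
  `S.deck_fixed` (the fixed field of `ρ` is `F`);
* `S.W_deck_one : (W k).comap ρ = W (k + 1)`, `S.ord_deck`.

## (B) the Kummer extension inside an ambient field

`tres5cKum … : Tres5Kum F ↥F⟮y⟯ V p` for `y` in an ambient field `Ω ⊇ F`.

## (C) forms

`tres5cForm ι F₀ Fb′ hF : IntermediateField ↥F₀ (LaurentSeries E)`: the elements of `E((q))` whose
image under `coeffMap ι` (`ι : E →+* Ω`) lies in the subfield `Fb′` of `Ω((q))` — the `E`-form of
`Fb′`; `tres5cFormEmb`, `tres5cFormIncl`.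
-/

set_option autoImplicit false
set_option linter.style.haveILetI false
set_option linter.unusedSectionVars false

noncomputable section

open Polynomial IntermediateField

namespace Fermat.Agent.R38

/-! ### (A) Kummer theory of a `Tres5Kum` -/

namespace Tres5Kum

variable {F L : Type*} [Field F] [Field L] [Algebra F L] {V : ValuationSubring F} {p : ℕ}
  (S : Tres5Kum F L V p)

theorem irreducible : Irreducible (X ^ p - C S.w) :=
  X_pow_sub_C_irreducible_of_prime S.hp S.hw

include S in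
theorem primitiveRoots_nonempty : (primitiveRoots p F).Nonempty :=
  ⟨S.ζ, (mem_primitiveRoots S.hp.pos).2 S.hζ⟩

theorem isSplittingField : IsSplittingField F L (X ^ p - C S.w) := by
  haveI := S.finiteDimensional
  have h := isSplittingField_X_pow_sub_C_of_root_adjoin_eq_top (K := F) (L := L)
    (by rw [S.finrank_eq]; exact S.primitiveRoots_nonempty) (a := S.w) (α := S.y)
    (by rw [S.finrank_eq]; exact S.hy) S.htop
  rwa [S.finrank_eq] at h

include S in
theorem isGalois : IsGalois F L :=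
  haveI := S.isSplittingField
  isGalois_of_isSplittingField_X_pow_sub_C S.primitiveRoots_nonempty S.irreducible L

/-- the deck transformation `ρ`, `ρ y = ζ y` -/
def deck : L ≃ₐ[F] L :=
  haveI := S.isSplittingField
  haveI : NeZero p := ⟨S.hp.ne_zero⟩
  (autEquivZmod S.irreducible L S.hζ).symm (Multiplicative.ofAdd 1)

theorem deck_y : S.deck S.y = algebraMap F L S.ζ * S.y := by
  haveI := S.isSplittingField
  haveI : NeZero p := ⟨S.hp.ne_zero⟩
  have h := autEquivZmod_symm_apply_natCast S.irreducible L S.hy S.hζ 1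
  rw [Nat.cast_one, pow_one, Algebra.smul_def] at h
  exact h

theorem deck_pow_y (m : ℕ) : (S.deck ^ m) S.y = algebraMap F L (S.ζ ^ m) * S.y := by
  induction m with
  | zero => simp
  | succ m ih =>
    rw [pow_succ', AlgEquiv.mul_apply, ih, map_mul, AlgEquiv.commutes, S.deck_y, pow_succ,
      map_mul]
    ring

/-- an automorphism is determined by its value at `y` -/
theorem aut_ext {σ τ : L ≃ₐ[F] L} (h : σ S.y = τ S.y) : σ = τ := by
  have hy : IsAlgebraic F S.y := S.isIntegral_y.isAlgebraic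
  have htop : Algebra.adjoin F ({S.y} : Set L) = ⊤ :=
    (IntermediateField.adjoin_simple_eq_top_iff_of_isAlgebraic hy).1 S.htop
  have h1 : (σ : L →ₐ[F] L) = (τ : L →ₐ[F] L) := by
    apply AlgHom.ext_of_adjoin_eq_top htop
    intro x hx
    rw [Set.mem_singleton_iff] at hx
    subst hx
    exact h
  ext x
  exact DFunLike.congr_fun h1 x

theorem deck_pow : S.deck ^ p = 1 := by
  apply S.aut_ext
  rw [S.deck_pow_y, S.hζ.pow_eq_one, map_one, one_mul, AlgEquiv.one_apply]

/-- every automorphism is a power of the deck transformation -/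
theorem exists_deck_pow (σ : L ≃ₐ[F] L) : ∃ m : ℕ, m < p ∧ σ = S.deck ^ m := by
  haveI : NeZero p := ⟨S.hp.ne_zero⟩
  -- `σ y` is a root of `X ^ p - w`, so `σ y = ζ ^ m y`
  have hy0 : S.y ≠ 0 := by
    intro h0
    have h1 := S.hy
    rw [h0, zero_pow S.hp.ne_zero] at h1
    exact S.hw 0 (by
      rw [zero_pow S.hp.ne_zero]
      exact (FaithfulSMul.algebraMap_injective F L) (by rw [map_zero]; exact h1))
  have h1 : (σ S.y / S.y) ^ p = 1 := by
    rw [div_pow, ← map_pow, S.hy, AlgEquiv.commutes, div_self]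
    rw [← S.hy]
    exact pow_ne_zero p hy0
  have hζL : IsPrimitiveRoot (algebraMap F L S.ζ) p :=
    S.hζ.map_of_injective (FaithfulSMul.algebraMap_injective F L)
  obtain ⟨m, hm, hmeq⟩ := hζL.eq_pow_of_pow_eq_one h1
  refine ⟨m, hm, S.aut_ext ?_⟩
  rw [S.deck_pow_y, map_pow, hmeq, div_mul_cancel₀ _ hy0]

/-- the fixed field of the deck transformation is `F` -/
theorem deck_fixed {x : L} (hx : S.deck x = x) : ∃ a : F, algebraMap F L a = x := by
  haveI := S.isGalois
  haveI := S.finiteDimensional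
  have h1 : ∀ m : ℕ, (S.deck ^ m) x = x := by
    intro m
    induction m with
    | zero => simp
    | succ m ih => rw [pow_succ, AlgEquiv.mul_apply, hx, ih]
  have h2 : x ∈ IntermediateField.fixedField (⊤ : Subgroup (L ≃ₐ[F] L)) := by
    rintro ⟨σ, -⟩
    obtain ⟨m, -, rfl⟩ := S.exists_deck_pow σ
    exact h1 m
  rw [IsGalois.fixedField_top, IntermediateField.mem_bot] at h2
  exact h2

theorem deck_ne_one : S.deck ≠ 1 := by
  intro h
  have h1 := S.deck_y
  rw [h, AlgEquiv.one_apply] at h1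
  have hy0 : S.y ≠ 0 := by
    intro h0
    have h2 := S.hy
    rw [h0, zero_pow S.hp.ne_zero] at h2
    exact S.hw 0 (by
      rw [zero_pow S.hp.ne_zero]
      exact (FaithfulSMul.algebraMap_injective F L) (by rw [map_zero]; exact h2))
  have h3 : algebraMap F L S.ζ = 1 := by
    have h4 : (algebraMap F L S.ζ - 1) * S.y = 0 := by
      rw [sub_mul, one_mul, ← h1, sub_self]
    rcases mul_eq_zero.1 h4 with h5 | h5
    · exact sub_eq_zero.1 h5
    · exact absurd h5 hy0
  exact S.hζ1 ((FaithfulSMul.algebraMap_injective F L) (by rw [h3, map_one]))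

/-- the deck transformation shifts the sheets -/
theorem W_deck_one (k : ℕ) : (S.W k).comap (S.deck : L →+* L) = S.W (k + 1) := by
  have h := S.W_deck (S.deck : L →ₐ[F] L) 1 (by rw [pow_one]; exact S.deck_y) k
  exact h

end Tres5Kum

/-! ### (B) the Kummer extension inside an ambient field -/

section Ambient

variable {F Ω : Type*} [Field F] [Field Ω] [Algebra F Ω]

/-- the generator of `F⟮y⟯` generates -/
theorem tres5c_adjoin_gen (y : Ω) :
    IntermediateField.adjoin F {AdjoinSimple.gen F y} = (⊤ : IntermediateField F F⟮y⟯) := by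
  apply IntermediateField.map_injective F⟮y⟯.val
  rw [IntermediateField.adjoin_map, Set.image_singleton, ← AlgHom.fieldRange_eq_map,
    IntermediateField.fieldRange_val]
  rfl

/-- The Kummer cover `F(y) ⊆ Ω`, `y ^ p = w`, split at `V` (hypothesis (H1)), as a
`Tres5Kum`. -/
def tres5cKum (V : ValuationSubring F) {p : ℕ} (hp : p.Prime) {ζ : F}
    (hζ : IsPrimitiveRoot ζ p) {π : F} (hπ : π ∈ V.nonunits) (hπ0 : π ≠ 0)
    (hunif : ∀ x : F, x ≠ 0 → ∃ n : ℤ, V.valuation (x / π ^ n) = 1)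
    {w g : F} (hg : g ≠ 0)
    (hsplit : V.valuation (w / g ^ p - 1) ≤ V.valuation ((ζ - 1) ^ p * π))
    {y : Ω} (hy : y ^ p = algebraMap F Ω w) (hw : ∀ c : F, c ^ p ≠ w) :
    Tres5Kum F ↥F⟮y⟯ V p where
  hp := hp
  ζ := ζ
  hζ := hζ
  π := π
  hπ := hπ
  hπ0 := hπ0
  hunif := hunif
  w := w
  g := g
  hg := hg
  hsplit := hsplit
  y := AdjoinSimple.gen F y
  hy := Subtype.ext hy
  htop := tres5c_adjoin_gen y
  hw := hw

end Ambient

/-! ### (C) forms -/

section Form

open ModularCurve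

variable {E Ω : Type*} [Field E] [Field Ω] (ι : E →+* Ω)

/-- The `E`-form of a subfield `Fb′` of `Ω((q))`: the Laurent series with coefficients in `E`
whose image in `Ω((q))` lies in `Fb′`; an intermediate field of `E((q)) / F₀` for every
intermediate field `F₀` of `E((q)) / E` which is mapped into `Fb′`. -/
def tres5cForm (F₀ : IntermediateField E (LaurentSeries E)) (Fb' : Subfield (LaurentSeries Ω))
    (hF : ∀ x ∈ F₀, coeffMap ι x ∈ Fb') : IntermediateField ↥F₀ (LaurentSeries E) where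
  carrier := {f | coeffMap ι f ∈ Fb'}
  mul_mem' {a b} ha hb := by
    show coeffMap ι (a * b) ∈ Fb'
    rw [map_mul]
    exact Fb'.mul_mem ha hb
  one_mem' := by
    show coeffMap ι 1 ∈ Fb'
    rw [map_one]
    exact Fb'.one_mem
  add_mem' {a b} ha hb := by
    show coeffMap ι (a + b) ∈ Fb'
    rw [map_add]
    exact Fb'.add_mem ha hb
  zero_mem' := by
    show coeffMap ι 0 ∈ Fb'
    rw [map_zero]
    exact Fb'.zero_mem
  algebraMap_mem' x := hF x x.2
  inv_mem' a ha := by
    show coeffMap ι a⁻¹ ∈ Fb'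
    rw [map_inv₀]
    exact Fb'.inv_mem ha

variable {ι} {F₀ : IntermediateField E (LaurentSeries E)} {Fb' : Subfield (LaurentSeries Ω)}
  {hF : ∀ x ∈ F₀, coeffMap ι x ∈ Fb'}

theorem mem_tres5cForm {f : LaurentSeries E} :
    f ∈ tres5cForm ι F₀ Fb' hF ↔ coeffMap ι f ∈ Fb' := Iff.rfl

theorem tres5cForm_base_mem (x : ↥F₀) : (x : LaurentSeries E) ∈ tres5cForm ι F₀ Fb' hF :=
  hF x x.2

/-- the embedding of the `E`-form into `Fb′` -/
def tres5cFormEmb (ι : E →+* Ω) (F₀ : IntermediateField E (LaurentSeries E))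
    (Fb' : Subfield (LaurentSeries Ω)) (hF : ∀ x ∈ F₀, coeffMap ι x ∈ Fb') :
    ↥(tres5cForm ι F₀ Fb' hF) →+* ↥Fb' where
  toFun f := ⟨coeffMap ι (f : LaurentSeries E), f.2⟩
  map_one' := Subtype.ext (map_one (coeffMap ι))
  map_mul' _ _ := Subtype.ext (map_mul (coeffMap ι) _ _)
  map_zero' := Subtype.ext (map_zero (coeffMap ι))
  map_add' _ _ := Subtype.ext (map_add (coeffMap ι) _ _)

@[simp]
theorem tres5cFormEmb_coe (f : ↥(tres5cForm ι F₀ Fb' hF)) :
    ((tres5cFormEmb ι F₀ Fb' hF f : ↥Fb') : LaurentSeries Ω)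
      = coeffMap ι (f : LaurentSeries E) := rfl

theorem tres5cFormEmb_injective : Function.Injective (tres5cFormEmb ι F₀ Fb' hF) :=
  (tres5cFormEmb ι F₀ Fb' hF).injective

theorem tres5cFormEmb_algebraMap (x : ↥F₀) :
    ((tres5cFormEmb ι F₀ Fb' hF (algebraMap ↥F₀ ↥(tres5cForm ι F₀ Fb' hF) x) : ↥Fb') :
      LaurentSeries Ω) = coeffMap ι (x : LaurentSeries E) := rfl

/-- every element of `Fb′` with coefficients in the image of `E` comes from the `E`-form -/
theorem tres5cForm_exists_of_coeff {f : LaurentSeries Ω} (hf : f ∈ Fb')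
    (hc : ∀ n : ℤ, ∃ c : E, ι c = f.coeff n) :
    ∃ g : ↥(tres5cForm ι F₀ Fb' hF), coeffMap ι (g : LaurentSeries E) = f := by
  classical
  choose c hc using hc
  have hsupp : (Function.support c).IsPWO := by
    refine f.isPWO_support.mono fun n hn => ?_
    rw [Function.mem_support] at hn
    rw [HahnSeries.mem_support]
    intro h0
    apply hn
    apply ι.injective
    rw [hc n, map_zero]
    exact h0
  let g : LaurentSeries E := ⟨c, hsupp⟩
  have hg : coeffMap ι g = f := by
    ext n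
    rw [coeffMap_coeff]
    exact hc n
  exact ⟨⟨g, by rw [mem_tres5cForm, hg]; exact hf⟩, hg⟩

end Form

section FormIncl

open ModularCurve

variable {K E Ω : Type*} [Field K] [Field E] [Field Ω] (κ : K →+* E) (ι : E →+* Ω)
  {F₀ : IntermediateField K (LaurentSeries K)} {F₁ : IntermediateField E (LaurentSeries E)}
  {Fb' : Subfield (LaurentSeries Ω)}
  {hF₀ : ∀ x ∈ F₀, coeffMap (ι.comp κ) x ∈ Fb'} {hF₁ : ∀ x ∈ F₁, coeffMap ι x ∈ Fb'}

/-- the transition map from the `K`-form to the `E`-form, `K ⊆ E` -/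
def tres5cFormIncl (hF₀ : ∀ x ∈ F₀, coeffMap (ι.comp κ) x ∈ Fb')
    (hF₁ : ∀ x ∈ F₁, coeffMap ι x ∈ Fb') :
    ↥(tres5cForm (ι.comp κ) F₀ Fb' hF₀) →+* ↥(tres5cForm ι F₁ Fb' hF₁) where
  toFun f := ⟨coeffMap κ (f : LaurentSeries K), by
    rw [mem_tres5cForm, coeffMap_coeffMap]
    exact f.2⟩
  map_one' := Subtype.ext (map_one (coeffMap κ))
  map_mul' _ _ := Subtype.ext (map_mul (coeffMap κ) _ _)
  map_zero' := Subtype.ext (map_zero (coeffMap κ))
  map_add' _ _ := Subtype.ext (map_add (coeffMap κ) _ _)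

@[simp]
theorem tres5cFormIncl_coe (f : ↥(tres5cForm (ι.comp κ) F₀ Fb' hF₀)) :
    ((tres5cFormIncl κ ι hF₀ hF₁ f : ↥(tres5cForm ι F₁ Fb' hF₁)) : LaurentSeries E)
      = coeffMap κ (f : LaurentSeries K) := rfl

theorem tres5cFormEmb_incl (f : ↥(tres5cForm (ι.comp κ) F₀ Fb' hF₀)) :
    tres5cFormEmb ι F₁ Fb' hF₁ (tres5cFormIncl κ ι hF₀ hF₁ f)
      = tres5cFormEmb (ι.comp κ) F₀ Fb' hF₀ f :=
  Subtype.ext (coeffMap_coeffMap ι κ _)

end FormIncl

end Fermat.Agent.R38
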