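/-
ROW 38, TRES, piece FAC-COV [T5 (b)] (helper78), part 1: a localisation which is a discrete
valuation ring.  Pure algebra (Mathlib only).

`L` a field, `Λ ⊆ L` a subring, `φ : Λ → κ` a ring homomorphism to a field, `π ∈ ker φ`, `π ≠ 0`,
* (E)  an element `E ∈ Λ`, `φ E ≠ 0`, with `ker φ · E ⊆ π Λ`   ("`ker φ = π Λ` locally at `ker φ`");
* (fr) every `f ∈ L^×` divides a power of `π` in `Λ`:  `f a = π ^ n`, `a ∈ Λ`.
Then the localisation `W = Λ_{ker φ} = {f | ∃ b ∈ Λ, φ b ≠ 0, f b ∈ Λ}` is a valuation subring of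
`L` with uniformizer `π`:
* `Tres5Loc.normal_form` : every `f ≠ 0` is `π ^ n · a / b`, `n ∈ ℤ`, `φ a ≠ 0`, `φ b ≠ 0`;
* `Tres5Loc.val`         : the valuation subring;
* `Tres5Loc.unif`        : `∀ f ≠ 0, ∃ n : ℤ, W.valuation (f / π ^ n) = 1`;
* `Tres5Loc.mem_nonunits_iff`, `Tres5Loc.ker_mem_nonunits`, `Tres5Loc.unit_of_phi_ne`;
* `Tres5Loc.residue`     : `f ∈ W` is congruent modulo `𝔪_W` to `a₀ / b₀` whenever `a₀, b₀ ∈ Λ` have
  the `φ`-values of a numerator and a denominator of `f`;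
* `Tres5Loc.eq_of_le`    : a valuation subring `W′ ⊇ W` with `π⁻¹ ∉ W′` is `W`.
-/
import Mathlib

set_option autoImplicit false

namespace Fermat.Agent.R38

/-- A subring `Λ` of a field `L` with a homomorphism `φ` to a field `κ` whose kernel is generated
by `π` locally at `ker φ`, such that `L = Λ[1/π]`. -/
structure Tres5Loc (L : Type*) [Field L] (κ : Type*) [Field κ] where
  /-- the order -/
  Λ : Subring L
  /-- the point -/
  φ : Λ →+* κ
  /-- the uniformizer -/
  π : Λ
  hπ0 : (π : L) ≠ 0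
  hφπ : φ π = 0
  /-- a local generator of the complement -/
  E : Λ
  hE : φ E ≠ 0
  hker : ∀ f : Λ, φ f = 0 → ∃ a : Λ, f * E = π * a
  hfrac : ∀ f : L, f ≠ 0 → ∃ (a : Λ) (n : ℕ), f * (a : L) = (π : L) ^ n

namespace Tres5Loc

variable {L : Type*} [Field L] {κ : Type*} [Field κ] (D : Tres5Loc L κ)

theorem pi_ne_zero : D.π ≠ 0 := fun h => D.hπ0 (by rw [h]; rfl)

/-- boundedness of the order -/
theorem le_of_mul_eq {f c a b : D.Λ} {ν n : ℕ} (hc : f * c = D.π ^ ν)
    (hb : D.φ b ≠ 0) (h : f * b = D.π ^ n * a) : n ≤ ν := by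
  by_contra hlt
  obtain ⟨j, rfl⟩ := Nat.exists_eq_add_of_lt (not_le.mp hlt)
  have h1 : D.π ^ ν * b = D.π ^ ν * (D.π ^ (j + 1) * (c * a)) := by
    calc D.π ^ ν * b = c * (f * b) := by rw [← hc]; ring
      _ = c * (D.π ^ (ν + j + 1) * a) := by rw [h]
      _ = D.π ^ ν * (D.π ^ (j + 1) * (c * a)) := by ring
  have h2 : b = D.π ^ (j + 1) * (c * a) :=
    mul_left_cancel₀ (pow_ne_zero ν D.pi_ne_zero) h1
  apply hb
  rw [h2, map_mul, map_pow, D.hφπ, zero_pow (Nat.succ_ne_zero j), zero_mul]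

/-- the normal form of the nonzero elements of `Λ` -/
theorem normal_form_order {f : D.Λ} (hf : f ≠ 0) :
    ∃ (n : ℕ) (a b : D.Λ), D.φ a ≠ 0 ∧ D.φ b ≠ 0 ∧ f * b = D.π ^ n * a := by
  have hfL : (f : L) ≠ 0 := fun h => hf (Subtype.ext h)
  obtain ⟨c, ν, hc⟩ := D.hfrac (f : L) hfL
  have hc' : f * c = D.π ^ ν := Subtype.ext (by simpa using hc)
  have key : ∀ k n : ℕ, ∀ a b : D.Λ, ν - n = k → D.φ b ≠ 0 → f * b = D.π ^ n * a →
      ∃ (n' : ℕ) (a' b' : D.Λ), D.φ a' ≠ 0 ∧ D.φ b' ≠ 0 ∧ f * b' = D.π ^ n' * a' := by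
    intro k
    induction k with
    | zero =>
      intro n a b hk hb h
      by_cases ha : D.φ a = 0
      · obtain ⟨a₁, ha₁⟩ := D.hker a ha
        have hbE : D.φ (b * D.E) ≠ 0 := by
          rw [map_mul]
          exact mul_ne_zero hb D.hE
        have h' : f * (b * D.E) = D.π ^ (n + 1) * a₁ := by
          calc f * (b * D.E) = (f * b) * D.E := by ring
            _ = D.π ^ n * (a * D.E) := by rw [h]; ring
            _ = D.π ^ (n + 1) * a₁ := by rw [ha₁]; ring
        have h1 := D.le_of_mul_eq hc' hb h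
        have h2 := D.le_of_mul_eq hc' hbE h'
        omega
      · exact ⟨n, a, b, ha, hb, h⟩
    | succ k ih =>
      intro n a b hk hb h
      by_cases ha : D.φ a = 0
      · obtain ⟨a₁, ha₁⟩ := D.hker a ha
        have hbE : D.φ (b * D.E) ≠ 0 := by
          rw [map_mul]
          exact mul_ne_zero hb D.hE
        have h' : f * (b * D.E) = D.π ^ (n + 1) * a₁ := by
          calc f * (b * D.E) = (f * b) * D.E := by ring
            _ = D.π ^ n * (a * D.E) := by rw [h]; ring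
            _ = D.π ^ (n + 1) * a₁ := by rw [ha₁]; ring
        exact ih (n + 1) a₁ (b * D.E) (by omega) hbE h'
      · exact ⟨n, a, b, ha, hb, h⟩
  exact key (ν - 0) 0 f 1 rfl (by rw [map_one]; exact one_ne_zero) (by ring)

/-- the normal form of the nonzero elements of `L` -/
theorem normal_form {f : L} (hf : f ≠ 0) :
    ∃ (n : ℤ) (a b : D.Λ), D.φ a ≠ 0 ∧ D.φ b ≠ 0 ∧ f * (b : L) = (D.π : L) ^ n * (a : L) := by
  obtain ⟨c, m, hc⟩ := D.hfrac f⁻¹ (inv_ne_zero hf)
  have hc0 : c ≠ 0 := by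
    rintro rfl
    have : (D.π : L) ^ m = 0 := by rw [← hc]; simp
    exact pow_ne_zero m D.hπ0 this
  obtain ⟨n, a, b, ha, hb, h⟩ := D.normal_form_order hc0
  have hL : (c : L) * (b : L) = (D.π : L) ^ n * (a : L) := by
    have := congrArg (Subtype.val : D.Λ → L) h
    simpa using this
  have hfc : (c : L) = f * (D.π : L) ^ m := by
    rw [← hc]
    field_simp
  refine ⟨(n : ℤ) - m, a, b, ha, hb, ?_⟩
  rw [zpow_sub₀ D.hπ0, zpow_natCast, zpow_natCast]
  have hm : (D.π : L) ^ m ≠ 0 := pow_ne_zero m D.hπ0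
  rw [hfc] at hL
  field_simp
  linear_combination hL

/-- the localisation of `Λ` at `ker φ`, as a subring of `L` -/
def ring : Subring L where
  carrier := {f | ∃ b : D.Λ, D.φ b ≠ 0 ∧ f * (b : L) ∈ D.Λ}
  mul_mem' := by
    rintro f f' ⟨b, hb, h⟩ ⟨b', hb', h'⟩
    refine ⟨b * b', by rw [map_mul]; exact mul_ne_zero hb hb', ?_⟩
    have : f * f' * ((b * b' : D.Λ) : L) = (f * b) * (f' * b') := by push_cast; ring
    rw [this]
    exact D.Λ.mul_mem h h'
  one_mem' := ⟨1, by rw [map_one]; exact one_ne_zero, by simp [D.Λ.one_mem]⟩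
  add_mem' := by
    rintro f f' ⟨b, hb, h⟩ ⟨b', hb', h'⟩
    refine ⟨b * b', by rw [map_mul]; exact mul_ne_zero hb hb', ?_⟩
    have : (f + f') * ((b * b' : D.Λ) : L) = (f * b) * b' + (f' * b') * b := by push_cast; ring
    rw [this]
    exact D.Λ.add_mem (D.Λ.mul_mem h b'.2) (D.Λ.mul_mem h' b.2)
  zero_mem' := ⟨1, by rw [map_one]; exact one_ne_zero, by simp [D.Λ.zero_mem]⟩
  neg_mem' := by
    rintro f ⟨b, hb, h⟩
    refine ⟨b, hb, ?_⟩
    rw [neg_mul]
    exact D.Λ.neg_mem h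

theorem mem_ring_iff {f : L} : f ∈ D.ring ↔ ∃ b : D.Λ, D.φ b ≠ 0 ∧ f * (b : L) ∈ D.Λ := Iff.rfl

/-- the valuation subring `Λ_{ker φ}` -/
def val : ValuationSubring L where
  toSubring := D.ring
  mem_or_inv_mem' := by
    intro f
    by_cases hf : f = 0
    · left
      rw [hf]
      exact D.ring.zero_mem
    obtain ⟨n, a, b, ha, hb, h⟩ := D.normal_form hf
    rcases le_total 0 n with hn | hn
    · left
      refine ⟨b, hb, ?_⟩
      rw [h]
      obtain ⟨m, rfl⟩ := Int.eq_ofNat_of_zero_le hn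
      rw [zpow_natCast]
      exact D.Λ.mul_mem (D.Λ.pow_mem D.π.2 m) a.2
    · right
      refine ⟨a, ha, ?_⟩
      obtain ⟨m, hm⟩ := Int.exists_eq_neg_ofNat hn
      have hb0 : (b : L) ≠ 0 := by
        intro hb0
        apply hb
        have : b = 0 := Subtype.ext hb0
        rw [this, map_zero]
      have e : f⁻¹ * (a : L) = (D.π : L) ^ m * (b : L) := by
        rw [hm, zpow_neg, zpow_natCast] at h
        have hm0 : (D.π : L) ^ m ≠ 0 := pow_ne_zero m D.hπ0
        field_simp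
        field_simp at h
        linear_combination -h
      rw [e]
      exact D.Λ.mul_mem (D.Λ.pow_mem D.π.2 m) b.2

theorem mem_val_iff {f : L} : f ∈ D.val ↔ ∃ b : D.Λ, D.φ b ≠ 0 ∧ f * (b : L) ∈ D.Λ := Iff.rfl

theorem le_val {f : L} (hf : f ∈ D.Λ) : f ∈ D.val :=
  ⟨1, by rw [map_one]; exact one_ne_zero, by simpa using hf⟩

theorem coe_ne_zero {b : D.Λ} (hb : D.φ b ≠ 0) : (b : L) ≠ 0 := by
  intro hb0
  apply hb
  have : b = 0 := Subtype.ext hb0
  rw [this, map_zero]

/-- the elements of `Λ` outside `ker φ` are units of `W` -/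
theorem inv_mem_val {b : D.Λ} (hb : D.φ b ≠ 0) : (b : L)⁻¹ ∈ D.val :=
  ⟨b, hb, by rw [inv_mul_cancel₀ (D.coe_ne_zero hb)]; exact D.Λ.one_mem⟩

/-- `π` is not a unit of `W` -/
theorem pi_inv_not_mem : (D.π : L)⁻¹ ∉ D.val := by
  rintro ⟨b, hb, h⟩
  apply hb
  have e : b = D.π * ⟨(D.π : L)⁻¹ * (b : L), h⟩ := by
    apply Subtype.ext
    push_cast
    rw [← mul_assoc, mul_inv_cancel₀ D.hπ0, one_mul]
  rw [e, map_mul, D.hφπ, zero_mul]

theorem pi_mem_nonunits : (D.π : L) ∈ D.val.nonunits := by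
  rw [ValuationSubring.mem_nonunits_iff]
  have h1 : D.val.valuation (D.π : L) ≤ 1 :=
    (ValuationSubring.valuation_le_one_iff _ _).2 (D.le_val D.π.2)
  rcases lt_or_eq_of_le h1 with h | h
  · exact h
  · exfalso
    apply D.pi_inv_not_mem
    rw [← ValuationSubring.valuation_le_one_iff, map_inv₀, h, inv_one]

/-- units of `W` in terms of the valuation -/
theorem valuation_eq_one_iff {f : L} (hf : f ≠ 0) :
    D.val.valuation f = 1 ↔ f ∈ D.val ∧ f⁻¹ ∈ D.val := by
  constructor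
  · intro h
    constructor
    · rw [← ValuationSubring.valuation_le_one_iff, h]
    · rw [← ValuationSubring.valuation_le_one_iff, map_inv₀, h, inv_one]
  · rintro ⟨h1, h2⟩
    rw [← ValuationSubring.valuation_le_one_iff] at h1 h2
    have h0 : D.val.valuation f ≠ 0 := (Valuation.ne_zero_iff _).2 hf
    rw [map_inv₀, inv_le_one₀ (zero_lt_iff.mpr h0)] at h2
    exact le_antisymm h1 h2

/-- **`π` is a uniformizer of `W`.** -/
theorem unif {f : L} (hf : f ≠ 0) : ∃ n : ℤ, D.val.valuation (f / (D.π : L) ^ n) = 1 := by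
  obtain ⟨n, a, b, ha, hb, h⟩ := D.normal_form hf
  have ha0 := D.coe_ne_zero ha
  have hb0 := D.coe_ne_zero hb
  have hπn : (D.π : L) ^ n ≠ 0 := zpow_ne_zero n D.hπ0
  have e : f / (D.π : L) ^ n = (a : L) * (b : L)⁻¹ := by
    field_simp
    linear_combination h
  refine ⟨n, ?_⟩
  rw [e, D.valuation_eq_one_iff (mul_ne_zero ha0 (inv_ne_zero hb0))]
  constructor
  · exact D.val.mul_mem _ _ (D.le_val a.2) (D.inv_mem_val hb)
  · rw [mul_inv, inv_inv]
    exact D.val.mul_mem _ _ (D.inv_mem_val ha) (D.le_val b.2)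

/-- the elements of `ker φ` are multiples of `π` in `W` -/
theorem ker_div_pi_mem {a : D.Λ} (ha : D.φ a = 0) : (a : L) / (D.π : L) ∈ D.val := by
  obtain ⟨a₁, ha₁⟩ := D.hker a ha
  refine ⟨D.E, D.hE, ?_⟩
  have h := congrArg (Subtype.val : D.Λ → L) ha₁
  push_cast at h
  have e : (a : L) / (D.π : L) * (D.E : L) = (a₁ : L) := by
    have := D.hπ0
    field_simp
    linear_combination h
  rw [e]
  exact a₁.2

/-- `𝔪_W` is an ideal of `W` (membership form) -/
theorem mul_mem_nonunits {x y : L} (hx : x ∈ D.val) (hy : y ∈ D.val.nonunits) :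
    x * y ∈ D.val.nonunits := by
  rw [ValuationSubring.mem_nonunits_iff] at hy ⊢
  rw [← ValuationSubring.valuation_le_one_iff] at hx
  rw [map_mul]
  calc D.val.valuation x * D.val.valuation y ≤ 1 * D.val.valuation y := by gcongr
    _ = D.val.valuation y := one_mul _
    _ < 1 := hy

/-- the elements of `ker φ` are non-units of `W` -/
theorem ker_mem_nonunits {a : D.Λ} (ha : D.φ a = 0) : (a : L) ∈ D.val.nonunits := by
  have h := D.mul_mem_nonunits (D.ker_div_pi_mem ha) D.pi_mem_nonunits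
  rwa [div_mul_cancel₀ _ D.hπ0] at h

/-- the elements of `Λ` outside `ker φ` are units of `W` -/
theorem valuation_eq_one_of_phi_ne {b : D.Λ} (hb : D.φ b ≠ 0) : D.val.valuation (b : L) = 1 := by
  rw [D.valuation_eq_one_iff (D.coe_ne_zero hb)]
  exact ⟨D.le_val b.2, D.inv_mem_val hb⟩

/-- the maximal ideal of `W` -/
theorem mem_nonunits_iff {f : L} :
    f ∈ D.val.nonunits ↔ ∃ a b : D.Λ, D.φ a = 0 ∧ D.φ b ≠ 0 ∧ f * (b : L) = (a : L) := by
  constructor
  · intro hf
    have hfW : f ∈ D.val := by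
      rw [← ValuationSubring.valuation_le_one_iff]
      exact le_of_lt ((ValuationSubring.mem_nonunits_iff _).1 hf)
    obtain ⟨b, hb, h⟩ := hfW
    refine ⟨⟨f * b, h⟩, b, ?_, hb, rfl⟩
    by_contra ha
    have h1 := D.valuation_eq_one_of_phi_ne ha
    have h2 := D.valuation_eq_one_of_phi_ne hb
    rw [ValuationSubring.mem_nonunits_iff] at hf
    change D.val.valuation (f * (b : L)) = 1 at h1
    rw [map_mul, h2, mul_one] at h1
    rw [h1] at hf
    exact lt_irrefl _ hf
  · rintro ⟨a, b, ha, hb, h⟩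
    have hb0 := D.coe_ne_zero hb
    have e : f = (b : L)⁻¹ * (a : L) := by
      field_simp
      linear_combination h
    rw [e]
    exact D.mul_mem_nonunits (D.inv_mem_val hb) (D.ker_mem_nonunits ha)

/-- **The residue field of `W` is the image of `φ`**: an element `f = a / b` of `W` is congruent
modulo `𝔪_W` to `a₀ / b₀` whenever `φ a₀ = φ a`, `φ b₀ = φ b`. -/
theorem residue {f : L} {a b a₀ b₀ : D.Λ} (hb : D.φ b ≠ 0) (h : f * (b : L) = (a : L))
    (ha₀ : D.φ a₀ = D.φ a) (hb₀ : D.φ b₀ = D.φ b) :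
    f - (a₀ : L) / (b₀ : L) ∈ D.val.nonunits := by
  have hb₀' : D.φ b₀ ≠ 0 := by rw [hb₀]; exact hb
  rw [D.mem_nonunits_iff]
  refine ⟨a * b₀ - a₀ * b, b * b₀, ?_, ?_, ?_⟩
  · rw [map_sub, map_mul, map_mul, ha₀, hb₀]
    ring
  · rw [map_mul]
    exact mul_ne_zero hb hb₀'
  · have hb0 := D.coe_ne_zero hb₀'
    push_cast
    field_simp
    linear_combination (b₀ : L) * h

/-- a valuation subring containing `W` in which `π` is not invertible is `W` -/
theorem eq_of_le {W' : ValuationSubring L} (hle : ∀ f ∈ D.val, f ∈ W')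
    (hπ : (D.π : L)⁻¹ ∉ W') : W' = D.val := by
  apply le_antisymm
  · intro f hf
    by_contra hfW
    have hf0 : f ≠ 0 := by
      rintro rfl
      exact hfW D.val.zero_mem
    obtain ⟨n, hn⟩ := D.unif hf0
    have hπn : (D.π : L) ^ n ≠ 0 := zpow_ne_zero n D.hπ0
    have hu := (D.valuation_eq_one_iff (div_ne_zero hf0 hπn)).1 hn
    -- `n < 0`
    have hneg : n < 0 := by
      by_contra hn0
      obtain ⟨m, rfl⟩ := Int.eq_ofNat_of_zero_le (not_lt.mp hn0)
      apply hfW
      have : f = f / (D.π : L) ^ (m : ℤ) * (D.π : L) ^ m := by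
        rw [zpow_natCast, div_mul_cancel₀ _ (pow_ne_zero m D.hπ0)]
      rw [this]
      exact D.val.mul_mem _ _ hu.1 (D.val.pow_mem (D.le_val D.π.2) m)
    obtain ⟨m, hm⟩ := Int.exists_eq_neg_ofNat (le_of_lt hneg)
    have hm1 : 1 ≤ m := by omega
    -- `π⁻¹ = f · (f / πⁿ)⁻¹ · π^(m-1)`
    apply hπ
    have e : (D.π : L)⁻¹ = f * (f / (D.π : L) ^ n)⁻¹ * (D.π : L) ^ (m - 1) := by
      rw [hm, zpow_neg, zpow_natCast]
      have hπm : (D.π : L) ^ m ≠ 0 := pow_ne_zero m D.hπ0
      have hπ0 := D.hπ0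
      obtain ⟨k, rfl⟩ : ∃ k, m = k + 1 := ⟨m - 1, by omega⟩
      rw [Nat.add_sub_cancel]
      field_simp
      ring
    rw [e]
    exact W'.mul_mem _ _ (W'.mul_mem _ _ hf (hle _ hu.2))
      (W'.pow_mem (hle _ (D.le_val D.π.2)) _)
  · exact hle

/-- the non-units of `W` are multiples of `π` -/
theorem div_pi_mem_of_nonunit {f : L} (hf : f ∈ D.val.nonunits) : f / (D.π : L) ∈ D.val := by
  obtain ⟨a, b, ha, hb, h⟩ := D.mem_nonunits_iff.1 hf
  have hb0 := D.coe_ne_zero hb
  have e : f / (D.π : L) = (a : L) / (D.π : L) * (b : L)⁻¹ := by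
    have := D.hπ0
    field_simp
    linear_combination h
  rw [e]
  exact D.val.mul_mem _ _ (D.ker_div_pi_mem ha) (D.inv_mem_val hb)

end Tres5Loc

/-! ### Integrality -/

section Integral

variable {L : Type*} [Field L]

/-- a valuation subring is the ring of integers of its valuation -/
theorem tres5_integers (W : ValuationSubring L) : W.valuation.Integers ↥W where
  hom_inj := Subtype.val_injective
  map_le_one := fun a => (W.valuation_le_one_iff _).2 a.2
  exists_of_le_one := fun {r} h => ⟨⟨r, (W.valuation_le_one_iff r).1 h⟩, rfl⟩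

/-- a valuation subring contains the roots of the monic polynomials with coefficients in it -/
theorem tres5_mem_of_root {R : Type*} [CommRing R] (f : R →+* L) (W : ValuationSubring L)
    (hf : ∀ a, f a ∈ W) {Q : Polynomial R} (hQ : Q.Monic) {z : L}
    (h : Polynomial.eval₂ f z Q = 0) : z ∈ W := by
  let g : R →+* ↥W := f.codRestrict W.toSubring hf
  have hint : IsIntegral ↥W z := by
    refine ⟨Q.map g, hQ.map g, ?_⟩
    rw [Polynomial.eval₂_map]
    exact h
  have := (tres5_integers W).mem_of_integral hint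
  exact (W.valuation_le_one_iff z).1 this

/-- units in terms of the valuation -/
theorem tres5_valuation_eq_one_iff (W : ValuationSubring L) {f : L} (hf : f ≠ 0) :
    W.valuation f = 1 ↔ f ∈ W ∧ f⁻¹ ∈ W := by
  constructor
  · intro h
    constructor
    · rw [← ValuationSubring.valuation_le_one_iff, h]
    · rw [← ValuationSubring.valuation_le_one_iff, map_inv₀, h, inv_one]
  · rintro ⟨h1, h2⟩
    rw [← ValuationSubring.valuation_le_one_iff] at h1 h2
    have h0 : W.valuation f ≠ 0 := (Valuation.ne_zero_iff _).2 hf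
    rw [map_inv₀, inv_le_one₀ (zero_lt_iff.mpr h0)] at h2
    exact le_antisymm h1 h2

/-- `𝔪_W + W^× ⊆ W^×` -/
theorem tres5_valuation_add_eq_one (W : ValuationSubring L) {x y : L}
    (hx : x ∈ W.nonunits) (hy : W.valuation y = 1) : W.valuation (x + y) = 1 := by
  rw [ValuationSubring.mem_nonunits_iff] at hx
  rw [Valuation.map_add_eq_of_lt_right _ (by rw [hy]; exact hx), hy]

/-- `W · 𝔪_W ⊆ 𝔪_W` -/
theorem tres5_mul_mem_nonunits (W : ValuationSubring L) {x y : L} (hx : x ∈ W)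
    (hy : y ∈ W.nonunits) : x * y ∈ W.nonunits := by
  rw [ValuationSubring.mem_nonunits_iff] at hy ⊢
  rw [← ValuationSubring.valuation_le_one_iff] at hx
  rw [map_mul]
  calc W.valuation x * W.valuation y ≤ 1 * W.valuation y := by gcongr
    _ = W.valuation y := one_mul _
    _ < 1 := hy

/-- non-units in terms of membership -/
theorem tres5_mem_nonunits_iff (W : ValuationSubring L) {x : L} :
    x ∈ W.nonunits ↔ x = 0 ∨ x⁻¹ ∉ W := by
  rw [ValuationSubring.mem_nonunits_iff]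
  by_cases hx : x = 0
  · simp [hx]
  · have h0 : W.valuation x ≠ 0 := (Valuation.ne_zero_iff _).2 hx
    rw [← ValuationSubring.valuation_le_one_iff, map_inv₀,
      inv_le_one₀ (zero_lt_iff.mpr h0), not_le]
    simp [hx]

/-- the non-units of a pull-back -/
theorem tres5_mem_nonunits_comap {K : Type*} [Field K] (W : ValuationSubring L) (f : K →+* L)
    {x : K} : x ∈ (W.comap f).nonunits ↔ f x ∈ W.nonunits := by
  rw [tres5_mem_nonunits_iff, tres5_mem_nonunits_iff, ValuationSubring.mem_comap, map_inv₀,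
    map_eq_zero]

end Integral

end Fermat.Agent.R38
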