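/-
ROW 38, TRES, piece FAC-COV [T5 (b)] (helper78), part 2: A SPLIT (ÉTALE) MONOGENIC EXTENSION OF A
DISCRETE VALUATION RING, abstract form.  Pure algebra (Mathlib only).

Setting (`Tres5Gen F L V n`): `F ⊆ L` fields, `[L : F] = n ≥ 1`, `L = F(z)`;
`V` a DISCRETE valuation subring of `F` with uniformizer `π`
(`hunif : ∀ x ≠ 0, ∃ m : ℤ, V.valuation (x / π ^ m) = 1`);
`c : ℕ → V` with `c i − c j ∈ V^×` for `i ≠ j < n`, `R ∈ V[X]` of degree `< n`, and
      `P(z) = 0`   for   `P = ∏_{i < n} (X − c i) + π R`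
(`z` is a root of a monic polynomial over `V` of degree `[L : F]` which splits into distinct
linear factors modulo `𝔪_V`).

Main results: the valuation subrings `S.W k` of `L` (`k : ℕ`, used for `k < n`), with
* `W_comap`    : `W k ∩ F = V`;
* `W_z_mem`    : `z − c k ∈ 𝔪(W k)`;  `W_z_unit` : `z − c j` is a unit of `W k` (`j ≠ k`);
                 `W_injOn` : the `W k`, `k < n`, are pairwise distinct;
* `W_unif`     : `e = 1`: `∀ f ≠ 0, ∃ m : ℤ, (W k).valuation (f / π ^ m) = 1`;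
* `W_residue`  : `f = 1`: `∀ f ∈ W k, ∃ a ∈ V, f − a ∈ 𝔪(W k)`;
* `W_dense`    : `∀ f ∈ W k, ∀ m, ∃ a ∈ V, (f − a) / π ^ m ∈ W k`;
* `W_unique`   : every valuation subring `W′` of `L` with `W′ ∩ F = V` is `W k`, `k < n`;
* `W_deck`     : for `ρ : L →ₐ[F] L` with `ρ z − c m ∈ 𝔪(W k)`, `m < n`: `(W k).comap ρ = W m`;
* `mem_W_iff`  : `f ∈ W k ↔ ∃ Q₁ Q₂ ∈ V[X], Q₂(c k) ∈ V^×, f · Q₂(z) = Q₁(z)`.
The Kummer case (`z = (w^{1/p} / g − 1) / (ζ − 1)`) is `R38/TresCoverKum.lean`.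
-/
import Fermat.Agent.R38.TresCoverLoc

set_option autoImplicit false
set_option linter.style.haveILetI false

namespace Fermat.Agent.R38

open Polynomial

/-! ### The maps -/

section Maps

variable {F : Type*} [Field F] (V : ValuationSubring F) (L : Type*) [Field L] [Algebra F L]

/-- the embedding of `V` in `L` -/
noncomputable def tres5Iota : ↥V →+* L := (algebraMap F L).comp V.subtype

theorem tres5Iota_apply (a : ↥V) : tres5Iota V L a = algebraMap F L (a : F) := rfl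

theorem tres5Iota_injective : Function.Injective (tres5Iota V L) :=
  (algebraMap F L).injective.comp Subtype.val_injective

/-- the reduction of polynomials over `V` at `a` -/
noncomputable def tres5Chi (a : ↥V) : (↥V)[X] →+* IsLocalRing.ResidueField ↥V :=
  (IsLocalRing.residue ↥V).comp (evalRingHom a)

theorem tres5Chi_apply (a : ↥V) (Q : (↥V)[X]) :
    tres5Chi V a Q = IsLocalRing.residue ↥V (Q.eval a) := rfl

@[simp] theorem tres5Chi_X (a : ↥V) : tres5Chi V a X = IsLocalRing.residue ↥V a := by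
  rw [tres5Chi_apply, eval_X]

@[simp] theorem tres5Chi_C (a b : ↥V) : tres5Chi V a (C b) = IsLocalRing.residue ↥V b := by
  rw [tres5Chi_apply, eval_C]

end Maps

/-! ### The data -/

/-- A monogenic extension `L = F(z)` which is split at the discrete valuation subring `V`
of `F`. -/
structure Tres5Gen (F L : Type*) [Field F] [Field L] [Algebra F L] (V : ValuationSubring F)
    (n : ℕ) where
  hn : n ≠ 0
  hfin : Module.finrank F L = n
  /-- a uniformizer of `V` -/
  π : F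
  hπ : π ∈ V.nonunits
  hπ0 : π ≠ 0
  hunif : ∀ x : F, x ≠ 0 → ∃ m : ℤ, V.valuation (x / π ^ m) = 1
  /-- the generator -/
  z : L
  htop : IntermediateField.adjoin F {z} = ⊤
  /-- the roots modulo `𝔪_V` -/
  c : ℕ → ↥V
  hc : ∀ i < n, ∀ j < n, i ≠ j → IsLocalRing.residue ↥V (c i - c j) ≠ 0
  /-- the error term -/
  R : (↥V)[X]
  hR : R.degree < (n : WithBot ℕ)
  hz : eval₂ (tres5Iota V L) z
    (∏ i ∈ Finset.range n, (X - C (c i)) + C (⟨π, by
      rw [← V.valuation_le_one_iff]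
      exact le_of_lt ((V.mem_nonunits_iff).1 hπ)⟩ : ↥V) * R) = 0

namespace Tres5Gen

variable {F L : Type*} [Field F] [Field L] [Algebra F L] {V : ValuationSubring F} {n : ℕ}
  (S : Tres5Gen F L V n)

theorem π_mem : S.π ∈ V := by
  rw [← V.valuation_le_one_iff]
  exact le_of_lt ((V.mem_nonunits_iff).1 S.hπ)

/-- the uniformizer, as an element of `V` -/
noncomputable def πV : ↥V := ⟨S.π, S.π_mem⟩

theorem residue_πV : IsLocalRing.residue ↥V S.πV = 0 := by
  rw [IsLocalRing.residue_eq_zero_iff, V.valuation_lt_one_iff]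
  exact (V.mem_nonunits_iff).1 S.hπ

/-- the evaluation at `z` -/
noncomputable def ψ : (↥V)[X] →+* L := eval₂RingHom (tres5Iota V L) S.z

theorem ψ_apply (Q : (↥V)[X]) : S.ψ Q = eval₂ (tres5Iota V L) S.z Q := rfl

@[simp] theorem ψ_X : S.ψ X = S.z := by rw [ψ_apply, eval₂_X]

@[simp] theorem ψ_C (a : ↥V) : S.ψ (C a) = tres5Iota V L a := by
  rw [ψ_apply, eval₂_C]

theorem ψ_πV : S.ψ (C S.πV) = algebraMap F L S.π := by
  rw [ψ_C]
  rfl

theorem ψ_eq_aeval (Q : (↥V)[X]) : S.ψ Q = aeval S.z (Q.map V.subtype) := by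
  rw [ψ_apply, aeval_def, eval₂_map]
  rfl

/-- the minimal polynomial of `z` over `V` -/
noncomputable def P : (↥V)[X] := ∏ i ∈ Finset.range n, (X - C (S.c i)) + C S.πV * S.R

theorem ψ_P : S.ψ S.P = 0 := S.hz

include S in
theorem natDegree_prod :
    (∏ i ∈ Finset.range n, (X - C (S.c i))).natDegree = n := by
  rw [natDegree_prod_of_monic _ _ (fun j _ => monic_X_sub_C _)]
  simp

theorem degree_prod :
    (∏ i ∈ Finset.range n, (X - C (S.c i))).degree = (n : WithBot ℕ) := by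
  rw [degree_eq_natDegree (monic_prod_X_sub_C _ _).ne_zero, S.natDegree_prod]

theorem degree_πR : (C S.πV * S.R).degree < (n : WithBot ℕ) :=
  lt_of_le_of_lt (degree_mul_le _ _)
    (by
      calc (C S.πV).degree + S.R.degree ≤ 0 + S.R.degree := by gcongr; exact degree_C_le
        _ = S.R.degree := zero_add _
        _ < n := S.hR)

theorem P_monic : S.P.Monic := by
  unfold P
  refine (monic_prod_X_sub_C _ _).add_of_left ?_
  rw [S.degree_prod]
  exact S.degree_πR

theorem degree_P : S.P.degree = (n : WithBot ℕ) := by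
  unfold P
  rw [degree_add_eq_left_of_degree_lt (by rw [S.degree_prod]; exact S.degree_πR), S.degree_prod]

/-! ### The degree of `L / F` -/

include S in
theorem finiteDimensional : FiniteDimensional F L :=
  Module.finite_of_finrank_pos (by rw [S.hfin]; exact Nat.pos_of_ne_zero S.hn)

theorem natDegree_minpoly : (minpoly F S.z).natDegree = n := by
  haveI := S.finiteDimensional
  rw [(Field.primitive_element_iff_minpoly_natDegree_eq F S.z).1 S.htop, S.hfin]

theorem isIntegral_z : IsIntegral F S.z := by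
  haveI := S.finiteDimensional
  exact IsIntegral.of_finite F _

/-- every element of `L` is a polynomial in `z` -/
theorem exists_aeval (f : L) : ∃ Q : F[X], aeval S.z Q = f := by
  have h1 : (IntermediateField.adjoin F {S.z}).toSubalgebra = Algebra.adjoin F {S.z} :=
    IntermediateField.adjoin_simple_toSubalgebra_of_isAlgebraic S.isIntegral_z.isAlgebraic
  have h2 : f ∈ Algebra.adjoin F {S.z} := by
    rw [← h1, S.htop]
    exact Algebra.mem_top
  rw [Algebra.adjoin_singleton_eq_range_aeval] at h2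
  exact h2

/-- the kernel of the evaluation at `z` is generated by `P` -/
theorem ψ_eq_zero {Q : (↥V)[X]} (hQ : S.ψ Q = 0) : ∃ q : (↥V)[X], Q = S.P * q := by
  have hdiv := modByMonic_add_div Q S.P
  have hr : S.ψ (Q %ₘ S.P) = 0 := by
    have := congrArg S.ψ hdiv
    rw [map_add, map_mul, S.ψ_P, zero_mul, add_zero, hQ] at this
    exact this
  have hr0 : Q %ₘ S.P = 0 := by
    by_contra hne
    have hinj : Function.Injective (V.subtype : ↥V →+* F) := Subtype.val_injective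
    have hne' : (Q %ₘ S.P).map V.subtype ≠ 0 := (Polynomial.map_ne_zero_iff hinj).2 hne
    have h1 := minpoly.degree_le_of_ne_zero F S.z hne' (by rw [← S.ψ_eq_aeval, hr])
    rw [degree_map_eq_of_injective hinj] at h1
    have h2 := degree_modByMonic_lt Q S.P_monic
    have h3 : (minpoly F S.z).degree = (n : WithBot ℕ) := by
      rw [degree_eq_natDegree (minpoly.ne_zero S.isIntegral_z), S.natDegree_minpoly]
    rw [h3] at h1
    rw [S.degree_P] at h2
    exact absurd (lt_of_le_of_lt h1 h2) (lt_irrefl _)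
  rw [hr0, zero_add] at hdiv
  exact ⟨Q /ₘ S.P, hdiv.symm⟩

theorem χ_P {k : ℕ} (hk : k < n) : tres5Chi V (S.c k) S.P = 0 := by
  unfold P
  rw [map_add, map_mul, map_prod, tres5Chi_C, S.residue_πV, zero_mul, add_zero]
  refine Finset.prod_eq_zero (i := k) (Finset.mem_range.2 hk) ?_
  rw [map_sub, tres5Chi_X, tres5Chi_C, sub_self]

theorem ker_le {k : ℕ} (hk : k < n) :
    RingHom.ker S.ψ.rangeRestrict ≤ RingHom.ker (tres5Chi V (S.c k)) := by
  intro Q hQ
  rw [RingHom.mem_ker] at hQ ⊢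
  have hQ' : S.ψ Q = 0 := by
    have := congrArg Subtype.val hQ
    simpa using this
  obtain ⟨q, rfl⟩ := S.ψ_eq_zero hQ'
  rw [map_mul, S.χ_P hk, zero_mul]

/-- the point `z = c k, π = 0` of `V[z]` -/
noncomputable def φ {k : ℕ} (hk : k < n) : S.ψ.range →+* IsLocalRing.ResidueField ↥V :=
  RingHom.liftOfSurjective S.ψ.rangeRestrict S.ψ.rangeRestrict_surjective
    ⟨tres5Chi V (S.c k), S.ker_le hk⟩

theorem φ_ψ {k : ℕ} (hk : k < n) (Q : (↥V)[X]) :
    S.φ hk (S.ψ.rangeRestrict Q) = tres5Chi V (S.c k) Q :=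
  RingHom.liftOfRightInverse_comp_apply _ _ _ ⟨tres5Chi V (S.c k), S.ker_le hk⟩ Q

/-! ### The maximal ideal of `V` and denominators -/

/-- the maximal ideal of `V` is generated by `π` -/
theorem exists_eq_π_mul {a : ↥V} (ha : IsLocalRing.residue ↥V a = 0) :
    ∃ b : ↥V, a = S.πV * b := by
  rw [IsLocalRing.residue_eq_zero_iff, V.valuation_lt_one_iff] at ha
  by_cases ha0 : (a : F) = 0
  · exact ⟨0, by rw [mul_zero]; exact Subtype.ext ha0⟩
  obtain ⟨m, hm⟩ := S.hunif (a : F) ha0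
  have hπv : V.valuation S.π < 1 := (V.mem_nonunits_iff).1 S.hπ
  have hmem : (a : F) / S.π ∈ V := by
    rcases le_or_gt m 0 with hm0 | hm0
    · exfalso
      obtain ⟨r, hr⟩ := Int.exists_eq_neg_ofNat hm0
      rw [hr, zpow_neg, zpow_natCast, div_inv_eq_mul, map_mul, map_pow] at hm
      have h1 : V.valuation S.π ^ r ≤ 1 := pow_le_one₀ zero_le (le_of_lt hπv)
      have h2 : V.valuation (a : F) * V.valuation S.π ^ r < 1 := by
        calc V.valuation (a : F) * V.valuation S.π ^ r ≤ V.valuation (a : F) * 1 := by gcongr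
          _ = V.valuation (a : F) := mul_one _
          _ < 1 := ha
      rw [hm] at h2
      exact lt_irrefl _ h2
    · obtain ⟨r, hr⟩ : ∃ r : ℕ, m = r + 1 := ⟨(m - 1).toNat, by omega⟩
      have e : (a : F) / S.π = (a : F) / S.π ^ m * S.π ^ r := by
        rw [hr, zpow_add_one₀ S.hπ0, zpow_natCast]
        have := pow_ne_zero r S.hπ0
        have := S.hπ0
        field_simp
      rw [e]
      refine V.mul_mem _ _ ?_ (V.pow_mem S.π_mem r)
      rw [← V.valuation_le_one_iff, hm]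
  refine ⟨⟨(a : F) / S.π, hmem⟩, Subtype.ext ?_⟩
  change (a : F) = S.π * ((a : F) / S.π)
  rw [mul_div_cancel₀ _ S.hπ0]

/-- clearing denominators -/
theorem exists_clear (Q : F[X]) :
    ∃ (m : ℕ) (Q' : (↥V)[X]), Q'.map V.subtype = C (S.π ^ m) * Q := by
  induction Q using Polynomial.induction_on' with
  | add Q₁ Q₂ h₁ h₂ =>
    obtain ⟨n₁, Q₁', h₁⟩ := h₁
    obtain ⟨n₂, Q₂', h₂⟩ := h₂
    refine ⟨n₁ + n₂, C (S.πV ^ n₂) * Q₁' + C (S.πV ^ n₁) * Q₂', ?_⟩
    have e : ∀ m : ℕ, V.subtype (S.πV ^ m) = S.π ^ m := fun m => by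
      rw [map_pow]
      rfl
    rw [Polynomial.map_add, Polynomial.map_mul, Polynomial.map_mul, h₁, h₂, map_C, map_C,
      e, e, pow_add, C_mul]
    ring
  | monomial i a =>
    by_cases ha0 : a = 0
    · exact ⟨0, 0, by simp [ha0]⟩
    obtain ⟨m, hm⟩ := S.hunif a ha0
    have hmem : S.π ^ (-m).toNat * a ∈ V := by
      have e : S.π ^ (-m).toNat * a = a / S.π ^ m * S.π ^ ((-m).toNat + m).toNat := by
        have h1 : (S.π ^ ((-m).toNat + m).toNat : F) = S.π ^ (((-m).toNat : ℤ) + m) := by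
          rw [← zpow_natCast]
          congr 1
          omega
        rw [h1, zpow_add₀ S.hπ0, zpow_natCast]
        have := zpow_ne_zero m S.hπ0
        field_simp
      rw [e]
      refine V.mul_mem _ _ ?_ (V.pow_mem S.π_mem _)
      rw [← V.valuation_le_one_iff, hm]
    refine ⟨(-m).toNat, monomial i ⟨_, hmem⟩, ?_⟩
    rw [map_monomial, C_mul_monomial]
    rfl

/-! ### The local datum at `z = c k` -/

/-- the complement of `z − c k` -/
noncomputable def Epoly (k : ℕ) : (↥V)[X] :=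
  ∏ i ∈ (Finset.range n).erase k, (X - C (S.c i))

theorem X_mul_Epoly {k : ℕ} (hk : k < n) :
    (X - C (S.c k)) * S.Epoly k = S.P - C S.πV * S.R := by
  unfold Epoly P
  rw [add_sub_cancel_right]
  exact Finset.mul_prod_erase (Finset.range n) (fun j => (X - C (S.c j) : (↥V)[X]))
    (Finset.mem_range.2 hk)

theorem χ_Epoly {k : ℕ} (hk : k < n) : tres5Chi V (S.c k) (S.Epoly k) ≠ 0 := by
  unfold Epoly
  rw [map_prod, Finset.prod_ne_zero_iff]
  intro j hj
  rw [Finset.mem_erase, Finset.mem_range] at hj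
  rw [map_sub, tres5Chi_X, tres5Chi_C, ← map_sub]
  exact S.hc k hk j hj.2 (Ne.symm hj.1)

/-- the local datum at `z = c k` -/
noncomputable def loc {k : ℕ} (hk : k < n) : Tres5Loc L (IsLocalRing.ResidueField ↥V) where
  Λ := S.ψ.range
  φ := S.φ hk
  π := S.ψ.rangeRestrict (C S.πV)
  hπ0 := by
    change S.ψ (C S.πV) ≠ 0
    rw [S.ψ_πV]
    exact (_root_.map_ne_zero _).2 S.hπ0
  hφπ := by rw [S.φ_ψ hk, tres5Chi_C, S.residue_πV]
  E := S.ψ.rangeRestrict (S.Epoly k)
  hE := by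
    rw [S.φ_ψ hk]
    exact S.χ_Epoly hk
  hker := by
    intro f hf
    obtain ⟨Q, rfl⟩ := S.ψ.rangeRestrict_surjective f
    rw [S.φ_ψ hk, tres5Chi_apply] at hf
    obtain ⟨b, hb⟩ := S.exists_eq_π_mul hf
    refine ⟨S.ψ.rangeRestrict (C b * S.Epoly k - (Q /ₘ (X - C (S.c k))) * S.R), ?_⟩
    rw [← map_mul, ← map_mul]
    apply Subtype.ext
    change S.ψ (Q * S.Epoly k) =
      S.ψ (C S.πV * (C b * S.Epoly k - (Q /ₘ (X - C (S.c k))) * S.R))
    have hQ : Q = (X - C (S.c k)) * (Q /ₘ (X - C (S.c k))) + C (S.πV * b) := by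
      rw [← hb, ← modByMonic_X_sub_C_eq_C_eval, add_comm]
      exact (modByMonic_add_div Q _).symm
    have e : Q * S.Epoly k = (Q /ₘ (X - C (S.c k))) * S.P +
        C S.πV * (C b * S.Epoly k - (Q /ₘ (X - C (S.c k))) * S.R) := by
      have h1 : Q * S.Epoly k =
          (Q /ₘ (X - C (S.c k))) * ((X - C (S.c k)) * S.Epoly k) +
            C (S.πV * b) * S.Epoly k := by
        conv_lhs => rw [hQ]
        ring
      rw [h1, S.X_mul_Epoly hk, C_mul]
      ring
    rw [e, map_add, map_mul S.ψ (Q /ₘ (X - C (S.c k))), S.ψ_P, mul_zero, zero_add]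
  hfrac := by
    intro f hf
    obtain ⟨Q, hQ⟩ := S.exists_aeval f⁻¹
    obtain ⟨m, Q', hQ'⟩ := S.exists_clear Q
    refine ⟨S.ψ.rangeRestrict Q', m, ?_⟩
    change f * S.ψ Q' = (S.ψ (C S.πV)) ^ m
    rw [S.ψ_eq_aeval, hQ', map_mul, hQ, aeval_C, S.ψ_πV, map_pow]
    field_simp

open Classical in
/-- **The valuation subrings of `L` over `V`** (`W k` for `k < n`; junk `⊤` otherwise). -/
noncomputable def W (k : ℕ) : ValuationSubring L :=
  if hk : k < n then (S.loc hk).val else ⊤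

theorem W_eq {k : ℕ} (hk : k < n) : S.W k = (S.loc hk).val := dif_pos hk

theorem loc_π {k : ℕ} (hk : k < n) : ((S.loc hk).π : L) = algebraMap F L S.π := S.ψ_πV

/-! ### Properties of `W k` -/

theorem ψ_mem_loc {k : ℕ} (hk : k < n) (Q : (↥V)[X]) : S.ψ Q ∈ (S.loc hk).Λ :=
  ⟨Q, rfl⟩

theorem mem_W_iff {k : ℕ} (hk : k < n) {f : L} :
    f ∈ S.W k ↔ ∃ Q₁ Q₂ : (↥V)[X],
      IsLocalRing.residue ↥V (Q₂.eval (S.c k)) ≠ 0 ∧ f * S.ψ Q₂ = S.ψ Q₁ := by
  rw [S.W_eq hk, Tres5Loc.mem_val_iff]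
  constructor
  · rintro ⟨b, hb, h⟩
    obtain ⟨Q₂, rfl⟩ := S.ψ.rangeRestrict_surjective b
    obtain ⟨Q₁, hQ₁⟩ := h
    refine ⟨Q₁, Q₂, ?_, hQ₁.symm⟩
    have := hb
    change S.φ hk _ ≠ 0 at this
    rwa [S.φ_ψ hk, tres5Chi_apply] at this
  · rintro ⟨Q₁, Q₂, hQ₂, h⟩
    refine ⟨S.ψ.rangeRestrict Q₂, ?_, ?_⟩
    · change S.φ hk _ ≠ 0
      rwa [S.φ_ψ hk, tres5Chi_apply]
    · change f * S.ψ Q₂ ∈ S.ψ.range
      rw [h]
      exact ⟨Q₁, rfl⟩

theorem ψ_mem_W {k : ℕ} (hk : k < n) (Q : (↥V)[X]) : S.ψ Q ∈ S.W k := by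
  rw [S.W_eq hk]
  exact (S.loc hk).le_val (S.ψ_mem_loc hk Q)

/-- `ψ Q` is a non-unit of `W k` if `Q (c k) ∈ 𝔪_V` -/
theorem ψ_mem_nonunits {k : ℕ} (hk : k < n) {Q : (↥V)[X]}
    (hQ : IsLocalRing.residue ↥V (Q.eval (S.c k)) = 0) : S.ψ Q ∈ (S.W k).nonunits := by
  rw [S.W_eq hk]
  have h := (S.loc hk).ker_mem_nonunits (a := S.ψ.rangeRestrict Q)
    (by change S.φ hk _ = 0; rw [S.φ_ψ hk, tres5Chi_apply, hQ])
  exact h

/-- `ψ Q` is a unit of `W k` if `Q (c k) ∈ V^×` -/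
theorem ψ_valuation_eq_one {k : ℕ} (hk : k < n) {Q : (↥V)[X]}
    (hQ : IsLocalRing.residue ↥V (Q.eval (S.c k)) ≠ 0) : (S.W k).valuation (S.ψ Q) = 1 := by
  rw [S.W_eq hk]
  have h := (S.loc hk).valuation_eq_one_of_phi_ne (b := S.ψ.rangeRestrict Q)
    (by change S.φ hk _ ≠ 0; rw [S.φ_ψ hk, tres5Chi_apply]; exact hQ)
  exact h

theorem ι_mem_W {k : ℕ} (hk : k < n) (a : ↥V) : tres5Iota V L a ∈ S.W k := by
  rw [← S.ψ_C]
  exact S.ψ_mem_W hk _

theorem ι_mem_nonunits {k : ℕ} (hk : k < n) {a : ↥V} (ha : IsLocalRing.residue ↥V a = 0) :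
    tres5Iota V L a ∈ (S.W k).nonunits := by
  rw [← S.ψ_C]
  exact S.ψ_mem_nonunits hk (by rwa [eval_C])

theorem ι_valuation_eq_one {k : ℕ} (hk : k < n) {a : ↥V} (ha : IsLocalRing.residue ↥V a ≠ 0) :
    (S.W k).valuation (tres5Iota V L a) = 1 := by
  rw [← S.ψ_C]
  exact S.ψ_valuation_eq_one hk (by rwa [eval_C])

/-- **(a)** `W k ∩ F = V` -/
theorem W_comap {k : ℕ} (hk : k < n) : (S.W k).comap (algebraMap F L) = V := by
  ext x
  rw [ValuationSubring.mem_comap]
  constructor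
  · intro hx
    by_contra hxV
    have hx0 : x ≠ 0 := by
      rintro rfl
      exact hxV V.zero_mem
    have hinv : x⁻¹ ∈ V := (V.mem_or_inv_mem x).resolve_left hxV
    have hres : IsLocalRing.residue ↥V ⟨x⁻¹, hinv⟩ = 0 := by
      rw [IsLocalRing.residue_eq_zero_iff, V.valuation_lt_one_iff]
      change V.valuation x⁻¹ < 1
      have h1 : V.valuation x⁻¹ ≤ 1 := (V.valuation_le_one_iff _).2 hinv
      rcases lt_or_eq_of_le h1 with h | h
      · exact h
      · exfalso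
        apply hxV
        rw [← V.valuation_le_one_iff]
        rw [map_inv₀, inv_eq_one] at h
        rw [h]
    have h2 := S.ι_mem_nonunits hk hres
    rw [tres5Iota_apply, ValuationSubring.mem_nonunits_iff] at h2
    change (S.W k).valuation (algebraMap F L x⁻¹) < 1 at h2
    rw [map_inv₀, map_inv₀] at h2
    have h3 : (S.W k).valuation (algebraMap F L x) ≤ 1 :=
      (ValuationSubring.valuation_le_one_iff _ _).2 hx
    have h4 : (S.W k).valuation (algebraMap F L x) ≠ 0 :=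
      (Valuation.ne_zero_iff _).2 ((_root_.map_ne_zero _).2 hx0)
    rw [inv_lt_one₀ (zero_lt_iff.2 h4)] at h2
    exact absurd (lt_of_lt_of_le h2 h3) (lt_irrefl _)
  · intro hx
    exact S.ι_mem_W hk ⟨x, hx⟩

/-- **(b)** `z − c k ∈ 𝔪(W k)` -/
theorem W_z_mem {k : ℕ} (hk : k < n) : S.z - tres5Iota V L (S.c k) ∈ (S.W k).nonunits := by
  have h := S.ψ_mem_nonunits hk (Q := X - C (S.c k)) (by simp)
  rwa [map_sub, S.ψ_X, S.ψ_C] at h

/-- `z − c j` is a unit of `W k` for `j ≠ k` -/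
theorem W_z_unit {j k : ℕ} (hj : j < n) (hk : k < n) (hjk : j ≠ k) :
    (S.W k).valuation (S.z - tres5Iota V L (S.c j)) = 1 := by
  have h := S.ψ_valuation_eq_one hk (Q := X - C (S.c j))
    (by rw [eval_sub, eval_X, eval_C]; exact S.hc k hk j hj (Ne.symm hjk))
  rwa [map_sub, S.ψ_X, S.ψ_C] at h

/-- the `W k`, `k < n`, are pairwise distinct -/
theorem W_inj {j k : ℕ} (hj : j < n) (hk : k < n) (h : S.W j = S.W k) : j = k := by
  by_contra hjk
  have h1 := S.W_z_mem hj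
  rw [h, ValuationSubring.mem_nonunits_iff, S.W_z_unit hj hk hjk] at h1
  exact lt_irrefl _ h1

/-- **(c)** `e = 1`: `π` is a uniformizer of `W k` -/
theorem W_unif {k : ℕ} (hk : k < n) {f : L} (hf : f ≠ 0) :
    ∃ m : ℤ, (S.W k).valuation (f / algebraMap F L S.π ^ m) = 1 := by
  obtain ⟨m, hm⟩ := (S.loc hk).unif hf
  rw [S.loc_π hk] at hm
  exact ⟨m, by rw [S.W_eq hk]; exact hm⟩

theorem π_mem_nonunits {k : ℕ} (hk : k < n) : algebraMap F L S.π ∈ (S.W k).nonunits := by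
  rw [S.W_eq hk, ← S.loc_π hk]
  exact (S.loc hk).pi_mem_nonunits

/-- the non-units of `W k` are multiples of `π` -/
theorem div_π_mem {k : ℕ} (hk : k < n) {f : L} (hf : f ∈ (S.W k).nonunits) :
    f / algebraMap F L S.π ∈ S.W k := by
  rw [S.W_eq hk] at hf ⊢
  rw [← S.loc_π hk]
  exact (S.loc hk).div_pi_mem_of_nonunit hf

/-- **(d)** `f = 1`: the residue field of `W k` is the residue field of `V` -/
theorem W_residue {k : ℕ} (hk : k < n) {f : L} (hf : f ∈ S.W k) :
    ∃ a : ↥V, f - tres5Iota V L a ∈ (S.W k).nonunits := by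
  obtain ⟨Q₁, Q₂, hQ₂, h⟩ := (S.mem_W_iff hk).1 hf
  -- the value of the denominator at `c k` is a unit of `V`
  have hu : IsUnit (Q₂.eval (S.c k)) := by
    by_contra hnu
    exact hQ₂ ((IsLocalRing.residue_eq_zero_iff _).2 ((IsLocalRing.mem_maximalIdeal _).2 hnu))
  obtain ⟨u, hu⟩ := hu
  refine ⟨Q₁.eval (S.c k) * ((u⁻¹ : (↥V)ˣ) : ↥V), ?_⟩
  have hres := (S.loc hk).residue (f := f) (a := S.ψ.rangeRestrict Q₁)
    (b := S.ψ.rangeRestrict Q₂) (a₀ := S.ψ.rangeRestrict (C (Q₁.eval (S.c k))))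
    (b₀ := S.ψ.rangeRestrict (C (Q₂.eval (S.c k))))
    (by change S.φ hk _ ≠ 0; rw [S.φ_ψ hk, tres5Chi_apply]; exact hQ₂) h
    (by
      change S.φ hk _ = S.φ hk _
      rw [S.φ_ψ hk, S.φ_ψ hk, tres5Chi_C, tres5Chi_apply])
    (by
      change S.φ hk _ = S.φ hk _
      rw [S.φ_ψ hk, S.φ_ψ hk, tres5Chi_C, tres5Chi_apply])
  rw [S.W_eq hk]
  have e : tres5Iota V L (Q₁.eval (S.c k) * ((u⁻¹ : (↥V)ˣ) : ↥V)) =
      ((S.ψ.rangeRestrict (C (Q₁.eval (S.c k))) : S.ψ.range) : L) /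
        ((S.ψ.rangeRestrict (C (Q₂.eval (S.c k))) : S.ψ.range) : L) := by
    change _ = S.ψ (C (Q₁.eval (S.c k))) / S.ψ (C (Q₂.eval (S.c k)))
    rw [S.ψ_C, S.ψ_C, map_mul, ← hu, div_eq_mul_inv]
    congr 1
    have h1 : tres5Iota V L ((u : ↥V)) * tres5Iota V L (((u⁻¹ : (↥V)ˣ) : ↥V)) = 1 := by
      rw [← map_mul, Units.mul_inv, map_one]
    exact eq_inv_of_mul_eq_one_right h1
  rw [e]
  exact hres

/-- **(d′)** `F` is dense in `W k` -/
theorem W_dense {k : ℕ} (hk : k < n) {f : L} (hf : f ∈ S.W k) (m : ℕ) :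
    ∃ a : ↥V, (f - tres5Iota V L a) / algebraMap F L S.π ^ m ∈ S.W k := by
  induction m with
  | zero =>
    refine ⟨0, ?_⟩
    rw [map_zero, sub_zero, pow_zero, div_one]
    exact hf
  | succ m ih =>
    obtain ⟨a, ha⟩ := ih
    obtain ⟨b, hb⟩ := S.W_residue hk ha
    have h := S.div_π_mem hk hb
    refine ⟨a + S.πV ^ m * b, ?_⟩
    have hπ : algebraMap F L S.π ≠ 0 := (_root_.map_ne_zero _).2 S.hπ0
    have e : (f - tres5Iota V L (a + S.πV ^ m * b)) / algebraMap F L S.π ^ (m + 1) =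
        ((f - tres5Iota V L a) / algebraMap F L S.π ^ m - tres5Iota V L b) /
          algebraMap F L S.π := by
      rw [map_add, map_mul, map_pow]
      have : tres5Iota V L S.πV = algebraMap F L S.π := rfl
      rw [this]
      field_simp
      ring
    rw [e]
    exact h

/-! ### Uniqueness -/

/-- the roots of `P` -/
theorem prod_z_sub :
    ∏ i ∈ Finset.range n, (S.z - tres5Iota V L (S.c i)) =
      -(algebraMap F L S.π * S.ψ S.R) := by
  have h := S.ψ_P
  unfold P at h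
  rw [map_add, map_prod, map_mul, S.ψ_πV] at h
  simp only [map_sub, S.ψ_X, S.ψ_C] at h
  exact eq_neg_of_add_eq_zero_left h

/-- **(e)** every valuation subring of `L` over `V` is one of the `W k` -/
theorem W_unique {W' : ValuationSubring L} (hW' : W'.comap (algebraMap F L) = V) :
    ∃ k < n, W' = S.W k := by
  have hV : ∀ a : ↥V, tres5Iota V L a ∈ W' := by
    intro a
    have : (a : F) ∈ W'.comap (algebraMap F L) := by rw [hW']; exact a.2
    exact this
  have hπinv : (algebraMap F L S.π)⁻¹ ∉ W' := by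
    intro h
    have h1 : S.π⁻¹ ∈ W'.comap (algebraMap F L) := by
      rw [ValuationSubring.mem_comap, map_inv₀]
      exact h
    rw [hW'] at h1
    have h2 := (V.mem_nonunits_iff).1 S.hπ
    rw [← V.valuation_le_one_iff, map_inv₀,
      inv_le_one₀ (zero_lt_iff.2 ((Valuation.ne_zero_iff _).2 S.hπ0))] at h1
    exact absurd (lt_of_le_of_lt h1 h2) (lt_irrefl _)
  have hπW : algebraMap F L S.π ∈ W' := hV S.πV
  have hπnu : algebraMap F L S.π ∈ W'.nonunits := by
    rw [ValuationSubring.mem_nonunits_iff]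
    have h1 : W'.valuation (algebraMap F L S.π) ≤ 1 :=
      (ValuationSubring.valuation_le_one_iff _ _).2 hπW
    rcases lt_or_eq_of_le h1 with h | h
    · exact h
    · exfalso
      apply hπinv
      rw [← ValuationSubring.valuation_le_one_iff, map_inv₀, h, inv_one]
  have hz : S.z ∈ W' := tres5_mem_of_root (tres5Iota V L) W' hV S.P_monic S.ψ_P
  have hψ : ∀ Q : (↥V)[X], S.ψ Q ∈ W' := by
    intro Q
    induction Q using Polynomial.induction_on' with
    | add Q₁ Q₂ h₁ h₂ =>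
      rw [map_add]
      exact W'.add_mem _ _ h₁ h₂
    | monomial i a =>
      rw [← C_mul_X_pow_eq_monomial, map_mul, map_pow, S.ψ_C, S.ψ_X]
      exact W'.mul_mem _ _ (hV a) (W'.pow_mem hz i)
  -- one of the factors is a non-unit
  have hprod : ∏ i ∈ Finset.range n, (S.z - tres5Iota V L (S.c i)) ∈ W'.nonunits := by
    rw [S.prod_z_sub]
    have h := tres5_mul_mem_nonunits W' (hψ S.R) hπnu
    rw [mul_comm] at h
    rw [ValuationSubring.mem_nonunits_iff, Valuation.map_neg]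
    exact (ValuationSubring.mem_nonunits_iff _).1 h
  obtain ⟨k, hk, hkz⟩ : ∃ k < n, S.z - tres5Iota V L (S.c k) ∈ W'.nonunits := by
    by_contra hno
    have hall : ∀ i ∈ Finset.range n, W'.valuation (S.z - tres5Iota V L (S.c i)) = 1 := by
      intro i hi
      have hmem : S.z - tres5Iota V L (S.c i) ∈ W' := sub_mem hz (hV _)
      have h1 : W'.valuation (S.z - tres5Iota V L (S.c i)) ≤ 1 :=
        (ValuationSubring.valuation_le_one_iff _ _).2 hmem
      rcases lt_or_eq_of_le h1 with h | h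
      · exact absurd ⟨i, Finset.mem_range.1 hi, (ValuationSubring.mem_nonunits_iff _).2 h⟩ hno
      · exact h
    rw [ValuationSubring.mem_nonunits_iff, map_prod, Finset.prod_congr rfl hall,
      Finset.prod_const_one] at hprod
    exact lt_irrefl _ hprod
  refine ⟨k, hk, ?_⟩
  rw [S.W_eq hk]
  refine (S.loc hk).eq_of_le ?_ (by rw [S.loc_π hk]; exact hπinv)
  intro f hf
  have hf' : f ∈ S.W k := by rw [S.W_eq hk]; exact hf
  obtain ⟨Q₁, Q₂, hQ₂, h⟩ := (S.mem_W_iff hk).1 hf'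
  -- `ψ Q₂` is a unit of `W'`
  have hu : IsUnit (Q₂.eval (S.c k)) := by
    by_contra hnu
    exact hQ₂ ((IsLocalRing.residue_eq_zero_iff _).2 ((IsLocalRing.mem_maximalIdeal _).2 hnu))
  obtain ⟨u, hu⟩ := hu
  have huval : W'.valuation (tres5Iota V L (u : ↥V)) = 1 := by
    have h1 : tres5Iota V L ((u : ↥V)) * tres5Iota V L (((u⁻¹ : (↥V)ˣ) : ↥V)) = 1 := by
      rw [← map_mul, Units.mul_inv, map_one]
    have hne : tres5Iota V L (u : ↥V) ≠ 0 := left_ne_zero_of_mul_eq_one h1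
    rw [tres5_valuation_eq_one_iff W' hne]
    refine ⟨hV _, ?_⟩
    rw [← eq_inv_of_mul_eq_one_right h1]
    exact hV _
  have hdecomp : S.ψ Q₂ = (S.z - tres5Iota V L (S.c k)) * S.ψ (Q₂ /ₘ (X - C (S.c k))) +
      tres5Iota V L (u : ↥V) := by
    have hQ : Q₂ = (X - C (S.c k)) * (Q₂ /ₘ (X - C (S.c k))) + C (Q₂.eval (S.c k)) := by
      rw [← modByMonic_X_sub_C_eq_C_eval, add_comm]
      exact (modByMonic_add_div Q₂ _).symm
    conv_lhs => rw [hQ]
    rw [map_add, map_mul, map_sub, S.ψ_X, S.ψ_C, S.ψ_C, hu]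
  have hval : W'.valuation (S.ψ Q₂) = 1 := by
    rw [hdecomp]
    refine tres5_valuation_add_eq_one W' ?_ huval
    have := tres5_mul_mem_nonunits W' (hψ (Q₂ /ₘ (X - C (S.c k)))) hkz
    rwa [mul_comm] at this
  have hne : S.ψ Q₂ ≠ 0 := by
    intro h0
    rw [h0, map_zero] at hval
    exact zero_ne_one hval
  have e : f = S.ψ Q₁ * (S.ψ Q₂)⁻¹ := by
    field_simp
    exact h
  rw [e]
  exact W'.mul_mem _ _ (hψ Q₁) ((tres5_valuation_eq_one_iff W' hne).1 hval).2

/-- **(f)** the deck transformations permute the `W k`: if `ρ z ≡ c m` modulo `𝔪(W k)`, then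
`ρ⁻¹ (W k) = W m`. -/
theorem W_deck (ρ : L →ₐ[F] L) {k m : ℕ} (hk : k < n) (hm : m < n)
    (h : ρ S.z - tres5Iota V L (S.c m) ∈ (S.W k).nonunits) :
    (S.W k).comap (ρ : L →+* L) = S.W m := by
  have hcomap : ((S.W k).comap (ρ : L →+* L)).comap (algebraMap F L) = V := by
    ext x
    rw [ValuationSubring.mem_comap, ValuationSubring.mem_comap]
    change ρ (algebraMap F L x) ∈ S.W k ↔ _
    rw [AlgHom.commutes, ← ValuationSubring.mem_comap, S.W_comap hk]
  obtain ⟨m', hm', hW⟩ := S.W_unique hcomap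
  rw [hW]
  by_contra hne
  have hmm : m ≠ m' := fun h => hne (by rw [h])
  -- `z − c m'` is a non-unit of `W m' = ρ⁻¹ (W k)`
  have h1 := S.W_z_mem hm'
  rw [← hW, tres5_mem_nonunits_comap] at h1
  change ρ (S.z - tres5Iota V L (S.c m')) ∈ (S.W k).nonunits at h1
  rw [map_sub, tres5Iota_apply, AlgHom.commutes, ← tres5Iota_apply] at h1
  have h2 := (S.W k).nonunits.sub_mem h1 h
  have e : ρ S.z - tres5Iota V L (S.c m') - (ρ S.z - tres5Iota V L (S.c m)) =
      tres5Iota V L (S.c m - S.c m') := by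
    rw [map_sub]
    ring
  rw [e, ValuationSubring.mem_nonunits_iff,
    S.ι_valuation_eq_one hk (S.hc m hm m' hm' hmm)] at h2
  exact lt_irrefl _ h2

end Tres5Gen

end Fermat.Agent.R38
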