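/-
ROW 38, TRES, piece FAC-COV [T5 (b)] (helper78), part 3: the INTEGER ORDER at a discrete valuation
subring and the DECK CONGRUENCE.  Pure algebra (Mathlib only).

`W` a valuation subring of a field `L`, `π ∈ 𝔪_W`, `π ≠ 0`.
* `tres5Ord W π f : ℤ` : the `m` with `W.valuation (f / π ^ m) = 1` (`0` if there is none);
* `tres5Ord_eq`, `tres5Ord_spec`, `tres5Ord_mul`, `tres5Ord_pow`, `tres5Ord_inv`, `tres5Ord_unit`,
  `tres5Ord_self`, `tres5Ord_nonneg_iff`;
* `tres5Ord_comap`  : `ord_{ρ⁻¹ W} (f) = ord_W (ρ f)` when `ρ π = π`;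
* `tres5Ord_algebraMap` : `ord_W (c) = ord_V (c)` for `c ∈ F` when `W ∩ F = V`;
* `tres5_deck_congr` : **(DECK)** if `ρ⁻¹ W = W′`, `ρ u = a · u · h ^ p` with `a ∈ F`,
  `p ∣ ord_V a`, then `ord_{W′} u ≡ ord_W u mod p`;
* `Tres5Gen.deck_congr` : the same for the valuation subrings `S.W k`, `S.W m` of a split
  monogenic extension (`R38/TresCover.lean`).
-/
import Fermat.Agent.R38.TresCover

set_option autoImplicit false
set_option linter.style.haveILetI false

namespace Fermat.Agent.R38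

section Ord

variable {L : Type*} [Field L]

/-- the integer order of `f` at `W` with respect to the uniformizer `π` -/
noncomputable def tres5Ord (W : ValuationSubring L) (π f : L) : ℤ :=
  open Classical in
  if h : ∃ m : ℤ, W.valuation (f / π ^ m) = 1 then h.choose else 0

variable {W : ValuationSubring L} {π : L}

theorem tres5_zpow_val_eq_one (hπ : π ∈ W.nonunits) (hπ0 : π ≠ 0) {m : ℤ}
    (h : W.valuation (π ^ m) = 1) : m = 0 := by
  rw [ValuationSubring.mem_nonunits_iff] at hπ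
  have h0 : W.valuation π ≠ 0 := (Valuation.ne_zero_iff _).2 hπ0
  rw [map_zpow₀] at h
  by_contra hm
  rcases lt_or_gt_of_ne hm with hneg | hpos
  · obtain ⟨r, hr⟩ := Int.exists_eq_neg_ofNat (le_of_lt hneg)
    have hr0 : r ≠ 0 := by
      rintro rfl
      simp at hr
      exact hm hr
    rw [hr, zpow_neg, zpow_natCast, inv_eq_one] at h
    have := pow_lt_one₀ zero_le hπ hr0
    rw [h] at this
    exact lt_irrefl _ this
  · obtain ⟨r, hr⟩ := Int.eq_ofNat_of_zero_le (le_of_lt hpos)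
    have hr0 : r ≠ 0 := by
      rintro rfl
      simp at hr
      exact hm hr
    rw [hr, zpow_natCast] at h
    have := pow_lt_one₀ zero_le hπ hr0
    rw [h] at this
    exact lt_irrefl _ this

/-- uniqueness of the order -/
theorem tres5Ord_unique (hπ : π ∈ W.nonunits) (hπ0 : π ≠ 0) {f : L} {m m' : ℤ}
    (h : W.valuation (f / π ^ m) = 1) (h' : W.valuation (f / π ^ m') = 1) : m = m' := by
  have hf : f ≠ 0 := by
    rintro rfl
    rw [zero_div, map_zero] at h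
    exact zero_ne_one h
  have e : π ^ (m' - m) = (f / π ^ m) / (f / π ^ m') := by
    rw [zpow_sub₀ hπ0]
    have h1 := zpow_ne_zero m hπ0
    have h2 := zpow_ne_zero m' hπ0
    field_simp
  have h1 : W.valuation (π ^ (m' - m)) = 1 := by
    rw [e, map_div₀, h, h', div_one]
  have := tres5_zpow_val_eq_one hπ hπ0 h1
  omega

theorem tres5Ord_eq (hπ : π ∈ W.nonunits) (hπ0 : π ≠ 0) {f : L} {m : ℤ}
    (h : W.valuation (f / π ^ m) = 1) : tres5Ord W π f = m := by
  have hex : ∃ m : ℤ, W.valuation (f / π ^ m) = 1 := ⟨m, h⟩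
  unfold tres5Ord
  rw [dif_pos hex]
  exact tres5Ord_unique hπ hπ0 hex.choose_spec h

theorem tres5Ord_spec (hπ : π ∈ W.nonunits) (hπ0 : π ≠ 0) {f : L}
    (h : ∃ m : ℤ, W.valuation (f / π ^ m) = 1) :
    W.valuation (f / π ^ tres5Ord W π f) = 1 := by
  obtain ⟨m, hm⟩ := h
  rw [tres5Ord_eq hπ hπ0 hm]
  exact hm

theorem tres5Ord_mul (hπ : π ∈ W.nonunits) (hπ0 : π ≠ 0) {f g : L}
    (hf : ∃ m : ℤ, W.valuation (f / π ^ m) = 1) (hg : ∃ m : ℤ, W.valuation (g / π ^ m) = 1) :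
    tres5Ord W π (f * g) = tres5Ord W π f + tres5Ord W π g := by
  obtain ⟨m, hm⟩ := hf
  obtain ⟨m', hm'⟩ := hg
  rw [tres5Ord_eq hπ hπ0 hm, tres5Ord_eq hπ hπ0 hm']
  apply tres5Ord_eq hπ hπ0
  have e : f * g / π ^ (m + m') = (f / π ^ m) * (g / π ^ m') := by
    rw [zpow_add₀ hπ0]
    have h1 := zpow_ne_zero m hπ0
    have h2 := zpow_ne_zero m' hπ0
    field_simp
  rw [e, map_mul, hm, hm', one_mul]

theorem tres5Ord_pow (hπ : π ∈ W.nonunits) (hπ0 : π ≠ 0) {f : L}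
    (hf : ∃ m : ℤ, W.valuation (f / π ^ m) = 1) (r : ℕ) :
    tres5Ord W π (f ^ r) = r * tres5Ord W π f := by
  obtain ⟨m, hm⟩ := hf
  rw [tres5Ord_eq hπ hπ0 hm]
  apply tres5Ord_eq hπ hπ0
  have e : f ^ r / π ^ ((r : ℤ) * m) = (f / π ^ m) ^ r := by
    rw [div_pow, ← zpow_natCast (π ^ m) r, ← zpow_mul, mul_comm]
  rw [e, map_pow, hm, one_pow]

theorem tres5Ord_unit (hπ : π ∈ W.nonunits) (hπ0 : π ≠ 0) {f : L}
    (hf : W.valuation f = 1) : tres5Ord W π f = 0 :=
  tres5Ord_eq hπ hπ0 (by rw [zpow_zero, div_one]; exact hf)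

theorem tres5Ord_self (hπ : π ∈ W.nonunits) (hπ0 : π ≠ 0) : tres5Ord W π π = 1 :=
  tres5Ord_eq hπ hπ0 (by rw [zpow_one, div_self hπ0, map_one])

/-- the order at a pull-back -/
theorem tres5Ord_comap (hπ : π ∈ W.nonunits) (hπ0 : π ≠ 0) (ρ : L →+* L) (hρ : ρ π = π) {f : L}
    (hf : ∃ m : ℤ, W.valuation (ρ f / π ^ m) = 1) :
    tres5Ord (W.comap ρ) π f = tres5Ord W π (ρ f) := by
  obtain ⟨m, hm⟩ := hf
  rw [tres5Ord_eq hπ hπ0 hm]
  have hπ' : π ∈ (W.comap ρ).nonunits := by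
    rw [tres5_mem_nonunits_comap, hρ]
    exact hπ
  apply tres5Ord_eq hπ' hπ0
  have hne : ρ f / π ^ m ≠ 0 := by
    intro h0
    rw [h0, map_zero] at hm
    exact zero_ne_one hm
  have hρe : ρ (f / π ^ m) = ρ f / π ^ m := by
    rw [map_div₀, map_zpow₀, hρ]
  have hne' : f / π ^ m ≠ 0 := by
    intro h0
    rw [h0, map_zero] at hρe
    exact hne hρe.symm
  rw [tres5_valuation_eq_one_iff _ hne', ValuationSubring.mem_comap, ValuationSubring.mem_comap,
    map_inv₀, hρe]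
  exact (tres5_valuation_eq_one_iff _ hne).1 hm

end Ord

section Base

variable {F L : Type*} [Field F] [Field L] [Algebra F L]

/-- the order of the elements of the base field -/
theorem tres5Ord_algebraMap {V : ValuationSubring F} {W : ValuationSubring L}
    (hWV : W.comap (algebraMap F L) = V) {π : F} (hπ : π ∈ V.nonunits) (hπ0 : π ≠ 0) {c : F}
    (hc : ∃ m : ℤ, V.valuation (c / π ^ m) = 1) :
    tres5Ord W (algebraMap F L π) (algebraMap F L c) = tres5Ord V π c := by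
  obtain ⟨m, hm⟩ := hc
  rw [tres5Ord_eq hπ hπ0 hm]
  have hπ' : algebraMap F L π ∈ W.nonunits := by
    rw [← tres5_mem_nonunits_comap, hWV]
    exact hπ
  apply tres5Ord_eq hπ' ((_root_.map_ne_zero _).2 hπ0)
  have hne : c / π ^ m ≠ 0 := by
    intro h0
    rw [h0, map_zero] at hm
    exact zero_ne_one hm
  have e : algebraMap F L c / algebraMap F L π ^ m = algebraMap F L (c / π ^ m) := by
    rw [map_div₀, map_zpow₀]
  rw [e, tres5_valuation_eq_one_iff _ ((_root_.map_ne_zero _).2 hne), ← map_inv₀,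
    ← ValuationSubring.mem_comap, ← ValuationSubring.mem_comap, hWV]
  exact (tres5_valuation_eq_one_iff _ hne).1 hm

/-- **(DECK)**, abstract form: if `ρ⁻¹ W = W′` and `ρ u = a · u · h ^ p` with `a ∈ F`,
`p ∣ ord_V a`, then `ord_{W′} u ≡ ord_W u mod p`. -/
theorem tres5_deck_congr {V : ValuationSubring F} {W W' : ValuationSubring L}
    (hWV : W.comap (algebraMap F L) = V) {π : F} (hπ : π ∈ V.nonunits) (hπ0 : π ≠ 0)
    (hunif : ∀ f : L, f ≠ 0 → ∃ m : ℤ, W.valuation (f / algebraMap F L π ^ m) = 1)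
    (ρ : L →ₐ[F] L) (hρ : W.comap (ρ : L →+* L) = W') (p : ℕ) {u h : L} {a : F}
    (hu : u ≠ 0) (ha : a ≠ 0) (hh : h ≠ 0)
    (hVa : ∃ m : ℤ, V.valuation (a / π ^ m) = 1)
    (hρu : ρ u = algebraMap F L a * u * h ^ p) (hpa : (p : ℤ) ∣ tres5Ord V π a) :
    (p : ℤ) ∣ tres5Ord W' (algebraMap F L π) u - tres5Ord W (algebraMap F L π) u := by
  have hπ' : algebraMap F L π ∈ W.nonunits := by
    rw [← tres5_mem_nonunits_comap, hWV]
    exact hπ
  have hπ0' : algebraMap F L π ≠ 0 := (_root_.map_ne_zero _).2 hπ0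
  have hρπ : (ρ : L →+* L) (algebraMap F L π) = algebraMap F L π := ρ.commutes π
  have hρu0 : ρ u ≠ 0 := (_root_.map_ne_zero _).2 hu
  have h1 : tres5Ord W' (algebraMap F L π) u = tres5Ord W (algebraMap F L π) (ρ u) := by
    rw [← hρ]
    exact tres5Ord_comap hπ' hπ0' (ρ : L →+* L) hρπ (hunif _ hρu0)
  have ha' : algebraMap F L a ≠ 0 := (_root_.map_ne_zero _).2 ha
  have h2 : tres5Ord W (algebraMap F L π) (ρ u) =
      tres5Ord V π a + tres5Ord W (algebraMap F L π) u +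
        p * tres5Ord W (algebraMap F L π) h := by
    rw [hρu, tres5Ord_mul hπ' hπ0' (hunif _ (mul_ne_zero ha' hu)) (hunif _ (pow_ne_zero p hh)),
      tres5Ord_mul hπ' hπ0' (hunif _ ha') (hunif _ hu), tres5Ord_pow hπ' hπ0' (hunif _ hh),
      tres5Ord_algebraMap hWV hπ hπ0 hVa]
  rw [h1, h2]
  obtain ⟨k, hk⟩ := hpa
  exact ⟨k + tres5Ord W (algebraMap F L π) h, by rw [hk]; ring⟩

end Base

namespace Tres5Gen

variable {F L : Type*} [Field F] [Field L] [Algebra F L] {V : ValuationSubring F} {n : ℕ}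
  (S : Tres5Gen F L V n)

/-- the integer order at `W k` -/
noncomputable def ord (k : ℕ) (f : L) : ℤ := tres5Ord (S.W k) (algebraMap F L S.π) f

theorem ord_eq {k : ℕ} (hk : k < n) {f : L} {m : ℤ}
    (h : (S.W k).valuation (f / algebraMap F L S.π ^ m) = 1) : S.ord k f = m :=
  tres5Ord_eq (S.π_mem_nonunits hk) ((_root_.map_ne_zero _).2 S.hπ0) h

theorem ord_spec {k : ℕ} (hk : k < n) {f : L} (hf : f ≠ 0) :
    (S.W k).valuation (f / algebraMap F L S.π ^ S.ord k f) = 1 :=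
  tres5Ord_spec (S.π_mem_nonunits hk) ((_root_.map_ne_zero _).2 S.hπ0) (S.W_unif hk hf)

theorem ord_mul {k : ℕ} (hk : k < n) {f g : L} (hf : f ≠ 0) (hg : g ≠ 0) :
    S.ord k (f * g) = S.ord k f + S.ord k g :=
  tres5Ord_mul (S.π_mem_nonunits hk) ((_root_.map_ne_zero _).2 S.hπ0) (S.W_unif hk hf)
    (S.W_unif hk hg)

theorem ord_pow {k : ℕ} (hk : k < n) {f : L} (hf : f ≠ 0) (r : ℕ) :
    S.ord k (f ^ r) = r * S.ord k f :=
  tres5Ord_pow (S.π_mem_nonunits hk) ((_root_.map_ne_zero _).2 S.hπ0) (S.W_unif hk hf) r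

theorem ord_algebraMap {k : ℕ} (hk : k < n) {c : F} (hc : c ≠ 0) :
    S.ord k (algebraMap F L c) = tres5Ord V S.π c :=
  tres5Ord_algebraMap (S.W_comap hk) S.hπ S.hπ0 (S.hunif c hc)

/-- the order at `W k` is `≥ 0` exactly on `W k` -/
theorem ord_nonneg_iff {k : ℕ} (hk : k < n) {f : L} (hf : f ≠ 0) :
    0 ≤ S.ord k f ↔ f ∈ S.W k := by
  have hπ0 : algebraMap F L S.π ≠ 0 := (_root_.map_ne_zero _).2 S.hπ0
  have hs := S.ord_spec hk hf
  have hne : f / algebraMap F L S.π ^ S.ord k f ≠ 0 := div_ne_zero hf (zpow_ne_zero _ hπ0)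
  have hu := (tres5_valuation_eq_one_iff _ hne).1 hs
  constructor
  · intro h
    obtain ⟨r, hr⟩ := Int.eq_ofNat_of_zero_le h
    have e : f = f / algebraMap F L S.π ^ S.ord k f * algebraMap F L S.π ^ r := by
      rw [hr, zpow_natCast, div_mul_cancel₀ _ (pow_ne_zero r hπ0)]
    rw [e]
    exact (S.W k).mul_mem _ _ hu.1 ((S.W k).pow_mem
      (by have := S.ι_mem_W hk S.πV; exact this) r)
  · intro h
    by_contra hneg
    obtain ⟨r, hr⟩ := Int.exists_eq_neg_ofNat (le_of_lt (not_le.1 hneg))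
    have hr1 : 1 ≤ r := by omega
    have hπnu := S.π_mem_nonunits hk
    rw [tres5_mem_nonunits_iff] at hπnu
    rcases hπnu with h0 | hinv
    · exact hπ0 h0
    · apply hinv
      obtain ⟨r', rfl⟩ : ∃ r', r = r' + 1 := ⟨r - 1, by omega⟩
      have e : (algebraMap F L S.π)⁻¹ =
          f * (f / algebraMap F L S.π ^ S.ord k f)⁻¹ * algebraMap F L S.π ^ r' := by
        rw [hr, zpow_neg, zpow_natCast]
        have := pow_ne_zero (r' + 1) hπ0
        field_simp
        ring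
      rw [e]
      exact (S.W k).mul_mem _ _ ((S.W k).mul_mem _ _ h hu.2)
        ((S.W k).pow_mem (by have := S.ι_mem_W hk S.πV; exact this) r')

/-- **(DECK)** for the valuation subrings of a split monogenic extension: if `ρ z ≡ c m`
modulo `𝔪(W k)` and `ρ u = a · u · h ^ p` with `a ∈ F`, `p ∣ ord_V a`, then
`ord_{W m} u ≡ ord_{W k} u mod p`. -/
theorem deck_congr (ρ : L →ₐ[F] L) {k m : ℕ} (hk : k < n) (hm : m < n)
    (hρ : ρ S.z - tres5Iota V L (S.c m) ∈ (S.W k).nonunits) (p : ℕ) {u h : L} {a : F}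
    (hu : u ≠ 0) (ha : a ≠ 0) (hh : h ≠ 0)
    (hρu : ρ u = algebraMap F L a * u * h ^ p) (hpa : (p : ℤ) ∣ tres5Ord V S.π a) :
    (p : ℤ) ∣ S.ord m u - S.ord k u :=
  tres5_deck_congr (S.W_comap hk) S.hπ S.hπ0 (fun _ hf => S.W_unif hk hf) ρ
    (S.W_deck ρ hk hm hρ) p hu ha hh (S.hunif a ha) hρu hpa

end Tres5Gen

end Fermat.Agent.R38
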