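/-
ROW 38, TRES, piece FAC-COV [T5 (b)] (helper78), part 4: THE SPLIT KUMMER COVER as an instance of
`Tres5Gen` (`R38/TresCover.lean`).  Pure algebra (Mathlib only).

Setting (`Tres5Kum F L V p`): `F ⊆ L` fields, `p` a prime, `ζ ∈ F` a primitive `p`-th root of
unity, `lam := ζ − 1`, `w ∈ F`, `y ∈ L` with `y ^ p = w`, `L = F(y)`, `w` not a `p`-th power in
`F`;  `V` a DISCRETE valuation subring of `F` with uniformizer `π`, at which `w` is SPLIT:
`g ≠ 0`, `V.valuation (w / g ^ p − 1) ≤ V.valuation (lam ^ p * π)`   (shape (H1) of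
`S33.StmtWildFieldAt`).

`tres5T g ζ y k := (y / g − ζ ^ k) / lam ∈ L`;  `∏_{k < p} tres5T k = (w / g ^ p − 1) / lam ^ p
∈ π V`, and `tres5T j − tres5T k = (ζ ^ k − ζ ^ j) / lam ∈ V^×` for `j ≢ k mod p`.

* `Tres5Kum.gen : Tres5Gen F L V p` with `z = tres5T 0 = (y / g − 1) / lam`,
  `c k = (ζ ^ k − 1) / (ζ − 1)`, `R = − (w / g ^ p − 1) / (lam ^ p π)`;
* `Tres5Kum.W k := gen.W (k % p)` (`k : ℕ`), with `W_t_mem : tres5T k ∈ 𝔪(W k)`,
  `W_comap`, `W_unif`, `W_residue`, `W_dense`, `W_unique`, `W_add : W (k + p) = W k`,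
  `W_eq_iff`;
* `Tres5Kum.W_deck` : for `ρ : L →ₐ[F] L` with `ρ y = ζ ^ j · y`:  `(W k).comap ρ = W (k + j)`;
* `Tres5Kum.deck_congr` : `ρ y = ζ ^ j y`, `ρ u = a u h ^ p`, `p ∣ ord_V a` ⇒
  `ord_{W (k + j)} u ≡ ord_{W k} u mod p`;  `Tres5Kum.ord_congr` : if moreover `p ∤ j`, all the
  orders `ord_{W k} u` are congruent modulo `p`.
-/
import Fermat.Agent.R38.TresCoverOrd

set_option autoImplicit false
set_option linter.style.haveILetI false

namespace Fermat.Agent.R38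

open Polynomial

/-! ### Roots of unity in a valuation subring -/

section Roots

variable {F : Type*} [Field F] (V : ValuationSubring F) {p : ℕ} {ζ : F}

theorem tres5_val_eq_one_of_mul {x y : F} (hx : x ∈ V) (hy : y ∈ V) (h : x * y = 1) :
    V.valuation x = 1 := by
  have h1 : V.valuation x ≤ 1 := (V.valuation_le_one_iff x).2 hx
  have h2 : V.valuation y ≤ 1 := (V.valuation_le_one_iff y).2 hy
  have h3 : V.valuation x * V.valuation y = 1 := by rw [← map_mul, h, map_one]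
  rcases lt_or_eq_of_le h1 with h4 | h4
  · exfalso
    have h5 : V.valuation x * V.valuation y < 1 := by
      calc V.valuation x * V.valuation y ≤ V.valuation x * 1 := by gcongr
        _ = V.valuation x := mul_one _
        _ < 1 := h4
    rw [h3] at h5
    exact lt_irrefl _ h5
  · exact h4

theorem tres5_zeta_val (hp : p ≠ 0) (hζ : ζ ^ p = 1) : V.valuation ζ = 1 := by
  have h : V.valuation ζ ^ p = 1 := by rw [← map_pow, hζ, map_one]
  exact (pow_eq_one_iff_of_nonneg zero_le hp).mp h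

theorem tres5_zeta_mem (hp : p ≠ 0) (hζ : ζ ^ p = 1) : ζ ∈ V := by
  rw [← V.valuation_le_one_iff, tres5_zeta_val V hp hζ]

theorem tres5_zeta_pow_val (hp : p ≠ 0) (hζ : ζ ^ p = 1) (k : ℕ) : V.valuation (ζ ^ k) = 1 := by
  rw [map_pow, tres5_zeta_val V hp hζ, one_pow]

theorem tres5_geom_mem (hp : p ≠ 0) (hζ : ζ ^ p = 1) (a m : ℕ) :
    ∑ i ∈ Finset.range m, (ζ ^ a) ^ i ∈ V := by
  refine V.toSubring.sum_mem fun i _ => ?_
  exact V.pow_mem (V.pow_mem (tres5_zeta_mem V hp hζ) a) i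

/-- `(ζ ^ m − 1) / (ζ − 1)` is a unit of `V` for `p ∤ m`. -/
theorem tres5_cyc_unit (hp : p.Prime) (hζ : IsPrimitiveRoot ζ p) {m : ℕ} (hm : ¬ p ∣ m) :
    V.valuation ((ζ ^ m - 1) / (ζ - 1)) = 1 := by
  have hp0 : p ≠ 0 := hp.ne_zero
  have hζ1 : ζ ≠ 1 := hζ.ne_one hp.one_lt
  have hζm : ζ ^ m ≠ 1 := fun h => hm ((hζ.pow_eq_one_iff_dvd m).1 h)
  have hcop : Nat.Coprime m p := (Nat.Coprime.symm ((Nat.Prime.coprime_iff_not_dvd hp).2 hm))
  -- `b` with `m * b ≡ 1 mod p`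
  obtain ⟨b, -, hb⟩ := Nat.exists_mul_mod_eq_one_of_coprime hcop hp.one_lt
  have hpow : (ζ ^ m) ^ b = ζ := by
    rw [← pow_mul, pow_eq_pow_mod (m * b) hζ.pow_eq_one, hb, pow_one]
  have e1 : (ζ ^ m - 1) / (ζ - 1) = ∑ i ∈ Finset.range m, ζ ^ i := (geom_sum_eq hζ1 m).symm
  have e2 : (ζ - 1) / (ζ ^ m - 1) = ∑ i ∈ Finset.range b, (ζ ^ m) ^ i := by
    rw [geom_sum_eq hζm b, hpow]
  refine tres5_val_eq_one_of_mul V (y := (ζ - 1) / (ζ ^ m - 1)) ?_ ?_ ?_
  · rw [e1]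
    have := tres5_geom_mem V hp0 hζ.pow_eq_one 1 m
    simpa using this
  · rw [e2]
    exact tres5_geom_mem V hp0 hζ.pow_eq_one m b
  · have h1 : ζ - 1 ≠ 0 := sub_ne_zero.2 hζ1
    have h2 : ζ ^ m - 1 ≠ 0 := sub_ne_zero.2 hζm
    field_simp

/-- `(ζ ^ j − ζ ^ k) / (ζ − 1) ∈ V`. -/
theorem tres5_d_mem (hp : p.Prime) (hζ : IsPrimitiveRoot ζ p) (j k : ℕ) :
    (ζ ^ j - ζ ^ k) / (ζ - 1) ∈ V := by
  have hp0 : p ≠ 0 := hp.ne_zero
  have hζ1 : ζ ≠ 1 := hζ.ne_one hp.one_lt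
  have key : ∀ a m : ℕ, (ζ ^ (a + m) - ζ ^ a) / (ζ - 1) ∈ V := by
    intro a m
    have e : (ζ ^ (a + m) - ζ ^ a) / (ζ - 1) = ζ ^ a * ∑ i ∈ Finset.range m, ζ ^ i := by
      rw [geom_sum_eq hζ1 m, pow_add]
      ring
    rw [e]
    have := tres5_geom_mem V hp0 hζ.pow_eq_one 1 m
    simp only [pow_one] at this
    exact V.mul_mem _ _ (V.pow_mem (tres5_zeta_mem V hp0 hζ.pow_eq_one) a) this
  rcases le_total k j with h | h
  · obtain ⟨m, rfl⟩ := Nat.exists_eq_add_of_le h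
    exact key k m
  · obtain ⟨m, rfl⟩ := Nat.exists_eq_add_of_le h
    have e : (ζ ^ j - ζ ^ (j + m)) / (ζ - 1) = -((ζ ^ (j + m) - ζ ^ j) / (ζ - 1)) := by ring
    rw [e]
    exact V.neg_mem _ (key j m)

/-- `(ζ ^ j − ζ ^ k) / (ζ − 1)` is a unit of `V` for `j ≢ k mod p`. -/
theorem tres5_d_unit (hp : p.Prime) (hζ : IsPrimitiveRoot ζ p) {j k : ℕ}
    (hjk : ¬ j ≡ k [MOD p]) : V.valuation ((ζ ^ j - ζ ^ k) / (ζ - 1)) = 1 := by
  have hp0 : p ≠ 0 := hp.ne_zero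
  have key : ∀ a m : ℕ, ¬ p ∣ m → V.valuation ((ζ ^ (a + m) - ζ ^ a) / (ζ - 1)) = 1 := by
    intro a m hm
    have e : (ζ ^ (a + m) - ζ ^ a) / (ζ - 1) = ζ ^ a * ((ζ ^ m - 1) / (ζ - 1)) := by
      rw [pow_add]
      ring
    rw [e, map_mul, tres5_zeta_pow_val V hp0 hζ.pow_eq_one, one_mul,
      tres5_cyc_unit V hp hζ hm]
  rcases le_total k j with h | h
  · obtain ⟨m, rfl⟩ := Nat.exists_eq_add_of_le h
    refine key k m fun hm => hjk ?_
    exact ((Nat.modEq_iff_dvd' (Nat.le_add_right k m)).2 (by simpa using hm)).symm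
  · obtain ⟨m, rfl⟩ := Nat.exists_eq_add_of_le h
    have e : (ζ ^ j - ζ ^ (j + m)) / (ζ - 1) = -((ζ ^ (j + m) - ζ ^ j) / (ζ - 1)) := by ring
    rw [e, Valuation.map_neg]
    refine key j m fun hm => hjk ?_
    exact (Nat.modEq_iff_dvd' (Nat.le_add_right j m)).2 (by simpa using hm)

end Roots

/-! ### The functions `t_k` -/

section T

variable {F L : Type*} [Field F] [Field L] [Algebra F L]

/-- `t_k = (y / g − ζ ^ k) / (ζ − 1)` -/
noncomputable def tres5T (g ζ : F) (y : L) (k : ℕ) : L :=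
  (y / algebraMap F L g - algebraMap F L (ζ ^ k)) / algebraMap F L (ζ - 1)

theorem tres5T_eq_sub (g : F) {ζ : F} (hζ1 : ζ ≠ 1) (y : L) (j k : ℕ) :
    tres5T g ζ y j = tres5T g ζ y k - algebraMap F L ((ζ ^ j - ζ ^ k) / (ζ - 1)) := by
  have h1 : algebraMap F L (ζ - 1) ≠ 0 := (_root_.map_ne_zero _).2 (sub_ne_zero.2 hζ1)
  unfold tres5T
  rw [map_div₀, map_sub (algebraMap F L) (ζ ^ j) (ζ ^ k)]
  field_simp
  ring

theorem tres5T_mod {p : ℕ} (g : F) {ζ : F} (hζ : ζ ^ p = 1) (y : L) (k : ℕ) :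
    tres5T g ζ y (k % p) = tres5T g ζ y k := by
  unfold tres5T
  rw [← pow_eq_pow_mod k hζ]

theorem tres5T_prod {p : ℕ} (hp : 0 < p) {g ζ w : F} (hζ : IsPrimitiveRoot ζ p)
    {y : L} (hy : y ^ p = algebraMap F L w) :
    ∏ k ∈ Finset.range p, tres5T g ζ y k =
      algebraMap F L ((w / g ^ p - 1) / (ζ - 1) ^ p) := by
  have hinj : Function.Injective (algebraMap F L) := (algebraMap F L).injective
  have hζL : IsPrimitiveRoot (algebraMap F L ζ) p := hζ.map_of_injective hinj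
  have h1 := X_pow_sub_C_eq_prod hζL hp (one_pow p : (1 : L) ^ p = 1)
  have h2 := congrArg (Polynomial.eval (y / algebraMap F L g)) h1
  simp only [eval_sub, eval_pow, eval_X, eval_C, eval_prod, mul_one] at h2
  unfold tres5T
  rw [Finset.prod_div_distrib, Finset.prod_const, Finset.card_range]
  have h3 : ∏ k ∈ Finset.range p, (y / algebraMap F L g - algebraMap F L (ζ ^ k)) =
      (y / algebraMap F L g) ^ p - 1 := by
    rw [h2]
    refine Finset.prod_congr rfl fun k _ => ?_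
    rw [map_pow]
  rw [h3, div_pow, hy]
  simp only [map_div₀, map_sub, map_pow, map_one]

/-- the deck transformation on `t` -/
theorem tres5T_deck (g ζ : F) (y : L) (ρ : L →ₐ[F] L) (j : ℕ)
    (hρ : ρ y = algebraMap F L (ζ ^ j) * y) (k : ℕ) :
    ρ (tres5T g ζ y (k + j)) = algebraMap F L (ζ ^ j) * tres5T g ζ y k := by
  unfold tres5T
  rw [map_div₀, map_sub, map_div₀, hρ, AlgHom.commutes, AlgHom.commutes, AlgHom.commutes,
    pow_add, map_mul]
  ring

end T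

/-! ### The data -/

/-- A Kummer extension `L = F(w^{1/p})` which is split at the discrete valuation subring `V`
of `F`. -/
structure Tres5Kum (F L : Type*) [Field F] [Field L] [Algebra F L] (V : ValuationSubring F)
    (p : ℕ) where
  hp : p.Prime
  /-- a primitive `p`-th root of unity -/
  ζ : F
  hζ : IsPrimitiveRoot ζ p
  /-- a uniformizer of `V` -/
  π : F
  hπ : π ∈ V.nonunits
  hπ0 : π ≠ 0
  hunif : ∀ x : F, x ≠ 0 → ∃ n : ℤ, V.valuation (x / π ^ n) = 1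
  /-- the Kummer element -/
  w : F
  /-- a `p`-th root of `w` modulo `(ζ - 1) ^ p * π` -/
  g : F
  hg : g ≠ 0
  hsplit : V.valuation (w / g ^ p - 1) ≤ V.valuation ((ζ - 1) ^ p * π)
  /-- the Kummer generator -/
  y : L
  hy : y ^ p = algebraMap F L w
  htop : IntermediateField.adjoin F {y} = ⊤
  hw : ∀ c : F, c ^ p ≠ w

namespace Tres5Kum

variable {F L : Type*} [Field F] [Field L] [Algebra F L] {V : ValuationSubring F} {p : ℕ}
  (S : Tres5Kum F L V p)

include S in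
theorem hp0 : p ≠ 0 := S.hp.ne_zero

theorem hζ1 : S.ζ ≠ 1 := S.hζ.ne_one S.hp.one_lt

theorem lam_ne_zero : S.ζ - 1 ≠ 0 := sub_ne_zero.2 S.hζ1

theorem π_mem : S.π ∈ V := by
  rw [← V.valuation_le_one_iff]
  exact le_of_lt ((V.mem_nonunits_iff).1 S.hπ)

/-- the constant `c = (w / g ^ p − 1) / (ζ − 1) ^ p` -/
noncomputable def cst : F := (S.w / S.g ^ p - 1) / (S.ζ - 1) ^ p

/-- `c / π ∈ V` -/
theorem cst_div_mem : S.cst / S.π ∈ V := by
  rw [← V.valuation_le_one_iff]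
  have h := S.hsplit
  have e : S.cst / S.π = (S.w / S.g ^ p - 1) / ((S.ζ - 1) ^ p * S.π) := by
    unfold cst
    rw [div_div]
  rw [e, map_div₀]
  exact div_le_one_of_le₀ h zero_le

/-- the functions `t_k` -/
noncomputable def t (k : ℕ) : L := tres5T S.g S.ζ S.y k

theorem t_prod : ∏ k ∈ Finset.range p, S.t k = algebraMap F L S.cst :=
  tres5T_prod S.hp.pos S.hζ S.hy

theorem t_mod (k : ℕ) : S.t (k % p) = S.t k := tres5T_mod S.g S.hζ.pow_eq_one S.y k

/-- the differences `d j k = (ζ ^ j − ζ ^ k) / (ζ − 1)`, as elements of `V` -/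
noncomputable def d (j k : ℕ) : ↥V :=
  ⟨(S.ζ ^ j - S.ζ ^ k) / (S.ζ - 1), tres5_d_mem V S.hp S.hζ j k⟩

theorem d_mod (k : ℕ) : S.d (k % p) 0 = S.d k 0 := by
  apply Subtype.ext
  simp [d, ← pow_eq_pow_mod k S.hζ.pow_eq_one]

theorem t_eq_sub (j k : ℕ) : S.t j = S.t k - tres5Iota V L (S.d j k) :=
  tres5T_eq_sub S.g S.hζ1 S.y j k

/-! ### The degree of `L / F` -/

theorem isIntegral_y : IsIntegral F S.y :=
  ⟨X ^ p - C S.w, monic_X_pow_sub_C _ S.hp0, by simp [S.hy]⟩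

theorem minpoly_y : minpoly F S.y = X ^ p - C S.w :=
  (minpoly.eq_of_irreducible_of_monic (X_pow_sub_C_irreducible_of_prime S.hp S.hw)
    (by simp [S.hy]) (monic_X_pow_sub_C _ S.hp0)).symm

include S in
theorem finiteDimensional : FiniteDimensional F L := by
  haveI : FiniteDimensional F ↥(IntermediateField.adjoin F {S.y}) :=
    IntermediateField.adjoin.finiteDimensional S.isIntegral_y
  have e : ↥(IntermediateField.adjoin F {S.y}) ≃ₗ[F] L := by
    rw [S.htop]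
    exact (IntermediateField.topEquiv (F := F) (E := L)).toLinearEquiv
  exact Module.Finite.equiv e

include S in
theorem finrank_eq : Module.finrank F L = p := by
  haveI := S.finiteDimensional
  rw [← (Field.primitive_element_iff_minpoly_natDegree_eq F S.y).1 S.htop, S.minpoly_y,
    natDegree_X_pow_sub_C]

theorem y_eq (k : ℕ) :
    S.y = algebraMap F L S.g * (algebraMap F L (S.ζ - 1) * S.t k + algebraMap F L (S.ζ ^ k)) := by
  have h1 : algebraMap F L (S.ζ - 1) ≠ 0 := (_root_.map_ne_zero _).2 S.lam_ne_zero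
  have h2 : algebraMap F L S.g ≠ 0 := (_root_.map_ne_zero _).2 S.hg
  unfold t tres5T
  field_simp
  ring

theorem adjoin_t (k : ℕ) : IntermediateField.adjoin F {S.t k} = ⊤ := by
  rw [eq_top_iff, ← S.htop, IntermediateField.adjoin_simple_le_iff]
  rw [S.y_eq k]
  have ht : S.t k ∈ IntermediateField.adjoin F {S.t k} :=
    IntermediateField.mem_adjoin_simple_self F _
  exact mul_mem (IntermediateField.algebraMap_mem _ _)
    (add_mem (mul_mem (IntermediateField.algebraMap_mem _ _) ht)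
      (IntermediateField.algebraMap_mem _ _))

theorem residue_d_ne_zero {j k : ℕ} (hjk : ¬ j ≡ k [MOD p]) :
    IsLocalRing.residue ↥V (S.d j 0 - S.d k 0) ≠ 0 := by
  rw [Ne, IsLocalRing.residue_eq_zero_iff, V.valuation_lt_one_iff]
  have e : ((S.d j 0 - S.d k 0 : ↥V) : F) = (S.ζ ^ j - S.ζ ^ k) / (S.ζ - 1) := by
    change (S.ζ ^ j - S.ζ ^ 0) / (S.ζ - 1) - (S.ζ ^ k - S.ζ ^ 0) / (S.ζ - 1) = _
    ring
  rw [e, tres5_d_unit V S.hp S.hζ hjk]
  exact lt_irrefl _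

/-! ### The instance -/

/-- **The split Kummer cover is a split monogenic extension.** -/
noncomputable def gen : Tres5Gen F L V p where
  hn := S.hp0
  hfin := S.finrank_eq
  π := S.π
  hπ := S.hπ
  hπ0 := S.hπ0
  hunif := S.hunif
  z := S.t 0
  htop := S.adjoin_t 0
  c := fun k => S.d k 0
  hc := by
    intro i hi j hj hij
    refine S.residue_d_ne_zero fun h => hij ?_
    have h1 : i % p = j % p := h
    rwa [Nat.mod_eq_of_lt hi, Nat.mod_eq_of_lt hj] at h1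
  R := -C ⟨S.cst / S.π, S.cst_div_mem⟩
  hR := by
    rw [degree_neg]
    exact lt_of_le_of_lt degree_C_le (by exact_mod_cast S.hp.pos)
  hz := by
    rw [eval₂_add, eval₂_finsetProd, eval₂_mul, eval₂_C, eval₂_neg, eval₂_C]
    have h1 : ∀ i ∈ Finset.range p,
        eval₂ (tres5Iota V L) (S.t 0) (X - C (S.d i 0)) = S.t i := by
      intro i _
      rw [eval₂_sub, eval₂_X, eval₂_C, ← S.t_eq_sub]
    rw [Finset.prod_congr rfl h1, S.t_prod]
    change algebraMap F L S.cst + algebraMap F L S.π * -algebraMap F L (S.cst / S.π) = 0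
    rw [mul_neg, ← map_mul, mul_div_cancel₀ _ S.hπ0, add_neg_cancel]

theorem gen_z : S.gen.z = S.t 0 := rfl

theorem gen_π : S.gen.π = S.π := rfl

theorem gen_c (k : ℕ) : S.gen.c k = S.d k 0 := rfl

/-- **The valuation subrings of `L` over `V`**, indexed by `k : ℕ` (`p`-periodic). -/
noncomputable def W (k : ℕ) : ValuationSubring L := S.gen.W (k % p)

theorem W_def (k : ℕ) : S.W k = S.gen.W (k % p) := rfl

include S in
theorem mod_lt (k : ℕ) : k % p < p := Nat.mod_lt k S.hp.pos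

theorem W_add (k : ℕ) : S.W (k + p) = S.W k := by
  rw [W_def, W_def, Nat.add_mod_right]

theorem W_mod (k : ℕ) : S.W (k % p) = S.W k := by
  rw [W_def, W_def, Nat.mod_mod]

theorem W_comap (k : ℕ) : (S.W k).comap (algebraMap F L) = V :=
  S.gen.W_comap (S.mod_lt k)

/-- `t_k ∈ 𝔪(W k)` -/
theorem W_t_mem (k : ℕ) : S.t k ∈ (S.W k).nonunits := by
  have h := S.gen.W_z_mem (S.mod_lt k)
  rw [gen_z, gen_c, ← S.t_eq_sub, S.t_mod] at h
  exact h

/-- `t_j` is a unit of `W k` for `j ≢ k mod p` -/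
theorem W_t_unit {j k : ℕ} (hjk : ¬ j ≡ k [MOD p]) : (S.W k).valuation (S.t j) = 1 := by
  have h := S.gen.W_z_unit (S.mod_lt j) (S.mod_lt k) hjk
  rw [gen_z, gen_c, ← S.t_eq_sub, S.t_mod] at h
  exact h

theorem W_eq_iff {j k : ℕ} : S.W j = S.W k ↔ j ≡ k [MOD p] := by
  constructor
  · intro h
    by_contra hjk
    have h1 := S.W_t_mem j
    rw [h, ValuationSubring.mem_nonunits_iff, S.W_t_unit hjk] at h1
    exact lt_irrefl _ h1
  · intro h
    have h1 : j % p = k % p := h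
    rw [W_def, W_def, h1]

theorem W_unif (k : ℕ) {f : L} (hf : f ≠ 0) :
    ∃ m : ℤ, (S.W k).valuation (f / algebraMap F L S.π ^ m) = 1 :=
  S.gen.W_unif (S.mod_lt k) hf

theorem W_residue (k : ℕ) {f : L} (hf : f ∈ S.W k) :
    ∃ a : ↥V, f - tres5Iota V L a ∈ (S.W k).nonunits :=
  S.gen.W_residue (S.mod_lt k) hf

theorem W_dense (k : ℕ) {f : L} (hf : f ∈ S.W k) (m : ℕ) :
    ∃ a : ↥V, (f - tres5Iota V L a) / algebraMap F L S.π ^ m ∈ S.W k :=
  S.gen.W_dense (S.mod_lt k) hf m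

theorem W_unique {W' : ValuationSubring L} (hW' : W'.comap (algebraMap F L) = V) :
    ∃ k < p, W' = S.W k := by
  obtain ⟨k, hk, h⟩ := S.gen.W_unique hW'
  exact ⟨k, hk, by rw [h, W_def, Nat.mod_eq_of_lt hk]⟩

/-- **The deck transformations**: if `ρ y = ζ ^ j y` then `ρ⁻¹ (W k) = W (k + j)`. -/
theorem W_deck (ρ : L →ₐ[F] L) (j : ℕ) (hρ : ρ S.y = algebraMap F L (S.ζ ^ j) * S.y) (k : ℕ) :
    (S.W k).comap (ρ : L →+* L) = S.W (k + j) := by
  refine S.gen.W_deck ρ (S.mod_lt k) (S.mod_lt (k + j)) ?_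
  -- `ρ (t 0) − d ((k + j) % p) 0 = ρ (t (k + j)) = ζ ^ j · t k`
  have h1 : ρ (S.t (k + j)) = algebraMap F L (S.ζ ^ j) * S.t k :=
    tres5T_deck S.g S.ζ S.y ρ j hρ k
  have h2 : ρ S.gen.z - tres5Iota V L (S.gen.c ((k + j) % p)) = ρ (S.t (k + j)) := by
    rw [gen_z, gen_c, S.d_mod, S.t_eq_sub (k + j) 0, map_sub, tres5Iota_apply,
      AlgHom.commutes]
  rw [h2, h1]
  refine tres5_mul_mem_nonunits _ ?_ (S.W_t_mem k)
  have := S.gen.ι_mem_W (S.mod_lt k)
    ⟨S.ζ ^ j, V.pow_mem (tres5_zeta_mem V S.hp0 S.hζ.pow_eq_one) j⟩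
  exact this

/-- the integer order at `W k` -/
noncomputable def ord (k : ℕ) (f : L) : ℤ := tres5Ord (S.W k) (algebraMap F L S.π) f

theorem ord_def (k : ℕ) (f : L) : S.ord k f = S.gen.ord (k % p) f := rfl

/-- **(DECK)** for the split Kummer cover. -/
theorem deck_congr (ρ : L →ₐ[F] L) (j : ℕ) (hρ : ρ S.y = algebraMap F L (S.ζ ^ j) * S.y)
    (k : ℕ) {u h : L} {a : F} (hu : u ≠ 0) (ha : a ≠ 0) (hh : h ≠ 0)
    (hρu : ρ u = algebraMap F L a * u * h ^ p) (hpa : (p : ℤ) ∣ tres5Ord V S.π a) :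
    (p : ℤ) ∣ S.ord (k + j) u - S.ord k u :=
  tres5_deck_congr (S.W_comap k) S.hπ S.hπ0 (fun _ hf => S.W_unif k hf) ρ
    (S.W_deck ρ j hρ k) p hu ha hh (S.hunif a ha) hρu hpa

/-- **(DECK)**, all sheets: if `ρ y = ζ y`, `ρ u = a u h ^ p` and `p ∣ ord_V a`, then all the
orders `ord_{W k} u` are congruent modulo `p`. -/
theorem ord_congr (ρ : L →ₐ[F] L) (hρ : ρ S.y = algebraMap F L S.ζ * S.y)
    {u h : L} {a : F} (hu : u ≠ 0) (ha : a ≠ 0) (hh : h ≠ 0)
    (hρu : ρ u = algebraMap F L a * u * h ^ p) (hpa : (p : ℤ) ∣ tres5Ord V S.π a) (k : ℕ) :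
    (p : ℤ) ∣ S.ord k u - S.ord 0 u := by
  induction k with
  | zero => simp
  | succ k ih =>
    have h1 := S.deck_congr ρ 1 (by rw [pow_one]; exact hρ) k hu ha hh hρu hpa
    have e : S.ord (k + 1) u - S.ord 0 u =
        (S.ord (k + 1) u - S.ord k u) + (S.ord k u - S.ord 0 u) := by ring
    rw [e]
    exact dvd_add h1 ih

end Tres5Kum

end Fermat.Agent.R38
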