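import Mathlib

/-!
# Row 38, PKG-TRES, FAC-LOC sub-piece "K-FORM" (helper53): descent of the split generator

The cover `F′ = F(w₀^{1/p})` of `X₀(Mp)` is étale and completely split over the special fibre, but
this is only visible over a big field `E′` (roots of unity, `p`-th roots of constants, rational
supports).  FAC-LOC has to be done over `K = ℚ̄^I`, where the supersingular nodes are thin.  This
file contains the abstract algebra which brings a split generator down to `K`, for an ARBITRARY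
finite group `Γ` (the trace `z ↦ −Tr z` only works for groups of order prime to `p`).

* `tres5k_shift_fix` : a self-map of `ZMod p` commuting with the shift by `s ≠ 0` and having a
  fixed point is the identity.
* `tres5k_fixed_all` (K-d) : if `σ` commutes with the deck transformation `ρ`, permutes the sheets
  `𝔫 i` (`ρ` shifts them by `s`) and fixes ONE sheet, it fixes every sheet.
* `tres5k_crt` (K-a) : `Γ` finite acting on `Λ`, the maximal ideals `𝔫 i` are `Γ`-stable, `R ⊆ Λ^Γ`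
  maps onto every residue field: there is `z ∈ Λ^Γ` with prescribed residues in `R` (norms + CRT).
* `tres5kPoly`, `tres5k_poly_monic`, `tres5k_poly_natDegree`, `tres5k_poly_root`,
  `tres5k_poly_map_deck`, `tres5k_poly_map_comm`, `tres5k_poly_map_residue` (K-b) :
  `P = ∏_{m<p} (X − ρ^m z)` is monic of degree `p`, kills `z`, has coefficients fixed by `ρ` and by
  every automorphism commuting with `ρ` and fixing `z`, and reduces to `X ^ p − X` under a residue
  map `χ` with `χ (ρ^m z) = c + m`, `c ^ p = c`.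
* `tres5k_descent` (K-c) : `1, z, …, z^{p-1}` an `F`-basis of `L`, `σ z = z`, `σ F ⊆ F`: an element
  of `L` fixed by all `σ` has coordinates fixed by all `σ`  (`F′^G = F^G[z]`, `G` arbitrary).
* `tres5k_deck_fixed` : Kummer: `ρ y = ζ y`, `1, y, …, y^{p-1}` an `F`-basis: `ρ x = x → x ∈ F`.
* `tres5k_trace` (K-e) : the trace form, for a group of order `≡ −1 mod p` fixing the sheets.
-/

set_option autoImplicit false

open Polynomial

namespace Fermat.Agent.R38

/-! ### (K-d) the sheets -/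

/-- A self-map of `ZMod p` commuting with the shift by `s ≠ 0` and having a fixed point is the
identity. -/
theorem tres5k_shift_fix {p : ℕ} [hp : Fact p.Prime] (f : ZMod p → ZMod p) (s : ZMod p)
    (hs : s ≠ 0) (hf : ∀ i, f (i + s) = f i + s) (i₀ : ZMod p) (h0 : f i₀ = i₀) :
    ∀ i, f i = i := by
  have h1 : ∀ n : ℕ, f (i₀ + n • s) = i₀ + n • s := by
    intro n
    induction n with
    | zero => simpa using h0
    | succ n ih =>
      rw [succ_nsmul, ← add_assoc, hf, ih]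
  intro i
  -- `i = i₀ + n • s` with `n = ((i - i₀) / s).val`
  have hn : i = i₀ + ((i - i₀) * s⁻¹).val • s := by
    rw [nsmul_eq_mul, ZMod.natCast_zmod_val, inv_mul_cancel_right₀ hs]
    ring
  rw [hn]
  exact h1 _

/-- **(K-d)**  `σ` commutes with the deck transformation `ρ`, permutes the sheets, and fixes one
sheet: then it fixes every sheet.  (`ρ` shifts the sheets by `s ≠ 0`.) -/
theorem tres5k_fixed_all {Λ : Type*} [CommRing Λ] {p : ℕ} [hp : Fact p.Prime]
    (𝔫 : ZMod p → Ideal Λ) (hinj : Function.Injective 𝔫)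
    (ρ σ : Λ ≃+* Λ) (hcomm : ∀ x, σ (ρ x) = ρ (σ x))
    (s : ZMod p) (hs : s ≠ 0)
    (hρ : ∀ i x, x ∈ 𝔫 i ↔ ρ x ∈ 𝔫 (i + s))
    (hσ : ∀ i, ∃ j, ∀ x, x ∈ 𝔫 i ↔ σ x ∈ 𝔫 j)
    (i₀ : ZMod p) (h0 : ∀ x, x ∈ 𝔫 i₀ ↔ σ x ∈ 𝔫 i₀) :
    ∀ i x, x ∈ 𝔫 i ↔ σ x ∈ 𝔫 i := by
  choose f hf using hσ
  -- two sheets with the same preimage under `σ` are equal
  have huniq : ∀ i j k, (∀ x, x ∈ 𝔫 i ↔ σ x ∈ 𝔫 j) → (∀ x, x ∈ 𝔫 i ↔ σ x ∈ 𝔫 k) → j = k := by
    intro i j k h1 h2
    apply hinj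
    ext y
    obtain ⟨x, rfl⟩ := σ.surjective y
    rw [← h1 x, ← h2 x]
  have hshift : ∀ i, f (i + s) = f i + s := by
    intro i
    refine huniq (i + s) _ _ (hf (i + s)) ?_
    intro y
    obtain ⟨x, rfl⟩ := ρ.surjective y
    rw [← hρ i x, hf i x, hρ (f i) (σ x), hcomm]
  have hf0 : f i₀ = i₀ := huniq i₀ _ _ (hf i₀) h0
  have hid := tres5k_shift_fix f s hs hshift i₀ hf0
  intro i x
  have := hf i x
  rwa [hid i] at this

/-! ### (K-a) norms and the Chinese remainder theorem -/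

section CRT

variable {Λ : Type*} [CommRing Λ] {G : Type*} [Group G] [Fintype G] [MulSemiringAction G Λ]

/-- the norm `∏_g g • x` -/
noncomputable def tres5kNorm (G : Type*) [Group G] [Fintype G] {Λ : Type*} [CommRing Λ]
    [MulSemiringAction G Λ] (x : Λ) : Λ :=
  ∏ g : G, g • x

theorem tres5k_norm_smul (h : G) (x : Λ) : h • tres5kNorm G x = tres5kNorm G x := by
  unfold tres5kNorm
  rw [Finset.smul_prod']
  exact Fintype.prod_equiv (Equiv.mulLeft h) _ _ (fun g => by simp [mul_smul])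

theorem tres5k_norm_mem (I : Ideal Λ) {x : Λ} (hx : x ∈ I) : tres5kNorm G x ∈ I := by
  unfold tres5kNorm
  obtain ⟨c, hc⟩ := Finset.dvd_prod_of_mem (fun g : G => g • x) (Finset.mem_univ (1 : G))
  rw [hc, one_smul]
  exact I.mul_mem_right _ hx

theorem tres5k_norm_notMem (I : Ideal Λ) [I.IsPrime] (hI : ∀ (g : G) x, x ∈ I → g • x ∈ I)
    {x : Λ} (hx : x ∉ I) : tres5kNorm G x ∉ I := by
  unfold tres5kNorm
  intro h
  obtain ⟨g, -, hg⟩ := (Ideal.IsPrime.prod_mem_iff).mp h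
  apply hx
  have := hI g⁻¹ _ hg
  rwa [inv_smul_smul] at this

/-- **(K-a)**  A finite group `G` acts on `Λ`; the pairwise distinct maximal ideals `𝔫 i` are
`G`-stable; the subring `R` of invariants maps onto every residue field `Λ / 𝔫 i`.  Then there is
an invariant `z` with prescribed residues `c i ∈ R`. -/
theorem tres5k_crt {ι : Type*} [Fintype ι] [DecidableEq ι] (𝔫 : ι → Ideal Λ)
    (hmax : ∀ i, (𝔫 i).IsMaximal) (hinj : Function.Injective 𝔫)
    (hG : ∀ (g : G) i x, x ∈ 𝔫 i → g • x ∈ 𝔫 i)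
    (R : Subring Λ) (hR : ∀ r ∈ R, ∀ g : G, g • r = r)
    (hres : ∀ i (x : Λ), ∃ r ∈ R, x - r ∈ 𝔫 i)
    (c : ι → Λ) (hc : ∀ i, c i ∈ R) :
    ∃ z : Λ, (∀ g : G, g • z = z) ∧ ∀ i, z - c i ∈ 𝔫 i := by
  classical
  -- separating elements
  have hsep : ∀ i j, j ≠ i → ∃ a, a ∈ 𝔫 j ∧ a ∉ 𝔫 i := by
    intro i j hji
    by_contra hcon
    have hle : 𝔫 j ≤ 𝔫 i := fun a ha => by
      by_contra hai
      exact hcon ⟨a, ha, hai⟩
    exact hji (hinj ((hmax j).eq_of_le (hmax i).ne_top hle))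
  have hx : ∀ i, ∃ x, x ∉ 𝔫 i ∧ ∀ j, j ≠ i → x ∈ 𝔫 j := by
    intro i
    choose a ha using fun (j : {j // j ≠ i}) => hsep i j.1 j.2
    refine ⟨∏ j : {j // j ≠ i}, a j, ?_, ?_⟩
    · intro h
      have hpr := (hmax i).isPrime
      obtain ⟨j, -, hj⟩ := (Ideal.IsPrime.prod_mem_iff).mp h
      exact (ha j).2 hj
    · intro j hj
      obtain ⟨c, hc⟩ := Finset.dvd_prod_of_mem (fun j : {j // j ≠ i} => a j)
        (Finset.mem_univ (⟨j, hj⟩ : {j // j ≠ i}))
      rw [hc]
      exact (𝔫 j).mul_mem_right _ (ha ⟨j, hj⟩).1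
  choose x hx1 hx2 using hx
  -- invariant separating elements, normalised
  have hN : ∀ i, ∃ e, (∀ g : G, g • e = e) ∧ e - 1 ∈ 𝔫 i ∧ ∀ j, j ≠ i → e ∈ 𝔫 j := by
    intro i
    have hpr := (hmax i).isPrime
    have h1 : tres5kNorm G (x i) ∉ 𝔫 i := tres5k_norm_notMem (𝔫 i) (fun g y hy => hG g i y hy)
      (hx1 i)
    obtain ⟨y, t, ht, hyt⟩ := (hmax i).exists_inv h1
    have hy : y * tres5kNorm G (x i) - 1 ∈ 𝔫 i := by
      have e0 : y * tres5kNorm G (x i) - 1 = -t := by rw [← hyt]; ring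
      rw [e0]
      exact (𝔫 i).neg_mem ht
    obtain ⟨r, hr, hyr⟩ := hres i y
    refine ⟨r * tres5kNorm G (x i), ?_, ?_, ?_⟩
    · intro g
      rw [smul_mul', hR r hr g, tres5k_norm_smul]
    · have e : r * tres5kNorm G (x i) - 1 =
          (y * tres5kNorm G (x i) - 1) - (y - r) * tres5kNorm G (x i) := by ring
      rw [e]
      exact (𝔫 i).sub_mem hy ((𝔫 i).mul_mem_right _ hyr)
    · intro j hj
      exact (𝔫 j).mul_mem_left _ (tres5k_norm_mem (𝔫 j) (hx2 i j hj))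
  choose e he1 he2 he3 using hN
  refine ⟨∑ i, c i * e i, ?_, ?_⟩
  · intro g
    rw [Finset.smul_sum]
    refine Finset.sum_congr rfl fun i _ => ?_
    rw [smul_mul', hR (c i) (hc i) g, he1 i g]
  · intro i
    have h1 : (i : ι) ∈ (Finset.univ : Finset ι) := Finset.mem_univ _
    rw [← Finset.add_sum_erase _ _ h1]
    have e1 : c i * e i + ∑ j ∈ Finset.univ.erase i, c j * e j - c i =
        c i * (e i - 1) + ∑ j ∈ Finset.univ.erase i, c j * e j := by ring
    rw [e1]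
    refine (𝔫 i).add_mem ((𝔫 i).mul_mem_left _ (he2 i)) ?_
    refine (𝔫 i).sum_mem fun j hj => ?_
    exact (𝔫 i).mul_mem_left _ (he3 j i (Finset.ne_of_mem_erase hj).symm)

end CRT

/-! ### (K-b) the polynomial of the descended generator -/

section Poly

variable {Λ : Type*} [CommRing Λ] {p : ℕ} [hp : Fact p.Prime]

/-- `∏_{m ∈ ZMod p} (X − ρ^m z)` -/
noncomputable def tres5kPoly (ρ : Λ → Λ) (p : ℕ) [NeZero p] (z : Λ) : Λ[X] :=
  ∏ m : ZMod p, (X - C (ρ^[m.val] z))

omit [CommRing Λ] hp in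
private theorem tres5k_iterate_mod (ρ : Λ → Λ) (z : Λ) (hper : ρ^[p] z = z) (n : ℕ) :
    ρ^[n % p] z = ρ^[n] z := by
  have h1 : ∀ k : ℕ, ρ^[p * k] z = z := by
    intro k
    induction k with
    | zero => simp
    | succ k ih =>
      rw [Nat.mul_succ, Function.iterate_add_apply, hper, ih]
  conv_rhs => rw [← Nat.mod_add_div n p, Function.iterate_add_apply, h1]

private theorem tres5k_val_add_one (m : ZMod p) : (m + 1).val = (m.val + 1) % p := by
  have : Fact (1 < p) := ⟨hp.out.one_lt⟩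
  rw [ZMod.val_add, ZMod.val_one]

theorem tres5k_poly_monic (ρ : Λ → Λ) (z : Λ) : (tres5kPoly ρ p z).Monic :=
  monic_prod_of_monic _ _ fun _ _ => monic_X_sub_C _

theorem tres5k_poly_natDegree [Nontrivial Λ] (ρ : Λ → Λ) (z : Λ) :
    (tres5kPoly ρ p z).natDegree = p := by
  unfold tres5kPoly
  rw [natDegree_prod_of_monic _ _ fun _ _ => monic_X_sub_C _]
  simp

theorem tres5k_poly_root (ρ : Λ → Λ) (z : Λ) : (tres5kPoly ρ p z).eval z = 0 := by
  unfold tres5kPoly
  rw [eval_prod]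
  refine Finset.prod_eq_zero (Finset.mem_univ (0 : ZMod p)) ?_
  simp

/-- the coefficients of `P` are fixed by the deck transformation `ρ` -/
theorem tres5k_poly_map_deck (ρ : Λ →+* Λ) (z : Λ) (hper : (⇑ρ)^[p] z = z) :
    (tres5kPoly ρ p z).map ρ = tres5kPoly ρ p z := by
  unfold tres5kPoly
  rw [Polynomial.map_prod]
  refine Fintype.prod_equiv (Equiv.addRight (1 : ZMod p)) _ _ fun m => ?_
  rw [Polynomial.map_sub, map_X, map_C, Equiv.coe_addRight, tres5k_val_add_one,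
    tres5k_iterate_mod (⇑ρ) z hper, Function.iterate_succ_apply']

/-- the coefficients of `P` are fixed by every endomorphism commuting with `ρ` and fixing `z` -/
theorem tres5k_poly_map_comm (ρ : Λ → Λ) (σ : Λ →+* Λ) (z : Λ) (hσz : σ z = z)
    (hcomm : ∀ x, σ (ρ x) = ρ (σ x)) :
    (tres5kPoly ρ p z).map σ = tres5kPoly ρ p z := by
  unfold tres5kPoly
  rw [Polynomial.map_prod]
  refine Finset.prod_congr rfl fun m _ => ?_
  rw [Polynomial.map_sub, map_X, map_C]
  have h : ∀ n : ℕ, σ (ρ^[n] z) = ρ^[n] z := by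
    intro n
    induction n with
    | zero => simpa using hσz
    | succ n ih => rw [Function.iterate_succ_apply', hcomm, ih]
  rw [h]

/-- `∏_{a ∈ 𝔽_p} (X − a) = X ^ p − X` over a ring of characteristic `p` -/
theorem tres5k_prod_X_sub (k : Type*) [CommRing k] [CharP k p] :
    ∏ m : ZMod p, (X - C ((ZMod.castHom (dvd_refl p) k) m)) = (X ^ p - X : k[X]) := by
  have hq : Fintype.card (ZMod p) = p := ZMod.card p
  have hroots := FiniteField.roots_X_pow_card_sub_X (ZMod p)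
  have hdeg := FiniteField.X_pow_card_sub_X_natDegree_eq (ZMod p) (p := Fintype.card (ZMod p))
    (by rw [hq]; exact hp.out.one_lt)
  have hmonic : (X ^ Fintype.card (ZMod p) - X : (ZMod p)[X]).Monic := by
    apply monic_X_pow_sub
    rw [degree_X, hq]
    exact_mod_cast hp.out.one_lt
  have h := prod_multiset_X_sub_C_of_monic_of_roots_card_eq hmonic
    (by rw [hroots, hdeg]; rfl)
  rw [hroots, hq] at h
  have h1 : ∏ m : ZMod p, (X - C m : (ZMod p)[X]) = X ^ p - X := by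
    rw [← h]
    rfl
  have h2 := congrArg (Polynomial.map (ZMod.castHom (dvd_refl p) k)) h1
  rw [Polynomial.map_prod] at h2
  simpa using h2

/-- **(K-b)**  If the residue map `χ` sends `ρ^m z` to `i + m ∈ 𝔽_p` then `P` reduces to
`X ^ p − X`. -/
theorem tres5k_poly_map_residue {k : Type*} [CommRing k] [CharP k p] (ρ : Λ → Λ) (z : Λ)
    (χ : Λ →+* k) (i : ZMod p)
    (hχ : ∀ m : ZMod p, χ (ρ^[m.val] z) = (ZMod.castHom (dvd_refl p) k) (i + m)) :
    (tres5kPoly ρ p z).map χ = X ^ p - X := by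
  unfold tres5kPoly
  rw [Polynomial.map_prod, ← tres5k_prod_X_sub k]
  refine Fintype.prod_equiv (Equiv.addLeft i) _ _ fun m => ?_
  rw [Polynomial.map_sub, map_X, map_C, hχ, Equiv.coe_addLeft]

end Poly

/-! ### (K-c) descent of the field, and the fixed field of the deck transformation -/

section Descent

variable {L : Type*} [CommRing L]

/-- **(K-c)**  `1, z, …, z^{n-1}` are linearly independent over the subring `F`, the
endomorphisms `σ ∈ S` fix `z` and preserve `F`.  If `x = ∑ c i z ^ i` (`c i ∈ F`) is fixed by all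
`σ ∈ S`, so are its coordinates `c i`.   (`F′^G = F^G[z]`.) -/
theorem tres5k_descent {n : ℕ} (F : Subring L) (z : L)
    (hindep : ∀ c : Fin n → L, (∀ i, c i ∈ F) → ∑ i, c i * z ^ (i : ℕ) = 0 → ∀ i, c i = 0)
    (S : Set (L →+* L)) (hz : ∀ σ ∈ S, σ z = z) (hF : ∀ σ ∈ S, ∀ a ∈ F, σ a ∈ F)
    (c : Fin n → L) (hc : ∀ i, c i ∈ F)
    (hx : ∀ σ ∈ S, σ (∑ i, c i * z ^ (i : ℕ)) = ∑ i, c i * z ^ (i : ℕ)) :
    ∀ σ ∈ S, ∀ i, σ (c i) = c i := by
  intro σ hσ i
  have h1 : ∑ i, (σ (c i) - c i) * z ^ (i : ℕ) = 0 := by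
    have h2 := hx σ hσ
    rw [map_sum] at h2
    simp only [map_mul, map_pow, hz σ hσ] at h2
    simp only [sub_mul, Finset.sum_sub_distrib]
    rw [h2, sub_self]
  have h3 := hindep (fun i => σ (c i) - c i)
    (fun i => F.sub_mem (hF σ hσ _ (hc i)) (hc i)) h1 i
  exact sub_eq_zero.mp h3

/-- **Kummer.**  `ρ` fixes `F`, `ρ y = ζ y` with `ζ ∈ F`, `ζ ^ i ≠ 1` for `0 < i < n`, and
`1, y, …, y^{n-1}` are linearly independent over `F`.  If `x = ∑ c i y ^ i` is fixed by `ρ` then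
`x = c 0 ∈ F`. -/
theorem tres5k_deck_fixed [IsDomain L] {n : ℕ} (hn : 0 < n) (F : Subring L) (y ζ : L)
    (hζF : ζ ∈ F) (hζ : ∀ i : ℕ, 0 < i → i < n → ζ ^ i ≠ 1)
    (hindep : ∀ c : Fin n → L, (∀ i, c i ∈ F) → ∑ i, c i * y ^ (i : ℕ) = 0 → ∀ i, c i = 0)
    (ρ : L →+* L) (hρF : ∀ a ∈ F, ρ a = a) (hρy : ρ y = ζ * y)
    (c : Fin n → L) (hc : ∀ i, c i ∈ F)
    (hx : ρ (∑ i, c i * y ^ (i : ℕ)) = ∑ i, c i * y ^ (i : ℕ)) :
    ∑ i, c i * y ^ (i : ℕ) = c ⟨0, hn⟩ := by
  have h1 : ∑ i, (c i * (ζ ^ (i : ℕ) - 1)) * y ^ (i : ℕ) = 0 := by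
    rw [map_sum] at hx
    simp only [map_mul, map_pow, hρy, hρF _ (hc _), mul_pow] at hx
    have e : ∀ i : Fin n, (c i * (ζ ^ (i : ℕ) - 1)) * y ^ (i : ℕ) =
        c i * (ζ ^ (i : ℕ) * y ^ (i : ℕ)) - c i * y ^ (i : ℕ) := fun i => by ring
    simp only [e, Finset.sum_sub_distrib]
    rw [hx, sub_self]
  have h2 := hindep (fun i => c i * (ζ ^ (i : ℕ) - 1))
    (fun i => F.mul_mem (hc i) (F.sub_mem (F.pow_mem hζF _) F.one_mem)) h1
  have h3 : ∀ i : Fin n, i ≠ ⟨0, hn⟩ → c i = 0 := by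
    intro i hi
    have hi0 : 0 < (i : ℕ) := by
      rcases Nat.eq_zero_or_pos (i : ℕ) with h | h
      · exact absurd (Fin.ext h) hi
      · exact h
    rcases mul_eq_zero.mp (h2 i) with h | h
    · exact h
    · exact absurd (sub_eq_zero.mp h) (hζ i hi0 i.2)
  rw [Finset.sum_eq_single (⟨0, hn⟩ : Fin n)]
  · simp
  · intro i _ hi
    rw [h3 i hi, zero_mul]
  · intro h
    exact absurd (Finset.mem_univ _) h

end Descent

/-! ### (K-e) the trace form -/

/-- **(K-e)**  A finite group `G` of order `≡ −1` modulo the ideals `𝔫 i` moves `z` inside every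
`𝔫 i`-class.  Then `−∑_g g • z` is `G`-invariant and congruent to `z` modulo every `𝔫 i`. -/
theorem tres5k_trace {Λ : Type*} [CommRing Λ] {G : Type*} [Group G] [Fintype G]
    [MulSemiringAction G Λ] {ι : Type*} (𝔫 : ι → Ideal Λ) (z : Λ)
    (hG : ∀ (g : G) i, g • z - z ∈ 𝔫 i)
    (hcard : ∀ i, ((Fintype.card G : ℕ) : Λ) + 1 ∈ 𝔫 i) :
    (∀ h : G, h • (-∑ g : G, g • z) = -∑ g : G, g • z) ∧
      ∀ i, (-∑ g : G, g • z) - z ∈ 𝔫 i := by
  constructor
  · intro h
    rw [smul_neg, Finset.smul_sum]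
    congr 1
    exact Fintype.sum_equiv (Equiv.mulLeft h) _ _ (fun g => by simp [mul_smul])
  · intro i
    have e : (-∑ g : G, g • z) - z =
        -(∑ g : G, (g • z - z)) - (((Fintype.card G : ℕ) : Λ) + 1) * z := by
      rw [Finset.sum_sub_distrib, Finset.sum_const, Finset.card_univ, nsmul_eq_mul]
      ring
    rw [e]
    refine (𝔫 i).sub_mem ((𝔫 i).neg_mem ((𝔫 i).sum_mem fun g _ => hG g i)) ?_
    exact (𝔫 i).mul_mem_right _ (hcard i)

end Fermat.Agent.R38
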