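/-
ROW 38, TRES, piece FAC-KFORM (helper53), part 2: DESCENT OF A SPLIT GENERATOR.

`S : Tres5Gen F L V p` is a split monogenic extension over a BIG field (`F = F_{E′}`,
`L = F′_{E′}`), `p` prime.  A finite group `G` acts on `L` (coefficientwise Galois action of
`Gal(E′/K)`), fixes every sheet `S.W k`, commutes with the deck transformation `ρ` which permutes
the sheets cyclically.  Then the extension `LK / FK` of the fields of invariants has a split
generator over `VK = V ∩ FK`, with roots `0, 1, …, p − 1` modulo `𝔪`: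

* `tres5k_deck_galois` : `[L : F] = p` prime, `ρ ≠ 1` in `Aut(L/F)`: `ρ ^ p = 1`, and the elements
  fixed by `ρ` are in `F`.
* `tres5k_sheets_fixed` : `G` permutes the sheets, commutes with `ρ`, fixes ONE sheet: it fixes
  every sheet.
* `tres5k_pou` : partition of unity by NORMS (any finite group, no hypothesis on the residue
  fields): `G`-invariant `e k`, `e k ≡ 1` at `W k`, `e k ≡ 0` at `W j`, `j ≠ k`.
* `tres5k_finrank_of_gen` : `[LK : FK] = p` from a `G`-invariant element moved by `ρ`.
* `Tres5Gen.descend'` : the descended split generator `T : Tres5Gen FK LK VK p`, `T.c = cK`,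
  `T.z ≡ cK k` modulo `𝔪(S.W k)`, `T.W k = S.W k ∩ LK`, `[LK : FK] = p`, `F(T.z) = L`.
  (`Tres5Gen.descend` : the same with the redundant hypothesis `[LK : FK] = p`.)
-/
import Fermat.Agent.R38.TresCover
import Fermat.Agent.R38.TresKForm

set_option autoImplicit false

namespace Fermat.Agent.R38

open Polynomial

/-! ### Galois theory of a deck transformation of prime order -/

section Galois

variable {F L : Type*} [Field F] [Field L] [Algebra F L]

/-- `[L : F] = p` prime and `ρ ≠ 1` an `F`-automorphism of `L`: then `ρ ^ p = 1` and the fixed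
field of `ρ` is `F`. -/
theorem tres5k_deck_galois {p : ℕ} (hp : p.Prime) (hfin : Module.finrank F L = p)
    (ρ : L ≃ₐ[F] L) (hρ : ρ ≠ 1) :
    ρ ^ p = 1 ∧ ∀ x : L, ρ x = x → ∃ a : F, algebraMap F L a = x := by
  have : FiniteDimensional F L :=
    Module.finite_of_finrank_pos (by rw [hfin]; exact hp.pos)
  have h1 : Module.finrank (IntermediateField.fixedField (Subgroup.zpowers ρ)) L =
      Nat.card (Subgroup.zpowers ρ) :=
    IntermediateField.finrank_fixedField_eq_card (Subgroup.zpowers ρ)
  have h2 := Module.finrank_mul_finrank F (IntermediateField.fixedField (Subgroup.zpowers ρ)) L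
  rw [hfin, h1, Nat.card_zpowers] at h2
  have hdvd : orderOf ρ ∣ p := Dvd.intro_left _ h2
  have hord : orderOf ρ = p := by
    rcases (Nat.dvd_prime hp).1 hdvd with h | h
    · exact absurd (orderOf_eq_one_iff.1 h) hρ
    · exact h
  refine ⟨by rw [← hord]; exact pow_orderOf_eq_one ρ, ?_⟩
  rw [hord] at h2
  have h3 : Module.finrank F (IntermediateField.fixedField (Subgroup.zpowers ρ)) = 1 := by
    have := hp.pos
    exact Nat.eq_of_mul_eq_mul_right this (by rw [h2, one_mul])
  rw [IntermediateField.finrank_eq_one_iff] at h3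
  intro x hx
  have hmem : x ∈ IntermediateField.fixedField (Subgroup.zpowers ρ) := by
    rw [IntermediateField.mem_fixedField_iff]
    intro g hg
    obtain ⟨n, rfl⟩ := Subgroup.mem_zpowers_iff.1 hg
    have hfix : ∀ m : ℕ, (ρ ^ m) x = x := by
      intro m
      induction m with
      | zero => simp
      | succ m ih => rw [pow_succ, AlgEquiv.mul_apply, hx, ih]
    rcases Int.eq_nat_or_neg n with ⟨m, rfl | rfl⟩
    · rw [zpow_natCast]
      exact hfix m
    · rw [zpow_neg, zpow_natCast]
      have := hfix m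
      calc (ρ ^ m)⁻¹ x = (ρ ^ m)⁻¹ ((ρ ^ m) x) := by rw [this]
        _ = x := by
          rw [← AlgEquiv.mul_apply, inv_mul_cancel, AlgEquiv.one_apply]
  rw [h3, IntermediateField.mem_bot] at hmem
  exact hmem

end Galois

/-! ### The sheets -/

section Sheets

variable {L : Type*} [Field L]

/-- `σ` commutes with the deck transformation `ρ`, which permutes the sheets cyclically; if `σ`
fixes ONE sheet it fixes every sheet. -/
theorem tres5k_sheets_fixed {p : ℕ} (hp : 0 < p) (W : ℕ → ValuationSubring L) (ρ σ : L →+* L)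
    (hcomm : ∀ x, ρ (σ x) = σ (ρ x))
    (hρW : ∀ k < p, (W k).comap ρ = W ((k + 1) % p))
    {k₀ : ℕ} (hk₀ : k₀ < p) (h0 : (W k₀).comap σ = W k₀) :
    ∀ k < p, (W k).comap σ = W k := by
  have h1 : ∀ m : ℕ, (W ((k₀ + m) % p)).comap σ = W ((k₀ + m) % p) := by
    intro m
    induction m with
    | zero =>
      rw [add_zero, Nat.mod_eq_of_lt hk₀]
      exact h0
    | succ m ih =>
      have hlt : (k₀ + m) % p < p := Nat.mod_lt _ hp
      have e : (k₀ + (m + 1)) % p = ((k₀ + m) % p + 1) % p := by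
        rw [Nat.mod_add_mod, add_assoc]
      rw [e, ← hρW _ hlt]
      ext x
      rw [ValuationSubring.mem_comap, ValuationSubring.mem_comap, ValuationSubring.mem_comap,
        hcomm, ← ValuationSubring.mem_comap, ih]
  intro k hk
  have e : (k₀ + (k + p - k₀)) % p = k := by
    have : k₀ + (k + p - k₀) = k + p := by omega
    rw [this, Nat.add_mod_right, Nat.mod_eq_of_lt hk]
  have := h1 (k + p - k₀)
  rwa [e] at this

/-- the group form of `tres5k_sheets_fixed` -/
theorem tres5k_sheets_fixed_smul {G : Type*} [Group G] [MulSemiringAction G L] {p : ℕ}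
    (hp : 0 < p) (W : ℕ → ValuationSubring L) (ρ : L →+* L)
    (hcomm : ∀ (g : G) x, ρ (g • x) = g • ρ x)
    (hρW : ∀ k < p, (W k).comap ρ = W ((k + 1) % p))
    {k₀ : ℕ} (hk₀ : k₀ < p) (h0 : ∀ (g : G), ∀ x ∈ W k₀, g • x ∈ W k₀) :
    ∀ (g : G), ∀ k < p, ∀ x ∈ W k, g • x ∈ W k := by
  intro g k hk x hx
  have h := tres5k_sheets_fixed hp W ρ (MulSemiringAction.toRingHom G L g)
    (fun x => hcomm g x) hρW hk₀ (by
      ext x
      rw [ValuationSubring.mem_comap]
      change g • x ∈ W k₀ ↔ _
      constructor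
      · intro h
        have := h0 g⁻¹ _ h
        rwa [inv_smul_smul] at this
      · exact h0 g x) k hk
  have hx' : x ∈ (W k).comap (MulSemiringAction.toRingHom G L g) := by
    rw [h]
    exact hx
  exact hx'

/-- a group preserving a valuation subring preserves its non-units -/
theorem tres5k_smul_mem_nonunits {G : Type*} [Group G] [MulSemiringAction G L]
    (W : ValuationSubring L) (hW : ∀ (g : G), ∀ x ∈ W, g • x ∈ W) (g : G) {x : L}
    (hx : x ∈ W.nonunits) : g • x ∈ W.nonunits := by
  rw [tres5_mem_nonunits_iff] at hx ⊢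
  rcases hx with hx | hx
  · left
    rw [hx, smul_zero]
  · right
    intro h
    apply hx
    have := hW g⁻¹ _ h
    rwa [← smul_inv'', inv_smul_smul] at this

/-- a group preserving a valuation subring preserves its units -/
theorem tres5k_smul_valuation_eq_one {G : Type*} [Group G] [MulSemiringAction G L]
    (W : ValuationSubring L) (hW : ∀ (g : G), ∀ x ∈ W, g • x ∈ W) (g : G) {x : L}
    (hx : W.valuation x = 1) : W.valuation (g • x) = 1 := by
  have hx0 : x ≠ 0 := by
    rintro rfl
    rw [map_zero] at hx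
    exact zero_ne_one hx
  have hgx0 : g • x ≠ 0 := (smul_ne_zero_iff_ne g).2 hx0
  rw [tres5_valuation_eq_one_iff W hx0] at hx
  rw [tres5_valuation_eq_one_iff W hgx0]
  refine ⟨hW g _ hx.1, ?_⟩
  rw [← smul_inv'']
  exact hW g _ hx.2

/-- **Partition of unity by norms.**  A finite group `G` preserves the valuation subrings `W k`,
`k < p`, which are pairwise independent (`E k` is a unit at `W k` and a non-unit at `W j`,
`j ≠ k`).  Then there are `G`-invariant `e k` with `e k ≡ 1` at `W k` and `e k ≡ 0` at `W j`,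
`j ≠ k`.  (No hypothesis on the order of `G` nor on the residue fields.) -/
theorem tres5k_pou {G : Type*} [Group G] [Finite G] [MulSemiringAction G L] {p : ℕ}
    (W : ℕ → ValuationSubring L)
    (hGW : ∀ (g : G), ∀ k < p, ∀ x ∈ W k, g • x ∈ W k)
    (E : ℕ → L) (hE1 : ∀ k < p, (W k).valuation (E k) = 1)
    (hE0 : ∀ k < p, ∀ j < p, j ≠ k → E k ∈ (W j).nonunits) :
    ∃ e : ℕ → L, (∀ k (g : G), g • e k = e k) ∧
      (∀ k < p, e k - 1 ∈ (W k).nonunits) ∧
      (∀ k < p, ∀ j < p, j ≠ k → e k ∈ (W j).nonunits) := by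
  classical
  cases nonempty_fintype G
  -- the norms
  have hN1 : ∀ k < p, (W k).valuation (tres5kNorm G (E k)) = 1 := by
    intro k hk
    unfold tres5kNorm
    rw [map_prod]
    exact Finset.prod_eq_one fun g _ =>
      tres5k_smul_valuation_eq_one (W k) (fun g => hGW g k hk) g (hE1 k hk)
  have hN0 : ∀ k < p, ∀ j < p, j ≠ k → tres5kNorm G (E k) ∈ (W j).nonunits := by
    intro k hk j hj hjk
    unfold tres5kNorm
    rw [← Finset.mul_prod_erase Finset.univ (fun g : G => g • E k) (Finset.mem_univ (1 : G)),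
      one_smul, mul_comm]
    refine tres5_mul_mem_nonunits (W j) ?_ (hE0 k hk j hj hjk)
    refine prod_mem fun g _ => ?_
    exact (W j).nonunits_subset
      (tres5k_smul_mem_nonunits (W j) (fun g => hGW g j hj) g (hE0 k hk j hj hjk))
  have hrest : ∀ k < p, ∑ j ∈ (Finset.range p).erase k, tres5kNorm G (E j) ∈ (W k).nonunits := by
    intro k hk
    refine sum_mem fun j hj => ?_
    rw [Finset.mem_erase, Finset.mem_range] at hj
    exact hN0 j hj.2 k hk (Ne.symm hj.1)
  have hsplit : ∀ k < p, ∑ j ∈ Finset.range p, tres5kNorm G (E j) =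
      ∑ j ∈ (Finset.range p).erase k, tres5kNorm G (E j) + tres5kNorm G (E k) := by
    intro k hk
    rw [add_comm]
    exact (Finset.add_sum_erase (Finset.range p) (fun j => tres5kNorm G (E j))
      (Finset.mem_range.2 hk)).symm
  have hT1 : ∀ k < p, (W k).valuation (∑ j ∈ Finset.range p, tres5kNorm G (E j)) = 1 := by
    intro k hk
    rw [hsplit k hk]
    exact tres5_valuation_add_eq_one (W k) (hrest k hk) (hN1 k hk)
  have hTG : ∀ g : G, g • (∑ j ∈ Finset.range p, tres5kNorm G (E j)) =
      ∑ j ∈ Finset.range p, tres5kNorm G (E j) := by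
    intro g
    rw [Finset.smul_sum]
    exact Finset.sum_congr rfl fun j _ => tres5k_norm_smul g (E j)
  refine ⟨fun k => tres5kNorm G (E k) / ∑ j ∈ Finset.range p, tres5kNorm G (E j), ?_, ?_, ?_⟩
  · intro k g
    change g • (_ / _) = _ / _
    rw [div_eq_mul_inv, smul_mul', smul_inv'', hTG, tres5k_norm_smul]
  · intro k hk
    have hT0 : ∑ j ∈ Finset.range p, tres5kNorm G (E j) ≠ 0 := by
      intro h0
      have := hT1 k hk
      rw [h0, map_zero] at this
      exact zero_ne_one this
    have e : tres5kNorm G (E k) / ∑ j ∈ Finset.range p, tres5kNorm G (E j) - 1 =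
        -(∑ j ∈ (Finset.range p).erase k, tres5kNorm G (E j)) /
          ∑ j ∈ Finset.range p, tres5kNorm G (E j) := by
      rw [div_sub_one hT0]
      congr 1
      rw [hsplit k hk]
      ring
    change tres5kNorm G (E k) / ∑ j ∈ Finset.range p, tres5kNorm G (E j) - 1 ∈ _
    rw [e, ValuationSubring.mem_nonunits_iff, map_div₀, hT1 k hk, div_one, Valuation.map_neg]
    exact (ValuationSubring.mem_nonunits_iff _).1 (hrest k hk)
  · intro k hk j hj hjk
    change tres5kNorm G (E k) / ∑ j ∈ Finset.range p, tres5kNorm G (E j) ∈ _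
    rw [ValuationSubring.mem_nonunits_iff, map_div₀, hT1 j hj, div_one]
    exact (ValuationSubring.mem_nonunits_iff _).1 (hN0 k hk j hj hjk)

end Sheets

/-! ### Auxiliary lemmas -/

section Aux

/-- the AlgHom form of `tres5k_deck_galois` -/
theorem tres5k_deck_galois' {F L : Type*} [Field F] [Field L] [Algebra F L] {p : ℕ}
    (hp : p.Prime) (hfin : Module.finrank F L = p) (ρ : L →ₐ[F] L) (hρ : ∃ x, ρ x ≠ x) :
    (∀ x : L, (⇑ρ)^[p] x = x) ∧ ∀ x : L, ρ x = x → ∃ a : F, algebraMap F L a = x := by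
  have : FiniteDimensional F L :=
    Module.finite_of_finrank_pos (by rw [hfin]; exact hp.pos)
  have hne : AlgEquiv.ofBijective ρ (AlgHom.bijective ρ) ≠ 1 := by
    intro h
    obtain ⟨x, hx⟩ := hρ
    apply hx
    have := congrArg (fun τ : L ≃ₐ[F] L => τ x) h
    simpa using this
  obtain ⟨h1, h2⟩ := tres5k_deck_galois hp hfin (AlgEquiv.ofBijective ρ (AlgHom.bijective ρ)) hne
  refine ⟨?_, fun x hx => h2 x (by simpa using hx)⟩
  intro x
  have h3 : ∀ n : ℕ, ((AlgEquiv.ofBijective ρ (AlgHom.bijective ρ)) ^ n) x = (⇑ρ)^[n] x := by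
    intro n
    induction n with
    | zero => simp
    | succ n ih =>
      rw [pow_succ', AlgEquiv.mul_apply, ih, Function.iterate_succ_apply']
      rfl
  rw [← h3, h1, AlgEquiv.one_apply]

/-- the non-units of a discrete valuation subring are the multiples of the uniformizer -/
theorem tres5k_div_pi_mem {F : Type*} [Field F] (V : ValuationSubring F) {π : F}
    (hπ : π ∈ V.nonunits) (hπ0 : π ≠ 0)
    (hunif : ∀ x : F, x ≠ 0 → ∃ m : ℤ, V.valuation (x / π ^ m) = 1) {a : F}
    (ha : a ∈ V.nonunits) : a / π ∈ V := by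
  by_cases ha0 : a = 0
  · rw [ha0, zero_div]
    exact V.zero_mem
  rw [ValuationSubring.mem_nonunits_iff] at ha
  obtain ⟨m, hm⟩ := hunif a ha0
  have hπv : V.valuation π < 1 := (V.mem_nonunits_iff).1 hπ
  have hπmem : π ∈ V := V.nonunits_subset hπ
  rcases le_or_gt m 0 with hm0 | hm0
  · exfalso
    obtain ⟨r, hr⟩ := Int.exists_eq_neg_ofNat hm0
    rw [hr, zpow_neg, zpow_natCast, div_inv_eq_mul, map_mul, map_pow] at hm
    have h1 : V.valuation π ^ r ≤ 1 := pow_le_one₀ zero_le (le_of_lt hπv)
    have h2 : V.valuation a * V.valuation π ^ r < 1 := by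
      calc V.valuation a * V.valuation π ^ r ≤ V.valuation a * 1 := by gcongr
        _ = V.valuation a := mul_one _
        _ < 1 := ha
    rw [hm] at h2
    exact lt_irrefl _ h2
  · obtain ⟨r, hr⟩ : ∃ r : ℕ, m = r + 1 := ⟨(m - 1).toNat, by omega⟩
    have e : a / π = a / π ^ m * π ^ r := by
      rw [hr, zpow_add_one₀ hπ0, zpow_natCast]
      have := pow_ne_zero r hπ0
      field_simp
    rw [e]
    refine V.mul_mem _ _ ?_ (V.pow_mem hπmem r)
    rw [← V.valuation_le_one_iff, hm]

/-- a product over `ZMod p` as a product over `range p` -/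
theorem tres5k_prod_zmod {M : Type*} [CommMonoid M] (p : ℕ) [NeZero p] (f : ℕ → M) :
    ∏ m : ZMod p, f m.val = ∏ i ∈ Finset.range p, f i := by
  refine Finset.prod_bij (fun m _ => m.val) (fun m _ => Finset.mem_range.2 (ZMod.val_lt m))
    (fun a _ b _ h => ZMod.val_injective p h)
    (fun i hi => ⟨(i : ZMod p), Finset.mem_univ _,
      ZMod.val_natCast_of_lt (Finset.mem_range.1 hi)⟩)
    (fun _ _ => rfl)

/-- two monic polynomials of the same degree which agree modulo `π` differ by `π R`,
`deg R < p` -/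
theorem tres5k_congr_R {R κ : Type*} [CommRing R] [IsDomain R] [CommRing κ] {π : R}
    (hπ0 : π ≠ 0) (χ : R →+* κ) (hker : ∀ a, χ a = 0 → π ∣ a) {p : ℕ} {P Q : R[X]}
    (hP : P.Monic) (hQ : Q.Monic) (hPd : P.natDegree = p) (hQd : Q.natDegree = p)
    (h : P.map χ = Q.map χ) :
    ∃ Rr : R[X], Rr.degree < (p : WithBot ℕ) ∧ P = Q + C π * Rr := by
  have hdvd : C π ∣ P - Q := by
    rw [Polynomial.C_dvd_iff_dvd_coeff]
    intro i
    apply hker
    have := congrArg (fun T => T.coeff i) h
    simp only [Polynomial.coeff_map] at this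
    rw [Polynomial.coeff_sub, map_sub, this, sub_self]
  obtain ⟨Rr, hRr⟩ := hdvd
  refine ⟨Rr, ?_, by rw [← hRr]; ring⟩
  have hdeg : (P - Q).degree < (p : WithBot ℕ) := by
    by_cases hPQ : P - Q = 0
    · rw [hPQ, degree_zero]
      exact WithBot.bot_lt_coe _
    have h1 : P.degree = Q.degree := by
      rw [degree_eq_natDegree hP.ne_zero, degree_eq_natDegree hQ.ne_zero, hPd, hQd]
    have h2 := degree_sub_lt_left h1 hP.ne_zero (by rw [hP.leadingCoeff, hQ.leadingCoeff])
    rwa [degree_eq_natDegree hP.ne_zero, hPd] at h2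
  rwa [hRr, degree_C_mul hπ0] at hdeg

end Aux

/-! ### The descent -/

section Descend

variable {FK LK F L : Type*} [Field FK] [Field LK] [Field F] [Field L]
  [Algebra FK LK] [Algebra F L] [Algebra FK F] [Algebra LK L] [Algebra FK L]
  [IsScalarTower FK LK L] [IsScalarTower FK F L]
  {V : ValuationSubring F} {p : ℕ}

/-- **The degree descends.**  `[L : F] = p` prime, `ρ` an `F`-automorphism of `L` commuting with
the group `G`; `LK = L^G`, `FK = F ∩ LK`; `z′ ∈ L` is `G`-invariant and not fixed by `ρ`.  Then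
`1, zK, …, zK^{p-1}` is a basis of `LK` over `FK`; in particular `[LK : FK] = p`. -/
theorem tres5k_finrank_of_gen (hp : p.Prime) (hfin : Module.finrank F L = p)
    {G : Type*} [Group G] [MulSemiringAction G L]
    (hGLK : ∀ (g : G) (y : LK), g • algebraMap LK L y = algebraMap LK L y)
    (hfixL : ∀ x : L, (∀ g : G, g • x = x) → ∃ y : LK, algebraMap LK L y = x)
    (hfixF : ∀ x : F, (∀ g : G, g • algebraMap F L x = algebraMap F L x) →
      ∃ y : FK, algebraMap FK F y = x)
    (ρ : L →ₐ[F] L) (hρG : ∀ (g : G) x, ρ (g • x) = g • ρ x)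
    (z' : L) (hz'G : ∀ g : G, g • z' = z') (hz'ρ : ρ z' ≠ z') :
    Module.finrank FK LK = p := by
  classical
  have hfd : FiniteDimensional F L :=
    Module.finite_of_finrank_pos (by rw [hfin]; exact hp.pos)
  obtain ⟨-, hρfix⟩ := tres5k_deck_galois' hp hfin ρ ⟨z', hz'ρ⟩
  -- `G` preserves `F`
  have hGF : ∀ (g : G) (x : F), ∃ y : F, algebraMap F L y = g • algebraMap F L x := fun g x =>
    hρfix _ (by rw [hρG, AlgHom.commutes])
  -- `z'` generates `L / F`
  have hz'F : z' ∉ (⊥ : IntermediateField F L) := by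
    intro h
    rw [IntermediateField.mem_bot] at h
    obtain ⟨a, ha⟩ := h
    exact hz'ρ (by rw [← ha, AlgHom.commutes])
  have htopI : IntermediateField.adjoin F {z'} = ⊤ := by
    have := IntermediateField.isSimpleOrder_of_finrank_prime F L (by rw [hfin]; exact hp)
    rcases eq_bot_or_eq_top (IntermediateField.adjoin F {z'}) with h | h
    · exfalso
      apply hz'F
      rw [← h]
      exact IntermediateField.mem_adjoin_simple_self F z'
    · exact h
  have hint : IsIntegral F z' := IsIntegral.of_finite F z'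
  have htop : Algebra.adjoin F ({z'} : Set L) = ⊤ := by
    have h1 := IntermediateField.adjoin_simple_toSubalgebra_of_isAlgebraic hint.isAlgebraic
    rw [← h1, htopI, IntermediateField.top_toSubalgebra]
  -- the power basis
  set pb : PowerBasis F L := PowerBasis.ofAdjoinEqTop hint htop with hpb
  have hdim : pb.dim = p := by rw [← pb.finrank, hfin]
  have hbasis : ∀ i : Fin pb.dim, pb.basis i = z' ^ (i : ℕ) := fun i => by
    rw [PowerBasis.coe_basis]
    rfl
  have hindep : ∀ a : Fin pb.dim → F, ∑ i, algebraMap F L (a i) * z' ^ (i : ℕ) = 0 →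
      ∀ i, a i = 0 := by
    intro a h
    have h1 : ∑ i, a i • pb.basis i = 0 := by
      rw [← h]
      refine Finset.sum_congr rfl fun i _ => ?_
      rw [hbasis, Algebra.smul_def]
    exact Fintype.linearIndependent_iff.1 pb.basis.linearIndependent a h1
  obtain ⟨zK, hzK⟩ := hfixL z' hz'G
  -- the coordinates of an invariant element are invariant
  have hcoord : ∀ y : LK, ∃ k : Fin pb.dim → FK,
      y = ∑ i, algebraMap FK LK (k i) * zK ^ (i : ℕ) := by
    intro y
    obtain ⟨a, hrepr⟩ : ∃ a : Fin pb.dim → F,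
        algebraMap LK L y = ∑ i, algebraMap F L (a i) * z' ^ (i : ℕ) := by
      refine ⟨fun i => pb.basis.repr (algebraMap LK L y) i, ?_⟩
      conv_lhs => rw [← pb.basis.sum_repr (algebraMap LK L y)]
      refine Finset.sum_congr rfl fun i _ => ?_
      rw [hbasis, Algebra.smul_def]
    have hfixc : ∀ (g : G) i, g • algebraMap F L (a i) = algebraMap F L (a i) := by
      intro g
      choose φ hφ using hGF g
      have h2 : algebraMap LK L y = ∑ i, algebraMap F L (φ (a i)) * z' ^ (i : ℕ) := by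
        have h3 := congrArg (fun x => g • x) hrepr
        simp only [Finset.smul_sum, smul_mul', smul_pow', hz'G, hGLK] at h3
        rw [h3]
        refine Finset.sum_congr rfl fun i _ => ?_
        rw [hφ]
      have h1 : ∑ i, algebraMap F L (φ (a i) - a i) * z' ^ (i : ℕ) = 0 := by
        simp only [map_sub, sub_mul, Finset.sum_sub_distrib]
        rw [sub_eq_zero, ← hrepr, ← h2]
      intro i
      have h3 := hindep _ h1 i
      rw [← hφ, sub_eq_zero.1 h3]
    choose k hk using fun i => hfixF _ (fun g => hfixc g i)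
    refine ⟨k, (algebraMap LK L).injective ?_⟩
    rw [hrepr, map_sum]
    refine Finset.sum_congr rfl fun i _ => ?_
    rw [map_mul, map_pow, hzK, ← hk i, ← IsScalarTower.algebraMap_apply,
      ← IsScalarTower.algebraMap_apply]
  -- the basis of `LK / FK`
  have hli : LinearIndependent FK (fun i : Fin pb.dim => zK ^ (i : ℕ)) := by
    rw [Fintype.linearIndependent_iff]
    intro k hk i
    have h1 : ∑ i, algebraMap F L (algebraMap FK F (k i)) * z' ^ (i : ℕ) = 0 := by
      have h2 := congrArg (algebraMap LK L) hk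
      rw [map_sum, map_zero] at h2
      rw [← h2]
      refine Finset.sum_congr rfl fun i _ => ?_
      rw [Algebra.smul_def, map_mul, map_pow, hzK, ← IsScalarTower.algebraMap_apply,
        ← IsScalarTower.algebraMap_apply]
    exact (algebraMap FK F).injective (by rw [hindep _ h1 i, map_zero])
  have hsp : ⊤ ≤ Submodule.span FK (Set.range (fun i : Fin pb.dim => zK ^ (i : ℕ))) := by
    intro y _
    obtain ⟨k, hk⟩ := hcoord y
    rw [hk]
    refine Submodule.sum_mem _ fun i _ => ?_
    rw [← Algebra.smul_def]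
    exact Submodule.smul_mem _ _ (Submodule.subset_span ⟨i, rfl⟩)
  rw [Module.finrank_eq_card_basis (Module.Basis.mk hli hsp), Fintype.card_fin, hdim]

/-- **K-FORM, the descent of a split generator.**

`S` is a split monogenic extension `L / F` of prime degree `p` at `V` (over a big field).  A finite
group `G` acts on `L`, with field of invariants `LK`, and `F ∩ LK = FK`; `G` preserves every sheet
`S.W k` and commutes with the deck transformation `ρ`, which permutes the sheets cyclically.
`VK = V ∩ FK` is discrete with uniformizer `πK`, and `cK k ∈ VK` (`k < p`) are pairwise distinct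
modulo `𝔪(VK)`.  Then `LK / FK` (of degree `p`) has a split generator `T.z` at `VK` with
`T.z ≡ cK k` modulo `𝔪(S.W k)`, and the sheets of `T` are the restrictions of the sheets of `S`. -/
theorem Tres5Gen.descend' (S : Tres5Gen F L V p) (hp : p.Prime)
    {G : Type*} [Group G] [Finite G] [MulSemiringAction G L]
    (VK : ValuationSubring FK) (hVK : VK = V.comap (algebraMap FK F))
    (πK : FK) (hπK : πK ∈ VK.nonunits) (hπK0 : πK ≠ 0)
    (hunifK : ∀ x : FK, x ≠ 0 → ∃ m : ℤ, VK.valuation (x / πK ^ m) = 1)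
    (cK : ℕ → ↥VK)
    (hcK : ∀ i < p, ∀ j < p, i ≠ j → IsLocalRing.residue ↥VK (cK i - cK j) ≠ 0)
    (hGLK : ∀ (g : G) (y : LK), g • algebraMap LK L y = algebraMap LK L y)
    (hfixL : ∀ x : L, (∀ g : G, g • x = x) → ∃ y : LK, algebraMap LK L y = x)
    (hfixF : ∀ x : F, (∀ g : G, g • algebraMap F L x = algebraMap F L x) →
      ∃ y : FK, algebraMap FK F y = x)
    (hGW : ∀ (g : G), ∀ k < p, ∀ x ∈ S.W k, g • x ∈ S.W k)
    (ρ : L →ₐ[F] L) (hρG : ∀ (g : G) x, ρ (g • x) = g • ρ x)
    (hρW : ∀ k < p, (S.W k).comap (ρ : L →+* L) = S.W ((k + 1) % p)) :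
    ∃ T : Tres5Gen FK LK VK p, T.π = πK ∧ T.c = cK ∧
      (∀ k < p, algebraMap LK L T.z - algebraMap FK L (cK k : FK) ∈ (S.W k).nonunits) ∧
      (∀ k < p, T.W k = (S.W k).comap (algebraMap LK L)) ∧
      Module.finrank FK LK = p ∧ ρ (algebraMap LK L T.z) ≠ algebraMap LK L T.z ∧
      IntermediateField.adjoin F {algebraMap LK L T.z} = ⊤ := by
  classical
  have hp2 : 1 < p := hp.one_lt
  have hp0 : 0 < p := hp.pos
  have hpF : Fact p.Prime := ⟨hp⟩
  have hVK' : ∀ x : FK, x ∈ VK ↔ algebraMap FK F x ∈ V := fun x => by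
    rw [hVK, ValuationSubring.mem_comap]
  have hVKnu : ∀ x : FK, x ∈ VK.nonunits ↔ algebraMap FK F x ∈ V.nonunits := fun x => by
    rw [hVK]
    exact tres5_mem_nonunits_comap V (algebraMap FK F)
  -- the embedding of `VK`
  set ιK : ↥VK →+* L := (algebraMap FK L).comp VK.subtype with hιK
  have hιKF : ∀ a : ↥VK, ιK a = algebraMap F L (algebraMap FK F (a : FK)) := fun a =>
    IsScalarTower.algebraMap_apply FK F L _
  have hιKL : ∀ a : ↥VK, ιK a = algebraMap LK L (algebraMap FK LK (a : FK)) := fun a =>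
    IsScalarTower.algebraMap_apply FK LK L _
  have hcV : ∀ a : ↥VK, algebraMap FK F (a : FK) ∈ V := fun a => (hVK' _).1 a.2
  have hιW : ∀ (a : ↥VK), ∀ k < p, ιK a ∈ S.W k := fun a k hk => by
    rw [hιKF]
    exact S.ι_mem_W hk ⟨_, hcV a⟩
  have hιG : ∀ (g : G) (a : ↥VK), g • ιK a = ιK a := fun g a => by
    rw [hιKL]
    exact hGLK g _
  have hιnu : ∀ (a : ↥VK), ∀ k < p, ιK a ∈ (S.W k).nonunits →
      IsLocalRing.residue ↥VK a = 0 := by
    intro a k hk h
    rw [hιKF] at h
    have h1 := (tres5_mem_nonunits_comap (S.W k) (algebraMap F L)).2 h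
    rw [S.W_comap hk] at h1
    have h2 : (a : FK) ∈ VK.nonunits := (hVKnu _).2 h1
    rw [IsLocalRing.residue_eq_zero_iff]
    exact ValuationSubring.coe_mem_nonunits_iff.1 h2
  have hzW : ∀ k < p, S.z ∈ S.W k := fun k hk => by
    have := S.ψ_mem_W hk X
    rwa [S.ψ_X] at this
  -- the partition of unity
  obtain ⟨e, heG, he1, he0⟩ := tres5k_pou (G := G) (p := p) S.W hGW
    (fun k => ∏ j ∈ (Finset.range p).erase k, (S.z - tres5Iota V L (S.c j)))
    (by
      intro k hk
      rw [map_prod]
      refine Finset.prod_eq_one fun j hj => ?_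
      rw [Finset.mem_erase, Finset.mem_range] at hj
      exact S.W_z_unit hj.2 hk hj.1)
    (by
      intro k hk j hj hjk
      rw [← Finset.mul_prod_erase ((Finset.range p).erase k) _
        (Finset.mem_erase.2 ⟨hjk, Finset.mem_range.2 hj⟩), mul_comm]
      refine tres5_mul_mem_nonunits (S.W j) ?_ (S.W_z_mem hj)
      refine prod_mem fun i _ => ?_
      exact sub_mem (hzW j hj) (S.ι_mem_W hj _))
  -- the invariant generator
  set z' : L := ∑ k ∈ Finset.range p, ιK (cK k) * e k with hz'
  have hz'G : ∀ g : G, g • z' = z' := by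
    intro g
    rw [hz', Finset.smul_sum]
    refine Finset.sum_congr rfl fun k _ => ?_
    rw [smul_mul', hιG, heG]
  have hz'nu : ∀ k < p, z' - ιK (cK k) ∈ (S.W k).nonunits := by
    intro k hk
    have e1 : z' - ιK (cK k) = ιK (cK k) * (e k - 1) +
        ∑ j ∈ (Finset.range p).erase k, ιK (cK j) * e j := by
      rw [hz', ← Finset.add_sum_erase (Finset.range p) _ (Finset.mem_range.2 hk)]
      ring
    rw [e1]
    refine add_mem (tres5_mul_mem_nonunits _ (hιW _ k hk) (he1 k hk)) (sum_mem fun j hj => ?_)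
    rw [Finset.mem_erase, Finset.mem_range] at hj
    exact tres5_mul_mem_nonunits _ (hιW _ k hk) (he0 j hj.2 k hk (Ne.symm hj.1))
  have hz'W : ∀ k < p, z' ∈ S.W k := by
    intro k hk
    have h1 : z' = (z' - ιK (cK k)) + ιK (cK k) := by ring
    rw [h1]
    exact add_mem ((S.W k).nonunits_subset (hz'nu k hk)) (hιW _ k hk)
  obtain ⟨zK, hzK⟩ := hfixL z' hz'G
  -- the deck transformation
  have hρne : ∃ x, ρ x ≠ x := by
    by_contra hno
    have hid : ∀ x, ρ x = x := fun x => by
      by_contra h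
      exact hno ⟨x, h⟩
    have h01 := hρW 0 hp0
    rw [Nat.mod_eq_of_lt (by omega : 0 + 1 < p)] at h01
    have h00 : (S.W 0).comap (ρ : L →+* L) = S.W 0 := by
      ext x
      rw [ValuationSubring.mem_comap]
      change ρ x ∈ _ ↔ _
      rw [hid]
    rw [h00] at h01
    exact absurd (S.W_inj hp0 hp2 h01) (by omega)
  obtain ⟨hρp, hρfix⟩ := tres5k_deck_galois' hp S.hfin ρ hρne
  have hρmem : ∀ x : L, (∀ k < p, x ∈ S.W k) → ∀ k < p, ρ x ∈ S.W k := by
    intro x hx k hk
    have : x ∈ (S.W k).comap (ρ : L →+* L) := by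
      rw [hρW k hk]
      exact hx _ (Nat.mod_lt _ hp0)
    exact this
  have hρiter_mem : ∀ m : ℕ, ∀ k < p, (⇑ρ)^[m] z' ∈ S.W k := by
    intro m
    induction m with
    | zero => exact hz'W
    | succ m ih =>
      intro k hk
      rw [Function.iterate_succ_apply']
      exact hρmem _ ih k hk
  have hρnu : ∀ k, k + 1 < p → ∀ x : L, x ∈ (S.W (k + 1)).nonunits →
      ρ x ∈ (S.W k).nonunits := by
    intro k hk x hx
    have h1 := hρW k (by omega)
    rw [Nat.mod_eq_of_lt hk] at h1
    rw [← h1] at hx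
    exact (tres5_mem_nonunits_comap (S.W k) (ρ : L →+* L)).1 hx
  have hρiter_nu : ∀ m : ℕ, ∀ k, m + k < p → ∀ x : L, x ∈ (S.W (m + k)).nonunits →
      (⇑ρ)^[m] x ∈ (S.W k).nonunits := by
    intro m
    induction m with
    | zero =>
      intro k _ x hx
      simpa using hx
    | succ m ih =>
      intro k hk x hx
      rw [Function.iterate_succ_apply']
      have h1 : m + 1 + k = m + (k + 1) := by omega
      rw [h1] at hx
      exact hρnu k (by omega) _ (ih (k + 1) (by omega) x hx)
  have hρsub : ∀ (a : ↥VK) (n : ℕ) (x : L), (⇑ρ)^[n] (x - ιK a) = (⇑ρ)^[n] x - ιK a := by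
    intro a n x
    induction n with
    | zero => rfl
    | succ n ih =>
      rw [Function.iterate_succ_apply', ih, Function.iterate_succ_apply', map_sub, hιKF,
        AlgHom.commutes]
  have hρz : ∀ m < p, (⇑ρ)^[m] z' - ιK (cK m) ∈ (S.W 0).nonunits := by
    intro m hm
    have h1 := hρiter_nu m 0 (by omega) (z' - ιK (cK m)) (by simpa using hz'nu m hm)
    rwa [hρsub] at h1
  -- the degree
  have hz'ρ : ρ z' ≠ z' := by
    intro h2
    have h1 := hρz 1 hp2
    rw [Function.iterate_one, h2] at h1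
    have h3 := (S.W 0).nonunits.sub_mem (hz'nu 0 hp0) h1
    have e : z' - ιK (cK 0) - (z' - ιK (cK 1)) = ιK (cK 1 - cK 0) := by
      rw [map_sub]
      ring
    rw [e] at h3
    exact hcK 1 hp2 0 hp0 (by omega) (hιnu _ 0 hp0 h3)
  have hfinK : Module.finrank FK LK = p :=
    tres5k_finrank_of_gen hp S.hfin hGLK hfixL hfixF ρ hρG z' hz'G hz'ρ
  have hz'top : IntermediateField.adjoin F {z'} = ⊤ := by
    have := IntermediateField.isSimpleOrder_of_finrank_prime F L (by rw [S.hfin]; exact hp)
    rcases eq_bot_or_eq_top (IntermediateField.adjoin F {z'}) with h | h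
    · exfalso
      have h1 : z' ∈ (⊥ : IntermediateField F L) := by
        rw [← h]
        exact IntermediateField.mem_adjoin_simple_self F z'
      rw [IntermediateField.mem_bot] at h1
      obtain ⟨a, ha⟩ := h1
      exact hz'ρ (by rw [← ha, AlgHom.commutes])
    · exact h
  -- the polynomial
  have hPLmonic : (tres5kPoly (⇑ρ) p z').Monic := tres5k_poly_monic _ _
  have hPLroot : (tres5kPoly (⇑ρ) p z').eval z' = 0 := tres5k_poly_root _ _
  have hPLρ : (tres5kPoly (⇑ρ) p z').map (ρ : L →+* L) = tres5kPoly (⇑ρ) p z' :=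
    tres5k_poly_map_deck (ρ : L →+* L) z' (hρp z')
  have hPLG : ∀ g : G, (tres5kPoly (⇑ρ) p z').map (MulSemiringAction.toRingHom G L g) =
      tres5kPoly (⇑ρ) p z' := fun g =>
    tres5k_poly_map_comm (⇑ρ) (MulSemiringAction.toRingHom G L g) z' (hz'G g)
      (fun x => (hρG g x).symm)
  have hcoefρ : ∀ i, ρ ((tres5kPoly (⇑ρ) p z').coeff i) = (tres5kPoly (⇑ρ) p z').coeff i := by
    intro i
    have := congrArg (fun Q => Q.coeff i) hPLρ
    simp only [Polynomial.coeff_map] at this
    exact this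
  have hcoefG : ∀ (g : G) i, g • (tres5kPoly (⇑ρ) p z').coeff i =
      (tres5kPoly (⇑ρ) p z').coeff i := by
    intro g i
    have := congrArg (fun Q => Q.coeff i) (hPLG g)
    simp only [Polynomial.coeff_map] at this
    exact this
  -- the polynomial over `W 0`
  set P₀ : (↥(S.W 0))[X] :=
    ∏ m : ZMod p, (X - C (⟨(⇑ρ)^[m.val] z', hρiter_mem m.val 0 hp0⟩ : ↥(S.W 0))) with hP₀
  have hP₀map : P₀.map (S.W 0).subtype = tres5kPoly (⇑ρ) p z' := by
    rw [hP₀, Polynomial.map_prod]
    unfold tres5kPoly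
    refine Finset.prod_congr rfl fun m _ => ?_
    rw [Polynomial.map_sub, map_X, map_C]
    rfl
  have hcoefW : ∀ i, (tres5kPoly (⇑ρ) p z').coeff i ∈ S.W 0 := by
    intro i
    rw [← hP₀map, Polynomial.coeff_map]
    exact (P₀.coeff i).2
  have hcoefK : ∀ i, (tres5kPoly (⇑ρ) p z').coeff i ∈ Set.range ιK := by
    intro i
    obtain ⟨b, hb⟩ := hρfix _ (hcoefρ i)
    obtain ⟨c, hc⟩ := hfixF b (fun g => by rw [hb]; exact hcoefG g i)
    have hcVK : c ∈ VK := by
      rw [hVK', hc, ← S.W_comap hp0, ValuationSubring.mem_comap, hb]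
      exact hcoefW i
    refine ⟨⟨c, hcVK⟩, ?_⟩
    rw [hιKF]
    change algebraMap F L (algebraMap FK F c) = _
    rw [hc, hb]
  obtain ⟨PK, hPKmap, hPKdeg, hPKmonic⟩ := Polynomial.lifts_and_natDegree_eq_and_monic
    ((Polynomial.lifts_iff_coeff_lifts _).2 hcoefK) hPLmonic
  rw [tres5k_poly_natDegree] at hPKdeg
  -- the reduction
  set j₀ : ↥VK →+* ↥(S.W 0) :=
    ιK.codRestrict (S.W 0).toSubring (fun a => hιW a 0 hp0) with hj₀
  have hPKj : PK.map j₀ = P₀ := by
    apply Polynomial.map_injective (S.W 0).subtype Subtype.val_injective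
    rw [Polynomial.map_map, hP₀map]
    exact hPKmap
  have hχker : ∀ a : ↥VK, (IsLocalRing.residue ↥(S.W 0)).comp j₀ a = 0 →
      IsLocalRing.residue ↥VK a = 0 := by
    intro a ha
    rw [RingHom.comp_apply, IsLocalRing.residue_eq_zero_iff] at ha
    exact hιnu a 0 hp0 (ValuationSubring.coe_mem_nonunits_iff.2 ha)
  have hPKχ : PK.map ((IsLocalRing.residue ↥(S.W 0)).comp j₀) =
      (∏ i ∈ Finset.range p, (X - C (cK i))).map ((IsLocalRing.residue ↥(S.W 0)).comp j₀) := by
    have hA : (∏ i ∈ Finset.range p, (X - C (cK i))).map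
        ((IsLocalRing.residue ↥(S.W 0)).comp j₀) =
        ∏ m : ZMod p, (X - C (((IsLocalRing.residue ↥(S.W 0)).comp j₀) (cK m.val))) := by
      rw [Polynomial.map_prod]
      rw [tres5k_prod_zmod p (fun i : ℕ =>
        (X - C (((IsLocalRing.residue ↥(S.W 0)).comp j₀) (cK i)) :
          (IsLocalRing.ResidueField ↥(S.W 0))[X]))]
      refine Finset.prod_congr rfl fun i _ => ?_
      rw [Polynomial.map_sub, map_X, map_C]
    rw [hA, ← Polynomial.map_map, hPKj, hP₀, Polynomial.map_prod]
    refine Finset.prod_congr rfl fun m _ => ?_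
    rw [Polynomial.map_sub, map_X, map_C]
    congr 2
    rw [← sub_eq_zero, RingHom.comp_apply, ← map_sub, IsLocalRing.residue_eq_zero_iff]
    exact ValuationSubring.coe_mem_nonunits_iff.1 (hρz m.val (ZMod.val_lt m))
  have hπKmem : πK ∈ VK := VK.nonunits_subset hπK
  have hπV0 : (⟨πK, hπKmem⟩ : ↥VK) ≠ 0 := fun h => hπK0 (congrArg Subtype.val h)
  have hker : ∀ a : ↥VK, (IsLocalRing.residue ↥(S.W 0)).comp j₀ a = 0 →
      (⟨πK, hπKmem⟩ : ↥VK) ∣ a := by
    intro a ha
    have h1 := hχker a ha
    rw [IsLocalRing.residue_eq_zero_iff] at h1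
    have h2 : (a : FK) ∈ VK.nonunits := ValuationSubring.coe_mem_nonunits_iff.2 h1
    refine ⟨⟨(a : FK) / πK, tres5k_div_pi_mem VK hπK hπK0 hunifK h2⟩, Subtype.ext ?_⟩
    change (a : FK) = πK * ((a : FK) / πK)
    rw [mul_div_cancel₀ _ hπK0]
  have hQmonic : (∏ i ∈ Finset.range p, (X - C (cK i))).Monic :=
    monic_prod_of_monic _ _ fun _ _ => monic_X_sub_C _
  have hQdeg : (∏ i ∈ Finset.range p, (X - C (cK i))).natDegree = p := by
    rw [natDegree_prod_of_monic _ _ (fun j _ => monic_X_sub_C _)]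
    simp
  obtain ⟨Rr, hRrdeg, hPKeq⟩ := tres5k_congr_R hπV0 _ hker hPKmonic hQmonic hPKdeg hQdeg hPKχ
  -- the generator generates
  have hzKρ : ρ z' - ιK (cK 1) ∈ (S.W 0).nonunits := by
    have := hρz 1 hp2
    simpa using this
  have hzKnot : zK ∉ (⊥ : IntermediateField FK LK) := by
    intro h
    rw [IntermediateField.mem_bot] at h
    obtain ⟨a, ha⟩ := h
    have h1 : z' = algebraMap F L (algebraMap FK F a) := by
      rw [← hzK, ← ha, ← IsScalarTower.algebraMap_apply, ← IsScalarTower.algebraMap_apply]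
    have h2 : ρ z' = z' := by rw [h1, AlgHom.commutes]
    rw [h2] at hzKρ
    have h3 := (S.W 0).nonunits.sub_mem (hz'nu 0 hp0) hzKρ
    have e : z' - ιK (cK 0) - (z' - ιK (cK 1)) = ιK (cK 1 - cK 0) := by
      rw [map_sub]
      ring
    rw [e] at h3
    exact hcK 1 hp2 0 hp0 (by omega) (hιnu _ 0 hp0 h3)
  have htop : IntermediateField.adjoin FK {zK} = ⊤ := by
    have := IntermediateField.isSimpleOrder_of_finrank_prime FK LK (by rw [hfinK]; exact hp)
    rcases eq_bot_or_eq_top (IntermediateField.adjoin FK {zK}) with h | h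
    · exfalso
      apply hzKnot
      rw [← h]
      exact IntermediateField.mem_adjoin_simple_self FK zK
    · exact h
  have hcomp : (algebraMap LK L).comp (tres5Iota VK LK) = ιK := by
    ext a
    exact (hιKL a).symm
  -- the structure
  obtain ⟨T, hTπ, hTc, hTz⟩ : ∃ T : Tres5Gen FK LK VK p, T.π = πK ∧ T.c = cK ∧ T.z = zK :=
    ⟨{hn := hp.ne_zero
      hfin := hfinK
      π := πK
      hπ := hπK
      hπ0 := hπK0
      hunif := hunifK
      z := zK
      htop := htop
      c := cK
      hc := hcK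
      R := Rr
      hR := hRrdeg
      hz := by
        apply (algebraMap LK L).injective
        rw [map_zero, Polynomial.hom_eval₂, hzK, hcomp]
        have : (∏ i ∈ Finset.range p, (X - C (cK i)) + C (⟨πK, hπKmem⟩ : ↥VK) * Rr) = PK :=
          hPKeq.symm
        rw [this, ← Polynomial.eval_map, hPKmap]
        exact hPLroot }, rfl, rfl, rfl⟩
  refine ⟨T, hTπ, hTc, ?_, ?_, hfinK, by rw [hTz, hzK]; exact hz'ρ,
    by rw [hTz, hzK]; exact hz'top⟩
  · intro k hk
    rw [hTz, hzK]
    exact hz'nu k hk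
  · intro k hk
    have hcomap : ((S.W k).comap (algebraMap LK L)).comap (algebraMap FK LK) = VK := by
      ext x
      rw [ValuationSubring.mem_comap, ValuationSubring.mem_comap, hVK',
        ← IsScalarTower.algebraMap_apply, IsScalarTower.algebraMap_apply FK F L,
        ← ValuationSubring.mem_comap, S.W_comap hk]
    obtain ⟨k', hk', hW⟩ := T.W_unique hcomap
    rw [hW]
    by_contra hne
    have hkk : k ≠ k' := fun h => hne (by rw [h])
    have h1 := T.W_z_mem hk'
    rw [← hW, tres5_mem_nonunits_comap, map_sub, hTz, hzK, hTc] at h1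
    have h1' : z' - ιK (cK k') ∈ (S.W k).nonunits := by
      rw [← hcomp]
      exact h1
    have h2 := (S.W k).nonunits.sub_mem (hz'nu k hk) h1'
    have e : z' - ιK (cK k) - (z' - ιK (cK k')) = ιK (cK k' - cK k) := by
      rw [map_sub]
      ring
    rw [e] at h2
    exact hcK k' hk' k hk (Ne.symm hkk) (hιnu _ k hk h2)


/-- `Tres5Gen.descend'` with the (redundant) hypothesis `finrank FK LK = p`, and the short
conclusion. -/
theorem Tres5Gen.descend (S : Tres5Gen F L V p) (hp : p.Prime)
    {G : Type*} [Group G] [Finite G] [MulSemiringAction G L]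
    (VK : ValuationSubring FK) (hVK : VK = V.comap (algebraMap FK F))
    (πK : FK) (hπK : πK ∈ VK.nonunits) (hπK0 : πK ≠ 0)
    (hunifK : ∀ x : FK, x ≠ 0 → ∃ m : ℤ, VK.valuation (x / πK ^ m) = 1)
    (cK : ℕ → ↥VK)
    (hcK : ∀ i < p, ∀ j < p, i ≠ j → IsLocalRing.residue ↥VK (cK i - cK j) ≠ 0)
    (_hfinK : Module.finrank FK LK = p)
    (hGLK : ∀ (g : G) (y : LK), g • algebraMap LK L y = algebraMap LK L y)
    (hfixL : ∀ x : L, (∀ g : G, g • x = x) → ∃ y : LK, algebraMap LK L y = x)
    (hfixF : ∀ x : F, (∀ g : G, g • algebraMap F L x = algebraMap F L x) →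
      ∃ y : FK, algebraMap FK F y = x)
    (hGW : ∀ (g : G), ∀ k < p, ∀ x ∈ S.W k, g • x ∈ S.W k)
    (ρ : L →ₐ[F] L) (hρG : ∀ (g : G) x, ρ (g • x) = g • ρ x)
    (hρW : ∀ k < p, (S.W k).comap (ρ : L →+* L) = S.W ((k + 1) % p)) :
    ∃ T : Tres5Gen FK LK VK p, T.π = πK ∧ T.c = cK ∧
      (∀ k < p, algebraMap LK L T.z - algebraMap FK L (cK k : FK) ∈ (S.W k).nonunits) ∧
      (∀ k < p, T.W k = (S.W k).comap (algebraMap LK L)) := by
  obtain ⟨T, h1, h2, h3, h4, -⟩ := S.descend' hp VK hVK πK hπK hπK0 hunifK cK hcK hGLK hfixL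
    hfixF hGW ρ hρG hρW
  exact ⟨T, h1, h2, h3, h4⟩

/-- **The deck transformation descends**: `ρ` commutes with `G`, so it preserves the field of
invariants `LK`. -/
theorem tres5k_deck_descend {G : Type*} [Group G] [MulSemiringAction G L]
    (hGLK : ∀ (g : G) (y : LK), g • algebraMap LK L y = algebraMap LK L y)
    (hfixL : ∀ x : L, (∀ g : G, g • x = x) → ∃ y : LK, algebraMap LK L y = x)
    (ρ : L →ₐ[F] L) (hρG : ∀ (g : G) x, ρ (g • x) = g • ρ x) :
    ∃ ρK : LK →ₐ[FK] LK, ∀ y : LK, algebraMap LK L (ρK y) = ρ (algebraMap LK L y) := by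
  have hex : ∀ y : LK, ∃ y' : LK, algebraMap LK L y' = ρ (algebraMap LK L y) := fun y =>
    hfixL _ (fun g => by rw [← hρG, hGLK])
  choose f hf using hex
  have hinj : Function.Injective (algebraMap LK L) := (algebraMap LK L).injective
  refine ⟨{ toFun := f
            map_one' := hinj (by rw [hf, map_one, map_one])
            map_mul' := fun x y => hinj (by rw [hf, map_mul, map_mul, map_mul, hf, hf])
            map_zero' := hinj (by rw [hf, map_zero, map_zero])
            map_add' := fun x y => hinj (by rw [hf, map_add, map_add, map_add, hf, hf])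
            commutes' := fun a => hinj (by
              rw [hf, ← IsScalarTower.algebraMap_apply, IsScalarTower.algebraMap_apply FK F L,
                AlgHom.commutes]) }, hf⟩

omit [Algebra FK F] [Algebra FK L] [IsScalarTower FK LK L] [IsScalarTower FK F L] in
/-- the descended deck transformation permutes the descended sheets -/
theorem tres5k_deck_sheets {VK : ValuationSubring FK} (S : Tres5Gen F L V p)
    (T : Tres5Gen FK LK VK p)
    (hT : ∀ k < p, T.W k = (S.W k).comap (algebraMap LK L)) (hp : 0 < p)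
    (ρ : L →ₐ[F] L) (ρK : LK →ₐ[FK] LK)
    (hρK : ∀ y : LK, algebraMap LK L (ρK y) = ρ (algebraMap LK L y))
    (hρW : ∀ k < p, (S.W k).comap (ρ : L →+* L) = S.W ((k + 1) % p)) :
    ∀ k < p, (T.W k).comap (ρK : LK →+* LK) = T.W ((k + 1) % p) := by
  intro k hk
  ext x
  rw [ValuationSubring.mem_comap, hT k hk, hT _ (Nat.mod_lt _ hp), ValuationSubring.mem_comap,
    ValuationSubring.mem_comap, ← hρW k hk, ValuationSubring.mem_comap]
  change algebraMap LK L (ρK x) ∈ _ ↔ ρ (algebraMap LK L x) ∈ _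
  rw [hρK]

/-- residue characteristic `p`: the integers `0, …, p − 1` are pairwise distinct modulo the
maximal ideal -/
theorem tres5k_natCast_distinct (VK : ValuationSubring FK) (hp : p.Prime)
    (hpV : (p : FK) ∈ VK.nonunits) :
    ∀ i < p, ∀ j < p, i ≠ j →
      IsLocalRing.residue ↥VK (((i : ℕ) : ↥VK) - ((j : ℕ) : ↥VK)) ≠ 0 := by
  have hp0 : IsLocalRing.residue ↥VK ((p : ℕ) : ↥VK) = 0 := by
    rw [IsLocalRing.residue_eq_zero_iff]
    refine ValuationSubring.coe_mem_nonunits_iff.1 ?_
    simpa using hpV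
  have hchar : CharP (IsLocalRing.ResidueField ↥VK) p := by
    have hpF : Fact p.Prime := ⟨hp⟩
    refine (CharP.charP_iff_prime_eq_zero hp).2 ?_
    rw [← map_natCast (IsLocalRing.residue ↥VK)]
    exact hp0
  intro i hi j hj hij h
  rw [map_sub, map_natCast, map_natCast, sub_eq_zero] at h
  have h1 := (CharP.natCast_eq_natCast (IsLocalRing.ResidueField ↥VK) p).1 h
  have h2 : i % p = j % p := h1
  rw [Nat.mod_eq_of_lt hi, Nat.mod_eq_of_lt hj] at h2
  exact hij h2

end Descend

end Fermat.Agent.R38
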