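/-
ROW 38, TRES, piece FAC-KFORM (helper53), part 4: THE DESCENT OF THE SPLIT KUMMER COVER.

Packaging of `Tres5Gen.descend'` (`R38/TresKFormGen.lean`) for helper78's Kummer instance
`S : Tres5Kum F L V p` (`R38/TresCoverKum.lean`) over the big field, in the shape in which the
assembly has its inputs:
* a finite group `G` acting on `L` with `L^G = LK`, `F ∩ L^G = FK`;
* ONE `G`-stable valuation subring `W₀` of `L` over `V` (the GAUSS SHEET);
* the deck transformation `ρ y = ζ y`, commuting with `G`;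
* `VK = V ∩ FK` discrete with uniformizer `πK`, residue characteristic `p`.
Output: the split generator `T : Tres5Gen FK LK VK p` with roots `0, …, p − 1`, its sheets
`T.W k = S.gen.W k ∩ LK` (one of them is `W₀ ∩ LK`), the descended deck transformation `ρK`
permuting them cyclically, `[LK : FK] = p`, `F(T.z) = L`.
-/
import Fermat.Agent.R38.TresCoverKum
import Fermat.Agent.R38.TresKFormGen

set_option autoImplicit false

namespace Fermat.Agent.R38

open Polynomial

section KumDescend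

variable {FK LK F L : Type*} [Field FK] [Field LK] [Field F] [Field L]
  [Algebra FK LK] [Algebra F L] [Algebra FK F] [Algebra LK L] [Algebra FK L]
  [IsScalarTower FK LK L] [IsScalarTower FK F L]
  {V : ValuationSubring F} {p : ℕ}

/-- the deck transformation `ρ y = ζ y` permutes the sheets of the Kummer cover cyclically -/
theorem Tres5Kum.gen_W_deck (S : Tres5Kum F L V p) (ρ : L →ₐ[F] L)
    (hρ : ρ S.y = algebraMap F L S.ζ * S.y) :
    ∀ k < p, (S.gen.W k).comap (ρ : L →+* L) = S.gen.W ((k + 1) % p) := by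
  intro k hk
  have h := S.W_deck ρ 1 (by rw [pow_one]; exact hρ) k
  rwa [Tres5Kum.W_def, Tres5Kum.W_def, Nat.mod_eq_of_lt hk] at h

/-- **K-FORM for the split Kummer cover.** -/
theorem Tres5Kum.descend (S : Tres5Kum F L V p)
    {G : Type*} [Group G] [Finite G] [MulSemiringAction G L]
    (VK : ValuationSubring FK) (hVK : VK = V.comap (algebraMap FK F))
    (πK : FK) (hπK : πK ∈ VK.nonunits) (hπK0 : πK ≠ 0)
    (hunifK : ∀ x : FK, x ≠ 0 → ∃ m : ℤ, VK.valuation (x / πK ^ m) = 1)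
    (hpK : (p : FK) ∈ VK.nonunits)
    (hGLK : ∀ (g : G) (y : LK), g • algebraMap LK L y = algebraMap LK L y)
    (hfixL : ∀ x : L, (∀ g : G, g • x = x) → ∃ y : LK, algebraMap LK L y = x)
    (hfixF : ∀ x : F, (∀ g : G, g • algebraMap F L x = algebraMap F L x) →
      ∃ y : FK, algebraMap FK F y = x)
    (W₀ : ValuationSubring L) (hW₀ : W₀.comap (algebraMap F L) = V)
    (hGW₀ : ∀ (g : G), ∀ x ∈ W₀, g • x ∈ W₀)
    (ρ : L →ₐ[F] L) (hρ : ρ S.y = algebraMap F L S.ζ * S.y)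
    (hρG : ∀ (g : G) x, ρ (g • x) = g • ρ x) :
    ∃ (T : Tres5Gen FK LK VK p) (ρK : LK →ₐ[FK] LK),
      T.π = πK ∧ (∀ k, T.c k = ((k : ℕ) : ↥VK)) ∧
      (∀ k < p, algebraMap LK L T.z - ((k : ℕ) : L) ∈ (S.gen.W k).nonunits) ∧
      (∀ k < p, T.W k = (S.gen.W k).comap (algebraMap LK L)) ∧
      (∃ k₀ < p, W₀ = S.gen.W k₀ ∧ T.W k₀ = W₀.comap (algebraMap LK L)) ∧
      (∀ y : LK, algebraMap LK L (ρK y) = ρ (algebraMap LK L y)) ∧
      (∀ k < p, (T.W k).comap (ρK : LK →+* LK) = T.W ((k + 1) % p)) ∧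
      Module.finrank FK LK = p ∧
      IntermediateField.adjoin F {algebraMap LK L T.z} = ⊤ := by
  have hp := S.hp
  have hρW := S.gen_W_deck ρ hρ
  obtain ⟨k₀, hk₀, hWk₀⟩ := S.gen.W_unique hW₀
  have hGW : ∀ (g : G), ∀ k < p, ∀ x ∈ S.gen.W k, g • x ∈ S.gen.W k :=
    tres5k_sheets_fixed_smul hp.pos S.gen.W (ρ : L →+* L) hρG hρW hk₀
      (fun g x hx => by
        rw [← hWk₀] at hx ⊢
        exact hGW₀ g x hx)
  obtain ⟨T, hTπ, hTc, hTz, hTW, hfinK, -, htop⟩ := S.gen.descend' hp VK hVK πK hπK hπK0 hunifK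
    (fun k => ((k : ℕ) : ↥VK)) (tres5k_natCast_distinct VK hp hpK) hGLK hfixL hfixF hGW ρ hρG hρW
  obtain ⟨ρK, hρK⟩ := tres5k_deck_descend (FK := FK) hGLK hfixL ρ hρG
  refine ⟨T, ρK, hTπ, fun k => by rw [hTc], ?_, hTW, ⟨k₀, hk₀, hWk₀, by rw [hTW k₀ hk₀, hWk₀]⟩,
    hρK, tres5k_deck_sheets S.gen T hTW hp.pos ρ ρK hρK hρW, hfinK, htop⟩
  intro k hk
  have h := hTz k hk
  simpa using h

end KumDescend

end Fermat.Agent.R38
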