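import Fermat.Agent.R38.TresCoverKumL
import Fermat.Agent.R38.TresKFormKum

/-!
# R38 TRES, (FAC-p), piece ASM-COV, part 6: the tower `L_K → L_E` and the K-FORM descent on it

`K ≤ E` intermediate fields of `ℚ̄ / ℚ`.

* `tres5cBaseIncl N h : F_N(K) →+* F_N(E)` (coefficientwise inclusion);
* `tres5cAlgFF`, `tres5cAlgLL`, `tres5cAlgFL` : the algebra structures `F_N(K) → F_N(E)`,
  `L_K → L_E`, `F_N(K) → L_E` (reducible defs, NOT instances: pass them explicitly),
  `tres5c_tower_FFL`, `tres5c_tower_FLL` : the two scalar towers;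
* **`tres5c_descend`** : helper53's `Tres5Kum.descend` with these instances plugged in: from a
  `Tres5Kum` structure on `L_E / F_N(E)` at `V`, a finite group `G` acting on `L_E` with
  `L_E^G = L_K`, `F_N(E) ∩ L_K = F_N(K)`, one `G`-stable sheet and `ρ ∘ g = g ∘ ρ`, a
  `Tres5Gen F_N(K) L_K V_K p` (`V_K = V ∩ F_N(K)`) with sheets `T.W k = S.gen.W k ∩ L_K`, the
  descended deck transformation `ρ_K` and `[L_K : F_N(K)] = p`.
-/

set_option autoImplicit false
set_option linter.style.haveILetI false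
set_option linter.unusedSectionVars false

noncomputable section

open Polynomial IntermediateField ModularCurve Fermat.Agent.INJ

namespace Fermat.Agent.R38

section Tower

variable {K E : IntermediateField ℚ NfQb} (N : ℕ) (y : LaurentSeries NfQb) (h : K ≤ E)

/-- the inclusion `F_N(K) → F_N(E)`, `K ≤ E` -/
def tres5cBaseIncl :
    ↥(modularFunctionFieldFullC ↥K N) →+* ↥(modularFunctionFieldFullC ↥E N) where
  toFun x := ⟨coeffMap (IntermediateField.inclusion h).toRingHom (x : LaurentSeries ↥K),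
    nf_coeffMap_mem_fullC _ N x.2⟩
  map_one' := Subtype.ext (map_one (coeffMap _))
  map_mul' _ _ := Subtype.ext (map_mul (coeffMap _) _ _)
  map_zero' := Subtype.ext (map_zero (coeffMap _))
  map_add' _ _ := Subtype.ext (map_add (coeffMap _) _ _)

@[simp]
theorem tres5cBaseIncl_coe (x : ↥(modularFunctionFieldFullC ↥K N)) :
    ((tres5cBaseIncl N h x : ↥(modularFunctionFieldFullC ↥E N)) : LaurentSeries ↥E)
      = coeffMap (IntermediateField.inclusion h).toRingHom (x : LaurentSeries ↥K) := rfl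

/-- `Algebra F_N(K) F_N(E)` -/
@[reducible] def tres5cAlgFF :
    Algebra ↥(modularFunctionFieldFullC ↥K N) ↥(modularFunctionFieldFullC ↥E N) :=
  (tres5cBaseIncl N h).toAlgebra

/-- `Algebra L_K L_E` -/
@[reducible] def tres5cAlgLL : Algebra ↥(tres5cL K N y) ↥(tres5cL E N y) :=
  (tres5cIncl N y h).toAlgebra

/-- `Algebra F_N(K) L_E` -/
@[reducible] def tres5cAlgFL : Algebra ↥(modularFunctionFieldFullC ↥K N) ↥(tres5cL E N y) :=
  ((algebraMap ↥(modularFunctionFieldFullC ↥E N) ↥(tres5cL E N y)).comp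
    (tres5cBaseIncl N h)).toAlgebra

theorem tres5c_tower_FFL :
    @IsScalarTower ↥(modularFunctionFieldFullC ↥K N) ↥(modularFunctionFieldFullC ↥E N)
      ↥(tres5cL E N y) (tres5cAlgFF N h).toSMul Algebra.toSMul (tres5cAlgFL N y h).toSMul := by
  letI := tres5cAlgFF N h
  letI := tres5cAlgFL N y h
  exact @IsScalarTower.of_algebraMap_eq _ _ _ _ _ _ (tres5cAlgFF N h) _ (tres5cAlgFL N y h)
    fun x => rfl

theorem tres5c_tower_FLL :
    @IsScalarTower ↥(modularFunctionFieldFullC ↥K N) ↥(tres5cL K N y) ↥(tres5cL E N y)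
      Algebra.toSMul (tres5cAlgLL N y h).toSMul (tres5cAlgFL N y h).toSMul := by
  exact @IsScalarTower.of_algebraMap_eq _ _ _ _ _ _ _ (tres5cAlgLL N y h) (tres5cAlgFL N y h)
    fun x => Subtype.ext rfl

/-- **K-FORM on the concrete tower** (`Tres5Kum.descend` with the instances plugged in). -/
theorem tres5c_descend {p : ℕ} {V : ValuationSubring ↥(modularFunctionFieldFullC ↥E N)}
    (S : Tres5Kum ↥(modularFunctionFieldFullC ↥E N) ↥(tres5cL E N y) V p)
    {G : Type*} [Group G] [Finite G] [MulSemiringAction G ↥(tres5cL E N y)]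
    (VK : ValuationSubring ↥(modularFunctionFieldFullC ↥K N))
    (hVK : VK = V.comap (tres5cBaseIncl N h))
    (πK : ↥(modularFunctionFieldFullC ↥K N)) (hπK : πK ∈ VK.nonunits) (hπK0 : πK ≠ 0)
    (hunifK : ∀ x : ↥(modularFunctionFieldFullC ↥K N), x ≠ 0 →
      ∃ m : ℤ, VK.valuation (x / πK ^ m) = 1)
    (hpK : (p : ↥(modularFunctionFieldFullC ↥K N)) ∈ VK.nonunits)
    (hGLK : ∀ (g : G) (f : ↥(tres5cL K N y)), g • tres5cIncl N y h f = tres5cIncl N y h f)
    (hfixL : ∀ x : ↥(tres5cL E N y), (∀ g : G, g • x = x) →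
      ∃ f : ↥(tres5cL K N y), tres5cIncl N y h f = x)
    (hfixF : ∀ x : ↥(modularFunctionFieldFullC ↥E N),
      (∀ g : G, g • algebraMap ↥(modularFunctionFieldFullC ↥E N) ↥(tres5cL E N y) x
        = algebraMap ↥(modularFunctionFieldFullC ↥E N) ↥(tres5cL E N y) x) →
      ∃ a : ↥(modularFunctionFieldFullC ↥K N), tres5cBaseIncl N h a = x)
    (W₀ : ValuationSubring ↥(tres5cL E N y))
    (hW₀ : W₀.comap (algebraMap ↥(modularFunctionFieldFullC ↥E N) ↥(tres5cL E N y)) = V)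
    (hGW₀ : ∀ (g : G), ∀ x ∈ W₀, g • x ∈ W₀)
    (hρG : ∀ (g : G) (x : ↥(tres5cL E N y)), S.deck (g • x) = g • S.deck x) :
    ∃ (T : Tres5Gen ↥(modularFunctionFieldFullC ↥K N) ↥(tres5cL K N y) VK p)
      (ρK : ↥(tres5cL K N y) →ₐ[↥(modularFunctionFieldFullC ↥K N)] ↥(tres5cL K N y)),
      T.π = πK ∧ (∀ k, T.c k = ((k : ℕ) : ↥VK)) ∧
      (∀ k < p, tres5cIncl N y h T.z - ((k : ℕ) : ↥(tres5cL E N y)) ∈ (S.gen.W k).nonunits) ∧
      (∀ k < p, T.W k = (S.gen.W k).comap (tres5cIncl N y h)) ∧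
      (∃ k₀ < p, W₀ = S.gen.W k₀ ∧ T.W k₀ = W₀.comap (tres5cIncl N y h)) ∧
      (∀ f : ↥(tres5cL K N y), tres5cIncl N y h (ρK f) = S.deck (tres5cIncl N y h f)) ∧
      (∀ k < p, (T.W k).comap (ρK : ↥(tres5cL K N y) →+* ↥(tres5cL K N y))
        = T.W ((k + 1) % p)) ∧
      Module.finrank ↥(modularFunctionFieldFullC ↥K N) ↥(tres5cL K N y) = p ∧
      IntermediateField.adjoin ↥(modularFunctionFieldFullC ↥E N) {tres5cIncl N y h T.z} = ⊤ :=
  @Tres5Kum.descend ↥(modularFunctionFieldFullC ↥K N) ↥(tres5cL K N y)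
    ↥(modularFunctionFieldFullC ↥E N) ↥(tres5cL E N y) _ _ _ _ _ _
    (tres5cAlgFF N h) (tres5cAlgLL N y h) (tres5cAlgFL N y h)
    (tres5c_tower_FLL N y h) (tres5c_tower_FFL N y h) V p S G _ _ _ VK hVK πK hπK hπK0 hunifK
    hpK hGLK hfixL hfixF W₀ hW₀ hGW₀ (S.deck : ↥(tres5cL E N y) →ₐ[_] ↥(tres5cL E N y)) S.deck_y
    hρG

end Tower

end Fermat.Agent.R38
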