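/-
ROW 38, TRES, piece (B-big-pt) (helper13; paired with helper26, `R38/TresBigInstPt.lean`):
FAC-BIG AT THE CLOSED POINTS OF BOTH CHARTS, in the concrete frame of helper53's `TresKFormInstV`,
helper16's `TresBig` / `TresBigInstV` (`tres5biv_frame`) and helper48's `tres5kd_point`.

Frame: `A ⊂ ℚ̄` a valuation ring over `p`, `K₁` a number field, `E = mgcE A K₁ = ℚ̄^I K₁`,
`A′ = mgcA A K₁` a discrete valuation ring with uniformizer `π`, `ζ ∈ A′` a primitive `p`-th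
root of unity, `F_E = mgcF A K₁ (M p)`, `L ⊇ F_E` a Kummer extension `L = F_E(Y)`, `Y ^ p = u₀`,
`u₀` not a `p`-th power, `ρ` an automorphism with `ρ Y = ζ Y`.

* `tres5bipi_split_deck_abs` : (abstract chart) at a closed point `𝔫` of ANY chart `t'`, from the
  Kummer shape `u / g ^ p − 1 = (ζ − 1) ^ p π y`, `y ∈ atLoc 𝔫`:
  `∃ z P c, Tres5eSplit F z P c ∧ ∀ i, ∃ b ∈ (𝔫, z − c i), ρ z = c (i + 1) + b`
  (= the hypotheses `H`, `hρ` of `tres5kd_point` / `tres5ki_point`);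
* `tres5bipi_split_of_shape` : the same in the concrete frame, at the closed points of a chart
  `t'` with `ht' : t' = mgcT A K₁ N ∨ t' = (mgcT A K₁ N)⁻¹` (so that the consumer may take
  `t' = algebraMap F_K F_E t`, `t = bgJ K N` or `t = (bgJ K N)⁻¹`, WITHOUT transporting `𝔫`),
  from the closed-point clause of `tres5b_bar` / `tres5biv_frame`;
* `tres5bipi_split_kum` : the same for `Y = S.y`, `ρ = S.deck` of a `S : Tres5Kum F_E L V p`
  with `S.ζ = ζ` (`S.w` the model);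
* `tres5bipi_split` : the same directly from the hypotheses of `tres5b_bar`
  (`∃ K₀, ∀ K₁ ≥ K₀`);
* `tres5bipi_chart`, `tres5bip_chart_inv` : `tres5cBaseIncl N h` maps `bgJ K N` to `bgJ E N` and
  `(bgJ K N)⁻¹` to `(bgJ E N)⁻¹` (`K ≤ E`); `tres5bipi_chart_mgc`, `tres5bipi_chart_inv_mgc` : the
  same with values `mgcT A K₁ N`, `(mgcT A K₁ N)⁻¹`; `tres5bipi_chart_or` : the disjunction `ht'`.
-/
import Fermat.Agent.R38.TresBig
import Fermat.Agent.R38.TresBigPt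
import Fermat.Agent.R38.TresCoverConc
import Fermat.Agent.R38.TresCoverTower

set_option autoImplicit false
set_option linter.style.haveILetI false
set_option linter.unusedSectionVars false
set_option linter.unusedVariables false

/- the algebra structure of a subring `O ⊆ F` on `F`: found first (the default search needs
about 9 s per occurrence in the concrete frame; the instance found is the same). -/
attribute [local instance 100000] Algebra.ofSubsemiring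

noncomputable section

namespace Fermat.Agent.R38

open Polynomial IntermediateField ModularCurve AlgebraicCurve
open Fermat.Agent.ES Fermat.Agent.ES.G2 Fermat.Agent.UNIP Fermat.Agent.INJ Fermat.Agent.S33
  Fermat.Agent.STB

/-! ### The abstract chart -/

section Abs

variable {A₀ E F : Type*} [CommRing A₀] [IsDomain A₀] [IsDiscreteValuationRing A₀]
  [Field E] [Algebra A₀ E] [IsFractionRing A₀ E] [CharZero E]
  [Field F] [Algebra E F] [Algebra A₀ F] [IsScalarTower A₀ E F]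
  {π : A₀}

/-- **(B-big-pt), abstract chart.**  At a closed point `𝔫` of the special fibre of a chart `t'`,
the Kummer local shape gives the split situation over `atLoc 𝔫` together with the formula for
a deck transformation `ρ Y = ζ Y`. -/
theorem tres5bipi_split_deck_abs {t' : F} [FiniteDimensional E⟮t'⟯ F] (𝔫 : AtPt (F := F) π t')
    {L : Type*} [Field L] [Algebra F L]
    [IsLocalRing ↥(atLoc 𝔫)] [IsFractionRing ↥(atLoc 𝔫) F] [IsIntegrallyClosed ↥(atLoc 𝔫)]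
    [Algebra ↥(atLoc 𝔫) L] [IsScalarTower ↥(atLoc 𝔫) F L]
    (p : ℕ) [hp : Fact p.Prime] (hpπ : π ∣ (p : A₀)) {ζ : A₀} (hζ : IsPrimitiveRoot ζ p)
    (hlam : π ∣ ζ - 1) {u : F}
    (hshape : ∃ g : F, g ≠ 0 ∧ ∃ y ∈ atLoc 𝔫,
      u / g ^ p - 1 = (algebraMap A₀ F ζ - 1) ^ p * algebraMap A₀ F π * y)
    {Y : L} (hY : Y ^ p = algebraMap F L u)
    (htop : IntermediateField.adjoin F {Y} = ⊤) (hw : ∀ b : F, b ^ p ≠ u)
    (ρ : L ≃ₐ[F] L) (hρ : ρ Y = algebraMap F L (algebraMap A₀ F ζ) * Y) :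
    ∃ (z : L) (P : (↥(atLoc 𝔫))[X]) (c : ZMod p → ↥(atLoc 𝔫)), Tres5eSplit F z P c ∧
      ∀ i : ZMod p, ∃ b ∈ tres5eMax ↥(atLoc 𝔫) z (c i),
        ρ z = algebraMap ↥(atLoc 𝔫) L (c (i + 1)) + (b : L) := by
  obtain ⟨g, hg, y, hy, hu⟩ := hshape
  have hinj : Function.Injective (algebraMap A₀ F) :=
    zch_algebraMap_injective (A₀ := A₀) (E := E)
  have hζ' : IsPrimitiveRoot (⟨algebraMap A₀ F ζ, wab_const_mem_atLoc 𝔫 ζ⟩ : ↥(atLoc 𝔫)) p :=
    IsPrimitiveRoot.of_map_of_injective (f := (atLoc 𝔫).subtype)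
      (hζ.map_of_injective hinj) Subtype.val_injective
  refine ⟨_, _, _, tres5bp_split_atLoc (E := E) 𝔫 p hpπ hζ hlam hg hy hu hY htop hw,
    fun i => ?_⟩
  refine tres5bp_deck p hζ' g ρ ?_ i
  rw [hρ, IsScalarTower.algebraMap_apply ↥(atLoc 𝔫) F L]
  rfl

end Abs

/-! ### The chart coordinates -/

section Chart

variable {K E : IntermediateField ℚ NfQb} (N : ℕ) (h : K ≤ E)

/-- the base change `F_N(K) → F_N(E)` maps `j` to `j` -/
theorem tres5bipi_chart : tres5cBaseIncl N h (bgJ ↥K N) = bgJ ↥E N :=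
  Subtype.ext (map_jqModC _)

/-- the base change `F_N(K) → F_N(E)` maps `1 / j` to `1 / j` -/
theorem tres5bip_chart_inv : tres5cBaseIncl N h (bgJ ↥K N)⁻¹ = (bgJ ↥E N)⁻¹ := by
  rw [map_inv₀, tres5bipi_chart]

end Chart

section ChartMgc

variable (A : ValuationSubring Qb) (K₁ : IntermediateField ℚ Qb) (N : ℕ)
  {K : IntermediateField ℚ Qb} (h : K ≤ mgcE A K₁)

/-- the base change `F_N(K) → F_N(E′)`, `E′ = mgcE A K₁`, maps `j` to the chart coordinate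
`mgcT A K₁ N` over `E′`. -/
theorem tres5bipi_chart_mgc : tres5cBaseIncl N h (bgJ ↥K N) = mgcT A K₁ N :=
  tres5bipi_chart N h

/-- the base change `F_N(K) → F_N(E′)`, `E′ = mgcE A K₁`, maps `1 / j` to the chart coordinate
`(mgcT A K₁ N)⁻¹` of the inverse chart over `E′`. -/
theorem tres5bipi_chart_inv_mgc : tres5cBaseIncl N h (bgJ ↥K N)⁻¹ = (mgcT A K₁ N)⁻¹ :=
  tres5bip_chart_inv N h

/-- the hypothesis `ht'` of `tres5bipi_split_of_shape` for the image of a chart coordinate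
`t = j` or `t = 1 / j` of `F_N(K)`. -/
theorem tres5bipi_chart_or {t : ↥(modularFunctionFieldFullC ↥K N)}
    (ht : t = bgJ ↥K N ∨ t = (bgJ ↥K N)⁻¹) :
    tres5cBaseIncl N h t = mgcT A K₁ N ∨ tres5cBaseIncl N h t = (mgcT A K₁ N)⁻¹ := by
  rcases ht with rfl | rfl
  · exact Or.inl (tres5bipi_chart_mgc A K₁ N h)
  · exact Or.inr (tres5bipi_chart_inv_mgc A K₁ N h)

end ChartMgc

/-! ### The concrete frame -/

section Conc

variable {A : ValuationSubring Qb} {K₁ : IntermediateField ℚ Qb} {M p : ℕ} [NeZero M] [NeZero p]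
  [NeZero (M * p)] [hpF : Fact p.Prime]
  [IsDiscreteValuationRing ↥(mgcA A K₁)] {π : ↥(mgcA A K₁)} (hπ : Irreducible π)

set_option synthInstance.maxHeartbeats 400000 in
set_option maxHeartbeats 1600000 in
include hπ in
/-- **(B-big-pt), both charts, from the shape.**  `hshape` is the closed-point clause of
`tres5b_bar` / `tres5b_field` / `tres5biv_frame`. -/
theorem tres5bipi_split_of_shape (hA : A.LiesOverPrime p)
    {ζ : ↥(mgcA A K₁)} (hζ : IsPrimitiveRoot ζ p)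
    {u₀ : ↥(mgcF A K₁ (M * p))}
    (hshape : ∀ i, ∃ g : ↥(mgcF A K₁ (M * p)), g ≠ 0 ∧ ∃ y ∈ atO π (mgcT A K₁ (M * p)) i,
      u₀ / g ^ p - 1 =
        (algebraMap ↥(mgcA A K₁) ↥(mgcF A K₁ (M * p)) ζ - 1) ^ p *
          algebraMap ↥(mgcA A K₁) ↥(mgcF A K₁ (M * p)) π * y)
    {L : Type*} [Field L] [Algebra ↥(mgcF A K₁ (M * p)) L]
    {Y : L} (hY : Y ^ p = algebraMap ↥(mgcF A K₁ (M * p)) L u₀)
    (htop : IntermediateField.adjoin ↥(mgcF A K₁ (M * p)) {Y} = ⊤)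
    (hw : ∀ b : ↥(mgcF A K₁ (M * p)), b ^ p ≠ u₀)
    (ρ : L ≃ₐ[↥(mgcF A K₁ (M * p))] L)
    (hρ : ρ Y = algebraMap ↥(mgcF A K₁ (M * p)) L
      (algebraMap ↥(mgcA A K₁) ↥(mgcF A K₁ (M * p)) ζ) * Y)
    {t' : ↥(mgcF A K₁ (M * p))}
    (ht' : t' = mgcT A K₁ (M * p) ∨ t' = (mgcT A K₁ (M * p))⁻¹)
    (𝔫 : AtPt (F := ↥(mgcF A K₁ (M * p))) π t')
    [IsLocalRing ↥(atLoc 𝔫)] [IsFractionRing ↥(atLoc 𝔫) ↥(mgcF A K₁ (M * p))]
    [IsIntegrallyClosed ↥(atLoc 𝔫)] [Algebra ↥(atLoc 𝔫) L]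
    [IsScalarTower ↥(atLoc 𝔫) ↥(mgcF A K₁ (M * p)) L] :
    ∃ (z : L) (P : (↥(atLoc 𝔫))[X]) (c : ZMod p → ↥(atLoc 𝔫)),
      Tres5eSplit ↥(mgcF A K₁ (M * p)) z P c ∧
      ∀ i : ZMod p, ∃ b ∈ tres5eMax ↥(atLoc 𝔫) z (c i),
        ρ z = algebraMap ↥(atLoc 𝔫) L (c (i + 1)) + (b : L) := by
  haveI := mgc_finiteDimensional A K₁ (M * p)
  haveI : FiniteDimensional (↥(mgcE A K₁))⟮(mgcT A K₁ (M * p))⁻¹⟯ ↥(mgcF A K₁ (M * p)) :=
    at_finiteDimensional_inv (mgcT A K₁ (M * p))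
  rcases ht' with ht' | ht'
  · subst ht'
    exact tres5bipi_split_deck_abs (E := ↥(mgcE A K₁)) 𝔫 p (wmg_dvd_p hπ hA) hζ
      (wtop_hlam hπ hpF.out hA hζ.pow_eq_one) (hshape (Sum.inl 𝔫)) hY htop hw ρ hρ
  · subst ht'
    exact tres5bipi_split_deck_abs (E := ↥(mgcE A K₁)) 𝔫 p (wmg_dvd_p hπ hA) hζ
      (wtop_hlam hπ hpF.out hA hζ.pow_eq_one) (hshape (Sum.inr 𝔫)) hY htop hw ρ hρ

set_option synthInstance.maxHeartbeats 400000 in
set_option maxHeartbeats 1600000 in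
include hπ in
/-- **(B-big-pt), both charts, for a Kummer datum** `S` with `S.ζ = ζ`: `u₀ = S.w`, `Y = S.y`,
`ρ = S.deck`. -/
theorem tres5bipi_split_kum (hA : A.LiesOverPrime p)
    {ζ : ↥(mgcA A K₁)} (hζ : IsPrimitiveRoot ζ p)
    {L : Type*} [Field L] [Algebra ↥(mgcF A K₁ (M * p)) L]
    {V : ValuationSubring ↥(mgcF A K₁ (M * p))}
    (S : Tres5Kum ↥(mgcF A K₁ (M * p)) L V p)
    (hSζ : S.ζ = algebraMap ↥(mgcA A K₁) ↥(mgcF A K₁ (M * p)) ζ)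
    (hshape : ∀ i, ∃ g : ↥(mgcF A K₁ (M * p)), g ≠ 0 ∧ ∃ y ∈ atO π (mgcT A K₁ (M * p)) i,
      S.w / g ^ p - 1 =
        (algebraMap ↥(mgcA A K₁) ↥(mgcF A K₁ (M * p)) ζ - 1) ^ p *
          algebraMap ↥(mgcA A K₁) ↥(mgcF A K₁ (M * p)) π * y)
    {t' : ↥(mgcF A K₁ (M * p))}
    (ht' : t' = mgcT A K₁ (M * p) ∨ t' = (mgcT A K₁ (M * p))⁻¹)
    (𝔫 : AtPt (F := ↥(mgcF A K₁ (M * p))) π t')
    [IsLocalRing ↥(atLoc 𝔫)] [IsFractionRing ↥(atLoc 𝔫) ↥(mgcF A K₁ (M * p))]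
    [IsIntegrallyClosed ↥(atLoc 𝔫)] [Algebra ↥(atLoc 𝔫) L]
    [IsScalarTower ↥(atLoc 𝔫) ↥(mgcF A K₁ (M * p)) L] :
    ∃ (z : L) (P : (↥(atLoc 𝔫))[X]) (c : ZMod p → ↥(atLoc 𝔫)),
      Tres5eSplit ↥(mgcF A K₁ (M * p)) z P c ∧
      ∀ i : ZMod p, ∃ b ∈ tres5eMax ↥(atLoc 𝔫) z (c i),
        S.deck z = algebraMap ↥(atLoc 𝔫) L (c (i + 1)) + (b : L) :=
  tres5bipi_split_of_shape hπ hA hζ hshape S.hy S.htop S.hw S.deck
    (by rw [S.deck_y, hSζ]) ht' 𝔫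

end Conc

/-! ### Directly from the hypotheses of `tres5b_bar` -/

section Bar

variable {p M : ℕ} [NeZero p] [NeZero M] [NeZero (M * p)] [hpF : Fact p.Prime]

set_option synthInstance.maxHeartbeats 400000 in
set_option maxHeartbeats 1600000 in
/-- **(B-big-pt), both charts, `ℚ̄`-level.**  For a split function `u` of `F̄_{Mp}` with
`p ∣ div u`: over every sufficiently large number field `K₁`, for every model `u₀` of `u` over
`E′ = ℚ̄^I K₁`, every Kummer extension `L = F′(Y)`, `Y ^ p = u₀`, and every deck transformation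
`ρ Y = ζ Y`: the split situation and the deck formula at every closed point of the special fibre
of the charts `j` and `1 / j`. -/
theorem tres5bipi_split (hpM : ¬ p ∣ M) (hp3 : 3 ≤ p) (h3 : p = 3 → 2 ∣ M)
    (A : ValuationSubring Qb) (hA : A.LiesOverPrime p)
    (u : modularFunctionFieldBar (M * p)) (hu : u ≠ 0)
    (hdiv : ∀ P : Place Qb (modularFunctionFieldBar (M * p)), (p : ℤ) ∣ P.ord u)
    (hsplit : IsSplitFn hpF.out hpM A u) :
    ∃ K₀ : IntermediateField ℚ Qb, FiniteDimensional ℚ K₀ ∧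
      ∀ (K₁ : IntermediateField ℚ Qb), K₀ ≤ K₁ → ∀ [NumberField K₁] [IsGalois ℚ K₁]
        [IsDiscreteValuationRing ↥(mgcA A K₁)] {π : ↥(mgcA A K₁)} (_ : Irreducible π)
        {ζ : ↥(mgcA A K₁)}, IsPrimitiveRoot ζ p →
        (∃ u₀ : ↥(mgcF A K₁ (M * p)), nfEmb (mgcE A K₁) (M * p) u₀ = u) ∧
        ∀ u₀ : ↥(mgcF A K₁ (M * p)), nfEmb (mgcE A K₁) (M * p) u₀ = u →
        ∀ {L : Type*} [Field L] [Algebra ↥(mgcF A K₁ (M * p)) L] {Y : L},
          Y ^ p = algebraMap ↥(mgcF A K₁ (M * p)) L u₀ →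
          IntermediateField.adjoin ↥(mgcF A K₁ (M * p)) {Y} = ⊤ →
          (∀ b : ↥(mgcF A K₁ (M * p)), b ^ p ≠ u₀) →
        ∀ ρ : L ≃ₐ[↥(mgcF A K₁ (M * p))] L,
          ρ Y = algebraMap ↥(mgcF A K₁ (M * p)) L
            (algebraMap ↥(mgcA A K₁) ↥(mgcF A K₁ (M * p)) ζ) * Y →
        ∀ {t' : ↥(mgcF A K₁ (M * p))},
          t' = mgcT A K₁ (M * p) ∨ t' = (mgcT A K₁ (M * p))⁻¹ →
        ∀ (𝔫 : AtPt (F := ↥(mgcF A K₁ (M * p))) π t')
          [IsLocalRing ↥(atLoc 𝔫)] [IsFractionRing ↥(atLoc 𝔫) ↥(mgcF A K₁ (M * p))]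
          [IsIntegrallyClosed ↥(atLoc 𝔫)] [Algebra ↥(atLoc 𝔫) L]
          [IsScalarTower ↥(atLoc 𝔫) ↥(mgcF A K₁ (M * p)) L],
          ∃ (z : L) (P : (↥(atLoc 𝔫))[X]) (c : ZMod p → ↥(atLoc 𝔫)),
            Tres5eSplit ↥(mgcF A K₁ (M * p)) z P c ∧
            ∀ i : ZMod p, ∃ b ∈ tres5eMax ↥(atLoc 𝔫) z (c i),
              ρ z = algebraMap ↥(atLoc 𝔫) L (c (i + 1)) + (b : L) := by
  obtain ⟨K₀, hK₀, hbar⟩ := tres5b_bar hpF.out hpM hp3 h3 A hA u hu hdiv hsplit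
  refine ⟨K₀, hK₀, fun K₁ hK₁ _ _ _ π hπ ζ hζ => ?_⟩
  obtain ⟨hex, hall⟩ := hbar K₁ hK₁ hπ hζ
  refine ⟨hex, fun u₀ hu₀ L _ _ Y hY htop hw ρ hρ t' ht' 𝔫 _ _ _ _ _ => ?_⟩
  exact tres5bipi_split_of_shape hπ hA hζ (hall u₀ hu₀).2 hY htop hw ρ hρ ht' 𝔫

end Bar

end Fermat.Agent.R38

end
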