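/-
ROW 38, TRES, piece FAC-BIG, packaging (P1) (helper17): THE SPLIT KUMMER DATUM `Tres5Kum` AT THE TWO
VERTICAL VALUATIONS `V_∞`, `V_0` of `F_{Mq}(K₀)`.

Setting of `UNIP/MGVertInertia.lean`: `A ⊂ ℚ̄` a valuation ring, `K₀ ⊂ ℚ̄` with `A ∩ K₀ = beta0Ring A K₀`
a discrete valuation ring with uniformizer `π`, `V = mgvV hπ ιC hq hqM` (`true ↦ V_∞`, `false ↦ V_0`).
(`K₀ = mgcE A K₁` is the big field `E′` of `S33.wtop_field` / `R38.tres5b_bar`, `K₀ = beta0Field A` is `K`.)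

* `tres5bk_vtSub_hunif`, `tres5bk_mgv_hunif` : `hunif` in `ℤ`-form,
  `∀ x ≠ 0, ∃ n : ℤ, (V c).valuation (x / π ^ n) = 1`  (Gauss decomposition `vt_exists_pow_mul`;
  no (SS1), no rigidity hypothesis).
* `tres5bk_hsplit_of_shape` : the shape `u₀ / g ^ p − 1 = (ζ − 1) ^ p · π · y`, `y ∈ V c` of
  `R38.tres5b_bar` / `tres5b_field_vert` gives `Tres5Kum.hsplit`.
* `tres5bkKum` : **(P1)** `Tres5Kum F L (V c) p` for an abstract `L = F(Y)`, `Y ^ p = u₀`, `u₀` not a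
  `p`-th power, from the shape at `V c` (the `g` of the shape is kept: `(tres5bkKum …).g = g`).
  Then `(tres5bkKum …).gen : Tres5Gen F L (V c) p`, `.W k`, `.W_deck`, `.ord_congr` (helper78).
* `tres5bk_exists_kum` : the same from the valuation form (H1) of `S33.StmtWildFieldAt`.
-/
import Fermat.Agent.S33.WildDeepAux
import Fermat.Agent.R38.TresCoverKum

set_option autoImplicit false
set_option linter.unusedSectionVars false
set_option linter.unusedVariables false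
set_option linter.style.haveILetI false

noncomputable section

namespace Fermat.Agent.R38

open ModularCurve Fermat.Agent.INJ Fermat.Agent.ES Fermat.Agent.ES.G2 Fermat.Agent.UNIP
  Fermat.Agent.S33

section Gen

variable {A₀ E k : Type*} [CommRing A₀] [Field E] [Field k]
  {ι : A₀ →+* E} {r : A₀ →+* k} {π : A₀} {F : Type*} [Field F]
  (hB : VtBase ι r π) (e : F →+* LaurentSeries E) (hfrac : ∀ x : F, VtFrac ι (e x))

/-- **`hunif`, `ℤ`-form**, for a vertical valuation: every nonzero `x` is `π ^ n · unit`. -/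
theorem tres5bk_vtSub_hunif {c : F} (hc : e c = HahnSeries.C (ι π)) {x : F} (hx : x ≠ 0) :
    ∃ n : ℤ, (vtSub hB e hfrac).valuation (x / c ^ n) = 1 := by
  have hex : e x ≠ 0 := (map_ne_zero e).mpr hx
  have hCπ := hB.Cιπ_ne
  obtain ⟨d, u, hu, h | h⟩ := vt_exists_pow_mul hB hex (hfrac x)
  · refine ⟨(d : ℤ), ?_⟩
    rw [vtSub_valuation_eq_one_iff, zpow_natCast, map_div₀, map_pow, hc, h,
      mul_div_cancel_left₀ _ (pow_ne_zero d hCπ)]
    exact hu
  · refine ⟨-(d : ℤ), ?_⟩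
    rw [vtSub_valuation_eq_one_iff, zpow_neg, zpow_natCast, div_inv_eq_mul, map_mul, map_pow, hc]
    have hu0 := hu.ne_zero hB.inj
    have h1 : e x = (HahnSeries.C (ι π) ^ d * u)⁻¹ := by rw [← h, inv_inv]
    have h2 : e x * HahnSeries.C (ι π) ^ d = u⁻¹ := by
      rw [h1, mul_inv, mul_comm _ u⁻¹, mul_assoc, inv_mul_cancel₀ (pow_ne_zero d hCπ), mul_one]
    rw [h2]
    exact hu.inv hB.inj

end Gen

section Mgv

variable {A : ValuationSubring Qb} {K₀ : IntermediateField ℚ Qb}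
  [IsDiscreteValuationRing ↥(beta0Ring A K₀)] {π : ↥(beta0Ring A K₀)} (hπ : Irreducible π)
  (ιC : ↥K₀ →+* ℂ) {q M : ℕ} [NeZero q] [NeZero M] [NeZero (M * q)]
  (hq : q.Prime) (hqM : ¬ q ∣ M)

/-- **`hunif`, `ℤ`-form**, for `mgvV`: `π` is a uniformizer of `V_∞`, `V_0`. -/
theorem tres5bk_mgv_hunif (c : Bool) (x : ↥(modularFunctionFieldFullC ↥K₀ (M * q)))
    (hx : x ≠ 0) :
    ∃ n : ℤ, (mgvV hπ ιC hq hqM c).valuation
      (x / algebraMap ↥(beta0Ring A K₀) ↥(modularFunctionFieldFullC ↥K₀ (M * q)) π ^ n) = 1 :=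
  tres5bk_vtSub_hunif (vtBase_residue hπ) (vtEmbFam ιC hq hqM c)
    (vt_frac_fam (vtBase_residue hπ) ιC hq hqM c)
    (vtEmbFam_const ιC hq hqM c (algebraMap ↥(beta0Ring A K₀) ↥K₀ π)) hx

/-- the shape `u₀ / g ^ p − 1 = (ζ − 1) ^ p · π · y`, `y ∈ V c`, gives the split inequality (H1) -/
theorem tres5bk_hsplit_of_shape (V : ValuationSubring ↥(modularFunctionFieldFullC ↥K₀ (M * q)))
    {p : ℕ} {lam ϖ u₀ g y : ↥(modularFunctionFieldFullC ↥K₀ (M * q))} (hy : y ∈ V)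
    (hshape : u₀ / g ^ p - 1 = lam ^ p * ϖ * y) :
    V.valuation (u₀ / g ^ p - 1) ≤ V.valuation (lam ^ p * ϖ) := by
  rw [hshape, map_mul (V.valuation) (lam ^ p * ϖ) y]
  exact mul_le_of_le_one_right zero_le ((V.valuation_le_one_iff y).2 hy)

/-- **FAC-BIG (P1).**  The split Kummer datum at the vertical valuation `V c` (`c = true`: `V_∞`,
`c = false`: `V_0`), for an abstract Kummer extension `L = F(Y)`, `Y ^ p = u₀`, from the Kummer
shape of `u₀` at `V c`. -/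
def tres5bkKum (c : Bool) {p : ℕ} (hp : p.Prime) {ζ : ↥(beta0Ring A K₀)}
    (hζ : IsPrimitiveRoot ζ p)
    {u₀ g y : ↥(modularFunctionFieldFullC ↥K₀ (M * q))} (hg : g ≠ 0)
    (hy : y ∈ mgvV hπ ιC hq hqM c)
    (hshape : u₀ / g ^ p - 1 =
      (algebraMap ↥(beta0Ring A K₀) ↥(modularFunctionFieldFullC ↥K₀ (M * q)) ζ - 1) ^ p *
        algebraMap ↥(beta0Ring A K₀) ↥(modularFunctionFieldFullC ↥K₀ (M * q)) π * y)
    {L : Type*} [Field L] [Algebra ↥(modularFunctionFieldFullC ↥K₀ (M * q)) L]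
    (Y : L) (hY : Y ^ p = algebraMap ↥(modularFunctionFieldFullC ↥K₀ (M * q)) L u₀)
    (htop : IntermediateField.adjoin ↥(modularFunctionFieldFullC ↥K₀ (M * q)) {Y} = ⊤)
    (hw : ∀ a : ↥(modularFunctionFieldFullC ↥K₀ (M * q)), a ^ p ≠ u₀) :
    Tres5Kum ↥(modularFunctionFieldFullC ↥K₀ (M * q)) L (mgvV hπ ιC hq hqM c) p where
  hp := hp
  ζ := algebraMap ↥(beta0Ring A K₀) ↥(modularFunctionFieldFullC ↥K₀ (M * q)) ζ
  hζ := hζ.map_of_injective
    (zch_algebraMap_injective (A₀ := ↥(beta0Ring A K₀)) (E := ↥K₀))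
  π := algebraMap ↥(beta0Ring A K₀) ↥(modularFunctionFieldFullC ↥K₀ (M * q)) π
  hπ := mgv_hπV hπ ιC hq hqM c
  hπ0 := unip_algebraMap_irreducible_ne_zero ↥K₀ hπ
  hunif := fun x hx => tres5bk_mgv_hunif hπ ιC hq hqM c x hx
  w := u₀
  g := g
  hg := hg
  hsplit := tres5bk_hsplit_of_shape _ hy hshape
  y := Y
  hy := hY
  htop := htop
  hw := hw

section Fields

variable (c : Bool) {p : ℕ} (hp : p.Prime) {ζ : ↥(beta0Ring A K₀)}
    (hζ : IsPrimitiveRoot ζ p)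
    {u₀ g y : ↥(modularFunctionFieldFullC ↥K₀ (M * q))} (hg : g ≠ 0)
    (hy : y ∈ mgvV hπ ιC hq hqM c)
    (hshape : u₀ / g ^ p - 1 =
      (algebraMap ↥(beta0Ring A K₀) ↥(modularFunctionFieldFullC ↥K₀ (M * q)) ζ - 1) ^ p *
        algebraMap ↥(beta0Ring A K₀) ↥(modularFunctionFieldFullC ↥K₀ (M * q)) π * y)
    {L : Type*} [Field L] [Algebra ↥(modularFunctionFieldFullC ↥K₀ (M * q)) L]
    (Y : L) (hY : Y ^ p = algebraMap ↥(modularFunctionFieldFullC ↥K₀ (M * q)) L u₀)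
    (htop : IntermediateField.adjoin ↥(modularFunctionFieldFullC ↥K₀ (M * q)) {Y} = ⊤)
    (hw : ∀ a : ↥(modularFunctionFieldFullC ↥K₀ (M * q)), a ^ p ≠ u₀)

@[simp] theorem tres5bkKum_ζ :
    (tres5bkKum hπ ιC hq hqM c hp hζ hg hy hshape Y hY htop hw).ζ =
      algebraMap ↥(beta0Ring A K₀) ↥(modularFunctionFieldFullC ↥K₀ (M * q)) ζ := rfl

@[simp] theorem tres5bkKum_π :
    (tres5bkKum hπ ιC hq hqM c hp hζ hg hy hshape Y hY htop hw).π =
      algebraMap ↥(beta0Ring A K₀) ↥(modularFunctionFieldFullC ↥K₀ (M * q)) π := rfl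

@[simp] theorem tres5bkKum_w :
    (tres5bkKum hπ ιC hq hqM c hp hζ hg hy hshape Y hY htop hw).w = u₀ := rfl

@[simp] theorem tres5bkKum_g :
    (tres5bkKum hπ ιC hq hqM c hp hζ hg hy hshape Y hY htop hw).g = g := rfl

@[simp] theorem tres5bkKum_y :
    (tres5bkKum hπ ιC hq hqM c hp hζ hg hy hshape Y hY htop hw).y = Y := rfl

/-- the generator of the split monogenic structure: `z = (Y / g − 1) / (ζ − 1)` -/
theorem tres5bkKum_gen_z :
    (tres5bkKum hπ ιC hq hqM c hp hζ hg hy hshape Y hY htop hw).gen.z =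
      (Y / algebraMap ↥(modularFunctionFieldFullC ↥K₀ (M * q)) L g - 1) /
        algebraMap ↥(modularFunctionFieldFullC ↥K₀ (M * q)) L
          (algebraMap ↥(beta0Ring A K₀) ↥(modularFunctionFieldFullC ↥K₀ (M * q)) ζ - 1) := by
  rw [Tres5Kum.gen_z]
  show tres5T g (algebraMap ↥(beta0Ring A K₀) ↥(modularFunctionFieldFullC ↥K₀ (M * q)) ζ) Y 0
    = _
  unfold tres5T
  rw [pow_zero, map_one]

end Fields

/-- **FAC-BIG (P1), valuation form.**  From the split hypothesis (H1) of `S33.StmtWildFieldAt`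
at `V c`: a split Kummer datum with `w = u₀`, `y = Y`, `ζ`, `π` the given ones. -/
theorem tres5bk_exists_kum (c : Bool) {p : ℕ} (hp : p.Prime) {ζ : ↥(beta0Ring A K₀)}
    (hζ : IsPrimitiveRoot ζ p)
    {u₀ : ↥(modularFunctionFieldFullC ↥K₀ (M * q))}
    (hsplit : ∃ h : ↥(modularFunctionFieldFullC ↥K₀ (M * q)), h ≠ 0 ∧
      (mgvV hπ ιC hq hqM c).valuation (u₀ / h ^ p - 1) ≤
        (mgvV hπ ιC hq hqM c).valuation
          ((algebraMap ↥(beta0Ring A K₀) ↥(modularFunctionFieldFullC ↥K₀ (M * q)) ζ - 1) ^ p *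
            algebraMap ↥(beta0Ring A K₀) ↥(modularFunctionFieldFullC ↥K₀ (M * q)) π))
    {L : Type*} [Field L] [Algebra ↥(modularFunctionFieldFullC ↥K₀ (M * q)) L]
    (Y : L) (hY : Y ^ p = algebraMap ↥(modularFunctionFieldFullC ↥K₀ (M * q)) L u₀)
    (htop : IntermediateField.adjoin ↥(modularFunctionFieldFullC ↥K₀ (M * q)) {Y} = ⊤)
    (hw : ∀ a : ↥(modularFunctionFieldFullC ↥K₀ (M * q)), a ^ p ≠ u₀) :
    ∃ S : Tres5Kum ↥(modularFunctionFieldFullC ↥K₀ (M * q)) L (mgvV hπ ιC hq hqM c) p,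
      S.ζ = algebraMap ↥(beta0Ring A K₀) ↥(modularFunctionFieldFullC ↥K₀ (M * q)) ζ ∧
      S.π = algebraMap ↥(beta0Ring A K₀) ↥(modularFunctionFieldFullC ↥K₀ (M * q)) π ∧
      S.w = u₀ ∧ S.y = Y := by
  obtain ⟨h, hh0, hle⟩ := hsplit
  exact ⟨{ hp := hp
           ζ := algebraMap ↥(beta0Ring A K₀) ↥(modularFunctionFieldFullC ↥K₀ (M * q)) ζ
           hζ := hζ.map_of_injective
             (zch_algebraMap_injective (A₀ := ↥(beta0Ring A K₀)) (E := ↥K₀))
           π := algebraMap ↥(beta0Ring A K₀) ↥(modularFunctionFieldFullC ↥K₀ (M * q)) π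
           hπ := mgv_hπV hπ ιC hq hqM c
           hπ0 := unip_algebraMap_irreducible_ne_zero ↥K₀ hπ
           hunif := fun x hx => tres5bk_mgv_hunif hπ ιC hq hqM c x hx
           w := u₀
           g := h
           hg := hh0
           hsplit := hle
           y := Y
           hy := hY
           htop := htop
           hw := hw }, rfl, rfl, rfl, rfl⟩

end Mgv

end Fermat.Agent.R38

end
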