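/-
ROW 38, TRES, piece ASM-COV (helper64, paired with helper78), part ACT: THE COEFFICIENTWISE
GALOIS ACTION ON THE `E`-FORM OF THE COVER (abstract part; Mathlib + `coeffMap` + `tres5cForm`).

`K ⊆ E` fields, `G = E ≃ₐ[K] E`, `ι : E →+* Ω`, `Fb′` a subfield of `Ω((q))`,
`L_E = tres5cForm ι F₁ Fb′ hF₁` (the `E`-form of `Fb′`), `L_K = tres5cForm (ι ∘ κ) F₀ Fb′ hF₀`
(the `K`-form, `κ = algebraMap K E`).

* `tres5caLaurent` : the coefficientwise action of `G` on `E((q))` (`g • f = coeffMap g f`);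
* `tres5caAct hstab` : the induced action on `L_E`, if `Fb′` is stable (`hstab`);
  `tres5ca_smul_coe`;
* `tres5ca_smul_incl` (= `hGLK`) : `G` fixes the image of `L_K`;
* `tres5ca_fixed` (= `hfixL`) : `E / K` finite Galois: an element of `L_E` fixed by `G` comes from
  `L_K`;
* `tres5ca_fixed_base` (= `hfixF`) : the same for the base field `F₁`, if the `K`-form of `F₁`
  is `F₀`;
* `tres5ca_coeff_mem` : a Laurent series fixed by `G` has its coefficients in `K`.
-/
import Fermat.Agent.R38.TresCoverConc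

set_option autoImplicit false
set_option linter.style.haveILetI false
set_option linter.unusedSectionVars false

noncomputable section

namespace Fermat.Agent.R38

open ModularCurve

section Laurent

variable {K E : Type*} [Field K] [Field E] [Algebra K E]

/-- The coefficientwise action of `Aut(E / K)` on `E((q))`. -/
@[reducible] def tres5caLaurent : MulSemiringAction (E ≃ₐ[K] E) (LaurentSeries E) where
  smul g f := coeffMap ((g : E ≃ₐ[K] E) : E →+* E) f
  one_smul f := by
    show coeffMap _ f = f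
    ext n
    simp
  mul_smul g h f := by
    show coeffMap _ f = coeffMap _ (coeffMap _ f)
    ext n
    simp
  smul_zero g := map_zero (coeffMap ((g : E ≃ₐ[K] E) : E →+* E))
  smul_add g a b := map_add (coeffMap ((g : E ≃ₐ[K] E) : E →+* E)) a b
  smul_one g := map_one (coeffMap ((g : E ≃ₐ[K] E) : E →+* E))
  smul_mul g a b := map_mul (coeffMap ((g : E ≃ₐ[K] E) : E →+* E)) a b

/-- a Laurent series fixed by `Aut(E / K)` coefficientwise has its coefficients in `K`, if
`E / K` is finite Galois -/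
theorem tres5ca_coeff_mem [FiniteDimensional K E] [IsGalois K E] (f : LaurentSeries E)
    (hf : ∀ g : E ≃ₐ[K] E, coeffMap ((g : E ≃ₐ[K] E) : E →+* E) f = f) (n : ℤ) :
    ∃ c : K, algebraMap K E c = f.coeff n := by
  have h : f.coeff n ∈ (⊥ : IntermediateField K E) := by
    rw [IsGalois.mem_bot_iff_fixed]
    intro g
    have := congrArg (fun x : LaurentSeries E => x.coeff n) (hf g)
    simpa using this
  exact IntermediateField.mem_bot.1 h

/-- the image of `K((q))` is fixed by `Aut(E / K)` -/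
theorem tres5ca_coeffMap_fixed (g : E ≃ₐ[K] E) (f : LaurentSeries K) :
    coeffMap ((g : E ≃ₐ[K] E) : E →+* E) (coeffMap (algebraMap K E) f) =
      coeffMap (algebraMap K E) f := by
  ext n
  simp

end Laurent

section Form

variable {K E Ω : Type*} [Field K] [Field E] [Field Ω] [Algebra K E] {ι : E →+* Ω}
  {F₁ : IntermediateField E (LaurentSeries E)} {Fb' : Subfield (LaurentSeries Ω)}
  {hF₁ : ∀ x ∈ F₁, coeffMap ι x ∈ Fb'}

/-- **The action of `Aut(E / K)` on the `E`-form `L_E`** of a subfield `Fb′` of `Ω((q))` which is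
stable under the conjugations (`hstab`). -/
@[reducible] def tres5caAct
    (hstab : ∀ (g : E ≃ₐ[K] E) (f : LaurentSeries E), coeffMap ι f ∈ Fb' →
      coeffMap ι (coeffMap ((g : E ≃ₐ[K] E) : E →+* E) f) ∈ Fb') :
    MulSemiringAction (E ≃ₐ[K] E) ↥(tres5cForm ι F₁ Fb' hF₁) where
  smul g f := ⟨coeffMap ((g : E ≃ₐ[K] E) : E →+* E) (f : LaurentSeries E), hstab g _ f.2⟩
  one_smul f := Subtype.ext (by
    show coeffMap _ (f : LaurentSeries E) = (f : LaurentSeries E)
    ext n
    simp)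
  mul_smul g h f := Subtype.ext (by
    show coeffMap _ (f : LaurentSeries E) = coeffMap _ (coeffMap _ (f : LaurentSeries E))
    ext n
    simp)
  smul_zero g := Subtype.ext (map_zero (coeffMap ((g : E ≃ₐ[K] E) : E →+* E)))
  smul_add g a b := Subtype.ext (map_add (coeffMap ((g : E ≃ₐ[K] E) : E →+* E)) _ _)
  smul_one g := Subtype.ext (map_one (coeffMap ((g : E ≃ₐ[K] E) : E →+* E)))
  smul_mul g a b := Subtype.ext (map_mul (coeffMap ((g : E ≃ₐ[K] E) : E →+* E)) _ _)

theorem tres5ca_smul_coe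
    (hstab : ∀ (g : E ≃ₐ[K] E) (f : LaurentSeries E), coeffMap ι f ∈ Fb' →
      coeffMap ι (coeffMap ((g : E ≃ₐ[K] E) : E →+* E) f) ∈ Fb')
    (g : E ≃ₐ[K] E) (f : ↥(tres5cForm ι F₁ Fb' hF₁)) :
    letI := tres5caAct (hF₁ := hF₁) hstab
    ((g • f : ↥(tres5cForm ι F₁ Fb' hF₁)) : LaurentSeries E) =
      coeffMap ((g : E ≃ₐ[K] E) : E →+* E) (f : LaurentSeries E) := rfl

variable {F₀ : IntermediateField K (LaurentSeries K)}
  {hF₀ : ∀ x ∈ F₀, coeffMap (ι.comp (algebraMap K E)) x ∈ Fb'}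

/-- **(hGLK)** `Aut(E / K)` fixes the image of the `K`-form. -/
theorem tres5ca_smul_incl
    (hstab : ∀ (g : E ≃ₐ[K] E) (f : LaurentSeries E), coeffMap ι f ∈ Fb' →
      coeffMap ι (coeffMap ((g : E ≃ₐ[K] E) : E →+* E) f) ∈ Fb')
    (g : E ≃ₐ[K] E) (y : ↥(tres5cForm (ι.comp (algebraMap K E)) F₀ Fb' hF₀)) :
    letI := tres5caAct (hF₁ := hF₁) hstab
    g • tres5cFormIncl (algebraMap K E) ι hF₀ hF₁ y = tres5cFormIncl (algebraMap K E) ι hF₀ hF₁ y :=
  Subtype.ext (tres5ca_coeffMap_fixed g _)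

/-- **(hfixL)** `E / K` finite Galois: an element of the `E`-form fixed by `Aut(E / K)` comes
from the `K`-form. -/
theorem tres5ca_fixed [FiniteDimensional K E] [IsGalois K E]
    (hstab : ∀ (g : E ≃ₐ[K] E) (f : LaurentSeries E), coeffMap ι f ∈ Fb' →
      coeffMap ι (coeffMap ((g : E ≃ₐ[K] E) : E →+* E) f) ∈ Fb')
    (x : ↥(tres5cForm ι F₁ Fb' hF₁))
    (hx : letI := tres5caAct (hF₁ := hF₁) hstab; ∀ g : E ≃ₐ[K] E, g • x = x) :
    ∃ y : ↥(tres5cForm (ι.comp (algebraMap K E)) F₀ Fb' hF₀),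
      tres5cFormIncl (algebraMap K E) ι hF₀ hF₁ y = x := by
  have hfix : ∀ g : E ≃ₐ[K] E,
      coeffMap ((g : E ≃ₐ[K] E) : E →+* E) (x : LaurentSeries E) = x := fun g =>
    congrArg Subtype.val (hx g)
  obtain ⟨y, hy⟩ := tres5cForm_exists_of_coeff (ι := ι.comp (algebraMap K E)) (F₀ := F₀)
    (hF := hF₀) (f := coeffMap ι (x : LaurentSeries E)) x.2 (fun n => by
      obtain ⟨c, hc⟩ := tres5ca_coeff_mem (x : LaurentSeries E) hfix n
      exact ⟨c, by rw [RingHom.comp_apply, hc, coeffMap_coeff]⟩)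
  refine ⟨y, Subtype.ext ?_⟩
  rw [tres5cFormIncl_coe]
  have hinj : Function.Injective (coeffMap ι) := (coeffMap ι).injective
  apply hinj
  rw [coeffMap_coeffMap]
  exact hy

/-- **(hfixF)** the same for the base field `F₁`, if the `K`-form of `F₁` is `F₀`. -/
theorem tres5ca_fixed_base [FiniteDimensional K E] [IsGalois K E]
    (hform : ∀ f : LaurentSeries K, coeffMap (algebraMap K E) f ∈ F₁ → f ∈ F₀)
    (x : ↥F₁)
    (hx : ∀ g : E ≃ₐ[K] E, coeffMap ((g : E ≃ₐ[K] E) : E →+* E) (x : LaurentSeries E) = x) :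
    ∃ y : ↥F₀, coeffMap (algebraMap K E) (y : LaurentSeries K) = x := by
  classical
  have hc := tres5ca_coeff_mem (x : LaurentSeries E) hx
  choose c hc using hc
  have hsupp : (Function.support c).IsPWO := by
    refine (x : LaurentSeries E).isPWO_support.mono fun n hn => ?_
    rw [Function.mem_support] at hn
    rw [HahnSeries.mem_support]
    intro h0
    apply hn
    apply (algebraMap K E).injective
    rw [hc n, map_zero]
    exact h0
  let g : LaurentSeries K := ⟨c, hsupp⟩
  have hg : coeffMap (algebraMap K E) g = x := by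
    ext n
    rw [coeffMap_coeff]
    exact hc n
  exact ⟨⟨g, hform g (by rw [hg]; exact x.2)⟩, hg⟩

end Form

end Fermat.Agent.R38

end
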