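import Fermat.Agent.R38.TresFixF
import Fermat.Agent.R38.TresCoverAct
import Fermat.Agent.R38.TresCoverTower

/-!
# R38 TRES, (FAC-p), piece FAC-FIXF (helper29), part 2: the INSTANCE for `G = Gal(E / K)`

`K = beta0Field A = ℚ̄^I`, `E ⊇ K` an `I`-stable intermediate field of `ℚ̄ / ℚ` (e.g.
`E′ = mgcE A K₁`), `G = ↥E ≃ₐ[↥K] ↥E` (algebra structure `beta0FieldAlgebra h`), acting
coefficientwise on `L_E = tres5cL E N y` (helper64's `tres5caAct`); the cover `F′ = tres5cField N y`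
is `I`-stable (`hstabI`, helper30's `tresdesc_stab`).

* `tres5ffAct` : the action of `G` on `L_E`; `tres5ffAct_coe`;
* `tres5ff_inst_hGLK`, `tres5ff_inst_hfixL`, `tres5ff_inst_hfixF` : EXACTLY the hypotheses
  `hGLK`, `hfixL`, `hfixF` of helper78's `tres5c_descend` (and, with the algebra structures
  `tres5cAlgFF/LL/FL`, of helper53's `tres5kp_descend'`);
* `tres5ff_inst_hρG` : `hρG` from a bridge `ρ_E ↔ t` and helper30's `tresdesc_comm`;
* `tres5ff_inst_hGF` : `G` preserves `F_N(E)` (for `hGR`);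
* `tres5ff_inst_finite` : `Finite G` for `E / K` finite;
* `tres5ff_descend` : `tres5c_descend` with all the field-level hypotheses discharged.
-/

set_option autoImplicit false
set_option linter.style.haveILetI false
set_option linter.unusedSectionVars false

noncomputable section

open ModularCurve Fermat.Agent.INJ Fermat.Agent.UNIP IntermediateField

namespace Fermat.Agent.R38

section Generic

variable {E Ω : Type*} [Field E] [Field Ω]

/-- the algebra map `F₀ → L_E` is the inclusion -/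
theorem tres5ff_form_algebraMap_coe (ι : E →+* Ω) (F₀ : IntermediateField E (LaurentSeries E))
    (Fb' : Subfield (LaurentSeries Ω)) (hF : ∀ x ∈ F₀, coeffMap ι x ∈ Fb') (x : ↥F₀) :
    ((algebraMap ↥F₀ ↥(tres5cForm ι F₀ Fb' hF) x : ↥(tres5cForm ι F₀ Fb' hF)) :
      LaurentSeries E) = (x : LaurentSeries E) := rfl

end Generic

section Inst

variable {A : ValuationSubring NfQb} {q : ℕ} {E : IntermediateField ℚ NfQb}

theorem tres5ff_L_algebraMap_coe (N : ℕ) (y : LaurentSeries NfQb)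
    (x : ↥(modularFunctionFieldFullC ↥E N)) :
    ((algebraMap ↥(modularFunctionFieldFullC ↥E N) ↥(tres5cL E N y) x : ↥(tres5cL E N y)) :
      LaurentSeries ↥E) = (x : LaurentSeries ↥E) :=
  tres5ff_form_algebraMap_coe _ _ _ _ x

variable (hq : q.Prime) (hA : A.LiesOverPrime q) (h : beta0Field A ≤ E) (N : ℕ)
  (y : LaurentSeries NfQb)
  (hstabI : ∀ σ ∈ A.inertiaSubgroupIn ℚ, ∀ x ∈ tres5cField N y,
    coeffMap ((σ : NfQb ≃ₐ[ℚ] NfQb) : NfQb →+* NfQb) x ∈ tres5cField N y)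

/-- **The coefficientwise action of `G = Gal(E / K)` on `L_E`.** -/
@[reducible] def tres5ffAct :
    letI := beta0FieldAlgebra h
    MulSemiringAction (↥E ≃ₐ[↥(beta0Field A)] ↥E) ↥(tres5cL E N y) :=
  letI := beta0FieldAlgebra h
  tres5caAct (K := ↥(beta0Field A)) (E := ↥E) (ι := algebraMap ↥E NfQb)
    (F₁ := modularFunctionFieldFullC ↥E N) (Fb' := (tres5cField N y).toSubfield)
    (hF₁ := fun _ hx => tres5c_bar_le N y (nf_coeffMap_mem_bar E N hx))
    (tres5ff_hstab hq hA h N y hstabI)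

theorem tres5ffAct_coe :
    letI := beta0FieldAlgebra h
    letI := tres5ffAct hq hA h N y hstabI
    ∀ (g : ↥E ≃ₐ[↥(beta0Field A)] ↥E) (x : ↥(tres5cL E N y)),
      ((g • x : ↥(tres5cL E N y)) : LaurentSeries ↥E) =
        coeffMap ((g : ↥E ≃ₐ[↥(beta0Field A)] ↥E) : ↥E →+* ↥E) (x : LaurentSeries ↥E) :=
  fun _ _ => rfl

/-- **(hGLK)** of `tres5c_descend`. -/
theorem tres5ff_inst_hGLK :
    letI := beta0FieldAlgebra h
    letI := tres5ffAct hq hA h N y hstabI
    ∀ (g : ↥E ≃ₐ[↥(beta0Field A)] ↥E) (f : ↥(tres5cL (beta0Field A) N y)),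
      g • tres5cIncl N y h f = tres5cIncl N y h f := by
  letI := beta0FieldAlgebra h
  letI := tres5ffAct hq hA h N y hstabI
  intro g f
  apply Subtype.ext
  rw [tres5ffAct_coe hq hA h N y hstabI g, tres5cIncl_coe]
  exact tres5ff_hGLK h (g : ↥E →+* ↥E) (fun k => g.commutes k) _

/-- **(hfixL)** of `tres5c_descend`. -/
theorem tres5ff_inst_hfixL (hE : ∀ σ ∈ A.inertiaSubgroupIn ℚ, ∀ x ∈ E, σ x ∈ E) :
    letI := beta0FieldAlgebra h
    letI := tres5ffAct hq hA h N y hstabI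
    ∀ x : ↥(tres5cL E N y), (∀ g : ↥E ≃ₐ[↥(beta0Field A)] ↥E, g • x = x) →
      ∃ f : ↥(tres5cL (beta0Field A) N y), tres5cIncl N y h f = x := by
  letI := beta0FieldAlgebra h
  letI := tres5ffAct hq hA h N y hstabI
  intro x hx
  refine tres5ff_hfixL h N y
    (fun g : ↥E ≃ₐ[↥(beta0Field A)] ↥E => ((g : ↥E ≃ₐ[↥(beta0Field A)] ↥E) : ↥E →+* ↥E))
    (fun e he => tres5ff_fixed h hE e he) x fun g => ?_
  have := congrArg Subtype.val (hx g)
  rw [tres5ffAct_coe hq hA h N y hstabI g] at this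
  exact this

/-- **(hfixF)** of `tres5c_descend`. -/
theorem tres5ff_inst_hfixF [NeZero N] (hE : ∀ σ ∈ A.inertiaSubgroupIn ℚ, ∀ x ∈ E, σ x ∈ E) :
    letI := beta0FieldAlgebra h
    letI := tres5ffAct hq hA h N y hstabI
    ∀ x : ↥(modularFunctionFieldFullC ↥E N),
      (∀ g : ↥E ≃ₐ[↥(beta0Field A)] ↥E,
        g • algebraMap ↥(modularFunctionFieldFullC ↥E N) ↥(tres5cL E N y) x
          = algebraMap ↥(modularFunctionFieldFullC ↥E N) ↥(tres5cL E N y) x) →
      ∃ a : ↥(modularFunctionFieldFullC ↥(beta0Field A) N), tres5cBaseIncl N h a = x := by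
  letI := beta0FieldAlgebra h
  letI := tres5ffAct hq hA h N y hstabI
  intro x hx
  obtain ⟨z, hz⟩ := tres5ff_hfixF h N
    (fun g : ↥E ≃ₐ[↥(beta0Field A)] ↥E => ((g : ↥E ≃ₐ[↥(beta0Field A)] ↥E) : ↥E →+* ↥E))
    (fun e he => tres5ff_fixed h hE e he) x (fun g => by
      have := congrArg Subtype.val (hx g)
      rw [tres5ffAct_coe hq hA h N y hstabI g, tres5ff_L_algebraMap_coe] at this
      exact this)
  exact ⟨z, Subtype.ext hz⟩

/-- `G` preserves the base field `F_N(E)` (input of `hGR`). -/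
theorem tres5ff_inst_hGF :
    letI := beta0FieldAlgebra h
    letI := tres5ffAct hq hA h N y hstabI
    ∀ (g : ↥E ≃ₐ[↥(beta0Field A)] ↥E) (x : ↥(modularFunctionFieldFullC ↥E N)),
      ∃ x' : ↥(modularFunctionFieldFullC ↥E N),
        g • algebraMap ↥(modularFunctionFieldFullC ↥E N) ↥(tres5cL E N y) x
          = algebraMap ↥(modularFunctionFieldFullC ↥E N) ↥(tres5cL E N y) x' ∧
        (x' : LaurentSeries ↥E) =
          coeffMap ((g : ↥E ≃ₐ[↥(beta0Field A)] ↥E) : ↥E →+* ↥E) (x : LaurentSeries ↥E) := by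
  letI := beta0FieldAlgebra h
  letI := tres5ffAct hq hA h N y hstabI
  intro g x
  refine ⟨⟨coeffMap ((g : ↥E ≃ₐ[↥(beta0Field A)] ↥E) : ↥E →+* ↥E) (x : LaurentSeries ↥E),
    nf_coeffMap_mem_fullC _ N x.2⟩, Subtype.ext ?_, rfl⟩
  rw [tres5ffAct_coe hq hA h N y hstabI g, tres5ff_L_algebraMap_coe, tres5ff_L_algebraMap_coe]

/-- **(hρG)** from a bridge between `ρ` on `L_E` and a ring homomorphism `t` on `F′` commuting
with `I` (helper30's `tresdesc_comm`). -/
theorem tres5ff_inst_hρG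
    (t : ↥(tres5cField N y) →+* LaurentSeries NfQb)
    (hcomm : ∀ σ ∈ A.inertiaSubgroupIn ℚ, ∀ (x : ↥(tres5cField N y))
      (hx : coeffMap ((σ : NfQb ≃ₐ[ℚ] NfQb) : NfQb →+* NfQb) (x : LaurentSeries NfQb) ∈
        tres5cField N y),
      t ⟨_, hx⟩ = coeffMap ((σ : NfQb ≃ₐ[ℚ] NfQb) : NfQb →+* NfQb) (t x))
    (ρ : ↥(tres5cL E N y) → ↥(tres5cL E N y))
    (hρ : ∀ x : ↥(tres5cL E N y),
      coeffMap (algebraMap ↥E NfQb) ((ρ x : ↥(tres5cL E N y)) : LaurentSeries ↥E)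
        = t (tres5cEmb E N y x)) :
    letI := beta0FieldAlgebra h
    letI := tres5ffAct hq hA h N y hstabI
    ∀ (g : ↥E ≃ₐ[↥(beta0Field A)] ↥E) (x : ↥(tres5cL E N y)), ρ (g • x) = g • ρ x := by
  letI := beta0FieldAlgebra h
  letI := tres5ffAct hq hA h N y hstabI
  intro g x
  apply Subtype.ext
  rw [tres5ffAct_coe hq hA h N y hstabI g]
  exact tres5ff_comm hq hA h N y t hcomm (g : ↥E ≃+* ↥E) (fun k => g.commutes k) x (g • x)
    (tres5ffAct_coe hq hA h N y hstabI g x) _ _ (hρ x) (hρ (g • x))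

/-- `G = Gal(E / K)` is finite if `E / K` is. -/
theorem tres5ff_inst_finite
    (hfin : letI := beta0FieldAlgebra h
      FiniteDimensional ↥(beta0Field A) ↥E) :
    letI := beta0FieldAlgebra h
    Finite (↥E ≃ₐ[↥(beta0Field A)] ↥E) := by
  letI := beta0FieldAlgebra h
  haveI := hfin
  infer_instance

/-- **K-FORM at a vertical valuation, field-level hypotheses discharged**: helper78's
`tres5c_descend` for `G = Gal(E / K)`, `K = ℚ̄^I`.  What is left: one `G`-stable sheet `W₀`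
(FAC-GRED) and `hρG` (`tres5ff_inst_hρG`). -/
theorem tres5ff_descend [NeZero N] (hE : ∀ σ ∈ A.inertiaSubgroupIn ℚ, ∀ x ∈ E, σ x ∈ E)
    (hfin : letI := beta0FieldAlgebra h
      FiniteDimensional ↥(beta0Field A) ↥E)
    {p : ℕ} {V : ValuationSubring ↥(modularFunctionFieldFullC ↥E N)}
    (S : Tres5Kum ↥(modularFunctionFieldFullC ↥E N) ↥(tres5cL E N y) V p)
    (VK : ValuationSubring ↥(modularFunctionFieldFullC ↥(beta0Field A) N))
    (hVK : VK = V.comap (tres5cBaseIncl N h))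
    (πK : ↥(modularFunctionFieldFullC ↥(beta0Field A) N)) (hπK : πK ∈ VK.nonunits)
    (hπK0 : πK ≠ 0)
    (hunifK : ∀ x : ↥(modularFunctionFieldFullC ↥(beta0Field A) N), x ≠ 0 →
      ∃ m : ℤ, VK.valuation (x / πK ^ m) = 1)
    (hpK : (p : ↥(modularFunctionFieldFullC ↥(beta0Field A) N)) ∈ VK.nonunits)
    (W₀ : ValuationSubring ↥(tres5cL E N y))
    (hW₀ : W₀.comap (algebraMap ↥(modularFunctionFieldFullC ↥E N) ↥(tres5cL E N y)) = V)
    (hGW₀ : letI := beta0FieldAlgebra h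
      letI := tres5ffAct hq hA h N y hstabI
      ∀ (g : ↥E ≃ₐ[↥(beta0Field A)] ↥E), ∀ x ∈ W₀, g • x ∈ W₀)
    (hρG : letI := beta0FieldAlgebra h
      letI := tres5ffAct hq hA h N y hstabI
      ∀ (g : ↥E ≃ₐ[↥(beta0Field A)] ↥E) (x : ↥(tres5cL E N y)),
        S.deck (g • x) = g • S.deck x) :
    ∃ (T : Tres5Gen ↥(modularFunctionFieldFullC ↥(beta0Field A) N)
        ↥(tres5cL (beta0Field A) N y) VK p)
      (ρK : ↥(tres5cL (beta0Field A) N y) →ₐ[↥(modularFunctionFieldFullC ↥(beta0Field A) N)]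
        ↥(tres5cL (beta0Field A) N y)),
      T.π = πK ∧ (∀ k, T.c k = ((k : ℕ) : ↥VK)) ∧
      (∀ k < p, tres5cIncl N y h T.z - ((k : ℕ) : ↥(tres5cL E N y)) ∈ (S.gen.W k).nonunits) ∧
      (∀ k < p, T.W k = (S.gen.W k).comap (tres5cIncl N y h)) ∧
      (∃ k₀ < p, W₀ = S.gen.W k₀ ∧ T.W k₀ = W₀.comap (tres5cIncl N y h)) ∧
      (∀ f : ↥(tres5cL (beta0Field A) N y),
        tres5cIncl N y h (ρK f) = S.deck (tres5cIncl N y h f)) ∧
      (∀ k < p, (T.W k).comap
        (ρK : ↥(tres5cL (beta0Field A) N y) →+* ↥(tres5cL (beta0Field A) N y))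
          = T.W ((k + 1) % p)) ∧
      Module.finrank ↥(modularFunctionFieldFullC ↥(beta0Field A) N)
        ↥(tres5cL (beta0Field A) N y) = p ∧
      IntermediateField.adjoin ↥(modularFunctionFieldFullC ↥E N) {tres5cIncl N y h T.z} = ⊤ := by
  letI := beta0FieldAlgebra h
  letI := tres5ffAct hq hA h N y hstabI
  haveI := tres5ff_inst_finite h hfin
  exact tres5c_descend N y h S VK hVK πK hπK hπK0 hunifK hpK
    (tres5ff_inst_hGLK hq hA h N y hstabI) (tres5ff_inst_hfixL hq hA h N y hstabI hE)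
    (tres5ff_inst_hfixF hq hA h N y hstabI hE) W₀ hW₀ hGW₀ hρG

end Inst

end Fermat.Agent.R38
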