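/-
ROW 38, TRES, piece FAC-KFORM (helper53), part 5: THE (A)-INSTANCE AT `V_∞`.

The K-FORM descent (`Tres5Kum.descend`, in the concrete shape `tres5ff_descend` of helper29 on
helper78's frame `L_E = tres5cL E N y`) at the vertical valuation `V_∞ = mgvV … true`
(Gauss valuation of the `q`-expansion), `K = beta0Field A = ℚ̄^I`, `E ⊇ K` finite and `I`-stable
(`E = mgcE A K₁`), level `N = M q`, `q` the residue characteristic and the Kummer exponent.

* `tres5kiv_hVK`, `tres5kiv_hπK`, `tres5kiv_hπK0`, `tres5kiv_hunifK`, `tres5kiv_hpK` :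
  the formal inputs of the descent at `V_∞`;
* `tres5kivW` : the GAUSS SHEET of `L_E` (`UNIP.vtSub` on `L_E ⊆ E((q))`), defined as soon as the
  Kummer generator is a quotient of two series over `A ∩ E` (`hfracY`, helper24's FAC-GRED part 2),
  `tres5kivW_comap` (= `hW₀`), `tres5kivW_smul_mem` (= `hGW₀`), `tres5kivW_sub_mem`;
* **`tres5kiv_descend`** : the descended split generator `T : Tres5Gen F_K L_K V_∞ q`.
-/
import Fermat.Agent.R38.TresFixFInst
import Fermat.Agent.R38.TresCoverBridge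
import Fermat.Agent.R38.TresGRed
import Fermat.Agent.R38.TresBigKum

set_option autoImplicit false
set_option linter.unusedSectionVars false
set_option linter.style.haveILetI false

noncomputable section

namespace Fermat.Agent.R38

open ModularCurve Fermat.Agent.INJ Fermat.Agent.UNIP IntermediateField

section Formal

variable {A : ValuationSubring NfQb} {K₀ K₁ : IntermediateField ℚ NfQb}
  [IsDiscreteValuationRing ↥(beta0Ring A K₀)] {π₀ : ↥(beta0Ring A K₀)} (hπ₀ : Irreducible π₀)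
  [IsDiscreteValuationRing ↥(beta0Ring A K₁)] {π₁ : ↥(beta0Ring A K₁)} (hπ₁ : Irreducible π₁)
  (ιC₀ : ↥K₀ →+* ℂ) (ιC₁ : ↥K₁ →+* ℂ) {q M : ℕ} [NeZero q] [NeZero M] [NeZero (M * q)]
  (hq : q.Prime) (hqM : ¬ q ∣ M)

/-- **(hVK)** the vertical valuations of `F_{Mq}(K₁)` restrict to those of `F_{Mq}(K₀)`. -/
theorem tres5kiv_hVK (h : K₀ ≤ K₁) (c : Bool) :
    mgvV hπ₀ ιC₀ hq hqM c = (mgvV hπ₁ ιC₁ hq hqM c).comap (tres5cBaseIncl (M * q) h) := by
  rw [tres5cBaseIncl_eq_mgaIncl, mgv_comap_incl hπ₀ hπ₁ ιC₀ ιC₁ hq hqM h c]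

/-- **(hπK)** -/
theorem tres5kiv_hπK (c : Bool) :
    algebraMap ↥(beta0Ring A K₀) ↥(modularFunctionFieldFullC ↥K₀ (M * q)) π₀ ∈
      (mgvV hπ₀ ιC₀ hq hqM c).nonunits :=
  mgv_hπV hπ₀ ιC₀ hq hqM c

include hπ₀ in
/-- **(hπK0)** -/
theorem tres5kiv_hπK0 :
    algebraMap ↥(beta0Ring A K₀) ↥(modularFunctionFieldFullC ↥K₀ (M * q)) π₀ ≠ 0 :=
  unip_algebraMap_irreducible_ne_zero ↥K₀ hπ₀

/-- **(hunifK)** -/
theorem tres5kiv_hunifK (c : Bool) (x : ↥(modularFunctionFieldFullC ↥K₀ (M * q))) (hx : x ≠ 0) :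
    ∃ m : ℤ, (mgvV hπ₀ ιC₀ hq hqM c).valuation
      (x / algebraMap ↥(beta0Ring A K₀) ↥(modularFunctionFieldFullC ↥K₀ (M * q)) π₀ ^ m) = 1 :=
  tres5bk_mgv_hunif hπ₀ ιC₀ hq hqM c x hx

/-- **(hpK)** the residue characteristic is a non-unit of `V c`. -/
theorem tres5kiv_hpK (hA : A.LiesOverPrime q) (c : Bool) :
    ((q : ℕ) : ↥(modularFunctionFieldFullC ↥K₀ (M * q))) ∈ (mgvV hπ₀ ιC₀ hq hqM c).nonunits := by
  have h1 := (mgv_const_mem_nonunits_iff hπ₀ ιC₀ hq hqM c ((q : ℕ) : ↥(beta0Ring A K₀))).mpr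
    (by
      have : ((((q : ℕ) : ↥(beta0Ring A K₀)) : ↥K₀) : NfQb) = ((q : ℕ) : NfQb) := by
        simp
      rw [this]
      exact hA)
  rwa [map_natCast] at h1

end Formal

/-! ### The Gauss sheet of `L_E` -/

section Gauss

variable {A : ValuationSubring NfQb} {E : IntermediateField ℚ NfQb}
  [IsDiscreteValuationRing ↥(beta0Ring A E)] {π : ↥(beta0Ring A E)} (hπ : Irreducible π)
  (N : ℕ) (y : LaurentSeries NfQb)

/-- the inclusion `L_E → E((q))` -/
def tres5kivEmb : ↥(tres5cL E N y) →+* LaurentSeries ↥E :=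
  ((tres5cL E N y).val : ↥(tres5cL E N y) →+* LaurentSeries ↥E)

@[simp]
theorem tres5kivEmb_apply (x : ↥(tres5cL E N y)) :
    tres5kivEmb (E := E) N y x = (x : LaurentSeries ↥E) := rfl

theorem tres5kivEmb_algebraMap (a : ↥(modularFunctionFieldFullC ↥E N)) :
    tres5kivEmb (E := E) N y (algebraMap ↥(modularFunctionFieldFullC ↥E N) ↥(tres5cL E N y) a)
      = vtEmb ↥E N a := rfl

include hπ in
/-- **`hfrac` of the cover** from `hfrac` of a generator: every element of `L_E = F_N(E)(z)` is a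
quotient of two series over `A ∩ E` as soon as `z` is. -/
theorem tres5kiv_frac {z : ↥(tres5cL E N y)}
    (htop : IntermediateField.adjoin ↥(modularFunctionFieldFullC ↥E N)
      ({z} : Set ↥(tres5cL E N y)) = ⊤)
    (hz : VtFrac (algebraMap ↥(beta0Ring A E) ↥E) (z : LaurentSeries ↥E)) :
    ∀ x : ↥(tres5cL E N y),
      VtFrac (algebraMap ↥(beta0Ring A E) ↥E) (tres5kivEmb (E := E) N y x) :=
  tres5g_frac_of_gen (vtBase_residue hπ) (tres5kivEmb (E := E) N y)
    (fun a => vt_frac_fullC (vtBase_residue hπ) N a.2) hz htop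

/-- **The Gauss sheet of `L_E`**: the elements of `L_E ⊆ E((q))` lying in the Gauss ring. -/
def tres5kivW
    (hfrac : ∀ x : ↥(tres5cL E N y),
      VtFrac (algebraMap ↥(beta0Ring A E) ↥E) (tres5kivEmb (E := E) N y x)) :
    ValuationSubring ↥(tres5cL E N y) :=
  vtSub (vtBase_residue hπ) (tres5kivEmb (E := E) N y) hfrac

theorem mem_tres5kivW
    (hfrac : ∀ x : ↥(tres5cL E N y),
      VtFrac (algebraMap ↥(beta0Ring A E) ↥E) (tres5kivEmb (E := E) N y x))
    {x : ↥(tres5cL E N y)} :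
    x ∈ tres5kivW hπ N y hfrac ↔
      (x : LaurentSeries ↥E) ∈ gaussRing (algebraMap ↥(beta0Ring A E) ↥E)
        (IsLocalRing.residue ↥(beta0Ring A E)) := Iff.rfl

/-- the Gauss sheet lies over the Gauss valuation ring `vtInf` of `F_N(E)` -/
theorem tres5kivW_comap_vtInf
    (hfrac : ∀ x : ↥(tres5cL E N y),
      VtFrac (algebraMap ↥(beta0Ring A E) ↥E) (tres5kivEmb (E := E) N y x)) :
    (tres5kivW hπ N y hfrac).comap
      (algebraMap ↥(modularFunctionFieldFullC ↥E N) ↥(tres5cL E N y)) =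
      vtInf (vtBase_residue hπ) N :=
  tres5g_gauss_comap (vtBase_residue hπ) (tres5kivEmb (E := E) N y) hfrac (vtEmb ↥E N)
    (fun x => vt_frac_fullC (vtBase_residue hπ) N x.2) (fun _ => rfl)

end Gauss

/-! ### The action of `G = Gal(E / K)`, `K = ℚ̄^I`, on the Gauss sheet -/

section Action

variable {A : ValuationSubring NfQb} {q : ℕ} {E : IntermediateField ℚ NfQb}
  [IsDiscreteValuationRing ↥(beta0Ring A E)] {π : ↥(beta0Ring A E)} (hπ : Irreducible π)
  (hq : q.Prime) (hA : A.LiesOverPrime q) (h : beta0Field A ≤ E) (N : ℕ)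
  (y : LaurentSeries NfQb)
  (hstabI : ∀ σ ∈ A.inertiaSubgroupIn ℚ, ∀ x ∈ tres5cField N y,
    coeffMap ((σ : NfQb ≃ₐ[ℚ] NfQb) : NfQb →+* NfQb) x ∈ tres5cField N y)

/-- **every `g ∈ Gal(E / K)` is inertial**: it preserves `A ∩ E`, acts trivially on the residue
field, and acts coefficientwise on `L_E` (the hypothesis `hG` of helper24's `tres5g_gauss_*`). -/
theorem tres5kiv_hG :
    letI := beta0FieldAlgebra h
    letI := tres5ffAct hq hA h N y hstabI
    ∀ g : ↥E ≃ₐ[↥(beta0Field A)] ↥E, ∃ s : ↥E →+* ↥E,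
      VtCompat (algebraMap ↥(beta0Ring A E) ↥E) (IsLocalRing.residue ↥(beta0Ring A E))
        (algebraMap ↥(beta0Ring A E) ↥E) (IsLocalRing.residue ↥(beta0Ring A E)) s
        (RingHom.id _) ∧
      ∀ x : ↥(tres5cL E N y),
        tres5kivEmb (E := E) N y (g • x) = coeffMap s (tres5kivEmb (E := E) N y x) := by
  letI := beta0FieldAlgebra h
  letI := tres5ffAct hq hA h N y hstabI
  intro g
  obtain ⟨σ, hσ, hσg⟩ := tres5ff_lift' hq hA h g
  have hK : ∀ x ∈ E, σ x ∈ E := fun x hx => by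
    rw [hσg ⟨x, hx⟩]
    exact (g ⟨x, hx⟩).2
  have hs : mgRestrict E σ hK = ((g : ↥E ≃ₐ[↥(beta0Field A)] ↥E) : ↥E →+* ↥E) :=
    RingHom.ext fun e => Subtype.ext (hσg e)
  refine ⟨((g : ↥E ≃ₐ[↥(beta0Field A)] ↥E) : ↥E →+* ↥E), ?_, fun x => rfl⟩
  rw [← hs]
  exact vt_compat_of_inertia E hσ hK

variable (hfrac : ∀ x : ↥(tres5cL E N y),
  VtFrac (algebraMap ↥(beta0Ring A E) ↥E) (tres5kivEmb (E := E) N y x))

/-- **(hGW₀)** the Gauss sheet of `L_E` is stable under `Gal(E / K)`. -/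
theorem tres5kivW_smul_mem :
    letI := beta0FieldAlgebra h
    letI := tres5ffAct hq hA h N y hstabI
    ∀ (g : ↥E ≃ₐ[↥(beta0Field A)] ↥E), ∀ x ∈ tres5kivW hπ N y hfrac,
      g • x ∈ tres5kivW hπ N y hfrac := by
  letI := beta0FieldAlgebra h
  letI := tres5ffAct hq hA h N y hstabI
  exact tres5g_gauss_smul_mem (vtBase_residue hπ) (tres5kivEmb (E := E) N y) hfrac
    (tres5kiv_hG hq hA h N y hstabI)

/-- `Gal(E / K)` is trivial on the residues of the Gauss sheet. -/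
theorem tres5kivW_sub_mem :
    letI := beta0FieldAlgebra h
    letI := tres5ffAct hq hA h N y hstabI
    ∀ (g : ↥E ≃ₐ[↥(beta0Field A)] ↥E), ∀ x ∈ tres5kivW hπ N y hfrac,
      g • x - x ∈ (tres5kivW hπ N y hfrac).nonunits := by
  letI := beta0FieldAlgebra h
  letI := tres5ffAct hq hA h N y hstabI
  exact tres5g_gauss_sub_mem (vtBase_residue hπ) (tres5kivEmb (E := E) N y) hfrac
    (tres5kiv_hG hq hA h N y hstabI)

/-- every reduction map of the Gauss sheet is `Gal(E / K)`-invariant: `ρ (g x) = ρ x`. -/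
theorem tres5kivW_red {k' : Type*} [Field k'] (ρ : ↥(tres5kivW hπ N y hfrac) →+* k')
    (hker : ∀ x : ↥(tres5kivW hπ N y hfrac),
      (x : ↥(tres5cL E N y)) ∈ (tres5kivW hπ N y hfrac).nonunits → ρ x = 0) :
    letI := beta0FieldAlgebra h
    letI := tres5ffAct hq hA h N y hstabI
    ∀ (g : ↥E ≃ₐ[↥(beta0Field A)] ↥E) (x : ↥(tres5cL E N y))
      (hx : x ∈ tres5kivW hπ N y hfrac),
      ρ ⟨g • x, tres5kivW_smul_mem hπ hq hA h N y hstabI hfrac g x hx⟩ = ρ ⟨x, hx⟩ := by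
  letI := beta0FieldAlgebra h
  letI := tres5ffAct hq hA h N y hstabI
  intro g x hx
  exact tres5g_red_map (tres5kivW hπ N y hfrac) ρ hker hx _
    (tres5kivW_sub_mem hπ hq hA h N y hstabI hfrac g x hx)

/-- **FAC-GRED on the cover**: every composite `comp(W^∞_E, Q)` of the Gauss sheet with a place
`Q` of its residue field is stable under `Gal(E / K)` (the hypothesis `hGW` of
`tres5kp_fixed_of_val` / `tres5kp_descend_of_val` at the closed points). -/
theorem tres5kivW_comp {k' : Type*} [Field k'] (ρ : ↥(tres5kivW hπ N y hfrac) →+* k')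
    (Q : ValuationSubring k')
    (hker : ∀ x : ↥(tres5kivW hπ N y hfrac),
      (x : ↥(tres5cL E N y)) ∈ (tres5kivW hπ N y hfrac).nonunits → ρ x = 0) :
    letI := beta0FieldAlgebra h
    letI := tres5ffAct hq hA h N y hstabI
    ∀ (g : ↥E ≃ₐ[↥(beta0Field A)] ↥E),
      ∀ x ∈ Fermat.Agent.RIB.MP.ribmp_rd_comp (tres5kivW hπ N y hfrac) ρ Q hker,
        g • x ∈ Fermat.Agent.RIB.MP.ribmp_rd_comp (tres5kivW hπ N y hfrac) ρ Q hker := by
  letI := beta0FieldAlgebra h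
  letI := tres5ffAct hq hA h N y hstabI
  exact tres5g_comp_smul (tres5kivW hπ N y hfrac) ρ Q hker
    (tres5kivW_sub_mem hπ hq hA h N y hstabI hfrac)

end Action

/-! ### The descent at `V_∞` -/

section Main

variable {A : ValuationSubring NfQb} {q M : ℕ} [NeZero q] [NeZero M] [NeZero (M * q)]
  {E : IntermediateField ℚ NfQb}
  [IsDiscreteValuationRing ↥(beta0Ring A (beta0Field A))]
  {π₀ : ↥(beta0Ring A (beta0Field A))} (hπ₀ : Irreducible π₀)
  [IsDiscreteValuationRing ↥(beta0Ring A E)] {π : ↥(beta0Ring A E)} (hπ : Irreducible π)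
  (ιC₀ : ↥(beta0Field A) →+* ℂ) (ιC : ↥E →+* ℂ)
  (hq : q.Prime) (hqM : ¬ q ∣ M) (hA : A.LiesOverPrime q) (h : beta0Field A ≤ E)
  (y : LaurentSeries NfQb)
  (hstabI : ∀ σ ∈ A.inertiaSubgroupIn ℚ, ∀ x ∈ tres5cField (M * q) y,
    coeffMap ((σ : NfQb ≃ₐ[ℚ] NfQb) : NfQb →+* NfQb) x ∈ tres5cField (M * q) y)

/-- **K-FORM (A) at `V_∞`, instance.**  `K = ℚ̄^I`, `E ⊇ K` finite and `I`-stable,
`S` the split Kummer datum of the cover `L_E / F_{Mq}(E)` at `V_∞` (FAC-BIG), whose Kummer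
generator is a quotient of two series over `A ∩ E` (`hfracY`, FAC-GRED), `ρ_E = S.deck`
commuting with `Gal(E / K)` (`hρG`).  Then the cover `L_K / F_{Mq}(K)` is split at
`V_∞ = mgvV … true` over `K`: a `Tres5Gen` with uniformizer the constant `π₀`, roots
`0, …, q − 1`, sheets `T.W k = S.gen.W k ∩ L_K`, one of which is the Gauss sheet. -/
theorem tres5kiv_descend (hE : ∀ σ ∈ A.inertiaSubgroupIn ℚ, ∀ x ∈ E, σ x ∈ E)
    (hfin : letI := beta0FieldAlgebra h
      FiniteDimensional ↥(beta0Field A) ↥E)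
    (S : Tres5Kum ↥(modularFunctionFieldFullC ↥E (M * q)) ↥(tres5cL E (M * q) y)
      (mgvV hπ ιC hq hqM true) q)
    (hfracY : VtFrac (algebraMap ↥(beta0Ring A E) ↥E)
      ((S.y : ↥(tres5cL E (M * q) y)) : LaurentSeries ↥E))
    (hρG : letI := beta0FieldAlgebra h
      letI := tres5ffAct hq hA h (M * q) y hstabI
      ∀ (g : ↥E ≃ₐ[↥(beta0Field A)] ↥E) (x : ↥(tres5cL E (M * q) y)),
        S.deck (g • x) = g • S.deck x) :
    ∃ (T : Tres5Gen ↥(modularFunctionFieldFullC ↥(beta0Field A) (M * q))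
        ↥(tres5cL (beta0Field A) (M * q) y) (mgvV hπ₀ ιC₀ hq hqM true) q)
      (ρK : ↥(tres5cL (beta0Field A) (M * q) y) →ₐ[↥(modularFunctionFieldFullC
        ↥(beta0Field A) (M * q))] ↥(tres5cL (beta0Field A) (M * q) y)),
      T.π = algebraMap ↥(beta0Ring A (beta0Field A))
        ↥(modularFunctionFieldFullC ↥(beta0Field A) (M * q)) π₀ ∧
      (∀ k, T.c k = ((k : ℕ) : ↥(mgvV hπ₀ ιC₀ hq hqM true))) ∧
      (∀ k < q, tres5cIncl (M * q) y h T.z - ((k : ℕ) : ↥(tres5cL E (M * q) y)) ∈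
        (S.gen.W k).nonunits) ∧
      (∀ k < q, T.W k = (S.gen.W k).comap (tres5cIncl (M * q) y h)) ∧
      (∃ k₀ < q, tres5kivW hπ (M * q) y (tres5kiv_frac hπ (M * q) y S.htop hfracY) = S.gen.W k₀ ∧
        T.W k₀ = (tres5kivW hπ (M * q) y (tres5kiv_frac hπ (M * q) y S.htop hfracY)).comap
          (tres5cIncl (M * q) y h)) ∧
      (∀ f : ↥(tres5cL (beta0Field A) (M * q) y),
        tres5cIncl (M * q) y h (ρK f) = S.deck (tres5cIncl (M * q) y h f)) ∧
      (∀ k < q, (T.W k).comap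
        (ρK : ↥(tres5cL (beta0Field A) (M * q) y) →+* ↥(tres5cL (beta0Field A) (M * q) y))
          = T.W ((k + 1) % q)) ∧
      Module.finrank ↥(modularFunctionFieldFullC ↥(beta0Field A) (M * q))
        ↥(tres5cL (beta0Field A) (M * q) y) = q ∧
      IntermediateField.adjoin ↥(modularFunctionFieldFullC ↥E (M * q))
        {tres5cIncl (M * q) y h T.z} = ⊤ :=
  tres5ff_descend hq hA h (M * q) y hstabI hE hfin S (mgvV hπ₀ ιC₀ hq hqM true)
    (tres5kiv_hVK hπ₀ hπ ιC₀ ιC hq hqM h true) _ (tres5kiv_hπK hπ₀ ιC₀ hq hqM true)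
    (tres5kiv_hπK0 hπ₀) (tres5kiv_hunifK hπ₀ ιC₀ hq hqM true) (tres5kiv_hpK hπ₀ ιC₀ hq hqM hA true)
    (tres5kivW hπ (M * q) y (tres5kiv_frac hπ (M * q) y S.htop hfracY))
    (tres5kivW_comap_vtInf hπ (M * q) y _)
    (tres5kivW_smul_mem hπ hq hA h (M * q) y hstabI _) hρG

end Main

end Fermat.Agent.R38
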