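import Fermat.Agent.R38.TresFixFRho
import Fermat.Agent.R38.TresKFormInstV

/-!
# R38 TRES, (FAC-p), piece FAC-FIXF (helper29), part 6: the (A)-instance with the Galois inputs
discharged

helper53's `tres5kiv_descend` (K-FORM (A) at `V_∞`) with `hstabI` and `hρG` discharged from the
toric line (`tres5ff_hstabI_cyclo`, `tres5ff_hρG_cyclo`): the hypotheses left are the Kummer
datum `S` over the big field (FAC-BIG), `hSy`, `hSζ`, `hfracY` (FAC-GRED) and the finiteness /
stability of `E`.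
-/

set_option autoImplicit false
set_option linter.style.haveILetI false
set_option linter.unusedSectionVars false

noncomputable section

open ModularCurve AlgebraicCurve Fermat.Agent.INJ Fermat.Agent.UNIP IntermediateField
  Fermat.Agent.ES Fermat.Agent.ES.G2

namespace Fermat.Agent.R38

section Main

variable {A : ValuationSubring NfQb} {q M : ℕ} [NeZero q] [NeZero M] [NeZero (M * q)]
  {E : IntermediateField ℚ NfQb}
  [IsDiscreteValuationRing ↥(beta0Ring A (beta0Field A))]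
  {π₀ : ↥(beta0Ring A (beta0Field A))} (hπ₀ : Irreducible π₀)
  [IsDiscreteValuationRing ↥(beta0Ring A E)] {π : ↥(beta0Ring A E)} (hπ : Irreducible π)
  (ιC₀ : ↥(beta0Field A) →+* ℂ) (ιC : ↥E →+* ℂ)
  (hq : q.Prime) (hqM : ¬ q ∣ M) (hA : A.LiesOverPrime q) (h : beta0Field A ≤ E)
  {y : LaurentSeries NfQb} {N : ℕ} [NeZero N]

include hA in
/-- **K-FORM (A) at `V_∞` from the toric line.** -/
theorem tres5ff_kiv_descend_cyclo [Fact q.Prime]
    {z₀ : JZero N} {w₀ : modularFunctionFieldBar N} (hw : KummerRel q z₀ w₀)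
    (hy : y ^ q = (w₀ : LaurentSeries NfQb))
    (hle : modularFunctionFieldBar N ≤ modularFunctionFieldBar (M * q))
    (htor : ∀ τ ∈ A.inertiaSubgroupIn ℚ, τ • z₀ = ExtCitation.cycloExp q τ • z₀)
    (hE : ∀ σ ∈ A.inertiaSubgroupIn ℚ, ∀ x ∈ E, σ x ∈ E)
    (hfin : letI := beta0FieldAlgebra h
      FiniteDimensional ↥(beta0Field A) ↥E)
    (S : Tres5Kum ↥(modularFunctionFieldFullC ↥E (M * q)) ↥(tres5cL E (M * q) y)
      (mgvV hπ ιC hq hqM true) q)
    (hSy : coeffMap (algebraMap ↥E NfQb) (S.y : LaurentSeries ↥E) = y)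
    {ζ : NfQb}
    (hSζ : coeffMap (algebraMap ↥E NfQb)
      ((S.ζ : ↥(modularFunctionFieldFullC ↥E (M * q))) : LaurentSeries ↥E) = HahnSeries.C ζ)
    (hfracY : VtFrac (algebraMap ↥(beta0Ring A E) ↥E)
      ((S.y : ↥(tres5cL E (M * q) y)) : LaurentSeries ↥E)) :
    ∃ (T : Tres5Gen ↥(modularFunctionFieldFullC ↥(beta0Field A) (M * q))
        ↥(tres5cL (beta0Field A) (M * q) y) (mgvV hπ₀ ιC₀ hq hqM true) q)
      (ρK : ↥(tres5cL (beta0Field A) (M * q) y) →ₐ[↥(modularFunctionFieldFullC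
        ↥(beta0Field A) (M * q))] ↥(tres5cL (beta0Field A) (M * q) y)),
      T.π = algebraMap ↥(beta0Ring A (beta0Field A))
        ↥(modularFunctionFieldFullC ↥(beta0Field A) (M * q)) π₀ ∧
      (∀ k, T.c k = ((k : ℕ) : ↥(mgvV hπ₀ ιC₀ hq hqM true))) ∧
      (∀ k < q, tres5cIncl (M * q) y h T.z - ((k : ℕ) : ↥(tres5cL E (M * q) y)) ∈
        (S.gen.W k).nonunits) ∧
      (∀ k < q, T.W k = (S.gen.W k).comap (tres5cIncl (M * q) y h)) ∧
      (∃ k₀ < q, tres5kivW hπ (M * q) y (tres5kiv_frac hπ (M * q) y S.htop hfracY) = S.gen.W k₀ ∧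
        T.W k₀ = (tres5kivW hπ (M * q) y (tres5kiv_frac hπ (M * q) y S.htop hfracY)).comap
          (tres5cIncl (M * q) y h)) ∧
      (∀ f : ↥(tres5cL (beta0Field A) (M * q) y),
        tres5cIncl (M * q) y h (ρK f) = S.deck (tres5cIncl (M * q) y h f)) ∧
      (∀ k < q, (T.W k).comap
        (ρK : ↥(tres5cL (beta0Field A) (M * q) y) →+* ↥(tres5cL (beta0Field A) (M * q) y))
          = T.W ((k + 1) % q)) ∧
      Module.finrank ↥(modularFunctionFieldFullC ↥(beta0Field A) (M * q))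
        ↥(tres5cL (beta0Field A) (M * q) y) = q ∧
      IntermediateField.adjoin ↥(modularFunctionFieldFullC ↥E (M * q))
        {tres5cIncl (M * q) y h T.z} = ⊤ :=
  tres5kiv_descend hπ₀ hπ ιC₀ ιC hq hqM hA h y (tres5ff_hstabI_cyclo hw hy hle htor) hE hfin S
    hfracY (tres5ff_hρG_cyclo hq hA h hw hy hle htor S hSy hSζ)

end Main

end Fermat.Agent.R38
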