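/-
ROW 38, TRES, piece FAC-GRED (helper24), part 2a: THE SUBRING `A[[q]] ⊆ E((q))`.

`tres5gPS ι` is the image of `A[[q]]` in `E((q))` (power series with coefficients in `ι A`).
It lies in the Gauss ring, and its elements are `VtFrac`.  Interface of the cusp `∞̄`
(`R38/TresGRedCusp.lean`, helper16: `atLoc 𝔫_∞ ⊆ tres5gPS`) and of the Hensel step
(`R38/TresGRedHensel.lean`).
-/
import Fermat.Agent.UNIP.MGVertGauss
import Fermat.Prelude.Def_ModularCurve_X0ModL

set_option autoImplicit false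
set_option linter.unusedSectionVars false

noncomputable section

namespace Fermat.Agent.R38

open Fermat.Agent.UNIP Fermat.Agent.INJ ModularCurve

section PS

variable {A E k : Type*} [CommRing A] [Field E] [Field k] (ι : A →+* E)

/-- **The subring `A[[q]]` of `E((q))`.** -/
def tres5gPS : Subring (LaurentSeries E) :=
  ((HahnSeries.ofPowerSeries ℤ E).comp (PowerSeries.map ι)).range

variable {ι}

theorem tres5g_mem_PS_iff {x : LaurentSeries E} :
    x ∈ tres5gPS ι ↔ ∃ T : PowerSeries A, HahnSeries.ofPowerSeries ℤ E (T.map ι) = x :=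
  Iff.rfl

theorem tres5g_ofPowerSeries_mem (T : PowerSeries A) :
    HahnSeries.ofPowerSeries ℤ E (T.map ι) ∈ tres5gPS ι := ⟨T, rfl⟩

/-- constants of `A` are in `A[[q]]` -/
theorem tres5g_C_mem (a : A) : (HahnSeries.C (ι a) : LaurentSeries E) ∈ tres5gPS ι :=
  ⟨PowerSeries.C a, by
    show HahnSeries.ofPowerSeries ℤ E ((PowerSeries.C a).map ι) = _
    rw [PowerSeries.map_C, HahnSeries.ofPowerSeries_C]⟩

/-- `q ∈ A[[q]]` -/
theorem tres5g_single_one_mem : (HahnSeries.single (1 : ℤ) (1 : E) : LaurentSeries E) ∈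
    tres5gPS ι :=
  ⟨PowerSeries.X, by
    show HahnSeries.ofPowerSeries ℤ E ((PowerSeries.X : PowerSeries A).map ι) = _
    rw [PowerSeries.map_X, HahnSeries.ofPowerSeries_X]⟩

/-- an element of `A[[q]]` is the coefficientwise image of a series over `A` -/
theorem tres5g_PS_eq_coeffMap {x : LaurentSeries E} (hx : x ∈ tres5gPS ι) :
    ∃ T : PowerSeries A, x = coeffMap ι (HahnSeries.ofPowerSeries ℤ A T) := by
  obtain ⟨T, rfl⟩ := hx
  exact ⟨T, (coeffMap_ofPowerSeries ι T).symm⟩

/-- `A[[q]]` lies in the Gauss ring -/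
theorem tres5g_PS_le_gaussRing (r : A →+* k) : tres5gPS ι ≤ gaussRing ι r := by
  intro x hx
  obtain ⟨T, rfl⟩ := tres5g_PS_eq_coeffMap hx
  exact coeffMap_mem_gaussRing ι r _

/-- the elements of `A[[q]]` are quotients of series over `A` -/
theorem tres5g_PS_vtFrac {x : LaurentSeries E} (hx : x ∈ tres5gPS ι) : VtFrac ι x := by
  obtain ⟨T, rfl⟩ := tres5g_PS_eq_coeffMap hx
  exact vtFrac_coeffMap _

/-- the coefficients of an element of `A[[q]]` -/
theorem tres5g_PS_coeff {x : LaurentSeries E} (hx : x ∈ tres5gPS ι) (n : ℤ) :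
    ∃ a : A, ι a = x.coeff n := by
  obtain ⟨T, rfl⟩ := tres5g_PS_eq_coeffMap hx
  exact ⟨(HahnSeries.ofPowerSeries ℤ A T).coeff n, rfl⟩

/-- the coefficients of negative index of an element of `A[[q]]` vanish -/
theorem tres5g_PS_coeff_neg {x : LaurentSeries E} (hx : x ∈ tres5gPS ι) {n : ℤ} (hn : n < 0) :
    x.coeff n = 0 := by
  obtain ⟨T, rfl⟩ := hx
  exact ofPowerSeries_coeff_of_neg _ hn

/-- characterisation by coefficients -/
theorem tres5g_mem_PS_of_coeff {x : LaurentSeries E} (hneg : ∀ n : ℤ, n < 0 → x.coeff n = 0)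
    (hint : ∀ n : ℕ, ∃ a : A, ι a = x.coeff (n : ℤ)) : x ∈ tres5gPS ι := by
  choose a ha using hint
  refine ⟨PowerSeries.mk a, ?_⟩
  show HahnSeries.ofPowerSeries ℤ E ((PowerSeries.mk a).map ι) = x
  ext n
  rcases le_or_gt 0 n with hn | hn
  · lift n to ℕ using hn
    rw [HahnSeries.ofPowerSeries_apply_coeff, PowerSeries.coeff_map, PowerSeries.coeff_mk, ha]
  · rw [ofPowerSeries_coeff_of_neg _ hn, hneg n hn]

end PS

end Fermat.Agent.R38
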