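/-
ROW 38, TRES, piece FAC-GRED (helper24), part 2b: HENSEL AND NORMALITY IN `A[[q]] ⊆ E((q))`.

`A` a local ring with residue map `r : A → k`, integrally closed in its field of fractions `E`
(`ι : A → E`); `A[[q]] = tres5gPS ι ⊆ E((q))` (`R38/TresGRedPS.lean`).

* `tres5gh_hensel`        : a root `Z ∈ E[[q]]` of a polynomial `P` over `A[[q]]` with `Z(0) ∈ A`,
                            `P′(Z(0))` a unit modulo `q`, lies in `A[[q]]` (Newton, `q`-adically).
* `tres5gh_split`, `tres5gh_split_laurent` : **the form used at the cusp**: `z ∈ E((q))`,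
      `∏_{i ∈ s} (z − c_i) = m`, `m ∈ A[[q]]`, `m(0) ∈ 𝔪`, the `c_i ∈ A` pairwise distinct modulo
      `𝔪`  ⇒  `z ∈ A[[q]]`.
      (FALSE without `m ∈ A[[q]]`: `z^p − z = π^p q^{-p}` has a root in `E((q))` which is not even
      a quotient of two series over `A`.)
* `tres5gh_cic_ps`        : `A[[q]]` is completely integrally closed in `E[[q]]` if `A` is in `E`.
* `tres5gh_normal`        : **normality**: `x ∈ E((q))` integral over `A[[q]]` and a quotient of two
      series over `A` (`VtFrac`) ⇒ `x ∈ A[[q]]`.   (`E[[q]] ∩ gaussRing ≠ A[[q]]`: `π / (π + q)`.)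
* `tres5gh_cic`           : the hypothesis `hcic` for a valuation ring with `VtBase`.
-/
import Mathlib
import Fermat.Agent.R38.TresGRedPS

set_option autoImplicit false
set_option linter.unusedSectionVars false

namespace Fermat.Agent.R38

open Polynomial Fermat.Agent.UNIP ModularCurve

section Hensel

variable {A E : Type*} [CommRing A] [Field E] (ι : A →+* E)

/-- divisibility by `X ^ n` descends along an injective coefficient map -/
theorem tres5gh_X_pow_dvd (hι : Function.Injective ι) {n : ℕ} {d : PowerSeries A}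
    (h : (PowerSeries.X : PowerSeries E) ^ n ∣ d.map ι) :
    (PowerSeries.X : PowerSeries A) ^ n ∣ d := by
  rw [PowerSeries.X_pow_dvd_iff] at h ⊢
  intro m hm
  have := h m hm
  rw [PowerSeries.coeff_map] at this
  exact hι (by rw [this, map_zero])

theorem tres5gh_constantCoeff_map (t : PowerSeries A) :
    PowerSeries.constantCoeff (t.map ι) = ι (PowerSeries.constantCoeff t) := by
  rw [← PowerSeries.coeff_zero_eq_constantCoeff_apply, PowerSeries.coeff_map,
    PowerSeries.coeff_zero_eq_constantCoeff_apply]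

/-- **Newton step.** -/
theorem tres5gh_step (hι : Function.Injective ι) (P : (PowerSeries A)[X]) (Z : PowerSeries E)
    (hPZ : (P.map (PowerSeries.map ι)).eval Z = 0) (a₀ : A)
    (hD : IsUnit ((derivative (P.map (PowerSeries.constantCoeff (R := A)))).eval a₀))
    {n : ℕ} (hn : 1 ≤ n) (t : PowerSeries A) (ht₀ : PowerSeries.constantCoeff t = a₀)
    (ht : (PowerSeries.X : PowerSeries E) ^ n ∣ Z - t.map ι) :
    ∃ t' : PowerSeries A, PowerSeries.constantCoeff t' = a₀ ∧
      (PowerSeries.X : PowerSeries E) ^ (n + 1) ∣ Z - t'.map ι := by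
  obtain ⟨v, hv⟩ := ht
  have hZ : Z = t.map ι + PowerSeries.X ^ n * v := by rw [← hv]; ring
  obtain ⟨κ, hκ⟩ := binomExpansion (P.map (PowerSeries.map ι)) (t.map ι) (PowerSeries.X ^ n * v)
  rw [← hZ, hPZ] at hκ
  have h1 : (P.map (PowerSeries.map ι)).eval (t.map ι) = (P.eval t).map ι := by
    rw [eval_map, eval₂_hom]
  have h2 : (derivative (P.map (PowerSeries.map ι))).eval (t.map ι) =
      ((derivative P).eval t).map ι := by
    rw [derivative_map, eval_map, eval₂_hom]
  rw [h1, h2] at hκ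
  have h3 : (PowerSeries.X : PowerSeries E) ^ n ∣ (P.eval t).map ι := by
    refine ⟨-(((derivative P).eval t).map ι * v + κ * PowerSeries.X ^ n * v ^ 2), ?_⟩
    linear_combination -hκ
  obtain ⟨b, hb⟩ := tres5gh_X_pow_dvd ι hι h3
  have hX : (PowerSeries.X : PowerSeries E) ^ n ≠ 0 := pow_ne_zero _ PowerSeries.X_ne_zero
  have h4 : b.map ι = -(((derivative P).eval t).map ι * v + κ * PowerSeries.X ^ n * v ^ 2) := by
    apply mul_left_cancel₀ hX
    have e : (PowerSeries.X : PowerSeries E) ^ n * b.map ι = (P.eval t).map ι := by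
      rw [hb, map_mul, map_pow, PowerSeries.map_X]
    rw [e]
    linear_combination -hκ
  have hXn : PowerSeries.constantCoeff ((PowerSeries.X : PowerSeries E) ^ n) = 0 := by
    rw [map_pow, PowerSeries.constantCoeff_X, zero_pow (by omega)]
  have h5 : ι (PowerSeries.constantCoeff b) =
      -(ι (PowerSeries.constantCoeff ((derivative P).eval t)) * PowerSeries.constantCoeff v) := by
    have := congrArg PowerSeries.constantCoeff h4
    rw [tres5gh_constantCoeff_map, map_neg, map_add, map_mul, map_mul, map_mul,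
      tres5gh_constantCoeff_map, hXn] at this
    rw [this]; ring
  have h6 : PowerSeries.constantCoeff ((derivative P).eval t) =
      (derivative (P.map (PowerSeries.constantCoeff (R := A)))).eval a₀ := by
    rw [derivative_map, eval_map, ← ht₀, eval₂_hom]
  obtain ⟨u, hu⟩ := hD
  rw [h6, ← hu] at h5
  have hcv : PowerSeries.constantCoeff v = ι (-(PowerSeries.constantCoeff b) * ((u⁻¹ : Aˣ) : A)) := by
    have hu1 : ι (u : A) * ι ((u⁻¹ : Aˣ) : A) = 1 := by
      rw [← map_mul, Units.mul_inv, map_one]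
    rw [map_mul, map_neg, h5]
    linear_combination (-(PowerSeries.constantCoeff v)) * hu1
  refine ⟨t + PowerSeries.C (-(PowerSeries.constantCoeff b) * ((u⁻¹ : Aˣ) : A)) *
    PowerSeries.X ^ n, ?_, ?_⟩
  · have hXnA : PowerSeries.constantCoeff ((PowerSeries.X : PowerSeries A) ^ n) = 0 := by
      rw [map_pow, PowerSeries.constantCoeff_X, zero_pow (by omega)]
    rw [map_add, map_mul, hXnA, mul_zero, add_zero, ht₀]
  · have hdvd : (PowerSeries.X : PowerSeries E) ∣
        v - PowerSeries.C (ι (-(PowerSeries.constantCoeff b) * ((u⁻¹ : Aˣ) : A))) := by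
      rw [PowerSeries.X_dvd_iff, map_sub, PowerSeries.constantCoeff_C, hcv, sub_self]
    obtain ⟨w, hw⟩ := hdvd
    refine ⟨w, ?_⟩
    rw [map_add, map_mul, map_pow, PowerSeries.map_X, PowerSeries.map_C, pow_succ, mul_assoc,
      ← hw, hZ]
    ring

/-- **Hensel's lemma in `A[[q]] ⊆ E[[q]]`**: a root `Z ∈ E[[q]]` of a polynomial over `A[[q]]`
whose constant term `a₀` is in `A` and is a simple root modulo `q` (the derivative at `a₀` is a
unit of `A`) has all its coefficients in `A`. -/
theorem tres5gh_hensel (hι : Function.Injective ι) (P : (PowerSeries A)[X]) (Z : PowerSeries E)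
    (hPZ : (P.map (PowerSeries.map ι)).eval Z = 0) (a₀ : A)
    (ha₀ : PowerSeries.constantCoeff Z = ι a₀)
    (hD : IsUnit ((derivative (P.map (PowerSeries.constantCoeff (R := A)))).eval a₀)) :
    ∃ T : PowerSeries A, T.map ι = Z := by
  have key : ∀ n : ℕ, ∃ t : PowerSeries A, PowerSeries.constantCoeff t = a₀ ∧
      (PowerSeries.X : PowerSeries E) ^ (n + 1) ∣ Z - t.map ι := by
    intro n
    induction n with
    | zero =>
      refine ⟨PowerSeries.C a₀, PowerSeries.constantCoeff_C a₀, ?_⟩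
      rw [zero_add, pow_one, PowerSeries.X_dvd_iff, map_sub, tres5gh_constantCoeff_map,
        PowerSeries.constantCoeff_C, ha₀, sub_self]
    | succ n ih =>
      obtain ⟨t, ht₀, ht⟩ := ih
      exact tres5gh_step ι hι P Z hPZ a₀ hD (by omega) t ht₀ ht
  choose t _ ht using key
  refine ⟨PowerSeries.mk fun m => PowerSeries.coeff m (t m), ?_⟩
  ext m
  rw [PowerSeries.coeff_map, PowerSeries.coeff_mk]
  have h := (PowerSeries.X_pow_dvd_iff.mp (ht m)) m (Nat.lt_succ_self m)
  rw [map_sub, PowerSeries.coeff_map, sub_eq_zero] at h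
  exact h.symm

variable {k κ : Type*} [Field k]

/-- **Hensel, split form** (power series). -/
theorem tres5gh_split (hι : Function.Injective ι) (r : A →+* k)
    (hloc : ∀ a : A, r a ≠ 0 → IsUnit a)
    (hic : ∀ (x : E) (p : A[X]), p.Monic → p.eval₂ ι x = 0 → ∃ a, ι a = x)
    (s : Finset κ) (c : κ → A) (hc : ∀ i ∈ s, ∀ j ∈ s, i ≠ j → r (c i) ≠ r (c j))
    (m : PowerSeries A) (hm : r (PowerSeries.constantCoeff m) = 0)
    (Z : PowerSeries E) (hZ : ∏ i ∈ s, (Z - PowerSeries.C (ι (c i))) = m.map ι) :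
    ∃ T : PowerSeries A, T.map ι = Z := by
  classical
  -- `s` is not empty
  have hs : s.Nonempty := by
    rw [Finset.nonempty_iff_ne_empty]
    rintro rfl
    rw [Finset.prod_empty] at hZ
    have h1 := congrArg PowerSeries.constantCoeff hZ
    rw [map_one, tres5gh_constantCoeff_map] at h1
    have h2 : PowerSeries.constantCoeff m = 1 := hι (by rw [← h1, map_one])
    rw [h2, map_one] at hm
    exact one_ne_zero hm
  -- the polynomials
  set P : (PowerSeries A)[X] := Lagrange.nodal s (fun i => PowerSeries.C (c i)) - C m with hP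
  have hP₀ : P.map (PowerSeries.constantCoeff (R := A)) =
      Lagrange.nodal s c - C (PowerSeries.constantCoeff m) := by
    rw [hP, Polynomial.map_sub, Polynomial.map_C, Lagrange.nodal, Lagrange.nodal,
      Polynomial.map_prod]
    congr 1
    refine Finset.prod_congr rfl fun i _ => ?_
    rw [Polynomial.map_sub, Polynomial.map_X, Polynomial.map_C, PowerSeries.constantCoeff_C]
  have hPZ : (P.map (PowerSeries.map ι)).eval Z = 0 := by
    rw [eval_map, hP, eval₂_sub, eval₂_C, Lagrange.nodal, eval₂_finsetProd]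
    rw [← hZ, sub_eq_zero]
    refine Finset.prod_congr rfl fun i _ => ?_
    rw [eval₂_sub, eval₂_X, eval₂_C, PowerSeries.map_C]
  -- the constant term
  have hz₀ : ∏ i ∈ s, (PowerSeries.constantCoeff Z - ι (c i)) =
      ι (PowerSeries.constantCoeff m) := by
    have h1 := congrArg PowerSeries.constantCoeff hZ
    rw [map_prod, tres5gh_constantCoeff_map] at h1
    rw [← h1]
    refine Finset.prod_congr rfl fun i _ => ?_
    rw [map_sub, PowerSeries.constantCoeff_C]
  have hmonic : (Lagrange.nodal s c - C (PowerSeries.constantCoeff m)).Monic := by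
    refine (Lagrange.nodal_monic).sub_of_left ?_
    have : Nontrivial A := ⟨⟨0, 1, fun h => by
      have := congrArg r h; rw [map_zero, map_one] at this; exact zero_ne_one this⟩⟩
    rw [Lagrange.degree_nodal]
    refine lt_of_le_of_lt degree_C_le ?_
    exact_mod_cast hs.card_pos
  obtain ⟨a₀, ha₀⟩ := hic (PowerSeries.constantCoeff Z) _ hmonic (by
    rw [eval₂_sub, eval₂_C, Lagrange.nodal, eval₂_finsetProd, ← hz₀, sub_eq_zero]
    refine Finset.prod_congr rfl fun i _ => ?_
    rw [eval₂_sub, eval₂_X, eval₂_C])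
  have ha : ∏ i ∈ s, (a₀ - c i) = PowerSeries.constantCoeff m := by
    apply hι
    rw [map_prod, ← hz₀, ← ha₀]
    refine Finset.prod_congr rfl fun i _ => ?_
    rw [map_sub]
  obtain ⟨i₀, hi₀, hri₀⟩ : ∃ i₀ ∈ s, r (a₀ - c i₀) = 0 := by
    have h1 := congrArg r ha
    rw [map_prod, hm] at h1
    exact Finset.prod_eq_zero_iff.mp h1
  have hra : r a₀ = r (c i₀) := by
    rw [map_sub, sub_eq_zero] at hri₀
    exact hri₀
  -- the derivative
  have hD : IsUnit ((derivative (P.map (PowerSeries.constantCoeff (R := A)))).eval a₀) := by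
    apply hloc
    rw [hP₀]
    have h1 : r ((derivative (Lagrange.nodal s c - C (PowerSeries.constantCoeff m))).eval a₀) =
        (derivative (Lagrange.nodal s (fun i => r (c i)))).eval (r (c i₀)) := by
      rw [← hra, ← eval₂_hom, ← eval_map, ← derivative_map, Polynomial.map_sub, Polynomial.map_C,
        hm, map_zero, sub_zero, Lagrange.nodal, Lagrange.nodal, Polynomial.map_prod]
      congr 2
      refine Finset.prod_congr rfl fun i _ => ?_
      rw [Polynomial.map_sub, Polynomial.map_X, Polynomial.map_C]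
    rw [h1, Lagrange.eval_nodal_derivative_eval_node_eq (v := fun i => r (c i)) hi₀,
      Lagrange.eval_nodal]
    refine Finset.prod_ne_zero_iff.mpr fun i hi => ?_
    rw [sub_ne_zero]
    exact hc i₀ hi₀ i (Finset.mem_of_mem_erase hi) (Finset.ne_of_mem_erase hi).symm
  exact tres5gh_hensel ι hι P Z hPZ a₀ ha₀.symm hD

/-- **Hensel, split form** (Laurent series): a root `z ∈ E((q))` of
`∏ (Z − c_i) = m`, `m ∈ A[[q]]` with `m(0) ∈ 𝔪`, the `c_i ∈ A` pairwise distinct modulo `𝔪`,
lies in `A[[q]]`. -/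
theorem tres5gh_split_laurent (hι : Function.Injective ι) (r : A →+* k)
    (hloc : ∀ a : A, r a ≠ 0 → IsUnit a)
    (hic : ∀ (x : E) (p : A[X]), p.Monic → p.eval₂ ι x = 0 → ∃ a, ι a = x)
    (s : Finset κ) (c : κ → A) (hc : ∀ i ∈ s, ∀ j ∈ s, i ≠ j → r (c i) ≠ r (c j))
    (m : PowerSeries A) (hm : r (PowerSeries.constantCoeff m) = 0)
    (z : LaurentSeries E)
    (hz : ∏ i ∈ s, (z - HahnSeries.C (ι (c i))) = HahnSeries.ofPowerSeries ℤ E (m.map ι)) :
    z ∈ tres5gPS ι := by
  classical
  have hs : s.Nonempty := by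
    rw [Finset.nonempty_iff_ne_empty]
    rintro rfl
    rw [Finset.prod_empty] at hz
    have h0 : (m.map ι : PowerSeries E) = 1 := by
      apply HahnSeries.ofPowerSeries_injective (Γ := ℤ)
      rw [← hz, map_one]
    have h1 := congrArg PowerSeries.constantCoeff h0
    rw [map_one, tres5gh_constantCoeff_map] at h1
    have h2 : PowerSeries.constantCoeff m = 1 := hι (by rw [h1, map_one])
    rw [h2, map_one] at hm
    exact one_ne_zero hm
  -- `z` is a power series
  have hzv : Valued.v z ≤ (1 : WithZero (Multiplicative ℤ)) := by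
    by_contra hlt
    rw [not_le] at hlt
    have hC : ∀ i, Valued.v (HahnSeries.C (ι (c i)) : LaurentSeries E) ≤
        (1 : WithZero (Multiplicative ℤ)) := by
      intro i
      rw [LaurentSeries.val_le_one_iff_eq_coe]
      exact ⟨PowerSeries.C (ι (c i)), HahnSeries.ofPowerSeries_C _⟩
    have h1 : ∀ i, Valued.v (z - HahnSeries.C (ι (c i))) = Valued.v z := fun i =>
      Valuation.map_sub_eq_of_lt_left _ (lt_of_le_of_lt (hC i) hlt)
    have h2 : Valued.v (∏ i ∈ s, (z - HahnSeries.C (ι (c i)))) = Valued.v z ^ s.card := by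
      rw [map_prod, Finset.prod_congr rfl (fun i _ => h1 i), Finset.prod_const]
    have h3 : Valued.v (∏ i ∈ s, (z - HahnSeries.C (ι (c i)))) ≤
        (1 : WithZero (Multiplicative ℤ)) := by
      rw [hz, LaurentSeries.val_le_one_iff_eq_coe]
      exact ⟨m.map ι, rfl⟩
    rw [h2] at h3
    exact absurd h3 (not_le.mpr (one_lt_pow₀ hlt hs.card_pos.ne'))
  obtain ⟨Z, rfl⟩ := (LaurentSeries.val_le_one_iff_eq_coe E z).mp hzv
  have hZ : ∏ i ∈ s, (Z - PowerSeries.C (ι (c i))) = m.map ι := by
    apply HahnSeries.ofPowerSeries_injective (Γ := ℤ)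
    rw [← hz, map_prod]
    refine Finset.prod_congr rfl fun i _ => ?_
    rw [map_sub, HahnSeries.ofPowerSeries_C]
  obtain ⟨T, hT⟩ := tres5gh_split ι hι r hloc hic s c hc m hm Z hZ
  exact ⟨T, by rw [← hT]; rfl⟩

end Hensel

section Normal

variable {A E : Type*} [CommRing A] [Field E] (ι : A →+* E)

/-- **`A[[q]]` is completely integrally closed in `E[[q]]`** if `A` is so in `E`. -/
theorem tres5gh_cic_ps
    (hcic : ∀ x d : E, d ≠ 0 → (∀ n : ℕ, ∃ a : A, ι a = d * x ^ n) → ∃ a : A, ι a = x)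
    (X₀ : PowerSeries E) (d : PowerSeries A) (hd : d.map ι ≠ 0)
    (h : ∀ n : ℕ, ∃ t : PowerSeries A, t.map ι = d.map ι * X₀ ^ n) :
    ∃ T : PowerSeries A, T.map ι = X₀ := by
  classical
  -- the order of `d`
  have hex : ∃ s, PowerSeries.coeff s (d.map ι) ≠ 0 := by
    by_contra hno
    exact hd (PowerSeries.ext fun n => by
      rw [map_zero]
      by_contra hne
      exact hno ⟨n, hne⟩)
  set s := Nat.find hex with hs
  have hs1 : PowerSeries.coeff s (d.map ι) ≠ 0 := Nat.find_spec hex
  have hs2 : ∀ i < s, PowerSeries.coeff i (d.map ι) = 0 := fun i hi => by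
    by_contra hne
    exact Nat.find_min hex hi hne
  have key : ∀ m : ℕ, ∃ τ : PowerSeries A, (PowerSeries.X : PowerSeries E) ^ m ∣ X₀ - τ.map ι := by
    intro m
    induction m with
    | zero => exact ⟨0, by rw [pow_zero]; exact one_dvd _⟩
    | succ m ih =>
      obtain ⟨τ, v, hv⟩ := ih
      -- `d̂ (X₀ − τ̂)^n ∈ Λ`
      have h1 : ∀ n : ℕ, ∃ t : PowerSeries A, t.map ι = d.map ι * (X₀ - τ.map ι) ^ n := by
        intro n
        have hmem : d.map ι * (X₀ - τ.map ι) ^ n ∈ (PowerSeries.map ι).range := by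
          rw [sub_eq_add_neg, add_pow, Finset.mul_sum]
          refine Subring.sum_mem _ fun i _ => ?_
          have e : d.map ι * (X₀ ^ i * (-τ.map ι) ^ (n - i) * ((n.choose i : ℕ) : PowerSeries E)) =
              (d.map ι * X₀ ^ i) * ((-τ.map ι) ^ (n - i) * ((n.choose i : ℕ) : PowerSeries E)) := by
            ring
          rw [e]
          refine Subring.mul_mem _ ?_ (Subring.mul_mem _ (Subring.pow_mem _ ?_ _) ?_)
          · obtain ⟨t, ht⟩ := h i
            exact ⟨t, ht⟩
          · exact ⟨-τ, by rw [map_neg]⟩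
          · exact ⟨((n.choose i : ℕ) : PowerSeries A), by rw [map_natCast]⟩
        obtain ⟨t, ht⟩ := hmem
        exact ⟨t, ht⟩
      -- the coefficient of index `s + m n`
      have h2 : ∀ n : ℕ, ∃ a : A, ι a =
          PowerSeries.coeff s (d.map ι) * (PowerSeries.constantCoeff v) ^ n := by
        intro n
        obtain ⟨t, ht⟩ := h1 n
        refine ⟨PowerSeries.coeff (s + m * n) t, ?_⟩
        rw [← PowerSeries.coeff_map, ht, hv, mul_pow, ← pow_mul, ← mul_assoc,
          mul_comm (d.map ι) _, mul_assoc, PowerSeries.coeff_X_pow_mul, PowerSeries.coeff_mul]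
        rw [Finset.sum_eq_single (s, 0)]
        · rw [PowerSeries.coeff_zero_eq_constantCoeff_apply, map_pow]
        · rintro ⟨i, j⟩ hij hne
          have hij' : i + j = s := Finset.HasAntidiagonal.mem_antidiagonal.mp hij
          have hi : i < s := by
            rcases Nat.lt_or_ge i s with hi | hi
            · exact hi
            · exfalso
              apply hne
              have : i = s ∧ j = 0 := by omega
              rw [this.1, this.2]
          rw [hs2 i hi, zero_mul]
        · intro hno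
          exact absurd (Finset.HasAntidiagonal.mem_antidiagonal.mpr (add_zero s)) hno
      obtain ⟨a, ha⟩ := hcic (PowerSeries.constantCoeff v) _ hs1 h2
      refine ⟨τ + PowerSeries.C a * PowerSeries.X ^ m, ?_⟩
      have hdvd : (PowerSeries.X : PowerSeries E) ∣ v - PowerSeries.C (ι a) := by
        rw [PowerSeries.X_dvd_iff, map_sub, PowerSeries.constantCoeff_C, ha, sub_self]
      obtain ⟨w, hw⟩ := hdvd
      refine ⟨w, ?_⟩
      have e : X₀ = τ.map ι + PowerSeries.X ^ m * v := by rw [← hv]; ring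
      rw [map_add, map_mul, map_pow, PowerSeries.map_X, PowerSeries.map_C, pow_succ, mul_assoc,
        ← hw, e]
      ring
  choose τ hτ using key
  refine ⟨PowerSeries.mk fun m => PowerSeries.coeff m (τ (m + 1)), ?_⟩
  ext m
  rw [PowerSeries.coeff_map, PowerSeries.coeff_mk]
  have h := (PowerSeries.X_pow_dvd_iff.mp (hτ (m + 1))) m (Nat.lt_succ_self m)
  rw [map_sub, PowerSeries.coeff_map, sub_eq_zero] at h
  exact h.symm

/-- powers of an integral element, multiplied by a power of a denominator -/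
theorem tres5gh_pow_mem {R : Type*} [CommRing R] (S : Subring R) {x β : R} (hβ : β ∈ S)
    (hβx : β * x ∈ S) (hint : IsIntegral ↥S x) : ∃ N : ℕ, ∀ n : ℕ, β ^ N * x ^ n ∈ S := by
  obtain ⟨p, hp, hpx⟩ := hint
  refine ⟨p.natDegree, ?_⟩
  have hrel : x ^ p.natDegree =
      -∑ i ∈ Finset.range p.natDegree, ((p.coeff i : ↥S) : R) * x ^ i := by
    have h1 := hpx
    rw [hp.as_sum, eval₂_add, eval₂_pow, eval₂_X, eval₂_finsetSum] at h1
    rw [eq_neg_iff_add_eq_zero, ← h1]
    congr 1
    refine Finset.sum_congr rfl fun i _ => ?_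
    rw [eval₂_mul, eval₂_C, eval₂_pow, eval₂_X]
    rfl
  intro n
  induction n using Nat.strong_induction_on with
  | _ n ih =>
    rcases Nat.lt_or_ge n p.natDegree with hn | hn
    · have e : β ^ p.natDegree * x ^ n = β ^ (p.natDegree - n) * (β * x) ^ n := by
        rw [mul_pow, ← mul_assoc, ← pow_add, Nat.sub_add_cancel hn.le]
      rw [e]
      exact S.mul_mem (S.pow_mem hβ _) (S.pow_mem hβx _)
    · obtain ⟨j, rfl⟩ := Nat.exists_eq_add_of_le hn
      have e : β ^ p.natDegree * x ^ (p.natDegree + j) =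
          -∑ i ∈ Finset.range p.natDegree, ((p.coeff i : ↥S) : R) * (β ^ p.natDegree * x ^ (i + j)) := by
        rw [pow_add, hrel, neg_mul, mul_neg, Finset.sum_mul, Finset.mul_sum]
        congr 1
        refine Finset.sum_congr rfl fun i _ => ?_
        rw [pow_add]
        ring
      rw [e]
      refine S.neg_mem (S.sum_mem fun i hi => S.mul_mem (p.coeff i).2 (ih _ ?_))
      have := Finset.mem_range.mp hi
      omega

/-- a Laurent series over `A` times a power of `q` is a power series -/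
theorem tres5gh_exists_shift (y : LaurentSeries A) :
    ∃ (n : ℕ) (Y : PowerSeries A),
      HahnSeries.ofPowerSeries ℤ A Y = HahnSeries.single (n : ℤ) (1 : A) * y := by
  refine ⟨(-y.order).toNat, PowerSeries.X ^ ((-y.order).toNat + y.order).toNat *
    y.powerSeriesPart, ?_⟩
  have h0 : 0 ≤ ((-y.order).toNat : ℤ) + y.order := by
    have := Int.self_le_toNat (-y.order)
    omega
  rw [map_mul, LaurentSeries.ofPowerSeries_powerSeriesPart, HahnSeries.ofPowerSeries_X_pow,
    ← mul_assoc, HahnSeries.single_mul_single, mul_one, Int.toNat_of_nonneg h0]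
  congr 2
  ring_nf

/-- **`A[[q]]` is integrally closed in the field of quotients of series over `A`**
(`A` completely integrally closed in `E`, e.g. a discrete valuation ring). -/
theorem tres5gh_normal (hι : Function.Injective ι)
    (hcic : ∀ x d : E, d ≠ 0 → (∀ n : ℕ, ∃ a : A, ι a = d * x ^ n) → ∃ a : A, ι a = x)
    {x : LaurentSeries E} (hint : IsIntegral ↥(tres5gPS ι) x) (hfrac : VtFrac ι x) :
    x ∈ tres5gPS ι := by
  obtain ⟨T, b, hb, hbx⟩ := hfrac
  obtain ⟨nb, b₀, hb₀⟩ := tres5gh_exists_shift b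
  obtain ⟨nT, T₀, hT₀⟩ := tres5gh_exists_shift T
  -- the denominator `β = q ^ (nb + nT) b`
  have hshift : ∀ (n : ℕ) (Y : PowerSeries A) (y : LaurentSeries A),
      HahnSeries.ofPowerSeries ℤ A Y = HahnSeries.single (n : ℤ) (1 : A) * y →
      HahnSeries.ofPowerSeries ℤ E (Y.map ι) =
        HahnSeries.single (n : ℤ) (1 : E) * coeffMap ι y := by
    intro n Y y h
    rw [← coeffMap_ofPowerSeries, h, map_mul, coeffMap_single, map_one]
  have hq : ∀ n : ℕ, HahnSeries.ofPowerSeries ℤ E ((PowerSeries.X ^ n : PowerSeries A).map ι) =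
      HahnSeries.single (n : ℤ) (1 : E) := by
    intro n
    rw [map_pow, PowerSeries.map_X, HahnSeries.ofPowerSeries_X_pow]
  set β : LaurentSeries E :=
    HahnSeries.ofPowerSeries ℤ E ((PowerSeries.X ^ nT * b₀ : PowerSeries A).map ι) with hβ
  have hβ' : β = HahnSeries.single (nT : ℤ) (1 : E) *
      (HahnSeries.single (nb : ℤ) (1 : E) * coeffMap ι b) := by
    rw [hβ, map_mul, map_mul, hq, hshift nb b₀ b hb₀]
  have hβS : β ∈ tres5gPS ι := tres5g_ofPowerSeries_mem _
  have hβx : β * x ∈ tres5gPS ι := by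
    have e : β * x =
        HahnSeries.ofPowerSeries ℤ E ((PowerSeries.X ^ nb * T₀ : PowerSeries A).map ι) := by
      rw [map_mul, map_mul, hq, hshift nT T₀ T hT₀, hβ', ← hbx]
      ring
    rw [e]
    exact tres5g_ofPowerSeries_mem _
  have hβ0 : β ≠ 0 := by
    rw [hβ']
    exact mul_ne_zero (HahnSeries.single_ne_zero one_ne_zero)
      (mul_ne_zero (HahnSeries.single_ne_zero one_ne_zero) (vt_coeffMap_ne_zero hι hb))
  obtain ⟨N, hN⟩ := tres5gh_pow_mem (tres5gPS ι) hβS hβx hint
  -- `x` is a power series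
  have hxv : Valued.v x ≤ (1 : WithZero (Multiplicative ℤ)) := by
    by_contra hlt
    rw [not_le] at hlt
    obtain ⟨p, hp, hpx⟩ := hint
    have hS : ∀ s : ↥(tres5gPS ι), Valued.v ((s : LaurentSeries E)) ≤
        (1 : WithZero (Multiplicative ℤ)) := by
      rintro ⟨_, t, rfl⟩
      rw [LaurentSeries.val_le_one_iff_eq_coe]
      exact ⟨t.map ι, rfl⟩
    have hrel : x ^ p.natDegree =
        -∑ i ∈ Finset.range p.natDegree, ((p.coeff i : ↥(tres5gPS ι)) : LaurentSeries E) * x ^ i := by
      have h1 := hpx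
      rw [hp.as_sum, eval₂_add, eval₂_pow, eval₂_X, eval₂_finsetSum] at h1
      rw [eq_neg_iff_add_eq_zero, ← h1]
      congr 1
      refine Finset.sum_congr rfl fun i _ => ?_
      rw [eval₂_mul, eval₂_C, eval₂_pow, eval₂_X]
      rfl
    have h2 : Valued.v (x ^ p.natDegree) < Valued.v x ^ p.natDegree := by
      rw [hrel, Valuation.map_neg]
      refine Valuation.map_sum_lt _ (pow_ne_zero _ (ne_of_gt (lt_trans zero_lt_one hlt)))
        fun i hi => ?_
      rw [map_mul, map_pow]
      calc Valued.v ((p.coeff i : ↥(tres5gPS ι)) : LaurentSeries E) * Valued.v x ^ i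
          ≤ 1 * Valued.v x ^ i := mul_le_mul' (hS _) le_rfl
        _ = Valued.v x ^ i := one_mul _
        _ < Valued.v x ^ p.natDegree := pow_lt_pow_right₀ hlt (Finset.mem_range.mp hi)
    rw [map_pow] at h2
    exact lt_irrefl _ h2
  obtain ⟨X₀, rfl⟩ := (LaurentSeries.val_le_one_iff_eq_coe E x).mp hxv
  -- the hypothesis of `tres5gh_cic_ps`
  have hd : ((PowerSeries.X ^ nT * b₀ : PowerSeries A) ^ N).map ι ≠ 0 := by
    intro h0
    apply pow_ne_zero N hβ0
    rw [hβ, ← map_pow, ← map_pow, h0, map_zero]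
  have hall : ∀ n : ℕ, ∃ t : PowerSeries A,
      t.map ι = ((PowerSeries.X ^ nT * b₀ : PowerSeries A) ^ N).map ι * X₀ ^ n := by
    intro n
    obtain ⟨t, ht⟩ := hN n
    refine ⟨t, HahnSeries.ofPowerSeries_injective (Γ := ℤ) ?_⟩
    rw [map_mul, map_pow, map_pow, map_pow]
    rw [hβ] at ht
    exact ht
  obtain ⟨T', hT'⟩ := tres5gh_cic_ps ι hcic X₀ _ hd hall
  exact ⟨T', by rw [← hT']; rfl⟩

/-- **`hcic` for a valuation ring**: `A` with `VtBase ι r π` such that every `x ∉ A` has
`x⁻¹ ∈ π A`. -/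
theorem tres5gh_cic {k : Type*} [Field k] {r : A →+* k} {π : A} (hB : VtBase ι r π)
    (hval : ∀ x : E, (∃ a, ι a = x) ∨ ∃ a, ι (π * a) * x = 1) :
    ∀ x d : E, d ≠ 0 → (∀ n : ℕ, ∃ a : A, ι a = d * x ^ n) → ∃ a : A, ι a = x := by
  intro x d hd h
  rcases hval x with h1 | ⟨a', ha'⟩
  · exact h1
  exfalso
  obtain ⟨u, w, hw, hwd⟩ := hB.frac d
  have hu : u ≠ 0 := by
    rintro rfl
    rw [map_zero] at hwd
    rcases mul_eq_zero.mp hwd with h0 | h0
    · exact hw (hB.inj (by rw [h0, map_zero]))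
    · exact hd h0
  obtain ⟨n, hn⟩ := hB.fin u hu
  apply hn
  obtain ⟨a, ha⟩ := h n
  refine ⟨w * a * a' ^ n, hB.inj ?_⟩
  have e1 : (ι (π * a') * x) ^ n = 1 := by rw [ha', one_pow]
  calc ι u = ι w * d := hwd.symm
    _ = ι w * d * (ι (π * a') * x) ^ n := by rw [e1, mul_one]
    _ = ι (π ^ n * (w * a * a' ^ n)) := by
      simp only [map_mul, map_pow, ha]
      ring

end Normal

section Val

variable {E : Type*} [Field E] (V : ValuationSubring E) {π : ↥V}

/-- the hypotheses `hloc`, `hic`, `hcic` of Hensel and normality for a valuation subring with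
its residue map -/
theorem tres5gh_val_hloc (a : ↥V) (ha : IsLocalRing.residue ↥V a ≠ 0) : IsUnit a := by
  by_contra h
  exact ha ((IsLocalRing.residue_eq_zero_iff a).mpr ((IsLocalRing.mem_maximalIdeal a).mpr h))

theorem tres5gh_val_hic (x : E) (p : (↥V)[X]) (hp : p.Monic)
    (hx : p.eval₂ (algebraMap ↥V E) x = 0) : ∃ a : ↥V, algebraMap ↥V E a = x :=
  (IsIntegrallyClosed.isIntegral_iff (R := ↥V) (K := E)).mp ⟨p, hp, hx⟩

theorem tres5gh_val_hval (hB : VtBase (algebraMap ↥V E) (IsLocalRing.residue ↥V) π) (x : E) :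
    (∃ a : ↥V, algebraMap ↥V E a = x) ∨ ∃ a : ↥V, algebraMap ↥V E (π * a) * x = 1 := by
  by_cases hx : x ∈ V
  · exact Or.inl ⟨⟨x, hx⟩, rfl⟩
  right
  have hx0 : x ≠ 0 := fun h => hx (h ▸ V.zero_mem)
  have hxi : x⁻¹ ∈ V := (V.mem_or_inv_mem x).resolve_left hx
  have hnu : ¬ IsUnit (⟨x⁻¹, hxi⟩ : ↥V) := by
    intro hu
    obtain ⟨b, hb⟩ := isUnit_iff_exists_inv.mp hu
    apply hx
    have h2 : x⁻¹ * (b : E) = 1 := congrArg (fun z : ↥V => (z : E)) hb
    have h3 : (b : E) = x := by
      have h4 : x * (x⁻¹ * (b : E)) = x := by rw [h2, mul_one]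
      rwa [← mul_assoc, mul_inv_cancel₀ hx0, one_mul] at h4
    rw [← h3]
    exact b.2
  have hr : IsLocalRing.residue ↥V ⟨x⁻¹, hxi⟩ = 0 :=
    (IsLocalRing.residue_eq_zero_iff _).mpr ((IsLocalRing.mem_maximalIdeal _).mpr hnu)
  obtain ⟨a, ha⟩ := hB.ker _ hr
  refine ⟨a, ?_⟩
  rw [← ha]
  exact inv_mul_cancel₀ hx0

/-- **normality of `V[[q]]`** for a valuation subring `V` with `VtBase` (a discrete valuation
ring): the hypothesis `hnorm` of the cusp (`R38/TresGRedCusp.lean`). -/
theorem tres5gh_normal_val (hB : VtBase (algebraMap ↥V E) (IsLocalRing.residue ↥V) π)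
    {x : LaurentSeries E} (hint : IsIntegral ↥(tres5gPS (algebraMap ↥V E)) x)
    (hfrac : VtFrac (algebraMap ↥V E) x) : x ∈ tres5gPS (algebraMap ↥V E) :=
  tres5gh_normal _ hB.inj (tres5gh_cic _ hB (tres5gh_val_hval V hB)) hint hfrac

end Val

end Fermat.Agent.R38
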