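/-
ROW 38, TRES, piece FAC-GRED part 2, (P1), FINAL (helper16): THE CUSP `∞̄`, unconditional.

`K₀ ⊆ ℚ̄` with `A₀ = beta0Ring A K₀` a DVR with uniformizer `π` (e.g. `K₀ = mgcE A K₁`,
`A₀ = mgcA A K₁`; or `K₀ = beta0Field A`), `F = F_N(K₀) ⊆ K₀((q))`, chart `1/j`.

* `tres5gc_jinv_mem`, `tres5gc_jinv_coeff_zero` : `1/j ∈ q ℤ[[q]] ⊆ A[[q]]`.
* `tres5gc_hnorm`      : normality of `A₀[[q]]` (helper24's `tres5gh_normal_val`).
* `tres5gc_chart_fullC`: the chart `B_∞ = zchClosure {1/j}` has `q`-expansions in `A₀[[q]]`.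
* `tres5gcInf hπ N`    : **the cusp `𝔫_∞ : AtPt π (bgJ K₀ N)⁻¹`** (a definition), with
  `tres5gcInf_atLoc_mem` (`atLoc 𝔫_∞ ⊆ A₀[[q]]`), `tres5gcInf_mem_iff` (`b ∈ 𝔫_∞` iff the constant
  coefficient of `b` lies in `𝔪_{A₀}`), `tres5gcInf_jinv_mem` (`1/j ∈ 𝔫_∞`), `tres5gcInf_pi_mem`.
* `tres5gc_cusp_fullC` : (P1), existential form, any `K₀`.
* `tres5gc_cusp_mgc`   : **(P1)** in the setting of `tres5b_field` (`E′ = mgcE A K₁`).
-/
import Fermat.Agent.R38.TresGRedCuspInst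
import Fermat.Agent.R38.TresGRedHensel

set_option autoImplicit false
set_option linter.unusedSectionVars false
set_option linter.unusedVariables false
set_option linter.style.haveILetI false
set_option linter.style.longLine false
set_option synthInstance.maxHeartbeats 400000
set_option maxHeartbeats 1600000

noncomputable section

namespace Fermat.Agent.R38

open Fermat.Agent.UNIP Fermat.Agent.INJ ModularCurve Fermat.Agent.ES Fermat.Agent.ES.G2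

section JInv

variable {A E : Type*} [CommRing A] [Field E] (ι : A →+* E) (N : ℕ) [NeZero N]

theorem tres5gc_jNum_isUnit : IsUnit jNum :=
  PowerSeries.isUnit_iff_constantCoeff.2 (by rw [constantCoeff_jNum]; exact isUnit_one)

theorem tres5gc_castRingHom_eq : Int.castRingHom E = ι.comp (Int.castRingHom A) :=
  RingHom.ext_int _ _

/-- `1/j = q · jNum⁻¹` as a power series over `A` -/
theorem tres5gc_jq_inv_eq (U' : PowerSeries ℤ) (h : jNum * U' = 1) :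
    (jqModC E)⁻¹ = HahnSeries.ofPowerSeries ℤ E
      (((PowerSeries.X * U').map (Int.castRingHom A)).map ι) := by
  symm
  apply eq_inv_of_mul_eq_one_right
  have h1 : ((PowerSeries.X * U').map (Int.castRingHom A)).map ι
      = (PowerSeries.X * U').map (Int.castRingHom E) := by
    rw [tres5gc_castRingHom_eq ι]
    exact (congrFun (congrArg DFunLike.coe (PowerSeries.map_comp (Int.castRingHom A) ι)) _).symm
  rw [h1, jqModC, map_mul, PowerSeries.map_X, map_mul, HahnSeries.ofPowerSeries_X]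
  calc HahnSeries.single (-1 : ℤ) (1 : E) * HahnSeries.ofPowerSeries ℤ E
          (jNum.map (Int.castRingHom E)) *
        (HahnSeries.single (1 : ℤ) 1 * HahnSeries.ofPowerSeries ℤ E (U'.map (Int.castRingHom E)))
      = (HahnSeries.single (-1 : ℤ) (1 : E) * HahnSeries.single (1 : ℤ) 1) *
          HahnSeries.ofPowerSeries ℤ E ((jNum * U').map (Int.castRingHom E)) := by
        rw [map_mul, map_mul]; ring
    _ = 1 := by
        rw [h, HahnSeries.single_mul_single]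
        simp

/-- **`1/j ∈ A[[q]]`** -/
theorem tres5gc_jinv_mem :
    (((bgJ E N)⁻¹ : ↥(modularFunctionFieldFullC E N)) : LaurentSeries E) ∈ tres5gPS ι := by
  obtain ⟨U', hU'⟩ := isUnit_iff_exists_inv.mp tres5gc_jNum_isUnit
  have h : (((bgJ E N)⁻¹ : ↥(modularFunctionFieldFullC E N)) : LaurentSeries E)
      = (jqModC E)⁻¹ := rfl
  rw [h, tres5gc_jq_inv_eq ι U' hU']
  exact tres5g_ofPowerSeries_mem _

/-- **`1/j` has no constant term** -/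
theorem tres5gc_jinv_coeff_zero :
    ((((bgJ E N)⁻¹ : ↥(modularFunctionFieldFullC E N)) : LaurentSeries E)).coeff 0 = 0 := by
  obtain ⟨U', hU'⟩ := isUnit_iff_exists_inv.mp tres5gc_jNum_isUnit
  have h : (((bgJ E N)⁻¹ : ↥(modularFunctionFieldFullC E N)) : LaurentSeries E)
      = (jqModC E)⁻¹ := rfl
  rw [h, tres5gc_jq_inv_eq (RingHom.id E) U' hU']
  have h2 := HahnSeries.ofPowerSeries_apply_coeff (Γ := ℤ)
    (((PowerSeries.X * U').map (Int.castRingHom E)).map (RingHom.id E)) 0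
  rw [Nat.cast_zero] at h2
  rw [h2]
  simp

end JInv

section Final

variable {A : ValuationSubring Qb} {K₀ : IntermediateField ℚ Qb}
  [IsDiscreteValuationRing ↥(beta0Ring A K₀)] {π : ↥(beta0Ring A K₀)} (hπ : Irreducible π)
  (N : ℕ) [NeZero N]

include hπ in
/-- **normality of `A₀[[q]]`**, `A₀ = beta0Ring A K₀` a DVR -/
theorem tres5gc_hnorm : ∀ x : LaurentSeries ↥K₀,
    IsIntegral ↥(tres5gPS (algebraMap ↥(beta0Ring A K₀) ↥K₀)) x →
    VtFrac (algebraMap ↥(beta0Ring A K₀) ↥K₀) x →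
    x ∈ tres5gPS (algebraMap ↥(beta0Ring A K₀) ↥K₀) :=
  fun _ h1 h2 => tres5gh_normal_val (beta0Ring A K₀) (vtBase_residue hπ) h1 h2

include hπ in
/-- **the chart `B_∞ = zchClosure {1/j}` has `q`-expansions in `A₀[[q]]`** -/
theorem tres5gc_chart_fullC :
    ∀ b ∈ zchClosure (A₀ := ↥(beta0Ring A K₀))
        ({(bgJ ↥K₀ N)⁻¹} : Set ↥(modularFunctionFieldFullC ↥K₀ N)),
      vtEmb ↥K₀ N b ∈ tres5gPS (algebraMap ↥(beta0Ring A K₀) ↥K₀) :=
  tres5gc_chart_mem (vtEmb ↥K₀ N) (tres5gc_hnorm hπ) (tres5gc_vtEmb_frac hπ N)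
    (tres5gc_vtEmb_const N) (tres5gc_jinv_mem _ N)

/-- **THE CUSP `𝔫_∞`** of the chart `1/j` of `X₀(N)` over `A₀`. -/
def tres5gcInf : AtPt (F := ↥(modularFunctionFieldFullC ↥K₀ N)) π (bgJ ↥K₀ N)⁻¹ :=
  tres5gcPt hπ (tres5gc_vtEmb_const N) (tres5gc_chart_fullC hπ N)

/-- **`atLoc 𝔫_∞ ⊆ A₀[[q]]`** -/
theorem tres5gcInf_atLoc_mem (x : ↥(modularFunctionFieldFullC ↥K₀ N))
    (hx : x ∈ atLoc (tres5gcInf hπ N)) :
    ((x : ↥(modularFunctionFieldFullC ↥K₀ N)) : LaurentSeries ↥K₀) ∈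
      tres5gPS (algebraMap ↥(beta0Ring A K₀) ↥K₀) :=
  tres5gc_atLoc_mem hπ (tres5gc_vtEmb_const N) (tres5gc_chart_fullC hπ N) x hx

/-- `b ∈ 𝔫_∞` iff the constant coefficient of the `q`-expansion of `b` lies in `𝔪_{A₀}` -/
theorem tres5gcInf_mem_iff (b : ↥(zchClosure (A₀ := ↥(beta0Ring A K₀))
    ({(bgJ ↥K₀ N)⁻¹} : Set ↥(modularFunctionFieldFullC ↥K₀ N)))) :
    b ∈ (tres5gcInf hπ N).1 ↔
      ∃ a ∈ IsLocalRing.maximalIdeal ↥(beta0Ring A K₀),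
        algebraMap ↥(beta0Ring A K₀) ↥K₀ a =
          (((b : ↥(modularFunctionFieldFullC ↥K₀ N)) : LaurentSeries ↥K₀)).coeff 0 :=
  tres5gc_mem_pt_iff hπ (tres5gc_vtEmb_const N) (tres5gc_chart_fullC hπ N) b

/-- `1/j ∈ 𝔫_∞`: `𝔫_∞` is a cusp -/
theorem tres5gcInf_jinv_mem :
    (⟨(bgJ ↥K₀ N)⁻¹, tres5gc_self_mem (A₀ := ↥(beta0Ring A K₀)) _⟩ :
      ↥(zchClosure (A₀ := ↥(beta0Ring A K₀))
        ({(bgJ ↥K₀ N)⁻¹} : Set ↥(modularFunctionFieldFullC ↥K₀ N)))) ∈ (tres5gcInf hπ N).1 :=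
  tres5gc_gen_mem hπ (tres5gc_vtEmb_const N) (tres5gc_chart_fullC hπ N)
    (tres5gc_jinv_coeff_zero N)

/-- `π ∈ 𝔫_∞` -/
theorem tres5gcInf_pi_mem :
    algebraMap ↥(beta0Ring A K₀) ↥(zchClosure (A₀ := ↥(beta0Ring A K₀))
      ({(bgJ ↥K₀ N)⁻¹} : Set ↥(modularFunctionFieldFullC ↥K₀ N))) π ∈ (tres5gcInf hπ N).1 :=
  (tres5gcInf hπ N).2.2

include hπ in
/-- **(P1)**, existential form, any `K₀`. -/
theorem tres5gc_cusp_fullC :
    ∃ 𝔫 : AtPt (F := ↥(modularFunctionFieldFullC ↥K₀ N)) π (bgJ ↥K₀ N)⁻¹,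
      (∀ x ∈ atLoc 𝔫, ((x : ↥(modularFunctionFieldFullC ↥K₀ N)) : LaurentSeries ↥K₀) ∈
        tres5gPS (algebraMap ↥(beta0Ring A K₀) ↥K₀)) ∧
      (∀ b : ↥(zchClosure (A₀ := ↥(beta0Ring A K₀))
          ({(bgJ ↥K₀ N)⁻¹} : Set ↥(modularFunctionFieldFullC ↥K₀ N))), b ∈ 𝔫.1 ↔
        ∃ a ∈ IsLocalRing.maximalIdeal ↥(beta0Ring A K₀),
          algebraMap ↥(beta0Ring A K₀) ↥K₀ a =
            (((b : ↥(modularFunctionFieldFullC ↥K₀ N)) : LaurentSeries ↥K₀)).coeff 0) ∧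
      (∀ b : ↥(zchClosure (A₀ := ↥(beta0Ring A K₀))
          ({(bgJ ↥K₀ N)⁻¹} : Set ↥(modularFunctionFieldFullC ↥K₀ N))),
        (((b : ↥(modularFunctionFieldFullC ↥K₀ N)) : LaurentSeries ↥K₀)) ∈
          tres5gPS (algebraMap ↥(beta0Ring A K₀) ↥K₀)) ∧
      (⟨(bgJ ↥K₀ N)⁻¹, tres5gc_self_mem (A₀ := ↥(beta0Ring A K₀)) _⟩ :
        ↥(zchClosure (A₀ := ↥(beta0Ring A K₀))
          ({(bgJ ↥K₀ N)⁻¹} : Set ↥(modularFunctionFieldFullC ↥K₀ N)))) ∈ 𝔫.1 :=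
  tres5gc_cusp_fullC' hπ N (tres5gc_hnorm hπ) (tres5gc_jinv_mem _ N) (tres5gc_jinv_coeff_zero N)

end Final

section Mgc

variable {A : ValuationSubring Qb} {K₁ : IntermediateField ℚ Qb} {M p : ℕ} [NeZero M] [NeZero p]
  [NeZero (M * p)]
  [IsDiscreteValuationRing ↥(mgcA A K₁)] {π : ↥(mgcA A K₁)} (hπ : Irreducible π)

include hπ in
/-- **(P1)** in the setting of `R38.tres5b_field`: the cusp `∞̄` of the chart `1/j` over
`A′ = mgcA A K₁`, with `atLoc 𝔫_∞ ⊆ A′[[q]]`. -/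
theorem tres5gc_cusp_mgc :
    ∃ 𝔫 : AtPt (F := ↥(mgcF A K₁ (M * p))) π (mgcT A K₁ (M * p))⁻¹,
      ∀ x ∈ atLoc 𝔫, ((x : ↥(mgcF A K₁ (M * p))) : LaurentSeries ↥(mgcE A K₁)) ∈
        tres5gPS (algebraMap ↥(mgcA A K₁) ↥(mgcE A K₁)) :=
  ⟨tres5gcInf (K₀ := mgcE A K₁) hπ (M * p), tres5gcInf_atLoc_mem (K₀ := mgcE A K₁) hπ (M * p)⟩

end Mgc

end Fermat.Agent.R38
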