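/-
ROW 38, TRES, piece FAC-GRED (helper24), part 2c: THE KUMMER GENERATOR OF THE COVER IS A QUOTIENT
OF TWO SERIES OVER `A` (`hfracY` of helper53's (A)-instance, `R38/TresKFormInstV.lean`).

`A` a discrete valuation ring with uniformizer `π`, residue characteristic `p`, `E = Frac A`,
`ζ ∈ A` a primitive `p`-th root of unity.  `Y ∈ E((q))` with `Y ^ p = u`, and the LOCAL SHAPE AT
THE CUSP `∞̄`: `u / g ^ p − 1 = (ζ − 1) ^ p · π · y` with `y ∈ A[[q]]`, `g` a quotient of two
series over `A` (the output (P2) of `R38/TresGRedCuspShape.lean`).  Then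
`z = (Y / g − 1) / (ζ − 1)` is a root of `∏_{k<p} (Z − c_k) = π y` (`tres5b_root`), hence
`z ∈ A[[q]]` by Hensel (`tres5gh_split_laurent`), and `Y = g (1 + (ζ − 1) z)` is `VtFrac`.

* `tres5g_dvr_hloc/_hic/_hval/_hcic/_normal` : the hypotheses of `R38/TresGRedHensel.lean` for a
  discrete valuation ring (frame of `UNIP.vtBase_residue`); `tres5g_dvr_normal` = `hnorm` of the
  cusp (`R38/TresGRedCusp.lean`).
* `tres5g_dvr_hc`       : the roots `c_k` are pairwise distinct modulo `𝔪`.
* `tres5g_kummer_mem`   : `z ∈ A[[q]]`.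
* `tres5g_frac_kummer`  : `VtFrac (Y)` (Laurent series level).
* `tres5g_hfracY`       : the same for a cover `L ⊇ F` embedded in `E((q))`.
* `tres5g_hfrac_cover`  : `hfrac` for the whole cover `L = F(Y)`.
-/
import Fermat.Agent.R38.TresGRed
import Fermat.Agent.R38.TresGRedHensel
import Fermat.Agent.R38.TresBigAbs

set_option autoImplicit false
set_option linter.unusedSectionVars false
set_option linter.style.haveILetI false

noncomputable section

namespace Fermat.Agent.R38

open Polynomial Fermat.Agent.UNIP Fermat.Agent.INJ ModularCurve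

section DVR

variable {A E : Type*} [CommRing A] [IsDomain A] [IsDiscreteValuationRing A]
  [Field E] [Algebra A E] [IsFractionRing A E]

theorem tres5g_dvr_hloc (a : A) (ha : IsLocalRing.residue A a ≠ 0) : IsUnit a := by
  by_contra h
  exact ha ((IsLocalRing.residue_eq_zero_iff a).mpr ((IsLocalRing.mem_maximalIdeal a).mpr h))

theorem tres5g_dvr_hic (x : E) (p : A[X]) (hp : p.Monic)
    (hx : p.eval₂ (algebraMap A E) x = 0) : ∃ a : A, algebraMap A E a = x :=
  (IsIntegrallyClosed.isIntegral_iff (R := A) (K := E)).mp ⟨p, hp, hx⟩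

theorem tres5g_dvr_hval {π : A} (hπ : Irreducible π) (x : E) :
    (∃ a : A, algebraMap A E a = x) ∨ ∃ a : A, algebraMap A E (π * a) * x = 1 := by
  rcases eq_or_ne x 0 with rfl | hx0
  · exact Or.inl ⟨0, map_zero _⟩
  rcases ValuationRing.isInteger_or_isInteger A x with ⟨a, ha⟩ | ⟨b, hb⟩
  · exact Or.inl ⟨a, ha⟩
  by_cases hbu : IsUnit b
  · left
    obtain ⟨c, hc⟩ := isUnit_iff_exists_inv.mp hbu
    refine ⟨c, ?_⟩
    have h1 : algebraMap A E b * algebraMap A E c = 1 := by rw [← map_mul, hc, map_one]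
    rw [hb] at h1
    have h2 : x * (x⁻¹ * algebraMap A E c) = x := by rw [h1, mul_one]
    rwa [← mul_assoc, mul_inv_cancel₀ hx0, one_mul] at h2
  · right
    have hr : IsLocalRing.residue A b = 0 :=
      (IsLocalRing.residue_eq_zero_iff _).mpr ((IsLocalRing.mem_maximalIdeal _).mpr hbu)
    obtain ⟨a, ha⟩ := (vtBase_residue (E := E) hπ).ker _ hr
    refine ⟨a, ?_⟩
    rw [← ha, hb]
    exact inv_mul_cancel₀ hx0

/-- `A` is completely integrally closed in `E` -/
theorem tres5g_dvr_hcic {π : A} (hπ : Irreducible π) :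
    ∀ x d : E, d ≠ 0 → (∀ n : ℕ, ∃ a : A, algebraMap A E a = d * x ^ n) →
      ∃ a : A, algebraMap A E a = x :=
  tres5gh_cic _ (vtBase_residue (E := E) hπ) (tres5g_dvr_hval hπ)

/-- **normality of `A[[q]]`**: the hypothesis `hnorm` of the cusp (`R38/TresGRedCusp.lean`). -/
theorem tres5g_dvr_normal {π : A} (hπ : Irreducible π) {x : LaurentSeries E}
    (hint : IsIntegral ↥(tres5gPS (algebraMap A E)) x) (hfrac : VtFrac (algebraMap A E) x) :
    x ∈ tres5gPS (algebraMap A E) :=
  tres5gh_normal _ (IsFractionRing.injective A E) (tres5g_dvr_hcic hπ) hint hfrac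

/-- the roots `c_k = 1 + ζ + … + ζ^{k-1}`, `k < p`, are pairwise distinct modulo `𝔪` -/
theorem tres5g_dvr_hc {p : ℕ} (hp : p.Prime) (hpA : (p : A) ∈ IsLocalRing.maximalIdeal A)
    {ζ : A} (hζ : ζ ^ p = 1) (hlam : ζ - 1 ∈ IsLocalRing.maximalIdeal A) :
    ∀ i ∈ Finset.range p, ∀ j ∈ Finset.range p, i ≠ j →
      IsLocalRing.residue A (tres5bC ζ i) ≠ IsLocalRing.residue A (tres5bC ζ j) := by
  intro i hi j hj hij h
  rw [Finset.mem_range] at hi hj
  rcases Nat.lt_or_gt_of_ne hij with hlt | hlt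
  · have hu := tres5b_c_isUnit hp hpA hζ hlam hlt hj
    have h0 : IsLocalRing.residue A (tres5bC ζ j - tres5bC ζ i) = 0 := by
      rw [map_sub, h, sub_self]
    exact ((IsLocalRing.mem_maximalIdeal _).mp ((IsLocalRing.residue_eq_zero_iff _).mp h0)) hu
  · have hu := tres5b_c_isUnit hp hpA hζ hlam hlt hi
    have h0 : IsLocalRing.residue A (tres5bC ζ i - tres5bC ζ j) = 0 := by
      rw [map_sub, h, sub_self]
    exact ((IsLocalRing.mem_maximalIdeal _).mp ((IsLocalRing.residue_eq_zero_iff _).mp h0)) hu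

/-- **the split generator at the cusp lies in `A[[q]]`.** -/
theorem tres5g_kummer_mem {π : A} (hπ : Irreducible π) {p : ℕ} (hp : p.Prime)
    (hpA : (p : A) ∈ IsLocalRing.maximalIdeal A) {ζ : A} (hζ : IsPrimitiveRoot ζ p)
    (hlam : ζ - 1 ∈ IsLocalRing.maximalIdeal A)
    {Y u g : LaurentSeries E} (hg : g ≠ 0) (hY : Y ^ p = u) (y : PowerSeries A)
    (hu : u / g ^ p - 1 = HahnSeries.C (algebraMap A E ((ζ - 1) ^ p * π)) *
      HahnSeries.ofPowerSeries ℤ E (y.map (algebraMap A E))) :
    (Y / g - 1) / (HahnSeries.C (algebraMap A E ζ) - 1) ∈ tres5gPS (algebraMap A E) := by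
  have hinj : Function.Injective (algebraMap A E) := IsFractionRing.injective A E
  have hCinj : Function.Injective ((HahnSeries.C : E →+* LaurentSeries E).comp (algebraMap A E)) :=
    HahnSeries.C_injective.comp hinj
  have hζL : IsPrimitiveRoot (HahnSeries.C (algebraMap A E ζ) : LaurentSeries E) p :=
    hζ.map_of_injective hCinj
  have hu' : u / g ^ p - 1 = ((HahnSeries.C (algebraMap A E ζ) : LaurentSeries E) - 1) ^ p *
      (HahnSeries.C (algebraMap A E π) *
        HahnSeries.ofPowerSeries ℤ E (y.map (algebraMap A E))) := by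
    rw [hu, map_mul, map_pow, map_sub, map_one, map_mul, map_pow, map_sub, map_one, mul_assoc]
  have hroot := tres5b_root hp.two_le hζL hg hY hu'
  have hC : ∀ k : ℕ, tres5bC (HahnSeries.C (algebraMap A E ζ) : LaurentSeries E) k =
      HahnSeries.C (algebraMap A E (tres5bC ζ k)) := fun k =>
    (tres5bC_map ((HahnSeries.C : E →+* LaurentSeries E).comp (algebraMap A E)) ζ k).symm
  have hm : (HahnSeries.C (algebraMap A E π) : LaurentSeries E) *
      HahnSeries.ofPowerSeries ℤ E (y.map (algebraMap A E)) =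
      HahnSeries.ofPowerSeries ℤ E ((PowerSeries.C π * y).map (algebraMap A E)) := by
    rw [map_mul, map_mul, PowerSeries.map_C, HahnSeries.ofPowerSeries_C]
  refine tres5gh_split_laurent (algebraMap A E) hinj (IsLocalRing.residue A) tres5g_dvr_hloc
    tres5g_dvr_hic (Finset.range p) (fun k => tres5bC ζ k)
    (tres5g_dvr_hc hp hpA hζ.pow_eq_one hlam) (PowerSeries.C π * y) ?_ _ ?_
  · rw [map_mul, PowerSeries.constantCoeff_C, map_mul, (vtBase_residue (E := E) hπ).rπ, zero_mul]
  · rw [← hm, ← hroot]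
    exact Finset.prod_congr rfl fun k _ => by rw [hC]

/-- **`VtFrac` for the Kummer generator** (Laurent series level). -/
theorem tres5g_frac_kummer {π : A} (hπ : Irreducible π) {p : ℕ} (hp : p.Prime)
    (hpA : (p : A) ∈ IsLocalRing.maximalIdeal A) {ζ : A} (hζ : IsPrimitiveRoot ζ p)
    (hlam : ζ - 1 ∈ IsLocalRing.maximalIdeal A)
    {Y u g : LaurentSeries E} (hg : g ≠ 0) (hgf : VtFrac (algebraMap A E) g) (hY : Y ^ p = u)
    (y : PowerSeries A)
    (hu : u / g ^ p - 1 = HahnSeries.C (algebraMap A E ((ζ - 1) ^ p * π)) *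
      HahnSeries.ofPowerSeries ℤ E (y.map (algebraMap A E))) :
    VtFrac (algebraMap A E) Y := by
  have hinj : Function.Injective (algebraMap A E) := IsFractionRing.injective A E
  have hz := tres5g_kummer_mem hπ hp hpA hζ hlam hg hY y hu
  have hlam0 : (HahnSeries.C (algebraMap A E ζ) : LaurentSeries E) - 1 ≠ 0 := by
    have hCinj : Function.Injective
        ((HahnSeries.C : E →+* LaurentSeries E).comp (algebraMap A E)) :=
      HahnSeries.C_injective.comp hinj
    have hζL : IsPrimitiveRoot (HahnSeries.C (algebraMap A E ζ) : LaurentSeries E) p :=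
      hζ.map_of_injective hCinj
    exact sub_ne_zero.mpr (hζL.ne_one hp.one_lt)
  have hlamf : VtFrac (algebraMap A E) ((HahnSeries.C (algebraMap A E ζ) : LaurentSeries E) - 1) := by
    have e : (HahnSeries.C (algebraMap A E ζ) : LaurentSeries E) - 1 =
        HahnSeries.C (algebraMap A E (ζ - 1)) := by rw [map_sub, map_one, map_sub, map_one]
    rw [e]
    exact tres5g_PS_vtFrac (tres5g_C_mem _)
  rw [tres5b_Y_eq (Y := Y) hg hlam0]
  exact hgf.mul hinj (VtFrac.one.add hinj (hlamf.mul hinj (tres5g_PS_vtFrac hz)))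

end DVR

section Cover

variable {A E : Type*} [CommRing A] [IsDomain A] [IsDiscreteValuationRing A]
  [Field E] [Algebra A E] [IsFractionRing A E]
  {F L : Type*} [Field F] [Field L] [Algebra F L]
  (eF : F →+* LaurentSeries E) (eL : L →+* LaurentSeries E)

/-- **`hfracY`**: the Kummer generator `Y` of a cover `L ⊇ F` embedded in `E((q))` is a quotient
of two series over `A`, from the local shape of `u = Y ^ p` at the cusp `∞̄`. -/
theorem tres5g_hfracY (hcomp : ∀ a : F, eL (algebraMap F L a) = eF a)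
    (hfracF : ∀ a : F, VtFrac (algebraMap A E) (eF a))
    {π : A} (hπ : Irreducible π) {p : ℕ} (hp : p.Prime)
    (hpA : (p : A) ∈ IsLocalRing.maximalIdeal A) {ζ : A} (hζ : IsPrimitiveRoot ζ p)
    (hlam : ζ - 1 ∈ IsLocalRing.maximalIdeal A)
    {Y : L} {u g : F} (hg : g ≠ 0) (hY : Y ^ p = algebraMap F L u) (y : PowerSeries A)
    (hu : eF (u / g ^ p - 1) = HahnSeries.C (algebraMap A E ((ζ - 1) ^ p * π)) *
      HahnSeries.ofPowerSeries ℤ E (y.map (algebraMap A E))) :
    VtFrac (algebraMap A E) (eL Y) := by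
  refine tres5g_frac_kummer hπ hp hpA hζ hlam (Y := eL Y) (u := eF u) (g := eF g)
    ((map_ne_zero eF).mpr hg) (hfracF g) ?_ y ?_
  · rw [← map_pow, hY, hcomp]
  · rw [← hu, map_sub, map_div₀, map_pow, map_one]

/-- **`hfrac` for the whole cover** `L = F(Y)`. -/
theorem tres5g_hfrac_cover (hcomp : ∀ a : F, eL (algebraMap F L a) = eF a)
    (hfracF : ∀ a : F, VtFrac (algebraMap A E) (eF a))
    {π : A} (hπ : Irreducible π) {p : ℕ} (hp : p.Prime)
    (hpA : (p : A) ∈ IsLocalRing.maximalIdeal A) {ζ : A} (hζ : IsPrimitiveRoot ζ p)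
    (hlam : ζ - 1 ∈ IsLocalRing.maximalIdeal A)
    {Y : L} {u g : F} (hg : g ≠ 0) (hY : Y ^ p = algebraMap F L u) (y : PowerSeries A)
    (hu : eF (u / g ^ p - 1) = HahnSeries.C (algebraMap A E ((ζ - 1) ^ p * π)) *
      HahnSeries.ofPowerSeries ℤ E (y.map (algebraMap A E)))
    (htop : IntermediateField.adjoin F ({Y} : Set L) = ⊤) :
    ∀ x : L, VtFrac (algebraMap A E) (eL x) :=
  tres5g_frac_of_gen (vtBase_residue (E := E) hπ) eL
    (fun a => by rw [hcomp]; exact hfracF a)
    (tres5g_hfracY eF eL hcomp hfracF hπ hp hpA hζ hlam hg hY y hu) htop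

end Cover

end Fermat.Agent.R38
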