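/-
ROW 38, TRES, piece FAC-GRED (helper24), part 3a: THE CUSP SHAPE (P2) AND `hfracY`.

Setting of `R38.tres5b_field` (`R38/TresBig.lean`): `E′ = mgcE A K₁`, `A′ = mgcA A K₁` a discrete
valuation ring with uniformizer `π`, `F′ = mgcF A K₁ (M p)`, `ζ ∈ A′` a primitive `p`-th root of
unity, `𝔫_∞ = tres5gcInf hπ (M p)` the cusp `∞̄` of the chart `1/j` (helper16).

* `tres5g_shape_of_pt`  : **(P2)** ONE instance of the conclusion of `tres5b_field` / `tres5b_bar`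
      (at `i = Sum.inr 𝔫_∞`) gives `u₀ / g ^ p − 1 = (ζ − 1) ^ p π y` with `y ∈ A′[[q]]`.
* `tres5g_hfracY_of_shape` : **`hfracY`**: for every field `L ⊇ F′` embedded in `E′((q))` and
      `Y ∈ L` with `Y ^ p = u₀`, the series of `Y` is a quotient of two series over `A′`.
* `tres5g_hfrac_cover_of_shape` : `hfrac` of the cover `L = F′(Y)`: the Gauss sheet
      `W₀ = vtSub (vtBase_residue hπ) eL hfrac` exists (`R38/TresGRed.lean`, `tres5g_gauss_*`).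
-/
import Fermat.Agent.R38.TresGRedMain
import Fermat.Agent.R38.TresGRedCuspFinal

set_option autoImplicit false
set_option linter.style.haveILetI false
set_option linter.unusedSectionVars false
set_option linter.unusedVariables false

noncomputable section

namespace Fermat.Agent.R38

open ModularCurve AlgebraicCurve Fermat.Agent.ES Fermat.Agent.ES.G2 Fermat.Agent.INJ
open Fermat.Agent.UNIP IntermediateField

section Mgc

variable {A : ValuationSubring Qb} {K₁ : IntermediateField ℚ Qb} {M p : ℕ} [NeZero M] [NeZero p]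
  [NeZero (M * p)]
  [IsDiscreteValuationRing ↥(mgcA A K₁)] {π : ↥(mgcA A K₁)} (hπ : Irreducible π)
  (hp : p.Prime)

/-- the `q`-expansion of a constant of `A′` -/
theorem tres5g_coe_algebraMap_mgc (a : ↥(mgcA A K₁)) :
    ((algebraMap ↥(mgcA A K₁) ↥(mgcF A K₁ (M * p)) a : ↥(mgcF A K₁ (M * p))) :
      LaurentSeries ↥(mgcE A K₁)) = HahnSeries.C (algebraMap ↥(mgcA A K₁) ↥(mgcE A K₁) a) :=
  tres5gc_vtEmb_const (K₀ := mgcE A K₁) (M * p) (algebraMap ↥(mgcA A K₁) ↥(mgcE A K₁) a)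

/-- **(P2), from the shape at the point `𝔫_∞`** (one instance of the conclusion of
`tres5b_field` / `tres5b_bar`). -/
theorem tres5g_shape_of_pt {ζ : ↥(mgcA A K₁)} {u₀ : ↥(mgcF A K₁ (M * p))}
    (hpt : ∃ g : ↥(mgcF A K₁ (M * p)), g ≠ 0 ∧
      ∃ y ∈ atO π (mgcT A K₁ (M * p)) (Sum.inr (tres5gcInf (K₀ := mgcE A K₁) hπ (M * p))),
        u₀ / g ^ p - 1 =
          (algebraMap ↥(mgcA A K₁) ↥(mgcF A K₁ (M * p)) ζ - 1) ^ p *
            algebraMap ↥(mgcA A K₁) ↥(mgcF A K₁ (M * p)) π * y) :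
    ∃ g : ↥(mgcF A K₁ (M * p)), g ≠ 0 ∧ ∃ y : PowerSeries ↥(mgcA A K₁),
      (((u₀ / g ^ p - 1 : ↥(mgcF A K₁ (M * p))) : ↥(mgcF A K₁ (M * p))) :
        LaurentSeries ↥(mgcE A K₁)) =
        HahnSeries.C (algebraMap ↥(mgcA A K₁) ↥(mgcE A K₁) ((ζ - 1) ^ p * π)) *
          HahnSeries.ofPowerSeries ℤ ↥(mgcE A K₁)
            (y.map (algebraMap ↥(mgcA A K₁) ↥(mgcE A K₁))) := by
  obtain ⟨g, hg, y₁, hy₁, hshape⟩ := hpt
  have hy₁' : y₁ ∈ atLoc (tres5gcInf (K₀ := mgcE A K₁) hπ (M * p)) := hy₁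
  obtain ⟨y, hy⟩ := tres5gcInf_atLoc_mem (K₀ := mgcE A K₁) hπ (M * p) y₁ hy₁'
  refine ⟨g, hg, y, ?_⟩
  rw [hshape]
  have e : (((algebraMap ↥(mgcA A K₁) ↥(mgcF A K₁ (M * p)) ζ - 1) ^ p *
      algebraMap ↥(mgcA A K₁) ↥(mgcF A K₁ (M * p)) π * y₁ : ↥(mgcF A K₁ (M * p))) :
        LaurentSeries ↥(mgcE A K₁)) =
      ((algebraMap ↥(mgcA A K₁) ↥(mgcF A K₁ (M * p)) ((ζ - 1) ^ p * π) :
          ↥(mgcF A K₁ (M * p))) : LaurentSeries ↥(mgcE A K₁)) *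
        ((y₁ : ↥(mgcF A K₁ (M * p))) : LaurentSeries ↥(mgcE A K₁)) := by
    rw [map_mul, map_pow, map_sub, map_one]
    rfl
  rw [e, tres5g_coe_algebraMap_mgc]
  congr 1
  exact hy.symm

include hπ hp in
/-- **`hfracY`, from the shape (P2).** -/
theorem tres5g_hfracY_of_shape
    (hpA : ((p : ℕ) : ↥(mgcA A K₁)) ∈ IsLocalRing.maximalIdeal ↥(mgcA A K₁))
    {ζ : ↥(mgcA A K₁)} (hζ : IsPrimitiveRoot ζ p)
    (hlam : ζ - 1 ∈ IsLocalRing.maximalIdeal ↥(mgcA A K₁))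
    {u₀ : ↥(mgcF A K₁ (M * p))}
    (hshape : ∃ g : ↥(mgcF A K₁ (M * p)), g ≠ 0 ∧ ∃ y : PowerSeries ↥(mgcA A K₁),
      (((u₀ / g ^ p - 1 : ↥(mgcF A K₁ (M * p))) : ↥(mgcF A K₁ (M * p))) :
        LaurentSeries ↥(mgcE A K₁)) =
        HahnSeries.C (algebraMap ↥(mgcA A K₁) ↥(mgcE A K₁) ((ζ - 1) ^ p * π)) *
          HahnSeries.ofPowerSeries ℤ ↥(mgcE A K₁)
            (y.map (algebraMap ↥(mgcA A K₁) ↥(mgcE A K₁))))
    {L : Type*} [Field L] [Algebra ↥(mgcF A K₁ (M * p)) L]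
    (eL : L →+* LaurentSeries ↥(mgcE A K₁))
    (hcomp : ∀ a : ↥(mgcF A K₁ (M * p)),
      eL (algebraMap ↥(mgcF A K₁ (M * p)) L a) = (a : LaurentSeries ↥(mgcE A K₁)))
    {Y : L} (hY : Y ^ p = algebraMap ↥(mgcF A K₁ (M * p)) L u₀) :
    VtFrac (algebraMap ↥(mgcA A K₁) ↥(mgcE A K₁)) (eL Y) := by
  obtain ⟨g, hg, y, hy⟩ := hshape
  exact tres5g_hfracY (vtEmb ↥(mgcE A K₁) (M * p)) eL hcomp
    (tres5gc_vtEmb_frac (K₀ := mgcE A K₁) hπ (M * p)) hπ hp hpA hζ hlam hg hY y hy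

include hπ hp in
/-- **`hfrac` of the cover, from the shape (P2).** -/
theorem tres5g_hfrac_cover_of_shape
    (hpA : ((p : ℕ) : ↥(mgcA A K₁)) ∈ IsLocalRing.maximalIdeal ↥(mgcA A K₁))
    {ζ : ↥(mgcA A K₁)} (hζ : IsPrimitiveRoot ζ p)
    (hlam : ζ - 1 ∈ IsLocalRing.maximalIdeal ↥(mgcA A K₁))
    {u₀ : ↥(mgcF A K₁ (M * p))}
    (hshape : ∃ g : ↥(mgcF A K₁ (M * p)), g ≠ 0 ∧ ∃ y : PowerSeries ↥(mgcA A K₁),
      (((u₀ / g ^ p - 1 : ↥(mgcF A K₁ (M * p))) : ↥(mgcF A K₁ (M * p))) :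
        LaurentSeries ↥(mgcE A K₁)) =
        HahnSeries.C (algebraMap ↥(mgcA A K₁) ↥(mgcE A K₁) ((ζ - 1) ^ p * π)) *
          HahnSeries.ofPowerSeries ℤ ↥(mgcE A K₁)
            (y.map (algebraMap ↥(mgcA A K₁) ↥(mgcE A K₁))))
    {L : Type*} [Field L] [Algebra ↥(mgcF A K₁ (M * p)) L]
    (eL : L →+* LaurentSeries ↥(mgcE A K₁))
    (hcomp : ∀ a : ↥(mgcF A K₁ (M * p)),
      eL (algebraMap ↥(mgcF A K₁ (M * p)) L a) = (a : LaurentSeries ↥(mgcE A K₁)))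
    {Y : L} (hY : Y ^ p = algebraMap ↥(mgcF A K₁ (M * p)) L u₀)
    (htop : IntermediateField.adjoin ↥(mgcF A K₁ (M * p)) ({Y} : Set L) = ⊤) :
    ∀ x : L, VtFrac (algebraMap ↥(mgcA A K₁) ↥(mgcE A K₁)) (eL x) :=
  tres5g_frac_of_gen (vtBase_residue hπ) eL
    (fun a => by rw [hcomp]; exact tres5gc_vtEmb_frac (K₀ := mgcE A K₁) hπ (M * p) a)
    (tres5g_hfracY_of_shape hπ hp hpA hζ hlam hshape eL hcomp hY) htop

end Mgc

end Fermat.Agent.R38
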