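import Fermat.Agent.R38.TresBigInstV
import Fermat.Agent.R38.TresGRedShape
import Fermat.Agent.R38.TresFixFV

/-!
# ROW 38, TRES, piece FAC-BIG (helper16), part 5: THE `T`-INSTANCE at `V_∞`

helper29 / helper53's K-FORM descent at `V_∞` (`tres5ff_kiv_descend_cyclo`, `tres5kiv_descend`)
with ALL its inputs over the big field `E = mgcE A K₁ = ℚ̄^I K₁` discharged:

* `S`, `hSy`, `hSζ` : FAC-BIG instance (`tres5biv_frame`, `tres5bivKum`, `R38/TresBigInstV.lean`);
* `hfracY` : helper24's `tres5g_hfracY_of_shape` at the cusp `𝔫_∞ = tres5gcInf` of the chart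
  `1 / j` (`tres5bit_hfracY`);
* `hE`, `hfin` : `tres5ff_mgcE_stable`, `tres5ff_mgcE_finite` (helper29).

* `tres5bit_descend` : for a Kummer function `w₀` of a toric class `z₀` (`τ z₀ = χ(τ) z₀` on
  inertia), `y ^ q = w₀`, with the four facts (IN) at the frame level `M q` (`q ∣ div w₀`, `w₀`
  split, `w₀` not a `q`-th power): there is a number field `K₀` such that over every number field
  `K₁ ⊇ K₀`, Galois over `ℚ`, for all uniformizers `π` of `A ∩ E`, `π₀` of `A ∩ K`, all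
  `ιC`, `ιC₀` and every primitive `q`-th root of unity `ζ ∈ A ∩ E`:
  the split Kummer datum `S` of `L_E / F_{Mq}(E)` at `V_∞`, and the descended split generator
  `T : Tres5Gen F_K L_K V_∞ q` with the nine conclusions of `tres5kiv_descend`; moreover the model
  `u₀ = S.w` has the Kummer shape at every closed point of both `E`-charts.
* `tres5bit_exists` : such `K₁` and `ζ` exist (above any given number field).
-/

set_option autoImplicit false
set_option linter.style.haveILetI false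
set_option linter.unusedSectionVars false
set_option linter.unusedVariables false

noncomputable section

namespace Fermat.Agent.R38

open ModularCurve AlgebraicCurve Fermat.Agent.ES Fermat.Agent.ES.G2 Fermat.Agent.INJ
open Fermat.Agent.UNIP Fermat.Agent.STB Fermat.Agent.S33 IntermediateField

section Frac

variable {A : ValuationSubring Qb} {K₁ : IntermediateField ℚ Qb} {q M : ℕ} [NeZero q] [NeZero M]
  [NeZero (M * q)]
  [IsDiscreteValuationRing ↥(mgcA A K₁)] {π : ↥(mgcA A K₁)} (hπ : Irreducible π)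
  (hq : q.Prime) (hA : A.LiesOverPrime q)
  {ζ : ↥(mgcA A K₁)} (hζ : IsPrimitiveRoot ζ q)
  {y : LaurentSeries NfQb} {u₀ : ↥(mgcF A K₁ (M * q))}

include hπ hq hA hζ in
/-- **`hfracY`** for every `q`-th root `Y ∈ L_E` of `u₀`, from the Kummer shape of `u₀` at the
cusp `𝔫_∞` of the chart `1 / j`. -/
theorem tres5bit_hfracY
    (hpt : ∃ g : ↥(mgcF A K₁ (M * q)), g ≠ 0 ∧
      ∃ y' ∈ atO π (mgcT A K₁ (M * q)) (Sum.inr (tres5gcInf (K₀ := mgcE A K₁) hπ (M * q))),
        u₀ / g ^ q - 1 =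
          (algebraMap ↥(mgcA A K₁) ↥(mgcF A K₁ (M * q)) ζ - 1) ^ q *
            algebraMap ↥(mgcA A K₁) ↥(mgcF A K₁ (M * q)) π * y')
    {Y : ↥(tres5cL (mgcE A K₁) (M * q) y)}
    (hY : Y ^ q = algebraMap ↥(mgcF A K₁ (M * q)) ↥(tres5cL (mgcE A K₁) (M * q) y) u₀) :
    VtFrac (algebraMap ↥(mgcA A K₁) ↥(mgcE A K₁)) (Y : LaurentSeries ↥(mgcE A K₁)) := by
  have hpA : ((q : ℕ) : ↥(mgcA A K₁)) ∈ IsLocalRing.maximalIdeal ↥(mgcA A K₁) := by
    rw [hπ.maximalIdeal_eq]
    exact Ideal.mem_span_singleton.2 (wmg_dvd_p hπ hA)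
  have hlam : ζ - 1 ∈ IsLocalRing.maximalIdeal ↥(mgcA A K₁) := by
    rw [hπ.maximalIdeal_eq]
    exact Ideal.mem_span_singleton.2 (wtop_hlam hπ hq hA hζ.pow_eq_one)
  exact tres5g_hfracY_of_shape hπ hq hpA hζ hlam (tres5g_shape_of_pt hπ hpt)
    (tres5kivEmb (E := mgcE A K₁) (M * q) y) (fun a => rfl) hY

end Frac

section Main

variable {q M : ℕ} [NeZero q] [NeZero M] [NeZero (M * q)]

set_option synthInstance.maxHeartbeats 400000 in
set_option maxHeartbeats 1600000 in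
/-- **THE `T`-INSTANCE at `V_∞`.**  The K-FORM descent of the cover `F′ = F̄_{Mq}(y)`,
`y ^ q = w₀`, at `V_∞`, all inputs over the big field discharged. -/
theorem tres5bit_descend [Fact q.Prime] (hq : q.Prime) (hqM : ¬ q ∣ M) (hq3 : 3 ≤ q)
    (h3 : q = 3 → 2 ∣ M) (A : ValuationSubring Qb) (hA : A.LiesOverPrime q)
    {N : ℕ} [NeZero N] {z₀ : JZero N} {w₀ : modularFunctionFieldBar N}
    (hw : KummerRel q z₀ w₀) {y : LaurentSeries NfQb}
    (hy : y ^ q = (w₀ : LaurentSeries NfQb))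
    (hle : modularFunctionFieldBar N ≤ modularFunctionFieldBar (M * q))
    (htor : ∀ τ ∈ A.inertiaSubgroupIn ℚ, τ • z₀ = ExtCitation.cycloExp q τ • z₀)
    (hdiv : ∀ P : Place Qb (modularFunctionFieldBar (M * q)),
      (q : ℤ) ∣ P.ord (⟨(w₀ : LaurentSeries NfQb), hle w₀.2⟩ : modularFunctionFieldBar (M * q)))
    (hsplit : IsSplitFn hq hqM A
      (⟨(w₀ : LaurentSeries NfQb), hle w₀.2⟩ : modularFunctionFieldBar (M * q)))
    (hnp : ∀ c : ↥(modularFunctionFieldBar (M * q)),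
      c ^ q ≠ (⟨(w₀ : LaurentSeries NfQb), hle w₀.2⟩ : modularFunctionFieldBar (M * q))) :
    ∃ K₀ : IntermediateField ℚ Qb, FiniteDimensional ℚ K₀ ∧
      ∀ (K₁ : IntermediateField ℚ Qb), K₀ ≤ K₁ → ∀ [NumberField K₁] [IsGalois ℚ K₁]
        [IsDiscreteValuationRing ↥(mgcA A K₁)]
        [IsDiscreteValuationRing ↥(beta0Ring A (beta0Field A))]
        {π : ↥(mgcA A K₁)} (hπ : Irreducible π)
        {π₀ : ↥(beta0Ring A (beta0Field A))} (hπ₀ : Irreducible π₀)
        (ιC : ↥(mgcE A K₁) →+* ℂ) (ιC₀ : ↥(beta0Field A) →+* ℂ)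
        {ζ : ↥(mgcA A K₁)}, IsPrimitiveRoot ζ q →
        ∃ (u₀ : ↥(mgcF A K₁ (M * q))) (yE : LaurentSeries ↥(mgcE A K₁))
          (hyE : coeffMap (algebraMap ↥(mgcE A K₁) NfQb) yE = y)
          (S : Tres5Kum ↥(mgcF A K₁ (M * q)) ↥(tres5cL (mgcE A K₁) (M * q) y)
            (mgvV hπ ιC hq hqM true) q)
          (hfracY : VtFrac (algebraMap ↥(mgcA A K₁) ↥(mgcE A K₁))
            ((S.y : ↥(tres5cL (mgcE A K₁) (M * q) y)) : LaurentSeries ↥(mgcE A K₁)))
          (T : Tres5Gen ↥(modularFunctionFieldFullC ↥(beta0Field A) (M * q))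
            ↥(tres5cL (beta0Field A) (M * q) y) (mgvV hπ₀ ιC₀ hq hqM true) q)
          (ρK : ↥(tres5cL (beta0Field A) (M * q) y) →ₐ[↥(modularFunctionFieldFullC
            ↥(beta0Field A) (M * q))] ↥(tres5cL (beta0Field A) (M * q) y)),
          -- the Kummer datum over `E`
          (((nfEmb (mgcE A K₁) (M * q) u₀ : modularFunctionFieldBar (M * q)) :
              LaurentSeries NfQb) = (w₀ : LaurentSeries NfQb) ∧
            yE ^ q = (u₀ : LaurentSeries ↥(mgcE A K₁)) ∧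
            (∀ a : ↥(mgcF A K₁ (M * q)), a ^ q ≠ u₀) ∧
            S.ζ = algebraMap ↥(mgcA A K₁) ↥(mgcF A K₁ (M * q)) ζ ∧
            S.π = algebraMap ↥(mgcA A K₁) ↥(mgcF A K₁ (M * q)) π ∧
            S.w = u₀ ∧
            S.y = tres5cGenL (mgcE A K₁) (M * q) y hyE ∧
            ∃ y' ∈ mgvV hπ ιC hq hqM true,
              u₀ / S.g ^ q - 1 =
                (algebraMap ↥(mgcA A K₁) ↥(mgcF A K₁ (M * q)) ζ - 1) ^ q *
                  algebraMap ↥(mgcA A K₁) ↥(mgcF A K₁ (M * q)) π * y') ∧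
          -- the nine conclusions of `tres5kiv_descend`
          (T.π = algebraMap ↥(beta0Ring A (beta0Field A))
              ↥(modularFunctionFieldFullC ↥(beta0Field A) (M * q)) π₀ ∧
            (∀ k, T.c k = ((k : ℕ) : ↥(mgvV hπ₀ ιC₀ hq hqM true))) ∧
            (∀ k < q, tres5cIncl (M * q) y (le_sup_left : beta0Field A ≤ mgcE A K₁) T.z -
                ((k : ℕ) : ↥(tres5cL (mgcE A K₁) (M * q) y)) ∈ (S.gen.W k).nonunits) ∧
            (∀ k < q, T.W k = (S.gen.W k).comap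
              (tres5cIncl (M * q) y (le_sup_left : beta0Field A ≤ mgcE A K₁))) ∧
            (∃ k₀ < q,
              tres5kivW hπ (M * q) y (tres5kiv_frac hπ (M * q) y S.htop hfracY) = S.gen.W k₀ ∧
              T.W k₀ = (tres5kivW hπ (M * q) y
                (tres5kiv_frac hπ (M * q) y S.htop hfracY)).comap
                  (tres5cIncl (M * q) y (le_sup_left : beta0Field A ≤ mgcE A K₁))) ∧
            (∀ f : ↥(tres5cL (beta0Field A) (M * q) y),
              tres5cIncl (M * q) y (le_sup_left : beta0Field A ≤ mgcE A K₁) (ρK f) =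
                S.deck (tres5cIncl (M * q) y (le_sup_left : beta0Field A ≤ mgcE A K₁) f)) ∧
            (∀ k < q, (T.W k).comap
              (ρK : ↥(tres5cL (beta0Field A) (M * q) y) →+*
                ↥(tres5cL (beta0Field A) (M * q) y)) = T.W ((k + 1) % q)) ∧
            Module.finrank ↥(modularFunctionFieldFullC ↥(beta0Field A) (M * q))
              ↥(tres5cL (beta0Field A) (M * q) y) = q ∧
            IntermediateField.adjoin ↥(mgcF A K₁ (M * q))
              {tres5cIncl (M * q) y (le_sup_left : beta0Field A ≤ mgcE A K₁) T.z} = ⊤) ∧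
          -- the Kummer shape of the SAME model at the closed points of both charts
          (∀ i, ∃ g : ↥(mgcF A K₁ (M * q)), g ≠ 0 ∧ ∃ y' ∈ atO π (mgcT A K₁ (M * q)) i,
            u₀ / g ^ q - 1 =
              (algebraMap ↥(mgcA A K₁) ↥(mgcF A K₁ (M * q)) ζ - 1) ^ q *
                algebraMap ↥(mgcA A K₁) ↥(mgcF A K₁ (M * q)) π * y') := by
  have hu : (⟨(w₀ : LaurentSeries NfQb), hle w₀.2⟩ : modularFunctionFieldBar (M * q)) ≠ 0 := by
    intro h0
    have h1 : (w₀ : LaurentSeries NfQb) = 0 :=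
      congrArg (fun z : modularFunctionFieldBar (M * q) => (z : LaurentSeries NfQb)) h0
    exact hw.ne_zero (Subtype.ext h1)
  obtain ⟨K₀, hK₀, hfr⟩ := tres5biv_frame hq hqM hq3 h3 A hA
    (⟨(w₀ : LaurentSeries NfQb), hle w₀.2⟩ : modularFunctionFieldBar (M * q)) hu hdiv hsplit
    (y := y) hy
  refine ⟨K₀, hK₀, fun K₁ hK₁ _ _ _ _ π hπ π₀ hπ₀ ιC ιC₀ ζ hζ => ?_⟩
  obtain ⟨u₀, yE, hu₀, hyE, hyu, hv, hpt⟩ := hfr K₁ hK₁ hπ hζ
  have hw' : ∀ a : ↥(mgcF A K₁ (M * q)), a ^ q ≠ u₀ :=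
    tres5c_hw_of_bar (mgcE A K₁) (M * q) (by rw [hu₀]; exact hnp)
  obtain ⟨g, hg, y', hy', hs⟩ := hv ιC true
  have hfracY : VtFrac (algebraMap ↥(mgcA A K₁) ↥(mgcE A K₁))
      (((tres5bivKum hπ ιC hq hqM hζ true hyE hyu hg hy' hs hw').y :
        ↥(tres5cL (mgcE A K₁) (M * q) y)) : LaurentSeries ↥(mgcE A K₁)) :=
    tres5bit_hfracY hπ hq hA hζ (hpt (Sum.inr (tres5gcInf (K₀ := mgcE A K₁) hπ (M * q))))
      (tres5bivKum hπ ιC hq hqM hζ true hyE hyu hg hy' hs hw').hy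
  obtain ⟨T, ρK, hT⟩ := tres5ff_kiv_descend_cyclo hπ₀ hπ ιC₀ ιC hq hqM hA
    (le_sup_left : beta0Field A ≤ mgcE A K₁) hw hy hle htor (tres5ff_mgcE_stable K₁)
    (tres5ff_mgcE_finite K₁ hq hA) (tres5bivKum hπ ιC hq hqM hζ true hyE hyu hg hy' hs hw')
    hyE (tres5bivKum_coeffMap_ζ hπ ιC hq hqM hζ true hyE hyu hg hy' hs hw') hfracY
  exact ⟨u₀, yE, hyE, tres5bivKum hπ ιC hq hqM hζ true hyE hyu hg hy' hs hw', hfracY, T, ρK,
    ⟨congrArg Subtype.val hu₀, hyu, hw', rfl, rfl, rfl, rfl, y', hy', hs⟩, hT, hpt⟩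

end Main

section Exists

variable {q : ℕ}

/-- **The big field exists**: above every number field `Kz` there is a number field `K₁`,
Galois over `ℚ`, with a primitive `q`-th root of unity `ζ ∈ A ∩ E`, `E = mgcE A K₁`; `A ∩ E` and
`A ∩ K` are discrete valuation rings. -/
theorem tres5bit_exists (hq : q.Prime) (A : ValuationSubring Qb) (hA : A.LiesOverPrime q)
    (Kz : IntermediateField ℚ Qb) (hKz : FiniteDimensional ℚ Kz) :
    ∃ (K₁ : IntermediateField ℚ Qb) (_ : NumberField K₁) (_ : IsGalois ℚ K₁)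
      (_ : IsDiscreteValuationRing ↥(mgcA A K₁))
      (_ : IsDiscreteValuationRing ↥(beta0Ring A (beta0Field A)))
      (ζ : ↥(mgcA A K₁)), Kz ≤ K₁ ∧ IsPrimitiveRoot ζ q := by
  classical
  haveI := Fermat.Agent.Common.isAlgClosure_rat_qbar
  haveI : NeZero ((q : ℕ) : Qb) := ⟨Nat.cast_ne_zero.mpr hq.ne_zero⟩
  obtain ⟨ζ', hζ'⟩ : ∃ ζ' : Qb, IsPrimitiveRoot ζ' q :=
    HasEnoughRootsOfUnity.exists_primitiveRoot Qb q
  have hζint : IsIntegral ℚ ζ' := (AlgebraicClosure.isAlgebraic ℚ).isIntegral.isIntegral ζ'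
  haveI : FiniteDimensional ℚ (IntermediateField.adjoin ℚ {ζ'}) :=
    IntermediateField.adjoin.finiteDimensional hζint
  haveI := hKz
  set K₃ : IntermediateField ℚ Qb := Kz ⊔ IntermediateField.adjoin ℚ {ζ'} with hK₃
  haveI hK₃fin : FiniteDimensional ℚ K₃ := IntermediateField.finiteDimensional_sup _ _
  set K₁ : IntermediateField ℚ Qb := IntermediateField.normalClosure ℚ K₃ Qb with hK₁
  have hle : K₃ ≤ K₁ := IntermediateField.le_normalClosure K₃
  haveI hK₁fin : FiniteDimensional ℚ K₁ := normalClosure.is_finiteDimensional ℚ K₃ Qb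
  haveI : Normal ℚ K₁ := normalClosure.normal ℚ K₃ Qb
  have hgal : IsGalois ℚ K₁ := IsGalois.mk
  have hnf : NumberField K₁ := @NumberField.mk _ _ inferInstance hK₁fin
  have hζK : ζ' ∈ mgcE A K₁ :=
    (le_sup_right : K₁ ≤ mgcE A K₁)
      (hle ((le_sup_right : IntermediateField.adjoin ℚ {ζ'} ≤ K₃)
        (IntermediateField.mem_adjoin_simple_self ℚ ζ')))
  exact ⟨K₁, hnf, hgal, beta0Ring_isDVR_sup K₁ hq hA, beta0Ring_isDVR_base hq hA,
    wmgZeta (A := A) hq.ne_zero hζ'.pow_eq_one hζK, le_sup_left.trans hle,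
    wmg_zeta_prim hq hζ' hζK⟩

end Exists

end Fermat.Agent.R38

end
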