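import Fermat.Agent.R38.TresCoverConc
import Fermat.Agent.INJ.NFEmb

/-!
# R38 TRES, (FAC-p), piece ASM-COV, part 2 (TresCoverForm): the concrete cover `F′ = F_N(ℚ̄)(y) ⊂ ℚ̄((q))`

* `tres5cField N y : IntermediateField ℚ̄ ℚ̄((q))` — `F′ = F_N(ℚ̄)(y)` (helper30's `Fb′`);
* `tres5cL E N y : IntermediateField ↥F_N(E) E((q))` — the `E`-form `L_E = F′ ∩ E((q))` of the
  cover, for every intermediate field `E` of `ℚ̄ / ℚ`; `L_K` for `K = beta0Field A` is the
  function field of the cover over `K = ℚ̄^I`;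
* `tres5cEmb E N y : L_E →+* F′`, `tres5cIncl h : L_K →+* L_E` (`K ≤ E`).
-/

set_option autoImplicit false
set_option linter.style.haveILetI false
set_option linter.unusedSectionVars false

noncomputable section

open ModularCurve Fermat.Agent.INJ IntermediateField

namespace Fermat.Agent.R38

/-- The cover field `F′ = F_N(ℚ̄)(y) ⊂ ℚ̄((q))`. -/
def tres5cField (N : ℕ) (y : LaurentSeries NfQb) : IntermediateField NfQb (LaurentSeries NfQb) :=
  IntermediateField.adjoin NfQb ((modularFunctionFieldBar N : Set (LaurentSeries NfQb)) ∪ {y})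

theorem tres5c_bar_le (N : ℕ) (y : LaurentSeries NfQb) :
    modularFunctionFieldBar N ≤ tres5cField N y := fun _ hx =>
  IntermediateField.subset_adjoin _ _ (Or.inl hx)

theorem tres5c_y_mem (N : ℕ) (y : LaurentSeries NfQb) : y ∈ tres5cField N y :=
  IntermediateField.subset_adjoin _ _ (Or.inr rfl)

variable (E : IntermediateField ℚ NfQb) (N : ℕ) (y : LaurentSeries NfQb)

/-- **The `E`-form of the cover**: `L_E = F′ ∩ E((q))`, an intermediate field of
`E((q)) / F_N(E)`. -/
def tres5cL : IntermediateField ↥(modularFunctionFieldFullC ↥E N) (LaurentSeries ↥E) :=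
  tres5cForm (algebraMap ↥E NfQb) (modularFunctionFieldFullC ↥E N) (tres5cField N y).toSubfield
    (fun _ hx => tres5c_bar_le N y (nf_coeffMap_mem_bar E N hx))

theorem mem_tres5cL {f : LaurentSeries ↥E} :
    f ∈ tres5cL E N y ↔ coeffMap (algebraMap ↥E NfQb) f ∈ tres5cField N y := Iff.rfl

theorem tres5cL_base_mem (x : ↥(modularFunctionFieldFullC ↥E N)) :
    (x : LaurentSeries ↥E) ∈ tres5cL E N y :=
  tres5c_bar_le N y (nf_coeffMap_mem_bar E N x.2)

/-- the embedding `L_E → F′` (coefficientwise) -/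
def tres5cEmb : ↥(tres5cL E N y) →+* ↥(tres5cField N y) where
  toFun f := ⟨coeffMap (algebraMap ↥E NfQb) (f : LaurentSeries ↥E), f.2⟩
  map_one' := Subtype.ext (map_one (coeffMap (algebraMap ↥E NfQb)))
  map_mul' _ _ := Subtype.ext (map_mul (coeffMap (algebraMap ↥E NfQb)) _ _)
  map_zero' := Subtype.ext (map_zero (coeffMap (algebraMap ↥E NfQb)))
  map_add' _ _ := Subtype.ext (map_add (coeffMap (algebraMap ↥E NfQb)) _ _)

@[simp]
theorem tres5cEmb_coe (f : ↥(tres5cL E N y)) :
    ((tres5cEmb E N y f : ↥(tres5cField N y)) : LaurentSeries NfQb)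
      = coeffMap (algebraMap ↥E NfQb) (f : LaurentSeries ↥E) := rfl

theorem tres5cEmb_injective : Function.Injective (tres5cEmb E N y) :=
  (tres5cEmb E N y).injective

/-- an element of `F′` with coefficients in `E` comes from `L_E` -/
theorem tres5cL_exists_of_coeff {f : LaurentSeries NfQb} (hf : f ∈ tres5cField N y)
    (hc : ∀ n : ℤ, f.coeff n ∈ E) :
    ∃ g : ↥(tres5cL E N y), coeffMap (algebraMap ↥E NfQb) (g : LaurentSeries ↥E) = f :=
  tres5cForm_exists_of_coeff (ι := algebraMap ↥E NfQb) (Fb' := (tres5cField N y).toSubfield)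
    hf (fun n => ⟨⟨f.coeff n, hc n⟩, rfl⟩)

variable {E} in
/-- the transition map `L_K → L_E` for `K ≤ E` -/
def tres5cIncl {K : IntermediateField ℚ NfQb} (h : K ≤ E) :
    ↥(tres5cL K N y) →+* ↥(tres5cL E N y) where
  toFun f := ⟨coeffMap (IntermediateField.inclusion h).toRingHom (f : LaurentSeries ↥K), by
    rw [mem_tres5cL, coeffMap_coeffMap]
    exact f.2⟩
  map_one' := Subtype.ext (map_one (coeffMap _))
  map_mul' _ _ := Subtype.ext (map_mul (coeffMap _) _ _)
  map_zero' := Subtype.ext (map_zero (coeffMap _))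
  map_add' _ _ := Subtype.ext (map_add (coeffMap _) _ _)

variable {E} in
@[simp]
theorem tres5cIncl_coe {K : IntermediateField ℚ NfQb} (h : K ≤ E) (f : ↥(tres5cL K N y)) :
    ((tres5cIncl N y h f : ↥(tres5cL E N y)) : LaurentSeries ↥E)
      = coeffMap (IntermediateField.inclusion h).toRingHom (f : LaurentSeries ↥K) := rfl

variable {E} in
theorem tres5cEmb_incl {K : IntermediateField ℚ NfQb} (h : K ≤ E) (f : ↥(tres5cL K N y)) :
    tres5cEmb E N y (tres5cIncl N y h f) = tres5cEmb K N y f :=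
  Subtype.ext (coeffMap_coeffMap _ _ _)

end Fermat.Agent.R38
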