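/-
ROW 38, TRES, piece ASM-COV / FAC-HOR (helper64): hgen — THE COVER IS GENERATED OVER `ℚ̄` BY ITS
`K₀`-RATIONAL ELEMENTS (Galois descent by traces; no K-FORM input).

* `tres5cdTr`, `tres5cd_sum_embeddings`, `tres5cd_descent` : abstract descent by traces
  (`E / K` finite separable, `Kb` algebraically closed: every conjugate of `f ∈ E((q))` is a
  `Kb`-linear combination of `K`-rational elements of any subring containing the constants and
  all the conjugates of `f`);
* `tres5cd_bar_mem` : `F_N(ℚ̄)` lies in the field generated by the `K₀`-rational elements;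
* `tres5cd_hgen_of_form` : hgen from a finite extension `E / K₀` carrying the coefficients of `y`
  and the stability of the cover under the embeddings `E → ℚ̄` over `K₀`;
* `tres5cd_exists_sigma` : every embedding `E → ℚ̄` over `K₀` extends to `σ ∈ G_ℚ` fixing `K₀`;
* `tres5cd_hgen` : hgen from: `y` has coefficients in a number field, and `σ y ∈ F′` for all
  `σ ∈ G_ℚ` fixing `K₀`;
* `tres5cd_hgen_fixed` : the same for `K₀ = ℚ̄^G`, `G` a closed subgroup of `G_ℚ` (e.g. the
  inertia group, `K₀ = beta0Field A`), with `σ y ∈ F′` for `σ ∈ G` only.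

The conclusion has the shape asked for by helper61 (R38/TresHorForm.lean):
`∀ f ∈ tres5cField N y, f ∈ IntermediateField.adjoin ℚ̄ {x | x ∈ tres5cField N y ∧
   ∃ g : LaurentSeries ↥K₀, coeffMap (algebraMap ↥K₀ ℚ̄) g = x}`.
-/
import Mathlib
import Fermat.Agent.R38.TresCoverForm

set_option autoImplicit false
set_option linter.style.haveILetI false

namespace Fermat.Agent.R38

open ModularCurve Matrix Fermat.Agent.INJ

section TraceDescent

variable {K E Kb : Type*} [Field K] [Field E] [Field Kb] [Algebra K E] [Algebra K Kb]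
  [FiniteDimensional K E] [Algebra.IsSeparable K E] [IsAlgClosed Kb]

/-- the coefficientwise trace `E((q)) → K((q))` -/
noncomputable def tres5cdTr (f : LaurentSeries E) : LaurentSeries K :=
  f.map (Algebra.trace K E)

omit [FiniteDimensional K E] [Algebra.IsSeparable K E] in
@[simp]
theorem tres5cd_tr_coeff (f : LaurentSeries E) (n : ℤ) :
    (tres5cdTr (K := K) f).coeff n = Algebra.trace K E (f.coeff n) := rfl

/-- the coefficientwise trace is the sum of the conjugates -/
theorem tres5cd_sum_embeddings (f : LaurentSeries E) :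
    coeffMap (algebraMap K Kb) (tres5cdTr (K := K) f) =
      ∑ γ : E →ₐ[K] Kb, coeffMap (γ : E →+* Kb) f := by
  ext n
  rw [coeffMap_coeff, tres5cd_tr_coeff, HahnSeries.coeff_sum, trace_eq_sum_embeddings Kb]
  rfl

/-- **Galois descent by traces.**  `f ∈ E((q))`, `E / K` finite separable, `K̄` algebraically
closed; `Lc` a subring of `K̄((q))` containing the constants and all the conjugates `γ f`,
`γ : E →ₐ[K] K̄`.  Then every conjugate of `f` is a `K̄`-linear combination of elements of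
`Lc` with coefficients in `K`. -/
theorem tres5cd_descent (Lc : Subring (LaurentSeries Kb))
    (hC : ∀ c : Kb, (HahnSeries.C c : LaurentSeries Kb) ∈ Lc) (f : LaurentSeries E)
    (hγ : ∀ γ : E →ₐ[K] Kb, coeffMap (γ : E →+* Kb) f ∈ Lc) (γ₀ : E →ₐ[K] Kb) :
    ∃ (n : ℕ) (c : Fin n → Kb) (t : Fin n → LaurentSeries K),
      (∀ i, coeffMap (algebraMap K Kb) (t i) ∈ Lc) ∧
      coeffMap (γ₀ : E →+* Kb) f =
        ∑ i, (HahnSeries.C (c i) : LaurentSeries Kb) * coeffMap (algebraMap K Kb) (t i) := by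
  classical
  let pb : PowerBasis K E := Field.powerBasisOfFiniteOfSeparable K E
  have hcard : Fintype.card (Fin pb.dim) = Fintype.card (E →ₐ[K] Kb) := by
    rw [AlgHom.card, pb.finrank, Fintype.card_fin]
  let e : Fin pb.dim ≃ (E →ₐ[K] Kb) := Fintype.equivOfCardEq hcard
  set N : Matrix (Fin pb.dim) (Fin pb.dim) Kb :=
    Algebra.embeddingsMatrixReindex K Kb pb.basis e with hN
  have hNapp : ∀ i k, N i k = e k (pb.basis i) := by
    intro i k
    simp [hN, Algebra.embeddingsMatrixReindex, Algebra.embeddingsMatrix]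
  have hdet : N.det ≠ 0 := by
    have h1 := Algebra.traceMatrix_eq_embeddingsMatrixReindex_mul_trans K Kb pb.basis e
    have h2 := congrArg Matrix.det h1
    rw [det_mul, det_transpose] at h2
    intro h0
    rw [← hN, h0, mul_zero] at h2
    have h3 : (algebraMap K Kb) (Algebra.traceMatrix K pb.basis).det = 0 := by
      rw [RingHom.map_det]
      exact h2
    exact det_traceMatrix_ne_zero' pb ((map_eq_zero _).1 h3)
  have hunit : IsUnit N.det := isUnit_iff_ne_zero.2 hdet
  -- the traces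
  let t : Fin pb.dim → LaurentSeries K := fun i =>
    tres5cdTr (K := K) ((HahnSeries.C (pb.basis i) : LaurentSeries E) * f)
  have ht : ∀ i, coeffMap (algebraMap K Kb) (t i) =
      ∑ k, (HahnSeries.C (N i k) : LaurentSeries Kb) * coeffMap ((e k : E →ₐ[K] Kb) : E →+* Kb) f := by
    intro i
    rw [tres5cd_sum_embeddings (Kb := Kb), ← Equiv.sum_comp e]
    refine Finset.sum_congr rfl fun k _ => ?_
    rw [map_mul, hNapp]
    congr 1
    ext m
    simp
  refine ⟨pb.dim, fun i => N⁻¹ (e.symm γ₀) i, t, fun i => ?_, ?_⟩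
  · rw [ht i]
    exact Subring.sum_mem _ fun k _ => Subring.mul_mem _ (hC _) (hγ _)
  · have hinv : N⁻¹ * N = 1 := Matrix.nonsing_inv_mul N hunit
    calc coeffMap (γ₀ : E →+* Kb) f
        = ∑ k, (HahnSeries.C ((1 : Matrix (Fin pb.dim) (Fin pb.dim) Kb) (e.symm γ₀) k) :
            LaurentSeries Kb) * coeffMap ((e k : E →ₐ[K] Kb) : E →+* Kb) f := by
          rw [Finset.sum_eq_single (e.symm γ₀)]
          · rw [Matrix.one_apply_eq, map_one, one_mul, Equiv.apply_symm_apply]
          · intro k _ hk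
            rw [Matrix.one_apply_ne' hk, map_zero, zero_mul]
          · intro h
            exact absurd (Finset.mem_univ _) h
      _ = ∑ k, (∑ i, (HahnSeries.C (N⁻¹ (e.symm γ₀) i * N i k) : LaurentSeries Kb)) *
            coeffMap ((e k : E →ₐ[K] Kb) : E →+* Kb) f := by
          refine Finset.sum_congr rfl fun k _ => ?_
          rw [← hinv, Matrix.mul_apply, map_sum]
      _ = ∑ i, (HahnSeries.C (N⁻¹ (e.symm γ₀) i) : LaurentSeries Kb) *
            coeffMap (algebraMap K Kb) (t i) := by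
          simp_rw [ht, Finset.mul_sum, Finset.sum_mul, map_mul]
          rw [Finset.sum_comm]
          refine Finset.sum_congr rfl fun i _ => Finset.sum_congr rfl fun k _ => ?_
          ring

end TraceDescent

section Hgen

variable (K₀ : IntermediateField ℚ NfQb) (N : ℕ) (y : LaurentSeries NfQb)

/-- `F_N(ℚ̄)` lies in the field generated by the `K₀`-rational elements of the cover -/
theorem tres5cd_bar_mem {x : LaurentSeries NfQb} (hx : x ∈ modularFunctionFieldBar N) :
    x ∈ IntermediateField.adjoin NfQb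
      {x | x ∈ tres5cField N y ∧
        ∃ g : LaurentSeries ↥K₀, coeffMap (algebraMap ↥K₀ NfQb) g = x} := by
  revert x
  show laurentBaseChange NfQb (modularFunctionFieldFull N) ≤ _
  rw [laurentBaseChange, IntermediateField.adjoin_le_iff]
  rintro _ ⟨x, hx, rfl⟩
  refine IntermediateField.subset_adjoin _ _
    ⟨tres5c_bar_le N y (coeffEmb_mem_laurentBaseChange NfQb hx),
      coeffMap (algebraMap ℚ ↥K₀) x, ?_⟩
  rw [coeffMap_coeffMap]
  rfl

/-- **hgen, form with a finite extension `E / K₀` carrying the coefficients of `y`.** -/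
theorem tres5cd_hgen_of_form (E : IntermediateField ↥K₀ NfQb) [FiniteDimensional ↥K₀ ↥E]
    (yE : LaurentSeries ↥E) (hyE : coeffMap (algebraMap ↥E NfQb) yE = y)
    (hstab : ∀ γ : ↥E →ₐ[↥K₀] NfQb, coeffMap (γ : ↥E →+* NfQb) yE ∈ tres5cField N y) :
    ∀ f ∈ tres5cField N y, f ∈ IntermediateField.adjoin NfQb
      {x | x ∈ tres5cField N y ∧
        ∃ g : LaurentSeries ↥K₀, coeffMap (algebraMap ↥K₀ NfQb) g = x} := by
  set T := IntermediateField.adjoin NfQb
      {x | x ∈ tres5cField N y ∧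
        ∃ g : LaurentSeries ↥K₀, coeffMap (algebraMap ↥K₀ NfQb) g = x} with hT
  have hC : ∀ (M : IntermediateField NfQb (LaurentSeries NfQb)) (c : NfQb),
      (HahnSeries.C c : LaurentSeries NfQb) ∈ M := by
    intro M c
    have := M.algebraMap_mem c
    rwa [algebraMap_laurentSeries_eq_single, ← HahnSeries.C_apply] at this
  have hy : y ∈ T := by
    obtain ⟨n, c, t, ht, he⟩ := tres5cd_descent (K := ↥K₀) (E := ↥E) (Kb := NfQb)
      (tres5cField N y).toSubring (hC _) yE hstab E.val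
    have he' : y = ∑ i, (HahnSeries.C (c i) : LaurentSeries NfQb) *
        coeffMap (algebraMap ↥K₀ NfQb) (t i) := by
      rw [← he, ← hyE]
      rfl
    rw [he']
    exact sum_mem fun i _ => mul_mem (hC T (c i))
      (IntermediateField.subset_adjoin _ _ ⟨ht i, t i, rfl⟩)
  have hle : tres5cField N y ≤ T := by
    rw [tres5cField, IntermediateField.adjoin_le_iff]
    rintro z (hz | hz)
    · exact tres5cd_bar_mem K₀ N y hz
    · rw [Set.mem_singleton_iff] at hz
      rw [hz]
      exact hy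
  intro f hf
  exact hle hf


/-- extension of an embedding `E → ℚ̄` over `K₀` to an automorphism of `ℚ̄` fixing `K₀` -/
theorem tres5cd_exists_sigma (E : IntermediateField ↥K₀ NfQb) (γ : ↥E →ₐ[↥K₀] NfQb) :
    ∃ σ : NfQb ≃ₐ[ℚ] NfQb, (∀ x ∈ K₀, σ x = x) ∧ ∀ x : ↥E, σ (x : NfQb) = γ x := by
  haveI : Algebra.IsAlgebraic ℚ NfQb := AlgebraicClosure.isAlgebraic ℚ
  haveI : Algebra.IsAlgebraic ↥K₀ NfQb := Algebra.IsAlgebraic.tower_top (K := ℚ) ↥K₀
  haveI : IsAlgClosure ↥K₀ NfQb := ⟨inferInstance, inferInstance⟩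
  haveI : Normal ↥K₀ NfQb := IsAlgClosure.normal ↥K₀ NfQb
  let τ : NfQb →ₐ[↥K₀] NfQb := γ.liftNormal NfQb
  have hτ : ∀ x : ↥E, τ (x : NfQb) = γ x := fun x => γ.liftNormal_commutes NfQb x
  let σ₀ : NfQb ≃ₐ[↥K₀] NfQb :=
    AlgEquiv.ofBijective τ (Algebra.IsAlgebraic.algHom_bijective τ)
  refine ⟨σ₀.restrictScalars ℚ, ?_, ?_⟩
  · intro x hx
    exact σ₀.commutes ⟨x, hx⟩
  · exact hτ

/-- **hgen, form with `Gal(ℚ̄ / K₀)`**: `y` has coefficients in a number field `E₁`, and the
conjugates of `y` under the automorphisms of `ℚ̄` fixing `K₀` lie in the cover. -/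
theorem tres5cd_hgen (E₁ : IntermediateField ℚ NfQb) [FiniteDimensional ℚ ↥E₁]
    (hcoef : ∀ n : ℤ, y.coeff n ∈ E₁)
    (hstab : ∀ σ : NfQb ≃ₐ[ℚ] NfQb, (∀ x ∈ K₀, σ x = x) →
      coeffMap ((σ : NfQb ≃ₐ[ℚ] NfQb) : NfQb →+* NfQb) y ∈ tres5cField N y) :
    ∀ f ∈ tres5cField N y, f ∈ IntermediateField.adjoin NfQb
      {x | x ∈ tres5cField N y ∧
        ∃ g : LaurentSeries ↥K₀, coeffMap (algebraMap ↥K₀ NfQb) g = x} := by
  classical
  let E : IntermediateField ↥K₀ NfQb := IntermediateField.adjoin ↥K₀ (E₁ : Set NfQb)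
  haveI : FiniteDimensional ↥K₀ ↥E := by
    have h1 : Module.rank ↥K₀ ↥E ≤ Module.rank ℚ ↥E₁ :=
      IntermediateField.adjoin_rank_le_of_isAlgebraic_right ↥K₀ E₁
    exact Module.rank_lt_aleph0_iff.1 (lt_of_le_of_lt h1 (Module.rank_lt_aleph0 ℚ ↥E₁))
  have hc : ∀ n : ℤ, ∃ c : ↥E, algebraMap ↥E NfQb c = y.coeff n := fun n =>
    ⟨⟨y.coeff n, IntermediateField.subset_adjoin _ _ (hcoef n)⟩, rfl⟩
  choose c hc using hc
  have hsupp : (Function.support c).IsPWO := by
    refine y.isPWO_support.mono fun n hn => ?_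
    rw [Function.mem_support] at hn
    rw [HahnSeries.mem_support]
    intro h0
    apply hn
    apply (algebraMap ↥E NfQb).injective
    rw [hc n, map_zero]
    exact h0
  let yE : LaurentSeries ↥E := ⟨c, hsupp⟩
  have hyE : coeffMap (algebraMap ↥E NfQb) yE = y := by
    ext n
    rw [coeffMap_coeff]
    exact hc n
  refine tres5cd_hgen_of_form K₀ N y E yE hyE fun γ => ?_
  obtain ⟨σ, hσK, hσγ⟩ := tres5cd_exists_sigma K₀ E γ
  have h2 : coeffMap (γ : ↥E →+* NfQb) yE =
      coeffMap ((σ : NfQb ≃ₐ[ℚ] NfQb) : NfQb →+* NfQb) y := by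
    rw [← hyE, coeffMap_coeffMap]
    ext n
    rw [coeffMap_coeff, coeffMap_coeff]
    exact (hσγ _).symm
  rw [h2]
  exact hstab σ hσK

/-- **hgen, form with a closed subgroup `G` of `G_ℚ`** and `K₀ = ℚ̄^G`. -/
theorem tres5cd_hgen_fixed (G : Subgroup (NfQb ≃ₐ[ℚ] NfQb))
    (hG : IsClosed (G : Set (NfQb ≃ₐ[ℚ] NfQb)))
    (E₁ : IntermediateField ℚ NfQb) [FiniteDimensional ℚ ↥E₁]
    (hcoef : ∀ n : ℤ, y.coeff n ∈ E₁)
    (hstab : ∀ σ ∈ G,
      coeffMap ((σ : NfQb ≃ₐ[ℚ] NfQb) : NfQb →+* NfQb) y ∈ tres5cField N y) :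
    ∀ f ∈ tres5cField N y, f ∈ IntermediateField.adjoin NfQb
      {x | x ∈ tres5cField N y ∧
        ∃ g : LaurentSeries ↥(IntermediateField.fixedField G),
          coeffMap (algebraMap ↥(IntermediateField.fixedField G) NfQb) g = x} := by
  refine tres5cd_hgen (IntermediateField.fixedField G) N y E₁ hcoef fun σ hσ => hstab σ ?_
  haveI : IsAlgClosure ℚ NfQb := ⟨inferInstance, AlgebraicClosure.isAlgebraic ℚ⟩
  haveI : IsGalois ℚ NfQb := IsAlgClosure.isGalois ℚ NfQb
  have h1 := InfiniteGalois.fixingSubgroup_fixedField (k := ℚ) (K := NfQb) ⟨G, hG⟩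
  have h2 : σ ∈ (IntermediateField.fixedField G).fixingSubgroup := by
    rw [IntermediateField.mem_fixingSubgroup_iff]
    exact hσ
  have h3 : σ ∈ (⟨G, hG⟩ : ClosedSubgroup (NfQb ≃ₐ[ℚ] NfQb)).toSubgroup := by
    rw [← h1]
    exact h2
  exact h3

end Hgen

end Fermat.Agent.R38
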