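import Fermat.Agent.R38.TresDesc
import Fermat.Agent.RIB.MP.Desc

/-!
# R38-TRES, piece FAC-DESC [T5 (a)]: descent to the cover `F_N(ℚ̄)(y)`, `y ^ m = w₀`

`x, z₀ ∈ J₀(N)`, `u, w₀ ∈ F_N(ℚ̄)` Kummer functions (exponent `m`) of `x, z₀`, `y ∈ ℚ̄((Q))` with
`y ^ m = w₀`, `G ≤ G_ℚ` a subgroup with `σ x − x ∈ ℤ z₀` and `σ z₀ ∈ ℤ z₀` for `σ ∈ G`
(application: `G` = the inertia group of `A`, `z₀` toric, the line hypothesis of `StmtTresP5`).

* `tresdesc_kummer_zsmul` : `w ^ k` is a Kummer function of `k • z` (`k : ℤ`);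
* `tresdesc_cocycle`   : `σ u = C a · h ^ m · (u · w₀ ^ k)` if `σ x − x = k z₀`;
* `tresCov N y`        : the cover `F′ = F_N(ℚ̄)(y) ⊂ ℚ̄((Q))`;
* `tresdesc_sigma_y`   : `σ y = C c · (h · y ^ g)` if `σ z₀ = g z₀`;
* `tresdesc_stab`      : `F′` is stable under such `σ`;
* `tresdesc_comm`      : a ring homomorphism `t : F′ → ℚ̄((Q))` fixing `F_N(ℚ̄)` with
  `t y = C ζ · y` commutes with every `σ` such that `σ z₀ = g z₀`, `σ ζ = ζ ^ g`;
* **`tresdesc_main`**  : (DESC′) `u = C (lc u) · γ ^ m · u″`, `u″ ∈ F′` fixed by `G`;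
* **`tresdesc_main_deck`** : (DECK) `t u″ = C (α ^ m) · h ^ m · u″`, `h ∈ F′` and `α ^ m` fixed
  by `G`, and `α` fixed by every `σ ∈ G` with `σ x = x`.
-/

set_option autoImplicit false
set_option linter.unusedSectionVars false
set_option linter.unusedVariables false
set_option linter.style.haveILetI false

noncomputable section

open ModularCurve AlgebraicCurve Fermat.Agent.ES Fermat.Agent.ES.G2 Fermat.Agent.INJ
  Fermat.Agent.UNIP Fermat.Agent.S36 Fermat.Agent.RIB.MP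

namespace Fermat.Agent.R38

section Kummer

variable {K F : Type*} [Field K] [Field F] [Algebra K F]

/-- `w ^ k` is a Kummer function of `k • z` -/
theorem tresdesc_kummer_zsmul {n : ℕ} {z : Pic0 K F} {w : F} (hw : KummerRel n z w) (k : ℤ) :
    KummerRel n (k • z) (w ^ k) := by
  have hnat : ∀ j : ℕ, KummerRel n (j • z) (w ^ j) := by
    intro j
    induction j with
    | zero =>
      rw [zero_nsmul, pow_zero]
      exact KummerRel.zero
    | succ j ih =>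
      rw [succ_nsmul, pow_succ]
      exact ih.add hw
  obtain ⟨j, rfl | rfl⟩ := Int.eq_nat_or_neg k
  · rw [natCast_zsmul, zpow_natCast]
    exact hnat j
  · rw [neg_smul, natCast_zsmul, zpow_neg, zpow_natCast]
    exact (hnat j).neg

end Kummer

section Adjoin

variable {s : Set (LaurentSeries NfQb)}

/-- a ring endomorphism of `ℚ̄((Q))` mapping the constants and the generators into `E` maps the
generated field into `E` -/
theorem tresdesc_adjoin_map {E : IntermediateField NfQb (LaurentSeries NfQb)}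
    (ψ : LaurentSeries NfQb →+* LaurentSeries NfQb)
    (hC : ∀ a : NfQb, ψ (algebraMap NfQb (LaurentSeries NfQb) a) ∈ E)
    (hs : ∀ x ∈ s, ψ x ∈ E) :
    ∀ x ∈ IntermediateField.adjoin NfQb s, ψ x ∈ E := by
  intro x hx
  induction hx using IntermediateField.adjoin_induction with
  | mem x hx => exact hs x hx
  | algebraMap a => exact hC a
  | add x y _ _ hx hy =>
    rw [map_add]
    exact E.add_mem hx hy
  | inv x _ hx =>
    rw [map_inv₀]
    exact E.inv_mem hx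
  | mul x y _ _ hx hy =>
    rw [map_mul]
    exact E.mul_mem hx hy

/-- two ring homomorphisms on the generated field which agree on the constants and on the
generators are equal -/
theorem tresdesc_adjoin_ext
    (φ₁ φ₂ : ↥(IntermediateField.adjoin NfQb s) →+* LaurentSeries NfQb)
    (hC : ∀ a : NfQb, φ₁ (algebraMap NfQb _ a) = φ₂ (algebraMap NfQb _ a))
    (hs : ∀ (x : LaurentSeries NfQb) (hx : x ∈ s),
      φ₁ ⟨x, IntermediateField.subset_adjoin _ _ hx⟩ =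
        φ₂ ⟨x, IntermediateField.subset_adjoin _ _ hx⟩) :
    ∀ (x : LaurentSeries NfQb) (hx : x ∈ IntermediateField.adjoin NfQb s),
      φ₁ ⟨x, hx⟩ = φ₂ ⟨x, hx⟩ := by
  intro x hx
  induction hx using IntermediateField.adjoin_induction with
  | mem x hx => exact hs x hx
  | algebraMap a => exact hC a
  | add x y hx hy h1 h2 =>
    have e : (⟨x + y, add_mem hx hy⟩ : ↥(IntermediateField.adjoin NfQb s)) =
        ⟨x, hx⟩ + ⟨y, hy⟩ := rfl
    rw [e, map_add, map_add, h1, h2]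
  | inv x hx h1 =>
    have e : (⟨x⁻¹, inv_mem hx⟩ : ↥(IntermediateField.adjoin NfQb s)) =
        (⟨x, hx⟩ : ↥(IntermediateField.adjoin NfQb s))⁻¹ := rfl
    rw [e, map_inv₀, map_inv₀, h1]
  | mul x y hx hy h1 h2 =>
    have e : (⟨x * y, mul_mem hx hy⟩ : ↥(IntermediateField.adjoin NfQb s)) =
        ⟨x, hx⟩ * ⟨y, hy⟩ := rfl
    rw [e, map_mul, map_mul, h1, h2]

end Adjoin

section J

variable {N : ℕ} [NeZero N]

/-- the cocycle of a class moved along the line `ℤ z₀` -/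
theorem tresdesc_cocycle {m : ℕ} {x z₀ : JZero N} {u w₀ : modularFunctionFieldBar N}
    (hu : KummerRel m x u) (hw : KummerRel m z₀ w₀) {σ : NfQb ≃ₐ[ℚ] NfQb} {k : ℤ}
    (hσ : σ • x - x = k • z₀) :
    ∃ (a : NfQb) (h : modularFunctionFieldBar N), a ≠ 0 ∧ h ≠ 0 ∧
      arithmeticGalois (modularFunctionFieldFull N) σ • u =
        algebraMap NfQb (modularFunctionFieldBar N) a * h ^ m * (u * w₀ ^ k) := by
  have h1 : KummerRel m (arithmeticGalois (modularFunctionFieldFull N) σ • x)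
      (arithmeticGalois (modularFunctionFieldFull N) σ • u) := hu.smul _
  have h2 : arithmeticGalois (modularFunctionFieldFull N) σ • x = x + k • z₀ := by
    have h3 : σ • x = x + k • z₀ := by
      rw [← hσ]
      abel
    exact h3
  rw [h2] at h1
  have h3 : KummerRel m (x + k • z₀) (u * w₀ ^ k) := hu.add (tresdesc_kummer_zsmul hw k)
  obtain ⟨g, c, hg, hc0, hc, he⟩ := h3.exists_eq_mul_pow h1
  obtain ⟨c₀, rfl⟩ := mu_exists_const_of_ord_eq_zero c hc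
  refine ⟨c₀, g, fun h0 => hc0 (by rw [h0, map_zero]), hg, ?_⟩
  rw [he]
  ring

/-- the same for a class mapped into the line `ℤ z₀` -/
theorem tresdesc_cocycle' {m : ℕ} {z₀ : JZero N} {w₀ : modularFunctionFieldBar N}
    (hw : KummerRel m z₀ w₀) {σ : NfQb ≃ₐ[ℚ] NfQb} {g : ℤ} (hσ : σ • z₀ = g • z₀) :
    ∃ (a : NfQb) (h : modularFunctionFieldBar N), a ≠ 0 ∧ h ≠ 0 ∧
      arithmeticGalois (modularFunctionFieldFull N) σ • w₀ =
        algebraMap NfQb (modularFunctionFieldBar N) a * h ^ m * w₀ ^ g := by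
  have h1 : KummerRel m (arithmeticGalois (modularFunctionFieldFull N) σ • z₀)
      (arithmeticGalois (modularFunctionFieldFull N) σ • w₀) := hw.smul _
  have h2 : arithmeticGalois (modularFunctionFieldFull N) σ • z₀ = g • z₀ := hσ
  rw [h2] at h1
  obtain ⟨k, c, hk, hc0, hc, he⟩ := (tresdesc_kummer_zsmul hw g).exists_eq_mul_pow h1
  obtain ⟨c₀, rfl⟩ := mu_exists_const_of_ord_eq_zero c hc
  refine ⟨c₀, k, fun h0 => hc0 (by rw [h0, map_zero]), hk, ?_⟩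
  rw [he]
  ring

variable (N) in
/-- the cover `F′ = F_N(ℚ̄)(y) ⊂ ℚ̄((Q))` -/
def tresCov (y : LaurentSeries NfQb) : IntermediateField NfQb (LaurentSeries NfQb) :=
  IntermediateField.adjoin NfQb
    ((modularFunctionFieldBar N : Set (LaurentSeries NfQb)) ∪ {y})

theorem tresCov_mem_of_mem (y : LaurentSeries NfQb) {f : LaurentSeries NfQb}
    (hf : f ∈ modularFunctionFieldBar N) : f ∈ tresCov N y :=
  IntermediateField.subset_adjoin _ _ (Or.inl hf)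

theorem tresCov_self_mem (y : LaurentSeries NfQb) : y ∈ tresCov N y :=
  IntermediateField.subset_adjoin _ _ (Or.inr rfl)

/-- the Galois conjugate of the root `y` of `w₀` -/
theorem tresdesc_sigma_y {m : ℕ} (hm : m ≠ 0) {z₀ : JZero N}
    {w₀ : modularFunctionFieldBar N} (hw : KummerRel m z₀ w₀) {y : LaurentSeries NfQb}
    (hy : y ^ m = (w₀ : LaurentSeries NfQb)) {σ : NfQb ≃ₐ[ℚ] NfQb} {g : ℤ}
    (hσ : σ • z₀ = g • z₀) :
    ∃ (c : NfQb) (h : modularFunctionFieldBar N), c ≠ 0 ∧ h ≠ 0 ∧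
      coeffMap ((σ : NfQb ≃ₐ[ℚ] NfQb) : NfQb →+* NfQb) y =
        HahnSeries.C c * ((h : LaurentSeries NfQb) * y ^ g) := by
  obtain ⟨a, h, ha, hh, he⟩ := tresdesc_cocycle' hw hσ
  have hmK : ((m : ℕ) : NfQb) ≠ 0 := Nat.cast_ne_zero.mpr hm
  have hw0 : (w₀ : LaurentSeries NfQb) ≠ 0 := fun h0 => hw.ne_zero (Subtype.ext h0)
  have hy0 : y ≠ 0 := by
    rintro rfl
    rw [zero_pow hm] at hy
    exact hw0 hy.symm
  have hhL : (h : LaurentSeries NfQb) ≠ 0 := fun h0 => hh (Subtype.ext h0)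
  have e1 : coeffMap ((σ : NfQb ≃ₐ[ℚ] NfQb) : NfQb →+* NfQb) (w₀ : LaurentSeries NfQb) =
      HahnSeries.C a * (h : LaurentSeries NfQb) ^ m * (w₀ : LaurentSeries NfQb) ^ g := by
    have := congrArg (fun z : modularFunctionFieldBar N => (z : LaurentSeries NfQb)) he
    simp only [coe_arithmeticGalois_smul] at this
    rw [this, ← s36d_algebraMap_eq_C]
    rfl
  have e2 : (coeffMap ((σ : NfQb ≃ₐ[ℚ] NfQb) : NfQb →+* NfQb) y) ^ m =
      HahnSeries.C a * ((h : LaurentSeries NfQb) * y ^ g) ^ m := by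
    rw [← map_pow, hy, e1, mul_pow, ← hy, mul_assoc]
    congr 2
    rw [← zpow_natCast (y ^ g) m, ← zpow_mul, mul_comm g (m : ℤ), zpow_mul, zpow_natCast]
  obtain ⟨c, hc, -, hc2⟩ := tresdesc_root hmK ha (mul_ne_zero hhL (zpow_ne_zero g hy0)) e2
  exact ⟨c, h, hc, hh, hc2⟩

/-- the cover is stable under every `σ` mapping `z₀` into `ℤ z₀` -/
theorem tresdesc_stab {m : ℕ} (hm : m ≠ 0) {z₀ : JZero N}
    {w₀ : modularFunctionFieldBar N} (hw : KummerRel m z₀ w₀) {y : LaurentSeries NfQb}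
    (hy : y ^ m = (w₀ : LaurentSeries NfQb)) {σ : NfQb ≃ₐ[ℚ] NfQb} {g : ℤ}
    (hσ : σ • z₀ = g • z₀) :
    ∀ x ∈ tresCov N y, coeffMap ((σ : NfQb ≃ₐ[ℚ] NfQb) : NfQb →+* NfQb) x ∈ tresCov N y := by
  refine tresdesc_adjoin_map _ (fun a => ?_) ?_
  · rw [coeffMap_algebraMap]
    exact (tresCov N y).algebraMap_mem _
  · rintro x (hx | hx)
    · exact tresCov_mem_of_mem y (coeffMap_mem_laurentBaseChange σ hx)
    · rw [Set.mem_singleton_iff] at hx
      subst hx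
      obtain ⟨c, h, -, -, he⟩ := tresdesc_sigma_y hm hw hy hσ
      rw [he]
      exact (tresCov N x).mul_mem (tresdesc_C_mem _ c)
        ((tresCov N x).mul_mem (tresCov_mem_of_mem x h.2)
          (zpow_mem (tresCov_self_mem x) g))

/-- a deck transformation commutes with the Galois action -/
theorem tresdesc_comm {m : ℕ} (hm : m ≠ 0) {z₀ : JZero N}
    {w₀ : modularFunctionFieldBar N} (hw : KummerRel m z₀ w₀) {y : LaurentSeries NfQb}
    (hy : y ^ m = (w₀ : LaurentSeries NfQb))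
    (t : ↥(tresCov N y) →+* LaurentSeries NfQb)
    (htF : ∀ (f : LaurentSeries NfQb) (hf : f ∈ modularFunctionFieldBar N),
      t ⟨f, tresCov_mem_of_mem y hf⟩ = f)
    {ζ : NfQb} (hζ : ζ ≠ 0) (hty : t ⟨y, tresCov_self_mem y⟩ = HahnSeries.C ζ * y)
    {σ : NfQb ≃ₐ[ℚ] NfQb} {g : ℤ} (hσ : σ • z₀ = g • z₀) (hσζ : σ ζ = ζ ^ g) :
    ∀ (x : ↥(tresCov N y))
      (hx : coeffMap ((σ : NfQb ≃ₐ[ℚ] NfQb) : NfQb →+* NfQb) (x : LaurentSeries NfQb) ∈
        tresCov N y),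
      t ⟨_, hx⟩ = coeffMap ((σ : NfQb ≃ₐ[ℚ] NfQb) : NfQb →+* NfQb) (t x) := by
  have hstab := tresdesc_stab hm hw hy hσ
  -- the restricted action
  set act : ↥(tresCov N y) →+* ↥(tresCov N y) :=
    ((coeffMap ((σ : NfQb ≃ₐ[ℚ] NfQb) : NfQb →+* NfQb)).comp
      (algebraMap ↥(tresCov N y) (LaurentSeries NfQb))).codRestrict (tresCov N y)
      (fun x => hstab x x.2) with hact
  have hact_coe : ∀ x : ↥(tresCov N y), ((act x : ↥(tresCov N y)) : LaurentSeries NfQb) =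
      coeffMap ((σ : NfQb ≃ₐ[ℚ] NfQb) : NfQb →+* NfQb) (x : LaurentSeries NfQb) := fun x => rfl
  have hCmem : ∀ a : NfQb, (HahnSeries.C a : LaurentSeries NfQb) ∈ modularFunctionFieldBar N :=
    fun a => s36d_C_mem N a
  have htC : ∀ (a : NfQb) (ha : (HahnSeries.C a : LaurentSeries NfQb) ∈ tresCov N y),
      t ⟨HahnSeries.C a, ha⟩ = HahnSeries.C a := fun a ha => htF _ (hCmem a)
  have key := tresdesc_adjoin_ext (s := (modularFunctionFieldBar N : Set (LaurentSeries NfQb)) ∪ {y})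
    (t.comp act) ((coeffMap ((σ : NfQb ≃ₐ[ℚ] NfQb) : NfQb →+* NfQb)).comp t) ?_ ?_
  · intro x hx
    have h1 := key (x : LaurentSeries NfQb) x.2
    have h2 : t (act x) = coeffMap ((σ : NfQb ≃ₐ[ℚ] NfQb) : NfQb →+* NfQb) (t x) := h1
    rw [← h2]
    congr 1
  · intro a
    show t (act (algebraMap NfQb _ a)) =
      coeffMap ((σ : NfQb ≃ₐ[ℚ] NfQb) : NfQb →+* NfQb) (t (algebraMap NfQb _ a))
    have e1 : (algebraMap NfQb ↥(tresCov N y) a) =
        ⟨HahnSeries.C a, tresdesc_C_mem _ a⟩ := Subtype.ext (s36d_algebraMap_eq_C a)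
    have e2 : act (algebraMap NfQb ↥(tresCov N y) a) =
        ⟨HahnSeries.C (σ a), tresdesc_C_mem _ (σ a)⟩ := by
      apply Subtype.ext
      rw [hact_coe, e1]
      exact s36d_coeffMap_C' ((σ : NfQb ≃ₐ[ℚ] NfQb) : NfQb →+* NfQb) a
    rw [e2, htC, e1, htC]
    exact (s36d_coeffMap_C' ((σ : NfQb ≃ₐ[ℚ] NfQb) : NfQb →+* NfQb) a).symm
  · rintro x (hx | hx)
    · show t (act ⟨x, _⟩) = coeffMap ((σ : NfQb ≃ₐ[ℚ] NfQb) : NfQb →+* NfQb) (t ⟨x, _⟩)
      have e2 : act ⟨x, tresCov_mem_of_mem y hx⟩ =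
          ⟨coeffMap ((σ : NfQb ≃ₐ[ℚ] NfQb) : NfQb →+* NfQb) x,
            tresCov_mem_of_mem y (coeffMap_mem_laurentBaseChange σ hx)⟩ := Subtype.ext rfl
      rw [e2, htF _ (coeffMap_mem_laurentBaseChange σ hx), htF _ hx]
    · rw [Set.mem_singleton_iff] at hx
      subst hx
      show t (act ⟨x, _⟩) = coeffMap ((σ : NfQb ≃ₐ[ℚ] NfQb) : NfQb →+* NfQb) (t ⟨x, _⟩)
      obtain ⟨c, h, hc, hh, he⟩ := tresdesc_sigma_y hm hw hy hσ
      have e2 : act ⟨x, tresCov_self_mem x⟩ =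
          ⟨HahnSeries.C c, tresdesc_C_mem _ c⟩ *
            (⟨(h : LaurentSeries NfQb), tresCov_mem_of_mem x h.2⟩ *
              (⟨x, tresCov_self_mem x⟩ : ↥(tresCov N x)) ^ g) := by
        apply Subtype.ext
        rw [hact_coe]
        exact he
      have hσζ' : ((σ : NfQb ≃ₐ[ℚ] NfQb) : NfQb →+* NfQb) ζ = ζ ^ g := hσζ
      rw [e2, map_mul, map_mul, map_zpow₀, htC, htF _ h.2, hty, map_mul, s36d_coeffMap_C', he,
        hσζ', mul_zpow, map_zpow₀]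
      ring

/-- the coercion of a cocycle relation to `ℚ̄((Q))`, on the cover -/
theorem tresdesc_cocycle_cov {m : ℕ} (hm : m ≠ 0) {x z₀ : JZero N}
    {u w₀ : modularFunctionFieldBar N} (hu : KummerRel m x u) (hw : KummerRel m z₀ w₀)
    {y : LaurentSeries NfQb} (hy : y ^ m = (w₀ : LaurentSeries NfQb))
    {σ : NfQb ≃ₐ[ℚ] NfQb} {k : ℤ} (hσ : σ • x - x = k • z₀) :
    ∃ (a : NfQb) (h : LaurentSeries NfQb), h ∈ tresCov N y ∧
      coeffMap ((σ : NfQb ≃ₐ[ℚ] NfQb) : NfQb →+* NfQb) (u : LaurentSeries NfQb) =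
        HahnSeries.C a * h ^ m * (u : LaurentSeries NfQb) := by
  obtain ⟨a, h, ha, hh, he⟩ := tresdesc_cocycle hu hw hσ
  refine ⟨a, (h : LaurentSeries NfQb) * y ^ k,
    (tresCov N y).mul_mem (tresCov_mem_of_mem y h.2)
      (zpow_mem (tresCov_self_mem y) k), ?_⟩
  have e1 : coeffMap ((σ : NfQb ≃ₐ[ℚ] NfQb) : NfQb →+* NfQb) (u : LaurentSeries NfQb) =
      HahnSeries.C a * (h : LaurentSeries NfQb) ^ m *
        ((u : LaurentSeries NfQb) * (w₀ : LaurentSeries NfQb) ^ k) := by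
    have := congrArg (fun z : modularFunctionFieldBar N => (z : LaurentSeries NfQb)) he
    simp only [coe_arithmeticGalois_smul] at this
    rw [this, ← s36d_algebraMap_eq_C]
    rfl
  rw [e1, ← hy, mul_pow]
  have e2 : (y ^ k) ^ m = (y ^ m) ^ k := by
    rw [← zpow_natCast (y ^ k) m, ← zpow_mul, mul_comm k (m : ℤ), zpow_mul, zpow_natCast]
  rw [e2]
  ring

/-- **(DESC′).**  `x` moved by `G` along the line `ℤ z₀`, `z₀` mapped by `G` into `ℤ z₀`: a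
Kummer function `u` of `x` is, on the cover `F′ = F_N(ℚ̄)(y)`, `y ^ m = w₀`, a constant times an
`m`-th power times a function `u″ ∈ F′` fixed by `G`. -/
theorem tresdesc_main {m : ℕ} (hm : m ≠ 0) (G : Subgroup (NfQb ≃ₐ[ℚ] NfQb))
    {x z₀ : JZero N} {u w₀ : modularFunctionFieldBar N} (hu : KummerRel m x u)
    (hw : KummerRel m z₀ w₀) {y : LaurentSeries NfQb}
    (hy : y ^ m = (w₀ : LaurentSeries NfQb))
    (hline : ∀ σ ∈ G, ∃ k : ℤ, σ • x - x = k • z₀)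
    (htor : ∀ σ ∈ G, ∃ g : ℤ, σ • z₀ = g • z₀) :
    ∃ u'' γ : LaurentSeries NfQb, u'' ∈ tresCov N y ∧ γ ∈ tresCov N y ∧ u'' ≠ 0 ∧ γ ≠ 0 ∧
      (u : LaurentSeries NfQb) =
        HahnSeries.C (u : LaurentSeries NfQb).leadingCoeff * γ ^ m * u'' ∧
      ∀ σ ∈ G, coeffMap ((σ : NfQb ≃ₐ[ℚ] NfQb) : NfQb →+* NfQb) u'' = u'' := by
  have hU0 : (u : LaurentSeries NfQb) ≠ 0 := fun h0 => hu.ne_zero (Subtype.ext h0)
  refine tresdesc_desc (G := G) (Fb := tresCov N y) ?_ hm hU0 (tresCov_mem_of_mem y u.2)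
    (s36d_orbit_finite N u.2) ?_
  · intro σ hσ
    obtain ⟨g, hg⟩ := htor σ hσ
    exact tresdesc_stab hm hw hy hg
  · intro σ hσ
    obtain ⟨k, hk⟩ := hline σ hσ
    exact tresdesc_cocycle_cov hm hu hw hy hk

/-- **(DECK).**  `t` a ring homomorphism of the cover `F′ = F_N(ℚ̄)(y)` into itself fixing
`F_N(ℚ̄)` with `t y = C ζ · y` (a deck transformation), `G` acting on `z₀` and on `ζ` through the
same exponents.  For a decomposition `u = C b · γ ^ m · u″` with `u″ ∈ F′` fixed by `G`: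
`t u″ = C (α ^ m) · h ^ m · u″` with `h ∈ F′` fixed by `G`, `α ^ m` fixed by `G`, and `α` fixed
by every `σ ∈ G` fixing the class `x`. -/
theorem tresdesc_main_deck {m : ℕ} (hm : m ≠ 0) (G : Subgroup (NfQb ≃ₐ[ℚ] NfQb))
    {x z₀ : JZero N} {u w₀ : modularFunctionFieldBar N} (hu : KummerRel m x u)
    (hw : KummerRel m z₀ w₀) {y : LaurentSeries NfQb}
    (hy : y ^ m = (w₀ : LaurentSeries NfQb))
    (t : ↥(tresCov N y) →+* LaurentSeries NfQb) (htmem : ∀ z, t z ∈ tresCov N y)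
    (htF : ∀ (f : LaurentSeries NfQb) (hf : f ∈ modularFunctionFieldBar N),
      t ⟨f, tresCov_mem_of_mem y hf⟩ = f)
    {ζ : NfQb} (hζ : ζ ≠ 0) (hty : t ⟨y, tresCov_self_mem y⟩ = HahnSeries.C ζ * y)
    (htor : ∀ σ ∈ G, ∃ g : ℤ, σ • z₀ = g • z₀ ∧ σ ζ = ζ ^ g)
    {u'' γ : LaurentSeries NfQb} {b : NfQb} (hu''F : u'' ∈ tresCov N y)
    (hγF : γ ∈ tresCov N y) (hb : b ≠ 0) (hγ : γ ≠ 0) (hu'' : u'' ≠ 0)
    (hU : (u : LaurentSeries NfQb) = HahnSeries.C b * γ ^ m * u'')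
    (hfix : ∀ σ ∈ G, coeffMap ((σ : NfQb ≃ₐ[ℚ] NfQb) : NfQb →+* NfQb) u'' = u'') :
    ∃ (α : NfQb) (h : LaurentSeries NfQb), α ≠ 0 ∧ h ∈ tresCov N y ∧ h ≠ 0 ∧
      (∀ σ ∈ G, coeffMap ((σ : NfQb ≃ₐ[ℚ] NfQb) : NfQb →+* NfQb) h = h) ∧
      t ⟨u'', hu''F⟩ = HahnSeries.C (α ^ m) * h ^ m * u'' ∧
      (∀ σ ∈ G, σ (α ^ m) = α ^ m) ∧
      ∀ σ ∈ G, σ • x = x → σ α = α := by
  have htC : ∀ (a : NfQb) (ha : (HahnSeries.C a : LaurentSeries NfQb) ∈ tresCov N y),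
      t ⟨HahnSeries.C a, ha⟩ = HahnSeries.C a := fun a ha => htF _ (s36d_C_mem N a)
  have htG : ∀ σ ∈ G, ∀ (z : ↥(tresCov N y))
      (hz : coeffMap ((σ : NfQb ≃ₐ[ℚ] NfQb) : NfQb →+* NfQb) (z : LaurentSeries NfQb) ∈
        tresCov N y),
      t ⟨_, hz⟩ = coeffMap ((σ : NfQb ≃ₐ[ℚ] NfQb) : NfQb →+* NfQb) (t z) := by
    intro σ hσ
    obtain ⟨g, hg, hgζ⟩ := htor σ hσ
    exact tresdesc_comm hm hw hy t htF hζ hty hg hgζ
  obtain ⟨α, h, hα, hhF, hh0, hhfix, hth, hαm, hαfix⟩ :=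
    tresdesc_deck (G := G) (Fb := tresCov N y) hm t htC htmem htG
      (tresCov_mem_of_mem y u.2) hu''F hγF hb hγ hu'' (htF _ u.2) hU hfix
  refine ⟨α, h, hα, hhF, hh0, hhfix, hth, hαm, ?_⟩
  intro σ hσ hσx
  apply hαfix σ hσ
  have hk : σ • x - x = (0 : ℤ) • z₀ := by
    rw [hσx, sub_self, zero_zsmul]
  obtain ⟨a, g, ha, hg, he⟩ := tresdesc_cocycle hu hw hk
  refine ⟨a, (g : LaurentSeries NfQb), tresCov_mem_of_mem y g.2, htF _ g.2, ?_⟩
  have := congrArg (fun z : modularFunctionFieldBar N => (z : LaurentSeries NfQb)) he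
  simp only [coe_arithmeticGalois_smul] at this
  rw [this, ← s36d_algebraMap_eq_C, zpow_zero, mul_one]
  rfl

/-- **FAC-DESC** ((DESC′) + (DECK) in one statement). -/
theorem tresdesc_final {m : ℕ} (hm : m ≠ 0) (G : Subgroup (NfQb ≃ₐ[ℚ] NfQb))
    {x z₀ : JZero N} {u w₀ : modularFunctionFieldBar N} (hu : KummerRel m x u)
    (hw : KummerRel m z₀ w₀) {y : LaurentSeries NfQb}
    (hy : y ^ m = (w₀ : LaurentSeries NfQb))
    (hline : ∀ σ ∈ G, ∃ k : ℤ, σ • x - x = k • z₀)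
    (t : ↥(tresCov N y) →+* LaurentSeries NfQb) (htmem : ∀ z, t z ∈ tresCov N y)
    (htF : ∀ (f : LaurentSeries NfQb) (hf : f ∈ modularFunctionFieldBar N),
      t ⟨f, tresCov_mem_of_mem y hf⟩ = f)
    {ζ : NfQb} (hζ : ζ ≠ 0) (hty : t ⟨y, tresCov_self_mem y⟩ = HahnSeries.C ζ * y)
    (htor : ∀ σ ∈ G, ∃ g : ℤ, σ • z₀ = g • z₀ ∧ σ ζ = ζ ^ g) :
    ∃ (u'' γ h : LaurentSeries NfQb) (α : NfQb) (hu''F : u'' ∈ tresCov N y),
      γ ∈ tresCov N y ∧ h ∈ tresCov N y ∧ u'' ≠ 0 ∧ γ ≠ 0 ∧ h ≠ 0 ∧ α ≠ 0 ∧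
      (u : LaurentSeries NfQb) =
        HahnSeries.C (u : LaurentSeries NfQb).leadingCoeff * γ ^ m * u'' ∧
      (∀ σ ∈ G, coeffMap ((σ : NfQb ≃ₐ[ℚ] NfQb) : NfQb →+* NfQb) u'' = u'') ∧
      (∀ σ ∈ G, coeffMap ((σ : NfQb ≃ₐ[ℚ] NfQb) : NfQb →+* NfQb) h = h) ∧
      t ⟨u'', hu''F⟩ = HahnSeries.C (α ^ m) * h ^ m * u'' ∧
      (∀ σ ∈ G, σ (α ^ m) = α ^ m) ∧
      ∀ σ ∈ G, σ • x = x → σ α = α := by
  have hU0 : (u : LaurentSeries NfQb) ≠ 0 := fun h0 => hu.ne_zero (Subtype.ext h0)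
  obtain ⟨u'', γ, hu''F, hγF, hu'', hγ, hU, hfix⟩ :=
    tresdesc_main hm G hu hw hy hline (fun σ hσ => (htor σ hσ).imp fun g hg => hg.1)
  obtain ⟨α, h, hα, hhF, hh0, hhfix, hth, hαm, hαfix⟩ :=
    tresdesc_main_deck hm G hu hw hy t htmem htF hζ hty htor hu''F hγF
      (HahnSeries.leadingCoeff_ne_zero.mpr hU0) hγ hu'' hU hfix
  exact ⟨u'', γ, h, α, hu''F, hγF, hhF, hu'', hγ, hh0, hα, hU, hfix, hhfix, hth, hαm, hαfix⟩

end J

end Fermat.Agent.R38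

end
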