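import Fermat.Agent.S36.Descent

/-!
# R38-TRES, piece FAC-DESC [T5 (a)]: descent to the cover and the deck relation (abstract core)

`L = ℚ̄((Q))` with the coefficientwise action of `G ≤ Gal(ℚ̄/ℚ)`; `Fb ⊂ L` a `G`-stable
intermediate field (in the application the cover `F′ = F_N(ℚ̄)(w₀^{1/p}) ⊂ ℚ̄((Q))`,
`G = I ∩ ker ω`).

* `tresdesc_root`  : `x ^ m = C a · y ^ m` ⇒ `x = C c · y`, `c ^ m = a`;
* `tresdesc_desc`  : **(DESC′)** `U ∈ Fb` with finite Galois orbit and `σ U = C a_σ · h_σ ^ m · U`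
  (`h_σ ∈ Fb`, `σ ∈ G`) is `C (lc U) · γ ^ m · u″` with `u″ ∈ Fb` fixed by `G`;
* `tresdesc_deck`  : **(DECK)** `t : Fb → Fb` a ring endomorphism fixing the constants and
  commuting with `G`, `t U = U`, `U = C b · γ ^ m · u″`, `u″` fixed by `G`.  Then
  `t u″ = C (α ^ m) · h ^ m · u″` with `h ∈ Fb` fixed by `G`, `α ∈ ℚ̄ˣ`, `α ^ m` fixed by `G`, and
  `α` is fixed by every `σ ∈ G` for which `σ U = C a · g ^ m · U` with `g` fixed by `t`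
  (i.e. by every `σ ∈ G` fixing the class of `U` downstairs).
-/

set_option autoImplicit false
set_option linter.unusedSectionVars false
set_option linter.unusedVariables false
set_option linter.style.haveILetI false

noncomputable section

open ModularCurve Fermat.Agent.INJ Fermat.Agent.UNIP Fermat.Agent.S36

namespace Fermat.Agent.R38

section Root

variable {K : Type*} [Field K]

/-- normalisation commutes with powers -/
theorem tresdesc_norm_pow (x : LaurentSeries K) (m : ℕ) :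
    s36dNorm (x ^ m) = s36dNorm x ^ m := by
  rw [s36dNorm, s36dNorm, s36d_leadingCoeff_pow, map_pow, div_pow]

/-- normalisation kills nonzero constants -/
theorem tresdesc_norm_C_mul {a : K} (ha : a ≠ 0) {x : LaurentSeries K} (hx : x ≠ 0) :
    s36dNorm (HahnSeries.C a * x) = s36dNorm x := by
  have h1 := s36d_C_ne_zero ha
  have h2 := s36d_C_ne_zero (HahnSeries.leadingCoeff_ne_zero.mpr hx)
  rw [s36dNorm, s36dNorm, HahnSeries.leadingCoeff_mul, s36d_leadingCoeff_C, map_mul]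
  field_simp

/-- `x ^ m = C a · y ^ m` ⇒ `x = C c · y` with `c ^ m = a` -/
theorem tresdesc_root {x y : LaurentSeries K} {a : K} {m : ℕ} (hm : (m : K) ≠ 0)
    (ha : a ≠ 0) (hy : y ≠ 0) (h : x ^ m = HahnSeries.C a * y ^ m) :
    ∃ c : K, c ≠ 0 ∧ c ^ m = a ∧ x = HahnSeries.C c * y := by
  have hm0 : m ≠ 0 := by
    rintro rfl
    exact hm Nat.cast_zero
  have hx : x ≠ 0 := by
    rintro rfl
    rw [zero_pow hm0] at h
    exact mul_ne_zero (s36d_C_ne_zero ha) (pow_ne_zero m hy) h.symm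
  have hlx : x.leadingCoeff ≠ 0 := HahnSeries.leadingCoeff_ne_zero.mpr hx
  have hly : y.leadingCoeff ≠ 0 := HahnSeries.leadingCoeff_ne_zero.mpr hy
  have h1 : s36dNorm x ^ m = s36dNorm y ^ m := by
    rw [← tresdesc_norm_pow, ← tresdesc_norm_pow, h, tresdesc_norm_C_mul ha (pow_ne_zero m hy)]
  have h2 : s36dNorm x = s36dNorm y :=
    s36d_root_unique (s36dNorm_leadingCoeff hx) (s36dNorm_leadingCoeff hy) hm h1
  have hlc : x.leadingCoeff ^ m = a * y.leadingCoeff ^ m := by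
    have := congrArg HahnSeries.leadingCoeff h
    rwa [s36d_leadingCoeff_pow, HahnSeries.leadingCoeff_mul, s36d_leadingCoeff_C,
      s36d_leadingCoeff_pow] at this
  refine ⟨x.leadingCoeff / y.leadingCoeff, div_ne_zero hlx hly, ?_, ?_⟩
  · rw [div_pow, hlc, mul_div_assoc, div_self (pow_ne_zero m hly), mul_one]
  · have e1 := s36dNorm_mul_C hx
    have e2 := s36dNorm_mul_C hy
    have hCy := s36d_C_ne_zero hly
    rw [map_div₀]
    calc x = HahnSeries.C x.leadingCoeff * s36dNorm y := by rw [← h2, e1]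
      _ = HahnSeries.C x.leadingCoeff / HahnSeries.C y.leadingCoeff *
            (HahnSeries.C y.leadingCoeff * s36dNorm y) := by
          field_simp
      _ = HahnSeries.C x.leadingCoeff / HahnSeries.C y.leadingCoeff * y := by rw [e2]

end Root

section Alg

variable {E : Type*} [Field E]

theorem tresdesc_alg1 {cb g tg u tu : E} {m : ℕ} (hcb : cb ≠ 0) (htg : tg ≠ 0)
    (h1 : cb * tg ^ m * tu = cb * g ^ m * u) : tu = (g / tg) ^ m * u := by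
  have htgm : tg ^ m ≠ 0 := pow_ne_zero m htg
  have h3 : cb * (tg ^ m * tu) = cb * (g ^ m * u) := by
    rw [← mul_assoc, ← mul_assoc]
    exact h1
  have h4 : tg ^ m * tu = g ^ m * u := mul_left_cancel₀ hcb h3
  rw [div_pow, div_mul_eq_mul_div, eq_div_iff htgm, mul_comm, h4]

theorem tresdesc_alg2 {ca cb csb sg g γ u : E} {m : ℕ} (hcsb : csb ≠ 0) (hu : u ≠ 0)
    (h : ca * g ^ m * (cb * γ ^ m * u) = csb * sg ^ m * u) :
    sg ^ m = ca * cb / csb * (g * γ) ^ m := by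
  have h1 : (ca * cb * (g * γ) ^ m) * u = (csb * sg ^ m) * u := by
    rw [← h, mul_pow]
    ring
  have h2 : ca * cb * (g * γ) ^ m = csb * sg ^ m := mul_right_cancel₀ hu h1
  rw [div_mul_eq_mul_div, eq_div_iff hcsb, mul_comm, ← h2]

theorem tresdesc_alg3 {cc g γ tγ : E} (hcc : cc ≠ 0) (hg : g ≠ 0) :
    cc * (g * γ) / (cc * (g * tγ)) = γ / tγ := by
  rw [mul_div_mul_left _ _ hcc, mul_div_mul_left _ _ hg]

theorem tresdesc_alg4 {ρ u tu : E} {m : ℕ} (hu : u ≠ 0) (h : tu = ρ ^ m * u) :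
    ρ ^ m = tu / u := by
  rw [h, mul_div_assoc, div_self hu, mul_one]

end Alg

section Core

variable {G : Subgroup (NfQb ≃ₐ[ℚ] NfQb)}
  {Fb : IntermediateField NfQb (LaurentSeries NfQb)}

/-- constants lie in every intermediate field -/
theorem tresdesc_C_mem (Fb : IntermediateField NfQb (LaurentSeries NfQb)) (a : NfQb) :
    (HahnSeries.C a : LaurentSeries NfQb) ∈ Fb := by
  rw [← s36d_algebraMap_eq_C]
  exact Fb.algebraMap_mem a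

theorem tresdesc_norm_mem {x : LaurentSeries NfQb} (hx : x ∈ Fb) : s36dNorm x ∈ Fb :=
  Fb.div_mem hx (tresdesc_C_mem Fb _)

/-- the Galois orbit of the normalisation is finite if that of the series is -/
theorem tresdesc_orbit_norm {U : LaurentSeries NfQb}
    (horb : Set.Finite {z : LaurentSeries NfQb | ∃ σ : NfQb ≃ₐ[ℚ] NfQb,
      z = coeffMap ((σ : NfQb ≃ₐ[ℚ] NfQb) : NfQb →+* NfQb) U}) :
    Set.Finite {z : LaurentSeries NfQb | ∃ σ : NfQb ≃ₐ[ℚ] NfQb,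
      z = coeffMap ((σ : NfQb ≃ₐ[ℚ] NfQb) : NfQb →+* NfQb) (s36dNorm U)} := by
  refine (horb.image s36dNorm).subset ?_
  rintro z ⟨σ, rfl⟩
  exact ⟨_, ⟨σ, rfl⟩, (s36dNorm_coeffMap _ U).symm⟩

/-- **(DESC′), abstract form.**  `U ∈ Fb` with finite Galois orbit whose class modulo constants
and `m`-th powers of `Fb` is `G`-invariant is `C (lc U) · γ ^ m · u″` with `u″ ∈ Fb` fixed by
`G`. -/
theorem tresdesc_desc (hstab : ∀ σ ∈ G, ∀ x ∈ Fb,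
      coeffMap ((σ : NfQb ≃ₐ[ℚ] NfQb) : NfQb →+* NfQb) x ∈ Fb)
    {m : ℕ} (hm : m ≠ 0) {U : LaurentSeries NfQb} (hU : U ≠ 0) (hUF : U ∈ Fb)
    (horb : Set.Finite {z : LaurentSeries NfQb | ∃ σ : NfQb ≃ₐ[ℚ] NfQb,
      z = coeffMap ((σ : NfQb ≃ₐ[ℚ] NfQb) : NfQb →+* NfQb) U})
    (hI : ∀ σ ∈ G, ∃ (a : NfQb) (h : LaurentSeries NfQb), h ∈ Fb ∧
      coeffMap ((σ : NfQb ≃ₐ[ℚ] NfQb) : NfQb →+* NfQb) U = HahnSeries.C a * h ^ m * U) :
    ∃ u'' γ : LaurentSeries NfQb, u'' ∈ Fb ∧ γ ∈ Fb ∧ u'' ≠ 0 ∧ γ ≠ 0 ∧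
      U = HahnSeries.C U.leadingCoeff * γ ^ m * u'' ∧
      ∀ σ ∈ G, coeffMap ((σ : NfQb ≃ₐ[ℚ] NfQb) : NfQb →+* NfQb) u'' = u'' := by
  classical
  set ũ : LaurentSeries NfQb := s36dNorm U with hũ
  have hũ0 : ũ ≠ 0 := s36dNorm_ne_zero hU
  have hũF : ũ ∈ Fb := tresdesc_norm_mem hUF
  have hI' : ∀ σ ∈ G, ∃ g : LaurentSeries NfQb, g ∈ Fb ∧ S36Monic g ∧
      g ^ m * ũ = coeffMap ((σ : NfQb ≃ₐ[ℚ] NfQb) : NfQb →+* NfQb) ũ := by
    intro σ hσ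
    obtain ⟨a, h, hhF, e1⟩ := hI σ hσ
    have hσU0 : coeffMap ((σ : NfQb ≃ₐ[ℚ] NfQb) : NfQb →+* NfQb) U ≠ 0 :=
      fun h0 => hU ((s36d_coeffMap_eq_zero_iff _ U).mp h0)
    have ha : a ≠ 0 := by
      rintro rfl
      apply hσU0
      rw [e1, map_zero, zero_mul, zero_mul]
    have hh : h ≠ 0 := by
      intro h0
      apply hσU0
      rw [e1, h0, zero_pow hm, mul_zero, zero_mul]
    have e2 := s36dNorm_eq ha hh hU e1
    rw [← s36dNorm_coeffMap] at e2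
    refine ⟨s36dNorm h, tresdesc_norm_mem hhF, ⟨?_, s36dNorm_leadingCoeff hh⟩, e2.symm⟩
    have e3 : (coeffMap ((σ : NfQb ≃ₐ[ℚ] NfQb) : NfQb →+* NfQb) U).order = U.order :=
      s36d_order_coeffMap _ U
    rw [e1, HahnSeries.order_mul (mul_ne_zero (s36d_C_ne_zero ha) (pow_ne_zero m hh)) hU,
      HahnSeries.order_mul (s36d_C_ne_zero ha) (pow_ne_zero m hh), s36d_order_C,
      s36d_order_pow hh, zero_add] at e3
    rw [s36dNorm_order hh]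
    have e4 : (m : ℤ) * h.order = 0 := by
      have : m • h.order = 0 := by linarith
      simpa [nsmul_eq_mul] using this
    rcases mul_eq_zero.mp e4 with h5 | h5
    · exact absurd (Nat.cast_eq_zero.mp h5) hm
    · exact h5
  obtain ⟨γ, hγF, hγ0, hfix⟩ :=
    s36d_hilbert (G := G) (Fb := Fb) hstab hm hũ0 (tresdesc_orbit_norm horb) hI'
  have hγm : γ ^ m ≠ 0 := pow_ne_zero m hγ0
  refine ⟨ũ * γ ^ m, γ⁻¹, Fb.mul_mem hũF (Fb.pow_mem hγF m), Fb.inv_mem hγF,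
    mul_ne_zero hũ0 hγm, inv_ne_zero hγ0, ?_, hfix⟩
  have := s36dNorm_mul_C hU
  rw [inv_pow, hũ]
  field_simp
  exact this.symm

/-- **(DECK), abstract form.** -/
theorem tresdesc_deck {m : ℕ} (hm : m ≠ 0) (t : Fb →+* LaurentSeries NfQb)
    (htC : ∀ (a : NfQb) (ha : (HahnSeries.C a : LaurentSeries NfQb) ∈ Fb),
      t ⟨HahnSeries.C a, ha⟩ = HahnSeries.C a)
    (htmem : ∀ y : Fb, t y ∈ Fb)
    (htG : ∀ σ ∈ G, ∀ (y : Fb)
      (hy : coeffMap ((σ : NfQb ≃ₐ[ℚ] NfQb) : NfQb →+* NfQb) (y : LaurentSeries NfQb) ∈ Fb),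
      t ⟨_, hy⟩ = coeffMap ((σ : NfQb ≃ₐ[ℚ] NfQb) : NfQb →+* NfQb) (t y))
    {U u'' γ : LaurentSeries NfQb} {b : NfQb} (hUF : U ∈ Fb) (hu''F : u'' ∈ Fb) (hγF : γ ∈ Fb)
    (hb : b ≠ 0) (hγ : γ ≠ 0) (hu'' : u'' ≠ 0)
    (hUt : t ⟨U, hUF⟩ = U) (hU : U = HahnSeries.C b * γ ^ m * u'')
    (hfix : ∀ σ ∈ G, coeffMap ((σ : NfQb ≃ₐ[ℚ] NfQb) : NfQb →+* NfQb) u'' = u'') :
    ∃ (α : NfQb) (h : LaurentSeries NfQb), α ≠ 0 ∧ h ∈ Fb ∧ h ≠ 0 ∧
      (∀ σ ∈ G, coeffMap ((σ : NfQb ≃ₐ[ℚ] NfQb) : NfQb →+* NfQb) h = h) ∧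
      t ⟨u'', hu''F⟩ = HahnSeries.C (α ^ m) * h ^ m * u'' ∧
      (∀ σ ∈ G, σ (α ^ m) = α ^ m) ∧
      ∀ σ ∈ G, (∃ (a : NfQb) (g : LaurentSeries NfQb) (hg : g ∈ Fb), t ⟨g, hg⟩ = g ∧
        coeffMap ((σ : NfQb ≃ₐ[ℚ] NfQb) : NfQb →+* NfQb) U = HahnSeries.C a * g ^ m * U) →
        σ α = α := by
  classical
  have hmK : ((m : ℕ) : NfQb) ≠ 0 := Nat.cast_ne_zero.mpr hm
  have hCb : (HahnSeries.C b : LaurentSeries NfQb) ≠ 0 := s36d_C_ne_zero hb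
  have hγm : γ ^ m ≠ 0 := pow_ne_zero m hγ
  have tne : ∀ (x : LaurentSeries NfQb) (hx : x ∈ Fb), x ≠ 0 → t ⟨x, hx⟩ ≠ 0 := by
    intro x hx hx0
    exact (map_ne_zero t).mpr fun h => hx0 (congrArg Subtype.val h)
  obtain ⟨tγ, htγ⟩ : ∃ tγ : LaurentSeries NfQb, tγ = t ⟨γ, hγF⟩ := ⟨_, rfl⟩
  obtain ⟨tu, htu⟩ : ∃ tu : LaurentSeries NfQb, tu = t ⟨u'', hu''F⟩ := ⟨_, rfl⟩
  have htγ0 : tγ ≠ 0 := htγ ▸ tne γ hγF hγ
  have htu0 : tu ≠ 0 := htu ▸ tne u'' hu''F hu''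
  have htγF : tγ ∈ Fb := htγ ▸ htmem _
  have htuF : tu ∈ Fb := htu ▸ htmem _
  -- `U = C b · tγ ^ m · tu`
  have e1 : U = HahnSeries.C b * tγ ^ m * tu := by
    have h1 : (⟨U, hUF⟩ : Fb) = ⟨HahnSeries.C b, tresdesc_C_mem Fb b⟩ *
        ⟨γ, hγF⟩ ^ m * ⟨u'', hu''F⟩ := Subtype.ext hU
    have h2 := congrArg t h1
    rw [hUt, map_mul, map_mul, map_pow, htC, ← htγ, ← htu] at h2
    exact h2
  -- `ρ = γ / tγ`, `tu = ρ ^ m · u″`
  obtain ⟨ρ, hρ⟩ : ∃ ρ : LaurentSeries NfQb, ρ = γ / tγ := ⟨_, rfl⟩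
  have hρ0 : ρ ≠ 0 := hρ ▸ div_ne_zero hγ htγ0
  have hρF : ρ ∈ Fb := hρ ▸ Fb.div_mem hγF htγF
  have e2 : tu = ρ ^ m * u'' := by
    rw [hρ]
    exact tresdesc_alg1 hCb htγ0 (e1.symm.trans hU)
  obtain ⟨α, hα⟩ : ∃ α : NfQb, α = ρ.leadingCoeff := ⟨_, rfl⟩
  have hα0 : α ≠ 0 := hα ▸ HahnSeries.leadingCoeff_ne_zero.mpr hρ0
  obtain ⟨h, hh⟩ : ∃ h : LaurentSeries NfQb, h = s36dNorm ρ := ⟨_, rfl⟩
  have hh0 : h ≠ 0 := hh ▸ s36dNorm_ne_zero hρ0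
  have hhF : h ∈ Fb := hh ▸ tresdesc_norm_mem hρF
  have hρh : ρ = HahnSeries.C α * h := by
    rw [hα, hh]
    exact (s36dNorm_mul_C hρ0).symm
  -- `ρ ^ m` is fixed by `G`
  have hρm : ∀ σ ∈ G, coeffMap ((σ : NfQb ≃ₐ[ℚ] NfQb) : NfQb →+* NfQb) (ρ ^ m) = ρ ^ m := by
    intro σ hσ
    have h1 : ρ ^ m = tu / u'' := tresdesc_alg4 hu'' e2
    have h2 : coeffMap ((σ : NfQb ≃ₐ[ℚ] NfQb) : NfQb →+* NfQb) tu = tu := by
      have hy : coeffMap ((σ : NfQb ≃ₐ[ℚ] NfQb) : NfQb →+* NfQb)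
          ((⟨u'', hu''F⟩ : Fb) : LaurentSeries NfQb) ∈ Fb := by
        show coeffMap ((σ : NfQb ≃ₐ[ℚ] NfQb) : NfQb →+* NfQb) u'' ∈ Fb
        rw [hfix σ hσ]
        exact hu''F
      have h3 := htG σ hσ ⟨u'', hu''F⟩ hy
      have h4 : (⟨coeffMap ((σ : NfQb ≃ₐ[ℚ] NfQb) : NfQb →+* NfQb)
          ((⟨u'', hu''F⟩ : Fb) : LaurentSeries NfQb), hy⟩ : Fb) = ⟨u'', hu''F⟩ :=
        Subtype.ext (hfix σ hσ)
      rw [h4, ← htu] at h3
      exact h3.symm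
    rw [h1, map_div₀, h2, hfix σ hσ]
  refine ⟨α, h, hα0, hhF, hh0, ?_, ?_, ?_, ?_⟩
  · intro σ hσ
    apply s36d_root_unique _ (hh ▸ s36dNorm_leadingCoeff hρ0) hmK
    · rw [← map_pow, hh, ← tresdesc_norm_pow, s36dNorm_coeffMap, hρm σ hσ]
    · rw [s36d_leadingCoeff_coeffMap, hh, s36dNorm_leadingCoeff hρ0, map_one]
  · rw [← htu, e2, hρh, mul_pow, map_pow]
  · intro σ hσ
    have h1 := congrArg HahnSeries.leadingCoeff (hρm σ hσ)
    rw [s36d_leadingCoeff_coeffMap, s36d_leadingCoeff_pow, ← hα] at h1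
    exact h1
  · rintro σ hσ ⟨a, g, hgF, htg, hσU⟩
    -- `σ γ = C c · g · γ`
    have hU0 : U ≠ 0 := by
      rw [hU]
      exact mul_ne_zero (mul_ne_zero hCb hγm) hu''
    have hσU0 : coeffMap ((σ : NfQb ≃ₐ[ℚ] NfQb) : NfQb →+* NfQb) U ≠ 0 :=
      fun h0 => hU0 ((s36d_coeffMap_eq_zero_iff _ U).mp h0)
    have ha : a ≠ 0 := by
      rintro rfl
      apply hσU0
      rw [hσU, map_zero, zero_mul, zero_mul]
    have hg : g ≠ 0 := by
      intro h0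
      apply hσU0
      rw [hσU, h0, zero_pow hm, mul_zero, zero_mul]
    have hσb : σ b ≠ 0 := (map_ne_zero _).mpr hb
    have hCσb : (HahnSeries.C (σ b) : LaurentSeries NfQb) ≠ 0 := s36d_C_ne_zero hσb
    have e3 : (coeffMap ((σ : NfQb ≃ₐ[ℚ] NfQb) : NfQb →+* NfQb) γ) ^ m =
        HahnSeries.C (a * b / σ b) * (g * γ) ^ m := by
      have h1 : coeffMap ((σ : NfQb ≃ₐ[ℚ] NfQb) : NfQb →+* NfQb) U =
          HahnSeries.C (σ b) * (coeffMap ((σ : NfQb ≃ₐ[ℚ] NfQb) : NfQb →+* NfQb) γ) ^ m *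
            u'' := by
        conv_lhs => rw [hU]
        rw [map_mul, map_mul, map_pow, s36d_coeffMap_C', hfix σ hσ]
        rfl
      have h2 : HahnSeries.C a * g ^ m * (HahnSeries.C b * γ ^ m * u'') =
          HahnSeries.C (σ b) * (coeffMap ((σ : NfQb ≃ₐ[ℚ] NfQb) : NfQb →+* NfQb) γ) ^ m *
            u'' := by
        rw [← hU, ← hσU]
        exact h1
      rw [map_div₀, map_mul]
      exact tresdesc_alg2 hCσb hu'' h2
    obtain ⟨c, hc0, -, hσγ⟩ := tresdesc_root hmK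
      (div_ne_zero (mul_ne_zero ha hb) hσb) (mul_ne_zero hg hγ) e3
    -- `σ (tγ) = C c · g · tγ`
    have hσγF : coeffMap ((σ : NfQb ≃ₐ[ℚ] NfQb) : NfQb →+* NfQb)
        ((⟨γ, hγF⟩ : Fb) : LaurentSeries NfQb) ∈ Fb := by
      show coeffMap ((σ : NfQb ≃ₐ[ℚ] NfQb) : NfQb →+* NfQb) γ ∈ Fb
      rw [hσγ]
      exact Fb.mul_mem (tresdesc_C_mem Fb c) (Fb.mul_mem hgF hγF)
    have e4 : coeffMap ((σ : NfQb ≃ₐ[ℚ] NfQb) : NfQb →+* NfQb) tγ =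
        HahnSeries.C c * (g * tγ) := by
      have h1 := htG σ hσ ⟨γ, hγF⟩ hσγF
      have h2 : (⟨coeffMap ((σ : NfQb ≃ₐ[ℚ] NfQb) : NfQb →+* NfQb)
          ((⟨γ, hγF⟩ : Fb) : LaurentSeries NfQb), hσγF⟩ : Fb) =
          ⟨HahnSeries.C c, tresdesc_C_mem Fb c⟩ * (⟨g, hgF⟩ * ⟨γ, hγF⟩) := Subtype.ext hσγ
      rw [h2, map_mul, map_mul, htC, htg, ← htγ] at h1
      exact h1.symm
    have e5 : coeffMap ((σ : NfQb ≃ₐ[ℚ] NfQb) : NfQb →+* NfQb) ρ = ρ := by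
      rw [hρ, map_div₀, hσγ, e4]
      exact tresdesc_alg3 (s36d_C_ne_zero hc0) hg
    have h1 := congrArg HahnSeries.leadingCoeff e5
    rw [s36d_leadingCoeff_coeffMap, ← hα] at h1
    exact h1

end Core

end Fermat.Agent.R38

end
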