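import Fermat.Agent.R38.TresCoverForm
import Fermat.Agent.R38.TresDesc
import Fermat.Agent.INJ.NumField
import Fermat.Agent.UNIP.MGConcrete

/-!
# R38 TRES, (FAC-p), piece T3-FLD: the cover over a finite extension of the inertia field

`F′ = tres5cField N y = F_N(ℚ̄)(y) ⊂ ℚ̄((q))`, `y ^ p ∈ F_N(ℚ̄)`, `y ≠ 0`.

* `TresftfNF f` : the coefficients of `f ∈ ℚ̄((q))` lie in a number field;
* `tresftf_coeff` (F1) : every `f ∈ F′` has its coefficients in a number field;
* `tresftf_exists` (F2) : finitely many constants, elements of `F_N(ℚ̄)` and elements of `F′` are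
  defined over `E″ = mgcE A K₁ = ℚ̄^I · K₁` for one number field `K₁`, Galois over `ℚ`,
  containing a given number field;
* `tresftf_transport` (F3) : an identity `u = C b · γ ^ p · u″` of `ℚ̄((q))` between elements
  defined over `E″` (resp. `K ≤ E″` for `u″`) holds in `L_{E″} = tres5cL E″ N y`
  (= hypothesis `hfac` of `tresft_compare`).
-/

set_option autoImplicit false
set_option linter.unusedSectionVars false
set_option linter.unusedVariables false
set_option linter.style.haveILetI false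

noncomputable section

open ModularCurve Fermat.Agent.INJ Fermat.Agent.UNIP Fermat.Agent.S36

namespace Fermat.Agent.R38

section NF

/-- the coefficients of `f` lie in a number field -/
def TresftfNF (f : LaurentSeries NfQb) : Prop :=
  ∃ K₁ : IntermediateField ℚ NfQb, FiniteDimensional ℚ K₁ ∧
    ∃ g : LaurentSeries K₁, coeffMap (algebraMap K₁ NfQb) g = f

/-- a Laurent series with coefficients in `E` comes from `E((q))` -/
theorem tresftf_exists_of_coeff (E : IntermediateField ℚ NfQb) {f : LaurentSeries NfQb}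
    (hc : ∀ n : ℤ, f.coeff n ∈ E) :
    ∃ g : LaurentSeries E, coeffMap (algebraMap E NfQb) g = f := by
  classical
  have hsupp : (Function.support fun n : ℤ => (⟨f.coeff n, hc n⟩ : E)).IsPWO := by
    refine f.isPWO_support.mono fun n hn => ?_
    rw [Function.mem_support] at hn
    rw [HahnSeries.mem_support]
    intro h0
    exact hn (Subtype.ext h0)
  refine ⟨⟨fun n => ⟨f.coeff n, hc n⟩, hsupp⟩, ?_⟩
  ext n
  rfl

theorem tresftf_nf_iff (f : LaurentSeries NfQb) :
    TresftfNF f ↔ ∃ K₁ : IntermediateField ℚ NfQb, FiniteDimensional ℚ K₁ ∧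
      ∀ n : ℤ, f.coeff n ∈ K₁ := by
  constructor
  · rintro ⟨K₁, hK₁, g, rfl⟩
    exact ⟨K₁, hK₁, fun n => (g.coeff n).2⟩
  · rintro ⟨K₁, hK₁, hc⟩
    exact ⟨K₁, hK₁, tresftf_exists_of_coeff K₁ hc⟩

theorem TresftfNF.mono {f : LaurentSeries NfQb} {K₁ K₂ : IntermediateField ℚ NfQb}
    (h : K₁ ≤ K₂) {g : LaurentSeries K₁} (hg : coeffMap (algebraMap K₁ NfQb) g = f) :
    coeffMap (algebraMap K₂ NfQb) (coeffMap (IntermediateField.inclusion h).toRingHom g) = f := by
  rw [nf_coeffMap_inclusion h g, hg]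

theorem TresftfNF.add {f f' : LaurentSeries NfQb} (hf : TresftfNF f) (hf' : TresftfNF f') :
    TresftfNF (f + f') := by
  obtain ⟨K₁, hK₁, g, hg⟩ := hf
  obtain ⟨K₂, hK₂, g', hg'⟩ := hf'
  refine ⟨K₁ ⊔ K₂, IntermediateField.finiteDimensional_sup K₁ K₂,
    coeffMap (IntermediateField.inclusion (le_sup_left : K₁ ≤ K₁ ⊔ K₂)).toRingHom g +
      coeffMap (IntermediateField.inclusion (le_sup_right : K₂ ≤ K₁ ⊔ K₂)).toRingHom g', ?_⟩
  rw [map_add, TresftfNF.mono le_sup_left hg, TresftfNF.mono le_sup_right hg']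

theorem TresftfNF.mul {f f' : LaurentSeries NfQb} (hf : TresftfNF f) (hf' : TresftfNF f') :
    TresftfNF (f * f') := by
  obtain ⟨K₁, hK₁, g, hg⟩ := hf
  obtain ⟨K₂, hK₂, g', hg'⟩ := hf'
  refine ⟨K₁ ⊔ K₂, IntermediateField.finiteDimensional_sup K₁ K₂,
    coeffMap (IntermediateField.inclusion (le_sup_left : K₁ ≤ K₁ ⊔ K₂)).toRingHom g *
      coeffMap (IntermediateField.inclusion (le_sup_right : K₂ ≤ K₁ ⊔ K₂)).toRingHom g', ?_⟩
  rw [map_mul, TresftfNF.mono le_sup_left hg, TresftfNF.mono le_sup_right hg']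

theorem TresftfNF.inv {f : LaurentSeries NfQb} (hf : TresftfNF f) : TresftfNF f⁻¹ := by
  obtain ⟨K₁, hK₁, g, hg⟩ := hf
  exact ⟨K₁, hK₁, g⁻¹, by rw [map_inv₀, hg]⟩

theorem tresftf_nf_const (a : NfQb) :
    TresftfNF (algebraMap NfQb (LaurentSeries NfQb) a) := by
  have ha : IsIntegral ℚ a := (AlgebraicClosure.isAlgebraic ℚ).isIntegral.isIntegral a
  refine ⟨IntermediateField.adjoin ℚ {a}, IntermediateField.adjoin.finiteDimensional ha,
    algebraMap _ _
      (⟨a, IntermediateField.mem_adjoin_simple_self ℚ a⟩ : IntermediateField.adjoin ℚ {a}), ?_⟩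
  rw [nf_coeffMap_algebraMap]
  rfl

variable {N : ℕ} [NeZero N]

theorem tresftf_nf_bar {f : LaurentSeries NfQb} (hf : f ∈ modularFunctionFieldBar N) :
    TresftfNF f := by
  obtain ⟨K₀, hK₀, y₀, -, hy₀⟩ := nf_exists_descent hf
  exact ⟨K₀, hK₀, y₀, hy₀⟩

/-- a root of a series with coefficients in a number field has coefficients in a number
field -/
theorem tresftf_nf_root {p : ℕ} (hp : p ≠ 0) {y : LaurentSeries NfQb} (hy0 : y ≠ 0)
    (hy : TresftfNF (y ^ p)) : TresftfNF y := by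
  classical
  obtain ⟨K₀, hK₀, w₀, hw₀⟩ := hy
  have hc : IsIntegral ℚ y.leadingCoeff :=
    (AlgebraicClosure.isAlgebraic ℚ).isIntegral.isIntegral _
  haveI : FiniteDimensional ℚ (IntermediateField.adjoin ℚ {y.leadingCoeff}) :=
    IntermediateField.adjoin.finiteDimensional hc
  haveI := hK₀
  set K₁ : IntermediateField ℚ NfQb := K₀ ⊔ IntermediateField.adjoin ℚ {y.leadingCoeff} with hK₁
  have hK₁fin : FiniteDimensional ℚ K₁ := IntermediateField.finiteDimensional_sup _ _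
  have hcK₁ : y.leadingCoeff ∈ K₁ :=
    (le_sup_right : IntermediateField.adjoin ℚ {y.leadingCoeff} ≤ K₁)
      (IntermediateField.mem_adjoin_simple_self ℚ _)
  rw [tresftf_nf_iff]
  refine ⟨K₁, hK₁fin, fun n => ?_⟩
  haveI := Fermat.Agent.Common.isAlgClosure_rat_qbar
  have hmem : y.coeff n ∈ IntermediateField.fixedField K₁.fixingSubgroup := by
    rw [IntermediateField.mem_fixedField_iff]
    intro σ hσ
    have hσK : ∀ x ∈ K₁, σ x = x := fun x hx =>
      (IntermediateField.mem_fixingSubgroup_iff K₁ σ).mp hσ x hx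
    -- `σ` fixes `y ^ p`
    have h1 : coeffMap ((σ : NfQb ≃ₐ[ℚ] NfQb) : NfQb →+* NfQb) (y ^ p) = y ^ p := by
      rw [← hw₀, coeffMap_coeffMap]
      refine coeffMap_congr (RingHom.ext fun c => ?_) w₀
      exact hσK _ ((le_sup_left : K₀ ≤ K₁) c.2)
    have hmK : ((p : ℕ) : NfQb) ≠ 0 := Nat.cast_ne_zero.mpr hp
    have h2 : (coeffMap ((σ : NfQb ≃ₐ[ℚ] NfQb) : NfQb →+* NfQb) y) ^ p =
        HahnSeries.C (1 : NfQb) * y ^ p := by
      rw [← map_pow, h1, map_one, one_mul]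
    obtain ⟨c, hc0, -, hc2⟩ := tresdesc_root hmK one_ne_zero hy0 h2
    have h3 := congrArg HahnSeries.leadingCoeff hc2
    rw [s36d_leadingCoeff_coeffMap, HahnSeries.leadingCoeff_mul, s36d_leadingCoeff_C] at h3
    have h4 : ((σ : NfQb ≃ₐ[ℚ] NfQb) : NfQb →+* NfQb) y.leadingCoeff = y.leadingCoeff :=
      hσK _ hcK₁
    rw [h4] at h3
    have hlc : y.leadingCoeff ≠ 0 := HahnSeries.leadingCoeff_ne_zero.mpr hy0
    have hc1 : c = 1 := by
      have h5 : c * y.leadingCoeff = 1 * y.leadingCoeff := by rw [one_mul]; exact h3.symm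
      exact mul_right_cancel₀ hlc h5
    rw [hc1, map_one, one_mul] at hc2
    have h6 := congrArg (fun z : LaurentSeries NfQb => z.coeff n) hc2
    exact h6
  rwa [InfiniteGalois.fixedField_fixingSubgroup] at hmem

/-- **(F1)** every element of the cover `F′ = F_N(ℚ̄)(y)` has its coefficients in a number
field. -/
theorem tresftf_coeff {p : ℕ} (hp : p ≠ 0) {y : LaurentSeries NfQb} (hy0 : y ≠ 0)
    (hy : y ^ p ∈ modularFunctionFieldBar N) {f : LaurentSeries NfQb}
    (hf : f ∈ tres5cField N y) :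
    ∃ K₁ : IntermediateField ℚ NfQb, FiniteDimensional ℚ K₁ ∧ ∀ n : ℤ, f.coeff n ∈ K₁ := by
  rw [← tresftf_nf_iff]
  have hyNF : TresftfNF y := tresftf_nf_root hp hy0 (tresftf_nf_bar hy)
  rw [tres5cField] at hf
  induction hf using IntermediateField.adjoin_induction with
  | mem x hx =>
    rcases hx with hx | hx
    · exact tresftf_nf_bar hx
    · rw [Set.mem_singleton_iff] at hx
      rw [hx]
      exact hyNF
  | algebraMap a => exact tresftf_nf_const a
  | add x z _ _ hx hz => exact hx.add hz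
  | inv x _ hx => exact hx.inv
  | mul x z _ _ hx hz => exact hx.mul hz

/-- finitely many elements of the cover have their coefficients in one number field -/
theorem tresftf_coeff_finset {p : ℕ} (hp : p ≠ 0) {y : LaurentSeries NfQb} (hy0 : y ≠ 0)
    (hy : y ^ p ∈ modularFunctionFieldBar N) (Fs : Finset (LaurentSeries NfQb))
    (hFs : ∀ f ∈ Fs, f ∈ tres5cField N y) :
    ∃ K₁ : IntermediateField ℚ NfQb, FiniteDimensional ℚ K₁ ∧
      ∀ f ∈ Fs, ∀ n : ℤ, f.coeff n ∈ K₁ := by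
  classical
  induction Fs using Finset.induction_on with
  | empty => exact ⟨⊥, inferInstance, fun f hf => absurd hf (Finset.notMem_empty f)⟩
  | insert a s ha ih =>
    obtain ⟨K₁, hK₁, h1⟩ := ih fun f hf => hFs f (Finset.mem_insert_of_mem hf)
    obtain ⟨K₂, hK₂, h2⟩ := tresftf_coeff hp hy0 hy (hFs a (Finset.mem_insert_self a s))
    haveI := hK₁
    haveI := hK₂
    refine ⟨K₁ ⊔ K₂, IntermediateField.finiteDimensional_sup K₁ K₂, fun f hf n => ?_⟩
    rcases Finset.mem_insert.mp hf with rfl | hf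
    · exact (le_sup_right : K₂ ≤ K₁ ⊔ K₂) (h2 n)
    · exact (le_sup_left : K₁ ≤ K₁ ⊔ K₂) (h1 f hf n)

/-- **(F2)** finitely many constants, elements of `F_N(ℚ̄)` and elements of the cover are
defined over `E″ = ℚ̄^I · K₁` for one number field `K₁ ⊇ K⁰`, Galois over `ℚ`. -/
theorem tresftf_exists {p : ℕ} (hp : p ≠ 0) {y : LaurentSeries NfQb} (hy0 : y ≠ 0)
    (hy : y ^ p ∈ modularFunctionFieldBar N) (A : ValuationSubring NfQb)
    (K0 : IntermediateField ℚ NfQb) (hK0 : FiniteDimensional ℚ K0)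
    (Cs : Finset NfQb) (Us : Finset (LaurentSeries NfQb))
    (hUs : ∀ u ∈ Us, u ∈ modularFunctionFieldBar N)
    (Fs : Finset (LaurentSeries NfQb)) (hFs : ∀ f ∈ Fs, f ∈ tres5cField N y) :
    ∃ K₁ : IntermediateField ℚ NfQb, K0 ≤ K₁ ∧ FiniteDimensional ℚ K₁ ∧ IsGalois ℚ K₁ ∧
      (∀ c ∈ Cs, c ∈ K₁) ∧
      (∀ u ∈ Us, ∃ v : ↥(modularFunctionFieldFullC ↥(mgcE A K₁) N),
        coeffMap (algebraMap ↥(mgcE A K₁) NfQb) (v : LaurentSeries ↥(mgcE A K₁)) = u) ∧
      (∀ f ∈ Fs, ∃ g : ↥(tres5cL (mgcE A K₁) N y),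
        coeffMap (algebraMap ↥(mgcE A K₁) NfQb) (g : LaurentSeries ↥(mgcE A K₁)) = f) := by
  classical
  obtain ⟨K₀, hK₀, hCs, hdesc⟩ := nf_exists_descent_finset (N := N) Cs Us hUs
  obtain ⟨K₂, hK₂, hcoeff⟩ := tresftf_coeff_finset hp hy0 hy Fs hFs
  haveI := hK0
  haveI := hK₀
  haveI := hK₂
  set K₃ : IntermediateField ℚ NfQb := K0 ⊔ K₀ ⊔ K₂ with hK₃
  haveI h3a : FiniteDimensional ℚ (K0 ⊔ K₀ : IntermediateField ℚ NfQb) :=
    IntermediateField.finiteDimensional_sup K0 K₀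
  haveI hK₃fin : FiniteDimensional ℚ K₃ := IntermediateField.finiteDimensional_sup _ K₂
  set K₁ : IntermediateField ℚ NfQb := IntermediateField.normalClosure ℚ K₃ NfQb with hK₁
  have hle : K₃ ≤ K₁ := IntermediateField.le_normalClosure K₃
  haveI hK₁fin : FiniteDimensional ℚ K₁ := normalClosure.is_finiteDimensional ℚ K₃ NfQb
  haveI := Fermat.Agent.Common.isAlgClosure_rat_qbar
  haveI : Normal ℚ K₁ := normalClosure.normal ℚ K₃ NfQb
  have hgal : IsGalois ℚ K₁ := IsGalois.mk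
  have hE : K₁ ≤ mgcE A K₁ := le_sup_right
  have h0 : K0 ≤ K₃ := le_sup_of_le_left le_sup_left
  have h1 : K₀ ≤ K₃ := le_sup_of_le_left le_sup_right
  have h2 : K₂ ≤ K₃ := le_sup_right
  refine ⟨K₁, h0.trans hle, hK₁fin, hgal, fun c hc => hle (h1 (hCs c hc)), ?_, ?_⟩
  · intro u hu
    obtain ⟨v, hv, hvu⟩ := hdesc (mgcE A K₁) ((h1.trans hle).trans hE) u hu
    exact ⟨⟨v, hv⟩, hvu⟩
  · intro f hf
    exact tres5cL_exists_of_coeff (mgcE A K₁) N y (hFs f hf)
      (fun n => hE (hle (h2 (hcoeff f hf n))))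

end NF

section Transport

variable {E Ω : Type*} [Field E] [Field Ω] (ι : E →+* Ω)
  {F₀ : IntermediateField E (LaurentSeries E)} {S : IntermediateField ↥F₀ (LaurentSeries E)}

/-- **(F3), generic form**: an identity in `Ω((q))` between images of elements of `E((q))` holds
in `E((q))`. -/
theorem tresftf_transport_gen {p : ℕ} {v : ↥F₀} {b' : E} {g w : ↥S}
    (hfac : coeffMap ι (v : LaurentSeries E) =
      HahnSeries.C (ι b') * (coeffMap ι (g : LaurentSeries E)) ^ p *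
        coeffMap ι (w : LaurentSeries E)) :
    algebraMap ↥F₀ ↥S v = algebraMap ↥F₀ ↥S (algebraMap E ↥F₀ b') * g ^ p * w := by
  apply Subtype.ext
  apply nf_coeffMap_injective ι
  show coeffMap ι (v : LaurentSeries E) =
    coeffMap ι ((algebraMap E (LaurentSeries E) b') * (g : LaurentSeries E) ^ p *
      (w : LaurentSeries E))
  rw [hfac, map_mul, map_mul, map_pow, s36d_algebraMap_eq_C, s36d_coeffMap_C']

end Transport

section TransportConc

variable {N : ℕ} [NeZero N]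

/-- **(F3)** transport of the identity `u = C b · γ ^ p · u″` to `L_{E}`: `u = nfEmb v`,
`γ = coeffMap g`, `g ∈ L_E`, `u″ = coeffMap w`, `w ∈ L_K`, `K ≤ E`, `b ∈ E`.  The conclusion is
the hypothesis `hfac` of `tresft_compare` for `L = L_K`, `L₂ = L_E`, `F₂ = F_N(E)`. -/
theorem tresftf_transport {E K : IntermediateField ℚ NfQb} (h : K ≤ E)
    (y : LaurentSeries NfQb) {p : ℕ}
    {v : ↥(modularFunctionFieldFullC ↥E N)} {b' : ↥E} {g : ↥(tres5cL E N y)}
    {w : ↥(tres5cL K N y)}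
    (hfac : coeffMap (algebraMap ↥E NfQb) (v : LaurentSeries ↥E) =
      HahnSeries.C (algebraMap ↥E NfQb b') *
        (coeffMap (algebraMap ↥E NfQb) (g : LaurentSeries ↥E)) ^ p *
        coeffMap (algebraMap ↥K NfQb) (w : LaurentSeries ↥K)) :
    algebraMap ↥(modularFunctionFieldFullC ↥E N) ↥(tres5cL E N y) v =
      algebraMap ↥(modularFunctionFieldFullC ↥E N) ↥(tres5cL E N y)
        (algebraMap ↥E ↥(modularFunctionFieldFullC ↥E N) b') * g ^ p * tres5cIncl N y h w := by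
  refine tresftf_transport_gen (algebraMap ↥E NfQb) ?_
  rw [tres5cIncl_coe, nf_coeffMap_inclusion h]
  exact hfac

/-- **T3-FLD, main form.**  A decomposition `u = C b · γ ^ p · u″` in `ℚ̄((q))` with
`u ∈ F_N(ℚ̄)`, `γ ∈ F′`, `u″ = coeffMap w`, `w ∈ L_K` (`K = ℚ̄^I`) is defined over
`E″ = ℚ̄^I · K₁` for a number field `K₁ ⊇ K⁰`, Galois over `ℚ`, and holds in `L_{E″}`. -/
theorem tresftf_main {p : ℕ} (hp : p ≠ 0) {y : LaurentSeries NfQb} (hy0 : y ≠ 0)
    (hy : y ^ p ∈ modularFunctionFieldBar N) (A : ValuationSubring NfQb)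
    (K0 : IntermediateField ℚ NfQb) (hK0 : FiniteDimensional ℚ K0)
    {u : ↥(modularFunctionFieldBar N)} {b : NfQb} {γ : LaurentSeries NfQb}
    (hγ : γ ∈ tres5cField N y) (w : ↥(tres5cL (beta0Field A) N y))
    (hfac : (u : LaurentSeries NfQb) = HahnSeries.C b * γ ^ p *
      coeffMap (algebraMap ↥(beta0Field A) NfQb) (w : LaurentSeries ↥(beta0Field A))) :
    ∃ K₁ : IntermediateField ℚ NfQb, K0 ≤ K₁ ∧ FiniteDimensional ℚ K₁ ∧ IsGalois ℚ K₁ ∧
      ∃ (v : ↥(modularFunctionFieldFullC ↥(mgcE A K₁) N)) (b' : ↥(mgcE A K₁))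
        (g : ↥(tres5cL (mgcE A K₁) N y)),
        nfEmb (mgcE A K₁) N v = u ∧ algebraMap ↥(mgcE A K₁) NfQb b' = b ∧
        coeffMap (algebraMap ↥(mgcE A K₁) NfQb) (g : LaurentSeries ↥(mgcE A K₁)) = γ ∧
        algebraMap ↥(modularFunctionFieldFullC ↥(mgcE A K₁) N) ↥(tres5cL (mgcE A K₁) N y) v =
          algebraMap ↥(modularFunctionFieldFullC ↥(mgcE A K₁) N) ↥(tres5cL (mgcE A K₁) N y)
            (algebraMap ↥(mgcE A K₁) ↥(modularFunctionFieldFullC ↥(mgcE A K₁) N) b') * g ^ p *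
            tres5cIncl N y (le_sup_left : beta0Field A ≤ mgcE A K₁) w := by
  classical
  obtain ⟨K₁, hK0le, hK₁, hgal, hCs, hUs, hFs⟩ :=
    tresftf_exists hp hy0 hy A K0 hK0 {b} {(u : LaurentSeries NfQb)}
      (fun x hx => by rw [Finset.mem_singleton.mp hx]; exact u.2) {γ}
      (fun x hx => by rw [Finset.mem_singleton.mp hx]; exact hγ)
  obtain ⟨v, hv⟩ := hUs _ (Finset.mem_singleton_self _)
  obtain ⟨g, hg⟩ := hFs _ (Finset.mem_singleton_self _)
  have hb : b ∈ mgcE A K₁ := (le_sup_right : K₁ ≤ mgcE A K₁) (hCs b (Finset.mem_singleton_self b))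
  refine ⟨K₁, hK0le, hK₁, hgal, v, ⟨b, hb⟩, g, Subtype.ext hv, rfl, hg, ?_⟩
  refine tresftf_transport (le_sup_left : beta0Field A ≤ mgcE A K₁) y ?_
  rw [hv, hg]
  exact hfac

end TransportConc

end Fermat.Agent.R38

end
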