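/-
ROW 38, TRES, piece ASM-COV (helper64, paired with helper78), part K1: ABSTRACT KUMMER THEORY of
the cover `F′ = F(y)`, `y ^ p = w ∈ F`, `w` not a `p`-th power in `F`, inside a big field `Ω`
(`Ω = ℚ̄((q))`, `F = F_N(ℚ̄)`, `adjoin k (F ∪ {y})` = helper30's `tresCov N y` = helper78's
`tres5cField N y`).  Mathlib only.

* `tres5ck_minpoly`      : `minpoly F y = X ^ p − w`;
* `tres5ck_finrank`      : `[F(y) : F] = p`;
* `tres5ck_exists_deck`  : the deck transformation `ρ : F(y) ≃ₐ[F] F(y)`, `ρ y = ζ y`;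
* `tres5ck_restrictScalars`, `tres5ck_mem_iff` : `adjoin k (F ∪ {y}) = F(y)` as sets;
* `tres5ck_exists_repr`  : every element of the cover is `∑_{i<p} aᵢ yⁱ`, `aᵢ ∈ F`;
* `tres5ck_repr_unique`  : `1, y, …, y^{p−1}` are linearly independent over `F`.
-/
import Mathlib

set_option autoImplicit false

namespace Fermat.Agent.R38

open Polynomial IntermediateField

section Kummer

variable {k Ω : Type*} [Field k] [Field Ω] [Algebra k Ω]

/-- the Kummer polynomial kills the Kummer generator -/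
theorem tres5ck_aeval (F : IntermediateField k Ω) {p : ℕ} (y : Ω) (w : F)
    (hy : y ^ p = (w : Ω)) : aeval y (X ^ p - C w : F[X]) = 0 := by
  rw [map_sub, map_pow, aeval_X, aeval_C, hy]
  exact sub_self _

/-- a Kummer generator is integral -/
theorem tres5ck_isIntegral (F : IntermediateField k Ω) {p : ℕ} (hp : p ≠ 0) (y : Ω) (w : F)
    (hy : y ^ p = (w : Ω)) : IsIntegral F y :=
  ⟨X ^ p - C w, monic_X_pow_sub_C w hp, tres5ck_aeval F y w hy⟩

/-- the minimal polynomial of a Kummer generator -/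
theorem tres5ck_minpoly (F : IntermediateField k Ω) {p : ℕ} (hp : p.Prime) (y : Ω) (w : F)
    (hy : y ^ p = (w : Ω)) (hw : ∀ c : F, c ^ p ≠ w) : minpoly F y = X ^ p - C w :=
  (minpoly.eq_of_irreducible_of_monic (X_pow_sub_C_irreducible_of_prime hp hw)
    (tres5ck_aeval F y w hy) (monic_X_pow_sub_C w hp.ne_zero)).symm

/-- `[F(y) : F] = p` -/
theorem tres5ck_finrank (F : IntermediateField k Ω) {p : ℕ} (hp : p.Prime) (y : Ω) (w : F)
    (hy : y ^ p = (w : Ω)) (hw : ∀ c : F, c ^ p ≠ w) : Module.finrank F F⟮y⟯ = p := by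
  rw [adjoin.finrank (tres5ck_isIntegral F hp.ne_zero y w hy), tres5ck_minpoly F hp y w hy hw,
    natDegree_X_pow_sub_C]

/-- **the deck transformation** of the Kummer extension `F(y) / F`, `ρ y = ζ y`. -/
theorem tres5ck_exists_deck (F : IntermediateField k Ω) {p : ℕ} (hp : p.Prime) (y : Ω) (w : F)
    (hy : y ^ p = (w : Ω)) (hw : ∀ c : F, c ^ p ≠ w) (ζ : F) (hζ : ζ ^ p = 1) :
    ∃ ρ : F⟮y⟯ ≃ₐ[F] F⟮y⟯, ρ (AdjoinSimple.gen F y) = ζ • AdjoinSimple.gen F y := by
  have hint := tres5ck_isIntegral F hp.ne_zero y w hy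
  have : FiniteDimensional F F⟮y⟯ := adjoin.finiteDimensional hint
  let pb := adjoin.powerBasis hint
  have hgen : pb.gen = AdjoinSimple.gen F y := rfl
  have hmin : minpoly F pb.gen = X ^ p - C w := by
    rw [hgen, minpoly_gen, tres5ck_minpoly F hp y w hy hw]
  have hgp : (AdjoinSimple.gen F y) ^ p = algebraMap F F⟮y⟯ w := by
    apply Subtype.ext
    rw [SubmonoidClass.coe_pow, AdjoinSimple.coe_gen, hy]
    rfl
  have hroot : aeval (ζ • AdjoinSimple.gen F y) (minpoly F pb.gen) = 0 := by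
    rw [hmin, map_sub, map_pow, aeval_X, aeval_C, _root_.smul_pow, hζ, one_smul, hgp]
    exact sub_self _
  let ρ₀ : F⟮y⟯ →ₐ[F] F⟮y⟯ := pb.lift _ hroot
  refine ⟨AlgEquiv.ofBijective ρ₀ (AlgHom.bijective ρ₀), ?_⟩
  show ρ₀ (AdjoinSimple.gen F y) = _
  rw [← hgen]
  exact pb.lift_gen _ hroot

/-- the cover, as an intermediate field over `k` -/
theorem tres5ck_restrictScalars (F : IntermediateField k Ω) (y : Ω) :
    (F⟮y⟯).restrictScalars k = adjoin k (↑F ∪ {y}) :=
  restrictScalars_adjoin (F := k) F ({y} : Set Ω)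

theorem tres5ck_mem_iff (F : IntermediateField k Ω) (y x : Ω) :
    x ∈ adjoin k ((F : Set Ω) ∪ {y}) ↔ x ∈ F⟮y⟯ := by
  rw [← tres5ck_restrictScalars]
  rfl

/-- coordinates in the power basis `1, y, …, y ^ (p - 1)` -/
theorem tres5ck_exists_repr (F : IntermediateField k Ω) {p : ℕ} (hp : p.Prime) (y : Ω) (w : F)
    (hy : y ^ p = (w : Ω)) (hw : ∀ c : F, c ^ p ≠ w) (x : Ω)
    (hx : x ∈ adjoin k ((F : Set Ω) ∪ {y})) :
    ∃ a : Fin p → F, x = ∑ i, (a i : Ω) * y ^ (i : ℕ) := by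
  rw [tres5ck_mem_iff] at hx
  have hint := tres5ck_isIntegral F hp.ne_zero y w hy
  let pb := adjoin.powerBasis hint
  have hdim : pb.dim = p := by
    show (minpoly F y).natDegree = p
    rw [tres5ck_minpoly F hp y w hy hw, natDegree_X_pow_sub_C]
  have h1 := pb.basis.sum_repr ⟨x, hx⟩
  refine ⟨fun i => pb.basis.repr ⟨x, hx⟩ (Fin.cast hdim.symm i), ?_⟩
  have h2 : x = ((∑ i, pb.basis.repr ⟨x, hx⟩ i • pb.basis i : F⟮y⟯) : Ω) :=
    (congrArg (fun z : F⟮y⟯ => (z : Ω)) h1).symm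
  refine h2.trans ?_
  rw [AddSubmonoidClass.coe_finsetSum]
  rw [← Equiv.sum_comp (finCongr hdim.symm)]
  refine Finset.sum_congr rfl fun i _ => ?_
  rw [PowerBasis.coe_basis]
  simp only [finCongr_apply, Fin.val_cast]
  show _ = ((pb.basis.repr ⟨x, hx⟩ (Fin.cast hdim.symm i) • (pb.gen ^ (i : ℕ)) : F⟮y⟯) : Ω)
  rw [IntermediateField.coe_smul, SubmonoidClass.coe_pow]

/-- linear independence of `1, y, …, y ^ (p - 1)` over `F` -/
theorem tres5ck_repr_unique (F : IntermediateField k Ω) {p : ℕ} (hp : p.Prime) (y : Ω) (w : F)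
    (hy : y ^ p = (w : Ω)) (hw : ∀ c : F, c ^ p ≠ w) (a : Fin p → F)
    (h : ∑ i, (a i : Ω) * y ^ (i : ℕ) = 0) : a = 0 := by
  -- the polynomial `∑ a i X ^ i` of degree `< p` kills `y`
  set Q : F[X] := ∑ i : Fin p, C (a i) * X ^ (i : ℕ) with hQ
  have hQy : aeval y Q = 0 := by
    rw [hQ, map_sum, ← h]
    refine Finset.sum_congr rfl fun i _ => ?_
    rw [map_mul, map_pow, aeval_X, aeval_C]
    rfl
  have hdeg : Q.degree < (p : WithBot ℕ) := by
    rw [hQ]
    refine lt_of_le_of_lt (degree_sum_le _ _) ?_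
    rw [Finset.sup_lt_iff (by exact WithBot.bot_lt_coe p)]
    intro i _
    refine lt_of_le_of_lt (degree_C_mul_X_pow_le _ _) ?_
    exact_mod_cast i.2
  have hQ0 : Q = 0 := by
    by_contra hne
    have h1 := minpoly.degree_le_of_ne_zero F y hne hQy
    rw [tres5ck_minpoly F hp y w hy hw, degree_X_pow_sub_C hp.pos] at h1
    exact absurd (lt_of_le_of_lt h1 hdeg) (lt_irrefl _)
  funext i
  have h2 := congrArg (fun P : F[X] => P.coeff (i : ℕ)) hQ0
  simp only [hQ, finsetSum_coeff, coeff_C_mul, coeff_X_pow, coeff_zero] at h2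
  rw [Finset.sum_eq_single i] at h2
  · simpa using h2
  · intro j _ hji
    have : (i : ℕ) ≠ (j : ℕ) := fun e => hji (Fin.ext e.symm)
    simp [this]
  · intro hi
    exact absurd (Finset.mem_univ i) hi

end Kummer

end Fermat.Agent.R38
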