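/-
ROW 38, TRES, piece FAC-HOR (helper61), part 3: THE INSTANCE ON THE FORMS OF helper78.

`E ⊆ Ω` fields of characteristic `0`, `Ω / E` algebraic (`E = K = ℚ̄^I`, `Ω = ℚ̄`);
`Fb ≤ L′` intermediate fields of `Ω((q)) / Ω` (`Fb = F_N(ℚ̄)`, `L′ = tres5cField N y` the cover),
`L′ / Fb` integral;  `F₀` an intermediate field of `E((q)) / E` mapped into `L′` (`F₀ = F_N(E)`);
`L_E := tres5cForm (algebraMap E Ω) F₀ L′.toSubfield hF` the `E`-form of the cover
(`R38/TresCoverConc.lean`).

* `tres5hEmb`       : the embedding `L_E → L′` (`coeffMap`);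
* `tres5h_form_gen` : the ambient generation statement
                      `L′ ≤ adjoin Ω {x ∈ L′ | x has coefficients in E}`
                      gives the hypothesis `hgen` of `tres5h_main`;
* `tres5h_form`     : **FAC-HOR on the form**: `u ∈ Fb` with `m ∣ div u`,
                      `u = C c · H ^ m · coeffMap g`, `c ≠ 0`, `H ∈ L′ ∖ 0`, `g ∈ L_E`
                      ⇒  `m ∣ ord_P g` at every place `P` of `L_E / E`.
                      The `E`-algebra structure on `L_E` is ANY instance `alg` with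
                      `hconst : ↑(algebraMap E L_E c) = algebraMap E E((q)) c`
                      (instance search for `Algebra ↥E ↥(tres5cL E N y)` times out, so the
                      consumer fixes the instance; `hconst` is `fun _ => rfl` for the usual ones);
* `tres5h_cover`    : the same for `L′ = tres5cField N y`, `L_E = tres5cL E N y`,
                      `Fb = modularFunctionFieldBar N`, `y ^ p ∈ Fb`;
* `tres5hAlgEL`     : the algebra structure `E → F_N(E) → L_E` (reducible def, not an instance),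
                      `tres5hAlgEL_const`, and `tres5h_cover_std` for it.
-/
import Fermat.Agent.R38.TresHor
import Fermat.Agent.R38.TresCoverForm
import Fermat.Agent.R38.TresCoverConcK

set_option autoImplicit false
set_option linter.style.haveILetI false
set_option linter.unusedSectionVars false
set_option linter.unusedVariables false

noncomputable section

namespace Fermat.Agent.R38

open AlgebraicCurve ModularCurve

section Form

variable {E Ω : Type*} [Field E] [Field Ω] [Algebra E Ω]
variable (L' : IntermediateField Ω (LaurentSeries Ω))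
variable (F₀ : IntermediateField E (LaurentSeries E))
variable (hF : ∀ x ∈ F₀, coeffMap (algebraMap E Ω) x ∈ L'.toSubfield)

/-- the embedding of the `E`-form of the cover into the cover -/
def tres5hEmb : ↥(tres5cForm (algebraMap E Ω) F₀ L'.toSubfield hF) →+* ↥L' where
  toFun f := ⟨coeffMap (algebraMap E Ω) (f : LaurentSeries E), f.2⟩
  map_one' := Subtype.ext (map_one (coeffMap (algebraMap E Ω)))
  map_mul' _ _ := Subtype.ext (map_mul (coeffMap (algebraMap E Ω)) _ _)
  map_zero' := Subtype.ext (map_zero (coeffMap (algebraMap E Ω)))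
  map_add' _ _ := Subtype.ext (map_add (coeffMap (algebraMap E Ω)) _ _)

@[simp]
theorem tres5hEmb_coe (f : ↥(tres5cForm (algebraMap E Ω) F₀ L'.toSubfield hF)) :
    ((tres5hEmb L' F₀ hF f : ↥L') : LaurentSeries Ω)
      = coeffMap (algebraMap E Ω) (f : LaurentSeries E) := rfl

/-- the ambient generation statement gives `hgen` -/
theorem tres5h_form_gen
    (hgen : ∀ f ∈ L', f ∈ IntermediateField.adjoin Ω
      {x : LaurentSeries Ω | x ∈ L' ∧ ∃ g : LaurentSeries E, coeffMap (algebraMap E Ω) g = x}) :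
    IntermediateField.adjoin Ω (Set.range (tres5hEmb L' F₀ hF)) = ⊤ := by
  apply IntermediateField.lift_injective
  rw [IntermediateField.lift_top, IntermediateField.lift_adjoin]
  apply le_antisymm
  · rw [IntermediateField.adjoin_le_iff]
    rintro _ ⟨x, -, rfl⟩
    exact x.2
  · intro f hf
    have h1 := hgen f hf
    refine IntermediateField.adjoin.mono Ω _ _ ?_ h1
    rintro x ⟨hx, g, hg⟩
    refine ⟨⟨x, hx⟩, ⟨⟨g, ?_⟩, ?_⟩, rfl⟩
    · show coeffMap (algebraMap E Ω) g ∈ L'.toSubfield
      rw [hg]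
      exact hx
    · apply Subtype.ext
      exact hg

variable (Fb : IntermediateField Ω (LaurentSeries Ω))
variable [alg : Algebra E ↥(tres5cForm (algebraMap E Ω) F₀ L'.toSubfield hF)]

/-- the constants of `E` in the cover, for an `E`-algebra structure of the form which is
compatible with the constant series -/
theorem tres5hEmb_const
    (hconst : ∀ c : E, ((algebraMap E ↥(tres5cForm (algebraMap E Ω) F₀ L'.toSubfield hF) c :
      ↥(tres5cForm (algebraMap E Ω) F₀ L'.toSubfield hF)) : LaurentSeries E)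
        = algebraMap E (LaurentSeries E) c) (c : E) :
    tres5hEmb L' F₀ hF (algebraMap E ↥(tres5cForm (algebraMap E Ω) F₀ L'.toSubfield hF) c)
      = algebraMap Ω ↥L' (algebraMap E Ω c) := by
  apply Subtype.ext
  show coeffMap (algebraMap E Ω)
      ((algebraMap E ↥(tres5cForm (algebraMap E Ω) F₀ L'.toSubfield hF) c :
        ↥(tres5cForm (algebraMap E Ω) F₀ L'.toSubfield hF)) : LaurentSeries E)
    = algebraMap Ω (LaurentSeries Ω) (algebraMap E Ω c)
  rw [hconst, algebraMap_laurentSeries_eq_single, algebraMap_laurentSeries_eq_single,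
    coeffMap_single]

/-- **FAC-HOR on the `E`-form of the cover** (any `E`-algebra structure on the form which is
compatible with the constant series). -/
theorem tres5h_form [CharZero E] [Algebra.IsAlgebraic E Ω]
    (hconst : ∀ c : E, ((algebraMap E ↥(tres5cForm (algebraMap E Ω) F₀ L'.toSubfield hF) c :
      ↥(tres5cForm (algebraMap E Ω) F₀ L'.toSubfield hF)) : LaurentSeries E)
        = algebraMap E (LaurentSeries E) c)
    (hle : Fb ≤ L') (hint : ∀ x : ↥L', IsIntegral ↥Fb (x : LaurentSeries Ω))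
    (hgen : ∀ f ∈ L', f ∈ IntermediateField.adjoin Ω
      {x : LaurentSeries Ω | x ∈ L' ∧ ∃ g : LaurentSeries E, coeffMap (algebraMap E Ω) g = x})
    (m : ℕ) (u : ↥Fb) (hu : ∀ Q : Place Ω ↥Fb, (m : ℤ) ∣ Q.ord u)
    {c : Ω} (hc : c ≠ 0) {H : LaurentSeries Ω} (hH : H ∈ L') (hH0 : H ≠ 0)
    (g : ↥(tres5cForm (algebraMap E Ω) F₀ L'.toSubfield hF))
    (h : (u : LaurentSeries Ω)
      = algebraMap Ω (LaurentSeries Ω) c * H ^ m * coeffMap (algebraMap E Ω) (g : LaurentSeries E))
    (P : Place E ↥(tres5cForm (algebraMap E Ω) F₀ L'.toSubfield hF)) : (m : ℤ) ∣ P.ord g := by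
  letI : Algebra ↥(tres5cForm (algebraMap E Ω) F₀ L'.toSubfield hF) ↥L' :=
    (tres5hEmb L' F₀ hF).toAlgebra
  letI : Algebra E ↥L' := ((algebraMap Ω ↥L').comp (algebraMap E Ω)).toAlgebra
  haveI : IsScalarTower E Ω ↥L' := IsScalarTower.of_algebraMap_eq (fun _ => rfl)
  haveI : IsScalarTower E ↥(tres5cForm (algebraMap E Ω) F₀ L'.toSubfield hF) ↥L' :=
    IsScalarTower.of_algebraMap_eq (fun c => (tres5hEmb_const L' F₀ hF hconst c).symm)
  let φ : ↥Fb →ₐ[Ω] ↥L' := IntermediateField.inclusion hle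
  have hφ : φ.toRingHom.IsIntegral := by
    intro x
    obtain ⟨q, hq, hqx⟩ := hint x
    refine ⟨q, hq, ?_⟩
    apply (algebraMap ↥L' (LaurentSeries Ω)).injective
    rw [map_zero, Polynomial.hom_eval₂]
    exact hqx
  have hgen' : IntermediateField.adjoin Ω
      (Set.range (algebraMap ↥(tres5cForm (algebraMap E Ω) F₀ L'.toSubfield hF) ↥L')) = ⊤ :=
    tres5h_form_gen L' F₀ hF hgen
  have hH0' : (⟨H, hH⟩ : ↥L') ≠ 0 := fun h0 => hH0 (congrArg Subtype.val h0)
  refine tres5h_main (K := E) (Kb := Ω) (Fb := ↥Fb) (Lb := ↥L')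
    (LK := ↥(tres5cForm (algebraMap E Ω) F₀ L'.toSubfield hF)) hgen' φ hφ m u hu hc
    (H := ⟨H, hH⟩) hH0' g ?_ P
  apply Subtype.ext
  show (u : LaurentSeries Ω) = _
  rw [h]
  rfl

end Form

/-! ### The concrete cover -/

section Cover

open Fermat.Agent.INJ IntermediateField

variable (E : IntermediateField ℚ NfQb) (N : ℕ) (y : LaurentSeries NfQb)

/-- the cover is integral over `F_N(ℚ̄)` -/
theorem tres5h_cover_isIntegral {p : ℕ} (hp : p ≠ 0)
    (hy : y ^ p ∈ modularFunctionFieldBar N) (x : ↥(tres5cField N y)) :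
    IsIntegral ↥(modularFunctionFieldBar N) (x : LaurentSeries NfQb) := by
  have hyint : IsIntegral ↥(modularFunctionFieldBar N) y :=
    tres5ck_isIntegral (modularFunctionFieldBar N) hp y ⟨y ^ p, hy⟩ rfl
  have hx : (x : LaurentSeries NfQb) ∈ (modularFunctionFieldBar N)⟮y⟯ :=
    (tres5ck_mem_iff (modularFunctionFieldBar N) y _).1 x.2
  haveI : FiniteDimensional ↥(modularFunctionFieldBar N) ↥(modularFunctionFieldBar N)⟮y⟯ :=
    adjoin.finiteDimensional hyint
  have h1 : IsIntegral ↥(modularFunctionFieldBar N)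
      (⟨(x : LaurentSeries NfQb), hx⟩ : ↥(modularFunctionFieldBar N)⟮y⟯) :=
    IsIntegral.of_finite _ _
  exact h1.map ((modularFunctionFieldBar N)⟮y⟯.val)

/-- **FAC-HOR for the cover** `F′ = F_N(ℚ̄)(y)`, `y ^ p ∈ F_N(ℚ̄)`, and its `E`-form
`L_E = tres5cL E N y` (with any `E`-algebra structure compatible with the constant series):
if `u ∈ F_N(ℚ̄)` has `m ∣ div u` and `u = C c · H ^ m · coeffMap g` with
`c ≠ 0`, `H ∈ F′ ∖ 0`, `g ∈ L_E`, then `m ∣ ord_P g` at every place `P` of `L_E / E`. -/
theorem tres5h_cover [alg : Algebra ↥E ↥(tres5cL E N y)]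
    (hconst : ∀ c : ↥E, ((algebraMap ↥E ↥(tres5cL E N y) c : ↥(tres5cL E N y)) :
      LaurentSeries ↥E) = algebraMap ↥E (LaurentSeries ↥E) c)
    {p : ℕ} (hp : p ≠ 0) (hy : y ^ p ∈ modularFunctionFieldBar N)
    (hgen : ∀ f ∈ tres5cField N y, f ∈ IntermediateField.adjoin NfQb
      {x : LaurentSeries NfQb | x ∈ tres5cField N y ∧
        ∃ g : LaurentSeries ↥E, coeffMap (algebraMap ↥E NfQb) g = x})
    (m : ℕ) (u : ↥(modularFunctionFieldBar N))
    (hu : ∀ Q : Place NfQb ↥(modularFunctionFieldBar N), (m : ℤ) ∣ Q.ord u)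
    {c : NfQb} (hc : c ≠ 0) {H : LaurentSeries NfQb} (hH : H ∈ tres5cField N y) (hH0 : H ≠ 0)
    (g : ↥(tres5cL E N y))
    (h : (u : LaurentSeries NfQb) = algebraMap NfQb (LaurentSeries NfQb) c * H ^ m *
      coeffMap (algebraMap ↥E NfQb) (g : LaurentSeries ↥E))
    (P : Place ↥E ↥(tres5cL E N y)) : (m : ℤ) ∣ P.ord g := by
  haveI : Algebra.IsAlgebraic ℚ NfQb := AlgebraicClosure.isAlgebraic ℚ
  haveI : Algebra.IsAlgebraic ↥E NfQb := Algebra.IsAlgebraic.tower_top (K := ℚ) ↥E
  exact @tres5h_form ↥E NfQb _ _ _ (tres5cField N y) (modularFunctionFieldFullC ↥E N)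
    (fun _ hx => tres5c_bar_le N y (nf_coeffMap_mem_bar E N hx)) (modularFunctionFieldBar N)
    alg _ _ hconst (tres5c_bar_le N y) (tres5h_cover_isIntegral N y hp hy) hgen m u hu c hc H
    hH hH0 g h P

set_option synthInstance.maxHeartbeats 400000 in
/-- the `E`-algebra structure of the `E`-form of the cover through `F_N(E)` (a reducible def,
NOT an instance: pass it explicitly, as `tres5cAlgFF` etc. of `R38/TresCoverTower.lean`) -/
@[reducible] def tres5hAlgEL : Algebra ↥E ↥(tres5cL E N y) :=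
  ((algebraMap ↥(modularFunctionFieldFullC ↥E N) ↥(tres5cL E N y)).comp
    (algebraMap ↥E ↥(modularFunctionFieldFullC ↥E N))).toAlgebra

set_option synthInstance.maxHeartbeats 400000 in
theorem tres5hAlgEL_const :
    letI := tres5hAlgEL E N y
    ∀ c : ↥E, ((algebraMap ↥E ↥(tres5cL E N y) c : ↥(tres5cL E N y)) : LaurentSeries ↥E)
      = algebraMap ↥E (LaurentSeries ↥E) c := by
  letI := tres5hAlgEL E N y
  intro c
  rfl

/-- **FAC-HOR for the cover**, with the algebra structure `tres5hAlgEL`. -/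
theorem tres5h_cover_std {p : ℕ} (hp : p ≠ 0) (hy : y ^ p ∈ modularFunctionFieldBar N)
    (hgen : ∀ f ∈ tres5cField N y, f ∈ IntermediateField.adjoin NfQb
      {x : LaurentSeries NfQb | x ∈ tres5cField N y ∧
        ∃ g : LaurentSeries ↥E, coeffMap (algebraMap ↥E NfQb) g = x})
    (m : ℕ) (u : ↥(modularFunctionFieldBar N))
    (hu : ∀ Q : Place NfQb ↥(modularFunctionFieldBar N), (m : ℤ) ∣ Q.ord u)
    {c : NfQb} (hc : c ≠ 0) {H : LaurentSeries NfQb} (hH : H ∈ tres5cField N y) (hH0 : H ≠ 0)
    (g : ↥(tres5cL E N y))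
    (h : (u : LaurentSeries NfQb) = algebraMap NfQb (LaurentSeries NfQb) c * H ^ m *
      coeffMap (algebraMap ↥E NfQb) (g : LaurentSeries ↥E)) :
    letI := tres5hAlgEL E N y
    ∀ P : Place ↥E ↥(tres5cL E N y), (m : ℤ) ∣ P.ord g := by
  letI := tres5hAlgEL E N y
  intro P
  exact tres5h_cover E N y (tres5hAlgEL_const E N y) hp hy hgen m u hu hc hH hH0 g h P

end Cover

end Fermat.Agent.R38

end
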