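/-
ROW 38, piece PKG-TRES / FAC-KUM [T5 (d)] (helper64): KUMMER THEORY FOR THE PEU RAMIFIÉ SUBGROUP.

Notation: `A ⊂ ℚ̄` a valuation subring, `I` its inertia group, `K = ℚ̄^I`, `K₁ = K(μ_p)`,
`I₁ = Gal(ℚ̄/K₁) = {τ ∈ I : τ ζ = ζ for all ζ ∈ μ_p}` (`tres5dI1`),
`U` = the units of `A` fixed by `I`, `Y = {y : y^p ∈ U}` (`tres5dY`),
`H = peuSubgroup A p = {σ ∈ I : σ y = y for all y ∈ Y}`.

MAIN RESULT (`stmtTresKum : StmtTresKum`, and the `υ b^p` form `tres5d_unit_mul_pow`):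
  if `α ≠ 0`, `α^p ∈ K₁` and `α` is fixed by `H`, then `α = y * b` with `y ∈ Y`, `y ≠ 0` and
  `b ∈ K₁`;  hence `α^p = υ * b^p` with `υ = y^p ∈ U`, `b ∈ K₁`: "`α^p` is a UNIT up to `p`-th
  powers of `K₁`" (so its valuation is divisible by `p` in the value group of `K₁`).
No hypothesis on `A` (any valuation subring), none on `p` beyond primality.

Proof: (1) `I` is closed in `G_ℚ` (Krull topology), so `{τ ∈ I : τ α ≠ α}` is compact; it is
covered by the open sets `{τ : τ y ≠ y}`, `y ∈ Y` (as `α` is `H`-fixed): finitely many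
`y₁, …, y_r ∈ Y` suffice.  (2) Induction on `r` (finite Kummer theory by hand): if some `g ∈ I₁`
fixes `y₂, …, y_r` and moves `y₁`, then `g y₁ = ξ y₁`, `ξ` a primitive `p`-th root of unity,
`g α = ξ^e α`, and `α / y₁^e` is fixed by every `τ ∈ I₁` fixing `y₂, …, y_r`.
-/
import Mathlib
import Fermat.Agent.R38.Plan
import Fermat.Agent.PT.B.NormalClosure
import Fermat.Agent.Common.FrobProfinite
import Fermat.Agent.PT.B.CycloField

set_option autoImplicit false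
set_option linter.style.haveILetI false

noncomputable section

namespace Fermat.Agent.R38

open scoped Pointwise
open Fermat.Agent.ES

/-! ### Definitions -/

/-- `Y`: the elements `y` of `ℚ̄` whose `p`-th power is a unit of `A` fixed by the inertia group
(exactly the elements which the peu ramifié subgroup has to fix). -/
def tres5dY (A : ValuationSubring Qb) (p : ℕ) : Set Qb :=
  {y | y ^ p ∈ A ∧ (y ^ p)⁻¹ ∈ A ∧ ∀ τ ∈ A.inertiaSubgroupIn ℚ, τ (y ^ p) = y ^ p}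

/-- `I₁ = Gal(ℚ̄ / K₁)`: the elements of the inertia group fixing the `p`-th roots of unity. -/
def tres5dI1 (A : ValuationSubring Qb) (p : ℕ) : Subgroup GQ where
  carrier := {τ | τ ∈ A.inertiaSubgroupIn ℚ ∧ ∀ ζ : Qb, ζ ^ p = 1 → τ ζ = ζ}
  mul_mem' := by
    rintro σ τ ⟨hσ, hσ'⟩ ⟨hτ, hτ'⟩
    refine ⟨mul_mem hσ hτ, fun ζ hζ => ?_⟩
    rw [AlgEquiv.mul_apply, hτ' ζ hζ, hσ' ζ hζ]
  one_mem' := ⟨one_mem _, fun _ _ => rfl⟩
  inv_mem' := by
    rintro σ ⟨hσ, hσ'⟩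
    refine ⟨inv_mem hσ, fun ζ hζ => ?_⟩
    have h := hσ' ζ hζ
    calc σ⁻¹ ζ = σ⁻¹ (σ ζ) := by rw [h]
      _ = ζ := by rw [← AlgEquiv.mul_apply, inv_mul_cancel, AlgEquiv.one_apply]

/-- **FAC-KUM** (Kummer theory for the peu ramifié subgroup). -/
def StmtTresKum : Prop :=
  ∀ (p : ℕ) [Fact p.Prime] (A : ValuationSubring Qb) (α : Qb), α ≠ 0 →
    (∀ τ ∈ tres5dI1 A p, τ (α ^ p) = α ^ p) →
    (∀ σ ∈ peuSubgroup A p, σ α = α) →
    ∃ y b : Qb, α = y * b ∧ y ≠ 0 ∧ y ∈ tres5dY A p ∧ ∀ τ ∈ tres5dI1 A p, τ b = b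

/-! ### Topology: the inertia group is closed -/

theorem tres5d_isAlgebraic : Algebra.IsAlgebraic ℚ Qb :=
  haveI := Common.isAlgClosure_rat_qbar
  IsAlgClosure.isAlgebraic

theorem tres5d_isGalois : IsGalois ℚ Qb :=
  haveI := Common.isAlgClosure_rat_qbar
  inferInstance

/-- the set of `σ` with `σ x = y` is open -/
theorem tres5d_isOpen_eq (x y : Qb) : IsOpen {σ : GQ | σ x = y} := by
  haveI := tres5d_isAlgebraic
  by_cases h : ∃ σ₀ : GQ, σ₀ x = y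
  · obtain ⟨σ₀, h0⟩ := h
    have hst : IsOpen (MulAction.stabilizer GQ x : Set GQ) :=
      stabilizer_isOpen_of_isIntegral (K := ℚ) (L := Qb) x
    have h2 : {σ : GQ | σ x = y} = σ₀ • (MulAction.stabilizer GQ x : Set GQ) := by
      ext σ
      rw [Set.mem_smul_set_iff_inv_smul_mem]
      simp only [Set.mem_ofPred_eq, SetLike.mem_coe, MulAction.mem_stabilizer_iff, smul_eq_mul]
      rw [mul_smul]
      constructor
      · intro h
        show σ₀⁻¹ (σ x) = x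
        rw [h, ← h0, ← AlgEquiv.mul_apply, inv_mul_cancel, AlgEquiv.one_apply]
      · intro h
        have h' : σ₀⁻¹ (σ x) = x := h
        have := congrArg σ₀ h'
        rw [← AlgEquiv.mul_apply, mul_inv_cancel, AlgEquiv.one_apply] at this
        rw [this, h0]
    rw [h2]
    exact hst.smul σ₀
  · have : {σ : GQ | σ x = y} = ∅ := by
      ext σ
      simp only [Set.mem_ofPred_eq, Set.mem_empty_iff_false, iff_false]
      exact fun h' => h ⟨σ, h'⟩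
    rw [this]
    exact isOpen_empty

theorem tres5d_isOpen_mem (x : Qb) (T : Set Qb) : IsOpen {σ : GQ | σ x ∈ T} := by
  have : {σ : GQ | σ x ∈ T} = ⋃ y ∈ T, {σ : GQ | σ x = y} := by
    ext σ
    simp
  rw [this]
  exact isOpen_biUnion fun y _ => tres5d_isOpen_eq x y

theorem tres5d_isClosed_mem (x : Qb) (T : Set Qb) : IsClosed {σ : GQ | σ x ∈ T} := by
  rw [← isOpen_compl_iff]
  exact tres5d_isOpen_mem x Tᶜ

/-- **The inertia group is closed** in `G_ℚ`. -/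
theorem tres5d_isClosed_inertia (A : ValuationSubring Qb) :
    IsClosed ((A.inertiaSubgroupIn ℚ : Subgroup GQ) : Set GQ) := by
  have h : ((A.inertiaSubgroupIn ℚ : Subgroup GQ) : Set GQ) =
      (⋂ x : Qb, {σ : GQ | σ⁻¹ x ∈ {y : Qb | y ∈ A ↔ x ∈ A}}) ∩
        (⋂ x : Qb, {σ : GQ | σ x ∈ {y : Qb | x ∈ A → y - x ∈ A.nonunits}}) := by
    ext σ
    rw [SetLike.mem_coe, PT.B.mem_inertiaSubgroupIn_iff]
    simp only [Set.mem_inter_iff, Set.mem_iInter, Set.mem_ofPred_eq]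
    constructor
    · rintro ⟨hD, hI⟩
      refine ⟨fun x => ?_, fun x hx => hI x hx⟩
      have h1 : σ • A = A := MulAction.mem_stabilizer_iff.mp hD
      rw [← PT.B.mem_smul_valuationSubring_iff (K := ℚ), h1]
    · rintro ⟨h1, h2⟩
      refine ⟨?_, fun x hx => h2 x hx⟩
      refine MulAction.mem_stabilizer_iff.mpr ?_
      ext x
      rw [PT.B.mem_smul_valuationSubring_iff (K := ℚ)]
      exact h1 x
  rw [h]
  refine IsClosed.inter (isClosed_iInter fun x => ?_)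
    (isClosed_iInter fun x => tres5d_isClosed_mem x _)
  exact (tres5d_isClosed_mem x {y : Qb | y ∈ A ↔ x ∈ A}).preimage continuous_inv

/-! ### Step 1: finitely many unit roots suffice -/

theorem tres5d_mem_peu_iff (A : ValuationSubring Qb) (p : ℕ) (σ : GQ) :
    σ ∈ peuSubgroup A p ↔ σ ∈ A.inertiaSubgroupIn ℚ ∧ ∀ y ∈ tres5dY A p, σ y = y :=
  ⟨fun h => ⟨h.1, fun y hy => h.2 y hy.1 hy.2.1 hy.2.2⟩,
    fun h => ⟨h.1, fun y h1 h2 h3 => h.2 y ⟨h1, h2, h3⟩⟩⟩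

/-- **Compactness**: an element fixed by the peu ramifié subgroup is fixed by every element of
the inertia group fixing finitely many suitable `y ∈ Y`. -/
theorem tres5d_finite (A : ValuationSubring Qb) (p : ℕ) (α : Qb)
    (hα : ∀ σ ∈ peuSubgroup A p, σ α = α) :
    ∃ ys : List Qb, (∀ y ∈ ys, y ∈ tres5dY A p) ∧
      ∀ τ ∈ A.inertiaSubgroupIn ℚ, (∀ y ∈ ys, τ y = y) → τ α = α := by
  classical
  haveI := tres5d_isGalois
  let C : Set GQ := ((A.inertiaSubgroupIn ℚ : Subgroup GQ) : Set GQ) ∩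
    {τ : GQ | τ α ∈ {z : Qb | z ≠ α}}
  have hC : IsCompact C :=
    (IsClosed.inter (tres5d_isClosed_inertia A) (tres5d_isClosed_mem α _)).isCompact
  let U : tres5dY A p → Set GQ := fun y => {τ : GQ | τ (y : Qb) ∈ {z : Qb | z ≠ (y : Qb)}}
  have hU : ∀ y, IsOpen (U y) := fun y => tres5d_isOpen_mem _ _
  have hcov : C ⊆ ⋃ y, U y := by
    intro τ hτ
    by_contra hn
    simp only [Set.mem_iUnion, not_exists] at hn
    refine hτ.2 (hα τ ((tres5d_mem_peu_iff A p τ).2 ⟨hτ.1, fun y hy => ?_⟩))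
    by_contra hne
    exact hn ⟨y, hy⟩ hne
  obtain ⟨t, ht⟩ := hC.elim_finite_subcover U hU hcov
  refine ⟨t.toList.map Subtype.val, ?_, ?_⟩
  · intro y hy
    obtain ⟨z, -, rfl⟩ := List.mem_map.1 hy
    exact z.2
  · intro τ hτ hfix
    by_contra hne
    have hmem : τ ∈ C := ⟨hτ, hne⟩
    have := ht hmem
    simp only [Set.mem_iUnion] at this
    obtain ⟨z, hz, hτz⟩ := this
    exact hτz (hfix z (List.mem_map.2 ⟨z, Finset.mem_toList.2 hz, rfl⟩))

/-! ### Step 2: finite Kummer theory by hand -/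

section Kummer

variable {p : ℕ} {A : ValuationSubring Qb}

theorem tres5d_I1_le : tres5dI1 A p ≤ A.inertiaSubgroupIn ℚ := fun _ h => h.1

/-- if `g x = c x` and `g c = c` then `g^j x = c^j x` -/
theorem tres5d_pow_apply (g : GQ) {c x : Qb} (hc : g c = c) (hx : g x = c * x) (j : ℕ) :
    (g ^ j) x = c ^ j * x := by
  induction j with
  | zero => simp
  | succ j ih =>
    rw [pow_succ', AlgEquiv.mul_apply, ih, map_mul, map_pow, hc, hx]
    ring

/-- the Kummer symbol `τ x / x` is a `p`-th root of unity -/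
theorem tres5d_symbol_pow (τ : GQ) {x : Qb} (hx0 : x ≠ 0) (hx : τ (x ^ p) = x ^ p) :
    (τ x / x) ^ p = 1 := by
  rw [div_pow, ← map_pow, hx, div_self (pow_ne_zero _ hx0)]

theorem tres5d_one_mem_Y : (1 : Qb) ∈ tres5dY A p := by
  refine ⟨?_, ?_, fun τ _ => ?_⟩
  · rw [one_pow]
    exact one_mem _
  · rw [one_pow, inv_one]
    exact one_mem _
  · rw [one_pow, map_one]

theorem tres5d_mul_pow_mem_Y {y y₀ : Qb} (hy : y ∈ tres5dY A p) (hy₀ : y₀ ∈ tres5dY A p)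
    (e : ℕ) : y * y₀ ^ e ∈ tres5dY A p := by
  have h1 : (y * y₀ ^ e) ^ p = y ^ p * (y₀ ^ p) ^ e := by ring
  refine ⟨?_, ?_, fun τ hτ => ?_⟩
  · rw [h1]
    exact mul_mem hy.1 (pow_mem hy₀.1 e)
  · have h2 : (y ^ p * (y₀ ^ p) ^ e)⁻¹ = (y ^ p)⁻¹ * ((y₀ ^ p)⁻¹) ^ e := by
      rw [mul_inv, inv_pow]
    rw [h1, h2]
    exact mul_mem hy.2.1 (pow_mem hy₀.2.1 e)
  · rw [h1, map_mul, hy.2.2 τ hτ, map_pow, hy₀.2.2 τ hτ]

/-- **Finite Kummer theory**, by induction on the number of generators. -/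
theorem tres5d_induct (A : ValuationSubring Qb) (p : ℕ) [Fact p.Prime] :
    ∀ ys : List Qb, (∀ y ∈ ys, y ∈ tres5dY A p) →
    ∀ α : Qb, α ≠ 0 → (∀ τ ∈ tres5dI1 A p, τ (α ^ p) = α ^ p) →
      (∀ τ ∈ tres5dI1 A p, (∀ y ∈ ys, τ y = y) → τ α = α) →
      ∃ y b : Qb, α = y * b ∧ y ≠ 0 ∧ y ∈ tres5dY A p ∧ ∀ τ ∈ tres5dI1 A p, τ b = b := by
  intro ys
  induction ys with
  | nil =>
    intro _ α hα0 hαp hfix
    exact ⟨1, α, (one_mul α).symm, one_ne_zero, tres5d_one_mem_Y,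
      fun τ hτ => hfix τ hτ (by simp)⟩
  | cons y₀ ys ih =>
    intro hys α hα0 hαp hfix
    have hys' : ∀ y ∈ ys, y ∈ tres5dY A p := fun y hy => hys y (List.mem_cons_of_mem _ hy)
    have hy₀ : y₀ ∈ tres5dY A p := hys y₀ List.mem_cons_self
    by_cases hB : ∃ g ∈ tres5dI1 A p, (∀ y ∈ ys, g y = y) ∧ g y₀ ≠ y₀
    · obtain ⟨g, hg, hgys, hgy₀⟩ := hB
      have hpp : p.Prime := Fact.out
      haveI : NeZero p := ⟨hpp.ne_zero⟩
      have hy0 : y₀ ≠ 0 := by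
        rintro rfl
        exact hgy₀ (map_zero g)
      have hξp : (g y₀ / y₀) ^ p = 1 := tres5d_symbol_pow g hy0 (hy₀.2.2 g hg.1)
      have hξ1 : g y₀ / y₀ ≠ 1 := by
        intro h
        exact hgy₀ ((div_eq_one_iff_eq hy0).1 h)
      have hprim : IsPrimitiveRoot (g y₀ / y₀) p := by
        have := IsPrimitiveRoot.orderOf (g y₀ / y₀)
        rwa [orderOf_eq_prime hξp hξ1] at this
      obtain ⟨ξ, hξ⟩ : ∃ ξ : Qb, ξ = g y₀ / y₀ := ⟨_, rfl⟩
      rw [← hξ] at hξp hξ1 hprim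
      have hξ0 : ξ ≠ 0 := hprim.ne_zero hpp.ne_zero
      have hgξ : g ξ = ξ := hg.2 ξ hξp
      have hgy : g y₀ = ξ * y₀ := by
        rw [hξ]
        field_simp
      obtain ⟨e, -, he⟩ := hprim.eq_pow_of_pow_eq_one (tres5d_symbol_pow g hα0 (hαp g hg))
      have hgα : g α = ξ ^ e * α := by
        rw [he]
        field_simp
      have hgξe : g (ξ ^ e) = ξ ^ e := by rw [map_pow, hgξ]
      -- the new element
      have hα'0 : α * (y₀ ^ e)⁻¹ ≠ 0 := mul_ne_zero hα0 (inv_ne_zero (pow_ne_zero _ hy0))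
      have hα'p : ∀ τ ∈ tres5dI1 A p,
          τ ((α * (y₀ ^ e)⁻¹) ^ p) = (α * (y₀ ^ e)⁻¹) ^ p := by
        intro τ hτ
        have h1 := hαp τ hτ
        have h2 := hy₀.2.2 τ hτ.1
        have h3 : (α * (y₀ ^ e)⁻¹) ^ p = α ^ p * ((y₀ ^ p) ^ e)⁻¹ := by
          rw [mul_pow, inv_pow, ← pow_mul, ← pow_mul, mul_comm e p]
        rw [h3, map_mul, map_inv₀, h1, map_pow, h2]
      have key : ∀ τ ∈ tres5dI1 A p, (∀ y ∈ ys, τ y = y) →
          τ (α * (y₀ ^ e)⁻¹) = α * (y₀ ^ e)⁻¹ := by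
        intro τ hτ hτys
        obtain ⟨j, -, hj⟩ :=
          hprim.eq_pow_of_pow_eq_one (tres5d_symbol_pow τ hy0 (hy₀.2.2 τ hτ.1))
        have hτy : τ y₀ = ξ ^ j * y₀ := by
          rw [hj]
          field_simp
        have hgj : (g ^ j) y₀ = ξ ^ j * y₀ := tres5d_pow_apply g hgξ hgy j
        have hgjα : (g ^ j) α = (ξ ^ e) ^ j * α := tres5d_pow_apply g hgξe hgα j
        have hσ : (g ^ j)⁻¹ * τ ∈ tres5dI1 A p := mul_mem (inv_mem (pow_mem hg j)) hτ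
        have hσys : ∀ y ∈ y₀ :: ys, ((g ^ j)⁻¹ * τ) y = y := by
          intro y hy
          rcases List.mem_cons.1 hy with h | hy
          · rw [h, AlgEquiv.mul_apply, hτy, ← hgj, ← AlgEquiv.mul_apply, inv_mul_cancel,
              AlgEquiv.one_apply]
          · rw [AlgEquiv.mul_apply, hτys y hy]
            have h1 : (g ^ j) y = y := by
              have := tres5d_pow_apply g (map_one g)
                (show g y = 1 * y by rw [one_mul]; exact hgys y hy) j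
              simpa using this
            calc (g ^ j)⁻¹ y = (g ^ j)⁻¹ ((g ^ j) y) := by rw [h1]
              _ = y := by rw [← AlgEquiv.mul_apply, inv_mul_cancel, AlgEquiv.one_apply]
        have h1 := hfix _ hσ hσys
        have hτα : τ α = (ξ ^ e) ^ j * α := by
          rw [← hgjα]
          have := congrArg (g ^ j) h1
          rw [← AlgEquiv.mul_apply, ← mul_assoc, mul_inv_cancel, one_mul] at this
          exact this
        rw [map_mul, map_inv₀, map_pow, hτα, hτy]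
        field_simp
        ring
      obtain ⟨y, b, h1, h2, h3, h4⟩ := ih hys' (α * (y₀ ^ e)⁻¹) hα'0 hα'p key
      refine ⟨y * y₀ ^ e, b, ?_, mul_ne_zero h2 (pow_ne_zero _ hy0),
        tres5d_mul_pow_mem_Y h3 hy₀ e, h4⟩
      have h5 : α = (α * (y₀ ^ e)⁻¹) * y₀ ^ e := by
        field_simp
      rw [h5, h1]
      ring
    · simp only [not_exists, not_and, not_not] at hB
      refine ih hys' α hα0 hαp (fun τ hτ h => hfix τ hτ (fun y hy => ?_))
      rcases List.mem_cons.1 hy with h' | hy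
      · rw [h']
        exact hB τ hτ h
      · exact h y hy

end Kummer

/-! ### The main results -/

/-- **FAC-KUM** [T5 (d)]: an element `α` with `α^p ∈ K₁`, fixed by the peu ramifié subgroup, is
the product of a `p`-th root of an inertia-fixed unit and an element of `K₁`. -/
theorem stmtTresKum : StmtTresKum := by
  intro p _ A α hα0 hαp hαH
  obtain ⟨ys, hys, hfix⟩ := tres5d_finite A p α hαH
  exact tres5d_induct A p ys hys α hα0 hαp (fun τ hτ h => hfix τ hτ.1 h)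

/-- The same in the form `α^p = υ * b^p`, `υ` a unit of `A` fixed by inertia, `b ∈ K₁ˣ`:
"**`a = α^p` is a unit up to `p`-th powers of `K₁`**". -/
theorem tres5d_unit_mul_pow (p : ℕ) [Fact p.Prime] (A : ValuationSubring Qb) (α : Qb)
    (hα0 : α ≠ 0) (hαp : ∀ τ ∈ tres5dI1 A p, τ (α ^ p) = α ^ p)
    (hαH : ∀ σ ∈ peuSubgroup A p, σ α = α) :
    ∃ υ b : Qb, α ^ p = υ * b ^ p ∧ υ ≠ 0 ∧ υ ∈ A ∧ υ⁻¹ ∈ A ∧
      (∀ τ ∈ A.inertiaSubgroupIn ℚ, τ υ = υ) ∧ b ≠ 0 ∧ ∀ τ ∈ tres5dI1 A p, τ b = b := by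
  obtain ⟨y, b, h1, h2, h3, h4⟩ := stmtTresKum p A α hα0 hαp hαH
  refine ⟨y ^ p, b, ?_, pow_ne_zero _ h2, h3.1, h3.2.1, h3.2.2, ?_, h4⟩
  · rw [h1, mul_pow]
  · rintro rfl
    rw [mul_zero] at h1
    exact hα0 h1

/-! ### Dictionary for `I₁` -/

section Dict

open ExtCitation

/-- the peu ramifié subgroup lies in `I₁` -/
theorem tres5d_peu_le_I1 {p : ℕ} {A : ValuationSubring Qb} :
    peuSubgroup A p ≤ tres5dI1 A p := by
  intro σ hσ
  refine ⟨hσ.1, fun ζ hζ => hσ.2 ζ ?_ ?_ ?_⟩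
  · rw [hζ]
    exact one_mem _
  · rw [hζ, inv_one]
    exact one_mem _
  · intro τ _
    rw [hζ, map_one]

variable {p : ℕ} [Fact p.Prime] {A : ValuationSubring Qb}

/-- `I₁ = I ∩ ker ω` -/
theorem tres5d_mem_I1_iff_cycloExp (τ : GQ) :
    τ ∈ tres5dI1 A p ↔ τ ∈ A.inertiaSubgroupIn ℚ ∧ cycloExp p τ = 1 := by
  haveI : Fact (1 < p) := ⟨(Fact.out : p.Prime).one_lt⟩
  haveI : NeZero p := ⟨(Fact.out : p.Prime).ne_zero⟩
  have key : (∀ ζ : Qb, ζ ^ p = 1 → τ ζ = ζ) ↔ cycloExp p τ = 1 := by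
    rw [← PT.B.mem_fixingSubgroup_cycloField_iff, ← PT.B.cycloChar_eq_one_iff, ← val_cycloChar]
    constructor
    · intro h
      rw [h, Units.val_one, ZMod.val_one]
    · intro h
      refine Units.ext (ZMod.val_injective p ?_)
      rw [h, Units.val_one, ZMod.val_one]
  exact ⟨fun h => ⟨h.1, key.1 h.2⟩, fun h => ⟨h.1, key.2 h.2⟩⟩

/-- `τ ∈ I` fixing ONE primitive `p`-th root of unity lies in `I₁` -/
theorem tres5d_mem_I1_of_fix {τ : GQ} (hτ : τ ∈ A.inertiaSubgroupIn ℚ) {ζ : Qb}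
    (hζp : ζ ^ p = 1) (hζ1 : ζ ≠ 1) (h : τ ζ = ζ) : τ ∈ tres5dI1 A p := by
  have hpp : p.Prime := Fact.out
  haveI : NeZero p := ⟨hpp.ne_zero⟩
  have hprim : IsPrimitiveRoot ζ p := by
    have := IsPrimitiveRoot.orderOf ζ
    rwa [orderOf_eq_prime hζp hζ1] at this
  refine ⟨hτ, fun ξ hξ => ?_⟩
  obtain ⟨i, -, rfl⟩ := hprim.eq_pow_of_pow_eq_one hξ
  rw [map_pow, h]

/-- **FAC-KUM, `cycloExp` form**: `α ≠ 0`, `α^p` fixed by `I ∩ ker ω`, `α` fixed by the peu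
ramifié subgroup ⇒ `α^p = υ b^p`, `υ` an inertia-fixed unit of `A`, `b` fixed by `I ∩ ker ω`. -/
theorem tres5d_unit_mul_pow_cyclo (A : ValuationSubring Qb) (α : Qb) (hα0 : α ≠ 0)
    (hαp : ∀ τ ∈ A.inertiaSubgroupIn ℚ, cycloExp p τ = 1 → τ (α ^ p) = α ^ p)
    (hαH : ∀ σ ∈ peuSubgroup A p, σ α = α) :
    ∃ υ b : Qb, α ^ p = υ * b ^ p ∧ υ ≠ 0 ∧ υ ∈ A ∧ υ⁻¹ ∈ A ∧
      (∀ τ ∈ A.inertiaSubgroupIn ℚ, τ υ = υ) ∧ b ≠ 0 ∧
      ∀ τ ∈ A.inertiaSubgroupIn ℚ, cycloExp p τ = 1 → τ b = b := by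
  obtain ⟨υ, b, h1, h2, h3, h4, h5, h6, h7⟩ := tres5d_unit_mul_pow p A α hα0
    (fun τ hτ => hαp τ hτ.1 ((tres5d_mem_I1_iff_cycloExp τ).1 hτ).2) hαH
  exact ⟨υ, b, h1, h2, h3, h4, h5, h6,
    fun τ hτ hc => h7 τ ((tres5d_mem_I1_iff_cycloExp τ).2 ⟨hτ, hc⟩)⟩

end Dict

end Fermat.Agent.R38

end
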