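/-
ROW 38, TRES, piece ASM-COV / FAC-HOR (helper64): hgen FOR THE INERTIA FIELD `K = beta0Field A`.

The cover `F′ = tres5cField N y = F_N(ℚ̄)(y)`, `y ^ p ∈ F_N(ℚ̄)`, is generated over `ℚ̄` by its
elements with coefficients in `K = ℚ̄^I` (`I` the inertia group of `A`), as soon as `σ y ∈ F′`
for `σ ∈ I`:

* `tres5cd_hgen_inertia` : from `hstab : ∀ σ ∈ I, σ y ∈ F′`;
* `tres5cd_hgen_kummer`  : for a root `y` of a Kummer function `w₀` of `z₀ ∈ J₀(N)` with
  `σ z₀ ∈ ℤ z₀` for `σ ∈ I` (helper30's `tresdesc_stab`).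

The conclusion is EXACTLY the hypothesis `hgen` of helper61's `tres5h_cover` (R38/TresHorForm.lean)
at `E := beta0Field A`.

* `tres5cd_hor_kummer` : **FAC-HOR over the inertia field, `hgen` discharged** = helper61's
  `tres5h_cover` at `E := beta0Field A`, `m := p`, for Kummer functions `u` (of `x`) and `w₀`
  (of `z₀`): if `u = C c · H ^ p · coeffMap g`, `H ∈ F′ ∖ 0`, `g ∈ L_K`, then `p ∣ ord_P g` at
  every place `P` of `L_K / K`.

Inputs: `tres5cd_hgen_fixed` (R38/TresCoverDesc.lean, descent by traces), `tresftf_coeff`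
(helper30, the coefficients of `y` lie in a number field), `tres5d_isClosed_inertia`
(R38/TresKum.lean) and the Galois correspondence for closed subgroups.
-/
import Fermat.Agent.R38.TresCoverDesc
import Fermat.Agent.R38.TresFacTrFld
import Fermat.Agent.R38.TresKum
import Fermat.Agent.R38.TresDescJ
import Fermat.Agent.UNIP.Beta0Abs
import Fermat.Agent.R38.TresHorForm

set_option autoImplicit false
set_option linter.unusedSectionVars false
set_option linter.unusedVariables false
set_option linter.style.haveILetI false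

namespace Fermat.Agent.R38

open ModularCurve AlgebraicCurve Fermat.Agent.INJ Fermat.Agent.UNIP Fermat.Agent.ES
  Fermat.Agent.ES.G2 Fermat.Agent.S36 Fermat.Agent.RIB.MP

variable {N : ℕ} [NeZero N]

/-- **hgen for the inertia field**, from the stability of the cover under the inertia group. -/
theorem tres5cd_hgen_inertia (A : ValuationSubring NfQb) {p : ℕ} (hp : p ≠ 0)
    {y : LaurentSeries NfQb} (hy0 : y ≠ 0) (hy : y ^ p ∈ modularFunctionFieldBar N)
    (hstab : ∀ σ ∈ A.inertiaSubgroupIn ℚ,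
      coeffMap ((σ : NfQb ≃ₐ[ℚ] NfQb) : NfQb →+* NfQb) y ∈ tres5cField N y) :
    ∀ f ∈ tres5cField N y, f ∈ IntermediateField.adjoin NfQb
      {x : LaurentSeries NfQb | x ∈ tres5cField N y ∧
        ∃ g : LaurentSeries ↥(beta0Field A),
          coeffMap (algebraMap ↥(beta0Field A) NfQb) g = x} := by
  obtain ⟨E₁, hE₁, hc⟩ := tresftf_coeff hp hy0 hy (tres5c_y_mem N y)
  haveI := hE₁
  exact tres5cd_hgen_fixed N y (A.inertiaSubgroupIn ℚ) (tres5d_isClosed_inertia A) E₁ hc hstab

/-- **hgen for the inertia field**, for a root `y` of a Kummer function `w₀` of a class `z₀`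
mapped into `ℤ z₀` by the inertia group. -/
theorem tres5cd_hgen_kummer (A : ValuationSubring NfQb) {m : ℕ} (hm : m ≠ 0) {z₀ : JZero N}
    {w₀ : modularFunctionFieldBar N} (hw : KummerRel m z₀ w₀) {y : LaurentSeries NfQb}
    (hy : y ^ m = (w₀ : LaurentSeries NfQb))
    (htor : ∀ σ ∈ A.inertiaSubgroupIn ℚ, ∃ g : ℤ, σ • z₀ = g • z₀) :
    ∀ f ∈ tres5cField N y, f ∈ IntermediateField.adjoin NfQb
      {x : LaurentSeries NfQb | x ∈ tres5cField N y ∧
        ∃ g : LaurentSeries ↥(beta0Field A),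
          coeffMap (algebraMap ↥(beta0Field A) NfQb) g = x} := by
  have hw0 : (w₀ : LaurentSeries NfQb) ≠ 0 := fun h0 => hw.ne_zero (Subtype.ext h0)
  have hy0 : y ≠ 0 := by
    rintro rfl
    rw [zero_pow hm] at hy
    exact hw0 hy.symm
  refine tres5cd_hgen_inertia A hm hy0 (by rw [hy]; exact w₀.2) fun σ hσ => ?_
  obtain ⟨g, hg⟩ := htor σ hσ
  exact tresdesc_stab hm hw hy hg y (tresCov_self_mem y)

/-- the divisor of a Kummer function is divisible by the exponent -/
theorem tres5cd_kummer_dvd {K F : Type*} [Field K] [Field F] [Algebra K F] {n : ℕ}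
    {x : Pic0 K F} {u : F} (hu : KummerRel n x u) (Q : Place K F) : (n : ℤ) ∣ Q.ord u := by
  obtain ⟨D, -, -, h⟩ := hu
  exact ⟨_, (h Q).symm⟩

/-- **FAC-HOR over the inertia field** (`hgen` discharged): the horizontal divisor of the
descended Kummer function on the `K`-form of the cover is divisible by `p`. -/
theorem tres5cd_hor_kummer (A : ValuationSubring NfQb) {y : LaurentSeries NfQb}
    [alg : Algebra ↥(beta0Field A) ↥(tres5cL (beta0Field A) N y)]
    (hconst : ∀ c : ↥(beta0Field A),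
      ((algebraMap ↥(beta0Field A) ↥(tres5cL (beta0Field A) N y) c :
        ↥(tres5cL (beta0Field A) N y)) : LaurentSeries ↥(beta0Field A)) =
        algebraMap ↥(beta0Field A) (LaurentSeries ↥(beta0Field A)) c)
    {p : ℕ} (hp : p ≠ 0) {x z₀ : JZero N} {u w₀ : modularFunctionFieldBar N}
    (hu : KummerRel p x u) (hw : KummerRel p z₀ w₀)
    (hy : y ^ p = (w₀ : LaurentSeries NfQb))
    (htor : ∀ σ ∈ A.inertiaSubgroupIn ℚ, ∃ g : ℤ, σ • z₀ = g • z₀)
    {c : NfQb} (hc : c ≠ 0) {H : LaurentSeries NfQb} (hH : H ∈ tres5cField N y) (hH0 : H ≠ 0)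
    (g : ↥(tres5cL (beta0Field A) N y))
    (h : (u : LaurentSeries NfQb) = algebraMap NfQb (LaurentSeries NfQb) c * H ^ p *
      coeffMap (algebraMap ↥(beta0Field A) NfQb) (g : LaurentSeries ↥(beta0Field A)))
    (P : Place ↥(beta0Field A) ↥(tres5cL (beta0Field A) N y)) : (p : ℤ) ∣ P.ord g :=
  tres5h_cover (beta0Field A) N y hconst hp (by rw [hy]; exact w₀.2)
    (tres5cd_hgen_kummer A hp hw hy htor) p u (fun Q => tres5cd_kummer_dvd hu Q) hc hH hH0 g h P

end Fermat.Agent.R38
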