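import Fermat.Agent.R38.TresFixFInst
import Fermat.Agent.R38.TresDescJ

/-!
# R38 TRES, (FAC-p), piece FAC-FIXF (helper29), part 4: LEVEL-UP of stability and commutation

The class `z₀` and its Kummer function `w₀` live at the level `N = M p`; the cover of FAC-MONO is
taken at a RIGID level `N′` (`N ∣ N′`): `F′ = F_{N′}(ℚ̄)(y)`, `y ^ p = w₀`.  helper30's
`tresdesc_stab` / `tresdesc_comm` are statements at the level `N`.  Here:

* `tres5ff_cov_le`        : `F_N(y) ≤ F_{N′}(y)`;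
* `tres5ff_stab_of_y`     : `σ y ∈ F_{N′}(y)` ⇒ `F_{N′}(y)` is `σ`-stable (any level);
* `tres5ff_hstabI_toric`  : **`hstabI` at the level `N′`** from the toric line at the level `N`
                            (= the hypothesis `hstabI` of `tres5ffAct`, `tres5ff_descend`, …);
* `tres5ff_comm_of_y`     : a deck transformation `t` of `F_{N′}(y)` (`t = id` on `F_{N′}`,
                            `t y = C ζ · y`) commutes with `σ` if `σ y = C c · h · y ^ g`,
                            `h ∈ F_{N′}`, `σ ζ = ζ ^ g`;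
* `tres5ff_hcomm_toric`   : **`hcomm` at the level `N′`** from the toric line at the level `N`
                            (= the hypothesis `hcomm` of `tres5ff_inst_hρG`).
-/

set_option autoImplicit false
set_option linter.style.haveILetI false
set_option linter.unusedSectionVars false

noncomputable section

open ModularCurve AlgebraicCurve Fermat.Agent.INJ Fermat.Agent.UNIP IntermediateField
  Fermat.Agent.ES Fermat.Agent.ES.G2

namespace Fermat.Agent.R38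

section Up

variable {N N' : ℕ} [NeZero N] [NeZero N']

/-- `F_N(y) ≤ F_{N′}(y)` -/
theorem tres5ff_cov_le (hle : modularFunctionFieldBar N ≤ modularFunctionFieldBar N')
    (y : LaurentSeries NfQb) : tres5cField N y ≤ tres5cField N' y := by
  rw [tres5cField, IntermediateField.adjoin_le_iff]
  rintro x (hx | hx)
  · exact tres5c_bar_le N' y (hle hx)
  · rw [Set.mem_singleton_iff] at hx
    subst hx
    exact tres5c_y_mem N' x

/-- the cover is `σ`-stable as soon as `σ y` lies in it -/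
theorem tres5ff_stab_of_y (N' : ℕ) [NeZero N'] (y : LaurentSeries NfQb) (σ : NfQb ≃ₐ[ℚ] NfQb)
    (hσy : coeffMap ((σ : NfQb ≃ₐ[ℚ] NfQb) : NfQb →+* NfQb) y ∈ tres5cField N' y) :
    ∀ x ∈ tres5cField N' y,
      coeffMap ((σ : NfQb ≃ₐ[ℚ] NfQb) : NfQb →+* NfQb) x ∈ tres5cField N' y := by
  refine tresdesc_adjoin_map _ (fun a => ?_) ?_
  · rw [coeffMap_algebraMap]
    exact (tres5cField N' y).algebraMap_mem _
  · rintro x (hx | hx)
    · exact tres5c_bar_le N' y (coeffMap_mem_laurentBaseChange σ hx)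
    · rw [Set.mem_singleton_iff] at hx
      subst hx
      exact hσy

/-- **`hstabI` at the level `N′`** from the toric line at the level `N`. -/
theorem tres5ff_hstabI_toric {m : ℕ} (hm : m ≠ 0) {z₀ : JZero N}
    {w₀ : modularFunctionFieldBar N} (hw : KummerRel m z₀ w₀) {y : LaurentSeries NfQb}
    (hy : y ^ m = (w₀ : LaurentSeries NfQb))
    (hle : modularFunctionFieldBar N ≤ modularFunctionFieldBar N')
    {A : ValuationSubring NfQb}
    (htor : ∀ τ ∈ A.inertiaSubgroupIn ℚ, ∃ g : ℤ, τ • z₀ = g • z₀) :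
    ∀ σ ∈ A.inertiaSubgroupIn ℚ, ∀ x ∈ tres5cField N' y,
      coeffMap ((σ : NfQb ≃ₐ[ℚ] NfQb) : NfQb →+* NfQb) x ∈ tres5cField N' y := by
  intro σ hσ
  obtain ⟨g, hg⟩ := htor σ hσ
  exact tres5ff_stab_of_y N' y σ
    (tres5ff_cov_le hle y (tresdesc_stab hm hw hy hg y (tresCov_self_mem y)))

/-- a deck transformation of `F_{N′}(y)` commutes with `σ` if `σ y = C c · h · y ^ g`,
`h ∈ F_{N′}` and `σ ζ = ζ ^ g` -/
theorem tres5ff_comm_of_y (N' : ℕ) [NeZero N'] (y : LaurentSeries NfQb)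
    (t : ↥(tres5cField N' y) →+* LaurentSeries NfQb)
    (htF : ∀ (f : LaurentSeries NfQb) (hf : f ∈ modularFunctionFieldBar N'),
      t ⟨f, tres5c_bar_le N' y hf⟩ = f)
    {ζ : NfQb} (hty : t ⟨y, tres5c_y_mem N' y⟩ = HahnSeries.C ζ * y)
    {σ : NfQb ≃ₐ[ℚ] NfQb} {g : ℤ} {c : NfQb} {h : LaurentSeries NfQb}
    (hh : h ∈ modularFunctionFieldBar N')
    (hσy : coeffMap ((σ : NfQb ≃ₐ[ℚ] NfQb) : NfQb →+* NfQb) y =
      HahnSeries.C c * (h * y ^ g))
    (hσζ : σ ζ = ζ ^ g) :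
    ∀ (x : ↥(tres5cField N' y))
      (hx : coeffMap ((σ : NfQb ≃ₐ[ℚ] NfQb) : NfQb →+* NfQb) (x : LaurentSeries NfQb) ∈
        tres5cField N' y),
      t ⟨_, hx⟩ = coeffMap ((σ : NfQb ≃ₐ[ℚ] NfQb) : NfQb →+* NfQb) (t x) := by
  have hymem : coeffMap ((σ : NfQb ≃ₐ[ℚ] NfQb) : NfQb →+* NfQb) y ∈ tres5cField N' y := by
    rw [hσy]
    exact (tres5cField N' y).mul_mem (tresdesc_C_mem _ c)
      ((tres5cField N' y).mul_mem (tres5c_bar_le N' y hh) (zpow_mem (tres5c_y_mem N' y) g))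
  have hstab := tres5ff_stab_of_y N' y σ hymem
  -- the restricted action
  set act : ↥(tres5cField N' y) →+* ↥(tres5cField N' y) :=
    ((coeffMap ((σ : NfQb ≃ₐ[ℚ] NfQb) : NfQb →+* NfQb)).comp
      (algebraMap ↥(tres5cField N' y) (LaurentSeries NfQb))).codRestrict (tres5cField N' y)
      (fun x => hstab x x.2) with hact
  have hact_coe : ∀ x : ↥(tres5cField N' y), ((act x : ↥(tres5cField N' y)) : LaurentSeries NfQb) =
      coeffMap ((σ : NfQb ≃ₐ[ℚ] NfQb) : NfQb →+* NfQb) (x : LaurentSeries NfQb) := fun x => rfl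
  have hCmem : ∀ a : NfQb, (HahnSeries.C a : LaurentSeries NfQb) ∈ modularFunctionFieldBar N' :=
    fun a => Fermat.Agent.S36.s36d_C_mem N' a
  have htC : ∀ (a : NfQb) (ha : (HahnSeries.C a : LaurentSeries NfQb) ∈ tres5cField N' y),
      t ⟨HahnSeries.C a, ha⟩ = HahnSeries.C a := fun a ha => htF _ (hCmem a)
  have key := tresdesc_adjoin_ext
    (s := (modularFunctionFieldBar N' : Set (LaurentSeries NfQb)) ∪ {y})
    (t.comp act) ((coeffMap ((σ : NfQb ≃ₐ[ℚ] NfQb) : NfQb →+* NfQb)).comp t) ?_ ?_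
  · intro x hx
    have h1 := key (x : LaurentSeries NfQb) x.2
    have h2 : t (act x) = coeffMap ((σ : NfQb ≃ₐ[ℚ] NfQb) : NfQb →+* NfQb) (t x) := h1
    rw [← h2]
    congr 1
  · intro a
    show t (act (algebraMap NfQb _ a)) =
      coeffMap ((σ : NfQb ≃ₐ[ℚ] NfQb) : NfQb →+* NfQb) (t (algebraMap NfQb _ a))
    have e1 : (algebraMap NfQb ↥(tres5cField N' y) a) =
        ⟨HahnSeries.C a, tresdesc_C_mem _ a⟩ :=
      Subtype.ext (Fermat.Agent.S36.s36d_algebraMap_eq_C a)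
    have e2 : act (algebraMap NfQb ↥(tres5cField N' y) a) =
        ⟨HahnSeries.C (σ a), tresdesc_C_mem _ (σ a)⟩ := by
      apply Subtype.ext
      rw [hact_coe, e1]
      exact Fermat.Agent.S36.s36d_coeffMap_C' ((σ : NfQb ≃ₐ[ℚ] NfQb) : NfQb →+* NfQb) a
    rw [e2, htC, e1, htC]
    exact (Fermat.Agent.S36.s36d_coeffMap_C' ((σ : NfQb ≃ₐ[ℚ] NfQb) : NfQb →+* NfQb) a).symm
  · rintro x (hx | hx)
    · show t (act ⟨x, _⟩) = coeffMap ((σ : NfQb ≃ₐ[ℚ] NfQb) : NfQb →+* NfQb) (t ⟨x, _⟩)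
      have e2 : act ⟨x, tres5c_bar_le N' y hx⟩ =
          ⟨coeffMap ((σ : NfQb ≃ₐ[ℚ] NfQb) : NfQb →+* NfQb) x,
            tres5c_bar_le N' y (coeffMap_mem_laurentBaseChange σ hx)⟩ := Subtype.ext rfl
      rw [e2, htF _ (coeffMap_mem_laurentBaseChange σ hx), htF _ hx]
    · rw [Set.mem_singleton_iff] at hx
      subst hx
      show t (act ⟨x, _⟩) = coeffMap ((σ : NfQb ≃ₐ[ℚ] NfQb) : NfQb →+* NfQb) (t ⟨x, _⟩)
      have e2 : act ⟨x, tres5c_y_mem N' x⟩ =
          ⟨HahnSeries.C c, tresdesc_C_mem _ c⟩ *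
            (⟨h, tres5c_bar_le N' x hh⟩ *
              (⟨x, tres5c_y_mem N' x⟩ : ↥(tres5cField N' x)) ^ g) := by
        apply Subtype.ext
        rw [hact_coe]
        exact hσy
      have hσζ' : ((σ : NfQb ≃ₐ[ℚ] NfQb) : NfQb →+* NfQb) ζ = ζ ^ g := hσζ
      rw [e2, map_mul, map_mul, map_zpow₀, htC, htF _ hh, hty, map_mul,
        Fermat.Agent.S36.s36d_coeffMap_C', hσy, hσζ', mul_zpow, map_zpow₀]
      ring

/-- **`hcomm` at the level `N′`** from the toric line at the level `N`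
(= the hypothesis `hcomm` of `tres5ff_inst_hρG`). -/
theorem tres5ff_hcomm_toric {m : ℕ} (hm : m ≠ 0) {z₀ : JZero N}
    {w₀ : modularFunctionFieldBar N} (hw : KummerRel m z₀ w₀) {y : LaurentSeries NfQb}
    (hy : y ^ m = (w₀ : LaurentSeries NfQb))
    (hle : modularFunctionFieldBar N ≤ modularFunctionFieldBar N')
    (t : ↥(tres5cField N' y) →+* LaurentSeries NfQb)
    (htF : ∀ (f : LaurentSeries NfQb) (hf : f ∈ modularFunctionFieldBar N'),
      t ⟨f, tres5c_bar_le N' y hf⟩ = f)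
    {ζ : NfQb} (hty : t ⟨y, tres5c_y_mem N' y⟩ = HahnSeries.C ζ * y)
    {A : ValuationSubring NfQb}
    (htor : ∀ τ ∈ A.inertiaSubgroupIn ℚ, ∃ g : ℤ, τ • z₀ = g • z₀ ∧ τ ζ = ζ ^ g) :
    ∀ σ ∈ A.inertiaSubgroupIn ℚ, ∀ (x : ↥(tres5cField N' y))
      (hx : coeffMap ((σ : NfQb ≃ₐ[ℚ] NfQb) : NfQb →+* NfQb) (x : LaurentSeries NfQb) ∈
        tres5cField N' y),
      t ⟨_, hx⟩ = coeffMap ((σ : NfQb ≃ₐ[ℚ] NfQb) : NfQb →+* NfQb) (t x) := by
  intro σ hσ
  obtain ⟨g, hg, hgζ⟩ := htor σ hσ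
  obtain ⟨c, h, -, -, he⟩ := tresdesc_sigma_y hm hw hy hg
  exact tres5ff_comm_of_y N' y t htF hty (hle h.2) he hgζ

/-! ### The toric line in the shape of `StmtMonoCover` (`τ z₀ = cycloExp p τ • z₀`) -/

/-- the cyclotomic exponent describes the action on `p`-th roots of unity -/
theorem tres5ff_cycloExp_spec (p : ℕ) [Fact p.Prime] (σ : NfQb ≃ₐ[ℚ] NfQb) {ζ : NfQb}
    (hζ : ζ ^ p = 1) : σ ζ = ζ ^ (ExtCitation.cycloExp p σ) := by
  have : NeZero p := ⟨(Fact.out : p.Prime).ne_zero⟩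
  have hζu : IsUnit ζ := IsUnit.of_pow_eq_one hζ (NeZero.ne p)
  obtain ⟨t, rfl⟩ := hζu
  have ht : t ∈ rootsOfUnity p (AlgebraicClosure ℚ) := by
    rw [mem_rootsOfUnity]
    exact Units.ext (by simpa using hζ)
  have := modularCyclotomicCharacter.spec (AlgebraicClosure ℚ)
    (ExtCitation.card_rootsOfUnity_eq_self p)
    (σ : AlgebraicClosure ℚ ≃+* AlgebraicClosure ℚ) ht
  simpa [ExtCitation.cycloExp] using this

/-- **`hstabI` at the level `N′`**, toric hypothesis as in `StmtMonoCover`. -/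
theorem tres5ff_hstabI_cyclo {p : ℕ} [Fact p.Prime] {z₀ : JZero N}
    {w₀ : modularFunctionFieldBar N} (hw : KummerRel p z₀ w₀) {y : LaurentSeries NfQb}
    (hy : y ^ p = (w₀ : LaurentSeries NfQb))
    (hle : modularFunctionFieldBar N ≤ modularFunctionFieldBar N')
    {A : ValuationSubring NfQb}
    (htor : ∀ τ ∈ A.inertiaSubgroupIn ℚ, τ • z₀ = ExtCitation.cycloExp p τ • z₀) :
    ∀ σ ∈ A.inertiaSubgroupIn ℚ, ∀ x ∈ tres5cField N' y,
      coeffMap ((σ : NfQb ≃ₐ[ℚ] NfQb) : NfQb →+* NfQb) x ∈ tres5cField N' y :=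
  tres5ff_hstabI_toric (Fact.out : p.Prime).ne_zero hw hy hle fun τ hτ =>
    ⟨(ExtCitation.cycloExp p τ : ℤ), by rw [natCast_zsmul]; exact htor τ hτ⟩

/-- **`hcomm` at the level `N′`**, toric hypothesis as in `StmtMonoCover`. -/
theorem tres5ff_hcomm_cyclo {p : ℕ} [Fact p.Prime] {z₀ : JZero N}
    {w₀ : modularFunctionFieldBar N} (hw : KummerRel p z₀ w₀) {y : LaurentSeries NfQb}
    (hy : y ^ p = (w₀ : LaurentSeries NfQb))
    (hle : modularFunctionFieldBar N ≤ modularFunctionFieldBar N')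
    (t : ↥(tres5cField N' y) →+* LaurentSeries NfQb)
    (htF : ∀ (f : LaurentSeries NfQb) (hf : f ∈ modularFunctionFieldBar N'),
      t ⟨f, tres5c_bar_le N' y hf⟩ = f)
    {ζ : NfQb} (hζ : ζ ^ p = 1) (hty : t ⟨y, tres5c_y_mem N' y⟩ = HahnSeries.C ζ * y)
    {A : ValuationSubring NfQb}
    (htor : ∀ τ ∈ A.inertiaSubgroupIn ℚ, τ • z₀ = ExtCitation.cycloExp p τ • z₀) :
    ∀ σ ∈ A.inertiaSubgroupIn ℚ, ∀ (x : ↥(tres5cField N' y))
      (hx : coeffMap ((σ : NfQb ≃ₐ[ℚ] NfQb) : NfQb →+* NfQb) (x : LaurentSeries NfQb) ∈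
        tres5cField N' y),
      t ⟨_, hx⟩ = coeffMap ((σ : NfQb ≃ₐ[ℚ] NfQb) : NfQb →+* NfQb) (t x) :=
  tres5ff_hcomm_toric (Fact.out : p.Prime).ne_zero hw hy hle t htF hty fun τ hτ =>
    ⟨(ExtCitation.cycloExp p τ : ℤ), by rw [natCast_zsmul]; exact htor τ hτ, by
      rw [zpow_natCast]; exact tres5ff_cycloExp_spec p τ hζ⟩

end Up

end Fermat.Agent.R38
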