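import Fermat.Agent.R38.TresDescKHor
import Fermat.Agent.R38.TresFixFUp
import Fermat.Agent.R38.TresLevelUp
import Fermat.Agent.R38.TresCoverDescK

/-!
# R38-TRES, steps 4 + 5, `K`-LEVEL GLUE, part 4 (helper30): LEVEL-UP

The class `x`, the toric class `z₀` and their Kummer functions `u`, `w₀` live at the level
`N = M p`; the cover of FAC-MONO is taken at a RIGID level `N′` (`N ∣ N′`):
`F′ = tres5cField N′ y`, `y ^ p = w₀`, `L_K = tres5cL K N′ y`, `F_K = F_{N′}(K)`, `K = ℚ̄^I`.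
`hle : modularFunctionFieldBar N ≤ modularFunctionFieldBar N′` (as in `R38/TresFixFUp.lean`).

* `tresdesck_up_Qb`    : FAC-DESC (DESC′ + DECK) over `ℚ̄` at the level `N′`
                         (`tresdesc_final` is the case `N′ = N`);
* `tresdesck_up_main`  : + FAC-KUM, over `K` (`tresdesck_main` at the level `N′`);
* `tresdesck_up_hdiv`  : `p ∣ ord_Q u` at the places of `F_{M q' p}(ℚ̄)` for a Kummer function
                         `u` of level `M p` (helper28's `treslu_div`);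
* **`tresdesck_up_all`** : ONE `w = u″ ∈ L_K` at the level `N′` with `hfac`, `hρu`, `hpa`, `hhor`
                         (`hgen` discharged; CORRECTION to `tresdesck_all` / `tresdesck_final`:
                         the unit hypothesis of clause (3) is asked for `υ ≠ 0` only — in the
                         older statements it is not satisfiable at `υ = 0`; use this theorem with
                         `N′ = N`, `hle = le_refl _`, or `tresdesckv_all`);
* `tresdesck_up_all_cyclo` : the same with the toric hypothesis in the shape of `StmtMonoCover`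
                         (`τ z₀ = cycloExp p τ • z₀`) and `ζ ^ p = 1`.
-/

set_option autoImplicit false
set_option linter.unusedSectionVars false
set_option linter.unusedVariables false
set_option linter.style.haveILetI false

noncomputable section

open ModularCurve AlgebraicCurve Fermat.Agent.ES Fermat.Agent.ES.G2 Fermat.Agent.INJ
  Fermat.Agent.UNIP Fermat.Agent.S36 Fermat.Agent.RIB.MP

namespace Fermat.Agent.R38

section Up

variable {N N' : ℕ} [NeZero N] [NeZero N']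

/-- **FAC-DESC over `ℚ̄` at the level `N′`.** -/
theorem tresdesck_up_Qb {m : ℕ} (hm : m ≠ 0) (A : ValuationSubring NfQb)
    {x z₀ : JZero N} {u w₀ : modularFunctionFieldBar N} (hu : KummerRel m x u)
    (hw : KummerRel m z₀ w₀) {y : LaurentSeries NfQb}
    (hy : y ^ m = (w₀ : LaurentSeries NfQb))
    (hle : modularFunctionFieldBar N ≤ modularFunctionFieldBar N')
    (hline : ∀ σ ∈ A.inertiaSubgroupIn ℚ, ∃ k : ℤ, σ • x - x = k • z₀)
    (t : ↥(tres5cField N' y) →+* LaurentSeries NfQb) (htmem : ∀ z, t z ∈ tres5cField N' y)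
    (htF : ∀ (f : LaurentSeries NfQb) (hf : f ∈ modularFunctionFieldBar N'),
      t ⟨f, tres5c_bar_le N' y hf⟩ = f)
    {ζ : NfQb} (hty : t ⟨y, tres5c_y_mem N' y⟩ = HahnSeries.C ζ * y)
    (htor : ∀ σ ∈ A.inertiaSubgroupIn ℚ, ∃ g : ℤ, σ • z₀ = g • z₀ ∧ σ ζ = ζ ^ g) :
    ∃ (u'' γ h : LaurentSeries NfQb) (α : NfQb) (hu''F : u'' ∈ tres5cField N' y),
      γ ∈ tres5cField N' y ∧ h ∈ tres5cField N' y ∧ u'' ≠ 0 ∧ γ ≠ 0 ∧ h ≠ 0 ∧ α ≠ 0 ∧
      (u : LaurentSeries NfQb) =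
        HahnSeries.C (u : LaurentSeries NfQb).leadingCoeff * γ ^ m * u'' ∧
      (∀ σ ∈ A.inertiaSubgroupIn ℚ,
        coeffMap ((σ : NfQb ≃ₐ[ℚ] NfQb) : NfQb →+* NfQb) u'' = u'') ∧
      (∀ σ ∈ A.inertiaSubgroupIn ℚ,
        coeffMap ((σ : NfQb ≃ₐ[ℚ] NfQb) : NfQb →+* NfQb) h = h) ∧
      t ⟨u'', hu''F⟩ = HahnSeries.C (α ^ m) * h ^ m * u'' ∧
      (∀ σ ∈ A.inertiaSubgroupIn ℚ, σ (α ^ m) = α ^ m) ∧
      ∀ σ ∈ A.inertiaSubgroupIn ℚ, σ • x = x → σ α = α := by
  have hU0 : (u : LaurentSeries NfQb) ≠ 0 := fun h0 => hu.ne_zero (Subtype.ext h0)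
  have hUF : (u : LaurentSeries NfQb) ∈ tres5cField N' y := tres5c_bar_le N' y (hle u.2)
  have hstab := tres5ff_hstabI_toric (N' := N') hm hw hy hle (A := A)
    (fun σ hσ => (htor σ hσ).imp fun g hg => hg.1)
  obtain ⟨u'', γ, hu''F, hγF, hu'', hγ, hU, hfix⟩ :=
    tresdesc_desc (G := A.inertiaSubgroupIn ℚ) (Fb := tres5cField N' y) hstab hm hU0 hUF
      (s36d_orbit_finite N u.2) (fun σ hσ => by
        obtain ⟨k, hk⟩ := hline σ hσ
        obtain ⟨a, h, hh, he⟩ := tresdesc_cocycle_cov hm hu hw hy hk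
        exact ⟨a, h, tres5ff_cov_le hle y hh, he⟩)
  have htC : ∀ (a : NfQb) (ha : (HahnSeries.C a : LaurentSeries NfQb) ∈ tres5cField N' y),
      t ⟨HahnSeries.C a, ha⟩ = HahnSeries.C a := fun a ha => htF _ (s36d_C_mem N' a)
  have htG := tres5ff_hcomm_toric (N' := N') hm hw hy hle t htF hty (A := A) htor
  obtain ⟨α, h, hα, hhF, hh0, hhfix, hth, hαm, hαfix⟩ :=
    tresdesc_deck (G := A.inertiaSubgroupIn ℚ) (Fb := tres5cField N' y) hm t htC htmem htG
      hUF hu''F hγF (HahnSeries.leadingCoeff_ne_zero.mpr hU0) hγ hu'' (htF _ (hle u.2)) hU hfix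
  refine ⟨u'', γ, h, α, hu''F, hγF, hhF, hu'', hγ, hh0, hα, hU, hfix, hhfix, hth, hαm, ?_⟩
  intro σ hσ hσx
  apply hαfix σ hσ
  have hk : σ • x - x = (0 : ℤ) • z₀ := by
    rw [hσx, sub_self, zero_zsmul]
  obtain ⟨a, g, ha, hg, he⟩ := tresdesc_cocycle hu hw hk
  refine ⟨a, (g : LaurentSeries NfQb), tres5c_bar_le N' y (hle g.2), htF _ (hle g.2), ?_⟩
  have := congrArg (fun z : modularFunctionFieldBar N => (z : LaurentSeries NfQb)) he
  simp only [coe_arithmeticGalois_smul] at this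
  rw [this, ← s36d_algebraMap_eq_C, zpow_zero, mul_one]
  rfl

/-- **Step 4 over `K = ℚ̄^I` at the level `N′`** (FAC-DESC + FAC-KUM). -/
theorem tresdesck_up_main {p : ℕ} [Fact p.Prime] (A : ValuationSubring Qb)
    (hA : A.LiesOverPrime p)
    {x z₀ : JZero N} {u w₀ : modularFunctionFieldBar N} (hu : KummerRel p x u)
    (hw : KummerRel p z₀ w₀) {y : LaurentSeries NfQb}
    (hy : y ^ p = (w₀ : LaurentSeries NfQb))
    (hle : modularFunctionFieldBar N ≤ modularFunctionFieldBar N')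
    (hline : ∀ σ ∈ A.inertiaSubgroupIn ℚ, ∃ k : ℤ, σ • x - x = k • z₀)
    (hpeu : ∀ σ ∈ peuSubgroup A p, σ • x = x)
    (t : ↥(tres5cField N' y) →+* LaurentSeries NfQb) (htmem : ∀ z, t z ∈ tres5cField N' y)
    (htF : ∀ (f : LaurentSeries NfQb) (hf : f ∈ modularFunctionFieldBar N'),
      t ⟨f, tres5c_bar_le N' y hf⟩ = f)
    {ζ : NfQb} (hty : t ⟨y, tres5c_y_mem N' y⟩ = HahnSeries.C ζ * y)
    (htor : ∀ σ ∈ A.inertiaSubgroupIn ℚ, ∃ g : ℤ, σ • z₀ = g • z₀ ∧ σ ζ = ζ ^ g) :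
    ∃ (w h : ↥(tres5cL (beta0Field A) N' y)) (γ : LaurentSeries NfQb)
      (a υ : ↥(beta0Field A)) (m : ℤ),
      w ≠ 0 ∧ h ≠ 0 ∧ a ≠ 0 ∧ υ ≠ 0 ∧ γ ∈ tres5cField N' y ∧ γ ≠ 0 ∧
      (u : LaurentSeries NfQb) =
        HahnSeries.C (u : LaurentSeries NfQb).leadingCoeff * γ ^ p *
          coeffMap (algebraMap ↥(beta0Field A) NfQb) (w : LaurentSeries ↥(beta0Field A)) ∧
      t (tres5cEmb (beta0Field A) N' y w) =
        HahnSeries.C (a : NfQb) *
          coeffMap (algebraMap ↥(beta0Field A) NfQb) (w : LaurentSeries ↥(beta0Field A)) *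
          coeffMap (algebraMap ↥(beta0Field A) NfQb) (h : LaurentSeries ↥(beta0Field A)) ^ p ∧
      a = υ * ((p : ↥(beta0Field A)) ^ m) ^ p ∧ (υ : Qb) ∈ A ∧ ((υ : Qb))⁻¹ ∈ A := by
  have hp : p.Prime := Fact.out
  obtain ⟨u'', γ, h, α, hu''F, hγF, hhF, hu'', hγ, hh0, hα, hU, hfix, hhfix, hth, hαm, hαfix⟩ :=
    tresdesck_up_Qb (N := N) (N' := N') hp.ne_zero A hu hw hy hle hline t htmem htF hty htor
  obtain ⟨m, υ, hαυ, hυ0, hυA, hυA', hυfix⟩ :=
    tres5dk_main p A hA α hα hαm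
      (fun σ hσ => hαfix σ (peuSubgroup_le A p hσ) (hpeu σ hσ))
  obtain ⟨w, hw'⟩ := tres5cL_exists_of_coeff (beta0Field A) N' y hu''F
    (tresdesck_coeff_mem A hfix)
  obtain ⟨hK, hhK⟩ := tres5cL_exists_of_coeff (beta0Field A) N' y hhF
    (tresdesck_coeff_mem A hhfix)
  have hαK : α ^ p ∈ beta0Field A := mem_beta0Field.2 hαm
  have hυK : υ ∈ beta0Field A := mem_beta0Field.2 hυfix
  refine ⟨w, hK, γ, ⟨α ^ p, hαK⟩, ⟨υ, hυK⟩, m, ?_, ?_, ?_, ?_, hγF, hγ, ?_, ?_, ?_, hυA, hυA'⟩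
  · rintro rfl
    apply hu''
    rw [← hw']
    exact map_zero _
  · rintro rfl
    apply hh0
    rw [← hhK]
    exact map_zero _
  · intro h0
    have := congrArg (fun z : ↥(beta0Field A) => (z : NfQb)) h0
    exact pow_ne_zero p hα this
  · intro h0
    have := congrArg (fun z : ↥(beta0Field A) => (z : NfQb)) h0
    exact hυ0 this
  · rw [hw']
    exact hU
  · have e : tres5cEmb (beta0Field A) N' y w = ⟨u'', hu''F⟩ := Subtype.ext hw'
    rw [e, hw', hhK]
    refine hth.trans ?_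
    show HahnSeries.C (α ^ p) * h ^ p * u'' = HahnSeries.C (α ^ p) * u'' * h ^ p
    ring
  · apply Subtype.ext
    show α ^ p = _
    rw [hαυ]
    push_cast
    rfl

/-- **`hgen` at the level `N′`** (helper64's `tres5cd_hgen_inertia`). -/
theorem tresdesck_up_hgen (A : ValuationSubring NfQb) {m : ℕ} (hm : m ≠ 0) {z₀ : JZero N}
    {w₀ : modularFunctionFieldBar N} (hw : KummerRel m z₀ w₀) {y : LaurentSeries NfQb}
    (hy : y ^ m = (w₀ : LaurentSeries NfQb))
    (hle : modularFunctionFieldBar N ≤ modularFunctionFieldBar N')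
    (htor : ∀ σ ∈ A.inertiaSubgroupIn ℚ, ∃ g : ℤ, σ • z₀ = g • z₀) :
    ∀ f ∈ tres5cField N' y, f ∈ IntermediateField.adjoin NfQb
      {x : LaurentSeries NfQb | x ∈ tres5cField N' y ∧
        ∃ g : LaurentSeries ↥(beta0Field A),
          coeffMap (algebraMap ↥(beta0Field A) NfQb) g = x} := by
  have hw0 : (w₀ : LaurentSeries NfQb) ≠ 0 := fun h0 => hw.ne_zero (Subtype.ext h0)
  have hy0 : y ≠ 0 := by
    rintro rfl
    rw [zero_pow hm] at hy
    exact hw0 hy.symm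
  refine tres5cd_hgen_inertia (N := N') A hm hy0 (by rw [hy]; exact hle w₀.2) fun σ hσ => ?_
  obtain ⟨g, hg⟩ := htor σ hσ
  exact tres5ff_cov_le hle y (tresdesc_stab hm hw hy hg y (tresCov_self_mem y))

/-- `p ∣ ord_Q u` at the places of `F_{M q' p}(ℚ̄)` for a Kummer function `u` of level `M p`
(the hypothesis `hdiv` of `tresdesck_up_all` for `N = M p`, `N′ = M q' p`). -/
theorem tresdesck_up_hdiv (M p q' : ℕ) [NeZero M] [NeZero p] [NeZero q'] [NeZero (M * p)]
    [NeZero (M * q' * p)] {n : ℕ} {x : JZero (M * p)} {u : modularFunctionFieldBar (M * p)}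
    (hu : KummerRel n x u)
    (hle : modularFunctionFieldBar (M * p) ≤ modularFunctionFieldBar (M * q' * p))
    (Q : Place NfQb ↥(modularFunctionFieldBar (M * q' * p))) :
    (n : ℤ) ∣ Q.ord (⟨(u : LaurentSeries NfQb), hle u.2⟩ :
      ↥(modularFunctionFieldBar (M * q' * p))) := by
  have h := treslu_div M p q' n u (fun P => tresdesck_kummer_dvd hu P) Q
  have e : (⟨(u : LaurentSeries NfQb), hle u.2⟩ : ↥(modularFunctionFieldBar (M * q' * p))) =
      Fermat.Agent.STB.stbdUp M p q' u := Subtype.ext (Fermat.Agent.STB.coe_stbdUp M p q' u).symm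
  rw [e]
  exact h

/-- **Steps 4 + 5 over `K = ℚ̄^I` at the level `N′`, ONE function `w = u″ ∈ L_K`**:
`hfac`, `hρu`, `hpa`, `hhor`. -/
theorem tresdesck_up_all {p : ℕ} [Fact p.Prime] (A : ValuationSubring Qb)
    (hA : A.LiesOverPrime p)
    {x z₀ : JZero N} {u w₀ : modularFunctionFieldBar N} (hu : KummerRel p x u)
    (hw : KummerRel p z₀ w₀) {y : LaurentSeries NfQb}
    (hy : y ^ p = (w₀ : LaurentSeries NfQb))
    (hle : modularFunctionFieldBar N ≤ modularFunctionFieldBar N')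
    (hline : ∀ σ ∈ A.inertiaSubgroupIn ℚ, ∃ k : ℤ, σ • x - x = k • z₀)
    (hpeu : ∀ σ ∈ peuSubgroup A p, σ • x = x)
    (t : ↥(tres5cField N' y) →+* LaurentSeries NfQb) (htmem : ∀ z, t z ∈ tres5cField N' y)
    (htF : ∀ (f : LaurentSeries NfQb) (hf : f ∈ modularFunctionFieldBar N'),
      t ⟨f, tres5c_bar_le N' y hf⟩ = f)
    {ζ : NfQb} (hty : t ⟨y, tres5c_y_mem N' y⟩ = HahnSeries.C ζ * y)
    (htor : ∀ σ ∈ A.inertiaSubgroupIn ℚ, ∃ g : ℤ, σ • z₀ = g • z₀ ∧ σ ζ = ζ ^ g)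
    (hdiv : ∀ Q : Place NfQb ↥(modularFunctionFieldBar N'),
      (p : ℤ) ∣ Q.ord (⟨(u : LaurentSeries NfQb), hle u.2⟩ : ↥(modularFunctionFieldBar N'))) :
    ∃ (w h : ↥(tres5cL (beta0Field A) N' y)) (γ : LaurentSeries NfQb)
      (a : ↥(modularFunctionFieldFullC ↥(beta0Field A) N')),
      w ≠ 0 ∧ h ≠ 0 ∧ a ≠ 0 ∧ γ ∈ tres5cField N' y ∧ γ ≠ 0 ∧
      (u : LaurentSeries NfQb) =
        HahnSeries.C (u : LaurentSeries NfQb).leadingCoeff * γ ^ p *
          coeffMap (algebraMap ↥(beta0Field A) NfQb) (w : LaurentSeries ↥(beta0Field A)) ∧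
      (∀ ρK : ↥(tres5cL (beta0Field A) N' y) →+* ↥(tres5cL (beta0Field A) N' y),
        (∀ f : ↥(tres5cL (beta0Field A) N' y),
          coeffMap (algebraMap ↥(beta0Field A) NfQb)
            ((ρK f : ↥(tres5cL (beta0Field A) N' y)) : LaurentSeries ↥(beta0Field A)) =
              t (tres5cEmb (beta0Field A) N' y f)) →
        ρK w = algebraMap ↥(modularFunctionFieldFullC ↥(beta0Field A) N')
          ↥(tres5cL (beta0Field A) N' y) a * w * h ^ p) ∧
      (∀ (VK : ValuationSubring ↥(modularFunctionFieldFullC ↥(beta0Field A) N'))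
        (πK : ↥(modularFunctionFieldFullC ↥(beta0Field A) N')), πK ∈ VK.nonunits → πK ≠ 0 →
        (∀ x : ↥(modularFunctionFieldFullC ↥(beta0Field A) N'), x ≠ 0 →
          ∃ m : ℤ, VK.valuation (x / πK ^ m) = 1) →
        (∀ υ : ↥(beta0Field A), υ ≠ 0 → (υ : Qb) ∈ A → ((υ : Qb))⁻¹ ∈ A →
          VK.valuation
            (algebraMap ↥(beta0Field A) ↥(modularFunctionFieldFullC ↥(beta0Field A) N') υ) = 1) →
        (p : ℤ) ∣ tres5Ord VK πK a) ∧
      (∀ (alg : Algebra ↥(beta0Field A) ↥(tres5cL (beta0Field A) N' y)),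
        (∀ c : ↥(beta0Field A),
          ((@algebraMap ↥(beta0Field A) ↥(tres5cL (beta0Field A) N' y) _ _ alg c :
            ↥(tres5cL (beta0Field A) N' y)) : LaurentSeries ↥(beta0Field A)) =
              algebraMap ↥(beta0Field A) (LaurentSeries ↥(beta0Field A)) c) →
        ∀ P : @Place ↥(beta0Field A) ↥(tres5cL (beta0Field A) N' y) _ _ alg,
          (p : ℤ) ∣ @Place.ord ↥(beta0Field A) ↥(tres5cL (beta0Field A) N' y) _ _ alg P w) := by
  have hp : p.Prime := Fact.out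
  obtain ⟨w, h, γ, a, υ, m, hw0, hh0, ha0, hυ0, hγF, hγ, hU, hth, ha, hυA, hυA'⟩ :=
    tresdesck_up_main (N := N) (N' := N') A hA hu hw hy hle hline hpeu t htmem htF hty htor
  refine ⟨w, h, γ, algebraMap ↥(beta0Field A) ↥(modularFunctionFieldFullC ↥(beta0Field A) N') a,
    hw0, hh0, (_root_.map_ne_zero _).2 ha0, hγF, hγ, hU, ?_, ?_, ?_⟩
  · intro ρK hρK
    exact tresdesck_deck (beta0Field A) t ρK hρK hth
  · intro VK πK hπK hπK0 hunifK hunit
    exact tresdesck_const_ord (beta0Field A) hp.ne_zero VK hπK hπK0 hunifK ha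
      (hunit υ hυ0 hυA hυA')
  · intro alg hconst P
    have hU0 : (u : LaurentSeries NfQb) ≠ 0 := fun h0 => hu.ne_zero (Subtype.ext h0)
    have hy' : y ^ p ∈ modularFunctionFieldBar N' := by
      rw [hy]
      exact hle w₀.2
    have hgen := tresdesck_up_hgen (N := N) (N' := N') A hp.ne_zero hw hy hle
      (fun σ hσ => (htor σ hσ).imp fun g hg => hg.1)
    refine @tres5h_cover (beta0Field A) N' y alg hconst p hp.ne_zero hy' hgen p
      ⟨(u : LaurentSeries NfQb), hle u.2⟩ hdiv _ (HahnSeries.leadingCoeff_ne_zero.mpr hU0) γ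
      hγF hγ w ?_ P
    rw [s36d_algebraMap_eq_C]
    exact hU

/-- the cyclotomic exponent describes the action on `p`-th roots of unity (copy of
`tres5ff_cycloExp_spec`, in the shape used below) -/
theorem tresdesck_htor_cyclo {p : ℕ} [Fact p.Prime] {A : ValuationSubring NfQb} {z₀ : JZero N}
    {ζ : NfQb} (hζ : ζ ^ p = 1)
    (htor : ∀ τ ∈ A.inertiaSubgroupIn ℚ, τ • z₀ = ExtCitation.cycloExp p τ • z₀) :
    ∀ σ ∈ A.inertiaSubgroupIn ℚ, ∃ g : ℤ, σ • z₀ = g • z₀ ∧ σ ζ = ζ ^ g := fun τ hτ =>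
  ⟨(ExtCitation.cycloExp p τ : ℤ), by rw [natCast_zsmul]; exact htor τ hτ, by
    rw [zpow_natCast]; exact tres5ff_cycloExp_spec p τ hζ⟩

end Up

end Fermat.Agent.R38

end
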