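import Fermat.Agent.R38.TresBigInstT
import Fermat.Agent.R38.TresBigInstInC
import Fermat.Agent.R38.TresBigInstInD
import Fermat.Agent.R38.TresDescKUp

/-!
# ROW 38, TRES, piece FAC-BIG (helper16), part 7: THE `T`-INSTANCE in the frame of `StmtMonoCoverData`

The frame of helper89's `StmtMonoCoverData` (`R38/TresMonoTopA.lean`): base level `M p`, rigid
level `M * 4 * p`, `p ≥ 5`.  For a nonzero new toric class `z₀ ∈ J₀(M p)` (in `StmtMonoCover`:
`z₀ = σ₀ x − x`), trivial at `v_∞`, ANY Kummer function `w₀` of `z₀` and ANY root `y ^ p = w₀`: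

* `tres5bit_in_four` : the three inputs (IN b), (IN c), (IN d) of `tres5bit_descend` /
  `tres5biv_kum` at the level `M * 4 * p` (helper30's `tresdesck_up_hdiv`, helper69's
  `tres5binc_hsplit`, `tres5bind_hw`);
* `tres5bit_bar_le_four` : `F̄_{Mp} ≤ F̄_{4Mp}`;
* `tres5bit_descend_four` : **the `T`-instance**, `tres5bit_descend` at `M := M * 4`, `q := p`
  with its inputs discharged: the hypotheses left are those of `StmtMonoCover` on `z₀`.
-/

set_option autoImplicit false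
set_option linter.style.haveILetI false
set_option linter.unusedSectionVars false
set_option linter.unusedVariables false
set_option linter.style.longLine false

noncomputable section

namespace Fermat.Agent.R38

open ModularCurve AlgebraicCurve Fermat.Agent.ES Fermat.Agent.ES.G2 Fermat.Agent.INJ
open Fermat.Agent.UNIP Fermat.Agent.STB Fermat.Agent.S33 Fermat.Agent.RIB.MP IntermediateField

section Four

variable {M p : ℕ} [NeZero M] [NeZero p] [NeZero (M * p)] [NeZero (M * 4)] [NeZero (M * 4 * p)]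

/-- `F̄_{Mp} ≤ F̄_{4Mp}` -/
theorem tres5bit_bar_le_four (M p : ℕ) :
    modularFunctionFieldBar (M * p) ≤ modularFunctionFieldBar (M * 4 * p) := by
  show laurentBaseChange (AlgebraicClosure ℚ) (modularFunctionFieldFull (M * p)) ≤
    laurentBaseChange (AlgebraicClosure ℚ) (modularFunctionFieldFull (M * 4 * p))
  rw [hdeg_laurentBaseChange_full, hdeg_laurentBaseChange_full]
  exact Fermat.Agent.S28.UB.full_mono (AlgebraicClosure ℚ)
    (Nat.mul_dvd_mul_right (Dvd.intro 4 rfl) p)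

/-- **(IN b), (IN c), (IN d) at the rigid level `M * 4 * p`.** -/
theorem tres5bit_in_four [Fact p.Prime] (hp : p.Prime) (hpM : ¬ p ∣ M) (hpM4 : ¬ p ∣ M * 4)
    (hp5 : 5 ≤ p) (A : ValuationSubring Qb) (hA : A.LiesOverPrime p)
    {z₀ : JZero (M * p)} (hz : z₀ ≠ 0) (hα : stbPushAlpha M p z₀ = 0)
    (hβ : stbPushBeta M p z₀ = 0) (htriv : TrivInf A p z₀)
    {w₀ : modularFunctionFieldBar (M * p)} (hw : KummerRel p z₀ w₀)
    (hle : modularFunctionFieldBar (M * p) ≤ modularFunctionFieldBar (M * 4 * p)) :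
    (∀ P : Place Qb (modularFunctionFieldBar (M * 4 * p)),
      (p : ℤ) ∣ P.ord
        (⟨(w₀ : LaurentSeries NfQb), hle w₀.2⟩ : modularFunctionFieldBar (M * 4 * p))) ∧
    IsSplitFn hp hpM4 A
      (⟨(w₀ : LaurentSeries NfQb), hle w₀.2⟩ : modularFunctionFieldBar (M * 4 * p)) ∧
    (∀ c : ↥(modularFunctionFieldBar (M * 4 * p)),
      c ^ p ≠ (⟨(w₀ : LaurentSeries NfQb), hle w₀.2⟩ : modularFunctionFieldBar (M * 4 * p))) := by
  have hcop : Nat.Coprime 6 p := by
    have h2 : Nat.Coprime 2 p := (Nat.coprime_primes Nat.prime_two hp).mpr (by omega)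
    have h3 : Nat.Coprime 3 p := (Nat.coprime_primes Nat.prime_three hp).mpr (by omega)
    have : (6 : ℕ) = 2 * 3 := by norm_num
    rw [this]
    exact Nat.Coprime.mul_left h2 h3
  refine ⟨fun P => tresdesck_up_hdiv M p 4 hw hle P, ?_, ?_⟩
  · exact tres5binc_hsplit M p 4 hpM hpM4 A hA hle z₀ hα hβ htriv w₀ hw
  · exact tres5bind_hw 2 (by ring) hcop hp.ne_zero hw hz hle

set_option synthInstance.maxHeartbeats 400000 in
set_option maxHeartbeats 1600000 in
/-- **THE `T`-INSTANCE in the frame of `StmtMonoCoverData`** (rigid level `M * 4 * p`). -/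
theorem tres5bit_descend_four [Fact p.Prime] (hp : p.Prime) (hpM : ¬ p ∣ M)
    (hpM4 : ¬ p ∣ M * 4) (hp5 : 5 ≤ p) (A : ValuationSubring Qb) (hA : A.LiesOverPrime p)
    {z₀ : JZero (M * p)} (hz : z₀ ≠ 0) (hα : stbPushAlpha M p z₀ = 0)
    (hβ : stbPushBeta M p z₀ = 0) (htriv : TrivInf A p z₀)
    (htor : ∀ τ ∈ A.inertiaSubgroupIn ℚ, τ • z₀ = ExtCitation.cycloExp p τ • z₀)
    {w₀ : modularFunctionFieldBar (M * p)} (hw : KummerRel p z₀ w₀)
    {y : LaurentSeries NfQb} (hy : y ^ p = (w₀ : LaurentSeries NfQb))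
    (hle : modularFunctionFieldBar (M * p) ≤ modularFunctionFieldBar (M * 4 * p)) :
    ∃ K₀ : IntermediateField ℚ Qb, FiniteDimensional ℚ K₀ ∧
      ∀ (K₁ : IntermediateField ℚ Qb), K₀ ≤ K₁ → ∀ [NumberField K₁] [IsGalois ℚ K₁]
        [IsDiscreteValuationRing ↥(mgcA A K₁)]
        [IsDiscreteValuationRing ↥(beta0Ring A (beta0Field A))]
        {π : ↥(mgcA A K₁)} (hπ : Irreducible π)
        {π₀ : ↥(beta0Ring A (beta0Field A))} (hπ₀ : Irreducible π₀)
        (ιC : ↥(mgcE A K₁) →+* ℂ) (ιC₀ : ↥(beta0Field A) →+* ℂ)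
        {ζ : ↥(mgcA A K₁)}, IsPrimitiveRoot ζ p →
        ∃ (u₀ : ↥(mgcF A K₁ (M * 4 * p))) (yE : LaurentSeries ↥(mgcE A K₁))
          (hyE : coeffMap (algebraMap ↥(mgcE A K₁) NfQb) yE = y)
          (S : Tres5Kum ↥(mgcF A K₁ (M * 4 * p)) ↥(tres5cL (mgcE A K₁) (M * 4 * p) y)
            (mgvV hπ ιC hp hpM4 true) p)
          (hfracY : VtFrac (algebraMap ↥(mgcA A K₁) ↥(mgcE A K₁))
            ((S.y : ↥(tres5cL (mgcE A K₁) (M * 4 * p) y)) : LaurentSeries ↥(mgcE A K₁)))
          (T : Tres5Gen ↥(modularFunctionFieldFullC ↥(beta0Field A) (M * 4 * p))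
            ↥(tres5cL (beta0Field A) (M * 4 * p) y) (mgvV hπ₀ ιC₀ hp hpM4 true) p)
          (ρK : ↥(tres5cL (beta0Field A) (M * 4 * p) y) →ₐ[↥(modularFunctionFieldFullC
            ↥(beta0Field A) (M * 4 * p))] ↥(tres5cL (beta0Field A) (M * 4 * p) y)),
          -- the Kummer datum over `E`
          (((nfEmb (mgcE A K₁) (M * 4 * p) u₀ : modularFunctionFieldBar (M * 4 * p)) :
              LaurentSeries NfQb) = (w₀ : LaurentSeries NfQb) ∧
            yE ^ p = (u₀ : LaurentSeries ↥(mgcE A K₁)) ∧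
            (∀ a : ↥(mgcF A K₁ (M * 4 * p)), a ^ p ≠ u₀) ∧
            S.ζ = algebraMap ↥(mgcA A K₁) ↥(mgcF A K₁ (M * 4 * p)) ζ ∧
            S.π = algebraMap ↥(mgcA A K₁) ↥(mgcF A K₁ (M * 4 * p)) π ∧
            S.w = u₀ ∧
            S.y = tres5cGenL (mgcE A K₁) (M * 4 * p) y hyE ∧
            ∃ y' ∈ mgvV hπ ιC hp hpM4 true,
              u₀ / S.g ^ p - 1 =
                (algebraMap ↥(mgcA A K₁) ↥(mgcF A K₁ (M * 4 * p)) ζ - 1) ^ p *
                  algebraMap ↥(mgcA A K₁) ↥(mgcF A K₁ (M * 4 * p)) π * y') ∧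
          -- the nine conclusions of `tres5kiv_descend`
          (T.π = algebraMap ↥(beta0Ring A (beta0Field A))
              ↥(modularFunctionFieldFullC ↥(beta0Field A) (M * 4 * p)) π₀ ∧
            (∀ k, T.c k = ((k : ℕ) : ↥(mgvV hπ₀ ιC₀ hp hpM4 true))) ∧
            (∀ k < p, tres5cIncl (M * 4 * p) y (le_sup_left : beta0Field A ≤ mgcE A K₁) T.z -
                ((k : ℕ) : ↥(tres5cL (mgcE A K₁) (M * 4 * p) y)) ∈ (S.gen.W k).nonunits) ∧
            (∀ k < p, T.W k = (S.gen.W k).comap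
              (tres5cIncl (M * 4 * p) y (le_sup_left : beta0Field A ≤ mgcE A K₁))) ∧
            (∃ k₀ < p,
              tres5kivW hπ (M * 4 * p) y (tres5kiv_frac hπ (M * 4 * p) y S.htop hfracY) = S.gen.W k₀ ∧
              T.W k₀ = (tres5kivW hπ (M * 4 * p) y
                (tres5kiv_frac hπ (M * 4 * p) y S.htop hfracY)).comap
                  (tres5cIncl (M * 4 * p) y (le_sup_left : beta0Field A ≤ mgcE A K₁))) ∧
            (∀ f : ↥(tres5cL (beta0Field A) (M * 4 * p) y),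
              tres5cIncl (M * 4 * p) y (le_sup_left : beta0Field A ≤ mgcE A K₁) (ρK f) =
                S.deck (tres5cIncl (M * 4 * p) y (le_sup_left : beta0Field A ≤ mgcE A K₁) f)) ∧
            (∀ k < p, (T.W k).comap
              (ρK : ↥(tres5cL (beta0Field A) (M * 4 * p) y) →+*
                ↥(tres5cL (beta0Field A) (M * 4 * p) y)) = T.W ((k + 1) % p)) ∧
            Module.finrank ↥(modularFunctionFieldFullC ↥(beta0Field A) (M * 4 * p))
              ↥(tres5cL (beta0Field A) (M * 4 * p) y) = p ∧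
            IntermediateField.adjoin ↥(mgcF A K₁ (M * 4 * p))
              {tres5cIncl (M * 4 * p) y (le_sup_left : beta0Field A ≤ mgcE A K₁) T.z} = ⊤) ∧
          -- the Kummer shape of the SAME model at the closed points of both charts
          (∀ i, ∃ g : ↥(mgcF A K₁ (M * 4 * p)), g ≠ 0 ∧ ∃ y' ∈ atO π (mgcT A K₁ (M * 4 * p)) i,
            u₀ / g ^ p - 1 =
              (algebraMap ↥(mgcA A K₁) ↥(mgcF A K₁ (M * 4 * p)) ζ - 1) ^ p *
                algebraMap ↥(mgcA A K₁) ↥(mgcF A K₁ (M * 4 * p)) π * y') := by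
  obtain ⟨hdiv, hsplit, hnp⟩ := tres5bit_in_four hp hpM hpM4 hp5 A hA hz hα hβ htriv hw hle
  exact tres5bit_descend hp hpM4 (by omega) (fun h => by omega) A hA hw hy hle htor hdiv hsplit
    hnp

end Four

end Fermat.Agent.R38

end
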