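import Fermat.Agent.R38.TresCoverKumL

/-!
# R38 TRES, (FAC-p), piece ASM-COV, part 7: the deck transformation of `L_E` and of `F′`

`S : Tres5Kum F_N(E) L_E V p` (e.g. `tres5cKumL`), `ρ_E = S.deck`, and a deck transformation
`t : F′ →+* ℚ̄((q))` of the cover over `ℚ̄` (`t = id` on `F_N(ℚ̄)`, `t y = C ζ · y`;
helper30's `tresdesc_comm`, helper64's `tres5ck_exists_deck`).

* `tres5c_ringHom_ext` : ring homomorphisms on `F(y)` agreeing on `F` and at `y` are equal;
* `tres5c_emb_deck` : `coeffMap (ρ_E f) = t (coeffMap f)` — `ρ_E` is the restriction of `t`;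
* `tres5c_deck_comm` : if `t` commutes with the coefficientwise action of `σ ∈ G_ℚ` on `F′`
  (the conclusion of `tresdesc_comm`) and `γ : E →+* E` is the restriction of `σ`, then `ρ_E`
  commutes with the coefficientwise action of `γ` on `L_E` (`hρG` of `tres5c_descend`).
-/

set_option autoImplicit false
set_option linter.style.haveILetI false
set_option linter.unusedSectionVars false

noncomputable section

open Polynomial IntermediateField ModularCurve Fermat.Agent.INJ

namespace Fermat.Agent.R38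

section Generic

variable {F L M : Type*} [Field F] [Field L] [Algebra F L] [Field M]

/-- ring homomorphisms on `F(y)` agreeing on `F` and at `y` are equal -/
theorem tres5c_ringHom_ext {y : L} (htop : IntermediateField.adjoin F {y} = ⊤)
    (φ₁ φ₂ : L →+* M) (hF : ∀ a : F, φ₁ (algebraMap F L a) = φ₂ (algebraMap F L a))
    (hy : φ₁ y = φ₂ y) (x : L) : φ₁ x = φ₂ x := by
  let K' : IntermediateField F L :=
    { carrier := {x | φ₁ x = φ₂ x}
      mul_mem' := fun {a b} ha hb => by
        show φ₁ (a * b) = φ₂ (a * b)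
        rw [map_mul, map_mul, ha, hb]
      one_mem' := by
        show φ₁ 1 = φ₂ 1
        rw [map_one, map_one]
      add_mem' := fun {a b} ha hb => by
        show φ₁ (a + b) = φ₂ (a + b)
        rw [map_add, map_add, ha, hb]
      zero_mem' := by
        show φ₁ 0 = φ₂ 0
        rw [map_zero, map_zero]
      algebraMap_mem' := hF
      inv_mem' := fun a ha => by
        show φ₁ a⁻¹ = φ₂ a⁻¹
        rw [map_inv₀, map_inv₀, ha] }
  have h1 : IntermediateField.adjoin F {y} ≤ K' := by
    rw [IntermediateField.adjoin_le_iff]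
    intro z hz
    rw [Set.mem_singleton_iff] at hz
    subst hz
    exact hy
  have h2 : x ∈ IntermediateField.adjoin F {y} := by
    rw [htop]
    exact IntermediateField.mem_top
  exact h1 h2

end Generic

section GenericDeck

variable {F Ω M : Type*} [Field F] [Field Ω] [Algebra F Ω] [Field M]
  {L : IntermediateField F Ω} {V : ValuationSubring F} {p : ℕ}

/-- the deck transformation is the restriction of `t'` -/
theorem tres5c_emb_deck_gen (S : Tres5Kum F ↥L V p) (t' t'' : ↥L →+* M)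
    (h1 : ∀ a : F, t'' (algebraMap F ↥L a) = t' (algebraMap F ↥L a))
    (h2 : t'' S.y = t' (algebraMap F ↥L S.ζ) * t' S.y) (f : ↥L) :
    t' (S.deck f) = t'' f := by
  refine tres5c_ringHom_ext S.htop (t'.comp (S.deck : ↥L →+* ↥L)) t'' (fun a => ?_) ?_ f
  · rw [RingHom.comp_apply, h1]
    congr 1
    exact S.deck.commutes a
  · rw [RingHom.comp_apply, h2]
    have h3 := S.deck_y
    show t' (S.deck S.y) = _
    rw [h3, map_mul]

end GenericDeck

section Concrete

variable (E : IntermediateField ℚ NfQb) (N : ℕ) (y : LaurentSeries NfQb) {p : ℕ}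
  {V : ValuationSubring ↥(modularFunctionFieldFullC ↥E N)}

/-- **`ρ_E` is the restriction of the deck transformation `t` of `F′`.** -/
theorem tres5c_emb_deck (S : Tres5Kum ↥(modularFunctionFieldFullC ↥E N) ↥(tres5cL E N y) V p)
    (t : ↥(tres5cField N y) →+* LaurentSeries NfQb)
    (htF : ∀ (f : LaurentSeries NfQb) (hf : f ∈ modularFunctionFieldBar N),
      t ⟨f, tres5c_bar_le N y hf⟩ = f)
    {ζ : NfQb} (hty : t ⟨y, tres5c_y_mem N y⟩ = HahnSeries.C ζ * y)
    (hSy : coeffMap (algebraMap ↥E NfQb) (S.y : LaurentSeries ↥E) = y)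
    (hSζ : coeffMap (algebraMap ↥E NfQb) ((S.ζ : ↥(modularFunctionFieldFullC ↥E N)) :
      LaurentSeries ↥E) = HahnSeries.C ζ)
    (f : ↥(tres5cL E N y)) :
    coeffMap (algebraMap ↥E NfQb) ((S.deck f : ↥(tres5cL E N y)) : LaurentSeries ↥E)
      = t (tres5cEmb E N y f) := by
  have hval : ∀ g : ↥(tres5cL E N y),
      ((algebraMap ↥(tres5cField N y) (LaurentSeries NfQb)).comp (tres5cEmb E N y)) g
        = coeffMap (algebraMap ↥E NfQb) (g : LaurentSeries ↥E) := fun g => rfl
  have key := tres5c_emb_deck_gen S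
    ((algebraMap ↥(tres5cField N y) (LaurentSeries NfQb)).comp (tres5cEmb E N y))
    (t.comp (tres5cEmb E N y)) ?_ ?_ f
  · rw [hval] at key
    exact key
  · intro a
    rw [hval, RingHom.comp_apply]
    exact htF _ (nf_coeffMap_mem_bar E N a.2)
  · rw [hval, hval, RingHom.comp_apply]
    have e1 : tres5cEmb E N y S.y = ⟨y, tres5c_y_mem N y⟩ := Subtype.ext hSy
    rw [e1, hty, hSy]
    congr 1
    rw [← hSζ]
    rfl

/-- **`ρ_E` commutes with the coefficientwise Galois action.**  `γ : E →+* E` is the restriction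
of `σ ∈ G_ℚ`, the deck transformation `t` of `F′` commutes with `σ` (conclusion of
`tresdesc_comm`), `x' = γ x` and `d' = γ (ρ_E x)` in `L_E`: then `ρ_E x' = d'`. -/
theorem tres5c_deck_comm (S : Tres5Kum ↥(modularFunctionFieldFullC ↥E N) ↥(tres5cL E N y) V p)
    (t : ↥(tres5cField N y) →+* LaurentSeries NfQb)
    (htF : ∀ (f : LaurentSeries NfQb) (hf : f ∈ modularFunctionFieldBar N),
      t ⟨f, tres5c_bar_le N y hf⟩ = f)
    {ζ : NfQb} (hty : t ⟨y, tres5c_y_mem N y⟩ = HahnSeries.C ζ * y)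
    (hSy : coeffMap (algebraMap ↥E NfQb) (S.y : LaurentSeries ↥E) = y)
    (hSζ : coeffMap (algebraMap ↥E NfQb) ((S.ζ : ↥(modularFunctionFieldFullC ↥E N)) :
      LaurentSeries ↥E) = HahnSeries.C ζ)
    (γ : ↥E →+* ↥E) (σ : NfQb ≃ₐ[ℚ] NfQb)
    (hγσ : ∀ e : ↥E, σ (algebraMap ↥E NfQb e) = algebraMap ↥E NfQb (γ e))
    (hcomm : ∀ (x : ↥(tres5cField N y))
      (hx : coeffMap ((σ : NfQb ≃ₐ[ℚ] NfQb) : NfQb →+* NfQb) (x : LaurentSeries NfQb) ∈
        tres5cField N y),
      t ⟨_, hx⟩ = coeffMap ((σ : NfQb ≃ₐ[ℚ] NfQb) : NfQb →+* NfQb) (t x))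
    {x x' d' : ↥(tres5cL E N y)}
    (hx' : (x' : LaurentSeries ↥E) = coeffMap γ (x : LaurentSeries ↥E))
    (hd' : (d' : LaurentSeries ↥E) = coeffMap γ ((S.deck x : ↥(tres5cL E N y)) :
      LaurentSeries ↥E)) :
    S.deck x' = d' := by
  have hswap : ∀ z : LaurentSeries ↥E,
      coeffMap (algebraMap ↥E NfQb) (coeffMap γ z)
        = coeffMap ((σ : NfQb ≃ₐ[ℚ] NfQb) : NfQb →+* NfQb)
            (coeffMap (algebraMap ↥E NfQb) z) := by
    intro z
    rw [coeffMap_coeffMap, coeffMap_coeffMap]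
    exact coeffMap_congr (RingHom.ext fun e => (hγσ e).symm) z
  apply Subtype.ext
  apply nf_coeffMap_injective (algebraMap ↥E NfQb)
  rw [tres5c_emb_deck E N y S t htF hty hSy hSζ x', hd', hswap,
    tres5c_emb_deck E N y S t htF hty hSy hSζ x]
  have hmem : coeffMap ((σ : NfQb ≃ₐ[ℚ] NfQb) : NfQb →+* NfQb)
      ((tres5cEmb E N y x : ↥(tres5cField N y)) : LaurentSeries NfQb) ∈ tres5cField N y := by
    rw [tres5cEmb_coe, ← hswap, ← hx']
    exact x'.2
  rw [← hcomm (tres5cEmb E N y x) hmem]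
  congr 1
  apply Subtype.ext
  rw [tres5cEmb_coe, hx', hswap]
  rfl

end Concrete

end Fermat.Agent.R38
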