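import Fermat.Agent.R38.TresCoverTower
import Fermat.Agent.R38.TresCoverDeck
import Fermat.Agent.R38.TresDescJ

/-!
# R38 TRES, (FAC-p), piece ASM-COV, part 8: bridges to the other vocabularies

* `tres5cField_eq_tresCov` : `tres5cField N y = tresCov N y` (helper30, `R38/TresDescJ.lean`);
* `tres5cBaseIncl_eq_mgaIncl` : `tres5cBaseIncl N h = mgaIncl h N` (`UNIP/MGGalAct.lean`);
* `tres5c_hw_of_bar` : `w` is not a `p`-th power in `F_N(E)` if its image is not a `p`-th power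
  in `F_N(ℚ̄)`;
* `tres5c_deck_comm_of_toric` : `hρG` for the restriction `γ` of `σ ∈ G_ℚ` with
  `σ z₀ = g z₀`, `σ ζ = ζ ^ g` (`tresdesc_comm` + `tres5c_deck_comm`).
-/

set_option autoImplicit false
set_option linter.style.haveILetI false
set_option linter.unusedSectionVars false

noncomputable section

open Polynomial IntermediateField ModularCurve AlgebraicCurve Fermat.Agent.INJ Fermat.Agent.UNIP
  Fermat.Agent.ES Fermat.Agent.ES.G2

namespace Fermat.Agent.R38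

theorem tres5cField_eq_tresCov (N : ℕ) (y : LaurentSeries NfQb) :
    tres5cField N y = tresCov N y := rfl

theorem tres5cBaseIncl_eq_mgaIncl {K E : IntermediateField ℚ NfQb} (N : ℕ) (h : K ≤ E) :
    tres5cBaseIncl N h = mgaIncl h N :=
  RingHom.ext fun _ => Subtype.ext rfl

/-- `w` is not a `p`-th power in `F_N(E)` if its image is not a `p`-th power in `F_N(ℚ̄)` -/
theorem tres5c_hw_of_bar (E : IntermediateField ℚ NfQb) (N : ℕ) {p : ℕ}
    {w : ↥(modularFunctionFieldFullC ↥E N)}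
    (hw : ∀ c : ↥(modularFunctionFieldBar N), c ^ p ≠ nfEmb E N w) :
    ∀ c : ↥(modularFunctionFieldFullC ↥E N), c ^ p ≠ w := by
  intro c hc
  apply hw (nfEmb E N c)
  rw [← map_pow, hc]

section Comm

variable {N : ℕ} [NeZero N] (E : IntermediateField ℚ NfQb) {p : ℕ}
  {V : ValuationSubring ↥(modularFunctionFieldFullC ↥E N)}

/-- **`hρG` from the toric line.**  `z₀ ∈ J₀(N)` with Kummer function `w₀`, `y ^ m = w₀`, `t` a
deck transformation of `F′ = F_N(ℚ̄)(y)` with `t y = C ζ · y`; `σ ∈ G_ℚ` with `σ z₀ = g z₀`,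
`σ ζ = ζ ^ g`, and `γ : E →+* E` its restriction.  Then `ρ_E = S.deck` commutes with the
coefficientwise action of `γ` on `L_E`. -/
theorem tres5c_deck_comm_of_toric {m : ℕ} (hm : m ≠ 0) {z₀ : JZero N}
    {w₀ : modularFunctionFieldBar N} (hw : KummerRel m z₀ w₀) {y : LaurentSeries NfQb}
    (hy : y ^ m = (w₀ : LaurentSeries NfQb))
    (S : Tres5Kum ↥(modularFunctionFieldFullC ↥E N) ↥(tres5cL E N y) V p)
    (t : ↥(tres5cField N y) →+* LaurentSeries NfQb)
    (htF : ∀ (f : LaurentSeries NfQb) (hf : f ∈ modularFunctionFieldBar N),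
      t ⟨f, tres5c_bar_le N y hf⟩ = f)
    {ζ : NfQb} (hζ : ζ ≠ 0) (hty : t ⟨y, tres5c_y_mem N y⟩ = HahnSeries.C ζ * y)
    (hSy : coeffMap (algebraMap ↥E NfQb) (S.y : LaurentSeries ↥E) = y)
    (hSζ : coeffMap (algebraMap ↥E NfQb) ((S.ζ : ↥(modularFunctionFieldFullC ↥E N)) :
      LaurentSeries ↥E) = HahnSeries.C ζ)
    (γ : ↥E →+* ↥E) (σ : NfQb ≃ₐ[ℚ] NfQb)
    (hγσ : ∀ e : ↥E, σ (algebraMap ↥E NfQb e) = algebraMap ↥E NfQb (γ e))
    {g : ℤ} (hσ : σ • z₀ = g • z₀) (hσζ : σ ζ = ζ ^ g)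
    {x x' d' : ↥(tres5cL E N y)}
    (hx' : (x' : LaurentSeries ↥E) = coeffMap γ (x : LaurentSeries ↥E))
    (hd' : (d' : LaurentSeries ↥E) = coeffMap γ ((S.deck x : ↥(tres5cL E N y)) :
      LaurentSeries ↥E)) :
    S.deck x' = d' :=
  tres5c_deck_comm E N y S t htF hty hSy hSζ γ σ hγσ
    (tresdesc_comm hm hw hy t htF hζ hty hσ hσζ) hx' hd'

end Comm

end Fermat.Agent.R38
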