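import Fermat.Agent.R38.TresCoverFormE

/-!
# R38 TRES, (FAC-p), piece ASM-COV, part 5: the Kummer structure of `L_E / F_N(E)`

* `tres5cKumOf` (generic) : `K = F(y)` an intermediate field of `Ω / F`, `y ^ p = w ∈ F`, (H1) at
  `V` ⇒ `Tres5Kum F ↥K V p` with generator `⟨y, _⟩`;
* `tres5cKumL` : the same for `L_E = tres5cL E N y` over `F_N(E)`, `y = coeffMap y_E`,
  `y_E ^ p = w`, `w ∈ F_N(E)` not a `p`-th power.
-/

set_option autoImplicit false
set_option linter.style.haveILetI false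
set_option linter.unusedSectionVars false

noncomputable section

open Polynomial IntermediateField ModularCurve Fermat.Agent.INJ

namespace Fermat.Agent.R38

section Generic

variable {F Ω : Type*} [Field F] [Field Ω] [Algebra F Ω]

/-- The Kummer structure of an intermediate field `K = F(y)`, `y ^ p = w`, split at `V`. -/
def tres5cKumOf (K : IntermediateField F Ω) (V : ValuationSubring F) {p : ℕ} (hp : p.Prime)
    {ζ : F} (hζ : IsPrimitiveRoot ζ p) {π : F} (hπ : π ∈ V.nonunits) (hπ0 : π ≠ 0)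
    (hunif : ∀ x : F, x ≠ 0 → ∃ n : ℤ, V.valuation (x / π ^ n) = 1)
    {w g : F} (hg : g ≠ 0)
    (hsplit : V.valuation (w / g ^ p - 1) ≤ V.valuation ((ζ - 1) ^ p * π))
    {y : Ω} (hyK : y ∈ K) (hK : K = F⟮y⟯) (hy : y ^ p = algebraMap F Ω w)
    (hw : ∀ c : F, c ^ p ≠ w) : Tres5Kum F ↥K V p where
  hp := hp
  ζ := ζ
  hζ := hζ
  π := π
  hπ := hπ
  hπ0 := hπ0
  hunif := hunif
  w := w
  g := g
  hg := hg
  hsplit := hsplit
  y := ⟨y, hyK⟩
  hy := Subtype.ext hy
  htop := tres5c_adjoin_mk K hyK hK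
  hw := hw

end Generic

section Concrete

variable (E : IntermediateField ℚ NfQb) (N : ℕ) (y : LaurentSeries NfQb)

/-- **The Kummer structure of the cover over `E`** at a valuation `V` of `F_N(E)` with (H1). -/
def tres5cKumL (V : ValuationSubring ↥(modularFunctionFieldFullC ↥E N)) {p : ℕ} (hp : p.Prime)
    {ζ : ↥(modularFunctionFieldFullC ↥E N)} (hζ : IsPrimitiveRoot ζ p)
    {π : ↥(modularFunctionFieldFullC ↥E N)} (hπ : π ∈ V.nonunits) (hπ0 : π ≠ 0)
    (hunif : ∀ x : ↥(modularFunctionFieldFullC ↥E N), x ≠ 0 →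
      ∃ n : ℤ, V.valuation (x / π ^ n) = 1)
    {w g : ↥(modularFunctionFieldFullC ↥E N)} (hg : g ≠ 0)
    (hsplit : V.valuation (w / g ^ p - 1) ≤ V.valuation ((ζ - 1) ^ p * π))
    {yE : LaurentSeries ↥E} (hyE : coeffMap (algebraMap ↥E NfQb) yE = y)
    (hy : yE ^ p = (w : LaurentSeries ↥E)) (hw : ∀ c : ↥(modularFunctionFieldFullC ↥E N), c ^ p ≠ w) :
    Tres5Kum ↥(modularFunctionFieldFullC ↥E N) ↥(tres5cL E N y) V p :=
  tres5cKumOf (tres5cL E N y) V hp hζ hπ hπ0 hunif hg hsplit (tres5c_gen_mem hyE)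
    (tres5cL_eq_adjoin E N y hyE) hy hw

end Concrete

end Fermat.Agent.R38
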