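import Fermat.Agent.R38.TresBig
import Fermat.Agent.R38.TresBigKum
import Fermat.Agent.R38.TresCoverKumL
import Fermat.Agent.R38.TresCoverBridge
import Fermat.Agent.R38.TresFacTrFld

/-!
# ROW 38, TRES, piece FAC-BIG (helper16), part 4: THE INSTANCE over the big field `E′`

The frame of the K-FORM descent (helper53's `tres5kiv_descend`, helper48's `tres5ki_point`):
`u ∈ F̄_{Mq}^×` a SPLIT function with `q ∣ div u`, not a `q`-th power, `y ∈ ℚ̄((Q))` with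
`y ^ q = u`, the cover `F′ = tres5cField (M q) y`, its `E`-forms `L_E = tres5cL E (M q) y`.

* `tres5biv_mgvV_indep` : the vertical valuations `mgvV hπ ιC hq hqM c` do not depend on the
  uniformizer `π` nor on the embedding `ιC`;
* `tres5biv_frame` : **the frame.**  There is a number field `K₀` such that for every number field
  `K₁ ⊇ K₀`, Galois over `ℚ`, with `A′ = mgcA A K₁` discrete, `E = mgcE A K₁ = ℚ̄^I K₁`:
  `u` has a model `u₀ ∈ F_{Mq}(E)`, `y` has a model `y_E ∈ E((Q))` (`coeffMap y_E = y`),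
  `y_E ^ q = u₀`, and `u₀` has the Kummer shape `u₀ / g ^ q − 1 = (ζ − 1) ^ q π y′` at the two
  vertical valuations (`y′ ∈ V c`, ANY `ιC`) and at every closed point of both charts
  (`y′ ∈ atO π j i`);
* `tres5bivKum` : the split Kummer datum `Tres5Kum F_E L_E (V c) q` of the frame, with
  `.ζ = ζ`, `.π = π`, `.w = u₀`, `.g = g`, `.y = tres5cGenL E (M q) y hyE` (all `rfl`);
* `tres5biv_kum` : **FAC-BIG INSTANCE at `V_∞`, `V_0`** = the hypothesis `S` of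
  `tres5kiv_descend`, together with the equations its consumers use
  (`hSy : coeffMap S.y = y`, `hSζ`, `nfEmb S.w = u`) and the shape at the closed points for the
  SAME model `u₀`.
-/

set_option autoImplicit false
set_option linter.style.haveILetI false
set_option linter.unusedSectionVars false
set_option linter.unusedVariables false

noncomputable section

namespace Fermat.Agent.R38

open ModularCurve AlgebraicCurve Fermat.Agent.ES Fermat.Agent.ES.G2 Fermat.Agent.INJ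
open Fermat.Agent.UNIP Fermat.Agent.STB Fermat.Agent.S33 IntermediateField

section Indep

variable {A : ValuationSubring Qb} {K₀ : IntermediateField ℚ Qb}
  [IsDiscreteValuationRing ↥(beta0Ring A K₀)] {π π' : ↥(beta0Ring A K₀)}
  (hπ : Irreducible π) (hπ' : Irreducible π')
  (ιC ιC' : ↥K₀ →+* ℂ) {q M : ℕ} [NeZero q] [NeZero M] [NeZero (M * q)]
  (hq : q.Prime) (hqM : ¬ q ∣ M)

theorem tres5biv_mgaIncl_refl (N : ℕ) (x : ↥(modularFunctionFieldFullC ↥K₀ N)) :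
    mgaIncl (le_refl K₀) N x = x := by
  apply Subtype.ext
  rw [mgaIncl_coe]
  ext n
  rfl

/-- the vertical valuations do not depend on the uniformizer nor on the complex embedding -/
theorem tres5biv_mgvV_indep (c : Bool) :
    mgvV hπ ιC hq hqM c = mgvV hπ' ιC' hq hqM c := by
  rw [← mgv_comap_incl hπ hπ' ιC ιC' hq hqM (le_refl K₀) c]
  ext x
  rw [ValuationSubring.mem_comap, tres5biv_mgaIncl_refl]

end Indep

section Frame

variable {q M : ℕ} [NeZero q] [NeZero M] [NeZero (M * q)]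

set_option synthInstance.maxHeartbeats 400000 in
set_option maxHeartbeats 1600000 in
/-- **FAC-BIG, the frame over `E′`.**  A split function `u` with `q ∣ div u` and a `q`-th root
`y` of its `Q`-expansion: over every sufficiently large number field `K₁` (`E = ℚ̄^I K₁`), `u` and
`y` have models `u₀ ∈ F_{Mq}(E)`, `y_E ∈ E((Q))`, `y_E ^ q = u₀`, and `u₀` has the Kummer shape at
the two vertical valuations and at every closed point of both charts. -/
theorem tres5biv_frame (hq : q.Prime) (hqM : ¬ q ∣ M) (hq3 : 3 ≤ q) (h3 : q = 3 → 2 ∣ M)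
    (A : ValuationSubring Qb) (hA : A.LiesOverPrime q)
    (u : modularFunctionFieldBar (M * q)) (hu : u ≠ 0)
    (hdiv : ∀ P : Place Qb (modularFunctionFieldBar (M * q)), (q : ℤ) ∣ P.ord u)
    (hsplit : IsSplitFn hq hqM A u)
    {y : LaurentSeries NfQb} (hy : y ^ q = (u : LaurentSeries NfQb)) :
    ∃ K₀ : IntermediateField ℚ Qb, FiniteDimensional ℚ K₀ ∧
      ∀ (K₁ : IntermediateField ℚ Qb), K₀ ≤ K₁ → ∀ [NumberField K₁] [IsGalois ℚ K₁]
        [IsDiscreteValuationRing ↥(mgcA A K₁)] {π : ↥(mgcA A K₁)} (hπ : Irreducible π)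
        {ζ : ↥(mgcA A K₁)}, IsPrimitiveRoot ζ q →
        ∃ (u₀ : ↥(mgcF A K₁ (M * q))) (yE : LaurentSeries ↥(mgcE A K₁)),
          nfEmb (mgcE A K₁) (M * q) u₀ = u ∧
          coeffMap (algebraMap ↥(mgcE A K₁) NfQb) yE = y ∧
          yE ^ q = (u₀ : LaurentSeries ↥(mgcE A K₁)) ∧
          (∀ (ιC : ↥(mgcE A K₁) →+* ℂ) (c : Bool), ∃ g : ↥(mgcF A K₁ (M * q)), g ≠ 0 ∧
            ∃ y' ∈ mgvV hπ ιC hq hqM c,
              u₀ / g ^ q - 1 =
                (algebraMap ↥(mgcA A K₁) ↥(mgcF A K₁ (M * q)) ζ - 1) ^ q *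
                  algebraMap ↥(mgcA A K₁) ↥(mgcF A K₁ (M * q)) π * y') ∧
          (∀ i, ∃ g : ↥(mgcF A K₁ (M * q)), g ≠ 0 ∧ ∃ y' ∈ atO π (mgcT A K₁ (M * q)) i,
            u₀ / g ^ q - 1 =
              (algebraMap ↥(mgcA A K₁) ↥(mgcF A K₁ (M * q)) ζ - 1) ^ q *
                algebraMap ↥(mgcA A K₁) ↥(mgcF A K₁ (M * q)) π * y') := by
  have hu0 : (u : LaurentSeries NfQb) ≠ 0 := fun h => hu (Subtype.ext h)
  have hy0 : y ≠ 0 := by
    rintro rfl
    rw [zero_pow hq.ne_zero] at hy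
    exact hu0 hy.symm
  obtain ⟨Kb, hKbfin, hbar⟩ := tres5b_bar hq hqM hq3 h3 A hA u hu hdiv hsplit
  obtain ⟨Ky, hKyfin, hcy⟩ := tresftf_coeff (N := M * q) hq.ne_zero hy0
    (by rw [hy]; exact u.2) (tres5c_y_mem (M * q) y)
  haveI := hKbfin
  haveI := hKyfin
  refine ⟨Kb ⊔ Ky, IntermediateField.finiteDimensional_sup Kb Ky,
    fun K₁ hK₁ _ _ _ π hπ ζ hζ => ?_⟩
  have hKyE : Ky ≤ mgcE A K₁ := (le_sup_right.trans hK₁).trans le_sup_right
  obtain ⟨⟨u₀, hu₀⟩, hsh⟩ := hbar K₁ (le_sup_left.trans hK₁) hπ hζ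
  obtain ⟨yE, hyE⟩ := tresftf_exists_of_coeff (mgcE A K₁) fun n => hKyE (hcy n)
  have hyu : yE ^ q = (u₀ : LaurentSeries ↥(mgcE A K₁)) := by
    apply nf_coeffMap_injective (algebraMap ↥(mgcE A K₁) NfQb)
    rw [map_pow, hyE, hy, ← hu₀, nfEmb_coe]
  obtain ⟨hv, hpt⟩ := hsh u₀ hu₀
  refine ⟨u₀, yE, hu₀, hyE, hyu, fun ιC c => ?_, hpt⟩
  obtain ⟨g, hg, y', hy', hs⟩ := hv c
  refine ⟨g, hg, y', ?_, hs⟩
  rw [tres5biv_mgvV_indep hπ hπ ιC (mgdIota (mgcE A K₁)) hq hqM c]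
  exact hy'

end Frame

section Kum

variable {A : ValuationSubring Qb} {K₁ : IntermediateField ℚ Qb} {q M : ℕ} [NeZero q] [NeZero M]
  [NeZero (M * q)]
  [IsDiscreteValuationRing ↥(mgcA A K₁)] {π : ↥(mgcA A K₁)} (hπ : Irreducible π)
  (ιC : ↥(mgcE A K₁) →+* ℂ) (hq : q.Prime) (hqM : ¬ q ∣ M)
  {ζ : ↥(mgcA A K₁)} (hζ : IsPrimitiveRoot ζ q) (c : Bool)
  {y : LaurentSeries NfQb} {u₀ g y' : ↥(mgcF A K₁ (M * q))}
  {yE : LaurentSeries ↥(mgcE A K₁)}
  (hyE : coeffMap (algebraMap ↥(mgcE A K₁) NfQb) yE = y)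
  (hyu : yE ^ q = (u₀ : LaurentSeries ↥(mgcE A K₁)))
  (hg : g ≠ 0) (hy' : y' ∈ mgvV hπ ιC hq hqM c)
  (hs : u₀ / g ^ q - 1 =
    (algebraMap ↥(mgcA A K₁) ↥(mgcF A K₁ (M * q)) ζ - 1) ^ q *
      algebraMap ↥(mgcA A K₁) ↥(mgcF A K₁ (M * q)) π * y')
  (hw : ∀ a : ↥(mgcF A K₁ (M * q)), a ^ q ≠ u₀)

/-- **The split Kummer datum of the frame** on `L_E = tres5cL E (M q) y` at the vertical
valuation `V c`. -/
def tres5bivKum :
    Tres5Kum ↥(mgcF A K₁ (M * q)) ↥(tres5cL (mgcE A K₁) (M * q) y) (mgvV hπ ιC hq hqM c) q :=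
  tres5bkKum hπ ιC hq hqM c hq hζ hg hy' hs (tres5cGenL (mgcE A K₁) (M * q) y hyE)
    (Subtype.ext hyu) (tres5cL_adjoin_gen (mgcE A K₁) (M * q) y hyE) hw

@[simp] theorem tres5bivKum_ζ :
    (tres5bivKum hπ ιC hq hqM hζ c hyE hyu hg hy' hs hw).ζ =
      algebraMap ↥(mgcA A K₁) ↥(mgcF A K₁ (M * q)) ζ := rfl

@[simp] theorem tres5bivKum_π :
    (tres5bivKum hπ ιC hq hqM hζ c hyE hyu hg hy' hs hw).π =
      algebraMap ↥(mgcA A K₁) ↥(mgcF A K₁ (M * q)) π := rfl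

@[simp] theorem tres5bivKum_w :
    (tres5bivKum hπ ιC hq hqM hζ c hyE hyu hg hy' hs hw).w = u₀ := rfl

@[simp] theorem tres5bivKum_g :
    (tres5bivKum hπ ιC hq hqM hζ c hyE hyu hg hy' hs hw).g = g := rfl

@[simp] theorem tres5bivKum_y :
    (tres5bivKum hπ ιC hq hqM hζ c hyE hyu hg hy' hs hw).y =
      tres5cGenL (mgcE A K₁) (M * q) y hyE := rfl

/-- `hSy` of the consumers -/
theorem tres5bivKum_coeffMap_y :
    coeffMap (algebraMap ↥(mgcE A K₁) NfQb)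
      (((tres5bivKum hπ ιC hq hqM hζ c hyE hyu hg hy' hs hw).y :
        ↥(tres5cL (mgcE A K₁) (M * q) y)) : LaurentSeries ↥(mgcE A K₁)) = y := hyE

/-- `hSζ` of the consumers -/
theorem tres5bivKum_coeffMap_ζ :
    coeffMap (algebraMap ↥(mgcE A K₁) NfQb)
      (((tres5bivKum hπ ιC hq hqM hζ c hyE hyu hg hy' hs hw).ζ : ↥(mgcF A K₁ (M * q))) :
        LaurentSeries ↥(mgcE A K₁)) = HahnSeries.C (((ζ : ↥(mgcE A K₁)) : Qb)) := by
  show coeffMap (algebraMap ↥(mgcE A K₁) NfQb)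
    (algebraMap ↥(mgcE A K₁) (LaurentSeries ↥(mgcE A K₁)) (ζ : ↥(mgcE A K₁))) = _
  rw [nf_coeffMap_algebraMap, algebraMap_laurentSeries_eq_single, ← HahnSeries.C_apply]
  rfl

end Kum

section Main

variable {q M : ℕ} [NeZero q] [NeZero M] [NeZero (M * q)]

set_option synthInstance.maxHeartbeats 400000 in
set_option maxHeartbeats 1600000 in
/-- **FAC-BIG INSTANCE at the vertical valuations** (`c = true`: `V_∞`, the hypothesis `S` of
helper53's `tres5kiv_descend`).  For a split function `u`, `q ∣ div u`, `u` not a `q`-th power,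
`y ^ q = u`: over every sufficiently large number field `K₁`, `E = ℚ̄^I K₁`, there are models
`u₀`, `y_E` and, for every `ιC` and `c`, a split Kummer datum `S` of `L_E / F_{Mq}(E)` at `V c`
with `S.w = u₀`, `S.y = y_E`, `S.ζ = ζ`, `S.π = π`; moreover `u₀` has the Kummer shape at every
closed point of both charts. -/
theorem tres5biv_kum (hq : q.Prime) (hqM : ¬ q ∣ M) (hq3 : 3 ≤ q) (h3 : q = 3 → 2 ∣ M)
    (A : ValuationSubring Qb) (hA : A.LiesOverPrime q)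
    (u : modularFunctionFieldBar (M * q)) (hu : u ≠ 0)
    (hdiv : ∀ P : Place Qb (modularFunctionFieldBar (M * q)), (q : ℤ) ∣ P.ord u)
    (hsplit : IsSplitFn hq hqM A u)
    (hw : ∀ c : ↥(modularFunctionFieldBar (M * q)), c ^ q ≠ u)
    {y : LaurentSeries NfQb} (hy : y ^ q = (u : LaurentSeries NfQb)) :
    ∃ K₀ : IntermediateField ℚ Qb, FiniteDimensional ℚ K₀ ∧
      ∀ (K₁ : IntermediateField ℚ Qb), K₀ ≤ K₁ → ∀ [NumberField K₁] [IsGalois ℚ K₁]
        [IsDiscreteValuationRing ↥(mgcA A K₁)] {π : ↥(mgcA A K₁)} (hπ : Irreducible π)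
        {ζ : ↥(mgcA A K₁)}, IsPrimitiveRoot ζ q →
        ∃ (u₀ : ↥(mgcF A K₁ (M * q))) (yE : LaurentSeries ↥(mgcE A K₁))
          (hyE : coeffMap (algebraMap ↥(mgcE A K₁) NfQb) yE = y),
          nfEmb (mgcE A K₁) (M * q) u₀ = u ∧
          yE ^ q = (u₀ : LaurentSeries ↥(mgcE A K₁)) ∧
          (∀ a : ↥(mgcF A K₁ (M * q)), a ^ q ≠ u₀) ∧
          (∀ (ιC : ↥(mgcE A K₁) →+* ℂ) (c : Bool),
            ∃ S : Tres5Kum ↥(mgcF A K₁ (M * q)) ↥(tres5cL (mgcE A K₁) (M * q) y)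
                (mgvV hπ ιC hq hqM c) q,
              S.ζ = algebraMap ↥(mgcA A K₁) ↥(mgcF A K₁ (M * q)) ζ ∧
              S.π = algebraMap ↥(mgcA A K₁) ↥(mgcF A K₁ (M * q)) π ∧
              S.w = u₀ ∧
              S.y = tres5cGenL (mgcE A K₁) (M * q) y hyE ∧
              coeffMap (algebraMap ↥(mgcE A K₁) NfQb)
                ((S.y : ↥(tres5cL (mgcE A K₁) (M * q) y)) : LaurentSeries ↥(mgcE A K₁)) = y ∧
              coeffMap (algebraMap ↥(mgcE A K₁) NfQb)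
                ((S.ζ : ↥(mgcF A K₁ (M * q))) : LaurentSeries ↥(mgcE A K₁)) =
                  HahnSeries.C (((ζ : ↥(mgcE A K₁)) : Qb)) ∧
              ∃ y' ∈ mgvV hπ ιC hq hqM c,
                u₀ / S.g ^ q - 1 =
                  (algebraMap ↥(mgcA A K₁) ↥(mgcF A K₁ (M * q)) ζ - 1) ^ q *
                    algebraMap ↥(mgcA A K₁) ↥(mgcF A K₁ (M * q)) π * y') ∧
          (∀ i, ∃ g : ↥(mgcF A K₁ (M * q)), g ≠ 0 ∧ ∃ y' ∈ atO π (mgcT A K₁ (M * q)) i,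
            u₀ / g ^ q - 1 =
              (algebraMap ↥(mgcA A K₁) ↥(mgcF A K₁ (M * q)) ζ - 1) ^ q *
                algebraMap ↥(mgcA A K₁) ↥(mgcF A K₁ (M * q)) π * y') := by
  obtain ⟨K₀, hK₀, hfr⟩ := tres5biv_frame hq hqM hq3 h3 A hA u hu hdiv hsplit hy
  refine ⟨K₀, hK₀, fun K₁ hK₁ _ _ _ π hπ ζ hζ => ?_⟩
  obtain ⟨u₀, yE, hu₀, hyE, hyu, hv, hpt⟩ := hfr K₁ hK₁ hπ hζ
  have hw' : ∀ a : ↥(mgcF A K₁ (M * q)), a ^ q ≠ u₀ :=
    tres5c_hw_of_bar (mgcE A K₁) (M * q) (by rw [hu₀]; exact hw)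
  refine ⟨u₀, yE, hyE, hu₀, hyu, hw', fun ιC c => ?_, hpt⟩
  obtain ⟨g, hg, y', hy', hs⟩ := hv ιC c
  exact ⟨tres5bivKum hπ ιC hq hqM hζ c hyE hyu hg hy' hs hw', rfl, rfl, rfl, rfl, hyE,
    tres5bivKum_coeffMap_ζ hπ ιC hq hqM hζ c hyE hyu hg hy' hs hw', y', hy', hs⟩

end Main

end Fermat.Agent.R38

end
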