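/-
ROW 38, TRES, piece FAC-COV [T5 (b)] (helper78), part 5: THE INTERSECTION OF THE SHEETS.
Pure algebra (Mathlib only).  Setting of `R38/TresCover.lean` (`S : Tres5Gen F L V n`).

* `Tres5Gen.exists_rep`         : every element of `V[z]` is `Q(z)` with `deg Q < n`;
* `Tres5Gen.div_π_of_forall`    : `Q(z) ∈ 𝔪(W k)` for all `k < n`  ⇒  `Q(z) ∈ π V[z]`;
* `Tres5Gen.mem_range_of_forall_mem` : **`⋂_{k < n} W k = V[z]`**: if `f ∈ W k` for all `k < n`
  then `f = Q(z)` with `Q ∈ V[X]`, `deg Q < n`  (so `f` is integral over `V`, and `V[z]` is the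
  integral closure of `V` in `L`);
* `Tres5Gen.nonunit_eq_π_mul`   : `x ∈ 𝔪(W k) → ∃ y ∈ W k, x = π y`.
-/
import Fermat.Agent.R38.TresCover

set_option autoImplicit false
set_option linter.style.haveILetI false

namespace Fermat.Agent.R38

open Polynomial

namespace Tres5Gen

variable {F L : Type*} [Field F] [Field L] [Algebra F L] {V : ValuationSubring F} {n : ℕ}
  (S : Tres5Gen F L V n)

/-- every element of `V[z]` is `Q(z)` with `deg Q < n` -/
theorem exists_rep (Q : (↥V)[X]) :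
    ∃ Q' : (↥V)[X], Q'.degree < (n : WithBot ℕ) ∧ S.ψ Q' = S.ψ Q := by
  refine ⟨Q %ₘ S.P, ?_, ?_⟩
  · have h := degree_modByMonic_lt Q S.P_monic
    rwa [S.degree_P] at h
  · rw [modByMonic_eq_sub_mul_div, map_sub, map_mul, S.ψ_P, zero_mul, sub_zero]

/-- the residues of the `c k`, `k < n`, are pairwise distinct -/
theorem residue_c_injOn :
    Set.InjOn (fun k => IsLocalRing.residue ↥V (S.c k)) (Finset.range n : Set ℕ) := by
  intro i hi j hj hij
  by_contra hne
  have hi' : i < n := Finset.mem_range.1 hi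
  have hj' : j < n := Finset.mem_range.1 hj
  apply S.hc i hi' j hj' hne
  rw [map_sub]
  exact sub_eq_zero.2 hij

/-- a polynomial of degree `< n` whose values at all `c k` are in `𝔪_V` is divisible by `π` -/
theorem exists_eq_C_π_mul {Q : (↥V)[X]} (hdeg : Q.degree < (n : WithBot ℕ))
    (h : ∀ k < n, IsLocalRing.residue ↥V (Q.eval (S.c k)) = 0) :
    ∃ Q' : (↥V)[X], Q = C S.πV * Q' := by
  have h0 : Q.map (IsLocalRing.residue ↥V) = 0 := by
    refine eq_zero_of_degree_lt_of_eval_index_eq_zero (Finset.range n) S.residue_c_injOn ?_ ?_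
    · rw [Finset.card_range]
      exact lt_of_le_of_lt degree_map_le hdeg
    · intro k hk
      rw [eval_map, eval₂_at_apply]
      exact h k (Finset.mem_range.1 hk)
  have hmem : Q ∈ Ideal.map (C : ↥V →+* (↥V)[X]) (Ideal.span {S.πV}) := by
    rw [Ideal.mem_map_C_iff]
    intro i
    have hi : IsLocalRing.residue ↥V (Q.coeff i) = 0 := by
      have := congrArg (fun f => f.coeff i) h0
      simpa using this
    obtain ⟨b, hb⟩ := S.exists_eq_π_mul hi
    rw [Ideal.mem_span_singleton']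
    exact ⟨b, by rw [hb, mul_comm]⟩
  rw [Ideal.map_span, Set.image_singleton, Ideal.mem_span_singleton'] at hmem
  obtain ⟨Q', hQ'⟩ := hmem
  exact ⟨Q', by rw [← hQ', mul_comm]⟩

/-- an element of `V[z]` which is a non-unit on every sheet is a multiple of `π` in `V[z]` -/
theorem div_π_of_forall {Q : (↥V)[X]} (h : ∀ k < n, S.ψ Q ∈ (S.W k).nonunits) :
    ∃ Q' : (↥V)[X], S.ψ Q = algebraMap F L S.π * S.ψ Q' := by
  obtain ⟨Q₁, hdeg, hQ₁⟩ := S.exists_rep Q
  have hres : ∀ k < n, IsLocalRing.residue ↥V (Q₁.eval (S.c k)) = 0 := by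
    intro k hk
    by_contra hne
    have h1 := S.ψ_valuation_eq_one hk hne
    have h2 := h k hk
    rw [← hQ₁, ValuationSubring.mem_nonunits_iff, h1] at h2
    exact lt_irrefl _ h2
  obtain ⟨Q', hQ'⟩ := S.exists_eq_C_π_mul hdeg hres
  refine ⟨Q', ?_⟩
  rw [← hQ₁, hQ', map_mul, S.ψ_πV]

/-- **The intersection of the sheets is `V[z]`.** -/
theorem mem_range_of_forall_mem {f : L} (hf : ∀ k < n, f ∈ S.W k) :
    ∃ Q : (↥V)[X], Q.degree < (n : WithBot ℕ) ∧ f = S.ψ Q := by
  have hπ0 : algebraMap F L S.π ≠ 0 := (_root_.map_ne_zero _).2 S.hπ0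
  -- clear the denominators
  obtain ⟨QF, hQF⟩ := S.exists_aeval f
  obtain ⟨m, Q₀, hQ₀⟩ := S.exists_clear QF
  have hm : algebraMap F L S.π ^ m * f = S.ψ Q₀ := by
    rw [S.ψ_eq_aeval, hQ₀, map_mul, hQF, aeval_C, map_pow]
  -- descending induction on `m`
  have key : ∀ m : ℕ, ∀ Q : (↥V)[X], algebraMap F L S.π ^ m * f = S.ψ Q →
      ∃ Q' : (↥V)[X], f = S.ψ Q' := by
    intro m
    induction m with
    | zero =>
      intro Q hQ
      exact ⟨Q, by rw [← hQ, pow_zero, one_mul]⟩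
    | succ m ih =>
      intro Q hQ
      have hnu : ∀ k < n, S.ψ Q ∈ (S.W k).nonunits := by
        intro k hk
        rw [← hQ, pow_succ, mul_assoc]
        have h1 : algebraMap F L S.π ^ m ∈ S.W k :=
          (S.W k).pow_mem (by have := S.ι_mem_W hk S.πV; exact this) m
        have h2 := tres5_mul_mem_nonunits (S.W k) (hf k hk) (S.π_mem_nonunits hk)
        exact tres5_mul_mem_nonunits (S.W k) h1 (by rwa [mul_comm] at h2)
      obtain ⟨Q', hQ'⟩ := S.div_π_of_forall hnu
      refine ih Q' ?_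
      have e : algebraMap F L S.π * (algebraMap F L S.π ^ m * f) =
          algebraMap F L S.π * S.ψ Q' := by
        rw [← hQ', ← hQ, pow_succ]
        ring
      exact mul_left_cancel₀ hπ0 e
  obtain ⟨Q', hQ'⟩ := key m Q₀ hm
  obtain ⟨Q'', hdeg, hQ''⟩ := S.exists_rep Q'
  exact ⟨Q'', hdeg, by rw [hQ'', hQ']⟩

/-- the non-units of `W k` are multiples of `π` (element form) -/
theorem nonunit_eq_π_mul {k : ℕ} (hk : k < n) {x : L} (hx : x ∈ (S.W k).nonunits) :
    ∃ y ∈ S.W k, x = algebraMap F L S.π * y :=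
  ⟨x / algebraMap F L S.π, S.div_π_mem hk hx, by
    rw [mul_div_cancel₀ _ ((_root_.map_ne_zero _).2 S.hπ0)]⟩

/-- the elements of `V[z]` are in every sheet -/
theorem ψ_mem_forall (Q : (↥V)[X]) : ∀ k < n, S.ψ Q ∈ S.W k := fun _ hk => S.ψ_mem_W hk Q

end Tres5Gen

end Fermat.Agent.R38
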