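/-
ROW 38, piece PKG-TRES / FAC-KUM [T5 (d)], `K`-FORM (helper64).

`K = ℚ̄^I` (inertia field of `A | p`), `U` = units of `A` in `K`.
MAIN RESULT `tres5dk_main`:
  if `α ≠ 0`, `α^p ∈ K` and `α` is fixed by the peu ramifié subgroup of `A`, then
  `α^p = υ * (p^m)^p` with `m : ℤ` and `υ ∈ U`:  **`p ∣ v_p(α^p)`**.
[très ramifié ⇔ `v_p(α^p) ≢ 0 mod p`.]

Proof: `R38/TresKum.lean` gives `α^p = υ₀ b^p`, `υ₀ ∈ U`, `b ∈ K₁ = K(μ_p)`.  Locally at `p`: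
`‖α^p‖ ∈ p^ℤ` (`K` is unramified: `TW.W.wgr_unr`), `‖b‖^(p-1) ∈ p^ℤ` (norm from `K₁` to `K`,
as in `R38/EPVal.lean`), hence `‖b‖ = ‖b‖^p / ‖b‖^(p-1) ∈ p^ℤ`.

* `tres5dk_norm_pow` : local, `y` fixed by `I ∩ ker ω` ⇒ `‖y‖^(p-1) ∈ p^ℤ`;
* `tres5dk_padic`    : the statement at `padicPlace p`;
* `tres5dk_main`     : at every place `A` over `p` (conjugation).
-/
import Fermat.Agent.R38.TresKum
import Fermat.Agent.R38.EPVal
import Fermat.Agent.R38.EPeu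
import Fermat.Agent.TW.S.ConjPlaces

set_option autoImplicit false
set_option linter.unusedSectionVars false
set_option linter.style.haveILetI false

noncomputable section

namespace Fermat.Agent.R38

open Fermat.Agent.PT Fermat.Agent.PT.L Fermat.Agent.PT.B Fermat.Agent.TW.L Fermat.Agent.TW.W
  ExtCitation
open scoped Pointwise

section Local

variable (p : ℕ) [Fact p.Prime]

/-- **The value group of `K₁`**: an element of `ℚ̄_p` fixed by `I ∩ ker ω` has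
`‖y‖^(p-1) ∈ p^ℤ`. -/
theorem tres5dk_norm_pow {ζ y : PadicAlgCl p} (hζp : ζ ^ p = 1) (hy0 : y ≠ 0)
    (hfix : ∀ τ ∈ inertiaQ p, τ ζ = ζ → τ y = y) :
    ∃ k : ℤ, ‖y‖ ^ (p - 1) = (p : ℝ) ^ k := by
  have hpp : p.Prime := Fact.out
  haveI : NeZero p := ⟨hpp.ne_zero⟩
  choose g hgI hgω using r38epv_exists_omega p
  set N : PadicAlgCl p := ∏ a : (ZMod p)ˣ, g a y with hN
  have hN0 : N ≠ 0 := by
    rw [hN, Finset.prod_ne_zero_iff]
    intro a _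
    rwa [Ne, map_eq_zero_iff _ (g a).injective]
  have hNfix : ∀ τ ∈ inertiaQ p, τ N = N := by
    intro τ hτ
    have hmove : ∀ a : (ZMod p)ˣ, τ (g a y) = g (gbOmega p τ * a) y := by
      intro a
      set b := gbOmega p τ * a with hb
      have hγI : (g b)⁻¹ * τ * g a ∈ inertiaQ p :=
        mul_mem (mul_mem (inv_mem (hgI b)) hτ) (hgI a)
      have hγω : gbOmega p ((g b)⁻¹ * τ * g a) = 1 := by
        rw [map_mul, map_mul, map_inv, hgω, hgω, hb]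
        group
      have h1 := hfix _ hγI (r38epv_fix_zeta p hζp hγω)
      have h2 : ((g b)⁻¹ * τ * g a) y = (g b)⁻¹ (τ (g a y)) := rfl
      rw [h2] at h1
      have h3 : g b ((g b)⁻¹ (τ (g a y))) = τ (g a y) := by
        have : (g b * (g b)⁻¹) (τ (g a y)) = τ (g a y) := by rw [mul_inv_cancel]; rfl
        exact this
      rw [← h3, h1]
    rw [hN, map_prod]
    rw [Finset.prod_congr rfl (fun a _ => hmove a)]
    exact Fintype.prod_equiv (Equiv.mulLeft (gbOmega p τ)) _ _ (fun a => rfl)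
  obtain ⟨m, hm⟩ := wgr_unr p hN0 hNfix
  have hNn : ‖N‖ = ‖y‖ ^ (p - 1) := by
    rw [hN, norm_prod, Finset.prod_congr rfl (fun a _ => wgr_norm_map p (g a) y),
      Finset.prod_const, Finset.card_univ, ZMod.card_units_eq_totient, Nat.totient_prime hpp]
  exact ⟨m, by rw [← hNn, hm]⟩

end Local

section Padic

variable (p : ℕ) [Fact p.Prime]

/-- membership in `padicPlace p` in terms of the norm -/
theorem tres5dk_mem_iff (x : Qb) : x ∈ padicPlace p ↔ ‖padicEmbedding p x‖ ≤ 1 := by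
  rw [mem_padicPlace_iff]
  exact Iff.rfl

/-- **FAC-KUM, `K`-form, at `padicPlace p`.** -/
theorem tres5dk_padic (α : Qb) (hα0 : α ≠ 0)
    (hαp : ∀ τ ∈ (padicPlace p).inertiaSubgroupIn ℚ, τ (α ^ p) = α ^ p)
    (hαH : ∀ σ ∈ peuSubgroup (padicPlace p) p, σ α = α) :
    ∃ (m : ℤ) (υ : Qb), α ^ p = υ * ((p : Qb) ^ m) ^ p ∧ υ ≠ 0 ∧ υ ∈ padicPlace p ∧
      υ⁻¹ ∈ padicPlace p ∧ ∀ τ ∈ (padicPlace p).inertiaSubgroupIn ℚ, τ υ = υ := by
  have hpp : p.Prime := Fact.out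
  haveI : NeZero p := ⟨hpp.ne_zero⟩
  have hp1 : (1 : ℝ) < p := by exact_mod_cast hpp.one_lt
  have hp0 : (0 : ℝ) < p := by linarith
  have hinj : Function.Injective (padicEmbedding p) := (padicEmbedding p).toRingHom.injective
  obtain ⟨υ₀, b, hc, hυ0, hυA, hυA', hυI, hb0, hbI⟩ := tres5d_unit_mul_pow p (padicPlace p) α hα0
    (fun τ hτ => hαp τ hτ.1) hαH
  -- the root of unity
  obtain ⟨ζ₀, hζ₀⟩ := cycloField_exists_primitiveRoot p
  set ζ : PadicAlgCl p := padicEmbedding p ζ₀ with hζdef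
  have hζp : ζ ^ p = 1 := by
    rw [hζdef, ← map_pow, hζ₀.pow_eq_one, map_one]
  -- `‖ι (α^p)‖ ∈ p^ℤ`
  have hιc0 : padicEmbedding p (α ^ p) ≠ 0 := by
    rw [Ne, map_eq_zero_iff _ hinj]
    exact pow_ne_zero _ hα0
  obtain ⟨n, hn⟩ := wgr_unr p hιc0 (fun τ hτ => by
    rw [← padicEmbedding_localGaloisToGlobal, hαp _ ((mem_inertiaQ p τ).1 hτ)])
  -- `‖ι b‖^(p-1) ∈ p^ℤ`
  have hιb0 : padicEmbedding p b ≠ 0 := by
    rw [Ne, map_eq_zero_iff _ hinj]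
    exact hb0
  obtain ⟨k, hk⟩ := tres5dk_norm_pow p (ζ := ζ) (y := padicEmbedding p b) hζp hιb0
    (fun τ hτ hτζ => by
      have hσI : localGaloisToGlobal p τ ∈ (padicPlace p).inertiaSubgroupIn ℚ :=
        (mem_inertiaQ p τ).1 hτ
      have hσζ : localGaloisToGlobal p τ ζ₀ = ζ₀ := by
        apply hinj
        rw [padicEmbedding_localGaloisToGlobal]
        exact hτζ
      have hσ1 : localGaloisToGlobal p τ ∈ tres5dI1 (padicPlace p) p :=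
        tres5d_mem_I1_of_fix hσI hζ₀.pow_eq_one (hζ₀.ne_one hpp.one_lt) hσζ
      rw [← padicEmbedding_localGaloisToGlobal, hbI _ hσ1])
  -- `‖ι υ₀‖ = 1`
  have hυn : ‖padicEmbedding p υ₀‖ = 1 := by
    have h1 : ‖padicEmbedding p υ₀‖ ≤ 1 := (tres5dk_mem_iff p υ₀).1 hυA
    have h2 : ‖padicEmbedding p υ₀⁻¹‖ ≤ 1 := (tres5dk_mem_iff p υ₀⁻¹).1 hυA'
    rw [map_inv₀, norm_inv] at h2
    have h3 : 0 < ‖padicEmbedding p υ₀‖ := by
      rw [norm_pos_iff, Ne, map_eq_zero_iff _ hinj]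
      exact hυ0
    have h4 : 1 ≤ ‖padicEmbedding p υ₀‖ := by
      rw [inv_le_one₀ h3] at h2
      exact h2
    exact le_antisymm h1 h4
  -- `‖ι b‖^p = p^n`
  have hbp : ‖padicEmbedding p b‖ ^ p = (p : ℝ) ^ n := by
    rw [← hn, hc, map_mul, norm_mul, hυn, one_mul, map_pow, norm_pow]
  -- `‖ι b‖ = p^(n - k)`
  have hbpos : 0 < ‖padicEmbedding p b‖ := norm_pos_iff.2 hιb0
  have hbn : ‖padicEmbedding p b‖ = (p : ℝ) ^ (n - k) := by
    have h1 : ‖padicEmbedding p b‖ ^ p =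
        ‖padicEmbedding p b‖ ^ (p - 1) * ‖padicEmbedding p b‖ := by
      rw [← pow_succ]
      congr 1
      have := hpp.one_lt
      omega
    rw [hbp, hk] at h1
    rw [zpow_sub₀ hp0.ne']
    field_simp
    rw [h1]
    ring
  -- the unit
  have hpQ0 : (p : Qb) ≠ 0 := by exact_mod_cast hpp.ne_zero
  have hιp : ‖padicEmbedding p ((p : Qb) ^ (k - n))‖ = (p : ℝ) ^ (n - k) := by
    rw [map_zpow₀, map_natCast, norm_zpow, r38epv_norm_p, inv_zpow', neg_sub]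
  have hden : ‖padicEmbedding p (((p : Qb) ^ (k - n)) ^ p)‖ = (p : ℝ) ^ n := by
    rw [map_pow (padicEmbedding p) ((p : Qb) ^ (k - n)) p, norm_pow, hιp, ← hbn, hbp]
  have hpn0 : ((p : ℝ) ^ n) ≠ 0 := zpow_ne_zero _ hp0.ne'
  have hnorm : ‖padicEmbedding p (α ^ p / ((p : Qb) ^ (k - n)) ^ p)‖ = 1 := by
    rw [map_div₀, norm_div, hn, hden, div_self hpn0]
  have hnorm' : ‖padicEmbedding p (α ^ p / ((p : Qb) ^ (k - n)) ^ p)⁻¹‖ = 1 := by
    rw [map_inv₀, norm_inv, hnorm, inv_one]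
  refine ⟨k - n, α ^ p / ((p : Qb) ^ (k - n)) ^ p, ?_, ?_, ?_, ?_, ?_⟩
  · rw [div_mul_cancel₀]
    exact pow_ne_zero _ (zpow_ne_zero _ hpQ0)
  · exact div_ne_zero (pow_ne_zero _ hα0) (pow_ne_zero _ (zpow_ne_zero _ hpQ0))
  · rw [tres5dk_mem_iff, hnorm]
  · rw [tres5dk_mem_iff, hnorm']
  · intro τ hτ
    rw [map_div₀, hαp τ hτ, map_pow, map_zpow₀, map_natCast]

end Padic

/-- **FAC-KUM, `K`-form**: `α ≠ 0`, `α^p` fixed by the inertia group of `A | p`, `α` fixed by the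
peu ramifié subgroup of `A`  ⇒  `α^p = υ * (p^m)^p`, `υ` a unit of `A` fixed by inertia:
`p ∣ v_p(α^p)`. -/
theorem tres5dk_main (p : ℕ) [Fact p.Prime] (A : ValuationSubring Qb) (hA : A.LiesOverPrime p)
    (α : Qb) (hα0 : α ≠ 0) (hαp : ∀ τ ∈ A.inertiaSubgroupIn ℚ, τ (α ^ p) = α ^ p)
    (hαH : ∀ σ ∈ peuSubgroup A p, σ α = α) :
    ∃ (m : ℤ) (υ : Qb), α ^ p = υ * ((p : Qb) ^ m) ^ p ∧ υ ≠ 0 ∧ υ ∈ A ∧ υ⁻¹ ∈ A ∧
      ∀ τ ∈ A.inertiaSubgroupIn ℚ, τ υ = υ := by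
  have hp : p.Prime := Fact.out
  obtain ⟨g, hg⟩ := Fermat.Agent.TW.S.sconjp_exists_smul_eq p hp (padicPlace p) A
    (lfrobex_liesOverPrime p) hA
  subst hg
  have hgg : ∀ x : Qb, g (g⁻¹ x) = x := fun x => g.apply_symm_apply x
  have hgg' : ∀ x : Qb, g⁻¹ (g x) = x := fun x => g.symm_apply_apply x
  have h1 : ∀ τ ∈ (padicPlace p).inertiaSubgroupIn ℚ, τ ((g⁻¹ α) ^ p) = (g⁻¹ α) ^ p := by
    intro τ hτ
    have h := hαp _ (conj_mem_inertiaSubgroupIn (padicPlace p) g τ hτ)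
    have e : (g * τ * g⁻¹) (α ^ p) = g (τ (g⁻¹ (α ^ p))) := rfl
    rw [e] at h
    have h' := congrArg (g⁻¹ : GQ) h
    rw [hgg'] at h'
    rw [← map_pow]
    exact h'
  have h2 : ∀ σ ∈ peuSubgroup (padicPlace p) p, σ (g⁻¹ α) = g⁻¹ α := by
    intro σ hσ
    have hσ' : σ ∈ peuSubgroup (g⁻¹ • (g • padicPlace p)) p := by
      rw [inv_smul_smul]
      exact hσ
    have hc := r38ep_conj_mem_peu (p := p) (g • padicPlace p) g⁻¹ σ hσ'
    rw [inv_inv] at hc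
    have h := hαH _ hc
    have e : (g * σ * g⁻¹) α = g (σ (g⁻¹ α)) := rfl
    rw [e] at h
    have h' := congrArg (g⁻¹ : GQ) h
    rw [hgg'] at h'
    exact h'
  have hα0' : g⁻¹ α ≠ 0 := by
    rw [Ne, map_eq_zero_iff _ (g⁻¹ : GQ).injective]
    exact hα0
  obtain ⟨m, υ, e1, e2, e3, e4, e5⟩ := tres5dk_padic p (g⁻¹ α) hα0' h1 h2
  refine ⟨m, g υ, ?_, ?_, ?_, ?_, ?_⟩
  · have h := congrArg g e1
    rw [map_pow, hgg, map_mul, map_pow, map_zpow₀, map_natCast] at h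
    exact h
  · rw [Ne, map_eq_zero_iff _ g.injective]
    exact e2
  · rw [mem_smul_valuationSubring_iff, hgg']
    exact e3
  · rw [← map_inv₀, mem_smul_valuationSubring_iff, hgg']
    exact e4
  · intro τ hτ
    have hτ' := conj_mem_inertiaSubgroupIn (g • padicPlace p) g⁻¹ τ hτ
    rw [inv_smul_smul, inv_inv] at hτ'
    have h := e5 _ hτ'
    have e : (g⁻¹ * τ * g) υ = g⁻¹ (τ (g υ)) := rfl
    rw [e] at h
    have h' := congrArg g h
    rw [hgg] at h'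
    exact h'

end Fermat.Agent.R38

end
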