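import Fermat.Agent.R38.TresDeckEx
import Fermat.Agent.R38.TresKumK
import Fermat.Agent.R38.TresCoverForm
import Fermat.Agent.R38.TresCoverOrd

/-!
# R38-TRES, step 4 (DESC / DECK / KUM): the `K`-LEVEL GLUE (helper30)

`K = ℚ̄^I = beta0Field A` (inertia field of `A | p`), `F′ = tres5cField N y = F_N(ℚ̄)(y)`,
`y ^ p = w₀`, `L_K = tres5cL K N y = F′ ∩ K((q))`, `F_K = modularFunctionFieldFullC K N`,
`ι = coeffMap (algebraMap K ℚ̄)`.

* `tresdesck_ord_dvd` (abstract, **`hpa`**) : `a = υ · c ^ p`, `υ` a unit of `V`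
  ⇒ `p ∣ tres5Ord V π a`;
* `tresdesck_coeff_mem` : a Laurent series fixed coefficientwise by the inertia group has its
  coefficients in `K`;
* **`tresdesck_main`** : FAC-DESC (`tresdesc_final`, `G = I`) + FAC-KUM (`tres5dk_main`) over `K`:
  `w, h ∈ L_K`, `a, υ ∈ K`, `γ ∈ F′`, `m : ℤ` with
  `u = C (lc u) · γ ^ p · ι w`,  `t (ι w) = C a · ι w · (ι h) ^ p`,  `a = υ · (p ^ m) ^ p`,
  `υ` a unit of `A`;
* **`tresdesck_deck`** (**`hρu`**) : for every ring endomorphism `ρ_K` of `L_K` with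
  `ι (ρ_K f) = t (ι f)` (the descended deck transformation, `tres5c_descend` +
  `tres5c_emb_deck`): `ρ_K w = algebraMap (algebraMap a) · w · h ^ p`;
* `tresdesck_const_ord` (**`hpa`** for the constant `a`) : `p ∣ tres5Ord V_K π_K (algebraMap a)`
  at every discrete valuation subring `V_K` of `F_K` in which the units of `A ∩ K` are units;
* **`tresdesck_final`** : everything in one statement.
-/

set_option autoImplicit false
set_option linter.unusedSectionVars false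
set_option linter.unusedVariables false
set_option linter.style.haveILetI false

noncomputable section

open ModularCurve AlgebraicCurve Fermat.Agent.ES Fermat.Agent.ES.G2 Fermat.Agent.INJ
  Fermat.Agent.UNIP Fermat.Agent.S36 Fermat.Agent.RIB.MP

namespace Fermat.Agent.R38

section Ord

variable {F : Type*} [Field F]

/-- **(`hpa`), abstract**: `a = υ · c ^ p` with `υ` a unit of `V` ⇒ `p ∣ ord_V a`. -/
theorem tresdesck_ord_dvd {V : ValuationSubring F} {π : F} (hπ : π ∈ V.nonunits) (hπ0 : π ≠ 0)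
    (hunif : ∀ x : F, x ≠ 0 → ∃ m : ℤ, V.valuation (x / π ^ m) = 1) (p : ℕ)
    {a υ c : F} (hυ : V.valuation υ = 1) (hc : c ≠ 0) (ha : a = υ * c ^ p) :
    (p : ℤ) ∣ tres5Ord V π a := by
  have hυ0 : υ ≠ 0 := by
    rintro rfl
    rw [map_zero] at hυ
    exact zero_ne_one hυ
  rw [ha, tres5Ord_mul hπ hπ0 (hunif _ hυ0) (hunif _ (pow_ne_zero p hc)),
    tres5Ord_unit hπ hπ0 hυ, zero_add, tres5Ord_pow hπ hπ0 (hunif _ hc)]
  exact dvd_mul_right _ _

end Ord

section Coeff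

/-- a Laurent series fixed coefficientwise by the inertia group has its coefficients in the
inertia field -/
theorem tresdesck_coeff_mem (A : ValuationSubring Qb) {f : LaurentSeries NfQb}
    (hf : ∀ σ ∈ A.inertiaSubgroupIn ℚ,
      coeffMap ((σ : NfQb ≃ₐ[ℚ] NfQb) : NfQb →+* NfQb) f = f) (n : ℤ) :
    f.coeff n ∈ beta0Field A := by
  rw [mem_beta0Field]
  intro σ hσ
  have h := congrArg (fun z : LaurentSeries NfQb => z.coeff n) (hf σ hσ)
  simp only [coeffMap_coeff] at h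
  exact h

end Coeff

section Main

variable {N : ℕ} [NeZero N]

/-- **Step 4 over `K = ℚ̄^I`** (FAC-DESC + FAC-KUM). -/
theorem tresdesck_main {p : ℕ} [Fact p.Prime] (A : ValuationSubring Qb)
    (hA : A.LiesOverPrime p)
    {x z₀ : JZero N} {u w₀ : modularFunctionFieldBar N} (hu : KummerRel p x u)
    (hw : KummerRel p z₀ w₀) {y : LaurentSeries NfQb}
    (hy : y ^ p = (w₀ : LaurentSeries NfQb))
    (hline : ∀ σ ∈ A.inertiaSubgroupIn ℚ, ∃ k : ℤ, σ • x - x = k • z₀)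
    (hpeu : ∀ σ ∈ peuSubgroup A p, σ • x = x)
    (t : ↥(tres5cField N y) →+* LaurentSeries NfQb) (htmem : ∀ z, t z ∈ tres5cField N y)
    (htF : ∀ (f : LaurentSeries NfQb) (hf : f ∈ modularFunctionFieldBar N),
      t ⟨f, tres5c_bar_le N y hf⟩ = f)
    {ζ : NfQb} (hζ : ζ ≠ 0) (hty : t ⟨y, tres5c_y_mem N y⟩ = HahnSeries.C ζ * y)
    (htor : ∀ σ ∈ A.inertiaSubgroupIn ℚ, ∃ g : ℤ, σ • z₀ = g • z₀ ∧ σ ζ = ζ ^ g) :
    ∃ (w h : ↥(tres5cL (beta0Field A) N y)) (γ : LaurentSeries NfQb)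
      (a υ : ↥(beta0Field A)) (m : ℤ),
      w ≠ 0 ∧ h ≠ 0 ∧ a ≠ 0 ∧ υ ≠ 0 ∧ γ ∈ tres5cField N y ∧ γ ≠ 0 ∧
      (u : LaurentSeries NfQb) =
        HahnSeries.C (u : LaurentSeries NfQb).leadingCoeff * γ ^ p *
          coeffMap (algebraMap ↥(beta0Field A) NfQb) (w : LaurentSeries ↥(beta0Field A)) ∧
      t (tres5cEmb (beta0Field A) N y w) =
        HahnSeries.C (a : NfQb) *
          coeffMap (algebraMap ↥(beta0Field A) NfQb) (w : LaurentSeries ↥(beta0Field A)) *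
          coeffMap (algebraMap ↥(beta0Field A) NfQb) (h : LaurentSeries ↥(beta0Field A)) ^ p ∧
      a = υ * ((p : ↥(beta0Field A)) ^ m) ^ p ∧ (υ : Qb) ∈ A ∧ ((υ : Qb))⁻¹ ∈ A := by
  have hp : p.Prime := Fact.out
  obtain ⟨u'', γ, h, α, hu''F, hγF, hhF, hu'', hγ, hh0, hα, hU, hfix, hhfix, hth, hαm, hαfix⟩ :=
    tresdesc_final (N := N) hp.ne_zero (A.inertiaSubgroupIn ℚ) hu hw hy hline t htmem htF hζ hty
      htor
  obtain ⟨m, υ, hαυ, hυ0, hυA, hυA', hυfix⟩ :=
    tres5dk_main p A hA α hα hαm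
      (fun σ hσ => hαfix σ (peuSubgroup_le A p hσ) (hpeu σ hσ))
  obtain ⟨w, hw'⟩ := tres5cL_exists_of_coeff (beta0Field A) N y hu''F
    (tresdesck_coeff_mem A hfix)
  obtain ⟨hK, hhK⟩ := tres5cL_exists_of_coeff (beta0Field A) N y hhF
    (tresdesck_coeff_mem A hhfix)
  have hαK : α ^ p ∈ beta0Field A := mem_beta0Field.2 hαm
  have hυK : υ ∈ beta0Field A := mem_beta0Field.2 hυfix
  refine ⟨w, hK, γ, ⟨α ^ p, hαK⟩, ⟨υ, hυK⟩, m, ?_, ?_, ?_, ?_, hγF, hγ, ?_, ?_, ?_, hυA, hυA'⟩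
  · rintro rfl
    apply hu''
    rw [← hw']
    exact map_zero _
  · rintro rfl
    apply hh0
    rw [← hhK]
    exact map_zero _
  · intro h0
    have := congrArg (fun z : ↥(beta0Field A) => (z : NfQb)) h0
    exact pow_ne_zero p hα this
  · intro h0
    have := congrArg (fun z : ↥(beta0Field A) => (z : NfQb)) h0
    exact hυ0 this
  · rw [hw']
    exact hU
  · have e : tres5cEmb (beta0Field A) N y w = ⟨u'', hu''F⟩ := Subtype.ext hw'
    rw [e, hw', hhK]
    refine hth.trans ?_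
    show HahnSeries.C (α ^ p) * h ^ p * u'' = HahnSeries.C (α ^ p) * u'' * h ^ p
    ring
  · apply Subtype.ext
    show α ^ p = _
    rw [hαυ]
    push_cast
    rfl

end Main

section Deck

variable {N : ℕ} [NeZero N] (K : IntermediateField ℚ NfQb) {y : LaurentSeries NfQb}

/-- the constant `a ∈ K` as an element of `L_K` -/
theorem tresdesck_coe_const (a : ↥K) :
    ((algebraMap ↥(modularFunctionFieldFullC ↥K N) ↥(tres5cL K N y)
      (algebraMap ↥K ↥(modularFunctionFieldFullC ↥K N) a) : ↥(tres5cL K N y)) :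
        LaurentSeries ↥K) = HahnSeries.C a := by
  rw [← s36d_algebraMap_eq_C]
  rfl

/-- **(`hρu`)**: the deck relation for the descended deck transformation `ρ_K` of `L_K`. -/
theorem tresdesck_deck {p : ℕ} (t : ↥(tres5cField N y) →+* LaurentSeries NfQb)
    (ρK : ↥(tres5cL K N y) →+* ↥(tres5cL K N y))
    (hρK : ∀ f : ↥(tres5cL K N y),
      coeffMap (algebraMap ↥K NfQb) ((ρK f : ↥(tres5cL K N y)) : LaurentSeries ↥K) =
        t (tres5cEmb K N y f))
    {w h : ↥(tres5cL K N y)} {a : ↥K}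
    (hth : t (tres5cEmb K N y w) =
      HahnSeries.C (a : NfQb) * coeffMap (algebraMap ↥K NfQb) (w : LaurentSeries ↥K) *
        coeffMap (algebraMap ↥K NfQb) (h : LaurentSeries ↥K) ^ p) :
    ρK w = algebraMap ↥(modularFunctionFieldFullC ↥K N) ↥(tres5cL K N y)
      (algebraMap ↥K ↥(modularFunctionFieldFullC ↥K N) a) * w * h ^ p := by
  apply Subtype.ext
  apply nf_coeffMap_injective (algebraMap ↥K NfQb)
  rw [hρK, hth]
  have e1 : ((algebraMap ↥(modularFunctionFieldFullC ↥K N) ↥(tres5cL K N y)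
      (algebraMap ↥K ↥(modularFunctionFieldFullC ↥K N) a) * w * h ^ p : ↥(tres5cL K N y)) :
        LaurentSeries ↥K) =
      HahnSeries.C a * (w : LaurentSeries ↥K) * (h : LaurentSeries ↥K) ^ p := by
    rw [← tresdesck_coe_const (N := N) (y := y) K a]
    rfl
  rw [e1, map_mul, map_mul, map_pow, s36d_coeffMap_C' (algebraMap ↥K NfQb) a]
  rfl

/-- **(`hpa`)** for a constant `a = υ · (p ^ m) ^ p`, `υ` a unit: `p ∣ ord a` at every discrete
valuation subring of `F_K` in which `υ` is a unit. -/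
theorem tresdesck_const_ord {p : ℕ} (hp0 : p ≠ 0)
    (VK : ValuationSubring ↥(modularFunctionFieldFullC ↥K N))
    {πK : ↥(modularFunctionFieldFullC ↥K N)} (hπK : πK ∈ VK.nonunits) (hπK0 : πK ≠ 0)
    (hunifK : ∀ x : ↥(modularFunctionFieldFullC ↥K N), x ≠ 0 →
      ∃ m : ℤ, VK.valuation (x / πK ^ m) = 1)
    {a υ : ↥K} {m : ℤ} (ha : a = υ * ((p : ↥K) ^ m) ^ p)
    (hυ : VK.valuation (algebraMap ↥K ↥(modularFunctionFieldFullC ↥K N) υ) = 1) :
    (p : ℤ) ∣ tres5Ord VK πK (algebraMap ↥K ↥(modularFunctionFieldFullC ↥K N) a) := by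
  have hpK : (p : ↥K) ≠ 0 := Nat.cast_ne_zero.2 hp0
  refine tresdesck_ord_dvd hπK hπK0 hunifK p hυ
    (c := algebraMap ↥K ↥(modularFunctionFieldFullC ↥K N) ((p : ↥K) ^ m)) ?_ ?_
  · exact (_root_.map_ne_zero _).2 (zpow_ne_zero m hpK)
  · rw [ha, map_mul, map_pow]

end Deck

section Final

variable {N : ℕ} [NeZero N]

/-- **Step 4 over `K = ℚ̄^I`, final form**: the function `w = u″ ∈ L_K`, the decomposition
`u = C (lc u) · γ ^ p · ι w`, the deck relation `ρ_K w = a · w · h ^ p` for every descended deck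
transformation `ρ_K` of `t`, and `p ∣ ord a` at every discrete valuation subring of `F_K` in
which the units of `A ∩ K` are units. -/
theorem tresdesck_final {p : ℕ} [Fact p.Prime] (A : ValuationSubring Qb)
    (hA : A.LiesOverPrime p)
    {x z₀ : JZero N} {u w₀ : modularFunctionFieldBar N} (hu : KummerRel p x u)
    (hw : KummerRel p z₀ w₀) {y : LaurentSeries NfQb}
    (hy : y ^ p = (w₀ : LaurentSeries NfQb))
    (hline : ∀ σ ∈ A.inertiaSubgroupIn ℚ, ∃ k : ℤ, σ • x - x = k • z₀)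
    (hpeu : ∀ σ ∈ peuSubgroup A p, σ • x = x)
    (t : ↥(tres5cField N y) →+* LaurentSeries NfQb) (htmem : ∀ z, t z ∈ tres5cField N y)
    (htF : ∀ (f : LaurentSeries NfQb) (hf : f ∈ modularFunctionFieldBar N),
      t ⟨f, tres5c_bar_le N y hf⟩ = f)
    {ζ : NfQb} (hζ : ζ ≠ 0) (hty : t ⟨y, tres5c_y_mem N y⟩ = HahnSeries.C ζ * y)
    (htor : ∀ σ ∈ A.inertiaSubgroupIn ℚ, ∃ g : ℤ, σ • z₀ = g • z₀ ∧ σ ζ = ζ ^ g) :
    ∃ (w h : ↥(tres5cL (beta0Field A) N y)) (γ : LaurentSeries NfQb)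
      (a : ↥(modularFunctionFieldFullC ↥(beta0Field A) N)),
      w ≠ 0 ∧ h ≠ 0 ∧ a ≠ 0 ∧ γ ∈ tres5cField N y ∧ γ ≠ 0 ∧
      (u : LaurentSeries NfQb) =
        HahnSeries.C (u : LaurentSeries NfQb).leadingCoeff * γ ^ p *
          coeffMap (algebraMap ↥(beta0Field A) NfQb) (w : LaurentSeries ↥(beta0Field A)) ∧
      (∀ ρK : ↥(tres5cL (beta0Field A) N y) →+* ↥(tres5cL (beta0Field A) N y),
        (∀ f : ↥(tres5cL (beta0Field A) N y),
          coeffMap (algebraMap ↥(beta0Field A) NfQb)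
            ((ρK f : ↥(tres5cL (beta0Field A) N y)) : LaurentSeries ↥(beta0Field A)) =
              t (tres5cEmb (beta0Field A) N y f)) →
        ρK w = algebraMap ↥(modularFunctionFieldFullC ↥(beta0Field A) N)
          ↥(tres5cL (beta0Field A) N y) a * w * h ^ p) ∧
      (∀ (VK : ValuationSubring ↥(modularFunctionFieldFullC ↥(beta0Field A) N))
        (πK : ↥(modularFunctionFieldFullC ↥(beta0Field A) N)), πK ∈ VK.nonunits → πK ≠ 0 →
        (∀ x : ↥(modularFunctionFieldFullC ↥(beta0Field A) N), x ≠ 0 →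
          ∃ m : ℤ, VK.valuation (x / πK ^ m) = 1) →
        (∀ υ : ↥(beta0Field A), (υ : Qb) ∈ A → ((υ : Qb))⁻¹ ∈ A →
          VK.valuation
            (algebraMap ↥(beta0Field A) ↥(modularFunctionFieldFullC ↥(beta0Field A) N) υ) = 1) →
        (p : ℤ) ∣ tres5Ord VK πK a) := by
  have hp : p.Prime := Fact.out
  obtain ⟨w, h, γ, a, υ, m, hw0, hh0, ha0, hυ0, hγF, hγ, hU, hth, ha, hυA, hυA'⟩ :=
    tresdesck_main A hA hu hw hy hline hpeu t htmem htF hζ hty htor
  refine ⟨w, h, γ, algebraMap ↥(beta0Field A) ↥(modularFunctionFieldFullC ↥(beta0Field A) N) a,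
    hw0, hh0, (_root_.map_ne_zero _).2 ha0, hγF, hγ, hU, ?_, ?_⟩
  · intro ρK hρK
    exact tresdesck_deck (beta0Field A) t ρK hρK hth
  · intro VK πK hπK hπK0 hunifK hunit
    exact tresdesck_const_ord (beta0Field A) hp.ne_zero VK hπK hπK0 hunifK ha
      (hunit υ hυA hυA')

end Final

end Fermat.Agent.R38

end
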