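import Fermat.Agent.R38.TresDescK
import Fermat.Agent.R38.TresHorForm

/-!
# R38-TRES, step 4 + step 5 (HOR), `K`-LEVEL GLUE, part 3 (helper30)

`K = ℚ̄^I = beta0Field A`, `L_K = tres5cL K N y`, `F_K = modularFunctionFieldFullC K N`.

* `tresdesck_kummer_dvd` : `KummerRel p x u` ⇒ `p ∣ ord_Q u` at every place `Q` of `F_N(ℚ̄)`;
* `tresdesck_hor` (**`hhor`** of `tres5npj_hfin`) : for a decomposition
  `u = C c · γ ^ p · coeffMap w`, `w ∈ L_K` (any `K`), `u` a Kummer function: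
  `p ∣ ord_P w` at every place `P` of `L_K / K` (helper61's `tres5h_cover`);
* **`tresdesck_all`** : ONE function `w = u″ ∈ L_K` with
  (1) `u = C (lc u) · γ ^ p · coeffMap w`   (`hfac`),
  (2) `ρ_K w = algebraMap a · w · h ^ p`     (`hρu`),
  (3) `p ∣ tres5Ord V_K π_K a`               (`hpa`),
  (4) `p ∣ ord_P w` at every place `P` of `L_K / K` (`hhor`).
-/

set_option autoImplicit false
set_option linter.unusedSectionVars false
set_option linter.unusedVariables false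
set_option linter.style.haveILetI false

noncomputable section

open ModularCurve AlgebraicCurve Fermat.Agent.ES Fermat.Agent.ES.G2 Fermat.Agent.INJ
  Fermat.Agent.UNIP Fermat.Agent.S36 Fermat.Agent.RIB.MP

namespace Fermat.Agent.R38

section Hor

variable {N : ℕ} [NeZero N]

/-- a Kummer function has divisor divisible by `p` -/
theorem tresdesck_kummer_dvd {p : ℕ} {x : JZero N} {u : modularFunctionFieldBar N}
    (hu : KummerRel p x u) (Q : Place NfQb ↥(modularFunctionFieldBar N)) :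
    (p : ℤ) ∣ Q.ord u := by
  obtain ⟨D, _, _, hD⟩ := hu
  exact ⟨_, (hD Q).symm⟩

/-- **(`hhor`)**: `p ∣ ord_P w` at every place `P` of `L_K / K`. -/
theorem tresdesck_hor (K : IntermediateField ℚ NfQb) {y : LaurentSeries NfQb}
    [alg : Algebra ↥K ↥(tres5cL K N y)]
    (hconst : ∀ c : ↥K, ((algebraMap ↥K ↥(tres5cL K N y) c : ↥(tres5cL K N y)) :
      LaurentSeries ↥K) = algebraMap ↥K (LaurentSeries ↥K) c)
    {p : ℕ} (hp : p ≠ 0) (hy : y ^ p ∈ modularFunctionFieldBar N)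
    (hgen : ∀ f ∈ tres5cField N y, f ∈ IntermediateField.adjoin NfQb
      {x : LaurentSeries NfQb | x ∈ tres5cField N y ∧
        ∃ g : LaurentSeries ↥K, coeffMap (algebraMap ↥K NfQb) g = x})
    {x : JZero N} {u : modularFunctionFieldBar N} (hu : KummerRel p x u)
    {c : NfQb} (hc : c ≠ 0) {γ : LaurentSeries NfQb} (hγF : γ ∈ tres5cField N y) (hγ : γ ≠ 0)
    (w : ↥(tres5cL K N y))
    (hfac : (u : LaurentSeries NfQb) = HahnSeries.C c * γ ^ p *
      coeffMap (algebraMap ↥K NfQb) (w : LaurentSeries ↥K))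
    (P : Place ↥K ↥(tres5cL K N y)) : (p : ℤ) ∣ P.ord w := by
  refine tres5h_cover K N y hconst hp hy hgen p u (fun Q => tresdesck_kummer_dvd hu Q) hc hγF hγ
    w ?_ P
  rw [s36d_algebraMap_eq_C]
  exact hfac

end Hor

section All

variable {N : ℕ} [NeZero N]

/-- **Steps 4 + 5 over `K = ℚ̄^I`, ONE function `w = u″ ∈ L_K`**: `hfac`, `hρu`, `hpa`, `hhor`. -/
theorem tresdesck_all {p : ℕ} [Fact p.Prime] (A : ValuationSubring Qb)
    (hA : A.LiesOverPrime p)
    {x z₀ : JZero N} {u w₀ : modularFunctionFieldBar N} (hu : KummerRel p x u)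
    (hw : KummerRel p z₀ w₀) {y : LaurentSeries NfQb}
    (hy : y ^ p = (w₀ : LaurentSeries NfQb))
    (hline : ∀ σ ∈ A.inertiaSubgroupIn ℚ, ∃ k : ℤ, σ • x - x = k • z₀)
    (hpeu : ∀ σ ∈ peuSubgroup A p, σ • x = x)
    (t : ↥(tres5cField N y) →+* LaurentSeries NfQb) (htmem : ∀ z, t z ∈ tres5cField N y)
    (htF : ∀ (f : LaurentSeries NfQb) (hf : f ∈ modularFunctionFieldBar N),
      t ⟨f, tres5c_bar_le N y hf⟩ = f)
    {ζ : NfQb} (hζ : ζ ≠ 0) (hty : t ⟨y, tres5c_y_mem N y⟩ = HahnSeries.C ζ * y)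
    (htor : ∀ σ ∈ A.inertiaSubgroupIn ℚ, ∃ g : ℤ, σ • z₀ = g • z₀ ∧ σ ζ = ζ ^ g)
    (hgen : ∀ f ∈ tres5cField N y, f ∈ IntermediateField.adjoin NfQb
      {x : LaurentSeries NfQb | x ∈ tres5cField N y ∧
        ∃ g : LaurentSeries ↥(beta0Field A), coeffMap (algebraMap ↥(beta0Field A) NfQb) g = x}) :
    ∃ (w h : ↥(tres5cL (beta0Field A) N y)) (γ : LaurentSeries NfQb)
      (a : ↥(modularFunctionFieldFullC ↥(beta0Field A) N)),
      w ≠ 0 ∧ h ≠ 0 ∧ a ≠ 0 ∧ γ ∈ tres5cField N y ∧ γ ≠ 0 ∧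
      (u : LaurentSeries NfQb) =
        HahnSeries.C (u : LaurentSeries NfQb).leadingCoeff * γ ^ p *
          coeffMap (algebraMap ↥(beta0Field A) NfQb) (w : LaurentSeries ↥(beta0Field A)) ∧
      (∀ ρK : ↥(tres5cL (beta0Field A) N y) →+* ↥(tres5cL (beta0Field A) N y),
        (∀ f : ↥(tres5cL (beta0Field A) N y),
          coeffMap (algebraMap ↥(beta0Field A) NfQb)
            ((ρK f : ↥(tres5cL (beta0Field A) N y)) : LaurentSeries ↥(beta0Field A)) =
              t (tres5cEmb (beta0Field A) N y f)) →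
        ρK w = algebraMap ↥(modularFunctionFieldFullC ↥(beta0Field A) N)
          ↥(tres5cL (beta0Field A) N y) a * w * h ^ p) ∧
      (∀ (VK : ValuationSubring ↥(modularFunctionFieldFullC ↥(beta0Field A) N))
        (πK : ↥(modularFunctionFieldFullC ↥(beta0Field A) N)), πK ∈ VK.nonunits → πK ≠ 0 →
        (∀ x : ↥(modularFunctionFieldFullC ↥(beta0Field A) N), x ≠ 0 →
          ∃ m : ℤ, VK.valuation (x / πK ^ m) = 1) →
        (∀ υ : ↥(beta0Field A), (υ : Qb) ∈ A → ((υ : Qb))⁻¹ ∈ A →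
          VK.valuation
            (algebraMap ↥(beta0Field A) ↥(modularFunctionFieldFullC ↥(beta0Field A) N) υ) = 1) →
        (p : ℤ) ∣ tres5Ord VK πK a) ∧
      (∀ (alg : Algebra ↥(beta0Field A) ↥(tres5cL (beta0Field A) N y)),
        (∀ c : ↥(beta0Field A),
          ((@algebraMap ↥(beta0Field A) ↥(tres5cL (beta0Field A) N y) _ _ alg c :
            ↥(tres5cL (beta0Field A) N y)) : LaurentSeries ↥(beta0Field A)) =
              algebraMap ↥(beta0Field A) (LaurentSeries ↥(beta0Field A)) c) →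
        ∀ P : @Place ↥(beta0Field A) ↥(tres5cL (beta0Field A) N y) _ _ alg,
          (p : ℤ) ∣ @Place.ord ↥(beta0Field A) ↥(tres5cL (beta0Field A) N y) _ _ alg P w) := by
  have hp : p.Prime := Fact.out
  obtain ⟨w, h, γ, a, hw0, hh0, ha0, hγF, hγ, hU, hdeck, hord⟩ :=
    tresdesck_final A hA hu hw hy hline hpeu t htmem htF hζ hty htor
  refine ⟨w, h, γ, a, hw0, hh0, ha0, hγF, hγ, hU, hdeck, hord, ?_⟩
  intro alg hconst P
  have hU0 : (u : LaurentSeries NfQb) ≠ 0 := fun h0 => hu.ne_zero (Subtype.ext h0)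
  have hy' : y ^ p ∈ modularFunctionFieldBar N := by
    rw [hy]
    exact w₀.2
  exact @tresdesck_hor N _ (beta0Field A) y alg hconst p hp.ne_zero hy' hgen x u hu _
    (HahnSeries.leadingCoeff_ne_zero.mpr hU0) γ hγF hγ w hU P

end All

end Fermat.Agent.R38

end
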