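/-
ROW 38, TRES, steps 4 + 5 over `K = ℚ̄^I` WITHOUT the hypothesis `hgen` (helper64):
`tres5cd_all` = helper30's `tresdesck_all` (R38/TresDescKHor.lean) with `hgen` discharged by
`tres5cd_hgen_kummer` (R38/TresCoverDescK.lean).  The hypotheses are exactly those of
`tresdesc_final` (+ `hA`, `hpeu`).
-/
import Fermat.Agent.R38.TresDescKHor
import Fermat.Agent.R38.TresCoverDescK

set_option autoImplicit false
set_option linter.unusedSectionVars false
set_option linter.unusedVariables false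
set_option linter.style.haveILetI false

noncomputable section

open ModularCurve AlgebraicCurve Fermat.Agent.ES Fermat.Agent.ES.G2 Fermat.Agent.INJ
  Fermat.Agent.UNIP Fermat.Agent.S36 Fermat.Agent.RIB.MP

namespace Fermat.Agent.R38

variable {N : ℕ} [NeZero N]

/-- **Steps 4 + 5 over `K = ℚ̄^I`, ONE function `w = u″ ∈ L_K`**: `hfac`, `hρu`, `hpa`, `hhor`;
no hypothesis `hgen`. -/
theorem tres5cd_all {p : ℕ} [Fact p.Prime] (A : ValuationSubring Qb)
    (hA : A.LiesOverPrime p)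
    {x z₀ : JZero N} {u w₀ : modularFunctionFieldBar N} (hu : KummerRel p x u)
    (hw : KummerRel p z₀ w₀) {y : LaurentSeries NfQb}
    (hy : y ^ p = (w₀ : LaurentSeries NfQb))
    (hline : ∀ σ ∈ A.inertiaSubgroupIn ℚ, ∃ k : ℤ, σ • x - x = k • z₀)
    (hpeu : ∀ σ ∈ peuSubgroup A p, σ • x = x)
    (t : ↥(tres5cField N y) →+* LaurentSeries NfQb) (htmem : ∀ z, t z ∈ tres5cField N y)
    (htF : ∀ (f : LaurentSeries NfQb) (hf : f ∈ modularFunctionFieldBar N),
      t ⟨f, tres5c_bar_le N y hf⟩ = f)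
    {ζ : NfQb} (hζ : ζ ≠ 0) (hty : t ⟨y, tres5c_y_mem N y⟩ = HahnSeries.C ζ * y)
    (htor : ∀ σ ∈ A.inertiaSubgroupIn ℚ, ∃ g : ℤ, σ • z₀ = g • z₀ ∧ σ ζ = ζ ^ g) :
    ∃ (w h : ↥(tres5cL (beta0Field A) N y)) (γ : LaurentSeries NfQb)
      (a : ↥(modularFunctionFieldFullC ↥(beta0Field A) N)),
      w ≠ 0 ∧ h ≠ 0 ∧ a ≠ 0 ∧ γ ∈ tres5cField N y ∧ γ ≠ 0 ∧
      (u : LaurentSeries NfQb) =
        HahnSeries.C (u : LaurentSeries NfQb).leadingCoeff * γ ^ p *
          coeffMap (algebraMap ↥(beta0Field A) NfQb) (w : LaurentSeries ↥(beta0Field A)) ∧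
      (∀ ρK : ↥(tres5cL (beta0Field A) N y) →+* ↥(tres5cL (beta0Field A) N y),
        (∀ f : ↥(tres5cL (beta0Field A) N y),
          coeffMap (algebraMap ↥(beta0Field A) NfQb)
            ((ρK f : ↥(tres5cL (beta0Field A) N y)) : LaurentSeries ↥(beta0Field A)) =
              t (tres5cEmb (beta0Field A) N y f)) →
        ρK w = algebraMap ↥(modularFunctionFieldFullC ↥(beta0Field A) N)
          ↥(tres5cL (beta0Field A) N y) a * w * h ^ p) ∧
      (∀ (VK : ValuationSubring ↥(modularFunctionFieldFullC ↥(beta0Field A) N))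
        (πK : ↥(modularFunctionFieldFullC ↥(beta0Field A) N)), πK ∈ VK.nonunits → πK ≠ 0 →
        (∀ x : ↥(modularFunctionFieldFullC ↥(beta0Field A) N), x ≠ 0 →
          ∃ m : ℤ, VK.valuation (x / πK ^ m) = 1) →
        (∀ υ : ↥(beta0Field A), (υ : Qb) ∈ A → ((υ : Qb))⁻¹ ∈ A →
          VK.valuation
            (algebraMap ↥(beta0Field A) ↥(modularFunctionFieldFullC ↥(beta0Field A) N) υ) = 1) →
        (p : ℤ) ∣ tres5Ord VK πK a) ∧
      (∀ (alg : Algebra ↥(beta0Field A) ↥(tres5cL (beta0Field A) N y)),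
        (∀ c : ↥(beta0Field A),
          ((@algebraMap ↥(beta0Field A) ↥(tres5cL (beta0Field A) N y) _ _ alg c :
            ↥(tres5cL (beta0Field A) N y)) : LaurentSeries ↥(beta0Field A)) =
              algebraMap ↥(beta0Field A) (LaurentSeries ↥(beta0Field A)) c) →
        ∀ P : @Place ↥(beta0Field A) ↥(tres5cL (beta0Field A) N y) _ _ alg,
          (p : ℤ) ∣ @Place.ord ↥(beta0Field A) ↥(tres5cL (beta0Field A) N y) _ _ alg P w) :=
  tresdesck_all A hA hu hw hy hline hpeu t htmem htF hζ hty htor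
    (tres5cd_hgen_kummer A (Fact.out : p.Prime).ne_zero hw hy
      (fun σ hσ => (htor σ hσ).imp fun g hg => hg.1))

end Fermat.Agent.R38

end
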