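import Fermat.Agent.R38.TresDescK
import Fermat.Agent.R38.TresCoverDeck

/-!
# R38-TRES, step 4, `K`-LEVEL GLUE, part 2 (helper30): the hypothesis `hρK` of `tresdesck_deck`

`K ≤ E`, `S : Tres5Kum F_N(E) L_E V p` (e.g. `tres5cKumL`), `t` the deck transformation of
`F′ = tres5cField N y`, `ρ_K` a ring endomorphism of `L_K` with
`tres5cIncl (ρ_K f) = S.deck (tres5cIncl f)` (a clause of `tres5c_descend`).

* `tresdesck_hρK` : `coeffMap (ρ_K f) = t (tres5cEmb K N y f)` (= `hρK` of `tresdesck_deck`,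
  `tresdesck_final`);
* `tresdesck_deck_of_descend` : the deck relation `ρ_K w = algebraMap a · w · h ^ p` directly
  from that clause.
-/

set_option autoImplicit false
set_option linter.unusedSectionVars false
set_option linter.unusedVariables false
set_option linter.style.haveILetI false

noncomputable section

open ModularCurve AlgebraicCurve Fermat.Agent.ES Fermat.Agent.ES.G2 Fermat.Agent.INJ
  Fermat.Agent.UNIP Fermat.Agent.S36 Fermat.Agent.RIB.MP

namespace Fermat.Agent.R38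

section DeckK

variable {K E : IntermediateField ℚ NfQb} (N : ℕ) [NeZero N] (y : LaurentSeries NfQb) {p : ℕ}
  {V : ValuationSubring ↥(modularFunctionFieldFullC ↥E N)}

/-- **`hρK`**: the descended deck transformation is the restriction of `t`. -/
theorem tresdesck_hρK (h : K ≤ E)
    (S : Tres5Kum ↥(modularFunctionFieldFullC ↥E N) ↥(tres5cL E N y) V p)
    (t : ↥(tres5cField N y) →+* LaurentSeries NfQb)
    (htF : ∀ (f : LaurentSeries NfQb) (hf : f ∈ modularFunctionFieldBar N),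
      t ⟨f, tres5c_bar_le N y hf⟩ = f)
    {ζ : NfQb} (hty : t ⟨y, tres5c_y_mem N y⟩ = HahnSeries.C ζ * y)
    (hSy : coeffMap (algebraMap ↥E NfQb) (S.y : LaurentSeries ↥E) = y)
    (hSζ : coeffMap (algebraMap ↥E NfQb) ((S.ζ : ↥(modularFunctionFieldFullC ↥E N)) :
      LaurentSeries ↥E) = HahnSeries.C ζ)
    (ρK : ↥(tres5cL K N y) →+* ↥(tres5cL K N y))
    (hρ : ∀ f : ↥(tres5cL K N y), tres5cIncl N y h (ρK f) = S.deck (tres5cIncl N y h f))
    (f : ↥(tres5cL K N y)) :
    coeffMap (algebraMap ↥K NfQb) ((ρK f : ↥(tres5cL K N y)) : LaurentSeries ↥K) =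
      t (tres5cEmb K N y f) := by
  have h1 := tres5c_emb_deck E N y S t htF hty hSy hSζ (tres5cIncl N y h f)
  rw [← hρ, tres5cEmb_incl] at h1
  rw [← h1]
  have h2 := congrArg (fun z : ↥(tres5cField N y) => (z : LaurentSeries NfQb))
    (tres5cEmb_incl N y h (ρK f))
  exact h2.symm

/-- the deck relation over `K` from the clause of `tres5c_descend` -/
theorem tresdesck_deck_of_descend (h : K ≤ E)
    (S : Tres5Kum ↥(modularFunctionFieldFullC ↥E N) ↥(tres5cL E N y) V p)
    (t : ↥(tres5cField N y) →+* LaurentSeries NfQb)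
    (htF : ∀ (f : LaurentSeries NfQb) (hf : f ∈ modularFunctionFieldBar N),
      t ⟨f, tres5c_bar_le N y hf⟩ = f)
    {ζ : NfQb} (hty : t ⟨y, tres5c_y_mem N y⟩ = HahnSeries.C ζ * y)
    (hSy : coeffMap (algebraMap ↥E NfQb) (S.y : LaurentSeries ↥E) = y)
    (hSζ : coeffMap (algebraMap ↥E NfQb) ((S.ζ : ↥(modularFunctionFieldFullC ↥E N)) :
      LaurentSeries ↥E) = HahnSeries.C ζ)
    (ρK : ↥(tres5cL K N y) →ₐ[↥(modularFunctionFieldFullC ↥K N)] ↥(tres5cL K N y))
    (hρ : ∀ f : ↥(tres5cL K N y), tres5cIncl N y h (ρK f) = S.deck (tres5cIncl N y h f))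
    {w hh : ↥(tres5cL K N y)} {a : ↥K}
    (hth : t (tres5cEmb K N y w) =
      HahnSeries.C (a : NfQb) * coeffMap (algebraMap ↥K NfQb) (w : LaurentSeries ↥K) *
        coeffMap (algebraMap ↥K NfQb) (hh : LaurentSeries ↥K) ^ p) :
    ρK w = algebraMap ↥(modularFunctionFieldFullC ↥K N) ↥(tres5cL K N y)
      (algebraMap ↥K ↥(modularFunctionFieldFullC ↥K N) a) * w * hh ^ p :=
  tresdesck_deck K t (ρK : ↥(tres5cL K N y) →+* ↥(tres5cL K N y))
    (tresdesck_hρK N y h S t htF hty hSy hSζ (ρK : ↥(tres5cL K N y) →+* ↥(tres5cL K N y)) hρ)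
    hth

end DeckK

end Fermat.Agent.R38

end
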