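import Fermat.Agent.R38.TresFixFUp
import Fermat.Agent.R38.TresCoverDeck
import Fermat.Agent.R38.TresCoverFormE
import Fermat.Agent.R38.TresDeckEx

/-!
# R38 TRES, (FAC-p), piece FAC-FIXF (helper29), part 5: `hρG` for the concrete cover

`z₀ ∈ J₀(N)` (level `N = M p`) with Kummer function `w₀`, `y ^ p = w₀`, toric
(`τ z₀ = cycloExp p τ • z₀` for `τ ∈ I`).  `S : Tres5Kum F_{N′}(E) L_E V p` the Kummer structure
of the `E`-form `L_E = tres5cL E N′ y` of the cover at the RIGID level `N′` (`F_N ≤ F_{N′}`), with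
generator `S.y = y_E` (`coeffMap y_E = y`) and root of unity `S.ζ = ζ`.

* `tres5ff_not_pow_bar`  : `w₀` is not a `p`-th power in `F_{N′}(ℚ̄)` (from `S.hw`: it is not one
                           in `F_{N′}(E)`, and `F_{N′}(ℚ̄) ∩ E((q)) = F_{N′}(E)`);
* `tres5ff_exists_deck`  : the deck transformation `t` of `F′ = F_{N′}(ℚ̄)(y)`, `t y = C ζ · y`;
* `tres5ff_hρG_cyclo`    : **`hρG`**: `S.deck (g • x) = g • S.deck x` for `g ∈ Gal(E / K)`,
                           `K = ℚ̄^I` — the last field-level hypothesis of `tres5ff_descend` /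
                           `tres5c_descend` / `tres5kiv_descend` / `tres5ki_point`.
-/

set_option autoImplicit false
set_option linter.style.haveILetI false
set_option linter.unusedSectionVars false

noncomputable section

open ModularCurve AlgebraicCurve Fermat.Agent.INJ Fermat.Agent.UNIP IntermediateField
  Fermat.Agent.ES Fermat.Agent.ES.G2

namespace Fermat.Agent.R38

section Rho

variable {N' : ℕ} [NeZero N'] {E : IntermediateField ℚ NfQb} {p : ℕ}
  {V : ValuationSubring ↥(modularFunctionFieldFullC ↥E N')} {y : LaurentSeries NfQb}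

/-- the Kummer element of `S` is `y ^ p` -/
theorem tres5ff_coeffMap_w (S : Tres5Kum ↥(modularFunctionFieldFullC ↥E N') ↥(tres5cL E N' y) V p)
    (hSy : coeffMap (algebraMap ↥E NfQb) (S.y : LaurentSeries ↥E) = y) :
    coeffMap (algebraMap ↥E NfQb) ((S.w : ↥(modularFunctionFieldFullC ↥E N')) :
      LaurentSeries ↥E) = y ^ p := by
  have h1 := congrArg (fun z : ↥(tres5cL E N' y) => (z : LaurentSeries ↥E)) S.hy
  have h2 : ((S.y ^ p : ↥(tres5cL E N' y)) : LaurentSeries ↥E) =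
      (S.y : LaurentSeries ↥E) ^ p := rfl
  have h3 : ((algebraMap ↥(modularFunctionFieldFullC ↥E N') ↥(tres5cL E N' y) S.w :
      ↥(tres5cL E N' y)) : LaurentSeries ↥E) = (S.w : LaurentSeries ↥E) :=
    tres5ff_L_algebraMap_coe N' y S.w
  have h4 : (S.y : LaurentSeries ↥E) ^ p = (S.w : LaurentSeries ↥E) := by
    rw [← h2, ← h3]
    exact h1
  rw [← h4, map_pow, hSy]

/-- **`w₀` is not a `p`-th power in `F_{N′}(ℚ̄)`.** -/
theorem tres5ff_not_pow_bar (S : Tres5Kum ↥(modularFunctionFieldFullC ↥E N') ↥(tres5cL E N' y) V p)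
    (hSy : coeffMap (algebraMap ↥E NfQb) (S.y : LaurentSeries ↥E) = y)
    {w₀ : modularFunctionFieldBar N'} (hy : y ^ p = (w₀ : LaurentSeries NfQb)) :
    ∀ b : modularFunctionFieldBar N', b ^ p ≠ w₀ := by
  intro b hb
  have hp0 : p ≠ 0 := S.hp.ne_zero
  have hpK : ((p : ℕ) : NfQb) ≠ 0 := Nat.cast_ne_zero.mpr hp0
  have hw0 : S.w ≠ 0 := by
    intro h0
    exact S.hw 0 (by rw [zero_pow hp0, h0])
  have hy0 : y ≠ 0 := by
    intro h0
    have h1 := tres5ff_coeffMap_w S hSy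
    have h1' : y ^ p = 0 := by rw [h0, zero_pow hp0]
    have h2 : (S.w : LaurentSeries ↥E) = 0 :=
      (coeffMap (algebraMap ↥E NfQb)).injective ((h1.trans h1').trans (map_zero _).symm)
    exact hw0 (Subtype.ext h2)
  have hbL : (b : LaurentSeries NfQb) ^ p = HahnSeries.C (1 : NfQb) * y ^ p := by
    have h1 := congrArg (fun z : modularFunctionFieldBar N' => (z : LaurentSeries NfQb)) hb
    have h2 : ((b ^ p : modularFunctionFieldBar N') : LaurentSeries NfQb) =
        (b : LaurentSeries NfQb) ^ p := rfl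
    rw [map_one, one_mul, hy, ← h2]
    exact h1
  obtain ⟨c, hc0, -, hbc⟩ := tresdesc_root hpK one_ne_zero hy0 hbL
  -- `y ∈ F_{N′}(ℚ̄)`
  have hyF : y ∈ modularFunctionFieldBar N' := by
    have h1 : y = HahnSeries.C c⁻¹ * (b : LaurentSeries NfQb) := by
      rw [hbc, ← mul_assoc, ← map_mul, inv_mul_cancel₀ hc0, map_one, one_mul]
    rw [h1]
    exact (modularFunctionFieldBar N').mul_mem (Fermat.Agent.S36.s36d_C_mem N' c⁻¹) b.2
  -- `y_E ∈ F_{N′}(E)`
  have hyE : (S.y : LaurentSeries ↥E) ∈ modularFunctionFieldFullC ↥E N' :=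
    tres5c_ff_desc E N' (by rw [hSy]; exact hyF)
  refine S.hw ⟨(S.y : LaurentSeries ↥E), hyE⟩ (Subtype.ext ?_)
  have h1 := congrArg (fun z : ↥(tres5cL E N' y) => (z : LaurentSeries ↥E)) S.hy
  have h3 : ((algebraMap ↥(modularFunctionFieldFullC ↥E N') ↥(tres5cL E N' y) S.w :
      ↥(tres5cL E N' y)) : LaurentSeries ↥E) = (S.w : LaurentSeries ↥E) :=
    tres5ff_L_algebraMap_coe N' y S.w
  rw [← h3]
  exact h1

/-- **The deck transformation of `F′ = F_{N′}(ℚ̄)(y)`.** -/
theorem tres5ff_exists_deck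
    (S : Tres5Kum ↥(modularFunctionFieldFullC ↥E N') ↥(tres5cL E N' y) V p)
    (hSy : coeffMap (algebraMap ↥E NfQb) (S.y : LaurentSeries ↥E) = y)
    {w₀ : modularFunctionFieldBar N'} (hy : y ^ p = (w₀ : LaurentSeries NfQb))
    {ζ : NfQb} (hζ : ζ ^ p = 1) :
    ∃ t : ↥(tres5cField N' y) →+* LaurentSeries NfQb, (∀ z, t z ∈ tres5cField N' y) ∧
      (∀ (f : LaurentSeries NfQb) (hf : f ∈ modularFunctionFieldBar N'),
        t ⟨f, tres5c_bar_le N' y hf⟩ = f) ∧
      t ⟨y, tres5c_y_mem N' y⟩ = HahnSeries.C ζ * y :=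
  tresdesc_exists_deck S.hp (tres5ff_not_pow_bar S hSy hy) hy hζ

variable {N : ℕ} [NeZero N] {A : ValuationSubring NfQb} {q : ℕ}

/-- **(hρG)**: the deck transformation of `L_E` commutes with `Gal(E / K)`, `K = ℚ̄^I`. -/
theorem tres5ff_hρG_cyclo [Fact p.Prime] (hq : q.Prime) (hA : A.LiesOverPrime q)
    (h : beta0Field A ≤ E)
    {z₀ : JZero N} {w₀ : modularFunctionFieldBar N} (hw : KummerRel p z₀ w₀)
    (hy : y ^ p = (w₀ : LaurentSeries NfQb))
    (hle : modularFunctionFieldBar N ≤ modularFunctionFieldBar N')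
    (htor : ∀ τ ∈ A.inertiaSubgroupIn ℚ, τ • z₀ = ExtCitation.cycloExp p τ • z₀)
    (S : Tres5Kum ↥(modularFunctionFieldFullC ↥E N') ↥(tres5cL E N' y) V p)
    (hSy : coeffMap (algebraMap ↥E NfQb) (S.y : LaurentSeries ↥E) = y)
    {ζ : NfQb}
    (hSζ : coeffMap (algebraMap ↥E NfQb) ((S.ζ : ↥(modularFunctionFieldFullC ↥E N')) :
      LaurentSeries ↥E) = HahnSeries.C ζ) :
    letI := beta0FieldAlgebra h
    letI := tres5ffAct hq hA h N' y (tres5ff_hstabI_cyclo hw hy hle htor)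
    ∀ (g : ↥E ≃ₐ[↥(beta0Field A)] ↥E) (x : ↥(tres5cL E N' y)),
      S.deck (g • x) = g • S.deck x := by
  -- `ζ ^ p = 1`
  have hζ : ζ ^ p = 1 := by
    have h1 : (S.ζ : ↥(modularFunctionFieldFullC ↥E N')) ^ p = 1 := S.hζ.pow_eq_one
    have h2 := congrArg (fun z : ↥(modularFunctionFieldFullC ↥E N') =>
      coeffMap (algebraMap ↥E NfQb) (z : LaurentSeries ↥E)) h1
    have h3 : coeffMap (algebraMap ↥E NfQb)
        (((S.ζ ^ p : ↥(modularFunctionFieldFullC ↥E N')) : LaurentSeries ↥E)) =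
        (HahnSeries.C ζ : LaurentSeries NfQb) ^ p := by
      rw [← hSζ, ← map_pow]
      rfl
    have h4 : (HahnSeries.C ζ : LaurentSeries NfQb) ^ p = 1 := by
      rw [← h3]
      exact h2.trans (map_one _)
    rw [← map_pow] at h4
    have h5 : (HahnSeries.C (ζ ^ p) : LaurentSeries NfQb) = HahnSeries.C (1 : NfQb) := by
      rw [h4, map_one]
    exact HahnSeries.C_injective h5
  have hy' : y ^ p = ((⟨(w₀ : LaurentSeries NfQb), hle w₀.2⟩ : modularFunctionFieldBar N') :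
      LaurentSeries NfQb) := hy
  obtain ⟨t, -, htF, hty⟩ := tres5ff_exists_deck S hSy hy' hζ
  exact tres5ff_inst_hρG hq hA h N' y (tres5ff_hstabI_cyclo hw hy hle htor) t
    (tres5ff_hcomm_cyclo hw hy hle t htF hζ hty htor) (fun x => S.deck x)
    (fun x => tres5c_emb_deck E N' y S t htF hty hSy hSζ x)

end Rho

end Fermat.Agent.R38
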