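import Fermat.Agent.R38.TresDescKV
import Fermat.Agent.R38.TresDescKDeck
import Fermat.Agent.R38.TresFixFRho

/-!
# R38-TRES, steps 4 + 5, `K`-LEVEL GLUE, part 6 (helper30): THE ENTRY POINT FOR THE COVER BLOCK

Inputs = the hypotheses of `StmtMonoCover` on `x`, `z₀` (toric line in the `cycloExp` shape) and
the outputs of FAC-BIG / K-FORM (A):  `S : Tres5Kum F_{N′}(E) L_E V p` with `coeffMap S.y = y`,
`coeffMap S.ζ = C ζ`, and the descended deck transformation `ρ_K` of `L_K` with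
`tres5cIncl (ρ_K f) = S.deck (tres5cIncl f)` (clause of `tres5c_descend` / `tres5kiv_descend` /
`tres5ff_kiv_descend_cyclo`).  `N′ = M′ p` the rigid level, `K = ℚ̄^I`.

* `tresdesck_zeta_pow` : `ζ ^ p = 1`;
* **`tresdesckv_entry`** : ONE `w = u″ ∈ L_K` with
  `hfac`, `ρ_K w = algebraMap a · w · h ^ p`, (`hVa` ∧ `hpa`) at `V_∞` and `V_0`, `hhor`
  — no deck transformation `t`, no `hgen` in the hypotheses;
* `tresdesckv_entry_lcm` : the same for `N = M p`, `N′ = M q' p` (`hdiv` and `hle` discharged).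
-/

set_option autoImplicit false
set_option linter.unusedSectionVars false
set_option linter.unusedVariables false
set_option linter.style.haveILetI false

noncomputable section

open ModularCurve AlgebraicCurve Fermat.Agent.ES Fermat.Agent.ES.G2 Fermat.Agent.INJ
  Fermat.Agent.UNIP Fermat.Agent.S36 Fermat.Agent.RIB.MP

namespace Fermat.Agent.R38

section Zeta

variable {N' : ℕ} [NeZero N'] {E : IntermediateField ℚ NfQb} {p : ℕ}
  {V : ValuationSubring ↥(modularFunctionFieldFullC ↥E N')} {y : LaurentSeries NfQb}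

/-- the root of unity of a Kummer structure: `ζ ^ p = 1` -/
theorem tresdesck_zeta_pow
    (S : Tres5Kum ↥(modularFunctionFieldFullC ↥E N') ↥(tres5cL E N' y) V p) {ζ : NfQb}
    (hSζ : coeffMap (algebraMap ↥E NfQb) ((S.ζ : ↥(modularFunctionFieldFullC ↥E N')) :
      LaurentSeries ↥E) = HahnSeries.C ζ) : ζ ^ p = 1 := by
  have h1 : (S.ζ : ↥(modularFunctionFieldFullC ↥E N')) ^ p = 1 := S.hζ.pow_eq_one
  have h2 := congrArg (fun z : ↥(modularFunctionFieldFullC ↥E N') =>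
    coeffMap (algebraMap ↥E NfQb) (z : LaurentSeries ↥E)) h1
  have h3 : coeffMap (algebraMap ↥E NfQb)
      (((S.ζ ^ p : ↥(modularFunctionFieldFullC ↥E N')) : LaurentSeries ↥E)) =
      (HahnSeries.C ζ : LaurentSeries NfQb) ^ p := by
    rw [← hSζ, ← map_pow]
    rfl
  have h4 : (HahnSeries.C ζ : LaurentSeries NfQb) ^ p = 1 := by
    rw [← h3]
    exact h2.trans (map_one _)
  rw [← map_pow] at h4
  have h5 : (HahnSeries.C (ζ ^ p) : LaurentSeries NfQb) = HahnSeries.C (1 : NfQb) := by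
    rw [h4, map_one]
  exact HahnSeries.C_injective h5

end Zeta

section Entry

variable {N : ℕ} [NeZero N] {p M' : ℕ} [NeZero p] [NeZero M'] [NeZero (M' * p)]

/-- **The entry point of steps 4 + 5 for the cover block.** -/
theorem tresdesckv_entry [Fact p.Prime] (A : ValuationSubring Qb) (hA : A.LiesOverPrime p)
    [IsDiscreteValuationRing ↥(beta0Ring A (beta0Field A))]
    {π : ↥(beta0Ring A (beta0Field A))} (hπ : Irreducible π) (ιC : ↥(beta0Field A) →+* ℂ)
    (hp : p.Prime) (hpM : ¬ p ∣ M')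
    {x z₀ : JZero N} {u w₀ : modularFunctionFieldBar N} (hu : KummerRel p x u)
    (hw : KummerRel p z₀ w₀) {y : LaurentSeries NfQb}
    (hy : y ^ p = (w₀ : LaurentSeries NfQb))
    (hle : modularFunctionFieldBar N ≤ modularFunctionFieldBar (M' * p))
    (hline : ∀ σ ∈ A.inertiaSubgroupIn ℚ, ∃ k : ℤ, σ • x - x = k • z₀)
    (hpeu : ∀ σ ∈ peuSubgroup A p, σ • x = x)
    (htor : ∀ τ ∈ A.inertiaSubgroupIn ℚ, τ • z₀ = ExtCitation.cycloExp p τ • z₀)
    (hdiv : ∀ Q : Place NfQb ↥(modularFunctionFieldBar (M' * p)),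
      (p : ℤ) ∣ Q.ord (⟨(u : LaurentSeries NfQb), hle u.2⟩ :
        ↥(modularFunctionFieldBar (M' * p))))
    {E : IntermediateField ℚ NfQb} (h : beta0Field A ≤ E)
    {V : ValuationSubring ↥(modularFunctionFieldFullC ↥E (M' * p))}
    (S : Tres5Kum ↥(modularFunctionFieldFullC ↥E (M' * p)) ↥(tres5cL E (M' * p) y) V p)
    (hSy : coeffMap (algebraMap ↥E NfQb) (S.y : LaurentSeries ↥E) = y)
    {ζ : NfQb}
    (hSζ : coeffMap (algebraMap ↥E NfQb)
      ((S.ζ : ↥(modularFunctionFieldFullC ↥E (M' * p))) : LaurentSeries ↥E) = HahnSeries.C ζ)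
    (ρK : ↥(tres5cL (beta0Field A) (M' * p) y) →ₐ[↥(modularFunctionFieldFullC
      ↥(beta0Field A) (M' * p))] ↥(tres5cL (beta0Field A) (M' * p) y))
    (hρ : ∀ f : ↥(tres5cL (beta0Field A) (M' * p) y),
      tres5cIncl (M' * p) y h (ρK f) = S.deck (tres5cIncl (M' * p) y h f)) :
    ∃ (w h' : ↥(tres5cL (beta0Field A) (M' * p) y)) (γ : LaurentSeries NfQb)
      (a : ↥(modularFunctionFieldFullC ↥(beta0Field A) (M' * p))),
      w ≠ 0 ∧ h' ≠ 0 ∧ a ≠ 0 ∧ γ ∈ tres5cField (M' * p) y ∧ γ ≠ 0 ∧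
      (u : LaurentSeries NfQb) =
        HahnSeries.C (u : LaurentSeries NfQb).leadingCoeff * γ ^ p *
          coeffMap (algebraMap ↥(beta0Field A) NfQb) (w : LaurentSeries ↥(beta0Field A)) ∧
      ρK w = algebraMap ↥(modularFunctionFieldFullC ↥(beta0Field A) (M' * p))
          ↥(tres5cL (beta0Field A) (M' * p) y) a * w * h' ^ p ∧
      (∀ c : Bool,
        (∃ m : ℤ, (mgvV hπ ιC hp hpM c).valuation
          (a / algebraMap ↥(beta0Ring A (beta0Field A))
            ↥(modularFunctionFieldFullC ↥(beta0Field A) (M' * p)) π ^ m) = 1) ∧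
        (p : ℤ) ∣ tres5Ord (mgvV hπ ιC hp hpM c)
          (algebraMap ↥(beta0Ring A (beta0Field A))
            ↥(modularFunctionFieldFullC ↥(beta0Field A) (M' * p)) π) a) ∧
      (∀ (alg : Algebra ↥(beta0Field A) ↥(tres5cL (beta0Field A) (M' * p) y)),
        (∀ c : ↥(beta0Field A),
          ((@algebraMap ↥(beta0Field A) ↥(tres5cL (beta0Field A) (M' * p) y) _ _ alg c :
            ↥(tres5cL (beta0Field A) (M' * p) y)) : LaurentSeries ↥(beta0Field A)) =
              algebraMap ↥(beta0Field A) (LaurentSeries ↥(beta0Field A)) c) →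
        ∀ P : @Place ↥(beta0Field A) ↥(tres5cL (beta0Field A) (M' * p) y) _ _ alg,
          (p : ℤ) ∣
            @Place.ord ↥(beta0Field A) ↥(tres5cL (beta0Field A) (M' * p) y) _ _ alg P w) := by
  have hζ : ζ ^ p = 1 := tresdesck_zeta_pow S hSζ
  have hy' : y ^ p = ((⟨(w₀ : LaurentSeries NfQb), hle w₀.2⟩ :
      modularFunctionFieldBar (M' * p)) : LaurentSeries NfQb) := hy
  obtain ⟨t, htmem, htF, hty⟩ := tres5ff_exists_deck S hSy hy' hζ
  obtain ⟨w, h', γ, a, hw0, hh0, ha0, hγF, hγ, hU, hdeck, hV, hhor⟩ :=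
    tresdesckv_all (N := N) (M' := M') A hA hπ ιC hp hpM hu hw hy hle hline hpeu t htmem htF hty
      (tresdesck_htor_cyclo hζ htor) hdiv
  refine ⟨w, h', γ, a, hw0, hh0, ha0, hγF, hγ, hU, ?_, hV, hhor⟩
  exact hdeck (ρK : ↥(tres5cL (beta0Field A) (M' * p) y) →+* ↥(tres5cL (beta0Field A) (M' * p) y))
    (tresdesck_hρK (M' * p) y h S t htF hty hSy hSζ
      (ρK : ↥(tres5cL (beta0Field A) (M' * p) y) →+* ↥(tres5cL (beta0Field A) (M' * p) y)) hρ)

end Entry

section Lcm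

variable {p : ℕ} [NeZero p]

/-- **The entry point for `N = M p`, `N′ = M q' p`** (`hle`, `hdiv` discharged). -/
theorem tresdesckv_entry_lcm (M q' : ℕ) [NeZero M] [NeZero q'] [NeZero (M * p)]
    [NeZero (M * q')] [NeZero (M * q' * p)] [Fact p.Prime]
    (A : ValuationSubring Qb) (hA : A.LiesOverPrime p)
    [IsDiscreteValuationRing ↥(beta0Ring A (beta0Field A))]
    {π : ↥(beta0Ring A (beta0Field A))} (hπ : Irreducible π) (ιC : ↥(beta0Field A) →+* ℂ)
    (hp : p.Prime) (hpM : ¬ p ∣ M * q')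
    {x z₀ : JZero (M * p)} {u w₀ : modularFunctionFieldBar (M * p)} (hu : KummerRel p x u)
    (hw : KummerRel p z₀ w₀) {y : LaurentSeries NfQb}
    (hy : y ^ p = (w₀ : LaurentSeries NfQb))
    (hline : ∀ σ ∈ A.inertiaSubgroupIn ℚ, ∃ k : ℤ, σ • x - x = k • z₀)
    (hpeu : ∀ σ ∈ peuSubgroup A p, σ • x = x)
    (htor : ∀ τ ∈ A.inertiaSubgroupIn ℚ, τ • z₀ = ExtCitation.cycloExp p τ • z₀)
    {E : IntermediateField ℚ NfQb} (h : beta0Field A ≤ E)
    {V : ValuationSubring ↥(modularFunctionFieldFullC ↥E (M * q' * p))}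
    (S : Tres5Kum ↥(modularFunctionFieldFullC ↥E (M * q' * p)) ↥(tres5cL E (M * q' * p) y) V p)
    (hSy : coeffMap (algebraMap ↥E NfQb) (S.y : LaurentSeries ↥E) = y)
    {ζ : NfQb}
    (hSζ : coeffMap (algebraMap ↥E NfQb)
      ((S.ζ : ↥(modularFunctionFieldFullC ↥E (M * q' * p))) : LaurentSeries ↥E) = HahnSeries.C ζ)
    (ρK : ↥(tres5cL (beta0Field A) (M * q' * p) y) →ₐ[↥(modularFunctionFieldFullC
      ↥(beta0Field A) (M * q' * p))] ↥(tres5cL (beta0Field A) (M * q' * p) y))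
    (hρ : ∀ f : ↥(tres5cL (beta0Field A) (M * q' * p) y),
      tres5cIncl (M * q' * p) y h (ρK f) = S.deck (tres5cIncl (M * q' * p) y h f)) :
    ∃ (w h' : ↥(tres5cL (beta0Field A) (M * q' * p) y)) (γ : LaurentSeries NfQb)
      (a : ↥(modularFunctionFieldFullC ↥(beta0Field A) (M * q' * p))),
      w ≠ 0 ∧ h' ≠ 0 ∧ a ≠ 0 ∧ γ ∈ tres5cField (M * q' * p) y ∧ γ ≠ 0 ∧
      (u : LaurentSeries NfQb) =
        HahnSeries.C (u : LaurentSeries NfQb).leadingCoeff * γ ^ p *
          coeffMap (algebraMap ↥(beta0Field A) NfQb) (w : LaurentSeries ↥(beta0Field A)) ∧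
      ρK w = algebraMap ↥(modularFunctionFieldFullC ↥(beta0Field A) (M * q' * p))
          ↥(tres5cL (beta0Field A) (M * q' * p) y) a * w * h' ^ p ∧
      (∀ c : Bool,
        (∃ m : ℤ, (mgvV hπ ιC hp hpM c).valuation
          (a / algebraMap ↥(beta0Ring A (beta0Field A))
            ↥(modularFunctionFieldFullC ↥(beta0Field A) (M * q' * p)) π ^ m) = 1) ∧
        (p : ℤ) ∣ tres5Ord (mgvV hπ ιC hp hpM c)
          (algebraMap ↥(beta0Ring A (beta0Field A))
            ↥(modularFunctionFieldFullC ↥(beta0Field A) (M * q' * p)) π) a) ∧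
      (∀ (alg : Algebra ↥(beta0Field A) ↥(tres5cL (beta0Field A) (M * q' * p) y)),
        (∀ c : ↥(beta0Field A),
          ((@algebraMap ↥(beta0Field A) ↥(tres5cL (beta0Field A) (M * q' * p) y) _ _ alg c :
            ↥(tres5cL (beta0Field A) (M * q' * p) y)) : LaurentSeries ↥(beta0Field A)) =
              algebraMap ↥(beta0Field A) (LaurentSeries ↥(beta0Field A)) c) →
        ∀ P : @Place ↥(beta0Field A) ↥(tres5cL (beta0Field A) (M * q' * p) y) _ _ alg,
          (p : ℤ) ∣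
            @Place.ord ↥(beta0Field A) ↥(tres5cL (beta0Field A) (M * q' * p) y) _ _ alg P w) :=
  tresdesckv_entry (N := M * p) (M' := M * q') A hA hπ ιC hp hpM hu hw hy
    (Fermat.Agent.STB.stb_d_le M p q') hline hpeu htor
    (fun Q => tresdesck_up_hdiv M p q' hu (Fermat.Agent.STB.stb_d_le M p q') Q) h S hSy hSζ ρK hρ

end Lcm

end Fermat.Agent.R38

end
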