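import Fermat.Agent.R38.TresDescKUp
import Fermat.Agent.R38.TresKFormInstV

/-!
# R38-TRES, steps 4 + 5, `K`-LEVEL GLUE, part 5 (helper30): KUM AT THE VERTICAL VALUATIONS

Leaf (L2) of helper14's MONO-0 instance.  `K₀` an intermediate field of `ℚ̄ / ℚ` with `A ∩ K₀` a
discrete valuation ring, `F = modularFunctionFieldFullC K₀ (M q)`, `V c = mgvV hπ ιC hq hqM c`
(`true = V_∞`, `false = V_0`), `ϖ = algebraMap (A ∩ K₀) F π`.

* `tresdesckv_const_mem` : the constants of `A ∩ K₀` lie in `V c`;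
* `tresdesckv_unit` : a unit `υ ≠ 0` of `A ∩ K₀` is a unit of `V c`;
* `tresdesckv_hVa`  : **`hVa`** every `a ≠ 0` of `F` has an order at `V c`;
* `tresdesckv_hpa`  : **`hpa`** for a constant `a = υ · (p ^ m) ^ p`, `υ` a unit of `A ∩ K₀`:
                      `p ∣ tres5Ord (V c) ϖ (algebraMap a)`;
* **`tresdesckv_all`** : the bundle of `tresdesck_up_all` at the level `N′ = M′ p` with clause (3)
                      in the concrete form `hVa ∧ hpa` at both `V c`.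
-/

set_option autoImplicit false
set_option linter.unusedSectionVars false
set_option linter.unusedVariables false
set_option linter.style.haveILetI false

noncomputable section

open ModularCurve AlgebraicCurve Fermat.Agent.ES Fermat.Agent.ES.G2 Fermat.Agent.INJ
  Fermat.Agent.UNIP Fermat.Agent.S36 Fermat.Agent.RIB.MP

namespace Fermat.Agent.R38

section V

variable {A : ValuationSubring NfQb} {K₀ : IntermediateField ℚ NfQb}
  [IsDiscreteValuationRing ↥(beta0Ring A K₀)] {π : ↥(beta0Ring A K₀)} (hπ : Irreducible π)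
  (ιC : ↥K₀ →+* ℂ) {q M : ℕ} [NeZero q] [NeZero M] [NeZero (M * q)]
  (hq : q.Prime) (hqM : ¬ q ∣ M)

/-- the constants of `A ∩ K₀` lie in `V c` -/
theorem tresdesckv_const_mem (c : Bool) (a : ↥(beta0Ring A K₀)) :
    algebraMap ↥(beta0Ring A K₀) ↥(modularFunctionFieldFullC ↥K₀ (M * q)) a ∈
      mgvV hπ ιC hq hqM c := by
  refine mgv_hBV₁ hπ ιC hq hqM c _ ?_
  have h : IsIntegral ↥(Algebra.adjoin ↥(beta0Ring A K₀)
      ({bgJ ↥K₀ (M * q)} : Set ↥(modularFunctionFieldFullC ↥K₀ (M * q))))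
      (algebraMap ↥(Algebra.adjoin ↥(beta0Ring A K₀)
        ({bgJ ↥K₀ (M * q)} : Set ↥(modularFunctionFieldFullC ↥K₀ (M * q))))
        ↥(modularFunctionFieldFullC ↥K₀ (M * q))
        (algebraMap ↥(beta0Ring A K₀) ↥(Algebra.adjoin ↥(beta0Ring A K₀)
          ({bgJ ↥K₀ (M * q)} : Set ↥(modularFunctionFieldFullC ↥K₀ (M * q)))) a)) :=
    isIntegral_algebraMap
  exact h

/-- **a unit of `A ∩ K₀` is a unit of `V c`** -/
theorem tresdesckv_unit (c : Bool) (υ : ↥K₀) (hυ0 : υ ≠ 0) (h1 : (υ : NfQb) ∈ A)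
    (h2 : ((υ : NfQb))⁻¹ ∈ A) :
    (mgvV hπ ιC hq hqM c).valuation
      (algebraMap ↥K₀ ↥(modularFunctionFieldFullC ↥K₀ (M * q)) υ) = 1 := by
  rw [vt_valuation_eq_one_iff]
  refine ⟨(_root_.map_ne_zero _).2 hυ0, ?_, ?_⟩
  · exact tresdesckv_const_mem hπ ιC hq hqM c ⟨υ, h1⟩
  · rw [← map_inv₀]
    have h2' : ((υ⁻¹ : ↥K₀) : NfQb) ∈ A := h2
    exact tresdesckv_const_mem hπ ιC hq hqM c ⟨υ⁻¹, h2'⟩

/-- **(`hVa`)** -/
theorem tresdesckv_hVa (c : Bool) {a : ↥(modularFunctionFieldFullC ↥K₀ (M * q))} (ha : a ≠ 0) :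
    ∃ m : ℤ, (mgvV hπ ιC hq hqM c).valuation
      (a / algebraMap ↥(beta0Ring A K₀) ↥(modularFunctionFieldFullC ↥K₀ (M * q)) π ^ m) = 1 :=
  tres5kiv_hunifK hπ ιC hq hqM c a ha

/-- **(`hpa`)** for a constant `a = υ · (p ^ m) ^ p`, `υ` a unit of `A ∩ K₀`. -/
theorem tresdesckv_hpa (c : Bool) {p : ℕ} (hp0 : p ≠ 0) {a υ : ↥K₀} {m : ℤ}
    (ha : a = υ * ((p : ↥K₀) ^ m) ^ p) (hυ0 : υ ≠ 0) (h1 : (υ : NfQb) ∈ A)
    (h2 : ((υ : NfQb))⁻¹ ∈ A) :
    (p : ℤ) ∣ tres5Ord (mgvV hπ ιC hq hqM c)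
      (algebraMap ↥(beta0Ring A K₀) ↥(modularFunctionFieldFullC ↥K₀ (M * q)) π)
      (algebraMap ↥K₀ ↥(modularFunctionFieldFullC ↥K₀ (M * q)) a) :=
  tresdesck_const_ord K₀ hp0 (mgvV hπ ιC hq hqM c) (tres5kiv_hπK hπ ιC hq hqM c)
    (tres5kiv_hπK0 hπ) (tres5kiv_hunifK hπ ιC hq hqM c) ha
    (tresdesckv_unit hπ ιC hq hqM c υ hυ0 h1 h2)

end V

section All

variable {N : ℕ} [NeZero N] {p M' : ℕ} [NeZero p] [NeZero M'] [NeZero (M' * p)]

/-- **Steps 4 + 5 over `K = ℚ̄^I` at the rigid level `N′ = M′ p`, concrete at the vertical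
valuations**: ONE function `w = u″ ∈ L_K` with `hfac`, `hρu`, (`hVa` ∧ `hpa`) at `V_∞` and `V_0`,
`hhor`. -/
theorem tresdesckv_all [Fact p.Prime] (A : ValuationSubring Qb) (hA : A.LiesOverPrime p)
    [IsDiscreteValuationRing ↥(beta0Ring A (beta0Field A))]
    {π : ↥(beta0Ring A (beta0Field A))} (hπ : Irreducible π) (ιC : ↥(beta0Field A) →+* ℂ)
    (hp : p.Prime) (hpM : ¬ p ∣ M')
    {x z₀ : JZero N} {u w₀ : modularFunctionFieldBar N} (hu : KummerRel p x u)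
    (hw : KummerRel p z₀ w₀) {y : LaurentSeries NfQb}
    (hy : y ^ p = (w₀ : LaurentSeries NfQb))
    (hle : modularFunctionFieldBar N ≤ modularFunctionFieldBar (M' * p))
    (hline : ∀ σ ∈ A.inertiaSubgroupIn ℚ, ∃ k : ℤ, σ • x - x = k • z₀)
    (hpeu : ∀ σ ∈ peuSubgroup A p, σ • x = x)
    (t : ↥(tres5cField (M' * p) y) →+* LaurentSeries NfQb)
    (htmem : ∀ z, t z ∈ tres5cField (M' * p) y)
    (htF : ∀ (f : LaurentSeries NfQb) (hf : f ∈ modularFunctionFieldBar (M' * p)),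
      t ⟨f, tres5c_bar_le (M' * p) y hf⟩ = f)
    {ζ : NfQb} (hty : t ⟨y, tres5c_y_mem (M' * p) y⟩ = HahnSeries.C ζ * y)
    (htor : ∀ σ ∈ A.inertiaSubgroupIn ℚ, ∃ g : ℤ, σ • z₀ = g • z₀ ∧ σ ζ = ζ ^ g)
    (hdiv : ∀ Q : Place NfQb ↥(modularFunctionFieldBar (M' * p)),
      (p : ℤ) ∣ Q.ord (⟨(u : LaurentSeries NfQb), hle u.2⟩ :
        ↥(modularFunctionFieldBar (M' * p)))) :
    ∃ (w h : ↥(tres5cL (beta0Field A) (M' * p) y)) (γ : LaurentSeries NfQb)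
      (a : ↥(modularFunctionFieldFullC ↥(beta0Field A) (M' * p))),
      w ≠ 0 ∧ h ≠ 0 ∧ a ≠ 0 ∧ γ ∈ tres5cField (M' * p) y ∧ γ ≠ 0 ∧
      (u : LaurentSeries NfQb) =
        HahnSeries.C (u : LaurentSeries NfQb).leadingCoeff * γ ^ p *
          coeffMap (algebraMap ↥(beta0Field A) NfQb) (w : LaurentSeries ↥(beta0Field A)) ∧
      (∀ ρK : ↥(tres5cL (beta0Field A) (M' * p) y) →+* ↥(tres5cL (beta0Field A) (M' * p) y),
        (∀ f : ↥(tres5cL (beta0Field A) (M' * p) y),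
          coeffMap (algebraMap ↥(beta0Field A) NfQb)
            ((ρK f : ↥(tres5cL (beta0Field A) (M' * p) y)) : LaurentSeries ↥(beta0Field A)) =
              t (tres5cEmb (beta0Field A) (M' * p) y f)) →
        ρK w = algebraMap ↥(modularFunctionFieldFullC ↥(beta0Field A) (M' * p))
          ↥(tres5cL (beta0Field A) (M' * p) y) a * w * h ^ p) ∧
      (∀ c : Bool,
        (∃ m : ℤ, (mgvV hπ ιC hp hpM c).valuation
          (a / algebraMap ↥(beta0Ring A (beta0Field A))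
            ↥(modularFunctionFieldFullC ↥(beta0Field A) (M' * p)) π ^ m) = 1) ∧
        (p : ℤ) ∣ tres5Ord (mgvV hπ ιC hp hpM c)
          (algebraMap ↥(beta0Ring A (beta0Field A))
            ↥(modularFunctionFieldFullC ↥(beta0Field A) (M' * p)) π) a) ∧
      (∀ (alg : Algebra ↥(beta0Field A) ↥(tres5cL (beta0Field A) (M' * p) y)),
        (∀ c : ↥(beta0Field A),
          ((@algebraMap ↥(beta0Field A) ↥(tres5cL (beta0Field A) (M' * p) y) _ _ alg c :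
            ↥(tres5cL (beta0Field A) (M' * p) y)) : LaurentSeries ↥(beta0Field A)) =
              algebraMap ↥(beta0Field A) (LaurentSeries ↥(beta0Field A)) c) →
        ∀ P : @Place ↥(beta0Field A) ↥(tres5cL (beta0Field A) (M' * p) y) _ _ alg,
          (p : ℤ) ∣
            @Place.ord ↥(beta0Field A) ↥(tres5cL (beta0Field A) (M' * p) y) _ _ alg P w) := by
  obtain ⟨w, h, γ, a, hw0, hh0, ha0, hγF, hγ, hU, hdeck, hord, hhor⟩ :=
    tresdesck_up_all (N := N) (N' := M' * p) A hA hu hw hy hle hline hpeu t htmem htF hty htor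
      hdiv
  refine ⟨w, h, γ, a, hw0, hh0, ha0, hγF, hγ, hU, hdeck, fun c => ⟨?_, ?_⟩, hhor⟩
  · exact tresdesckv_hVa hπ ιC hp hpM c ha0
  · exact hord (mgvV hπ ιC hp hpM c) _ (tres5kiv_hπK hπ ιC hp hpM c) (tres5kiv_hπK0 hπ)
      (tres5kiv_hunifK hπ ιC hp hpM c)
      (fun υ hυ0 h1 h2 => tresdesckv_unit hπ ιC hp hpM c υ hυ0 h1 h2)

end All

end Fermat.Agent.R38

end
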