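/-
Row 38, TRES / FAC-DICT: the abstract NODE dictionary (helper14, for helper90's FACP-TR and
helper44's FAC-ASM).

Pure algebra, on top of `RIB/MP/RedDict.lean` (helper85).  `V` a valuation subring of `F` (a
vertical valuation), `ρ : V →+* L` its reduction map, `Q` a place of the residue function field
`L`, `O ⊆ F` a local ring of a chart contained in the composite of `V` and `Q`.

* `tresdn_fac` : **the node dictionary**.  If `y = ε · X ^ a · Y ^ b · γ ^ m` with `ε ∈ O^×`,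
  `v(y) = v(X) = 1`, `v(Y) < 1` and `v(γ) ∈ v(Y)^ℤ`, then
  `m ∣ ord_Q (ρ y) - a · ord_Q (ρ X)`  (and `m ∣ b`).
  At a thin node `X Y = π · unit` of a chart, `V` the branch `Y = 0`: `ρ X` is a local parameter
  at `Q`, so `ord_Q (ρ y) ≡ a mod m`.
* `tresdn_fac_dvr` : the same when `v(Y)` generates the value group of `V`.
* `tresdn_fac_smooth` : the smooth point `y = ε · ϖ ^ a · γ ^ m` (`v(ϖ) < 1` a generator):
  `m ∣ ord_Q (ρ y)`.
* `tresdn_chart` : `RIB.MP.ribmp_rd_chart` TOGETHER with the description of the centre: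
  `b ∈ 𝔫 ↔ ρ b ∈ 𝔪_Q` for `b` in the chart (places ↔ closed points).
* `tresdn_centre` : the centre of a place on the two charts `t`, `t⁻¹`; `ρ t ∉ O_Q` (a "cusp" for
  `t = j`) forces the chart `t⁻¹` and `t⁻¹ ∈ 𝔫`.
-/
import Fermat.Agent.RIB.MP.RedDict

set_option autoImplicit false
set_option linter.unusedSectionVars false
set_option linter.style.haveILetI false

noncomputable section

namespace Fermat.Agent.R38

open AlgebraicCurve Fermat.Agent.UNIP Fermat.Agent.STB Fermat.Agent.INJ Fermat.Agent.RIB.MP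

section Units

variable {F L : Type*} [Field F] [Field L]

theorem tresdn_ne_zero (V : ValuationSubring F) {x : F} (hx : V.valuation x = 1) : x ≠ 0 := by
  rintro rfl
  rw [map_zero] at hx
  exact zero_ne_one hx

theorem tresdn_mem (V : ValuationSubring F) {x : F} (hx : V.valuation x = 1) : x ∈ V :=
  (V.valuation_le_one_iff x).mp hx.le

theorem tresdn_inv_val (V : ValuationSubring F) {x : F} (hx : V.valuation x = 1) :
    V.valuation x⁻¹ = 1 := by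
  rw [map_inv₀, hx, inv_one]

/-- the unit of `V` attached to an element of valuation one -/
def tresdnUnit (V : ValuationSubring F) {x : F} (hx : V.valuation x = 1) : (↥V)ˣ :=
  ⟨⟨x, tresdn_mem V hx⟩, ⟨x⁻¹, tresdn_mem V (tresdn_inv_val V hx)⟩,
    Subtype.ext (mul_inv_cancel₀ (tresdn_ne_zero V hx)),
    Subtype.ext (inv_mul_cancel₀ (tresdn_ne_zero V hx))⟩

@[simp] theorem tresdnUnit_coe (V : ValuationSubring F) {x : F} (hx : V.valuation x = 1) :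
    (((tresdnUnit V hx : (↥V)ˣ) : ↥V) : F) = x := rfl

theorem tresdnUnit_zpow_coe (V : ValuationSubring F) {x : F} (hx : V.valuation x = 1) (n : ℤ) :
    ((((tresdnUnit V hx) ^ n : (↥V)ˣ) : ↥V) : F) = x ^ n := by
  have h := Units.val_zpow_eq_zpow_val
    (Units.map (V.subtype : ↥V →* F) (tresdnUnit V hx)) n
  rw [← map_zpow] at h
  exact h

theorem tresdn_val_zpow (V : ValuationSubring F) {x : F} (hx : V.valuation x = 1) (n : ℤ) :
    V.valuation (x ^ n) = 1 := by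
  rw [map_zpow₀, hx, one_zpow]

/-- `ρ` of an integer power of a unit of `V` -/
theorem tresdn_map_zpow (V : ValuationSubring F) (ρ : ↥V →+* L) {x : F}
    (hx : V.valuation x = 1) (n : ℤ) :
    ρ ⟨x ^ n, tresdn_mem V (tresdn_val_zpow V hx n)⟩ = ρ ⟨x, tresdn_mem V hx⟩ ^ n := by
  have h := Units.val_zpow_eq_zpow_val
    (Units.map (ρ : ↥V →* L) (tresdnUnit V hx)) n
  rw [← map_zpow] at h
  have e : (⟨x ^ n, tresdn_mem V (tresdn_val_zpow V hx n)⟩ : ↥V) =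
      (((tresdnUnit V hx) ^ n : (↥V)ˣ) : ↥V) := Subtype.ext (tresdnUnit_zpow_coe V hx n).symm
  rw [e]
  exact h

theorem tresdn_map_ne_zero (V : ValuationSubring F) (ρ : ↥V →+* L) {x : F}
    (hx : V.valuation x = 1) : ρ ⟨x, tresdn_mem V hx⟩ ≠ 0 := by
  have h : IsUnit (ρ ((tresdnUnit V hx : (↥V)ˣ) : ↥V)) := (Units.isUnit _).map ρ
  exact h.ne_zero

/-- an element of valuation `< 1` (and `≠ 0`) has no nonzero integer power of valuation `1` -/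
theorem tresdn_zpow_eq_one (V : ValuationSubring F) {Y : F} (hY : V.valuation Y < 1)
    (hY0 : Y ≠ 0) {n : ℤ} (h : V.valuation Y ^ n = 1) : n = 0 := by
  have hv0 : V.valuation Y ≠ 0 := (map_ne_zero _).mpr hY0
  have hpos : ∀ k : ℕ, 0 < k → V.valuation Y ^ k < 1 := fun k hk =>
    pow_lt_one₀ zero_le hY hk.ne'
  rcases lt_trichotomy n 0 with hn | hn | hn
  · exfalso
    obtain ⟨k, hk⟩ : ∃ k : ℕ, n = -(k : ℤ) := ⟨n.natAbs, by omega⟩
    have hk0 : 0 < k := by omega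
    rw [hk, zpow_neg, zpow_natCast, inv_eq_one] at h
    exact (hpos k hk0).ne h
  · exact hn
  · exfalso
    obtain ⟨k, hk⟩ : ∃ k : ℕ, n = (k : ℤ) := ⟨n.natAbs, by omega⟩
    have hk0 : 0 < k := by omega
    rw [hk, zpow_natCast] at h
    exact (hpos k hk0).ne h

end Units

section Fac

variable {F L : Type*} [Field F] [Field L] {k : Type*} [Field k] [Algebra k L]

/-- a unit of `O ⊆ comp(V, Q)` has valuation one at `V` and its reduction has order `0` at `Q` -/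
theorem tresdn_unit (V : ValuationSubring F) (ρ : ↥V →+* L) (Q : Place k L) (O : Subring F)
    (hO : ∀ x ∈ O, ∃ hx : x ∈ V, ρ ⟨x, hx⟩ ∈ Q.toValuationSubring)
    (ε : O) (hε : IsUnit ε) :
    ∃ hv : V.valuation (ε : F) = 1, Q.ord (ρ ⟨(ε : F), tresdn_mem V hv⟩) = 0 := by
  obtain ⟨ε', hεε'⟩ := hε.exists_right_inv
  have hεε'F : (ε : F) * (ε' : F) = 1 := by
    have := congrArg (fun z : ↥O => (z : F)) hεε'
    simpa using this
  obtain ⟨hεV, hεQ⟩ := hO ε ε.2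
  obtain ⟨hε'V, hε'Q⟩ := hO ε' ε'.2
  have hρεε' : ρ ⟨ε, hεV⟩ * ρ ⟨ε', hε'V⟩ = 1 := by
    have e : (⟨(ε : F), hεV⟩ : ↥V) * ⟨(ε' : F), hε'V⟩ = 1 := Subtype.ext hεε'F
    rw [← map_mul, e, map_one]
  let uQ : (Q.toValuationSubring)ˣ :=
    ⟨⟨ρ ⟨ε, hεV⟩, hεQ⟩, ⟨ρ ⟨ε', hε'V⟩, hε'Q⟩, Subtype.ext hρεε',
      Subtype.ext (by rw [mul_comm]; exact hρεε')⟩
  have hordε : Q.ord (ρ ⟨ε, hεV⟩) = 0 := Q.ord_coe_unit uQ
  have hvε : V.valuation (ε : F) = 1 := by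
    have h1 : V.valuation (ε : F) ≤ 1 := (V.valuation_le_one_iff _).mpr hεV
    have h2 : V.valuation (ε' : F) ≤ 1 := (V.valuation_le_one_iff _).mpr hε'V
    have h3 : V.valuation (ε : F) * V.valuation (ε' : F) = 1 := by
      rw [← map_mul, hεε'F, map_one]
    refine le_antisymm h1 ?_
    by_contra hlt
    rw [not_le] at hlt
    have : V.valuation (ε : F) * V.valuation (ε' : F) < 1 :=
      calc V.valuation (ε : F) * V.valuation (ε' : F) ≤ V.valuation (ε : F) * 1 := by gcongr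
        _ = V.valuation (ε : F) := mul_one _
        _ < 1 := hlt
    rw [h3] at this
    exact lt_irrefl _ this
  exact ⟨hvε, hordε⟩

/-- **The node dictionary.**  `y = ε · X ^ a · Y ^ b · γ ^ m`, `ε` a unit of `O ⊆ comp(V, Q)`,
`X` and `y` units of `V`, `Y ∈ 𝔪_V`, `v(γ) ∈ v(Y)^ℤ`:
`m ∣ b` and `m ∣ ord_Q (ρ y) - a · ord_Q (ρ X)`. -/
theorem tresdn_fac (V : ValuationSubring F) (ρ : ↥V →+* L) (Q : Place k L) (O : Subring F)
    (hO : ∀ x ∈ O, ∃ hx : x ∈ V, ρ ⟨x, hx⟩ ∈ Q.toValuationSubring)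
    {m : ℕ} {y X Y γ : F} (ε : O) (hε : IsUnit ε) (a b : ℤ)
    (hy : V.valuation y = 1) (hX : V.valuation X = 1)
    (hY : V.valuation Y < 1) (hY0 : Y ≠ 0)
    (hγ : ∃ c : ℤ, V.valuation γ = V.valuation Y ^ c)
    (hfac : y = (ε : F) * X ^ a * Y ^ b * γ ^ m) :
    (m : ℤ) ∣ b ∧
      (m : ℤ) ∣ Q.ord (ρ ⟨y, tresdn_mem V hy⟩) - a * Q.ord (ρ ⟨X, tresdn_mem V hX⟩) := by
  obtain ⟨hvε, hordε⟩ := tresdn_unit V ρ Q O hO ε hε
  obtain ⟨c, hc⟩ := hγ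
  -- `γ' = γ Y^{-c}` is a unit of `V`
  have hvγ' : V.valuation (γ * Y ^ (-c)) = 1 := by
    have hv0 : V.valuation Y ≠ 0 := (map_ne_zero _).mpr hY0
    rw [map_mul, map_zpow₀, hc, ← zpow_add₀ hv0, add_neg_cancel, zpow_zero]
  have hγeq : γ = (γ * Y ^ (-c)) * Y ^ c := by
    rw [mul_assoc, ← zpow_add₀ hY0, neg_add_cancel, zpow_zero, mul_one]
  have hfac' : y = (ε : F) * X ^ a * (γ * Y ^ (-c)) ^ m * Y ^ (b + m * c) := by
    have h1 : γ ^ m = (γ * Y ^ (-c)) ^ m * Y ^ ((m : ℤ) * c) := by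
      conv_lhs => rw [hγeq]
      rw [mul_pow, ← zpow_natCast (Y ^ c) m, ← zpow_mul, mul_comm c (m : ℤ)]
    rw [hfac, h1, zpow_add₀ hY0]
    ring
  -- the exponent of `Y` vanishes
  have hexp : b + m * c = 0 := by
    refine tresdn_zpow_eq_one V hY hY0 ?_
    have h2 := congrArg V.valuation hfac'
    rw [hy, map_mul, map_mul, map_mul, hvε, one_mul, map_zpow₀ _ X, hX, one_zpow, one_mul,
      map_pow, hvγ', one_pow, one_mul, map_zpow₀] at h2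
    exact h2.symm
  have hbm : (m : ℤ) ∣ b := ⟨-c, by linarith⟩
  refine ⟨hbm, ?_⟩
  have hfac'' : y = (ε : F) * X ^ a * (γ * Y ^ (-c)) ^ m := by
    rw [hfac', hexp, zpow_zero, mul_one]
  have hρy : ρ ⟨y, tresdn_mem V hy⟩ = ρ ⟨(ε : F), tresdn_mem V hvε⟩ *
      ρ ⟨X, tresdn_mem V hX⟩ ^ a * ρ ⟨γ * Y ^ (-c), tresdn_mem V hvγ'⟩ ^ m := by
    have e : (⟨y, tresdn_mem V hy⟩ : ↥V) = ⟨(ε : F), tresdn_mem V hvε⟩ *
        ⟨X ^ a, tresdn_mem V (tresdn_val_zpow V hX a)⟩ *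
        ⟨γ * Y ^ (-c), tresdn_mem V hvγ'⟩ ^ m := Subtype.ext (by simpa using hfac'')
    rw [e, map_mul, map_mul, map_pow, tresdn_map_zpow V ρ hX a]
  have h0ε := tresdn_map_ne_zero V ρ hvε
  have h0X := tresdn_map_ne_zero V ρ hX
  have h0γ := tresdn_map_ne_zero V ρ hvγ'
  rw [hρy, Q.ord_mul (mul_ne_zero h0ε (zpow_ne_zero _ h0X)) (pow_ne_zero _ h0γ),
    Q.ord_mul h0ε (zpow_ne_zero _ h0X), hordε, zero_add, Q.ord_zpow]
  have := Q.ord_zpow (ρ ⟨γ * Y ^ (-c), tresdn_mem V hvγ'⟩) (m : ℤ)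
  rw [zpow_natCast] at this
  rw [this]
  exact ⟨Q.ord (ρ ⟨γ * Y ^ (-c), tresdn_mem V hvγ'⟩), by ring⟩

/-- the node dictionary when `v(Y)` generates the value group of `V` -/
theorem tresdn_fac_dvr (V : ValuationSubring F) (ρ : ↥V →+* L) (Q : Place k L) (O : Subring F)
    (hO : ∀ x ∈ O, ∃ hx : x ∈ V, ρ ⟨x, hx⟩ ∈ Q.toValuationSubring)
    {m : ℕ} (hm : 0 < m) {y X Y γ : F} (ε : O) (hε : IsUnit ε) (a b : ℤ)
    (hy : V.valuation y = 1) (hX : V.valuation X = 1)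
    (hY : V.valuation Y < 1) (hY0 : Y ≠ 0)
    (hgen : ∀ z : F, z ≠ 0 → ∃ c : ℤ, V.valuation z = V.valuation Y ^ c)
    (hfac : y = (ε : F) * X ^ a * Y ^ b * γ ^ m) :
    (m : ℤ) ∣ b ∧
      (m : ℤ) ∣ Q.ord (ρ ⟨y, tresdn_mem V hy⟩) - a * Q.ord (ρ ⟨X, tresdn_mem V hX⟩) := by
  have hγ0 : γ ≠ 0 := by
    rintro rfl
    rw [zero_pow hm.ne', mul_zero] at hfac
    exact tresdn_ne_zero V hy hfac
  exact tresdn_fac V ρ Q O hO ε hε a b hy hX hY hY0 (hgen γ hγ0) hfac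

/-- the smooth point: `y = ε · ϖ ^ a · γ ^ m`, `v(ϖ) < 1` a generator of the value group:
`m ∣ a` and `m ∣ ord_Q (ρ y)`. -/
theorem tresdn_fac_smooth (V : ValuationSubring F) (ρ : ↥V →+* L) (Q : Place k L)
    (O : Subring F)
    (hO : ∀ x ∈ O, ∃ hx : x ∈ V, ρ ⟨x, hx⟩ ∈ Q.toValuationSubring)
    {m : ℕ} (hm : 0 < m) {y ϖ γ : F} (ε : O) (hε : IsUnit ε) (a : ℤ)
    (hy : V.valuation y = 1) (hϖ : V.valuation ϖ < 1) (hϖ0 : ϖ ≠ 0)
    (hgen : ∀ z : F, z ≠ 0 → ∃ c : ℤ, V.valuation z = V.valuation ϖ ^ c)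
    (hfac : y = (ε : F) * ϖ ^ a * γ ^ m) :
    (m : ℤ) ∣ a ∧ (m : ℤ) ∣ Q.ord (ρ ⟨y, tresdn_mem V hy⟩) := by
  have h1 : V.valuation (1 : F) = 1 := map_one _
  have hfac' : y = (ε : F) * (1 : F) ^ (0 : ℤ) * ϖ ^ a * γ ^ m := by
    rw [hfac, zpow_zero, mul_one]
  have := tresdn_fac_dvr V ρ Q O hO hm ε hε 0 a hy h1 hϖ hϖ0 hgen hfac'
  rw [zero_mul, sub_zero] at this
  exact this

end Fac

section Chart

variable {A₀ E F : Type*} [CommRing A₀] [IsDomain A₀] [IsDiscreteValuationRing A₀]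
  [Field E] [Algebra A₀ E] [IsFractionRing A₀ E] [CharZero E]
  [Field F] [Algebra E F] [Algebra A₀ F] [IsScalarTower A₀ E F]
  {L : Type*} [Field L]

/-- **The centre on a chart, with its description** (`RIB.MP.ribmp_rd_chart` + `hmem`).  If the
chart coordinate `u` lies in the composite of `V` and `O`, the centre of the composite on the
chart `B_u` is a closed point `𝔫` of the special fibre, `(B_u)_𝔫` lies in the composite, and
`b ∈ 𝔫 ↔ ρ b ∈ 𝔪_O` for `b ∈ B_u`. -/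
theorem tresdn_chart {π : A₀} (V : ValuationSubring F) (ρ : ↥V →+* L)
    (hker : ∀ x : ↥V, (x : F) ∈ V.nonunits → ρ x = 0)
    (hAV : ∀ a : A₀, algebraMap A₀ F a ∈ V)
    (hπ : ρ ⟨algebraMap A₀ F π, hAV π⟩ = 0)
    (O : ValuationSubring L)
    (hAQ : ∀ a : A₀, ρ ⟨algebraMap A₀ F a, hAV a⟩ ∈ O)
    (hfin : ∀ x ∈ O, x ∉ O.nonunits → ∃ n : ℕ, 0 < n ∧ x ^ n - 1 ∈ O.nonunits)
    {u : F} (hu : u ∈ V) (hρu : ρ ⟨u, hu⟩ ∈ O) :
    ∃ 𝔫 : AtPt (F := F) π u, (∀ x ∈ atLoc 𝔫, ∃ hx : x ∈ V, ρ ⟨x, hx⟩ ∈ O) ∧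
      ∀ b : ↥(zchClosure (A₀ := A₀) ({u} : Set F)),
        b ∈ 𝔫.1 ↔ ∃ hb : (b : F) ∈ V, ρ ⟨(b : F), hb⟩ ∈ O.nonunits := by
  set T : ValuationSubring F := ribmp_rd_comp V ρ O hker with hT
  let TA : Subalgebra A₀ F :=
    { T.toSubring with
      algebraMap_mem' := fun a => ⟨hAV a, hAQ a⟩ }
  have hadj : Algebra.adjoin A₀ ({u} : Set F) ≤ TA :=
    Algebra.adjoin_le (Set.singleton_subset_iff.mpr ⟨hu, hρu⟩)
  have hBT : ∀ b : ↥(zchClosure (A₀ := A₀) ({u} : Set F)), (b : F) ∈ T := fun b =>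
    crossing_mem_of_isIntegral T (Algebra.adjoin A₀ ({u} : Set F)) (fun x hx => hadj hx)
      (mem_zchClosure.mp b.2)
  let incl : ↥(zchClosure (A₀ := A₀) ({u} : Set F)) →+* ↥V :=
    (algebraMap ↥(zchClosure (A₀ := A₀) ({u} : Set F)) F).codRestrict V.toSubring
      (fun b => (hBT b).fst)
  let φ : ↥(zchClosure (A₀ := A₀) ({u} : Set F)) →+* ↥O :=
    (ρ.comp incl).codRestrict O.toSubring (fun b => (hBT b).snd)
  have hφ : ∀ b, ((φ b : ↥O) : L) = ρ ⟨(b : F), (hBT b).fst⟩ := fun b => rfl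
  let 𝔫 : Ideal ↥(zchClosure (A₀ := A₀) ({u} : Set F)) :=
    Ideal.comap φ (IsLocalRing.maximalIdeal ↥O)
  have hmem : ∀ b, b ∈ 𝔫 ↔ ρ ⟨(b : F), (hBT b).fst⟩ ∈ O.nonunits := by
    intro b
    rw [← hφ b, ValuationSubring.coe_mem_nonunits_iff]
    exact Iff.rfl
  have hmax : 𝔫.IsMaximal := by
    rw [Ideal.isMaximal_iff]
    refine ⟨fun h1 => ?_, fun J x hJ hx hxJ => ?_⟩
    · have : φ 1 ∈ IsLocalRing.maximalIdeal ↥O := h1
      rw [map_one] at this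
      exact (IsLocalRing.maximalIdeal.isMaximal ↥O).ne_top
        ((Ideal.eq_top_iff_one _).mpr this)
    · have hx' : ρ ⟨(x : F), (hBT x).fst⟩ ∉ O.nonunits := fun h => hx ((hmem x).mpr h)
      obtain ⟨n, hn, hpow⟩ := hfin _ (hBT x).snd hx'
      have h1 : x ^ n - 1 ∈ 𝔫 := by
        change φ (x ^ n - 1) ∈ IsLocalRing.maximalIdeal ↥O
        rw [← ValuationSubring.coe_mem_nonunits_iff, map_sub, map_pow, map_one]
        push_cast
        rw [hφ x]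
        exact hpow
      have h2 : x ^ n ∈ J := Ideal.pow_mem_of_mem J hxJ n hn
      have h3 : (1 : ↥(zchClosure (A₀ := A₀) ({u} : Set F))) = x ^ n - (x ^ n - 1) := by ring
      rw [h3]
      exact J.sub_mem h2 (hJ h1)
  have hπ𝔫 : algebraMap A₀ ↥(zchClosure (A₀ := A₀) ({u} : Set F)) π ∈ 𝔫 := by
    rw [hmem]
    have e : (⟨((algebraMap A₀ ↥(zchClosure (A₀ := A₀) ({u} : Set F)) π :
        ↥(zchClosure (A₀ := A₀) ({u} : Set F))) : F), (hBT _).fst⟩ : ↥V) =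
        ⟨algebraMap A₀ F π, hAV π⟩ := Subtype.ext rfl
    rw [e, hπ]
    rw [ValuationSubring.mem_nonunits_iff, map_zero]
    exact zero_lt_one
  refine ⟨⟨𝔫, hmax, hπ𝔫⟩, ?_, fun b => ⟨fun hb => ⟨(hBT b).fst, (hmem b).mp hb⟩,
    fun ⟨_, hb⟩ => (hmem b).mpr hb⟩⟩
  rintro x ⟨b, s, hs, hsx⟩
  have hs' : ρ ⟨(s : F), (hBT s).fst⟩ ∉ O.nonunits := fun h => hs ((hmem s).mpr h)
  have hρs0 : ρ ⟨(s : F), (hBT s).fst⟩ ≠ 0 := by
    intro h
    apply hs'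
    rw [h, ValuationSubring.mem_nonunits_iff, map_zero]
    exact zero_lt_one
  have hs0 : (s : F) ≠ 0 := by
    intro h
    apply hρs0
    have e : (⟨(s : F), (hBT s).fst⟩ : ↥V) = 0 := Subtype.ext h
    rw [e, map_zero]
  have hsiV : (s : F)⁻¹ ∈ V := ribmp_rd_inv_mem V ρ hker (hBT s).fst hρs0
  have hρsi : ρ ⟨(s : F)⁻¹, hsiV⟩ ∈ O := by
    rw [ribmp_rd_map_inv V ρ (hBT s).fst hsiV hs0]
    have hv : O.valuation (ρ ⟨(s : F), (hBT s).fst⟩) = 1 := by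
      refine le_antisymm ((O.valuation_le_one_iff _).mpr (hBT s).snd) ?_
      rw [ValuationSubring.mem_nonunits_iff, not_lt] at hs'
      exact hs'
    rw [← O.valuation_le_one_iff, map_inv₀, hv, inv_one]
  have hx : x = (b : F) * (s : F)⁻¹ := by
    have h1 : (s : F) * x = (b : F) := hsx
    rw [← h1]
    field_simp
  have hxT : x ∈ T := by
    rw [hx]
    exact T.mul_mem _ _ (hBT b) ⟨hsiV, hρsi⟩
  exact hxT

end Chart

section Centre

variable {A₀ E F : Type*} [CommRing A₀] [IsDomain A₀] [IsDiscreteValuationRing A₀]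
  [Field E] [Algebra A₀ E] [IsFractionRing A₀ E] [CharZero E]
  [Field F] [Algebra E F] [Algebra A₀ F] [IsScalarTower A₀ E F]
  {k L : Type*} [Field k] [Field L] [Algebra k L]

/-- **Places ↔ closed points.**  A place `Q` of the residue function field has a centre on one
of the two charts `t`, `t⁻¹`: on the chart `t` if `ρ t ∈ O_Q`; on the chart `t⁻¹`, at a point
containing the coordinate `t⁻¹`, if `ρ t ∉ O_Q` (the "cusps" for `t = j`). -/
theorem tresdn_centre {π : A₀} {t : F} (V : ValuationSubring F) (ρ : ↥V →+* L)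
    (hker : ∀ x : ↥V, (x : F) ∈ V.nonunits → ρ x = 0)
    (hAV : ∀ a : A₀, algebraMap A₀ F a ∈ V)
    (hπ : ρ ⟨algebraMap A₀ F π, hAV π⟩ = 0)
    (ht : V.valuation t = 1)
    (Q : Place k L)
    (hAQ : ∀ a : A₀, ρ ⟨algebraMap A₀ F a, hAV a⟩ ∈ Q.toValuationSubring)
    (hfin : ∀ x ∈ Q.toValuationSubring, x ∉ Q.toValuationSubring.nonunits →
      ∃ n : ℕ, 0 < n ∧ x ^ n - 1 ∈ Q.toValuationSubring.nonunits) :
    (ρ ⟨t, tresdn_mem V ht⟩ ∈ Q.toValuationSubring →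
      ∃ 𝔫 : AtPt (F := F) π t,
        (∀ x ∈ atLoc 𝔫, ∃ hx : x ∈ V, ρ ⟨x, hx⟩ ∈ Q.toValuationSubring) ∧
        ∀ b : ↥(zchClosure (A₀ := A₀) ({t} : Set F)),
          b ∈ 𝔫.1 ↔ ∃ hb : (b : F) ∈ V, ρ ⟨(b : F), hb⟩ ∈ Q.toValuationSubring.nonunits) ∧
    (ρ ⟨t, tresdn_mem V ht⟩ ∉ Q.toValuationSubring →
      ∃ 𝔫 : AtPt (F := F) π t⁻¹,
        (∀ x ∈ atLoc 𝔫, ∃ hx : x ∈ V, ρ ⟨x, hx⟩ ∈ Q.toValuationSubring) ∧
        (∀ b : ↥(zchClosure (A₀ := A₀) ({t⁻¹} : Set F)),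
          b ∈ 𝔫.1 ↔ ∃ hb : (b : F) ∈ V, ρ ⟨(b : F), hb⟩ ∈ Q.toValuationSubring.nonunits) ∧
        ∀ b : ↥(zchClosure (A₀ := A₀) ({t⁻¹} : Set F)), (b : F) = t⁻¹ → b ∈ 𝔫.1) := by
  have htV : t ∈ V := tresdn_mem V ht
  have htiV : t⁻¹ ∈ V := tresdn_mem V (tresdn_inv_val V ht)
  have ht0 : t ≠ 0 := tresdn_ne_zero V ht
  refine ⟨fun h => ?_, fun h => ?_⟩
  · exact tresdn_chart (π := π) V ρ hker hAV hπ Q.toValuationSubring hAQ hfin htV h
  · have hinv : ρ ⟨t⁻¹, htiV⟩ = (ρ ⟨t, htV⟩)⁻¹ := ribmp_rd_map_inv V ρ htV htiV ht0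
    have hmemi : ρ ⟨t⁻¹, htiV⟩ ∈ Q.toValuationSubring := by
      rw [hinv]
      exact (Q.toValuationSubring.mem_or_inv_mem _).resolve_left h
    obtain ⟨𝔫, h𝔫, hmem⟩ :=
      tresdn_chart (π := π) V ρ hker hAV hπ Q.toValuationSubring hAQ hfin htiV hmemi
    refine ⟨𝔫, h𝔫, hmem, fun b hb => ?_⟩
    have hbV : (b : F) ∈ V := by rw [hb]; exact htiV
    refine (hmem b).mpr ⟨hbV, ?_⟩
    have e : (⟨(b : F), hbV⟩ : ↥V) = ⟨t⁻¹, htiV⟩ := Subtype.ext hb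
    rw [e, hinv, ValuationSubring.mem_nonunits_iff, map_inv₀]
    have h1 : ¬ Q.toValuationSubring.valuation (ρ ⟨t, htV⟩) ≤ 1 := fun h' =>
      h ((Q.toValuationSubring.valuation_le_one_iff _).mp h')
    rw [not_le] at h1
    exact inv_lt_one_of_one_lt₀ h1

end Centre

end Fermat.Agent.R38
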