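/-
Row 38, TRES / FAC-TR (T2): the PAIR dictionary at a crossing point (helper14, for helper90's
`tresft_pair` and helper89's FAC-ASM).

Abstract frame of `R38/TresDictNode.lean`: `V` a valuation subring of `F` (one sheet / branch)
with uniformizer `ϖ`, `ρ : V →+* L`, `Q` a place of `L`, `O ⊆ comp(V, Q)` the local ring at the
centre of `Q`.  Crossing point: `X · Y = w · ϖ` with `w ∈ O^×`, `Y` a unit of `V` (so `X` is a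
uniformizer of `V`).

* `tresdn_cross` : `y = ε · X ^ a · Y ^ b · γ ^ m`, `v(y) = v(ϖ) ^ n` ⇒
  `m ∣ ord_Q ρ(y / ϖ ^ n) - (b - a) · ord_Q ρ(Y)`.
* `tresdn_cross_exact` : `h = ε′ · X ^ a′ · Y ^ b′` ⇒ `ord_Q ρ(h / ϖ ^ a′) = (b′ - a′) · ord_Q ρ(Y)`.
* `tresdn_pair_cross` : both together,
  `m ∣ (b′ - a′) · ord_Q ρ(y / ϖ ^ n) - (b - a) · ord_Q ρ(h / ϖ ^ n′)`
  (no thickness and no `ord_Q ρ(Y)` in the output).
* `tresdn_smooth` / `tresdn_smooth_exact` : the smooth point, `y = ε · ϖ ^ a · γ ^ m` ⇒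
  `m ∣ ord_Q ρ(y / ϖ ^ n)`; `h = ε′ · ϖ ^ a′` ⇒ `ord_Q ρ(h / ϖ ^ a′) = 0`.
-/
import Fermat.Agent.R38.TresDictNode

set_option autoImplicit false
set_option linter.unusedSectionVars false
set_option linter.style.haveILetI false

noncomputable section

namespace Fermat.Agent.R38

open AlgebraicCurve Fermat.Agent.RIB.MP

section Pair

variable {F L : Type*} [Field F] [Field L] {k : Type*} [Field k] [Algebra k L]

/-- integer powers of a unit of a subring, in the field -/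
theorem tresdn_unit_zpow_coe (O : Subring F) (w : Oˣ) (n : ℤ) :
    (((w ^ n : Oˣ) : O) : F) = ((w : O) : F) ^ n := by
  have h := Units.val_zpow_eq_zpow_val (Units.map (O.subtype : ↥O →* F) w) n
  rw [← map_zpow] at h
  exact h

/-- the valuation of `y / ϖ ^ n` is one if `v(y) = v(ϖ) ^ n` -/
theorem tresdn_div_val (V : ValuationSubring F) {y ϖ : F} (hϖ0 : ϖ ≠ 0) {n : ℤ}
    (hn : V.valuation y = V.valuation ϖ ^ n) : V.valuation (y / ϖ ^ n) = 1 := by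
  have hv0 : V.valuation ϖ ≠ 0 := (map_ne_zero _).mpr hϖ0
  rw [map_div₀, map_zpow₀, hn, div_self (zpow_ne_zero _ hv0)]

/-- **Crossing point, one function.**  `X Y = w ϖ`, `w ∈ O^×`, `Y ∈ V^×`,
`y = ε X ^ a Y ^ b γ ^ m`, `v(y) = v(ϖ) ^ n`:
`m ∣ a - n` and `m ∣ ord_Q ρ(y / ϖ ^ n) - (b - a) ord_Q ρ(Y)`. -/
theorem tresdn_cross (V : ValuationSubring F) (ρ : ↥V →+* L) (Q : Place k L) (O : Subring F)
    (hO : ∀ x ∈ O, ∃ hx : x ∈ V, ρ ⟨x, hx⟩ ∈ Q.toValuationSubring)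
    {m : ℕ} (hm : 0 < m) {y X Y ϖ γ : F} (w ε : O) (hw : IsUnit w) (hε : IsUnit ε)
    (a b n : ℤ)
    (hϖ : V.valuation ϖ < 1) (hϖ0 : ϖ ≠ 0)
    (hgen : ∀ z : F, z ≠ 0 → ∃ c : ℤ, V.valuation z = V.valuation ϖ ^ c)
    (hY : V.valuation Y = 1) (hXY : X * Y = (w : F) * ϖ)
    (hn : V.valuation y = V.valuation ϖ ^ n)
    (hfac : y = (ε : F) * X ^ a * Y ^ b * γ ^ m) :
    (m : ℤ) ∣ a - n ∧
      (m : ℤ) ∣ Q.ord (ρ ⟨y / ϖ ^ n, tresdn_mem V (tresdn_div_val V hϖ0 hn)⟩) -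
        (b - a) * Q.ord (ρ ⟨Y, tresdn_mem V hY⟩) := by
  have hY0 : Y ≠ 0 := tresdn_ne_zero V hY
  have hX : X = (w : F) * ϖ * Y⁻¹ := by
    rw [← hXY, mul_assoc, mul_inv_cancel₀ hY0, mul_one]
  -- the new unit `ε w ^ a`
  set ε' : O := ε * ((hw.unit ^ a : Oˣ) : O) with hε'
  have hε'u : IsUnit ε' := hε.mul (Units.isUnit _)
  have hε'c : (ε' : F) = (ε : F) * (w : F) ^ a := by
    rw [hε', Subring.coe_mul, tresdn_unit_zpow_coe O hw.unit a, IsUnit.unit_spec]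
  have hfac' : y / ϖ ^ n = (ε' : F) * Y ^ (b - a) * ϖ ^ (a - n) * γ ^ m := by
    rw [hfac, hX, hε'c, mul_zpow, mul_zpow, zpow_sub₀ hY0, zpow_sub₀ hϖ0, inv_zpow]
    field_simp
  have := tresdn_fac_dvr V ρ Q O hO hm ε' hε'u (b - a) (a - n)
    (tresdn_div_val V hϖ0 hn) hY hϖ hϖ0 hgen hfac'
  exact this

/-- **Crossing point, exact form** (`m = 0`): `h = ε X ^ a Y ^ b` ⇒
`ord_Q ρ(h / ϖ ^ a) = (b - a) ord_Q ρ(Y)`. -/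
theorem tresdn_cross_exact (V : ValuationSubring F) (ρ : ↥V →+* L) (Q : Place k L)
    (O : Subring F)
    (hO : ∀ x ∈ O, ∃ hx : x ∈ V, ρ ⟨x, hx⟩ ∈ Q.toValuationSubring)
    {h X Y ϖ : F} (w ε : O) (hw : IsUnit w) (hε : IsUnit ε) (a b : ℤ)
    (hϖ0 : ϖ ≠ 0)
    (hY : V.valuation Y = 1) (hXY : X * Y = (w : F) * ϖ)
    (hfac : h = (ε : F) * X ^ a * Y ^ b) :
    ∃ hv : V.valuation (h / ϖ ^ a) = 1,
      Q.ord (ρ ⟨h / ϖ ^ a, tresdn_mem V hv⟩) = (b - a) * Q.ord (ρ ⟨Y, tresdn_mem V hY⟩) := by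
  have hY0 : Y ≠ 0 := tresdn_ne_zero V hY
  have hX : X = (w : F) * ϖ * Y⁻¹ := by
    rw [← hXY, mul_assoc, mul_inv_cancel₀ hY0, mul_one]
  set ε' : O := ε * ((hw.unit ^ a : Oˣ) : O) with hε'
  have hε'u : IsUnit ε' := hε.mul (Units.isUnit _)
  have hε'c : (ε' : F) = (ε : F) * (w : F) ^ a := by
    rw [hε', Subring.coe_mul, tresdn_unit_zpow_coe O hw.unit a, IsUnit.unit_spec]
  obtain ⟨hvε, hordε⟩ := tresdn_unit V ρ Q O hO ε' hε'u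
  have hfac' : h / ϖ ^ a = (ε' : F) * Y ^ (b - a) := by
    rw [hfac, hX, hε'c, mul_zpow, mul_zpow, zpow_sub₀ hY0, inv_zpow]
    field_simp
  have hv : V.valuation (h / ϖ ^ a) = 1 := by
    rw [hfac', map_mul, hvε, one_mul, tresdn_val_zpow V hY]
  refine ⟨hv, ?_⟩
  have e : (⟨h / ϖ ^ a, tresdn_mem V hv⟩ : ↥V) = ⟨(ε' : F), tresdn_mem V hvε⟩ *
      ⟨Y ^ (b - a), tresdn_mem V (tresdn_val_zpow V hY (b - a))⟩ := Subtype.ext hfac'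
  rw [e, map_mul, tresdn_map_zpow V ρ hY (b - a),
    Q.ord_mul (tresdn_map_ne_zero V ρ hvε) (zpow_ne_zero _ (tresdn_map_ne_zero V ρ hY)),
    hordε, zero_add, Q.ord_zpow]

/-- **(T2) cross: the pair dictionary.**  At a crossing point `X Y = w ϖ` the two functions
`y = ε X ^ a Y ^ b γ ^ m` and `h = ε′ X ^ a′ Y ^ b′` satisfy
`m ∣ (b′ - a′) ord_Q ρ(y / ϖ ^ n) - (b - a) ord_Q ρ(h / ϖ ^ a′)`. -/
theorem tresdn_pair_cross (V : ValuationSubring F) (ρ : ↥V →+* L) (Q : Place k L)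
    (O : Subring F)
    (hO : ∀ x ∈ O, ∃ hx : x ∈ V, ρ ⟨x, hx⟩ ∈ Q.toValuationSubring)
    {m : ℕ} (hm : 0 < m) {y h X Y ϖ γ : F} (w ε ε' : O) (hw : IsUnit w) (hε : IsUnit ε)
    (hε' : IsUnit ε') (a b n a' b' : ℤ)
    (hϖ : V.valuation ϖ < 1) (hϖ0 : ϖ ≠ 0)
    (hgen : ∀ z : F, z ≠ 0 → ∃ c : ℤ, V.valuation z = V.valuation ϖ ^ c)
    (hY : V.valuation Y = 1) (hXY : X * Y = (w : F) * ϖ)
    (hn : V.valuation y = V.valuation ϖ ^ n)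
    (hfy : y = (ε : F) * X ^ a * Y ^ b * γ ^ m)
    (hfh : h = (ε' : F) * X ^ a' * Y ^ b') :
    ∃ hv : V.valuation (h / ϖ ^ a') = 1,
      (m : ℤ) ∣ (b' - a') * Q.ord (ρ ⟨y / ϖ ^ n, tresdn_mem V (tresdn_div_val V hϖ0 hn)⟩) -
        (b - a) * Q.ord (ρ ⟨h / ϖ ^ a', tresdn_mem V hv⟩) := by
  obtain ⟨_, h1⟩ := tresdn_cross V ρ Q O hO hm w ε hw hε a b n hϖ hϖ0 hgen hY hXY hn hfy
  obtain ⟨hv, h2⟩ := tresdn_cross_exact V ρ Q O hO w ε' hw hε' a' b' hϖ0 hY hXY hfh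
  refine ⟨hv, ?_⟩
  rw [h2]
  obtain ⟨t, ht⟩ := h1
  refine ⟨(b' - a') * t, ?_⟩
  have : Q.ord (ρ ⟨y / ϖ ^ n, tresdn_mem V (tresdn_div_val V hϖ0 hn)⟩) =
      (b - a) * Q.ord (ρ ⟨Y, tresdn_mem V hY⟩) + m * t := by linarith
  rw [this]
  ring

/-- **Smooth point, one function**: `y = ε ϖ ^ a γ ^ m`, `v(y) = v(ϖ) ^ n` ⇒
`m ∣ a - n` and `m ∣ ord_Q ρ(y / ϖ ^ n)`. -/
theorem tresdn_smooth (V : ValuationSubring F) (ρ : ↥V →+* L) (Q : Place k L) (O : Subring F)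
    (hO : ∀ x ∈ O, ∃ hx : x ∈ V, ρ ⟨x, hx⟩ ∈ Q.toValuationSubring)
    {m : ℕ} (hm : 0 < m) {y ϖ γ : F} (ε : O) (hε : IsUnit ε) (a n : ℤ)
    (hϖ : V.valuation ϖ < 1) (hϖ0 : ϖ ≠ 0)
    (hgen : ∀ z : F, z ≠ 0 → ∃ c : ℤ, V.valuation z = V.valuation ϖ ^ c)
    (hn : V.valuation y = V.valuation ϖ ^ n)
    (hfac : y = (ε : F) * ϖ ^ a * γ ^ m) :
    (m : ℤ) ∣ a - n ∧
      (m : ℤ) ∣ Q.ord (ρ ⟨y / ϖ ^ n, tresdn_mem V (tresdn_div_val V hϖ0 hn)⟩) := by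
  have hfac' : y / ϖ ^ n = (ε : F) * ϖ ^ (a - n) * γ ^ m := by
    rw [hfac, zpow_sub₀ hϖ0]
    field_simp
  exact tresdn_fac_smooth V ρ Q O hO hm ε hε (a - n) (tresdn_div_val V hϖ0 hn) hϖ hϖ0 hgen hfac'

/-- **Smooth point, exact form**: `h = ε ϖ ^ a` ⇒ `ord_Q ρ(h / ϖ ^ a) = 0`. -/
theorem tresdn_smooth_exact (V : ValuationSubring F) (ρ : ↥V →+* L) (Q : Place k L)
    (O : Subring F)
    (hO : ∀ x ∈ O, ∃ hx : x ∈ V, ρ ⟨x, hx⟩ ∈ Q.toValuationSubring)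
    {h ϖ : F} (ε : O) (hε : IsUnit ε) (a : ℤ) (hϖ0 : ϖ ≠ 0)
    (hfac : h = (ε : F) * ϖ ^ a) :
    ∃ hv : V.valuation (h / ϖ ^ a) = 1, Q.ord (ρ ⟨h / ϖ ^ a, tresdn_mem V hv⟩) = 0 := by
  obtain ⟨hvε, hordε⟩ := tresdn_unit V ρ Q O hO ε hε
  have hfac' : h / ϖ ^ a = (ε : F) := by
    rw [hfac, mul_div_assoc, div_self (zpow_ne_zero _ hϖ0), mul_one]
  have hv : V.valuation (h / ϖ ^ a) = 1 := by rw [hfac', hvε]
  refine ⟨hv, ?_⟩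
  have e : (⟨h / ϖ ^ a, tresdn_mem V hv⟩ : ↥V) = ⟨(ε : F), tresdn_mem V hvε⟩ :=
    Subtype.ext hfac'
  rw [e, hordε]

end Pair

end Fermat.Agent.R38
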