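import Fermat.Agent.R38.TresDlog

/-!
# Row 38, PKG-TRES, piece T2 (formal part): `dlog` of the multiplicative Hecke operator (helper42)

On `q`-expansions the Hecke operator `T_ℓ` of the Jacobian is `x = [u] ↦ [kronHecke ℓ ζ u]`,
`kronHecke ℓ ζ u = u(q^ℓ) · ∏_{b<ℓ} u(ζ^b q^{1/ℓ})` (`ES/Kronecker.lean`).  The logarithmic derivative
turns it into the weight-2 Hecke operator on `q`-expansions:

* `r38dlog_kronNorm`  : `dlog (kronNorm ℓ ζ f) = kronCompress ℓ (dlog f)`  (`= U_ℓ (dlog f)`);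
* `r38dlog_qExpand`   : `dlog (f(q^ℓ)) = ℓ · (dlog f)(q^ℓ)`;
* **`r38dlog_kronHecke`** : `dlog (kronHecke ℓ ζ f) = U_ℓ (dlog f) + ℓ · V_ℓ (dlog f)`
  (`r38heckeT ℓ`), for `f ≠ 0`, `ζ` a primitive `ℓ`-th root of unity, `ℓ ≠ 0` in `k`.
-/

set_option autoImplicit false
set_option linter.unusedSectionVars false
set_option linter.style.haveILetI false

noncomputable section

namespace Fermat.Agent.R38

open HahnSeries ModularCurve Fermat.Agent.S28.Deriv Fermat.Agent.ES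

variable {k : Type*} [Field k]

/-- the weight-2 Hecke operator on `q`-expansions: `a_n(T_ℓ b) = b_{ℓ n} + ℓ b_{n/ℓ}` -/
def r38heckeT (ℓ : ℕ) [NeZero ℓ] (b : LaurentSeries k) : LaurentSeries k :=
  kronCompress ℓ b + HahnSeries.C ((ℓ : ℕ) : k) * qExpand k ℓ b

theorem r38heckeT_coeff (ℓ : ℕ) [NeZero ℓ] (b : LaurentSeries k) (n : ℤ) :
    (r38heckeT ℓ b).coeff n
      = b.coeff ((ℓ : ℤ) * n) + ((ℓ : ℕ) : k) * (qExpand k ℓ b).coeff n := by
  rw [r38heckeT, HahnSeries.coeff_add, kronCompress_coeff, HahnSeries.C_mul_eq_smul,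
    HahnSeries.coeff_smul, smul_eq_mul]

theorem r38heckeT_add (ℓ : ℕ) [NeZero ℓ] (b c : LaurentSeries k) :
    r38heckeT ℓ (b + c) = r38heckeT ℓ b + r38heckeT ℓ c := by
  ext n
  simp only [r38heckeT_coeff, HahnSeries.coeff_add, map_add]
  ring

theorem r38heckeT_zero (ℓ : ℕ) [NeZero ℓ] : r38heckeT ℓ (0 : LaurentSeries k) = 0 := by
  ext n
  simp [r38heckeT_coeff]

/-! ## `θ` and the substitutions -/

theorem r38dlog_theta_kronRot (c : kˣ) (f : LaurentSeries k) :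
    thetaFun (kronRot c f) = kronRot c (thetaFun f) := by
  ext n
  rw [thetaFun_coeff, kronRot_coeff, kronRot_coeff, thetaFun_coeff]
  ring

theorem r38dlog_kronRot (c : kˣ) (f : LaurentSeries k) :
    r38dlog (kronRot c f) = kronRot c (r38dlog f) := by
  rw [r38dlog, r38dlog, r38dlog_theta_kronRot, map_mul, map_inv₀]

theorem r38dlog_qExpand (ℓ : ℕ) [NeZero ℓ] (f : LaurentSeries k) :
    r38dlog (qExpand k ℓ f) = HahnSeries.C ((ℓ : ℕ) : k) * qExpand k ℓ (r38dlog f) := by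
  rw [r38dlog, r38dlog, thetaFun_qExpand, map_mul, map_inv₀, mul_assoc]

theorem r38dlog_prod {ι : Type*} (s : Finset ι) (f : ι → LaurentSeries k)
    (hf : ∀ i ∈ s, f i ≠ 0) : r38dlog (∏ i ∈ s, f i) = ∑ i ∈ s, r38dlog (f i) := by
  classical
  induction s using Finset.induction_on with
  | empty => simp [r38dlog_one]
  | insert a s ha ih =>
    rw [Finset.prod_insert ha, Finset.sum_insert ha,
      r38dlog_mul (hf a (Finset.mem_insert_self a s))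
        (Finset.prod_ne_zero_iff.mpr fun i hi => hf i (Finset.mem_insert_of_mem hi)),
      ih fun i hi => hf i (Finset.mem_insert_of_mem hi)]

/-- `Σ_{b<ℓ} g(ζ^b q) = ℓ · (the part of g in q^ℓ)` -/
theorem r38dlog_sum_kronRot (ℓ : ℕ) [NeZero ℓ] (ζ : kˣ) (hζ : IsPrimitiveRoot ζ ℓ)
    (g : LaurentSeries k) :
    ∑ b ∈ Finset.range ℓ, kronRot (ζ ^ b) g
      = HahnSeries.C ((ℓ : ℕ) : k) * qExpand k ℓ (kronCompress ℓ g) := by
  ext n
  rw [HahnSeries.coeff_sum, HahnSeries.C_mul_eq_smul, HahnSeries.coeff_smul, smul_eq_mul]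
  simp only [kronRot_coeff]
  rw [← Finset.sum_mul]
  by_cases hn : (ℓ : ℤ) ∣ n
  · obtain ⟨m, rfl⟩ := hn
    rw [qExpand_coeff_mul, kronCompress_coeff]
    congr 1
    have h1 : ∀ b ∈ Finset.range ℓ, (((ζ ^ b) ^ ((ℓ : ℤ) * m) : kˣ) : k) = 1 := by
      intro b _
      have : (ζ ^ b) ^ ((ℓ : ℤ) * m) = 1 := by
        rw [← zpow_natCast, ← zpow_mul, mul_comm (b : ℤ), mul_assoc, zpow_mul, zpow_natCast,
          hζ.pow_eq_one, one_zpow]
      rw [this, Units.val_one]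
    rw [Finset.sum_congr rfl h1, Finset.sum_const, Finset.card_range, nsmul_eq_mul, mul_one]
  · rw [qExpand_coeff_of_not_dvd ℓ _ hn, mul_zero]
    have hne : ((ζ ^ n : kˣ) : k) ≠ 1 := by
      intro h
      apply hn
      rw [← hζ.zpow_eq_one_iff_dvd]
      exact Units.ext h
    have h2 : ∑ b ∈ Finset.range ℓ, (((ζ ^ b) ^ n : kˣ) : k)
        = ∑ b ∈ Finset.range ℓ, ((ζ ^ n : kˣ) : k) ^ b := by
      refine Finset.sum_congr rfl fun b _ => ?_
      rw [← Units.val_pow_eq_pow_val]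
      congr 1
      rw [← zpow_natCast, ← zpow_mul, mul_comm, zpow_mul, zpow_natCast]
    have h3 : (((ζ ^ n : kˣ) : k) - 1) * ∑ b ∈ Finset.range ℓ, ((ζ ^ n : kˣ) : k) ^ b = 0 := by
      rw [mul_geom_sum, ← Units.val_pow_eq_pow_val]
      have : (ζ ^ n) ^ ℓ = 1 := by
        rw [← zpow_natCast, ← zpow_mul, mul_comm, zpow_mul, zpow_natCast, hζ.pow_eq_one, one_zpow]
      rw [this, Units.val_one, sub_self]
    rcases mul_eq_zero.mp h3 with h4 | h4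
    · exact absurd (sub_eq_zero.mp h4) hne
    · rw [h2, h4, zero_mul]

/-! ## The norm and the Hecke operator -/

theorem r38dlog_C_natCast_ne_zero (ℓ : ℕ) (hℓ : ((ℓ : ℕ) : k) ≠ 0) :
    (HahnSeries.C ((ℓ : ℕ) : k) : LaurentSeries k) ≠ 0 := by
  intro h
  exact hℓ ((map_eq_zero (HahnSeries.C : k →+* LaurentSeries k)).mp h)

/-- `dlog (kronRotProd ℓ ζ f) = ℓ · (the part of dlog f in q^ℓ)` -/
theorem r38dlog_kronRotProd (ℓ : ℕ) [NeZero ℓ] (ζ : kˣ) (hζ : IsPrimitiveRoot ζ ℓ)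
    {f : LaurentSeries k} (hf : f ≠ 0) :
    r38dlog (kronRotProd ℓ ζ f)
      = HahnSeries.C ((ℓ : ℕ) : k) * qExpand k ℓ (kronCompress ℓ (r38dlog f)) := by
  rw [kronRotProd, r38dlog_prod _ _ fun b _ => (map_ne_zero (kronRot (ζ ^ b))).mpr hf]
  simp only [r38dlog_kronRot]
  exact r38dlog_sum_kronRot ℓ ζ hζ (r38dlog f)

/-- **`dlog (kronNorm ℓ ζ f) = U_ℓ (dlog f)`** -/
theorem r38dlog_kronNorm (ℓ : ℕ) [NeZero ℓ] (hℓ : ((ℓ : ℕ) : k) ≠ 0) (ζ : kˣ)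
    (hζ : IsPrimitiveRoot ζ ℓ) {f : LaurentSeries k} (hf : f ≠ 0) :
    r38dlog (kronNorm ℓ ζ f) = kronCompress ℓ (r38dlog f) := by
  have h1 := r38dlog_kronRotProd ℓ ζ hζ hf
  rw [← qExpand_kronNorm ℓ ζ hζ f, r38dlog_qExpand] at h1
  have h2 := mul_left_cancel₀ (r38dlog_C_natCast_ne_zero ℓ hℓ) h1
  exact (qExpand k ℓ).injective h2

theorem r38dlog_kronNorm_ne_zero (ℓ : ℕ) [NeZero ℓ] (ζ : kˣ) (hζ : IsPrimitiveRoot ζ ℓ)
    {f : LaurentSeries k} (hf : f ≠ 0) : kronNorm ℓ ζ f ≠ 0 := by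
  intro h
  have h1 := qExpand_kronNorm ℓ ζ hζ f
  rw [h, map_zero] at h1
  have h2 : kronRotProd ℓ ζ f ≠ 0 := by
    rw [kronRotProd]
    exact Finset.prod_ne_zero_iff.mpr fun b _ => (map_ne_zero (kronRot (ζ ^ b))).mpr hf
  exact h2 h1.symm

/-- **`dlog` turns the multiplicative Hecke operator into the weight-2 Hecke operator on
`q`-expansions.** -/
theorem r38dlog_kronHecke (ℓ : ℕ) [NeZero ℓ] (hℓ : ((ℓ : ℕ) : k) ≠ 0) (ζ : kˣ)
    (hζ : IsPrimitiveRoot ζ ℓ) {f : LaurentSeries k} (hf : f ≠ 0) :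
    r38dlog (kronHecke ℓ ζ f) = r38heckeT ℓ (r38dlog f) := by
  rw [kronHecke, r38dlog_mul ((map_ne_zero (qExpand k ℓ)).mpr hf)
    (r38dlog_kronNorm_ne_zero ℓ ζ hζ hf), r38dlog_qExpand, r38dlog_kronNorm ℓ hℓ ζ hζ hf,
    r38heckeT, add_comm]

end Fermat.Agent.R38
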