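/-
ROW 38, piece PKG-TRES / FAC-EIS (F) EIS-CUSP (helper64):
"NON-CUSPIDAL" DOES NOT DEPEND ON THE `j`-FUNCTION USED.

`k` any field, `E ⊂ k((q))` an intermediate field, `O` a valuation subring of `E` containing `k`.
For a prime `ℓ` and `d ≠ 0`, if `j(q^d)`, `j(q^{ℓ d}) ∈ E` then
  `j(q^d) ∈ O ↔ j(q^{ℓ d}) ∈ O`
(the modular equation `Φ_ℓ` is monic in both variables: each is integral over the polynomial
ring in the other, `S28.ub_modEq`).  Hence `j ∈ O ↔ j(q^d) ∈ O` for all `d ≠ 0` with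
`j(q^e) ∈ E` for all `e ∣ d`, and for the places `w` of `modularFunctionFieldFullC k N`:
  `0 ≤ w.ord j ↔ 0 ≤ w.ord j(q^d)`   (`d ∣ N`).

* `tres4c_mem_of_eval₂`  : abstract integrality;
* `tres4c_jd_mem_iff`    : one prime step;
* `tres4c_jd_mem_iff_full` : `j ∈ O ↔ j(q^d) ∈ O` in `modularFunctionFieldFullC k N`, `d ∣ N`;
* `tres4c_ord_nonneg_iff`  : the same for `Place.ord`;
* `tres4c_ord_nonneg_iff_prime` : the form of FAC-EIS (F): level `N * ℓ`, `j(q)` and `j(q^ℓ)`.
-/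
import Fermat.Agent.S28.PrimeHypMain
import Fermat.Agent.S24.PlaceBasic

set_option autoImplicit false
set_option linter.unusedSectionVars false
set_option linter.style.haveILetI false

noncomputable section

namespace Fermat.Agent.R38

open ModularCurve AlgebraicCurve Polynomial IntermediateField Fermat.Agent.S28

/-- **Abstract integrality**: a root `x` of `Φ(X, y)`, `Φ ∈ k[Y][X]` monic, `y ∈ O`, lies in the
valuation subring `O ⊇ k`. -/
theorem tres4c_mem_of_eval₂ {k F : Type*} [Field k] [Field F] [Algebra k F]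
    (O : ValuationSubring F) (hk : ∀ a : k, algebraMap k F a ∈ O) {x y : F} (hy : y ∈ O)
    {Φ : (k[X])[X]} (hΦ : Φ.Monic)
    (h : Φ.eval₂ (aeval y : k[X] →ₐ[k] F).toRingHom x = 0) : x ∈ O := by
  let f : k →+* O := (algebraMap k F).codRestrict O hk
  let g : k[X] →+* O := Polynomial.eval₂RingHom f ⟨y, hy⟩
  have hcomp : (algebraMap O F).comp g = (aeval y : k[X] →ₐ[k] F).toRingHom := by
    refine Polynomial.ringHom_ext (fun a => ?_) ?_
    · simp only [RingHom.comp_apply, AlgHom.toRingHom_eq_coe, RingHom.coe_coe, aeval_C]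
      show algebraMap O F (Polynomial.eval₂RingHom f ⟨y, hy⟩ (C a)) = algebraMap k F a
      rw [Polynomial.coe_eval₂RingHom, eval₂_C]
      rfl
    · simp only [RingHom.comp_apply, AlgHom.toRingHom_eq_coe, RingHom.coe_coe, aeval_X]
      show algebraMap O F (Polynomial.eval₂RingHom f ⟨y, hy⟩ X) = y
      rw [Polynomial.coe_eval₂RingHom, eval₂_X]
      rfl
  have hint : IsIntegral O x := by
    refine ⟨Φ.map g, hΦ.map _, ?_⟩
    rw [Polynomial.eval₂_map, hcomp]
    exact h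
  obtain ⟨z, hz⟩ := IsIntegrallyClosed.isIntegral_iff.mp hint
  rw [← hz]
  exact z.2

section Laurent

variable (k : Type*) [Field k]

/-- a relation in `k((q))` between elements of an intermediate field holds in the field -/
theorem tres4c_eval₂_coe (E : IntermediateField k (LaurentSeries k)) (Φ : (k[X])[X]) (x y : E)
    (h : Φ.eval₂ (aeval (y : LaurentSeries k) : k[X] →ₐ[k] LaurentSeries k).toRingHom
      (x : LaurentSeries k) = 0) :
    Φ.eval₂ (aeval y : k[X] →ₐ[k] E).toRingHom x = 0 := by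
  apply Subtype.val_injective
  have h1 : (E.val : E →+* LaurentSeries k) (Φ.eval₂ (aeval y : k[X] →ₐ[k] E).toRingHom x) =
      Φ.eval₂ ((E.val : E →+* LaurentSeries k).comp (aeval y : k[X] →ₐ[k] E).toRingHom)
        (E.val x) := Polynomial.hom_eval₂ _ _ _ _
  have h2 : (E.val : E →+* LaurentSeries k).comp (aeval y : k[X] →ₐ[k] E).toRingHom =
      (aeval (y : LaurentSeries k) : k[X] →ₐ[k] LaurentSeries k).toRingHom := by
    refine Polynomial.ringHom_ext (fun a => ?_) ?_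
    · simp only [RingHom.comp_apply, AlgHom.toRingHom_eq_coe, RingHom.coe_coe, aeval_C]
      rfl
    · simp only [RingHom.comp_apply, AlgHom.toRingHom_eq_coe, RingHom.coe_coe, aeval_X]
      rfl
  rw [h2] at h1
  show (E.val : E →+* LaurentSeries k) (Φ.eval₂ (aeval y : k[X] →ₐ[k] E).toRingHom x) = 0
  rw [h1]
  exact h

/-- **One prime step**: `j(q^d) ∈ O ↔ j(q^{ℓ d}) ∈ O`. -/
theorem tres4c_jd_mem_iff (E : IntermediateField k (LaurentSeries k)) (O : ValuationSubring E)
    (hk : ∀ a : k, algebraMap k E a ∈ O) {ℓ : ℕ} (hℓ : ℓ.Prime) {d : ℕ} (hd : d ≠ 0)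
    (hx : UB.jd k d ∈ E) (hy : UB.jd k (ℓ * d) ∈ E) :
    (⟨UB.jd k d, hx⟩ : E) ∈ O ↔ (⟨UB.jd k (ℓ * d), hy⟩ : E) ∈ O := by
  haveI : NeZero ℓ := ⟨hℓ.ne_zero⟩
  obtain ⟨Φ, hm, -, h1, h2⟩ := ub_modEq k ℓ hℓ
  obtain ⟨s1, s2⟩ := UB.ModEq.shift k h1 h2 hd
  constructor
  · intro h
    exact tres4c_mem_of_eval₂ O hk h hm
      (tres4c_eval₂_coe k E Φ ⟨UB.jd k (ℓ * d), hy⟩ ⟨UB.jd k d, hx⟩ s1)
  · intro h
    exact tres4c_mem_of_eval₂ O hk h hm
      (tres4c_eval₂_coe k E Φ ⟨UB.jd k d, hx⟩ ⟨UB.jd k (ℓ * d), hy⟩ s2)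

/-- `j ∈ O ↔ j(q^d) ∈ O` in the function field of level `N`, for `d ∣ N`. -/
theorem tres4c_jd_mem_iff_full (N : ℕ) [NeZero N]
    (O : ValuationSubring (modularFunctionFieldFullC k N))
    (hk : ∀ a : k, algebraMap k (modularFunctionFieldFullC k N) a ∈ O) :
    ∀ (d : ℕ) (hd : d ∣ N),
      ((⟨jqModC k, jqModC_mem_full k N⟩ : modularFunctionFieldFullC k N) ∈ O ↔
        (⟨UB.jd k d, UB.jd_mem_full k hd
          (fun h => NeZero.ne N (by rw [h] at hd; exact zero_dvd_iff.mp hd))⟩ :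
          modularFunctionFieldFullC k N) ∈ O) := by
  intro d
  induction d using Nat.strong_induction_on with
  | _ d ih =>
    intro hd
    have hd0 : d ≠ 0 := fun h => NeZero.ne N (by rw [h] at hd; exact zero_dvd_iff.mp hd)
    rcases eq_or_ne d 1 with rfl | hd1
    · have e : (⟨UB.jd k 1, UB.jd_mem_full k hd hd0⟩ : modularFunctionFieldFullC k N) =
          ⟨jqModC k, jqModC_mem_full k N⟩ := Subtype.ext (UB.jd_one k)
      rw [e]
    · have hpp : d.minFac.Prime := Nat.minFac_prime hd1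
      obtain ⟨d', hd'⟩ : d.minFac ∣ d := Nat.minFac_dvd d
      have hd'0 : d' ≠ 0 := by
        rintro rfl
        exact hd0 (by rw [hd', mul_zero])
      have hd'lt : d' < d := by
        conv_rhs => rw [hd']
        exact lt_mul_of_one_lt_left (Nat.pos_of_ne_zero hd'0) hpp.one_lt
      have hd'N : d' ∣ N := (Dvd.intro_left _ hd'.symm).trans hd
      have hpd : d.minFac * d' ∣ N := hd' ▸ hd
      have hstep := tres4c_jd_mem_iff k (modularFunctionFieldFullC k N) O hk hpp hd'0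
        (UB.jd_mem_full k hd'N hd'0) (UB.jd_mem_full k hpd (Nat.mul_ne_zero hpp.ne_zero hd'0))
      have e : (⟨UB.jd k d, UB.jd_mem_full k hd hd0⟩ : modularFunctionFieldFullC k N) =
          ⟨UB.jd k (d.minFac * d'), UB.jd_mem_full k hpd (Nat.mul_ne_zero hpp.ne_zero hd'0)⟩ :=
        Subtype.ext (congrArg (UB.jd k) hd')
      rw [e, ← hstep]
      exact ih d' hd'lt hd'N

/-- `0 ≤ w.ord j ↔ 0 ≤ w.ord j(q^d)` for the places of the function field of level `N`. -/
theorem tres4c_ord_nonneg_iff (N : ℕ) [NeZero N] (w : Place k (modularFunctionFieldFullC k N))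
    (d : ℕ) [NeZero d] (hd : d ∣ N) :
    0 ≤ w.ord (⟨jqModC k, jqModC_mem_full k N⟩ : modularFunctionFieldFullC k N) ↔
      0 ≤ w.ord (⟨qExpand k d (jqModC k), jqModCd_mem_full k N hd⟩ :
        modularFunctionFieldFullC k N) := by
  have hj0 : (⟨jqModC k, jqModC_mem_full k N⟩ : modularFunctionFieldFullC k N) ≠ 0 := by
    intro h
    exact jqModC_ne_zero_of_nontrivial k (congrArg Subtype.val h)
  have hd0 : (⟨qExpand k d (jqModC k), jqModCd_mem_full k N hd⟩ :
      modularFunctionFieldFullC k N) ≠ 0 := by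
    intro h
    exact qExpand_ne_zero (jqModC_ne_zero_of_nontrivial k) (congrArg Subtype.val h)
  rw [Fermat.Agent.S24.PlaceAux.ord_nonneg_iff w hj0,
    Fermat.Agent.S24.PlaceAux.ord_nonneg_iff w hd0,
    tres4c_jd_mem_iff_full k N w.toValuationSubring w.algebraMap_mem' d hd]
  have e : (⟨UB.jd k d, UB.jd_mem_full k hd (NeZero.ne d)⟩ : modularFunctionFieldFullC k N) =
      ⟨qExpand k d (jqModC k), jqModCd_mem_full k N hd⟩ := Subtype.ext (UB.jd_eq k d)
  rw [e]

/-- **EIS-CUSP**, the form of FAC-EIS (F): at every place `w` of the function field of level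
`N ℓ`, `j(q)` is regular iff `j(q^ℓ)` is. -/
theorem tres4c_ord_nonneg_iff_prime (N ℓ : ℕ) [NeZero N] [NeZero ℓ]
    (w : Place k (modularFunctionFieldFullC k (N * ℓ))) :
    0 ≤ w.ord (⟨jqModC k, jqModC_mem_full k (N * ℓ)⟩ : modularFunctionFieldFullC k (N * ℓ)) ↔
      0 ≤ w.ord (⟨qExpand k ℓ (jqModC k), jqModCd_mem_full k (N * ℓ) (Dvd.intro_left N rfl)⟩ :
        modularFunctionFieldFullC k (N * ℓ)) :=
  tres4c_ord_nonneg_iff k (N * ℓ) w ℓ (Dvd.intro_left N rfl)

end Laurent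

end Fermat.Agent.R38

end
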