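import Fermat.Agent.ES.M.Plan
import Fermat.Agent.ES.G2.HeckeNorm
import Fermat.Agent.R38.TresRedHecke

/-!
# Row 38, PKG-TRES, piece FAC-EIS (C2): the Gauss reduction commutes with `β` and with the
multiplicative Hecke operator, EXACTLY  (helper63, for helper60's `StmtEisNormK`)

`GaussRed M A x w` (`ES/M/Plan.lean`): `x = Y₁ / Y₂` with `A`-integral `Y₁, Y₂ ∈ F_M`, `Ȳ₂ ≠ 0`,
`w = Ȳ₁ / Ȳ₂`.

* `tres4g_gaussRed_beta` : `GaussRed M A x w → GaussRed (M ℓ) A (β x) (w(q^ℓ))`;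
* `tres4gr_kronHecke_mem` : `kronHecke ℓ ζ v ∈ F_M` for `v ∈ F_M` (it is the `q`-expansion of a
  norm, `ES.G2.stmtHeckeNorm`);
* `tres4g_gaussRed_kronHecke` : `GaussRed M A x w → GaussRed M A (T_ℓ x) (kronHecke ℓ ζ̄ w)`,
  no constant.
-/

set_option autoImplicit false
set_option linter.unusedSectionVars false
set_option linter.style.haveILetI false

noncomputable section

namespace Fermat.Agent.R38

open ModularCurve AlgebraicCurve HahnSeries Fermat.Agent.ES Fermat.Agent.S24 Fermat.Agent.ES.M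

section GR

variable (M ℓ : ℕ) [NeZero M] [NeZero ℓ] (A : ValuationSubring Kb)

/-- `β` preserves the function fields: `v(q^ℓ) ∈ F_{Mℓ}` for `v ∈ F_M` -/
theorem tres4gr_qExpand_mem {v : LaurentSeries Kb} (hv : v ∈ modularFunctionFieldBar M) :
    qExpand Kb ℓ v ∈ modularFunctionFieldBar (M * ℓ) := by
  have h := (heckeBetaBar Kb M ℓ ⟨v, hv⟩).2
  rwa [coe_heckeBetaBar] at h

/-- **(C2a)** the Gauss reduction commutes with `β : f ↦ f(q^ℓ)` -/
theorem tres4g_gaussRed_beta {x : FF M} {w : LaurentSeries (kA A)} (h : GaussRed M A x w) :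
    GaussRed (M * ℓ) A (heckeBetaBar Kb M ℓ x) (qExpand (kA A) ℓ w) := by
  obtain ⟨Y₁, Y₂, h1, h2, h3, h4, h5⟩ := h
  refine ⟨qExpand A ℓ Y₁, qExpand A ℓ Y₂, ?_, ?_, ?_, ?_, ?_⟩
  · rw [kronIncl, coeffMap_qExpand]
    exact tres4gr_qExpand_mem M ℓ h1
  · rw [kronIncl, coeffMap_qExpand]
    exact tres4gr_qExpand_mem M ℓ h2
  · rw [kronRed, coeffMap_qExpand]
    exact (map_ne_zero_iff _ (RingHom.injective _)).2 h3
  · rw [coe_heckeBetaBar, kronIncl, coeffMap_qExpand, coeffMap_qExpand, ← map_mul, h4]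
  · rw [kronRed, coeffMap_qExpand, coeffMap_qExpand, ← map_mul, h5]

/-- `kronHecke ℓ ζ v ∈ F_M` for `v ∈ F_M`: it is the `q`-expansion of the norm of `β v` -/
theorem tres4gr_kronHecke_mem (hℓ : ℓ.Prime) (hℓM : ¬ ℓ ∣ M) (ζ : Kbˣ)
    (hζ : IsPrimitiveRoot ζ ℓ) {v : LaurentSeries Kb} (hv : v ∈ modularFunctionFieldBar M) :
    kronHecke ℓ ζ v ∈ modularFunctionFieldBar M := by
  have h := Fermat.Agent.ES.G2.stmtHeckeNorm M ℓ hℓ hℓM ζ hζ ⟨v, hv⟩
  rw [← h]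
  exact Subtype.mem _

/-- the reduction of `kronHecke` of an integral series -/
theorem tres4gr_kronRed_kronHecke (ζA : Aˣ) (Y : LaurentSeries A) :
    kronRed A (qExpand A ℓ Y * kronNorm ℓ ζA Y) =
      kronHecke ℓ (Units.map ((IsLocalRing.residue A : A →+* kA A) : A →* kA A) ζA)
        (kronRed A Y) := by
  rw [kronHecke, map_mul, kronRed, coeffMap_qExpand, coeffMap_kronNorm]

/-- the inclusion of `kronHecke` of an integral series -/
theorem tres4gr_kronIncl_kronHecke (ζA : Aˣ) (Y : LaurentSeries A) :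
    kronIncl A (qExpand A ℓ Y * kronNorm ℓ ζA Y) =
      kronHecke ℓ (Units.map (A.subtype : A →* Kb) ζA) (kronIncl A Y) := by
  rw [kronHecke, map_mul, kronIncl, coeffMap_qExpand, coeffMap_kronNorm]

/-- `kronHecke` of a nonzero series over a field is nonzero -/
theorem tres4gr_kronHecke_ne_zero {k : Type*} [Field k] (ζ : kˣ) (hζ : IsPrimitiveRoot ζ ℓ)
    {f : LaurentSeries k} (hf : f ≠ 0) : kronHecke ℓ ζ f ≠ 0 := by
  rw [kronHecke]
  exact mul_ne_zero ((map_ne_zero_iff _ (RingHom.injective _)).2 hf)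
    (r38dlog_kronNorm_ne_zero ℓ ζ hζ hf)

/-- **(C2b)** the Gauss reduction commutes with the multiplicative Hecke operator, exactly -/
theorem tres4g_gaussRed_kronHecke (hℓ : ℓ.Prime) (hℓM : ¬ ℓ ∣ M) (ζA : Aˣ)
    (hζ : IsPrimitiveRoot (Units.map (A.subtype : A →* Kb) ζA) ℓ)
    (hζb : IsPrimitiveRoot
      (Units.map ((IsLocalRing.residue A : A →+* kA A) : A →* kA A) ζA) ℓ)
    {x y : FF M} {w : LaurentSeries (kA A)} (h : GaussRed M A x w)
    (hy : (y : LaurentSeries Kb) =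
      kronHecke ℓ (Units.map (A.subtype : A →* Kb) ζA) (x : LaurentSeries Kb)) :
    GaussRed M A y
      (kronHecke ℓ (Units.map ((IsLocalRing.residue A : A →+* kA A) : A →* kA A) ζA) w) := by
  obtain ⟨Y₁, Y₂, h1, h2, h3, h4, h5⟩ := h
  refine ⟨qExpand A ℓ Y₁ * kronNorm ℓ ζA Y₁, qExpand A ℓ Y₂ * kronNorm ℓ ζA Y₂, ?_, ?_, ?_, ?_, ?_⟩
  · rw [tres4gr_kronIncl_kronHecke]
    exact tres4gr_kronHecke_mem M ℓ hℓ hℓM _ hζ h1
  · rw [tres4gr_kronIncl_kronHecke]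
    exact tres4gr_kronHecke_mem M ℓ hℓ hℓM _ hζ h2
  · rw [tres4gr_kronRed_kronHecke]
    exact tres4gr_kronHecke_ne_zero ℓ _ hζb h3
  · rw [tres4gr_kronIncl_kronHecke, tres4gr_kronIncl_kronHecke, hy, ← kronHecke_mul _ hζ, h4]
  · rw [tres4gr_kronRed_kronHecke, tres4gr_kronRed_kronHecke, ← kronHecke_mul _ hζb, h5]

end GR

end Fermat.Agent.R38

end
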