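/-
ROW 38, piece PKG-TRES / FAC-EIS (D) EIS-NF (helper47):
THE NORM FORMULA `div (N_{F'/F} f) = (push-forward of div f)` AND `Σ e·f = n` FOR A FINITE
SEPARABLE EXTENSION OF FUNCTION FIELDS OVER AN ALGEBRAICALLY CLOSED FIELD OF ANY CHARACTERISTIC.

This is `ES/Hb.lean` (`pushforwardNormFormula`, `sumRamificationInertia`, characteristic `0`) with
`[CharZero K]` replaced by `[Algebra.IsSeparable F F']`.  The only real change: Mathlib's
`Ideal.relNorm_eq_pow_of_isMaximal` needs a perfect fraction field; when all inertia degrees are `1`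
(residue fields `= K` algebraically closed) `relNorm P = 𝔪` follows by counting:
`relNorm P = 𝔪 ^ s_P` with `s_P ≥ 1`, `Σ e_P s_P = n` (`relNorm_algebraMap`) and `Σ e_P = n`
(`Ideal.sum_ramification_inertia_eq_finrank`).

* `tres4nf_relNorm_eq`            : `relNorm P = 𝔪` (all inertia degrees `1`);
* `tres4nf_valuation_norm`        : `v_𝔪 (N f) = ∏_P v_P(f) ^ f(P|𝔪)` for `B/A`, `A` a DVR;
* `tres4nf_ord_norm_eq_sum`       : `ord_v (N f) = Σ_{w ∣ v} ord_w f`;
* `tres4nf_pushforwardNormFormula`: `Divisor.PushforwardNormFormula K F F'`;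
* `tres4nf_sumRamificationInertia`: `SumRamificationInertia K F F'`.
-/
import Fermat.Agent.ES.Hb

set_option autoImplicit false
set_option linter.unusedSectionVars false
set_option linter.unusedVariables false
set_option linter.overlappingInstances false
set_option linter.style.haveILetI false

noncomputable section

open AlgebraicCurve IsDedekindDomain WithZero

namespace Fermat.Agent.R38

open Fermat.Agent.S24 Fermat.Agent.ES.H

/-! ## the abstract part: an extension `B/A` of a discrete valuation ring by a Dedekind domain -/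

section abstract

variable {A B : Type*} [CommRing A] [IsDomain A] [IsDiscreteValuationRing A]
  [CommRing B] [IsDomain B] [IsDedekindDomain B] [Algebra A B] [Module.Finite A B]
  [Module.IsTorsionFree A B]

/-- the relative norm of a prime over `𝔪` is a power `𝔪 ^ s`, `s ≥ 1` -/
theorem tres4nf_exponent (Q : Ideal B) (hQ : Q ∈ (IsLocalRing.maximalIdeal A).primesOver B) :
    ∃ s : ℕ, Ideal.relNorm A Q = IsLocalRing.maximalIdeal A ^ s ∧ 1 ≤ s := by
  haveI : Q.IsPrime := hQ.1
  haveI : Q.LiesOver (IsLocalRing.maximalIdeal A) := hQ.2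
  obtain ⟨s, hs⟩ := Ideal.exists_relNorm_eq_pow_of_isPrime Q (IsLocalRing.maximalIdeal A)
  refine ⟨s, hs, ?_⟩
  by_contra h
  have h0 : s = 0 := by omega
  subst h0
  rw [pow_zero, Ideal.one_eq_top] at hs
  have hle := Ideal.relNorm_le_comap A Q
  rw [hs] at hle
  have hcomap : Ideal.comap (algebraMap A B) Q = IsLocalRing.maximalIdeal A :=
    (Ideal.LiesOver.over (P := Q) (p := IsLocalRing.maximalIdeal A)).symm
  rw [hcomap] at hle
  exact (Ideal.IsPrime.ne_top inferInstance) (top_le_iff.mp hle)

/-- if all inertia degrees are `1`, the relative norm of a prime is the maximal ideal -/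
theorem tres4nf_relNorm_eq (hf1 : ∀ P : HeightOneSpectrum B, P.asIdeal.inertiaDeg A = 1)
    (P : HeightOneSpectrum B) :
    Ideal.relNorm A P.asIdeal = IsLocalRing.maximalIdeal A := by
  classical
  have hp0 : IsLocalRing.maximalIdeal A ≠ ⊥ := IsDiscreteValuationRing.not_a_field A
  have hp1 : IsLocalRing.maximalIdeal A ≠ 1 := by
    rw [Ideal.one_eq_top]
    exact Ideal.IsPrime.ne_top inferInstance
  -- the exponents
  have hex := fun Q hQ => tres4nf_exponent (A := A) (B := B) Q hQ
  choose! s hs hs1 using hex
  -- `Σ s e = n`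
  have h1 : Ideal.relNorm A (Ideal.map (algebraMap A B) (IsLocalRing.maximalIdeal A))
      = IsLocalRing.maximalIdeal A ^ Module.finrank A B := Ideal.relNorm_algebraMap B _
  have h2 := Ideal.map_algebraMap_eq_finsetProd_pow (R := B)
    (p := IsLocalRing.maximalIdeal A) hp0
  rw [h2, map_prod] at h1
  have h3 : ∀ Q ∈ ((IsLocalRing.maximalIdeal A).primesOver B).toFinset,
      Ideal.relNorm A (Q ^ Q.ramificationIdx A)
        = IsLocalRing.maximalIdeal A ^ (s Q * Q.ramificationIdx A) := by
    intro Q hQ
    rw [Set.mem_toFinset] at hQ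
    rw [map_pow, hs Q hQ, pow_mul]
  rw [Finset.prod_congr rfl h3, Finset.prod_pow_eq_pow_sum] at h1
  have h4 : ∑ Q ∈ ((IsLocalRing.maximalIdeal A).primesOver B).toFinset,
      s Q * Q.ramificationIdx A = Module.finrank A B :=
    ((IsLeftCancelMulZero.mul_left_cancel_of_ne_zero hp0).pow_injective hp1) h1
  -- `Σ e = n`
  have h5 := Ideal.sum_ramification_inertia_eq_finrank (IsLocalRing.maximalIdeal A) B
  have h6 : ∑ Q ∈ ((IsLocalRing.maximalIdeal A).primesOver B).toFinset,
      Q.ramificationIdx A = Module.finrank A B := by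
    rw [← h5, ← Finset.sum_set_coe]
    refine Finset.sum_congr rfl fun q _ => ?_
    haveI : q.1.IsPrime := q.2.1
    haveI : q.1.LiesOver (IsLocalRing.maximalIdeal A) := q.2.2
    have hq0 : q.1 ≠ ⊥ := Ideal.ne_bot_of_liesOver_of_ne_bot hp0 q.1
    have := hf1 ⟨q.1, q.2.1, hq0⟩
    rw [this, mul_one]
  -- termwise
  have h7 : ∀ Q ∈ ((IsLocalRing.maximalIdeal A).primesOver B).toFinset,
      Q.ramificationIdx A ≤ s Q * Q.ramificationIdx A := by
    intro Q hQ
    rw [Set.mem_toFinset] at hQ
    exact Nat.le_mul_of_pos_left _ (hs1 Q hQ)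
  have h8 := (Finset.sum_eq_sum_iff_of_le h7).mp (h6.trans h4.symm)
  have hP : P.asIdeal ∈ (IsLocalRing.maximalIdeal A).primesOver B :=
    ⟨P.isPrime, liesOver_maximalIdeal P⟩
  have h9 := h8 P.asIdeal (Set.mem_toFinset.mpr hP)
  haveI : P.asIdeal.IsPrime := P.isPrime
  have he : 0 < P.asIdeal.ramificationIdx A := Ideal.ramificationIdx_pos _ A
  have hsP : s P.asIdeal = 1 := by
    have : 1 * P.asIdeal.ramificationIdx A = s P.asIdeal * P.asIdeal.ramificationIdx A := by
      rw [one_mul]
      exact h9
    exact (Nat.eq_of_mul_eq_mul_right he this).symm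
  rw [hs P.asIdeal hP, hsP, pow_one]

/-- The valuation of the integral norm of `b ≠ 0` (all inertia degrees `1`). -/
theorem tres4nf_intValuation_intNorm [Fintype (HeightOneSpectrum B)]
    (hf1 : ∀ P : HeightOneSpectrum B, P.asIdeal.inertiaDeg A = 1) (b : B) (hb : b ≠ 0) :
    (IsDiscreteValuationRing.maximalIdeal A).intValuation (Algebra.intNorm A B b)
      = ∏ P : HeightOneSpectrum B, (P.intValuation b) ^ (P.asIdeal.inertiaDeg A) := by
  classical
  set 𝔪 := IsDiscreteValuationRing.maximalIdeal A with h𝔪
  have h𝔪ideal : 𝔪.asIdeal = IsLocalRing.maximalIdeal A := rfl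
  have hI : (Ideal.span {b} : Ideal B) ≠ 0 := by
    rw [Ne, Ideal.zero_eq_bot, Ideal.span_singleton_eq_bot]
    exact hb
  let n : HeightOneSpectrum B → ℕ := fun P =>
    (Associates.mk P.asIdeal).count (Associates.mk (Ideal.span {b} : Ideal B)).factors
  have hfact : ∏ P : HeightOneSpectrum B, P.asIdeal ^ n P = Ideal.span {b} := by
    have := Ideal.finprod_heightOneSpectrum_factorization hI
    rw [finprod_eq_prod_of_fintype] at this
    exact this
  have hrel : ∀ P : HeightOneSpectrum B,
      Ideal.relNorm A P.asIdeal = 𝔪.asIdeal ^ (P.asIdeal.inertiaDeg A) := by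
    intro P
    rw [hf1 P, pow_one, h𝔪ideal]
    exact tres4nf_relNorm_eq hf1 P
  have hspan : Ideal.span {Algebra.intNorm A B b} =
      𝔪.asIdeal ^ (∑ P : HeightOneSpectrum B, P.asIdeal.inertiaDeg A * n P) := by
    rw [← Ideal.relNorm_singleton, ← hfact, map_prod, ← Finset.prod_pow_eq_pow_sum]
    refine Finset.prod_congr rfl fun P _ => ?_
    rw [map_pow, hrel P, pow_mul]
  rw [intValuation_eq_of_span_eq_pow 𝔪 hspan]
  have hP : ∀ P : HeightOneSpectrum B,
      (P.intValuation b) ^ (P.asIdeal.inertiaDeg A) =
        exp (-((P.asIdeal.inertiaDeg A * n P : ℕ) : ℤ)) := by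
    intro P
    rw [P.intValuation_if_neg hb, ← exp_nsmul]
    congr 1
    simp only [n]
    push_cast
    ring
  simp_rw [hP]
  rw [← exp_sum_eq_prod]
  congr 1
  push_cast
  rw [Finset.sum_neg_distrib]

end abstract

/-- **Norm formula** for an extension `B/A` of a discrete valuation ring by a Dedekind domain, all
of whose inertia degrees are `1` (no hypothesis on the characteristic):
`B` has finitely many nonzero primes and `v_𝔪 (N f) = ∏_P v_P(f) ^ f(P|𝔪)`. -/
theorem tres4nf_valuation_norm
    {A B F F' : Type*} [CommRing A] [IsDomain A] [IsDiscreteValuationRing A]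
    [CommRing B] [IsDomain B] [IsDedekindDomain B] [Algebra A B] [Module.Finite A B]
    [Module.IsTorsionFree A B]
    [Field F] [Field F'] [Algebra A F] [IsFractionRing A F] [Algebra B F'] [IsFractionRing B F']
    [Algebra F F'] [Algebra A F'] [IsScalarTower A F F'] [IsScalarTower A B F']
    (hf1 : ∀ P : HeightOneSpectrum B, P.asIdeal.inertiaDeg A = 1)
    (f : F') (hf : f ≠ 0) :
    (Set.univ : Set (HeightOneSpectrum B)).Finite ∧
    (IsDiscreteValuationRing.maximalIdeal A).valuation F (Algebra.norm F f)
      = ∏ᶠ P : HeightOneSpectrum B, (P.valuation F' f) ^ (P.asIdeal.inertiaDeg A) := by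
  classical
  haveI hfin : Finite (HeightOneSpectrum B) := finite_heightOneSpectrum A
  letI : Fintype (HeightOneSpectrum B) := Fintype.ofFinite _
  refine ⟨Set.finite_univ, ?_⟩
  rw [finprod_eq_prod_of_fintype]
  haveI : IsIntegralClosure B A F' := IsIntegralClosure.of_isIntegrallyClosed B A F'
  haveI : FiniteDimensional F F' := Module.Finite.of_isLocalization A B (nonZeroDivisors A)
  set 𝔪 := IsDiscreteValuationRing.maximalIdeal A
  -- the right-hand side as a function
  let Φ : F' → ℤᵐ⁰ := fun g =>
    ∏ P : HeightOneSpectrum B, (P.valuation F' g) ^ (P.asIdeal.inertiaDeg A)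
  have hΦmul : ∀ g h : F', Φ (g * h) = Φ g * Φ h := by
    intro g h
    simp only [Φ, map_mul, mul_pow, Finset.prod_mul_distrib]
  -- the case of an element of `B`
  have hB : ∀ b : B, b ≠ 0 →
      𝔪.valuation F (Algebra.norm F (algebraMap B F' b)) = Φ (algebraMap B F' b) := by
    intro b hb
    rw [← Algebra.algebraMap_intNorm (A := A) (B := B) (K := F) (L := F') b,
      HeightOneSpectrum.valuation_of_algebraMap, tres4nf_intValuation_intNorm hf1 b hb]
    refine Finset.prod_congr rfl fun P _ => ?_
    rw [HeightOneSpectrum.valuation_of_algebraMap]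
  obtain ⟨b₁, b₂, hb₂, hfb⟩ := IsFractionRing.div_surjective (A := B) f
  have hb₂0 : b₂ ≠ 0 := nonZeroDivisors.ne_zero hb₂
  have hβ₂0 : algebraMap B F' b₂ ≠ 0 := by
    rw [Ne, map_eq_zero_iff _ (IsFractionRing.injective B F')]
    exact hb₂0
  have hb₁0 : b₁ ≠ 0 := by
    rintro rfl
    rw [map_zero, zero_div] at hfb
    exact hf hfb.symm
  have hmul : f * algebraMap B F' b₂ = algebraMap B F' b₁ := by
    rw [← hfb]
    field_simp
  have h1 : 𝔪.valuation F (Algebra.norm F f) * 𝔪.valuation F (Algebra.norm F (algebraMap B F' b₂))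
      = 𝔪.valuation F (Algebra.norm F (algebraMap B F' b₁)) := by
    rw [← map_mul, ← map_mul, hmul]
  have h2 : Φ f * Φ (algebraMap B F' b₂) = Φ (algebraMap B F' b₁) := by
    rw [← hΦmul, hmul]
  rw [hB b₁ hb₁0, hB b₂ hb₂0, ← h2] at h1
  have hne : Φ (algebraMap B F' b₂) ≠ 0 := by
    simp only [Φ]
    rw [Finset.prod_ne_zero_iff]
    intro P _
    apply pow_ne_zero
    rw [Valuation.ne_zero_iff]
    exact hβ₂0
  exact mul_right_cancel₀ hne h1

/-! ## the local dictionary at a place `v` of `F`, `F'/F` finite separable -/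

section placesOver

variable {K F F' : Type*} [Field K] [Field F] [Field F'] [Algebra K F] [Algebra K F']
  [Algebra F F'] [IsScalarTower K F F'] [FiniteDimensional F F'] [Algebra.IsSeparable F F']

theorem tres4nf_isDedekindDomain_Bv (v : Place K F) : IsDedekindDomain (Bv F' v) :=
  integralClosure.isDedekindDomain v.toValuationSubring F F'

theorem tres4nf_isFractionRing_Bv (v : Place K F) : IsFractionRing (Bv F' v) F' :=
  integralClosure.isFractionRing_of_finite_extension F F'

theorem tres4nf_finite_Bv (v : Place K F) : Module.Finite v.toValuationSubring (Bv F' v) :=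
  IsIntegralClosure.finite v.toValuationSubring F F' (Bv F' v)

theorem tres4nf_isTorsionFree_Bv (v : Place K F) :
    Module.IsTorsionFree v.toValuationSubring (Bv F' v) :=
  IsIntegralClosure.isTorsionFree v.toValuationSubring F'

attribute [local instance] tres4nf_isDedekindDomain_Bv tres4nf_isFractionRing_Bv
  tres4nf_finite_Bv tres4nf_isTorsionFree_Bv

/-- The place of `F'` attached to a nonzero prime of `B_v`. -/
def tres4nf_placeOf (v : Place K F) (P : HeightOneSpectrum (Bv F' v)) : Place K F' :=
  placeOfPrime (hK_Bv v) P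

theorem tres4nf_placeOf_ord (v : Place K F) (P : HeightOneSpectrum (Bv F' v)) {f : F'}
    (hf : f ≠ 0) : (tres4nf_placeOf v P).ord f = - log (P.valuation F' f) :=
  placeOfPrime_ord (hK_Bv v) P hf

theorem tres4nf_placeOf_injective (v : Place K F) :
    Function.Injective (tres4nf_placeOf (F' := F') v) :=
  placeOfPrime_injective (hK_Bv v)

theorem tres4nf_placeOf_restrict (v : Place K F) (P : HeightOneSpectrum (Bv F' v)) :
    (tres4nf_placeOf v P).restrict F = v := by
  symm
  apply Place.ext
  refine ValuationSubring.eq_of_le_of_ne_top _ ?_ ((tres4nf_placeOf v P).restrict F).ne_top'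
  intro a ha
  rw [Place.restrict_toValuationSubring, ValuationSubring.mem_comap]
  show algebraMap F F' a ∈ (P.valuation F').valuationSubring
  rw [Valuation.mem_valuationSubring_iff]
  have hint : IsIntegral v.toValuationSubring (algebraMap F F' a) := by
    have : algebraMap F F' a = algebraMap v.toValuationSubring F' ⟨a, ha⟩ := rfl
    rw [this]
    exact isIntegral_algebraMap
  have : algebraMap F F' a = algebraMap (Bv F' v) F' ⟨algebraMap F F' a, hint⟩ := rfl
  rw [this]
  exact P.valuation_le_one _

theorem tres4nf_exists_placeOf_eq (v : Place K F) (w : Place K F') (hw : w.restrict F = v) :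
    ∃ P : HeightOneSpectrum (Bv F' v), tres4nf_placeOf v P = w := by
  refine exists_placeOfPrime_eq (hK_Bv v) w ?_
  rintro ⟨b, hb⟩
  show b ∈ w.toValuationSubring
  -- `b` is integral over `O_v ⊆ O_w`, and `O_w` is integrally closed
  have hle : ∀ a : v.toValuationSubring,
      algebraMap v.toValuationSubring F' a ∈ w.toValuationSubring := by
    intro a
    have ha : (a : F) ∈ (w.restrict F).toValuationSubring := by rw [hw]; exact a.2
    exact ha
  let ι : v.toValuationSubring →+* w.toValuationSubring :=
    (algebraMap v.toValuationSubring F').codRestrict w.toValuationSubring.toSubring hle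
  have hb' : IsIntegral w.toValuationSubring b := by
    obtain ⟨p, hp, hpb⟩ := hb
    refine ⟨p.map ι, hp.map _, ?_⟩
    rw [← hpb, Polynomial.eval₂_map]
    rfl
  obtain ⟨y, hy⟩ := IsIntegrallyClosed.isIntegral_iff.mp hb'
  rw [← hy]
  exact y.2

/-- The places over `v` are exactly the `tres4nf_placeOf v P`. -/
theorem tres4nf_restrict_eq_iff (v : Place K F) (w : Place K F') :
    w.restrict F = v ↔ ∃ P : HeightOneSpectrum (Bv F' v), tres4nf_placeOf v P = w :=
  ⟨tres4nf_exists_placeOf_eq v w, fun ⟨P, hP⟩ => hP ▸ tres4nf_placeOf_restrict v P⟩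

/-! ## `Σ e·f = n` and the norm formula -/

variable [IsAlgClosed K]

/-- Mathlib's inertia degree of a prime of `B_v` over `O_v` is `1`. -/
theorem tres4nf_ideal_inertiaDeg_eq_one
    (hresF : ∀ v : Place K F, Function.Bijective (algebraMap K v.ResidueField))
    (v : Place K F) (P : HeightOneSpectrum (Bv F' v)) :
    P.asIdeal.inertiaDeg v.toValuationSubring = 1 := by
  haveI := liesOver_maximalIdeal (A := v.toValuationSubring) P
  haveI : P.asIdeal.IsMaximal := P.isMaximal
  haveI : (IsLocalRing.maximalIdeal v.toValuationSubring).IsMaximal :=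
    IsLocalRing.maximalIdeal.isMaximal _
  rw [Ideal.inertiaDeg_eq_of_isMaximal (IsLocalRing.maximalIdeal v.toValuationSubring) P.asIdeal]
  let e : K ≃+* (v.toValuationSubring ⧸ IsLocalRing.maximalIdeal v.toValuationSubring) :=
    RingEquiv.ofBijective (algebraMap K v.ResidueField) (hresF v)
  exact polyClosure_finrank_eq_one
    (k' := v.toValuationSubring ⧸ IsLocalRing.maximalIdeal v.toValuationSubring)
    (L := (Bv F' v) ⧸ P.asIdeal)
    ((Ideal.Quotient.maximal_ideal_iff_isField_quotient _).mp inferInstance) e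

/-- The norm formula in terms of the primes of `B_v`. -/
theorem tres4nf_ord_norm_eq_sum
    (hresF : ∀ v : Place K F, Function.Bijective (algebraMap K v.ResidueField))
    (v : Place K F) [Fintype (HeightOneSpectrum (Bv F' v))] (f : F') (hf : f ≠ 0) :
    v.ord (Algebra.norm F f) =
      ∑ P : HeightOneSpectrum (Bv F' v), (tres4nf_placeOf v P).ord f := by
  have h := (tres4nf_valuation_norm (A := v.toValuationSubring) (B := Bv F' v) (F := F)
    (F' := F') (fun P => tres4nf_ideal_inertiaDeg_eq_one hresF v P) f hf).2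
  rw [finprod_eq_prod_of_fintype] at h
  have h1 : v.adicValuation (Algebra.norm F f) =
      ∏ P : HeightOneSpectrum (Bv F' v), P.valuation F' f := by
    refine h.trans (Finset.prod_congr rfl fun P _ => ?_)
    rw [tres4nf_ideal_inertiaDeg_eq_one hresF v P, pow_one]
  unfold Place.ord
  rw [h1, log_prod_ne_zero _ _ fun P _ => (Valuation.ne_zero_iff _).mpr hf,
    ← Finset.sum_neg_distrib]
  exact Finset.sum_congr rfl fun P _ => (tres4nf_placeOf_ord v P hf).symm

/-- The finite set of places over `v`. -/
theorem tres4nf_sum_placeOf_eq_sum_image (v : Place K F)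
    [Fintype (HeightOneSpectrum (Bv F' v))] [DecidableEq (Place K F')] (g : Place K F' → ℤ) :
    ∑ P : HeightOneSpectrum (Bv F' v), g (tres4nf_placeOf v P) =
      ∑ w ∈ Finset.univ.image (tres4nf_placeOf (F' := F') v), g w :=
  (Finset.sum_image fun _ _ _ _ h => tres4nf_placeOf_injective v h).symm

theorem tres4nf_mem_image_placeOf_iff (v : Place K F)
    [Fintype (HeightOneSpectrum (Bv F' v))] [DecidableEq (Place K F')] (w : Place K F') :
    w ∈ Finset.univ.image (tres4nf_placeOf (F' := F') v) ↔ w.restrict F = v := by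
  rw [tres4nf_restrict_eq_iff, Finset.mem_image]
  simp

/-- **Norm formula**: `div (N_{F'/F} f)` is the push-forward of `div f` (`F'/F` finite separable,
`K` algebraically closed of any characteristic). -/
theorem tres4nf_pushforwardNormFormula
    (hresF : ∀ v : Place K F, Function.Bijective (algebraMap K v.ResidueField))
    (hresF' : ∀ w : Place K F', Function.Bijective (algebraMap K w.ResidueField)) :
    Divisor.PushforwardNormFormula K F F' := by
  classical
  intro f hf D hD v
  haveI : Finite (HeightOneSpectrum (Bv F' v)) := finite_heightOneSpectrum v.toValuationSubring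
  haveI : Fintype (HeightOneSpectrum (Bv F' v)) := Fintype.ofFinite _
  rw [Divisor.pushforward_apply, tres4nf_ord_norm_eq_sum hresF v f hf,
    tres4nf_sum_placeOf_eq_sum_image v fun w => w.ord f]
  have h1 : ∀ w ∈ D.support, (if w.restrict F = v then D w * (w.inertiaDeg F : ℤ) else 0) =
      if w ∈ Finset.univ.image (tres4nf_placeOf (F' := F') v) then w.ord f else 0 := by
    intro w _
    simp only [tres4nf_mem_image_placeOf_iff, inertiaDeg_eq_one hresF' w, hD w, Nat.cast_one,
      mul_one]
  rw [Finset.sum_congr rfl h1, Finset.sum_ite_mem]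
  refine Finset.sum_subset Finset.inter_subset_right fun w hw hnot => ?_
  have : w ∉ D.support := fun h => hnot (Finset.mem_inter.mpr ⟨h, hw⟩)
  rw [Finsupp.notMem_support_iff, hD w] at this
  exact this

/-- **Fundamental identity** `Σ e·f = n` (`F'/F` finite separable, `K` algebraically closed of any
characteristic). -/
theorem tres4nf_sumRamificationInertia [HasPrincipalDivisors K F']
    (hresF : ∀ v : Place K F, Function.Bijective (algebraMap K v.ResidueField))
    (hresF' : ∀ w : Place K F', Function.Bijective (algebraMap K w.ResidueField)) :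
    SumRamificationInertia K F F' := by
  classical
  refine ⟨fun v => ?_⟩
  haveI : Finite (HeightOneSpectrum (Bv F' v)) := finite_heightOneSpectrum v.toValuationSubring
  haveI : Fintype (HeightOneSpectrum (Bv F' v)) := Fintype.ofFinite _
  obtain ⟨π, hπ⟩ := IsDiscreteValuationRing.exists_irreducible v.toValuationSubring
  have hπord : v.ord (π : F) = 1 := v.ord_coe_irreducible hπ
  have hπ0 : (π : F) ≠ 0 := by
    intro h
    rw [h, v.ord_zero] at hπord
    exact zero_ne_one hπord
  have hfib : v.fiber F' = Finset.univ.image (tres4nf_placeOf (F' := F') v) := by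
    ext w
    rw [Place.mem_fiber, tres4nf_mem_image_placeOf_iff]
  have hterm : ∀ w ∈ v.fiber F', (w.ramificationIndex F : ℤ) * (w.inertiaDeg F : ℤ) =
      w.ord (algebraMap F F' (π : F)) := by
    intro w hw
    rw [w.ord_restrict (π : F), Place.mem_fiber.mp hw, hπord, inertiaDeg_eq_one hresF' w]
    simp
  rw [Finset.sum_congr rfl hterm, hfib,
    ← tres4nf_sum_placeOf_eq_sum_image v fun w => w.ord (algebraMap F F' (π : F)),
    ← tres4nf_ord_norm_eq_sum hresF v _ ((map_ne_zero _).mpr hπ0), Algebra.norm_algebraMap,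
    ← zpow_natCast, v.ord_zpow, hπord, mul_one]

end placesOver

end Fermat.Agent.R38

end
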