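import Fermat.Agent.RIB.MP.ValHecke
import Fermat.Agent.R38.TresRedHecke
import Fermat.Agent.R38.TresGeo

/-!
# Row 38, PKG-TRES, piece FAC-EIS (G1): the Gauss reduction of `T_ℓ u / u ^ (ℓ + 1)`  (helper42)

`A ⊂ ℚ̄` a valuation ring over `q`, `k = kA A`, `ℓ ≠ q` a prime, `ℓ ∤ N`.  If `u ∈ F_N` is a
Kummer function of `x` with Gauss reduction `r` (`R38Red A u r`), then
`u′ = T_ℓ u / u ^ (ℓ + 1)` (`RIB.MP.ribmpEisFun`) is a Kummer function of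
`eisKill ℓ x = T_ℓ x − (ℓ + 1) x` with Gauss reduction `T̄_ℓ r / r ^ (ℓ + 1)`
(`T̄_ℓ = kronHecke ℓ ζ̄`, `ζ̄` a primitive `ℓ`-th root of unity of `k`).

* `tres4rEis ℓ ζ̄ r := kronHecke ℓ ζ̄ r / r ^ (ℓ + 1)`;
* `tres4r_red`   : `R38Red A u r ⇒ R38Red A (T_ℓ u / u^(ℓ+1)) (tres4rEis ℓ ζ̄ r)`;
* `tres4r_main`  : the Kummer function of `eisKill ℓ x` and its reduction.
-/

set_option autoImplicit false
set_option linter.unusedSectionVars false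
set_option linter.style.haveILetI false

noncomputable section

namespace Fermat.Agent.R38

open HahnSeries ModularCurve AlgebraicCurve Fermat.Agent.ES Fermat.Agent.ES.G2 Fermat.Agent.ES.M
  Fermat.Agent.RIB.MP Fermat.Agent.S24

/-- `T̄_ℓ r / r ^ (ℓ + 1)` on `q`-expansions -/
def tres4rEis {k : Type*} [Field k] (ℓ : ℕ) [NeZero ℓ] (ζ : kˣ) (r : LaurentSeries k) :
    LaurentSeries k :=
  kronHecke ℓ ζ r / r ^ (ℓ + 1)

variable {N : ℕ} [NeZero N] {A : ValuationSubring Qb}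

/-- the Gauss reduction of `T_ℓ u / u ^ (ℓ + 1)` -/
theorem tres4r_red {q : ℕ} (hq : q.Prime) (hA : A.LiesOverPrime q) (ℓ : ℕ) [NeZero ℓ]
    (hℓ : ℓ.Prime) (hℓN : ¬ ℓ ∣ N) (hℓq : ℓ ≠ q) {u : modularFunctionFieldBar N}
    {r : LaurentSeries (kA A)} (h : R38Red A (u : LaurentSeries Qb) r) :
    ∃ ζb : (kA A)ˣ, IsPrimitiveRoot ζb ℓ ∧
      R38Red A ((ribmpEisFun N ℓ u : modularFunctionFieldBar N) : LaurentSeries Qb)
        (tres4rEis ℓ ζb r) := by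
  obtain ⟨ζ, hζ⟩ := frob_exists_primitiveRoot ℓ hℓ.ne_zero
  haveI : CharP (kA A) q := kron_charP_residueField hq hA
  have hℓk : ((ℓ : ℕ) : kA A) ≠ 0 := by
    intro h0
    have hd : q ∣ ℓ := (CharP.cast_eq_zero_iff (kA A) q ℓ).1 h0
    exact hℓq ((Nat.prime_dvd_prime_iff_eq hq hℓ).1 hd).symm
  obtain ⟨ζA, rfl, hζb⟩ := r38red_exists_root A hℓ hℓk ζ hζ
  refine ⟨_, hζb, ?_⟩
  rw [ribmpEisFun_coe ℓ hℓ hℓN _ hζ u]
  exact (h.kronHecke ℓ ζA hζ hζb).div (h.pow (ℓ + 1))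

/-- **FAC-EIS (G1)**: the Kummer function of `eisKill ℓ x` and its Gauss reduction -/
theorem tres4r_main {q : ℕ} (hq : q.Prime) (hA : A.LiesOverPrime q) (ℓ : Nat.Primes)
    (hℓN : ¬ (ℓ : ℕ) ∣ N) (hℓq : (ℓ : ℕ) ≠ q) {m : ℕ} {x : JZero N}
    {u : modularFunctionFieldBar N} (hxu : KummerRel m x u)
    {r : LaurentSeries (kA A)} (h : R38Red A (u : LaurentSeries Qb) r) :
    haveI : NeZero (ℓ : ℕ) := ⟨ℓ.2.ne_zero⟩
    ∃ (u' : modularFunctionFieldBar N) (ζb : (kA A)ˣ), IsPrimitiveRoot ζb (ℓ : ℕ) ∧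
      KummerRel m (eisKill ℓ x) u' ∧
      R38Red A (u' : LaurentSeries Qb) (tres4rEis (ℓ : ℕ) ζb r) := by
  haveI : NeZero (ℓ : ℕ) := ⟨ℓ.2.ne_zero⟩
  obtain ⟨ζb, hζb, hred⟩ := tres4r_red hq hA (ℓ : ℕ) ℓ.2 hℓN hℓq h
  exact ⟨ribmpEisFun N (ℓ : ℕ) u, ζb, hζb, ribmp_vh_kummerRel ℓ hxu, hred⟩

end Fermat.Agent.R38

end
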