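/-
ROW 38, piece PKG-TRES / FAC-EIS (E) EIS-SEP (helper64):
THE FUNCTION FIELD OF LEVEL `N ℓ` IS SEPARABLE OVER THE FUNCTION FIELD OF LEVEL `N`.

`k` any field, `ℓ` a prime with `(ℓ : k) ≠ 0`, `ℓ ∤ N`:
`modularFunctionFieldFullC k (N * ℓ) = k(j(q^d) : d ∣ N ℓ)` is separable over
`modularFunctionFieldFullC k N`.

* `tres4s_sep_of_factor`   : `(X - u) * h` is separable if `h` is irreducible of degree `ℓ ≥ 2`,
                             `ℓ ≠ 0` in the field;
* `tres4s_gen_isSeparable` : `j(q^{ℓ d})` is separable over any `E ∋ j(q^d)`, `ℓ ∤ d`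
                             (the modular equation `Φ_ℓ(X, j(q^d)) = (X - j(q^{ℓ d})) * h` over
                             `k((q))`, `h` irreducible: `S28.exists_factor`);
* `tres4s_isSeparable_mem` : every element of the field of level `N ℓ` is separable over the
                             field of level `N` (elements of `k((q))`);
* `tres4s_separable`       : the `Algebra.IsSeparable` form consumed by FAC-EIS (helper60);
* `tres4s_separable_extendScalars` : the same for `IntermediateField.extendScalars`.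
No root of unity is needed.
-/
import Fermat.Agent.S28.PrimeHypMain

set_option autoImplicit false
set_option linter.unusedSectionVars false
set_option linter.unusedVariables false
set_option linter.style.haveILetI false

noncomputable section

namespace Fermat.Agent.R38

open ModularCurve Polynomial IntermediateField Fermat.Agent.S28

/-- `(X - u) * h` is separable if `h` is irreducible of degree `ℓ ≥ 2` and `ℓ ≠ 0` in `L`. -/
theorem tres4s_sep_of_factor {L : Type*} [Field L] (u : L) {h : L[X]} (hirr : Irreducible h)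
    {ℓ : ℕ} (hℓ2 : 2 ≤ ℓ) (hdeg : h.natDegree = ℓ) (hℓL : ((ℓ : ℕ) : L) ≠ 0) :
    ((X - C u) * h).Separable := by
  have hsep : h.Separable := by
    rw [Polynomial.separable_iff_derivative_ne_zero hirr]
    intro h0
    have h1 : (derivative h).coeff (ℓ - 1) = 0 := by rw [h0, coeff_zero]
    rw [coeff_derivative] at h1
    have h2 : ℓ - 1 + 1 = ℓ := by omega
    have h3 : (((ℓ - 1 : ℕ) : L) + 1) = ((ℓ : ℕ) : L) := by
      rw [← Nat.cast_succ, Nat.succ_eq_add_one, h2]
    rw [h2, h3] at h1
    have h4 : h.coeff ℓ ≠ 0 := by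
      rw [← hdeg]
      exact leadingCoeff_ne_zero.2 hirr.ne_zero
    exact (mul_ne_zero h4 hℓL) h1
  refine Separable.mul separable_X_sub_C hsep ?_
  refine ((Irreducible.coprime_iff_not_dvd hirr).2 ?_).symm
  intro hdvd
  have h5 := natDegree_le_of_dvd hdvd (X_sub_C_ne_zero u)
  rw [natDegree_X_sub_C, hdeg] at h5
  omega

section Gen

variable (k : Type*) [Field k]

/-- **The new generators are separable**: `j(q^{ℓ d})` is separable over every intermediate
field containing `j(q^d)`, for a prime `ℓ ∤ d` with `ℓ ≠ 0` in `k`. -/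
theorem tres4s_gen_isSeparable {ℓ : ℕ} (hℓ : ℓ.Prime) (hℓk : ((ℓ : ℕ) : k) ≠ 0) {d : ℕ}
    (hd : d ≠ 0) (hℓd : ¬ ℓ ∣ d) (E : IntermediateField k (LaurentSeries k))
    (hdE : sig k d (jqModC k) ∈ E) :
    IsSeparable E (sig k (ℓ * d) (jqModC k)) := by
  haveI : NeZero ℓ := ⟨hℓ.ne_zero⟩
  obtain ⟨Φ, hΦ⟩ : ∃ Φ, ModEq (sig k) (jqModC k) ℓ Φ := by
    obtain ⟨Φ, h1, h2, h3, h4⟩ := ub_modEq k ℓ hℓ
    refine ⟨Φ, h1, h2, ?_, ?_⟩
    · rw [sig_apply]
      exact h3
    · rw [sig_apply]
      exact h4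
  obtain ⟨h, hirr, hfac⟩ := exists_factor (sig_mul k) (lowDeg_sig k) hℓ hd hℓd hΦ
  have hGd : (Φ.map (aeval (sig k d (jqModC k)) : k[X] →ₐ[k] LaurentSeries k).toRingHom).natDegree
      = ℓ + 1 := by
    rw [hΦ.1.natDegree_map, hΦ.2.1]
  have hdeg : h.natDegree = ℓ := by
    have h1 := congrArg natDegree hfac
    rw [hGd, natDegree_mul (X_sub_C_ne_zero _) hirr.ne_zero, natDegree_X_sub_C] at h1
    omega
  have hℓL : ((ℓ : ℕ) : LaurentSeries k) ≠ 0 := by
    rw [← map_natCast (algebraMap k (LaurentSeries k))]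
    exact (_root_.map_ne_zero _).2 hℓk
  have hsepG := tres4s_sep_of_factor (sig k (ℓ * d) (jqModC k)) hirr hℓ.two_le hdeg hℓL
  rw [← hfac, ← polyAt_map E Φ hdE] at hsepG
  have hsepP : (polyAt E Φ hdE).Separable :=
    (Polynomial.separable_map (algebraMap E (LaurentSeries k))).1 hsepG
  have hroot : aeval (sig k (ℓ * d) (jqModC k)) (polyAt E Φ hdE) = 0 := by
    rw [polyAt_aeval, mul_comm ℓ d, ← σ_σ (sig_mul k) hd hℓ.ne_zero, ← map_eval₂_aeval,
      hΦ.2.2.1, map_zero]
  exact hsepP.of_dvd (minpoly.dvd E _ hroot)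

/-- **EIS-SEP, element form**: every element of `k(j(q^d) : d ∣ N ℓ)` is separable over
`k(j(q^d) : d ∣ N)`. -/
theorem tres4s_isSeparable_mem (N ℓ : ℕ) [NeZero N] [NeZero ℓ] (hℓ : ℓ.Prime) (hℓN : ¬ ℓ ∣ N)
    (hℓk : ((ℓ : ℕ) : k) ≠ 0) :
    ∀ x ∈ modularFunctionFieldFullC k (N * ℓ), IsSeparable (modularFunctionFieldFullC k N) x := by
  have hle : modularFunctionFieldFullC k (N * ℓ) ≤
      (separableClosure (modularFunctionFieldFullC k N) (LaurentSeries k)).restrictScalars k := by
    rw [modularFunctionFieldFullC, adjoin_le_iff]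
    rintro x ⟨d, hne, hd, rfl⟩
    haveI := hne
    show qExpand k d (jqModC k) ∈
      separableClosure (modularFunctionFieldFullC k N) (LaurentSeries k)
    rw [mem_separableClosure_iff]
    by_cases hℓd : ℓ ∣ d
    · obtain ⟨d', rfl⟩ := hℓd
      have hd' : d' ∣ N := by
        rw [mul_comm N ℓ] at hd
        exact Nat.dvd_of_mul_dvd_mul_left hℓ.pos hd
      have hd'0 : d' ≠ 0 := fun h => NeZero.ne N (by rw [h] at hd'; exact zero_dvd_iff.mp hd')
      haveI : NeZero d' := ⟨hd'0⟩
      have hℓd' : ¬ ℓ ∣ d' := fun h => hℓN (h.trans hd')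
      have hmem : sig k d' (jqModC k) ∈ modularFunctionFieldFullC k N := by
        rw [sig_apply]
        exact jqModCd_mem_full k N hd'
      have h := tres4s_gen_isSeparable k hℓ hℓk hd'0 hℓd' (modularFunctionFieldFullC k N) hmem
      rwa [sig_apply] at h
    · have hdN : d ∣ N :=
        ((Nat.Prime.coprime_iff_not_dvd hℓ).mpr hℓd).symm.dvd_of_dvd_mul_right hd
      have hx : qExpand k d (jqModC k) ∈ modularFunctionFieldFullC k N :=
        jqModCd_mem_full k N hdN
      exact isSeparable_algebraMap (⟨_, hx⟩ : modularFunctionFieldFullC k N)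
  intro x hx
  exact mem_separableClosure_iff.1 (hle hx)

/-- **EIS-SEP**, the form consumed by FAC-EIS.  (The hypotheses `ζ`, `hζ` are not used.) -/
theorem tres4s_separable (N ℓ : ℕ) [NeZero N] [NeZero ℓ] (hℓ : ℓ.Prime) (hℓN : ¬ ℓ ∣ N)
    (hℓk : ((ℓ : ℕ) : k) ≠ 0) (ζ : kˣ) (hζ : IsPrimitiveRoot ζ ℓ) :
    letI := (IntermediateField.inclusion (Fermat.Agent.S28.UB.full_mono k (Dvd.intro ℓ rfl) :
        modularFunctionFieldFullC k N ≤ modularFunctionFieldFullC k (N * ℓ))).toRingHom.toAlgebra
    Algebra.IsSeparable (modularFunctionFieldFullC k N) (modularFunctionFieldFullC k (N * ℓ)) := by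
  letI := (IntermediateField.inclusion (Fermat.Agent.S28.UB.full_mono k (Dvd.intro ℓ rfl) :
        modularFunctionFieldFullC k N ≤ modularFunctionFieldFullC k (N * ℓ))).toRingHom.toAlgebra
  haveI : IsScalarTower (modularFunctionFieldFullC k N) (modularFunctionFieldFullC k (N * ℓ))
      (LaurentSeries k) := IsScalarTower.of_algebraMap_eq (fun x => rfl)
  refine ⟨fun x => ?_⟩
  have h := tres4s_isSeparable_mem k N ℓ hℓ hℓN hℓk (x : LaurentSeries k) x.2
  unfold IsSeparable at h ⊢
  have e : minpoly (modularFunctionFieldFullC k N)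
      (algebraMap (modularFunctionFieldFullC k (N * ℓ)) (LaurentSeries k) x) =
      minpoly (modularFunctionFieldFullC k N) x :=
    minpoly.algebraMap_eq (algebraMap (modularFunctionFieldFullC k (N * ℓ))
      (LaurentSeries k)).injective x
  rw [← e]
  exact h

/-- **EIS-SEP**, `extendScalars` form. -/
theorem tres4s_separable_extendScalars (N ℓ : ℕ) [NeZero N] [NeZero ℓ] (hℓ : ℓ.Prime)
    (hℓN : ¬ ℓ ∣ N) (hℓk : ((ℓ : ℕ) : k) ≠ 0) :
    Algebra.IsSeparable (modularFunctionFieldFullC k N)
      (IntermediateField.extendScalars (Fermat.Agent.S28.UB.full_mono k (Dvd.intro ℓ rfl) :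
        modularFunctionFieldFullC k N ≤ modularFunctionFieldFullC k (N * ℓ))) := by
  refine ⟨fun x => ?_⟩
  have h := tres4s_isSeparable_mem k N ℓ hℓ hℓN hℓk (x : LaurentSeries k) x.2
  unfold IsSeparable at h ⊢
  have e : minpoly (modularFunctionFieldFullC k N)
      (algebraMap (IntermediateField.extendScalars
        (Fermat.Agent.S28.UB.full_mono k (Dvd.intro ℓ rfl) :
        modularFunctionFieldFullC k N ≤ modularFunctionFieldFullC k (N * ℓ)))
        (LaurentSeries k) x) =
      minpoly (modularFunctionFieldFullC k N) x :=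
    minpoly.algebraMap_eq (algebraMap (IntermediateField.extendScalars
        (Fermat.Agent.S28.UB.full_mono k (Dvd.intro ℓ rfl) :
        modularFunctionFieldFullC k N ≤ modularFunctionFieldFullC k (N * ℓ)))
      (LaurentSeries k)).injective x
  rw [← e]
  exact h

end Gen

end Fermat.Agent.R38

end
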