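import Fermat.Agent.R38.PlanFac
import Fermat.Agent.R38.PlanEisK
import Fermat.Agent.R38.TresEisRed
import Fermat.Agent.R38.TresEisAbs
import Fermat.Agent.R38.TresEisNF
import Fermat.Agent.R38.TresEisSep
import Fermat.Agent.R38.TresEisCusp
import Fermat.Agent.DEU.ModHyp
import Fermat.Agent.ES.G2.HeckeDeg
import Fermat.Agent.ES.HFinite

/-!
# Row 38, PKG-TRES, piece FAC-EIS (G): the glue `StmtFacMono ⇒ StmtFacP`  (helper42)

`k = kA A`, `F̄_M = modularFunctionFieldFullC k M ⊂ F̄_{Mℓ}` (inclusion `ᾱ`), `β̄ f = f(q^ℓ)`.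

* `tres4g_abs`     : abstract form (`tres4_eis_kill` off the cusps, `tres4_eis_abs_cusp` at the
                     cusps, cusps `= {Q | ord_Q t < 0}`, `p ∤ a`): `p ∣ ord_Q (N ψ f / f ^ m)`
                     at ALL places `Q`;
* `StmtEisNormK`   : **(C)**, the Hecke norm on the `k`-side,
                     `N_{F̄_{Mℓ}/F̄_M} (f(q^ℓ)) = kronHecke ℓ ζ̄ f` (INPUT, helper60);
* `tres4g_main`    : the `k`-side of the Eisenstein step for `F̄_M ⊂ F̄_{Mℓ}`;
* `stmtFacEis_of`  : `StmtEisNormK → StmtFacEis`   (`StmtFacEis = StmtFacMono → StmtFacP`).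
-/

set_option autoImplicit false
set_option linter.unusedSectionVars false
set_option linter.unusedVariables false
set_option linter.style.haveILetI false
set_option synthInstance.maxHeartbeats 400000
set_option maxHeartbeats 1600000

noncomputable section

namespace Fermat.Agent.R38

open HahnSeries ModularCurve AlgebraicCurve Fermat.Agent.ES Fermat.Agent.ES.G2 Fermat.Agent.ES.M
  Fermat.Agent.RIB.MP Fermat.Agent.S24 Fermat.Agent.DEU Fermat.Agent.STB Fermat.Agent.RIB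
  IntermediateField

/-! ## the abstract form -/

section Abs

variable {K F F' : Type*} [Field K] [Field F] [Field F'] [Algebra K F] [Algebra K F']
  [Algebra F F'] [IsScalarTower K F F'] [Algebra.IsIntegral F F'] [Module.Finite F F']
  [HasPrincipalDivisors K F']

omit [Module.Finite F F'] [HasPrincipalDivisors K F'] in
theorem tres4g_restrict_neg_iff (w : Place K F') (t : F) :
    (w.restrict F).ord t < 0 ↔ w.ord (algebraMap F F' t) < 0 := by
  rw [w.ord_restrict t]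
  have he : (0 : ℤ) < (w.ramificationIndex F : ℤ) := by
    exact_mod_cast w.ramificationIndex_pos (F := F)
  constructor
  · intro h
    exact mul_neg_of_pos_of_neg he h
  · intro h
    by_contra hcon
    exact absurd h (not_lt.2 (mul_nonneg he.le (not_lt.1 hcon)))

omit [Module.Finite F F'] [HasPrincipalDivisors K F'] [Algebra.IsIntegral F F']
  [IsScalarTower K F F'] [Algebra F F'] in
theorem tres4g_restrictAlong_neg_iff (ψ : F →ₐ[K] F') (hψ : ψ.toRingHom.IsIntegral)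
    (w : Place K F') (t : F) :
    (w.restrictAlong ψ hψ).ord t < 0 ↔ w.ord (ψ t) < 0 := by
  rw [Place.ord_restrictAlong ψ hψ w t]
  have he : (0 : ℤ) < (Place.ramificationIndexAlong ψ w : ℤ) := by
    letI := algebraAlong ψ
    haveI := isIntegral_along ψ hψ
    exact_mod_cast w.ramificationIndex_pos (F := F)
  constructor
  · intro h
    exact mul_neg_of_pos_of_neg he h
  · intro h
    by_contra hcon
    exact absurd h (not_lt.2 (mul_nonneg he.le (not_lt.1 hcon)))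

/-- **the Eisenstein step, abstract form, at all places.** -/
theorem tres4g_abs (hN : Divisor.PushforwardNormFormula K F F')
    (ψ : F →ₐ[K] F') (hψ : ψ.toRingHom.IsIntegral) (t : F)
    (hcusp : ∀ w : Place K F', 0 ≤ w.ord (algebraMap F F' t) ↔ 0 ≤ w.ord (ψ t))
    {p : ℕ} (hp : p.Prime) (a b : ℤ) (ha : ¬ (p : ℤ) ∣ a) {f h : F} (hf : f ≠ 0) (hh : h ≠ 0)
    (hnc : ∀ Q : Place K F, 0 ≤ Q.ord t → (p : ℤ) ∣ a * Q.ord f - b * Q.ord h)
    (hc : ∀ Q : Place K F, Q.ord t < 0 → (p : ℤ) ∣ Q.ord f)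
    (m : ℕ) (hconst : ∀ Q : Place K F, Q.ord (Algebra.norm F (ψ h)) = m * Q.ord h)
    (Q : Place K F) :
    (p : ℤ) ∣ Q.ord (Algebra.norm F (ψ f) * (f ^ m)⁻¹) := by
  have hiff : ∀ w : Place K F', (w.restrictAlong ψ hψ).ord t < 0 ↔ (w.restrict F).ord t < 0 := by
    intro w
    rw [tres4g_restrictAlong_neg_iff, tres4g_restrict_neg_iff, ← not_le, ← not_le, hcusp w]
  by_cases hQ : Q.ord t < 0
  · -- at the cusps
    have h1 := tres4_eis_abs_cusp hN ψ hψ {Q | Q.ord t < 0} (fun w hw => (hiff w).2 hw)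
      (p : ℤ) hf (fun Q hQ => hc Q hQ) Q hQ
    have hn1 : Algebra.norm F (ψ f) ≠ 0 := Algebra.norm_ne_zero_iff.2 ((map_ne_zero ψ).2 hf)
    rw [Q.ord_mul hn1 (inv_ne_zero (pow_ne_zero m hf)), Q.ord_inv, ← zpow_natCast, Q.ord_zpow]
    exact dvd_add h1 ((Dvd.dvd.mul_left (hc Q hQ) _).neg_right)
  · have h1 := tres4_eis_kill hN ψ hψ {Q | Q.ord t < 0} (fun w hw => (hiff w).1 hw)
      (p : ℤ) a b hf hh (fun Q hQ => hnc Q (not_lt.1 hQ)) m hconst Q hQ
    exact ((Nat.prime_iff_prime_int.1 hp).dvd_or_dvd h1).resolve_left ha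

end Abs

/-! ## the `k`-side -/

/-- `β̄ : F̄_N → F̄_{Nℓ}`, `f ↦ f(q^ℓ)` -/
def tres4gBeta (k : Type*) [Field k] (N ℓ : ℕ) [NeZero N] [NeZero ℓ] :
    ↥(modularFunctionFieldFullC k N) →ₐ[k] ↥(modularFunctionFieldFullC k (N * ℓ)) where
  toFun x := ⟨qExpand k ℓ (x : LaurentSeries k),
    full_degeneracyC_map_le k N ℓ ⟨(x : LaurentSeries k), x.2, rfl⟩⟩
  map_one' := Subtype.ext (map_one (qExpand k ℓ))
  map_mul' _ _ := Subtype.ext (map_mul (qExpand k ℓ) _ _)
  map_zero' := Subtype.ext (map_zero (qExpand k ℓ))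
  map_add' _ _ := Subtype.ext (map_add (qExpand k ℓ) _ _)
  commutes' a := Subtype.ext ((qExpandAlgHomC k ℓ).commutes a)

theorem tres4gBeta_coe (k : Type*) [Field k] (N ℓ : ℕ) [NeZero N] [NeZero ℓ]
    (x : ↥(modularFunctionFieldFullC k N)) :
    ((tres4gBeta k N ℓ x : ↥(modularFunctionFieldFullC k (N * ℓ))) : LaurentSeries k) =
      qExpand k ℓ (x : LaurentSeries k) := rfl

section KSide

variable (A : ValuationSubring Qb)

/-- **the `k`-side of the Eisenstein step**: from the divisibilities of MONO for `r` (with the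
Eisenstein function `h`) to `p ∣ div (T̄_ℓ r / r ^ (ℓ + 1))`. -/
theorem tres4g_main {p : ℕ} (hp : p.Prime) (hA : A.LiesOverPrime p) (M ℓ : ℕ) [NeZero M]
    [NeZero ℓ] (hℓ : ℓ.Prime) (hℓM : ¬ ℓ ∣ M) (hℓp : ℓ ≠ p) (ζ : (kA A)ˣ)
    (hζ : IsPrimitiveRoot ζ ℓ)
    (hnorm : ∀ (f : ↥(modularFunctionFieldFullC (kA A) M))
        (g : ↥(modularFunctionFieldFullC (kA A) (M * ℓ))),
        (g : LaurentSeries (kA A)) = qExpand (kA A) ℓ (f : LaurentSeries (kA A)) →
          letI := (IntermediateField.inclusion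
            (Fermat.Agent.S28.UB.full_mono (kA A) (Dvd.intro ℓ rfl) :
              modularFunctionFieldFullC (kA A) M ≤
                modularFunctionFieldFullC (kA A) (M * ℓ))).toRingHom.toAlgebra
          ((Algebra.norm ↥(modularFunctionFieldFullC (kA A) M) g :
              ↥(modularFunctionFieldFullC (kA A) M)) : LaurentSeries (kA A)) =
            kronHecke ℓ ζ (f : LaurentSeries (kA A)))
    {r h : LaurentSeries (kA A)} (hr : r ∈ modularFunctionFieldFullC (kA A) M)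
    (hh : h ∈ modularFunctionFieldFullC (kA A) M) (hr0 : r ≠ 0) (hh0 : h ≠ 0)
    (a b : ℤ) (ha : ¬ (p : ℤ) ∣ a)
    (hnc : ∀ Q : Place (kA A) ↥(modularFunctionFieldFullC (kA A) M),
      0 ≤ Q.ord (⟨jqModC (kA A), jqModC_mem_full (kA A) M⟩ :
          ↥(modularFunctionFieldFullC (kA A) M)) →
        (p : ℤ) ∣ a * Q.ord (⟨r, hr⟩ : ↥(modularFunctionFieldFullC (kA A) M)) -
          b * Q.ord (⟨h, hh⟩ : ↥(modularFunctionFieldFullC (kA A) M)))
    (hc : ∀ Q : Place (kA A) ↥(modularFunctionFieldFullC (kA A) M),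
      Q.ord (⟨jqModC (kA A), jqModC_mem_full (kA A) M⟩ :
          ↥(modularFunctionFieldFullC (kA A) M)) < 0 →
        (p : ℤ) ∣ Q.ord (⟨r, hr⟩ : ↥(modularFunctionFieldFullC (kA A) M)))
    {c : kA A} (hc0 : c ≠ 0) (hcH : kronHecke ℓ ζ h = HahnSeries.C c * h ^ (ℓ + 1)) :
    ∃ hub : tres4rEis ℓ ζ r ∈ modularFunctionFieldFullC (kA A) M,
      ∀ Q : Place (kA A) ↥(modularFunctionFieldFullC (kA A) M),
        (p : ℤ) ∣ Q.ord (⟨tres4rEis ℓ ζ r, hub⟩ : ↥(modularFunctionFieldFullC (kA A) M)) := by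
  classical
  haveI := modHyp_isAlgClosed A
  haveI : CharP (kA A) p := kron_charP_residueField hp hA
  have hℓk : ((ℓ : ℕ) : kA A) ≠ 0 := by
    intro h0
    have hd : p ∣ ℓ := (CharP.cast_eq_zero_iff (kA A) p ℓ).1 h0
    exact hℓp ((Nat.prime_dvd_prime_iff_eq hp hℓ).1 hd).symm
  have hle : modularFunctionFieldFullC (kA A) M ≤ modularFunctionFieldFullC (kA A) (M * ℓ) :=
    Fermat.Agent.S28.UB.full_mono (kA A) (Dvd.intro ℓ rfl)
  letI alg : Algebra ↥(modularFunctionFieldFullC (kA A) M)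
      ↥(modularFunctionFieldFullC (kA A) (M * ℓ)) :=
    (IntermediateField.inclusion hle).toRingHom.toAlgebra
  haveI hST : IsScalarTower (kA A) ↥(modularFunctionFieldFullC (kA A) M)
      ↥(modularFunctionFieldFullC (kA A) (M * ℓ)) :=
    isScalarTower_along (IntermediateField.inclusion hle)
  haveI hfinJ : FiniteDimensional (kA A)⟮resSideJ (kA A) (M * ℓ)⟯
      ↥(modularFunctionFieldFullC (kA A) (M * ℓ)) := resSide_finiteDimensional (kA A) (M * ℓ)
  haveI hfin : Module.Finite ↥(modularFunctionFieldFullC (kA A) M)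
      ↥(modularFunctionFieldFullC (kA A) (M * ℓ)) :=
    Fermat.Agent.ES.H.finiteAlong_of_transcendental (IntermediateField.inclusion hle)
      (resSideJ (kA A) (M * ℓ)) (resSide_transcendental_J (kA A) (M * ℓ))
      (resSideJ (kA A) M) (resSide_transcendental_J (kA A) M)
  haveI hint : Algebra.IsIntegral ↥(modularFunctionFieldFullC (kA A) M)
      ↥(modularFunctionFieldFullC (kA A) (M * ℓ)) := Algebra.IsIntegral.of_finite _ _
  haveI hsep : Algebra.IsSeparable ↥(modularFunctionFieldFullC (kA A) M)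
      ↥(modularFunctionFieldFullC (kA A) (M * ℓ)) :=
    tres4s_separable (kA A) M ℓ hℓ hℓM hℓk ζ hζ
  haveI hpd : HasPrincipalDivisors (kA A) ↥(modularFunctionFieldFullC (kA A) (M * ℓ)) :=
    modHyp_hpdk (M * ℓ) A hp hA
  have hN : Divisor.PushforwardNormFormula (kA A) ↥(modularFunctionFieldFullC (kA A) M)
      ↥(modularFunctionFieldFullC (kA A) (M * ℓ)) :=
    tres4nf_pushforwardNormFormula (fun v => modHyp_hresk M A v)
      (fun w => modHyp_hresk (M * ℓ) A w)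
  have hψ : (tres4gBeta (kA A) M ℓ).toRingHom.IsIntegral :=
    Fermat.Agent.ES.H.isIntegral_of_finiteAlong _
      (Fermat.Agent.ES.H.finiteAlong_of_transcendental (tres4gBeta (kA A) M ℓ)
        (resSideJ (kA A) (M * ℓ)) (resSide_transcendental_J (kA A) (M * ℓ))
        (resSideJ (kA A) M) (resSide_transcendental_J (kA A) M))
  set F := ↥(modularFunctionFieldFullC (kA A) M) with hF
  set rr : F := ⟨r, hr⟩ with hrr
  set hhh : F := ⟨h, hh⟩ with hhhh
  set t : F := ⟨jqModC (kA A), jqModC_mem_full (kA A) M⟩ with ht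
  have hrr0 : rr ≠ 0 := fun e => hr0 (congrArg Subtype.val e)
  have hhh0 : hhh ≠ 0 := fun e => hh0 (congrArg Subtype.val e)
  -- the norms
  have hNr : ((Algebra.norm F (tres4gBeta (kA A) M ℓ rr) : F) : LaurentSeries (kA A)) =
      kronHecke ℓ ζ r := hnorm rr _ rfl
  have hNh : ((Algebra.norm F (tres4gBeta (kA A) M ℓ hhh) : F) : LaurentSeries (kA A)) =
      kronHecke ℓ ζ h := hnorm hhh _ rfl
  have hNh' : Algebra.norm F (tres4gBeta (kA A) M ℓ hhh) =
      algebraMap (kA A) F c * hhh ^ (ℓ + 1) := by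
    apply Subtype.ext
    rw [hNh, hcH]
    have e1 : ((algebraMap (kA A) F c : F) : LaurentSeries (kA A)) = HahnSeries.C c := by
      rw [← algebraMap_eq_hahnC]
      rfl
    rw [← e1]
    rfl
  have hconst : ∀ Q : Place (kA A) F,
      Q.ord (Algebra.norm F (tres4gBeta (kA A) M ℓ hhh)) = ((ℓ + 1 : ℕ) : ℤ) * Q.ord hhh := by
    intro Q
    rw [hNh', Q.ord_mul ((map_ne_zero _).2 hc0) (pow_ne_zero _ hhh0),
      Fermat.Agent.S24.PlaceAux.ord_algebraMap, zero_add, ← zpow_natCast, Q.ord_zpow]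
  have hcusp : ∀ w : Place (kA A) ↥(modularFunctionFieldFullC (kA A) (M * ℓ)),
      0 ≤ w.ord (algebraMap F ↥(modularFunctionFieldFullC (kA A) (M * ℓ)) t) ↔
        0 ≤ w.ord (tres4gBeta (kA A) M ℓ t) :=
    fun w => tres4c_ord_nonneg_iff_prime (kA A) M ℓ w
  have key := tres4g_abs hN (tres4gBeta (kA A) M ℓ) hψ t hcusp hp a b ha hrr0 hhh0 hnc hc
    (ℓ + 1) hconst
  have hcoe : tres4rEis ℓ ζ r =
      ((Algebra.norm F (tres4gBeta (kA A) M ℓ rr) * (rr ^ (ℓ + 1))⁻¹ : F) :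
        LaurentSeries (kA A)) := by
    rw [tres4rEis, div_eq_mul_inv, ← hNr]
    rfl
  have hub : tres4rEis ℓ ζ r ∈ modularFunctionFieldFullC (kA A) M := by
    rw [hcoe]
    exact Subtype.property _
  refine ⟨hub, fun Q => ?_⟩
  have e : (⟨tres4rEis ℓ ζ r, hub⟩ : F) =
      Algebra.norm F (tres4gBeta (kA A) M ℓ rr) * (rr ^ (ℓ + 1))⁻¹ := Subtype.ext hcoe
  rw [e]
  exact key Q

end KSide

/-- **FAC-EIS (G)**: the glue.  `StmtFacMono ⇒ StmtFacP`, given the Hecke norm on the `k`-side. -/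
theorem stmtFacEis_of (hC : StmtEisNormK) : StmtFacEis := by
  intro hMono M p _ _ _ hp hpM h5 A hA x hx hα hβ hpeu hline ℓ hℓ
  obtain ⟨u, r, h, hr, hh, a, b, hxu, hred, hh0, ha, hnc, hc, hHecke⟩ :=
    hMono M p hp hpM h5 A hA x hx hα hβ hpeu hline
  haveI : NeZero (ℓ : ℕ) := ⟨ℓ.2.ne_zero⟩
  have hℓMp : ¬ (ℓ : ℕ) ∣ M * p := fun hd => hℓ (Dvd.dvd.mul_right hd p)
  have hℓM : ¬ (ℓ : ℕ) ∣ M := fun hd => hℓMp (Dvd.dvd.mul_right hd p)
  have hℓp : (ℓ : ℕ) ≠ p := fun e => hℓMp (e ▸ Dvd.intro_left M rfl)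
  obtain ⟨u', ζb, hζb, hxu', hred'⟩ := tres4r_main hp hA ℓ hℓMp hℓp hxu hred
  obtain ⟨c, hc0, hcH⟩ := hHecke (ℓ : ℕ) ℓ.2 hℓp ζb hζb
  obtain ⟨hub, hdiv⟩ := tres4g_main A hp hA M (ℓ : ℕ) ℓ.2 hℓM hℓp ζb hζb
    (hC M p hp hpM h5 A hA (ℓ : ℕ) ℓ.2 hℓM hℓp ζb hζb) hr hh hred.ne_zero_right hh0 a b ha hnc hc
    hc0 hcH
  exact ⟨u', tres4rEis (ℓ : ℕ) ζb r, hub, hxu', hred', hdiv⟩

end Fermat.Agent.R38

end
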