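import Fermat.Agent.R38.TresEisNormK
import Fermat.Agent.R38.TresEisGR
import Fermat.Agent.R38.TresEisGlue

/-!
# Row 38, PKG-TRES, piece FAC-EIS: FINAL (helper60)

* `stmtEisNormK : StmtEisNormK` — **(C)**, the Hecke norm on the residue side:
  `N_{F̄_{Mℓ}/F̄_M} (f(q^ℓ)) = kronHecke ℓ ζ̄ f` for `f ∈ F̄_M = k(X₀(M))`, `k = kA A`, `A ∣ p`,
  `ℓ ∤ M p` (C1 helper83, C2 helper63, C3 helper60);
* `stmtFacEis : StmtFacEis` — **FAC-EIS**: `StmtFacMono → StmtFacP` (glue (G) helper42;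
  NF helper47, SEP/CUSP helper64, abstract step (A) and norm–reduction (B) helper60).
-/

set_option autoImplicit false

namespace Fermat.Agent.R38

/-- **(C)**: the Hecke norm on the residue side -/
theorem stmtEisNormK : StmtEisNormK :=
  stmtEisNormK_of (fun M ℓ _ _ A _ _ h => tres4g_gaussRed_beta M ℓ A h)
    (fun M ℓ _ _ hℓ hℓM A ζA hζ hζb _ _ _ h hy =>
      tres4g_gaussRed_kronHecke M ℓ A hℓ hℓM ζA hζ hζb h hy)

/-- **FAC-EIS**: the Eisenstein step, `StmtFacMono → StmtFacP` -/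
theorem stmtFacEis : StmtFacEis :=
  stmtFacEis_of stmtEisNormK

end Fermat.Agent.R38
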