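import Mathlib

/-!
# Row 38, PKG-TRES, piece FAC-EIS (B): the norm commutes with a constant reduction (helper60)

`F'/F` a finite extension of fields, `O' ⊂ F'` a valuation ring, `O = O' ∩ F`, with reduction maps
`red : O → κ`, `red' : O' → κ'` (`κ'/κ` a field extension, `red'` onto, the nonunits of `O` reduce
to `0`), compatible with the inclusion.  If `[κ' : κ] = [F' : F]` then for every `g ∈ O'`

  `N_{F'/F} g ∈ O`  and  `red (N_{F'/F} g) = N_{κ'/κ} (red' g)`.

Proof: lift a `κ`-basis of `κ'` to `O'`; the lifts form an `F`-basis of `F'` in which the matrix of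
the multiplication by `g` has entries in `O`, and it reduces to the matrix of `red' g`.
-/

set_option autoImplicit false
set_option linter.unusedSectionVars false
set_option linter.style.haveILetI false

noncomputable section

namespace Fermat.Agent.R38

open Module

section NormRed

variable {F F' κ κ' : Type*} [Field F] [Field F'] [Algebra F F'] [Field κ] [Field κ']
  [Algebra κ κ']
  (O : ValuationSubring F) (O' : ValuationSubring F') (red : O →+* κ) (red' : O' →+* κ')

/-- the hypotheses of the norm–reduction lemma -/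
structure Tres4NormRedHyp : Prop where
  mem_iff : ∀ x : F, x ∈ O ↔ algebraMap F F' x ∈ O'
  comp : ∀ (x : F) (hx : x ∈ O) (hx' : algebraMap F F' x ∈ O'),
    red' ⟨algebraMap F F' x, hx'⟩ = algebraMap κ κ' (red ⟨x, hx⟩)
  ker : ∀ (c : F) (_ : c ∉ O) (hc' : c⁻¹ ∈ O), red ⟨c⁻¹, hc'⟩ = 0
  surj : Function.Surjective red'

variable {O O' red red'}

namespace Tres4NormRedHyp

variable (H : Tres4NormRedHyp O O' red red') {n : ℕ} (e : Fin n → O')
  (he : LinearIndependent κ fun i => red' (e i))

include H he

/-- core: an `O`-linear combination of the lifts which reduces to `0` has coefficients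
reducing to `0` -/
theorem core (d : Fin n → O) (z : O')
    (hz : ∑ i, algebraMap F F' (d i : F) * (e i : F') = (z : F')) (hz0 : red' z = 0) (i : Fin n) :
    red (d i) = 0 := by
  have h1 : ∑ i, (⟨algebraMap F F' (d i : F), (H.mem_iff _).1 (d i).2⟩ : O') * e i = z := by
    apply Subtype.ext
    rw [← hz]
    simp only [AddSubmonoidClass.coe_finsetSum, MulMemClass.coe_mul]
  have h2 := congrArg red' h1
  rw [map_sum, hz0] at h2
  have h3 : ∑ i, red (d i) • red' (e i) = 0 := by
    rw [← h2]
    refine Finset.sum_congr rfl fun i _ => ?_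
    rw [map_mul, H.comp _ (d i).2, Algebra.smul_def]
  exact (Fintype.linearIndependent_iff.1 he) (fun i => red (d i)) h3 i

/-- if `∑ c_i e_i ∈ O'` and `c_{i₀}` has the largest valuation, then `c_{i₀} ∈ O` or
`c_{i₀} = 0`-type contradiction: the normalised combination -/
theorem normalise (c : Fin n → F) (i₀ : Fin n) (hmax : ∀ i, O.valuation (c i) ≤ O.valuation (c i₀))
    (h0 : c i₀ ≠ 0) (i : Fin n) : c i / c i₀ ∈ O := by
  rw [← ValuationSubring.valuation_le_one_iff, map_div₀]
  have hpos : 0 < O.valuation (c i₀) := by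
    rw [zero_lt_iff, Ne, map_eq_zero]
    exact h0
  exact (div_le_one₀ hpos).2 (hmax i)

/-- the lifts are linearly independent over `F` -/
theorem linearIndependent_lift : LinearIndependent F fun i => (e i : F') := by
  classical
  rw [Fintype.linearIndependent_iff]
  intro c hc
  by_contra hne
  push Not at hne
  obtain ⟨j, hj⟩ := hne
  obtain ⟨i₀, -, hmax⟩ := Finset.exists_max_image Finset.univ (fun i => O.valuation (c i))
    ⟨j, Finset.mem_univ j⟩
  have hmax' : ∀ i, O.valuation (c i) ≤ O.valuation (c i₀) := fun i => hmax i (Finset.mem_univ i)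
  have h0 : c i₀ ≠ 0 := by
    intro h
    have := hmax' j
    rw [h, map_zero, le_zero_iff, map_eq_zero] at this
    exact hj this
  have hd := H.normalise e he c i₀ hmax' h0
  have hz : ∑ i, algebraMap F F' ((⟨c i / c i₀, hd i⟩ : O) : F) * (e i : F') = ((0 : O') : F') := by
    have : ∀ i, algebraMap F F' (c i / c i₀) * (e i : F') =
        algebraMap F F' (c i₀)⁻¹ * (c i • (e i : F')) := fun i => by
      rw [Algebra.smul_def, div_eq_mul_inv, map_mul]
      ring
    simp only [this, ← Finset.mul_sum, hc, mul_zero, ZeroMemClass.coe_zero]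
  have := H.core e he (fun i => ⟨c i / c i₀, hd i⟩) 0 hz (map_zero _) i₀
  have h1 : (⟨c i₀ / c i₀, hd i₀⟩ : O) = 1 := Subtype.ext (div_self h0)
  rw [h1, map_one] at this
  exact one_ne_zero this

/-- the coefficients of an element of `O'` in the lifted family are in `O` -/
theorem coeff_mem (c : Fin n → F) (y : O') (hy : ∑ i, c i • (e i : F') = (y : F')) (i : Fin n) :
    c i ∈ O := by
  classical
  by_contra hne
  obtain ⟨i₀, -, hmax⟩ := Finset.exists_max_image Finset.univ (fun i => O.valuation (c i))
    ⟨i, Finset.mem_univ i⟩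
  have hmax' : ∀ i, O.valuation (c i) ≤ O.valuation (c i₀) := fun i => hmax i (Finset.mem_univ i)
  have hi₀ : c i₀ ∉ O := by
    intro h
    apply hne
    rw [← ValuationSubring.valuation_le_one_iff] at h ⊢
    exact (hmax' i).trans h
  have h0 : c i₀ ≠ 0 := by
    rintro h
    exact hi₀ (h ▸ O.zero_mem)
  have hinv : (c i₀)⁻¹ ∈ O := (O.mem_or_inv_mem (c i₀)).resolve_left hi₀
  have hd := H.normalise e he c i₀ hmax' h0
  have hz : ∑ i, algebraMap F F' ((⟨c i / c i₀, hd i⟩ : O) : F) * (e i : F') =
      (((⟨algebraMap F F' (c i₀)⁻¹, (H.mem_iff _).1 hinv⟩ : O') * y : O') : F') := by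
    have : ∀ i, algebraMap F F' (c i / c i₀) * (e i : F') =
        algebraMap F F' (c i₀)⁻¹ * (c i • (e i : F')) := fun i => by
      rw [Algebra.smul_def, div_eq_mul_inv, map_mul]
      ring
    simp only [this, ← Finset.mul_sum, hy, MulMemClass.coe_mul]
  have hz0 : red' ((⟨algebraMap F F' (c i₀)⁻¹, (H.mem_iff _).1 hinv⟩ : O') * y) = 0 := by
    rw [map_mul, H.comp _ hinv, H.ker _ hi₀ hinv, map_zero, zero_mul]
  have := H.core e he (fun i => ⟨c i / c i₀, hd i⟩) _ hz hz0 i₀
  have h1 : (⟨c i₀ / c i₀, hd i₀⟩ : O) = 1 := Subtype.ext (div_self h0)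
  rw [h1, map_one] at this
  exact one_ne_zero this

end Tres4NormRedHyp

/-- **the norm commutes with the reduction** when the residue degree is the degree -/
theorem tres4_norm_red [FiniteDimensional F F'] (H : Tres4NormRedHyp O O' red red')
    (hrank : finrank κ κ' = finrank F F') (g : O') :
    ∃ y : O, (y : F) = Algebra.norm F (g : F') ∧ red y = Algebra.norm κ (red' g) := by
  classical
  have hpos : 0 < finrank κ κ' := hrank ▸ Module.finrank_pos
  haveI : Module.Finite κ κ' := Module.finite_of_finrank_pos hpos
  set n := finrank κ κ' with hn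
  let bb : Basis (Fin n) κ κ' := Module.finBasis κ κ'
  choose e he using fun i => H.surj (bb i)
  have hli : LinearIndependent κ fun i => red' (e i) := by
    have : (fun i => red' (e i)) = bb := funext he
    rw [this]
    exact bb.linearIndependent
  have hliF := H.linearIndependent_lift e hli
  haveI : Nonempty (Fin n) := ⟨⟨0, hpos⟩⟩
  let b : Basis (Fin n) F F' := basisOfLinearIndependentOfCardEqFinrank hliF
    (by rw [Fintype.card_fin, ← hrank])
  have hb : ∀ i, b i = (e i : F') := fun i => by
    simp only [b, coe_basisOfLinearIndependentOfCardEqFinrank]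
  -- the matrix of `g`
  set M := Algebra.leftMulMatrix b (g : F') with hM
  have hMrow : ∀ j, ∑ i, M i j • (e i : F') = ((g * e j : O') : F') := fun j => by
    have h := b.sum_repr ((g : F') * b j)
    simp only [hM, Algebra.leftMulMatrix_eq_repr_mul, MulMemClass.coe_mul, ← hb]
    exact h
  have hMmem : ∀ i j, M i j ∈ O := fun i j =>
    H.coeff_mem e hli (fun i => M i j) (g * e j) (hMrow j) i
  let MO : Matrix (Fin n) (Fin n) O := fun i j => ⟨M i j, hMmem i j⟩
  have hMO : MO.map O.subtype = M := by
    ext i j
    rfl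
  refine ⟨MO.det, ?_, ?_⟩
  · rw [Algebra.norm_eq_matrix_det b, ← hM, ← hMO]
    exact (RingHom.map_det O.subtype MO)
  · rw [Algebra.norm_eq_matrix_det bb, RingHom.map_det]
    congr 1
    ext i j
    rw [Algebra.leftMulMatrix_eq_repr_mul]
    -- reduce the `j`-th column relation
    have h1 : ∑ i, (⟨algebraMap F F' (M i j), (H.mem_iff _).1 (hMmem i j)⟩ : O') * e i = g * e j := by
      apply Subtype.ext
      rw [← hMrow j]
      simp only [AddSubmonoidClass.coe_finsetSum, MulMemClass.coe_mul, Algebra.smul_def]
    have h2 := congrArg red' h1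
    rw [map_sum, map_mul, he] at h2
    have h3 : red' g * bb j = ∑ i, red (MO i j) • bb i := by
      rw [← h2]
      refine Finset.sum_congr rfl fun i _ => ?_
      rw [map_mul, H.comp _ (hMmem i j), Algebra.smul_def, he]
    rw [h3, map_sum]
    simp only [map_smul, Basis.repr_self, Finsupp.coe_finsetSum, Finsupp.coe_smul,
      Finset.sum_apply, Pi.smul_apply, Finsupp.single_apply, smul_eq_mul, mul_ite, mul_one,
      mul_zero, Finset.sum_ite_eq', Finset.mem_univ, if_true, Matrix.map_apply,
      RingHom.mapMatrix_apply]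

end NormRed

end Fermat.Agent.R38

end
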