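import Fermat.Agent.DEU.Val
import Fermat.Agent.R38.TresEisNormRed
import Fermat.Agent.S28.UpperBound

/-!
# Row 38, PKG-TRES, piece FAC-EIS (C1): the hypotheses of the norm–reduction lemma for
`F_{Mℓ} / F_M` at the Gauss valuation rings  (helper83, for helper60's `StmtEisNormK`)

`F = F_M`, `F' = F_{Mℓ}` (algebra = `heckeAlphaBar`, the inclusion), `O = deuValO M A`,
`O' = deuValO (M ℓ) A`, `κ = F̄_M`, `κ' = F̄_{Mℓ}` (algebra = inclusion), `red = deuValRed`.

* `tres4h_gaussRed_up` : a Gauss reduction at level `M` is one at level `M ℓ`;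
* `tres4h_inv_nonunit`, `tres4h_red_inv_eq_zero` : `c ∉ O ⇒ red c⁻¹ = 0`;
* `tres4h_mem_iff` : `x ∈ O ↔ α x ∈ O'`;
* `tres4h_comp` : `red' (α x) = red x` as Laurent series;
* `tres4h_normRedHyp_gen` (any `StmtRedF` witnesses), `tres4h_normRedHyp` (helper60's shape).
-/

set_option autoImplicit false
set_option linter.unusedSectionVars false
set_option linter.style.haveILetI false
set_option synthInstance.maxHeartbeats 400000
set_option maxHeartbeats 1000000

noncomputable section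

namespace Fermat.Agent.R38

open ModularCurve AlgebraicCurve HahnSeries Fermat.Agent.ES Fermat.Agent.S24 Fermat.Agent.ES.M
  Fermat.Agent.DEU

section Hyp

variable (M ℓ : ℕ) [NeZero M] [NeZero ℓ] (A : ValuationSubring Kb)

/-- a Gauss reduction at level `M` is a Gauss reduction at level `M ℓ` -/
theorem tres4h_gaussRed_up {x : FF M} {w : LaurentSeries (kA A)} (h : GaussRed M A x w) :
    GaussRed (M * ℓ) A (heckeAlphaBar Kb M ℓ x) w := by
  obtain ⟨Y₁, Y₂, h1, h2, h3, h4, h5⟩ := h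
  have hle : ∀ y : LaurentSeries Kb, y ∈ modularFunctionFieldBar M →
      y ∈ modularFunctionFieldBar (M * ℓ) := fun y hy => by
    have := (heckeAlphaBar Kb M ℓ ⟨y, hy⟩).2
    rwa [coe_heckeAlphaBar] at this
  refine ⟨Y₁, Y₂, hle _ h1, hle _ h2, h3, ?_, h5⟩
  rw [coe_heckeAlphaBar]
  exact h4

/-- outside a valuation ring the inverse is a nonunit -/
theorem tres4h_inv_nonunit {F : Type*} [Field F] (O : ValuationSubring F) {c : F} (hc : c ∉ O) :
    c⁻¹ ∈ O.nonunits := by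
  rw [ValuationSubring.mem_nonunits_iff, map_inv₀]
  have h1 : 1 < O.valuation c := by
    rw [← not_le, ValuationSubring.valuation_le_one_iff]
    exact hc
  have h0 : 0 < O.valuation c := lt_trans zero_lt_one h1
  exact (inv_lt_one₀ h0).2 h1

/-- `ker` -/
theorem tres4h_red_inv_eq_zero (hR : StmtRedF M A) (c : FF M) (hc : c ∉ deuValO M A)
    (hc' : c⁻¹ ∈ deuValO M A) : deuValRed M A hR ⟨c⁻¹, hc'⟩ = 0 :=
  (deuVal_red_eq_zero_iff' M A hR ⟨c⁻¹, hc'⟩).2 (tres4h_inv_nonunit (deuValO M A) hc)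

/-- `mem_iff` -/
theorem tres4h_mem_iff (hR : StmtRedF M A) (x : FF M) :
    x ∈ deuValO M A ↔ heckeAlphaBar Kb M ℓ x ∈ deuValO (M * ℓ) A := by
  constructor
  · rintro ⟨w, hw⟩
    exact ⟨w, tres4h_gaussRed_up M ℓ A hw⟩
  · rintro ⟨w, hw⟩
    by_contra hx
    have hx0 : x ≠ 0 := by
      rintro rfl
      exact hx (deuValO M A).zero_mem
    have hinv : x⁻¹ ∈ deuValO M A := ((deuValO M A).mem_or_inv_mem x).resolve_left hx
    have h0 := tres4h_red_inv_eq_zero M A hR x hx hinv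
    have h1 : GaussRed M A x⁻¹ 0 := by
      rw [deuValRed_iff M A hR]
      refine ⟨hinv, ?_⟩
      rw [h0]
      rfl
    have h2 := tres4h_gaussRed_up M ℓ A h1
    have h3 := deuInst_gaussRed_mul (M * ℓ) A h2 hw
    rw [← map_mul, inv_mul_cancel₀ hx0, map_one, zero_mul] at h3
    have h4 := deuInst_gaussRed_unique (M * ℓ) A h3 (deuInst_gaussRed_one (M * ℓ) A)
    exact zero_ne_one h4

/-- `comp`, as Laurent series -/
theorem tres4h_comp (hR : StmtRedF M A) (hR' : StmtRedF (M * ℓ) A) (x : FF M)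
    (hx : x ∈ deuValO M A) (hx' : heckeAlphaBar Kb M ℓ x ∈ deuValO (M * ℓ) A) :
    ((deuValRed (M * ℓ) A hR' ⟨heckeAlphaBar Kb M ℓ x, hx'⟩ :
        ↥(modularFunctionFieldFullC (kA A) (M * ℓ))) : LaurentSeries (kA A))
      = ((deuValRed M A hR ⟨x, hx⟩ : ↥(modularFunctionFieldFullC (kA A) M)) :
        LaurentSeries (kA A)) := by
  have h1 : GaussRed M A x
      ((deuValRed M A hR ⟨x, hx⟩ : ↥(modularFunctionFieldFullC (kA A) M)) :
        LaurentSeries (kA A)) := (deuValRed_iff M A hR x _).2 ⟨hx, rfl⟩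
  have h2 := tres4h_gaussRed_up M ℓ A h1
  obtain ⟨_, h3⟩ := (deuValRed_iff (M * ℓ) A hR' _ _).1 h2
  exact h3

/-- **(C1), general form**: the hypotheses of `tres4_norm_red` for `F_{Mℓ} / F_M` at the Gauss
valuation rings. -/
theorem tres4h_normRedHyp_gen (hR : StmtRedF M A) (hR' : StmtRedF (M * ℓ) A) :
    letI := (heckeAlphaBar Kb M ℓ).toRingHom.toAlgebra
    letI := (IntermediateField.inclusion
      (Fermat.Agent.S28.UB.full_mono (kA A) (Dvd.intro ℓ rfl) :
        modularFunctionFieldFullC (kA A) M ≤ modularFunctionFieldFullC (kA A) (M * ℓ))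
      ).toRingHom.toAlgebra
    Tres4NormRedHyp (deuValO M A) (deuValO (M * ℓ) A) (deuValRed M A hR)
      (deuValRed (M * ℓ) A hR') := by
  letI := (heckeAlphaBar Kb M ℓ).toRingHom.toAlgebra
  letI := (IntermediateField.inclusion
    (Fermat.Agent.S28.UB.full_mono (kA A) (Dvd.intro ℓ rfl) :
      modularFunctionFieldFullC (kA A) M ≤ modularFunctionFieldFullC (kA A) (M * ℓ))
    ).toRingHom.toAlgebra
  refine ⟨fun x => tres4h_mem_iff M ℓ A hR x, fun x hx hx' => ?_,
    fun c hc hc' => tres4h_red_inv_eq_zero M A hR c hc hc', deuVal_red_surjective (M * ℓ) A hR'⟩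
  apply Subtype.ext
  exact tres4h_comp M ℓ A hR hR' x hx hx'

/-- **(C1)** in helper60's shape. -/
theorem tres4h_normRedHyp (p : ℕ) (hp : p.Prime) (hpM : ¬ p ∣ M) (hpMℓ : ¬ p ∣ M * ℓ)
    (hA : A.LiesOverPrime p) :
    letI := (heckeAlphaBar Kb M ℓ).toRingHom.toAlgebra
    letI := (IntermediateField.inclusion
      (Fermat.Agent.S28.UB.full_mono (kA A) (Dvd.intro ℓ rfl) :
        modularFunctionFieldFullC (kA A) M ≤ modularFunctionFieldFullC (kA A) (M * ℓ))
      ).toRingHom.toAlgebra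
    Tres4NormRedHyp (deuValO M A) (deuValO (M * ℓ) A)
      (deuValRed M A (stmtRedF M A p hp hpM hA))
      (deuValRed (M * ℓ) A (stmtRedF (M * ℓ) A p hp hpMℓ hA)) :=
  tres4h_normRedHyp_gen M ℓ A _ _

end Hyp

end Fermat.Agent.R38
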