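import Fermat.Agent.R38.PlanEisK
import Fermat.Agent.R38.TresEisHyp
import Fermat.Agent.R38.TresRedHecke
import Fermat.Agent.ES.G2.HeckeNorm
import Fermat.Agent.ES.G2.Frob

/-!
# Row 38, PKG-TRES, piece FAC-EIS (C3): the Hecke norm on the residue side (helper60)

`StmtEisNormK` (`R38/PlanEisK.lean`): `N_{F̄_{Mℓ}/F̄_M} (f(q^ℓ)) = kronHecke ℓ ζ̄ f` for `f ∈ F̄_M`.

Proof: lift `f` to `x ∈ F_M` (Gauss valuation ring `deuValO M A`); `β x = x(q^ℓ)` lifts
`f(q^ℓ)`; the norm commutes with the reduction (`tres4_norm_red`, hypotheses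
`tres4h_normRedHyp` of helper83, degrees `ℓ + 1` on both sides by Igusa); the norm of `β x` is
`kronHecke ℓ ζ x` (`ES.G2.stmtHeckeNorm`) and its reduction is `kronHecke ℓ ζ̄ f` ((C2),
helper63).

* `StmtEisGRBeta`, `StmtEisGRHecke` : the two statements (C2) at the `GaussRed` level;
* `stmtEisNormK_of` : `StmtEisGRBeta → StmtEisGRHecke → StmtEisNormK`.
-/

set_option autoImplicit false
set_option linter.unusedSectionVars false
set_option linter.unusedVariables false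
set_option linter.style.haveILetI false
set_option synthInstance.maxHeartbeats 400000
set_option maxHeartbeats 1600000

noncomputable section

namespace Fermat.Agent.R38

open HahnSeries ModularCurve AlgebraicCurve Fermat.Agent.ES Fermat.Agent.ES.G2 Fermat.Agent.ES.M
  Fermat.Agent.S24 Fermat.Agent.DEU IntermediateField

/-- (C2a): the Gauss reduction commutes with `β = (q ↦ q^ℓ)` -/
def StmtEisGRBeta : Prop :=
  ∀ (M ℓ : ℕ) [NeZero M] [NeZero ℓ] (A : ValuationSubring Kb) {x : FF M}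
    {w : LaurentSeries (kA A)}, GaussRed M A x w →
      GaussRed (M * ℓ) A (heckeBetaBar Kb M ℓ x) (qExpand (kA A) ℓ w)

/-- (C2b): the Gauss reduction of `kronHecke ℓ ζ x` is `kronHecke ℓ ζ̄ w`, exactly -/
def StmtEisGRHecke : Prop :=
  ∀ (M ℓ : ℕ) [NeZero M] [NeZero ℓ], ℓ.Prime → ¬ ℓ ∣ M → ∀ (A : ValuationSubring Kb) (ζA : Aˣ),
    IsPrimitiveRoot (Units.map (A.subtype : A →* Kb) ζA) ℓ →
    IsPrimitiveRoot (Units.map ((IsLocalRing.residue A : A →+* kA A) : A →* kA A) ζA) ℓ →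
    ∀ {x y : FF M} {w : LaurentSeries (kA A)}, GaussRed M A x w →
      (y : LaurentSeries Kb) =
        kronHecke ℓ (Units.map (A.subtype : A →* Kb) ζA) (x : LaurentSeries Kb) →
      GaussRed M A y
        (kronHecke ℓ (Units.map ((IsLocalRing.residue A : A →+* kA A) : A →* kA A) ζA) w)

/-- the degree on the residue side, for the inclusion algebra structure -/
theorem tres4k_finrank (k : Type*) [Field k] (M ℓ : ℕ) [NeZero M] [NeZero ℓ] (hℓ : ℓ.Prime)
    (hℓM : ¬ ℓ ∣ M) (hk : ((M * ℓ : ℕ) : k) ≠ 0) :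
    letI := (IntermediateField.inclusion
      (Fermat.Agent.S28.UB.full_mono k (Dvd.intro ℓ rfl) :
        modularFunctionFieldFullC k M ≤ modularFunctionFieldFullC k (M * ℓ))).toRingHom.toAlgebra
    Module.finrank (modularFunctionFieldFullC k M) (modularFunctionFieldFullC k (M * ℓ)) =
      ℓ + 1 := by
  have hN : ((M : ℕ) : k) ≠ 0 := by
    intro h
    apply hk
    rw [Nat.cast_mul, h, zero_mul]
  have hle2 : modularFunctionFieldFullC k M ≤ modularFunctionFieldFullC k (M * ℓ) :=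
    Fermat.Agent.S28.UB.full_mono k (Dvd.intro ℓ rfl)
  have h := hdeg_finrank_inclusion hle2
  have h1 := Fermat.Agent.S28.relfinrank_full_eq_dedekindPsi k M hN
  have h2 := Fermat.Agent.S28.relfinrank_full_eq_dedekindPsi k (M * ℓ) hk
  have hle1 : adjoin k {jqModC k} ≤ modularFunctionFieldFullC k M :=
    Fermat.Agent.S28.UB.K0_le_full k M
  have h3 := relfinrank_mul_relfinrank hle1 hle2
  have hψ : dedekindPsi (M * ℓ) = (ℓ + 1) * dedekindPsi M := by
    rw [Nat.mul_comm]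
    exact Fermat.Agent.S28.UB.psi_mul_of_not_dvd hℓ hℓM
  rw [h1, h2, hψ] at h3
  have hpos : dedekindPsi M ≠ 0 := by
    intro h0
    rw [h0] at h1
    have hfin := Fermat.Agent.S28.relrank_full_lt_aleph0_of_ne_zero k M hN
    have hne := Fermat.Agent.S28.UB.relrank_ne_zero (adjoin k {jqModC k})
      (modularFunctionFieldFullC k M)
    rw [relfinrank_eq_toNat_relrank, Cardinal.toNat_eq_zero] at h1
    rcases h1 with h1 | h1
    · exact hne h1
    · exact absurd hfin (not_lt.mpr h1)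
  have h4 : dedekindPsi M * (modularFunctionFieldFullC k M).relfinrank
      (modularFunctionFieldFullC k (M * ℓ)) = dedekindPsi M * (ℓ + 1) := by
    rw [h3, Nat.mul_comm]
  rw [h]
  exact Nat.eq_of_mul_eq_mul_left (Nat.pos_of_ne_zero hpos) h4

/-- **(C)** from (C2) -/
theorem stmtEisNormK_of (hGβ : StmtEisGRBeta) (hGH : StmtEisGRHecke) : StmtEisNormK := by
  intro M p _ hp hpM h5 A hA ℓ _ hℓ hℓM hℓp ζ hζ f g hg
  letI algK : Algebra ↥(modularFunctionFieldFullC (kA A) M)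
      ↥(modularFunctionFieldFullC (kA A) (M * ℓ)) :=
    (IntermediateField.inclusion
      (Fermat.Agent.S28.UB.full_mono (kA A) (Dvd.intro ℓ rfl) :
        modularFunctionFieldFullC (kA A) M ≤
          modularFunctionFieldFullC (kA A) (M * ℓ))).toRingHom.toAlgebra
  letI alg0 : Algebra (FF M) (FF (M * ℓ)) := (heckeAlphaBar Kb M ℓ).toRingHom.toAlgebra
  have hpMℓ : ¬ p ∣ M * ℓ := by
    intro h
    rcases (Nat.Prime.dvd_mul hp).1 h with h | h
    · exact hpM h
    · exact hℓp ((Nat.prime_dvd_prime_iff_eq hp hℓ).1 h).symm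
  haveI : CharP (kA A) p := kron_charP_residueField hp hA
  have hk : ((M * ℓ : ℕ) : kA A) ≠ 0 := by
    rw [Ne, CharP.cast_eq_zero_iff (kA A) p]
    exact hpMℓ
  have hℓk : ((ℓ : ℕ) : kA A) ≠ 0 := by
    rw [Ne, CharP.cast_eq_zero_iff (kA A) p]
    intro h
    exact hℓp ((Nat.prime_dvd_prime_iff_eq hp hℓ).1 h).symm
  -- roots of unity
  obtain ⟨ζ₀, hζ₀⟩ := frob_exists_primitiveRoot ℓ hℓ.ne_zero
  obtain ⟨ζA, hζA, hζb⟩ := r38red_exists_root A hℓ hℓk ζ₀ hζ₀
  rw [kronHecke_eq_of_isPrimitiveRoot _ ζ hζb hζ]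
  -- the lift of `f`
  obtain ⟨x, hx⟩ := deuVal_exists_gaussRed M A (f : LaurentSeries (kA A)) f.2
  have hβ := hGβ M ℓ A hx
  have hβO : heckeBetaBar Kb M ℓ x ∈ deuValO (M * ℓ) A := ⟨_, hβ⟩
  have hred' : deuValRed (M * ℓ) A (stmtRedF (M * ℓ) A p hp hpMℓ hA)
      ⟨heckeBetaBar Kb M ℓ x, hβO⟩ = g := by
    apply Subtype.ext
    obtain ⟨h', h2⟩ := (deuValRed_iff (M * ℓ) A (stmtRedF (M * ℓ) A p hp hpMℓ hA) _ _).1 hβ
    rw [hg]
    exact h2
  -- the norm commutes with the reduction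
  haveI : FiniteDimensional (FF M) (FF (M * ℓ)) := hdeg_finiteDimensional M ℓ hℓ hℓM
  have hrank : Module.finrank ↥(modularFunctionFieldFullC (kA A) M)
      ↥(modularFunctionFieldFullC (kA A) (M * ℓ)) = Module.finrank (FF M) (FF (M * ℓ)) := by
    rw [tres4k_finrank (kA A) M ℓ hℓ hℓM hk]
    exact (hdeg_finrank M ℓ hℓ hℓM).symm
  obtain ⟨y, hy1, hy2⟩ := tres4_norm_red (tres4h_normRedHyp M ℓ A p hp hpM hpMℓ hA) hrank
    ⟨heckeBetaBar Kb M ℓ x, hβO⟩
  rw [hred'] at hy2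
  rw [← hy2]
  -- the norm upstairs is `kronHecke`
  have hyL : ((y : FF M) : LaurentSeries Kb) = kronHecke ℓ ζ₀ (x : LaurentSeries Kb) := by
    rw [hy1]
    exact stmtHeckeNorm M ℓ hℓ hℓM ζ₀ hζ₀ x
  subst hζA
  have hGR := hGH M ℓ hℓ hℓM A ζA hζ₀ hζb hx hyL
  obtain ⟨h', h2⟩ := (deuValRed_iff M A (stmtRedF M A p hp hpM hA) _ _).1 hGR
  exact h2

end Fermat.Agent.R38

end
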