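/-
R38 / TRES, piece FAC-EIS (OGG) (helper9): the multiplicative Hecke operator on the Ogg unit.

`tres4o_kronHecke_delta` : `kronHecke ℓ ζ Δ = C ε · Δ^(ℓ+1)` (`ε = ∏_{b<ℓ} ζ^b`, a unit) for the formal
`Δ = q ∏ (1 − qⁿ)²⁴` over any field containing a primitive `ℓ`-th root of unity `ζ`, `ℓ` prime;
`tres4o_kronHecke_uS_eq` : `kronHecke ℓ ζ u_p = u_p^(ℓ+1)` for `u_p = Δ(q^p)/Δ(q)`, `ℓ ∤ p`.

Method: `kronHecke` is multiplicative; `kronHecke (1 − qⁿ) = (1 − q^(ℓn)) · (1 − qⁿ)` if `ℓ ∤ n` and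
`(1 − q^(ℓn)) · (1 − q^(n/ℓ))^ℓ` if `ℓ ∣ n`; the infinite product is handled by congruences modulo
`q^M` (`kronHecke` maps congruences modulo `q^(ℓM)` to congruences modulo `q^M`).
-/
import Fermat.Agent.ES.KroneckerComm
import Fermat.Agent.S28.Transfer

set_option autoImplicit false
set_option linter.style.haveILetI false
set_option linter.unusedSectionVars false
set_option linter.unusedVariables false

noncomputable section

namespace Fermat.Agent.R38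

open ModularCurve HahnSeries Fermat.Agent.ES Fermat.Agent.S28

/-! ## congruences of power series inside the Laurent series -/

section cong

variable {k : Type*} [Field k]

/-- the Laurent series with no terms of degree `< M` -/
def tres4oP (k : Type*) [Field k] (M : ℤ) : AddSubgroup (LaurentSeries k) where
  carrier := {f | ∀ n : ℤ, n < M → f.coeff n = 0}
  add_mem' := fun {a b} ha hb n hn => by
    rw [HahnSeries.coeff_add, ha n hn, hb n hn, add_zero]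
  zero_mem' := fun n _ => rfl
  neg_mem' := fun {a} ha n hn => by
    rw [HahnSeries.coeff_neg, ha n hn, neg_zero]

theorem tres4o_mem_P {M : ℤ} {f : LaurentSeries k} :
    f ∈ tres4oP k M ↔ ∀ n : ℤ, n < M → f.coeff n = 0 := Iff.rfl

theorem tres4o_P_mono {a b : ℤ} (h : a ≤ b) : tres4oP k b ≤ tres4oP k a :=
  fun f hf n hn => hf n (lt_of_lt_of_le hn h)

theorem tres4o_mul_mem {a b : ℤ} {f g : LaurentSeries k} (hf : f ∈ tres4oP k a)
    (hg : g ∈ tres4oP k b) : f * g ∈ tres4oP k (a + b) := by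
  intro n hn
  rw [HahnSeries.coeff_mul]
  refine Finset.sum_eq_zero fun ij hij => ?_
  rw [Finset.mem_antidiagonal] at hij
  obtain ⟨h1, h2, h3⟩ := hij
  by_cases hi : ij.1 < a
  · rw [hf _ hi, zero_mul]
  · have hj : ij.2 < b := by omega
    rw [hg _ hj, mul_zero]

theorem tres4o_one_mem : (1 : LaurentSeries k) ∈ tres4oP k 0 := by
  intro n hn
  rw [HahnSeries.coeff_one, if_neg (by omega)]

theorem tres4o_single_mem (n : ℤ) (c : k) : HahnSeries.single n c ∈ tres4oP k n := by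
  intro j hj
  rw [HahnSeries.coeff_single_of_ne (by omega)]

theorem tres4o_ofPS_mem (F : PowerSeries k) :
    HahnSeries.ofPowerSeries ℤ k F ∈ tres4oP k 0 := by
  intro n hn
  rw [HahnSeries.ofPowerSeries_apply]
  refine HahnSeries.embDomain_of_notMem_range ?_
  rintro ⟨m, hm⟩
  have h1 : (0 : ℤ) ≤ n := by
    rw [← hm]
    exact Int.natCast_nonneg m
  omega

/-- congruence modulo `q^M` of power series -/
def Tres4oCg (M : ℤ) (f g : LaurentSeries k) : Prop :=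
  f ∈ tres4oP k 0 ∧ g ∈ tres4oP k 0 ∧ f - g ∈ tres4oP k M

theorem Tres4oCg.refl {M : ℤ} {f : LaurentSeries k} (hf : f ∈ tres4oP k 0) : Tres4oCg M f f :=
  ⟨hf, hf, by rw [sub_self]; exact (tres4oP k M).zero_mem⟩

theorem Tres4oCg.of_eq {M : ℤ} {f g : LaurentSeries k} (hf : f ∈ tres4oP k 0) (h : f = g) :
    Tres4oCg M f g := h ▸ Tres4oCg.refl hf

theorem Tres4oCg.symm {M : ℤ} {f g : LaurentSeries k} (h : Tres4oCg M f g) : Tres4oCg M g f :=
  ⟨h.2.1, h.1, by rw [← neg_sub]; exact (tres4oP k M).neg_mem h.2.2⟩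

theorem Tres4oCg.trans {M : ℤ} {f g h : LaurentSeries k} (h1 : Tres4oCg M f g)
    (h2 : Tres4oCg M g h) : Tres4oCg M f h :=
  ⟨h1.1, h2.2.1, by
    have : f - h = (f - g) + (g - h) := by ring
    rw [this]
    exact (tres4oP k M).add_mem h1.2.2 h2.2.2⟩

theorem Tres4oCg.mono {M M' : ℤ} (hM : M' ≤ M) {f g : LaurentSeries k} (h : Tres4oCg M f g) :
    Tres4oCg M' f g :=
  ⟨h.1, h.2.1, tres4o_P_mono hM h.2.2⟩

theorem tres4o_mul_mem_zero {f g : LaurentSeries k} (hf : f ∈ tres4oP k 0)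
    (hg : g ∈ tres4oP k 0) : f * g ∈ tres4oP k 0 := by
  have := tres4o_mul_mem hf hg
  rwa [add_zero] at this

theorem Tres4oCg.mul {M : ℤ} {f g f' g' : LaurentSeries k} (h : Tres4oCg M f g)
    (h' : Tres4oCg M f' g') : Tres4oCg M (f * f') (g * g') := by
  refine ⟨tres4o_mul_mem_zero h.1 h'.1, tres4o_mul_mem_zero h.2.1 h'.2.1, ?_⟩
  have e : f * f' - g * g' = f * (f' - g') + (f - g) * g' := by ring
  rw [e]
  refine (tres4oP k M).add_mem ?_ ?_
  · have := tres4o_mul_mem h.1 h'.2.2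
    rwa [zero_add] at this
  · have := tres4o_mul_mem h.2.2 h'.2.1
    rwa [add_zero] at this

theorem Tres4oCg.one {M : ℤ} : Tres4oCg M (1 : LaurentSeries k) 1 := Tres4oCg.refl tres4o_one_mem

theorem Tres4oCg.pow {M : ℤ} {f g : LaurentSeries k} (h : Tres4oCg M f g) (n : ℕ) :
    Tres4oCg M (f ^ n) (g ^ n) := by
  induction n with
  | zero => rw [pow_zero, pow_zero]; exact Tres4oCg.one
  | succ n ih => rw [pow_succ, pow_succ]; exact ih.mul h

theorem Tres4oCg.prod {M : ℤ} {ι : Type*} (s : Finset ι) (f g : ι → LaurentSeries k)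
    (h : ∀ i ∈ s, Tres4oCg M (f i) (g i)) : Tres4oCg M (∏ i ∈ s, f i) (∏ i ∈ s, g i) := by
  classical
  induction s using Finset.induction_on with
  | empty => rw [Finset.prod_empty, Finset.prod_empty]; exact Tres4oCg.one
  | insert a s ha ih =>
    rw [Finset.prod_insert ha, Finset.prod_insert ha]
    exact (h a (Finset.mem_insert_self a s)).mul
      (ih fun i hi => h i (Finset.mem_insert_of_mem hi))

theorem tres4o_eq_of_forall {f g : LaurentSeries k} (h : ∀ M : ℕ, Tres4oCg (M : ℤ) f g) :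
    f = g := by
  rw [← sub_eq_zero]
  ext n
  rw [HahnSeries.coeff_zero]
  exact (h (n.toNat + 1)).2.2 n (by push_cast; omega)

/-! ### the operators -/

theorem tres4o_qExpand_mem (ℓ : ℕ) [NeZero ℓ] {a : ℤ} (ha : 0 ≤ a) {f : LaurentSeries k}
    (hf : f ∈ tres4oP k a) : qExpand k ℓ f ∈ tres4oP k a := by
  intro n hn
  by_cases hdvd : (ℓ : ℤ) ∣ n
  · obtain ⟨m, rfl⟩ := hdvd
    rw [qExpand_coeff_mul]
    apply hf
    have hℓ : (1 : ℤ) ≤ (ℓ : ℤ) := by exact_mod_cast Nat.one_le_iff_ne_zero.2 (NeZero.ne ℓ)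
    by_contra hm
    rw [not_lt] at hm
    nlinarith
  · exact qExpand_coeff_of_not_dvd ℓ f hdvd

theorem Tres4oCg.qExpand (ℓ : ℕ) [NeZero ℓ] {M : ℤ} (hM : 0 ≤ M) {f g : LaurentSeries k}
    (h : Tres4oCg M f g) : Tres4oCg M (qExpand k ℓ f) (qExpand k ℓ g) :=
  ⟨tres4o_qExpand_mem ℓ le_rfl h.1, tres4o_qExpand_mem ℓ le_rfl h.2.1, by
    rw [← map_sub]
    exact tres4o_qExpand_mem ℓ hM h.2.2⟩

theorem tres4o_kronRot_mem (c : kˣ) {a : ℤ} {f : LaurentSeries k} (hf : f ∈ tres4oP k a) :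
    kronRot c f ∈ tres4oP k a := by
  intro n hn
  rw [kronRot_coeff, hf n hn, mul_zero]

theorem Tres4oCg.kronRot (c : kˣ) {M : ℤ} {f g : LaurentSeries k} (h : Tres4oCg M f g) :
    Tres4oCg M (kronRot c f) (kronRot c g) :=
  ⟨tres4o_kronRot_mem c h.1, tres4o_kronRot_mem c h.2.1, by
    rw [← map_sub]
    exact tres4o_kronRot_mem c h.2.2⟩

theorem Tres4oCg.kronRotProd (ℓ : ℕ) (ζ : kˣ) {M : ℤ} {f g : LaurentSeries k}
    (h : Tres4oCg M f g) : Tres4oCg M (kronRotProd ℓ ζ f) (kronRotProd ℓ ζ g) :=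
  Tres4oCg.prod _ _ _ fun b _ => h.kronRot (ζ ^ b)

theorem tres4o_compress_mem (ℓ : ℕ) [NeZero ℓ] {a : ℤ} {f : LaurentSeries k}
    (hf : f ∈ tres4oP k ((ℓ : ℤ) * a)) : kronCompress ℓ f ∈ tres4oP k a := by
  intro n hn
  rw [kronCompress_coeff]
  apply hf
  have hℓ : (0 : ℤ) < (ℓ : ℤ) := by exact_mod_cast Nat.pos_of_ne_zero (NeZero.ne ℓ)
  exact mul_lt_mul_of_pos_left hn hℓ

theorem tres4o_compress_sub (ℓ : ℕ) [NeZero ℓ] (f g : LaurentSeries k) :
    kronCompress ℓ (f - g) = kronCompress ℓ f - kronCompress ℓ g := by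
  ext n
  simp only [kronCompress_coeff, HahnSeries.coeff_sub]

theorem Tres4oCg.compress (ℓ : ℕ) [NeZero ℓ] {M : ℤ} {f g : LaurentSeries k}
    (h : Tres4oCg ((ℓ : ℤ) * M) f g) : Tres4oCg M (kronCompress ℓ f) (kronCompress ℓ g) :=
  ⟨tres4o_compress_mem ℓ (by rw [mul_zero]; exact h.1),
    tres4o_compress_mem ℓ (by rw [mul_zero]; exact h.2.1), by
    rw [← tres4o_compress_sub]
    exact tres4o_compress_mem ℓ h.2.2⟩

theorem Tres4oCg.kronHecke (ℓ : ℕ) [NeZero ℓ] (ζ : kˣ) {M : ℤ} (hM : 0 ≤ M)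
    {f g : LaurentSeries k} (h : Tres4oCg ((ℓ : ℤ) * M) f g) :
    Tres4oCg M (kronHecke ℓ ζ f) (kronHecke ℓ ζ g) := by
  have hℓ : (1 : ℤ) ≤ (ℓ : ℤ) := by exact_mod_cast Nat.one_le_iff_ne_zero.2 (NeZero.ne ℓ)
  have hle : M ≤ (ℓ : ℤ) * M := by nlinarith
  exact ((h.mono hle).qExpand ℓ hM).mul (h.kronRotProd ℓ ζ).compress

end cong

/-! ## the factors `1 − qⁿ` -/

section factor

variable {k : Type*} [Field k]

/-- `1 − qⁿ` -/
def tres4oE (k : Type*) [Field k] (n : ℕ) : LaurentSeries k :=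
  1 - HahnSeries.single (n : ℤ) (1 : k)

theorem tres4o_E_mem (n : ℕ) : tres4oE k n ∈ tres4oP k 0 :=
  (tres4oP k 0).sub_mem tres4o_one_mem
    (tres4o_P_mono (Int.natCast_nonneg n) (tres4o_single_mem _ _))

theorem tres4o_E_cg {M : ℤ} {n : ℕ} (h : M ≤ (n : ℤ)) : Tres4oCg M (tres4oE k n) 1 :=
  ⟨tres4o_E_mem n, tres4o_one_mem, by
    have e : tres4oE k n - 1 = - HahnSeries.single (n : ℤ) (1 : k) := by
      rw [tres4oE]; ring
    rw [e]
    exact (tres4oP k M).neg_mem (tres4o_P_mono h (tres4o_single_mem _ _))⟩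

theorem tres4o_qExpand_E (ℓ : ℕ) [NeZero ℓ] (n : ℕ) :
    qExpand k ℓ (tres4oE k n) = tres4oE k (ℓ * n) := by
  rw [tres4oE, map_sub, map_one, qExpand_single, tres4oE]
  push_cast
  rfl

theorem tres4o_single_pow (n : ℕ) (ℓ : ℕ) :
    (HahnSeries.single (n : ℤ) (1 : k)) ^ ℓ = HahnSeries.single ((ℓ * n : ℕ) : ℤ) (1 : k) := by
  induction ℓ with
  | zero => simp
  | succ m ih =>
    rw [pow_succ, ih, HahnSeries.single_mul_single, mul_one]
    congr 1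
    push_cast
    ring_nf

theorem tres4o_kronRot_E (c : kˣ) (n : ℕ) :
    kronRot c (tres4oE k n) = 1 - HahnSeries.C ((c ^ n : kˣ) : k) * HahnSeries.single (n : ℤ) 1 := by
  rw [tres4oE, map_sub, map_one]
  congr 1
  ext j
  rw [kronRot_coeff, HahnSeries.C_mul_eq_smul, HahnSeries.coeff_smul, smul_eq_mul]
  by_cases hj : j = (n : ℤ)
  · subst hj
    rw [zpow_natCast]
  · rw [HahnSeries.coeff_single_of_ne hj, mul_zero, mul_zero]

/-- `∏_{b<ℓ} (1 − ωᵇ Y) = 1 − Y^ℓ` for a primitive `ℓ`-th root of unity `ω` -/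
theorem tres4o_prod_one_sub {R : Type*} [CommRing R] [IsDomain R] {ℓ : ℕ} (hℓ : 0 < ℓ) {ω : R}
    (hω : IsPrimitiveRoot ω ℓ) (Y : R) :
    ∏ b ∈ Finset.range ℓ, (1 - ω ^ b * Y) = 1 - Y ^ ℓ := by
  have h := X_pow_sub_C_eq_prod hω hℓ (rfl : Y ^ ℓ = Y ^ ℓ)
  have h1 := congrArg (Polynomial.eval (1 : R)) h
  rw [Polynomial.eval_sub, Polynomial.eval_pow, Polynomial.eval_X, one_pow, Polynomial.eval_C,
    Polynomial.eval_prod] at h1
  rw [h1]
  refine Finset.prod_congr rfl fun b _ => ?_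
  rw [Polynomial.eval_sub, Polynomial.eval_X, Polynomial.eval_C]

variable (ℓ : ℕ) [NeZero ℓ] (ζ : kˣ)

theorem tres4o_kronNorm_E_of_dvd (hζ : ζ ^ ℓ = 1) (m : ℕ) :
    kronNorm ℓ ζ (tres4oE k (ℓ * m)) = tres4oE k m ^ ℓ := by
  refine kronNorm_unique ℓ ζ _ _ ?_
  rw [map_pow, tres4o_qExpand_E, kronRotProd]
  have h1 : ∀ b ∈ Finset.range ℓ, kronRot (ζ ^ b) (tres4oE k (ℓ * m)) = tres4oE k (ℓ * m) := by
    intro b _
    rw [tres4o_kronRot_E, tres4oE]
    have h2 : (ζ ^ b) ^ (ℓ * m) = 1 := by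
      rw [← pow_mul, mul_comm b, mul_assoc, pow_mul, hζ, one_pow]
    rw [h2, Units.val_one, map_one, one_mul]
  rw [Finset.prod_congr rfl h1, Finset.prod_const, Finset.card_range]

theorem tres4o_kronNorm_E_of_not_dvd (hℓ : ℓ.Prime) (hζ : IsPrimitiveRoot ζ ℓ) {n : ℕ}
    (hn : ¬ ℓ ∣ n) : kronNorm ℓ ζ (tres4oE k n) = tres4oE k n := by
  refine kronNorm_unique ℓ ζ _ _ ?_
  rw [tres4o_qExpand_E, kronRotProd]
  have hcop : Nat.Coprime n ℓ := ((Nat.Prime.coprime_iff_not_dvd hℓ).2 hn).symm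
  have hω : IsPrimitiveRoot (ζ ^ n) ℓ := hζ.pow_of_coprime n hcop
  have hω' : IsPrimitiveRoot (HahnSeries.C (((ζ ^ n : kˣ) : k)) : LaurentSeries k) ℓ :=
    (IsPrimitiveRoot.coe_units_iff.2 hω).map_of_injective HahnSeries.C_injective
  have h1 := tres4o_prod_one_sub hℓ.pos hω' (HahnSeries.single (n : ℤ) (1 : k))
  rw [tres4o_single_pow] at h1
  rw [tres4oE, ← h1]
  refine Finset.prod_congr rfl fun b _ => ?_
  have e : (ζ ^ b) ^ n = (ζ ^ n) ^ b := by rw [← pow_mul, ← pow_mul, Nat.mul_comm]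
  have e2 : (HahnSeries.C ((((ζ ^ b) ^ n : kˣ)) : k) : LaurentSeries k)
      = (HahnSeries.C (((ζ ^ n : kˣ)) : k)) ^ b := by
    rw [e, Units.val_pow_eq_pow_val (ζ ^ n) b, map_pow]
  rw [tres4o_kronRot_E, e2]

/-- the second factor of `kronHecke (1 − qⁿ)` -/
def tres4oG (k : Type*) [Field k] (ℓ n : ℕ) : LaurentSeries k :=
  if ℓ ∣ n then tres4oE k (n / ℓ) ^ ℓ else tres4oE k n

theorem tres4o_kronHecke_E (hℓ : ℓ.Prime) (hζ : IsPrimitiveRoot ζ ℓ) (n : ℕ) :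
    kronHecke ℓ ζ (tres4oE k n) = tres4oE k (ℓ * n) * tres4oG k ℓ n := by
  rw [kronHecke, tres4o_qExpand_E, tres4oG]
  congr 1
  split_ifs with h
  · obtain ⟨m, rfl⟩ := h
    rw [tres4o_kronNorm_E_of_dvd ℓ ζ hζ.pow_eq_one, Nat.mul_div_cancel_left m hℓ.pos]
  · exact tres4o_kronNorm_E_of_not_dvd ℓ ζ hℓ hζ h

end factor

/-! ## finite products: reindexing and truncation -/

section comb

variable {k : Type*} [Field k]

/-- `∏_{n < ℓM, ℓ ∣ n+1} F((n+1)/ℓ) = ∏_{m < M} F(m+1)` -/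
theorem tres4o_reindex {R : Type*} [CommMonoid R] (ℓ : ℕ) (hℓ : 0 < ℓ) (F : ℕ → R) (M : ℕ) :
    ∏ n ∈ Finset.range (ℓ * M), (if ℓ ∣ n + 1 then F ((n + 1) / ℓ) else 1)
      = ∏ m ∈ Finset.range M, F (m + 1) := by
  induction M with
  | zero => simp
  | succ M ih =>
    rw [Nat.mul_succ, Finset.prod_range_add, ih, Finset.prod_range_succ]
    congr 1
    obtain ⟨ℓ', rfl⟩ : ∃ ℓ', ℓ = ℓ' + 1 := ⟨ℓ - 1, by omega⟩
    rw [Finset.prod_eq_single ℓ']
    · have h1 : (ℓ' + 1) * M + ℓ' + 1 = (ℓ' + 1) * (M + 1) := by ring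
      rw [h1, if_pos (dvd_mul_right _ _), Nat.mul_div_cancel_left _ (Nat.succ_pos ℓ')]
    · intro b hb hne
      rw [Finset.mem_range] at hb
      rw [if_neg]
      intro hdvd
      have h2 : (ℓ' + 1) ∣ b + 1 := by
        have h3 : (ℓ' + 1) * M + b + 1 = (ℓ' + 1) * M + (b + 1) := by ring
        rw [h3] at hdvd
        exact (Nat.dvd_add_right (dvd_mul_right _ _)).1 hdvd
      have h4 := Nat.le_of_dvd (Nat.succ_pos b) h2
      omega
    · intro h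
      exact absurd (Finset.mem_range.2 (Nat.lt_succ_self ℓ')) h

/-- dropping the factors which are `≡ 1` -/
theorem tres4o_drop {M : ℕ} (F : ℕ → LaurentSeries k) (hF0 : ∀ n, F n ∈ tres4oP k 0)
    (hF : ∀ n, M ≤ n → Tres4oCg (M : ℤ) (F n) 1) {N : ℕ} (hMN : M ≤ N) :
    Tres4oCg (M : ℤ) (∏ n ∈ Finset.range N, F n) (∏ n ∈ Finset.range M, F n) := by
  obtain ⟨d, rfl⟩ := Nat.exists_eq_add_of_le hMN
  rw [Finset.prod_range_add]
  have h1 : Tres4oCg (M : ℤ) (∏ n ∈ Finset.range M, F n) (∏ n ∈ Finset.range M, F n) :=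
    Tres4oCg.prod _ _ _ fun n _ => Tres4oCg.refl (hF0 n)
  have h2 : Tres4oCg (M : ℤ) (∏ x ∈ Finset.range d, F (M + x)) (∏ x ∈ Finset.range d, 1) :=
    Tres4oCg.prod _ _ _ fun n _ => hF (M + n) (Nat.le_add_right M n)
  rw [Finset.prod_const_one] at h2
  have h3 := h1.mul h2
  rwa [mul_one] at h3

variable (ℓ : ℕ) [NeZero ℓ] (ζ : kˣ)

theorem tres4o_kronHecke_prod (hζ : IsPrimitiveRoot ζ ℓ) {ι : Type*} (s : Finset ι)
    (f : ι → LaurentSeries k) :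
    kronHecke ℓ ζ (∏ i ∈ s, f i) = ∏ i ∈ s, kronHecke ℓ ζ (f i) := by
  classical
  induction s using Finset.induction_on with
  | empty => rw [Finset.prod_empty, Finset.prod_empty, kronHecke_one]
  | insert a s ha ih =>
    rw [Finset.prod_insert ha, Finset.prod_insert ha, kronHecke_mul ζ hζ, ih]

theorem tres4o_kronHecke_pow (hζ : IsPrimitiveRoot ζ ℓ) (f : LaurentSeries k) (n : ℕ) :
    kronHecke ℓ ζ (f ^ n) = kronHecke ℓ ζ f ^ n := by
  induction n with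
  | zero => rw [pow_zero, pow_zero, kronHecke_one]
  | succ n ih => rw [pow_succ, pow_succ, kronHecke_mul ζ hζ, ih]

/-- the finite identity modulo `q^M` -/
theorem tres4o_finite (hℓ : ℓ.Prime) (hζ : IsPrimitiveRoot ζ ℓ) (M : ℕ) :
    Tres4oCg (M : ℤ) (kronHecke ℓ ζ (∏ n ∈ Finset.range (ℓ * M), tres4oE k (n + 1)))
      ((∏ n ∈ Finset.range M, tres4oE k (n + 1)) ^ (ℓ + 1)) := by
  have hMN : M ≤ ℓ * M := Nat.le_mul_of_pos_left M hℓ.pos
  set Pm : LaurentSeries k := ∏ n ∈ Finset.range M, tres4oE k (n + 1) with hPm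
  have hPm0 : Pm ∈ tres4oP k 0 := (Tres4oCg.prod (M := 0) _ _ _ fun n _ =>
    Tres4oCg.refl (tres4o_E_mem (n + 1))).1
  -- exact formula
  rw [tres4o_kronHecke_prod ℓ ζ hζ]
  simp only [tres4o_kronHecke_E ℓ ζ hℓ hζ]
  rw [Finset.prod_mul_distrib]
  -- the second factor
  have hB : ∏ n ∈ Finset.range (ℓ * M), tres4oG k ℓ (n + 1)
      = Pm ^ ℓ * ∏ n ∈ Finset.range (ℓ * M), (if ℓ ∣ n + 1 then 1 else tres4oE k (n + 1)) := by
    have h1 : ∀ n ∈ Finset.range (ℓ * M), tres4oG k ℓ (n + 1)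
        = (if ℓ ∣ n + 1 then tres4oE k ((n + 1) / ℓ) ^ ℓ else 1) *
          (if ℓ ∣ n + 1 then 1 else tres4oE k (n + 1)) := by
      intro n _
      rw [tres4oG]
      split_ifs <;> simp
    rw [Finset.prod_congr rfl h1, Finset.prod_mul_distrib,
      tres4o_reindex ℓ hℓ.pos (fun j => tres4oE k j ^ ℓ) M, Finset.prod_pow]
  rw [hB]
  -- the first factor
  have hA : Tres4oCg (M : ℤ) (∏ n ∈ Finset.range (ℓ * M), tres4oE k (ℓ * (n + 1)))
      (∏ n ∈ Finset.range (ℓ * M), (if ℓ ∣ n + 1 then tres4oE k (n + 1) else 1)) := by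
    have h1 := tres4o_drop (M := M) (fun n => tres4oE k (ℓ * (n + 1)))
      (fun n => tres4o_E_mem _) (fun n hn => tres4o_E_cg (by
        have : M ≤ ℓ * (n + 1) := le_trans (by omega) (Nat.le_mul_of_pos_left (n + 1) hℓ.pos)
        exact_mod_cast this)) hMN
    have h2 := tres4o_reindex ℓ hℓ.pos (fun j => tres4oE k (ℓ * j)) M
    have h3 : ∀ n ∈ Finset.range (ℓ * M),
        (if ℓ ∣ n + 1 then tres4oE k (ℓ * ((n + 1) / ℓ)) else 1)
          = (if ℓ ∣ n + 1 then tres4oE k (n + 1) else 1) := by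
      intro n _
      split_ifs with h
      · rw [Nat.mul_div_cancel' h]
      · rfl
    rw [Finset.prod_congr rfl h3] at h2
    rw [h2]
    exact h1
  have hC0 : (∏ n ∈ Finset.range (ℓ * M), (if ℓ ∣ n + 1 then 1 else tres4oE k (n + 1)))
      ∈ tres4oP k 0 := (Tres4oCg.prod (M := 0) _ _ _ fun n _ =>
    Tres4oCg.refl (by split_ifs; exacts [tres4o_one_mem, tres4o_E_mem _])).1
  have h4 : ∀ n ∈ Finset.range (ℓ * M),
      (if ℓ ∣ n + 1 then tres4oE k (n + 1) else 1) * (if ℓ ∣ n + 1 then 1 else tres4oE k (n + 1))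
        = tres4oE k (n + 1) := by
    intro n _
    split_ifs <;> simp
  have hR : (∏ n ∈ Finset.range (ℓ * M), (if ℓ ∣ n + 1 then tres4oE k (n + 1) else 1)) *
      (∏ n ∈ Finset.range (ℓ * M), (if ℓ ∣ n + 1 then 1 else tres4oE k (n + 1)))
      = ∏ n ∈ Finset.range (ℓ * M), tres4oE k (n + 1) := by
    rw [← Finset.prod_mul_distrib]
    exact Finset.prod_congr rfl h4
  have hAC := hA.mul (Tres4oCg.refl (M := (M : ℤ)) hC0)
  rw [hR] at hAC
  have hD := tres4o_drop (M := M) (fun n => tres4oE k (n + 1)) (fun n => tres4o_E_mem _)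
    (fun n hn => tres4o_E_cg (by exact_mod_cast (by omega : M ≤ n + 1))) hMN
  have hE := (hAC.trans hD).mul (Tres4oCg.refl (M := (M : ℤ))
    ((Tres4oCg.refl (M := 0) hPm0).pow ℓ).1)
  have e1 : ∀ A B C : LaurentSeries k, A * (C * B) = A * B * C := by
    intro A B C
    ring
  have e2 : Pm ^ (ℓ + 1) = Pm * Pm ^ ℓ := by ring
  rw [e1, e2]
  exact hE

end comb

/-! ## the eta product -/

section eta

open Filter Topology
open scoped PowerSeries.WithPiTopology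

/-- the finite partial products of the eta product over `ℤ` -/
def tres4oZ (N : ℕ) : PowerSeries ℤ := ∏ n ∈ Finset.range N, (1 - PowerSeries.X ^ (n + 1))

theorem tres4o_coeff_Z_succ {N m : ℕ} (h : m ≤ N) :
    PowerSeries.coeff m (tres4oZ (N + 1)) = PowerSeries.coeff m (tres4oZ N) := by
  have e : tres4oZ (N + 1) = tres4oZ N - tres4oZ N * PowerSeries.X ^ (N + 1) := by
    rw [tres4oZ, Finset.prod_range_succ, ← tres4oZ]; ring
  rw [e, map_sub, PowerSeries.coeff_mul_X_pow', if_neg (by omega), sub_zero]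

theorem tres4o_coeff_Z_of_le {N m : ℕ} (h : m ≤ N) (M : ℕ) (hM : N ≤ M) :
    PowerSeries.coeff m (tres4oZ M) = PowerSeries.coeff m (tres4oZ N) := by
  induction M, hM using Nat.le_induction with
  | base => rfl
  | succ M hM ih => rw [tres4o_coeff_Z_succ (le_trans h hM), ih]

theorem tres4o_coeff_etaProd {N m : ℕ} (h : m ≤ N) :
    PowerSeries.coeff m ModularCurve.etaProd = PowerSeries.coeff m (tres4oZ N) := by
  have h0 := (PowerSeries.WithPiTopology.multipliable_one_sub_X_pow ℤ).hasProd.tendsto_prod_nat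
  have h1 : Tendsto (fun M : ℕ => PowerSeries.coeff m (tres4oZ M)) atTop
      (𝓝 (PowerSeries.coeff m ModularCurve.etaProd)) :=
    ((PowerSeries.WithPiTopology.continuous_coeff ℤ m).tendsto _).comp h0
  have h2 : Tendsto (fun M : ℕ => PowerSeries.coeff m (tres4oZ M)) atTop
      (𝓝 (PowerSeries.coeff m (tres4oZ N))) :=
    tendsto_atTop_of_eventually_const (i₀ := N) fun M hM => tres4o_coeff_Z_of_le h M hM
  exact tendsto_nhds_unique h1 h2

variable {k : Type*} [Field k]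

/-- the eta product over `k` -/
def tres4oEta (k : Type*) [Field k] : LaurentSeries k :=
  HahnSeries.ofPowerSeries ℤ k (ModularCurve.etaProd.map (Int.castRingHom k))

theorem tres4o_prod_E (N : ℕ) :
    ∏ n ∈ Finset.range N, tres4oE k (n + 1)
      = HahnSeries.ofPowerSeries ℤ k ((tres4oZ N).map (Int.castRingHom k)) := by
  rw [tres4oZ, map_prod, map_prod]
  refine Finset.prod_congr rfl fun n _ => ?_
  rw [map_sub, map_one, map_pow, PowerSeries.map_X, map_sub, map_one,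
    HahnSeries.ofPowerSeries_X_pow, tres4oE]

theorem tres4o_eta_mem : tres4oEta k ∈ tres4oP k 0 := tres4o_ofPS_mem _

theorem tres4o_eta_cg (N : ℕ) :
    Tres4oCg ((N : ℤ) + 1) (tres4oEta k) (∏ n ∈ Finset.range N, tres4oE k (n + 1)) := by
  have hP : (∏ n ∈ Finset.range N, tres4oE k (n + 1)) ∈ tres4oP k 0 := by
    rw [tres4o_prod_E]; exact tres4o_ofPS_mem _
  refine ⟨tres4o_eta_mem, hP, ?_⟩
  intro n hn
  rw [HahnSeries.coeff_sub]
  by_cases h0 : n < 0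
  · rw [tres4o_eta_mem n h0, hP n h0, sub_zero]
  · obtain ⟨m, rfl⟩ : ∃ m : ℕ, n = (m : ℤ) := ⟨n.toNat, by omega⟩
    have hm : m ≤ N := by omega
    rw [tres4o_prod_E, tres4oEta, HahnSeries.ofPowerSeries_apply_coeff,
      HahnSeries.ofPowerSeries_apply_coeff, PowerSeries.coeff_map, PowerSeries.coeff_map,
      tres4o_coeff_etaProd hm, sub_self]

variable (ℓ : ℕ) [NeZero ℓ] (ζ : kˣ)

/-- **the Hecke operator on the eta product**: `T_ℓ η̂ = η̂^(ℓ+1)` -/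
theorem tres4o_kronHecke_eta (hℓ : ℓ.Prime) (hζ : IsPrimitiveRoot ζ ℓ) :
    kronHecke ℓ ζ (tres4oEta k) = tres4oEta k ^ (ℓ + 1) := by
  refine tres4o_eq_of_forall fun M => ?_
  have h1 : Tres4oCg ((ℓ : ℤ) * (M : ℤ)) (tres4oEta k)
      (∏ n ∈ Finset.range (ℓ * M), tres4oE k (n + 1)) := by
    have := tres4o_eta_cg (k := k) (ℓ * M)
    refine this.mono ?_
    push_cast
    omega
  have h2 := Tres4oCg.kronHecke ℓ ζ (Int.natCast_nonneg M) h1
  have h3 := tres4o_finite ℓ ζ hℓ hζ M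
  have h4 : Tres4oCg (M : ℤ) (tres4oEta k) (∏ n ∈ Finset.range M, tres4oE k (n + 1)) :=
    (tres4o_eta_cg (k := k) M).mono (by omega)
  exact (h2.trans h3).trans (h4.pow (ℓ + 1)).symm

end eta

/-! ## the discriminant and the Ogg unit -/

section delta

variable {k : Type*} [Field k] (ℓ : ℕ) [NeZero ℓ] (ζ : kˣ)

/-- the unit `ε = ∏_{b<ℓ} ζ^b` -/
def tres4oEps (ℓ : ℕ) (ζ : kˣ) : kˣ := ∏ b ∈ Finset.range ℓ, ζ ^ b

theorem tres4o_kronRot_q (c : kˣ) :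
    kronRot c (HahnSeries.single (1 : ℤ) (1 : k))
      = HahnSeries.C ((c : kˣ) : k) * HahnSeries.single (1 : ℤ) 1 := by
  ext j
  rw [kronRot_coeff, HahnSeries.C_mul_eq_smul, HahnSeries.coeff_smul, smul_eq_mul]
  by_cases hj : j = 1
  · subst hj
    rw [zpow_one]
  · rw [HahnSeries.coeff_single_of_ne hj, mul_zero, mul_zero]

theorem tres4o_kronNorm_q :
    kronNorm ℓ ζ (HahnSeries.single (1 : ℤ) (1 : k))
      = HahnSeries.C ((tres4oEps ℓ ζ : kˣ) : k) * HahnSeries.single (1 : ℤ) 1 := by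
  refine kronNorm_unique ℓ ζ _ _ ?_
  rw [map_mul, qExpand_C, qExpand_single, mul_one, kronRotProd]
  simp only [tres4o_kronRot_q]
  rw [Finset.prod_mul_distrib, Finset.prod_const, Finset.card_range, ← map_prod,
    HahnSeries.single_pow, one_pow, nsmul_eq_mul, mul_one, tres4oEps, Units.coe_prod]

theorem tres4o_kronHecke_q :
    kronHecke ℓ ζ (HahnSeries.single (1 : ℤ) (1 : k))
      = HahnSeries.C ((tres4oEps ℓ ζ : kˣ) : k) * HahnSeries.single (1 : ℤ) 1 ^ (ℓ + 1) := by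
  rw [kronHecke, tres4o_kronNorm_q, qExpand_single, mul_one, HahnSeries.single_pow, one_pow,
    nsmul_eq_mul, mul_one, mul_left_comm, HahnSeries.single_mul_single, mul_one]
  push_cast
  rfl

theorem tres4o_eps_ne_zero :
    (HahnSeries.C ((tres4oEps ℓ ζ : kˣ) : k) : LaurentSeries k) ≠ 0 :=
  (map_ne_zero (HahnSeries.C : k →+* LaurentSeries k)).2 (Units.ne_zero _)

theorem tres4o_deltaS_eq :
    deltaS k = HahnSeries.single (1 : ℤ) (1 : k) * tres4oEta k ^ 24 := by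
  rw [deltaS_eq, dedekindEtaUnit, map_pow, map_pow, tres4oEta]

/-- **the Hecke operator on the discriminant**: `T_ℓ Δ = ε · Δ^(ℓ+1)` -/
theorem tres4o_kronHecke_delta (hℓ : ℓ.Prime) (hζ : IsPrimitiveRoot ζ ℓ) :
    kronHecke ℓ ζ (deltaS k)
      = HahnSeries.C ((tres4oEps ℓ ζ : kˣ) : k) * deltaS k ^ (ℓ + 1) := by
  rw [tres4o_deltaS_eq, kronHecke_mul ζ hζ, tres4o_kronHecke_pow ℓ ζ hζ,
    tres4o_kronHecke_eta ℓ ζ hℓ hζ, tres4o_kronHecke_q]
  ring

theorem tres4o_kronHecke_qExpand (p : ℕ) [NeZero p] (hcop : Nat.Coprime p ℓ) (hζ : ζ ^ ℓ = 1)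
    (f : LaurentSeries k) :
    kronHecke ℓ ζ (qExpand k p f) = qExpand k p (kronHecke ℓ ζ f) := by
  rw [kronHecke, kronHecke, map_mul, kron_qExpand_comm ℓ p, kronNorm_qExpand p ℓ hcop ζ hζ]

theorem tres4o_kronHecke_inv (hζ : IsPrimitiveRoot ζ ℓ) {f : LaurentSeries k} (hf : f ≠ 0) :
    kronHecke ℓ ζ f⁻¹ = (kronHecke ℓ ζ f)⁻¹ := by
  have h : kronHecke ℓ ζ f * kronHecke ℓ ζ f⁻¹ = 1 := by
    rw [← kronHecke_mul ζ hζ, mul_inv_cancel₀ hf, kronHecke_one]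
  exact eq_inv_of_mul_eq_one_right h

/-- **the Hecke operator on the Ogg unit** `u_p = Δ(q^p)/Δ(q)`: `T_ℓ u_p = u_p^(ℓ+1)` for a prime
`ℓ ∤ p` (the constants `ε` cancel). -/
theorem tres4o_kronHecke_uS_eq (p : ℕ) [NeZero p] (hℓ : ℓ.Prime) (hℓp : ¬ ℓ ∣ p)
    (hζ : IsPrimitiveRoot ζ ℓ) :
    kronHecke ℓ ζ (uS k p) = uS k p ^ (ℓ + 1) := by
  have hcop : Nat.Coprime p ℓ := ((Nat.Prime.coprime_iff_not_dvd hℓ).2 hℓp).symm
  have hΔ : deltaS k ≠ 0 := deltaS_ne_zero k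
  have hε := tres4o_eps_ne_zero (k := k) ℓ ζ
  rw [uS_eq_div, kronHecke_mul ζ hζ, tres4o_kronHecke_qExpand ℓ ζ p hcop hζ.pow_eq_one,
    tres4o_kronHecke_inv ℓ ζ hζ hΔ, tres4o_kronHecke_delta ℓ ζ hℓ hζ, map_mul, qExpand_C,
    map_pow, mul_pow, inv_pow]
  field_simp

end delta

/-! ## the requested forms -/

section final

/-- **EIS-OGG** (`ℓ ∤ p`): `T_ℓ u_p = c · u_p^(ℓ+1)` with `c = 1`.  (For `ℓ ∣ p`, `ℓ ≠ p` the statement
is false, e.g. `p = ℓ²` in characteristic `0`: `T_ℓ Δ(q^p) = Δ(q^(ℓp)) · Δ(q^(p/ℓ))^ℓ`.) -/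
theorem tres4o_kronHecke_uS (k : Type*) [Field k] (p ℓ : ℕ) [NeZero p] [NeZero ℓ] (hℓ : ℓ.Prime)
    (hℓp : ¬ ℓ ∣ p) (ζ : kˣ) (hζ : IsPrimitiveRoot ζ ℓ) :
    ∃ c : k, c ≠ 0 ∧
      kronHecke ℓ ζ (uS k p) = HahnSeries.C c * uS k p ^ (ℓ + 1) :=
  ⟨1, one_ne_zero, by rw [tres4o_kronHecke_uS_eq ℓ ζ p hℓ hℓp hζ, map_one, one_mul]⟩

/-- **EIS-OGG** for a prime level `p ≠ ℓ`. -/
theorem tres4o_kronHecke_uS_prime (k : Type*) [Field k] (p ℓ : ℕ) [NeZero p] [NeZero ℓ]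
    (hp : p.Prime) (hℓ : ℓ.Prime) (hℓp : ℓ ≠ p) (ζ : kˣ) (hζ : IsPrimitiveRoot ζ ℓ) :
    ∃ c : k, c ≠ 0 ∧
      kronHecke ℓ ζ (uS k p) = HahnSeries.C c * uS k p ^ (ℓ + 1) :=
  tres4o_kronHecke_uS k p ℓ hℓ
    (fun h => hℓp ((Nat.prime_dvd_prime_iff_eq hℓ hp).1 h)) ζ hζ

/-- `T_ℓ u_p = u_p^(ℓ+1)` for primes `ℓ ≠ p`. -/
theorem tres4o_kronHecke_uS_prime_eq (k : Type*) [Field k] (p ℓ : ℕ) [NeZero p] [NeZero ℓ]
    (hp : p.Prime) (hℓ : ℓ.Prime) (hℓp : ℓ ≠ p) (ζ : kˣ) (hζ : IsPrimitiveRoot ζ ℓ) :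
    kronHecke ℓ ζ (uS k p) = uS k p ^ (ℓ + 1) :=
  tres4o_kronHecke_uS_eq ℓ ζ p hℓ
    (fun h => hℓp ((Nat.prime_dvd_prime_iff_eq hℓ hp).1 h)) hζ

end final

end Fermat.Agent.R38

end
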