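/-
ROW 38, TRES, LEAF B of ASM-NOCOVER (helper47's list) = the Hecke half of input (I7 OGG) of
helper89's `tresmono_frame` (helper10).

The Hecke operator on the INVERSE Ogg unit `uInvS k p = Δ(q)/Δ(q^p)`:
`T_ℓ (uInvS) = (uInvS)^(ℓ+1)` for a prime `ℓ ∤ p` (from helper9's `tres4o_kronHecke_uS_eq` and
`tres4o_kronHecke_inv`).

 * `tres4o_kronHecke_uInvS_eq`        `kronHecke ℓ ζ (uInvS k p) = uInvS k p ^ (ℓ + 1)`
 * `tres4o_kronHecke_uInvS`           `∃ c ≠ 0, … = C c * uInvS k p ^ (ℓ + 1)`   (LEAF B, `c = 1`)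
 * `tres4o_kronHecke_uInvS_prime`     the same for a prime level `p ≠ ℓ`
 * `tres4o_hhecke_uInvS`              in EXACTLY the shape of the hypothesis `hhecke` of
                                      `tresmono_frame` / `facMonoConcl_of_ordAt` for
                                      `hb := uInvS k p`
-/
import Fermat.Agent.R38.TresEisOgg

set_option autoImplicit false
set_option linter.unusedSectionVars false

noncomputable section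

namespace Fermat.Agent.R38

open ModularCurve HahnSeries Fermat.Agent.ES Fermat.Agent.S28

/-- `T_ℓ (u_p⁻¹) = (u_p⁻¹)^(ℓ+1)` for a prime `ℓ ∤ p`. -/
theorem tres4o_kronHecke_uInvS_eq (k : Type*) [Field k] (p ℓ : ℕ) [NeZero p] [NeZero ℓ]
    (hℓ : ℓ.Prime) (hℓp : ¬ ℓ ∣ p) (ζ : kˣ) (hζ : IsPrimitiveRoot ζ ℓ) :
    kronHecke ℓ ζ (uInvS k p) = uInvS k p ^ (ℓ + 1) := by
  rw [uInvS_eq_inv, tres4o_kronHecke_inv ℓ ζ hζ (uS_ne_zero p k),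
    tres4o_kronHecke_uS_eq ℓ ζ p hℓ hℓp hζ, inv_pow]

/-- **LEAF B**: `T_ℓ (uInvS) = c · (uInvS)^(ℓ+1)` with `c = 1`, for a prime `ℓ ∤ p`. -/
theorem tres4o_kronHecke_uInvS (k : Type*) [Field k] (p ℓ : ℕ) [NeZero p] [NeZero ℓ]
    (hℓ : ℓ.Prime) (hℓp : ¬ ℓ ∣ p) (ζ : kˣ) (hζ : IsPrimitiveRoot ζ ℓ) :
    ∃ c : k, c ≠ 0 ∧ kronHecke ℓ ζ (uInvS k p) = HahnSeries.C c * uInvS k p ^ (ℓ + 1) :=
  ⟨1, one_ne_zero, by rw [tres4o_kronHecke_uInvS_eq k p ℓ hℓ hℓp ζ hζ, map_one, one_mul]⟩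

/-- the same for a prime level `p ≠ ℓ`. -/
theorem tres4o_kronHecke_uInvS_prime (k : Type*) [Field k] (p ℓ : ℕ) [NeZero p] [NeZero ℓ]
    (hp : p.Prime) (hℓ : ℓ.Prime) (hℓp : ℓ ≠ p) (ζ : kˣ) (hζ : IsPrimitiveRoot ζ ℓ) :
    ∃ c : k, c ≠ 0 ∧ kronHecke ℓ ζ (uInvS k p) = HahnSeries.C c * uInvS k p ^ (ℓ + 1) :=
  tres4o_kronHecke_uInvS k p ℓ hℓ
    (fun h => hℓp ((Nat.prime_dvd_prime_iff_eq hℓ hp).1 h)) ζ hζ

/-- **(I7) `hhecke`** of `tresmono_frame` for `hb := uInvS k p` (`p` prime), in exactly the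
shape of the hypothesis. -/
theorem tres4o_hhecke_uInvS (k : Type*) [Field k] (p : ℕ) [NeZero p] (hp : p.Prime) :
    ∀ (ℓ : ℕ) [NeZero ℓ], ℓ.Prime → ℓ ≠ p → ∀ ζ : kˣ, IsPrimitiveRoot ζ ℓ →
      ∃ c : k, c ≠ 0 ∧ kronHecke ℓ ζ (uInvS k p) = HahnSeries.C c * uInvS k p ^ (ℓ + 1) :=
  fun ℓ _ hℓ hℓp ζ hζ => tres4o_kronHecke_uInvS_prime k p ℓ hp hℓ hℓp ζ hζ

/-- `T_ℓ (uS) = c · (uS)^(ℓ+1)` in the `hhecke` shape (for use with `hb := uS k p`). -/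
theorem tres4o_hhecke_uS (k : Type*) [Field k] (p : ℕ) [NeZero p] (hp : p.Prime) :
    ∀ (ℓ : ℕ) [NeZero ℓ], ℓ.Prime → ℓ ≠ p → ∀ ζ : kˣ, IsPrimitiveRoot ζ ℓ →
      ∃ c : k, c ≠ 0 ∧ kronHecke ℓ ζ (uS k p) = HahnSeries.C c * uS k p ^ (ℓ + 1) :=
  fun ℓ _ hℓ hℓp ζ hζ => tres4o_kronHecke_uS_prime k p ℓ hp hℓ hℓp ζ hζ

end Fermat.Agent.R38

end
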