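/-
R38-TRES FAC-LOC (ET2), Artin–Schreier convenience (helper28): `P ≡ Xᵖ - X` mod `𝔫`, `p ∈ 𝔫`
⇒ `Tres5eSplit F z P (fun k : ZMod p => (k.val : R))`.
* `tres5e_prod_zmod` : `∏_{a : ZMod p} (X - C a) = Xᵖ - X`;  `tres5e_prod_int` : the integral lift.
* `tres5e_isUnit_int` : integers prime to `p` are units of a local ring with `p ∈ 𝔫`.
* `tres5e_split_artinSchreier`.
-/
import Fermat.Agent.R38.TresEtale

set_option autoImplicit false
set_option linter.unusedSectionVars false
set_option linter.unusedVariables false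

namespace Fermat.Agent.R38

open Polynomial

section AS

/-- `∏_{a ∈ 𝔽_p} (X - a) = Xᵖ - X`. -/
theorem tres5e_prod_zmod (p : ℕ) [hp : Fact p.Prime] :
    ∏ a : ZMod p, (X - C a) = (X ^ p - X : (ZMod p)[X]) := by
  have hmonic : (X ^ p - X : (ZMod p)[X]).Monic := by
    apply monic_X_pow_sub
    rw [degree_X]
    exact_mod_cast hp.out.one_lt
  have hroots : (X ^ p - X : (ZMod p)[X]).roots = Finset.univ.val := by
    have := FiniteField.roots_X_pow_card_sub_X (ZMod p)
    rwa [ZMod.card] at this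
  have hdeg : (X ^ p - X : (ZMod p)[X]).natDegree = p := by
    exact FiniteField.X_pow_card_sub_X_natDegree_eq (ZMod p) hp.out.one_lt
  have hcard : Multiset.card (X ^ p - X : (ZMod p)[X]).roots =
      (X ^ p - X : (ZMod p)[X]).natDegree := by
    rw [hroots, hdeg, Finset.card_val, Finset.card_univ, ZMod.card]
  have := prod_multiset_X_sub_C_of_monic_of_roots_card_eq hmonic hcard
  rw [hroots] at this
  exact this

/-- the integer polynomial `∏_{a ∈ 𝔽_p} (X - ã) - (Xᵖ - X)` has coefficients divisible by `p`. -/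
theorem tres5e_prod_int (p : ℕ) [hp : Fact p.Prime] (n : ℕ) :
    (p : ℤ) ∣ (∏ a : ZMod p, (X - C ((a.val : ℕ) : ℤ)) - (X ^ p - X) : ℤ[X]).coeff n := by
  have h1 : (∏ a : ZMod p, (X - C ((a.val : ℕ) : ℤ)) - (X ^ p - X) : ℤ[X]).map
      (Int.castRingHom (ZMod p)) = 0 := by
    rw [Polynomial.map_sub, Polynomial.map_prod, Polynomial.map_sub, Polynomial.map_pow, map_X]
    have : ∀ a : ZMod p, (X - C ((a.val : ℕ) : ℤ) : ℤ[X]).map (Int.castRingHom (ZMod p)) =
        X - C a := by
      intro a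
      rw [Polynomial.map_sub, map_X, map_C]
      simp
    rw [Finset.prod_congr rfl fun a _ => this a, tres5e_prod_zmod, sub_self]
  rw [← ZMod.intCast_zmod_eq_zero_iff_dvd, ← eq_intCast (Int.castRingHom (ZMod p)), ← coeff_map,
    h1, coeff_zero]

end AS

section Split

variable {R L : Type*} (F : Type*) [CommRing R] [IsDomain R] [Field F] [Field L]
  [Algebra R F] [IsFractionRing R F] [IsIntegrallyClosed R] [IsLocalRing R]
  [Algebra F L] [Algebra R L] [IsScalarTower R F L]

/-- integers prime to `p` are units of a local ring of residue characteristic `p`. -/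
theorem tres5e_isUnit_int (p : ℕ) [hp : Fact p.Prime]
    (hpR : (p : R) ∈ IsLocalRing.maximalIdeal R) (d : ℤ) (hd : ¬ (p : ℤ) ∣ d) :
    IsUnit ((d : ℤ) : R) := by
  have hcop : IsCoprime d (p : ℤ) := by
    rw [isCoprime_comm]
    exact (Int.isCoprime_iff_gcd_eq_one).mpr
      ((Nat.Prime.coprime_iff_not_dvd hp.out).mpr (by
        intro h; exact hd (Int.natCast_dvd.mpr h)))
  obtain ⟨a, b, hab⟩ := hcop
  have h1 : ((a : ℤ) : R) * ((d : ℤ) : R) = 1 - ((b : ℤ) : R) * (p : R) := by
    have := congrArg (fun t : ℤ => (t : R)) hab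
    simp only [Int.cast_add, Int.cast_mul, Int.cast_one, Int.cast_natCast] at this
    rw [← this]; ring
  have h2 : IsUnit (1 - ((b : ℤ) : R) * (p : R)) := by
    by_contra hnu
    have h3 := (IsLocalRing.mem_maximalIdeal _).mpr hnu
    have h4 : ((b : ℤ) : R) * (p : R) ∈ IsLocalRing.maximalIdeal R :=
      Ideal.mul_mem_left _ _ hpR
    have h5 := Ideal.add_mem _ h3 h4
    rw [sub_add_cancel] at h5
    exact (IsLocalRing.mem_maximalIdeal _).mp h5 isUnit_one
  rw [← h1] at h2
  exact isUnit_of_mul_isUnit_right h2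

/-- **the Artin–Schreier shape**: `P ≡ Xᵖ - X` mod `𝔫`, `p ∈ 𝔫`, gives the split situation with
`c k = k` (`k ∈ ZMod p`). -/
theorem tres5e_split_artinSchreier (p : ℕ) [hp : Fact p.Prime]
    (hpR : (p : R) ∈ IsLocalRing.maximalIdeal R) {z : L} {P : R[X]} (hPm : P.Monic)
    (hPz : aeval z P = 0) (htop : Algebra.adjoin F ({z} : Set L) = ⊤)
    (hmin : minpoly F z = P.map (algebraMap R F))
    (hP : ∀ n, (P - (X ^ p - X)).coeff n ∈ IsLocalRing.maximalIdeal R) :
    Tres5eSplit F z P (fun k : ZMod p => ((k.val : ℕ) : R)) := by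
  refine ⟨hPm, hPz, hmin, htop, ?_, ?_⟩
  · intro i j hij
    have h1 : ((i.val : ℕ) : R) - ((j.val : ℕ) : R) = (((i.val : ℤ) - (j.val : ℤ) : ℤ) : R) := by
      push_cast; ring
    rw [h1]
    refine tres5e_isUnit_int p hpR _ fun hdvd => hij ?_
    have h2 := (ZMod.intCast_zmod_eq_zero_iff_dvd _ p).mpr hdvd
    have h3 : (i : ZMod p) - j = 0 := by
      simpa using h2
    exact sub_eq_zero.mp h3
  · intro n
    have h1 : P - ∏ i : ZMod p, (X - C (((i.val : ℕ) : R))) =
        (P - (X ^ p - X)) -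
          (∏ a : ZMod p, (X - C ((a.val : ℕ) : ℤ)) - (X ^ p - X) : ℤ[X]).map
            (Int.castRingHom R) := by
      rw [Polynomial.map_sub, Polynomial.map_prod, Polynomial.map_sub, Polynomial.map_pow, map_X]
      have : ∀ a : ZMod p, (X - C ((a.val : ℕ) : ℤ) : ℤ[X]).map (Int.castRingHom R) =
          X - C (((a.val : ℕ) : R)) := by
        intro a
        rw [Polynomial.map_sub, map_X, map_C]
        simp
      rw [Finset.prod_congr rfl fun a _ => this a]
      ring
    rw [h1, coeff_sub]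
    refine Ideal.sub_mem _ (hP n) ?_
    rw [coeff_map]
    obtain ⟨t, ht⟩ := tres5e_prod_int p n
    rw [ht]
    simp only [eq_intCast, Int.cast_mul, Int.cast_natCast]
    exact Ideal.mul_mem_right _ _ hpR

end Split

end Fermat.Agent.R38
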