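/-
R38-TRES FAC-ET (helper28): the two statements in the exact shape consumed by FAC-LOC
(NOTES/R38-FAC.md §3):
* `Tres5eSplit.integral_repr` : `IsIntegral R x → ∃ a : Fin n → R, x = ∑ i, a i • z ^ i`
  (`n = P.natDegree`), and uniqueness `Tres5eSplit.repr_unique`;
* `Tres5eSplit.existsUnique_of_isMaximal` : for a maximal ideal `𝔐` of `R[z]`: `∃! i, z - c i ∈ 𝔐`.
-/
import Fermat.Agent.R38.TresEtale

set_option autoImplicit false
set_option linter.unusedSectionVars false
set_option linter.unusedVariables false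

namespace Fermat.Agent.R38

open Polynomial

namespace Tres5eSplit

variable {R L : Type*} {F : Type*} [CommRing R] [IsDomain R] [Field F] [Field L]
  [Algebra R F] [IsFractionRing R F] [IsIntegrallyClosed R] [IsLocalRing R]
  [Algebra F L] [Algebra R L] [IsScalarTower R F L]
  {ι : Type*} [Fintype ι] {z : L} {P : R[X]} {c : ι → R}

/-- a polynomial of degree `< n` is the sum of its first `n` monomials. -/
theorem _root_.Fermat.Agent.R38.tres5e_aeval_eq_sum_fin {A : Type*} [CommRing A] [Algebra R A]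
    (q : R[X]) (n : ℕ) (hq : q.degree < n) (b : A) :
    aeval b q = ∑ i : Fin n, q.coeff i • b ^ (i : ℕ) := by
  have h1 : q.natDegree < n ∨ q = 0 := by
    by_cases h0 : q = 0
    · exact Or.inr h0
    · left
      rw [degree_eq_natDegree h0] at hq
      exact_mod_cast hq
  rw [Fin.sum_univ_eq_sum_range (fun i => q.coeff i • b ^ i) n]
  rcases h1 with h1 | h1
  · rw [aeval_eq_sum_range' h1]
  · subst h1
    simp

/-- **(ET1), basis form**: every element of `L` integral over `R` is an `R`-combination of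
`1, z, …, z ^ (n - 1)`, `n = deg P`. -/
theorem integral_repr (H : Tres5eSplit F z P c) {x : L} (hx : IsIntegral R x) :
    ∃ a : Fin P.natDegree → R, x = ∑ i, a i • z ^ (i : ℕ) := by
  have hmem := H.integral_mem hx
  obtain ⟨q, hqdeg, hq⟩ := H.exists_aeval_lt ⟨x, hmem⟩
  have hq' : aeval z q = x := by
    have := congrArg Subtype.val hq
    rwa [tres5e_coe_aeval] at this
  refine ⟨fun i => q.coeff i, ?_⟩
  rw [← hq']
  refine tres5e_aeval_eq_sum_fin q _ ?_ z
  rw [degree_eq_natDegree H.monic.ne_zero] at hqdeg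
  exact hqdeg

/-- the representation is unique. -/
theorem repr_unique (H : Tres5eSplit F z P c) (a b : Fin P.natDegree → R)
    (h : ∑ i, a i • z ^ (i : ℕ) = ∑ i, b i • z ^ (i : ℕ)) : a = b := by
  classical
  set q : R[X] := ∑ i : Fin P.natDegree, C (a i - b i) * X ^ (i : ℕ) with hq
  have hdeg : q.degree < P.degree := by
    rw [degree_eq_natDegree H.monic.ne_zero]
    refine lt_of_le_of_lt (degree_sum_le _ _) ?_
    rw [Finset.sup_lt_iff (by exact WithBot.bot_lt_coe _)]
    intro i _
    refine lt_of_le_of_lt (degree_C_mul_X_pow_le _ _) ?_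
    exact_mod_cast i.2
  have hz : aeval z q = 0 := by
    rw [hq, map_sum]
    have : ∀ i : Fin P.natDegree, aeval z (C (a i - b i) * X ^ (i : ℕ)) =
        a i • z ^ (i : ℕ) - b i • z ^ (i : ℕ) := by
      intro i
      rw [map_mul, aeval_C, map_pow, aeval_X, map_sub, sub_mul, Algebra.smul_def,
        Algebra.smul_def]
    rw [Finset.sum_congr rfl fun i _ => this i, Finset.sum_sub_distrib, h, sub_self]
  have h0 := H.eq_zero_of_aeval q hdeg hz
  funext i
  have h1 := congrArg (fun r => r.coeff (i : ℕ)) h0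
  simp only [hq, finsetSum_coeff, coeff_C_mul, coeff_X_pow, coeff_zero] at h1
  rw [Finset.sum_eq_single i] at h1
  · simpa [sub_eq_zero] using h1
  · intro j _ hji
    rw [if_neg (fun h => hji (Fin.ext h.symm)), mul_zero]
  · intro h; exact absurd (Finset.mem_univ i) h

/-- **(ET2), in the shape of FAC-LOC**: a maximal ideal of `R[z]` contains exactly one
`z - c i`. -/
theorem existsUnique_of_isMaximal (H : Tres5eSplit F z P c)
    (𝔐 : Ideal ↥(Algebra.adjoin R ({z} : Set L))) [h𝔐 : 𝔐.IsMaximal] :
    ∃! i, tres5eGen R z - algebraMap R _ (c i) ∈ 𝔐 := by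
  obtain ⟨i, rfl⟩ := H.exists_eq_of_isMaximal 𝔐
  refine ⟨i, Ideal.mem_sup_right (Ideal.subset_span rfl), fun j hj => ?_⟩
  have h1 : aeval (tres5eGen R z) (X - C (c j)) ∈ tres5eMax R z (c i) := by
    rw [map_sub, aeval_X, aeval_C]; exact hj
  rw [tres5e_aeval_mem_max F H.isIntegral (c i) (H.eval_mem i), eval_sub, eval_X, eval_C] at h1
  by_contra hji
  exact (IsLocalRing.mem_maximalIdeal _).mp h1 (H.sep i j (Ne.symm hji))

end Tres5eSplit

end Fermat.Agent.R38
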