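/-
R38-TRES FAC-LOC, piece ET-PRIME = (B1)–(B5) of helper92's RULING v3 (helper28).

Setting of `R38/TresEtale.lean`: `H : Tres5eSplit F z P c` over the local normal domain `R`
(`R = atLoc 𝔫`, a closed point of the chart of `X`), `O'_k = ls_localSubring (tres5eMax R z (c k))`
the local ring of `R[z]` at `(𝔫, z - c k)`.  If `R` is noetherian, `𝔪_R = (X, Y)` and `X` is prime
in `R` (thin node `w π = X Y`, or smooth point `(π, s)`), then

* `Tres5eSplit.dvd_of_dvd_loc`   (B1) : `X ∣ b` in `O'_k` ⇒ `X ∣ b` in `R`  (`b ∈ R`);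
* `Tres5eSplit.loc_isNoetherianRing` (B2), `Tres5eSplit.adjoin_isNoetherianRing`;
* `Tres5eSplit.loc_maximalIdeal` (B3) : `𝔪(O'_k) = (X, Y)`;
* `tres5e_krull_normal_form`     (B4) : `a ∉ x A` ⇒ `a = x a₁ + y ^ m u`, `u` a unit;
* `tres5e_prime_of_krull`, `Tres5eSplit.loc_prime` (B5) : `X` is PRIME in `O'_k`;
* `Tres5eSplit.etPrime` : the four statements together (the deliverable of the ruling).
The element of `O'_k` attached to `r : R` is `tres5eBaseToLoc z (c k) r` (coercion to `L`:
`algebraMap R L r`, `tres5eBaseToLoc_coe`).  Also `tres5eToLoc`, `tres5e_isLocalization`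
(`B_𝔫 = ls_localSubring 𝔫` is the localisation), `tres5e_exists_of_nonunit`,
`tres5e_nonunit_of_mem`.
-/
import Fermat.Agent.R38.TresEtaleRepr

set_option autoImplicit false
set_option linter.unusedSectionVars false
set_option linter.unusedVariables false
set_option linter.style.haveILetI false

namespace Fermat.Agent.R38

open IsLocalRing Polynomial Fermat.Agent.UNIP

section Krull

variable {A : Type*} [CommRing A] [IsDomain A] [IsLocalRing A] [IsNoetherianRing A]

/-- (B4) in a noetherian local ring with `𝔪 = (x, y)`: every `a ∉ x A` is `y ^ m · unit` modulo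
`x`. -/
theorem tres5e_krull_normal_form (x y : A) (hm : maximalIdeal A = Ideal.span {x, y}) {a : A}
    (ha : ¬ x ∣ a) : ∃ (m : ℕ) (u a₁ : A), IsUnit u ∧ a = x * a₁ + y ^ m * u := by
  classical
  set I : Ideal A := Ideal.span {x} with hI
  have hxm : x ∈ maximalIdeal A := by rw [hm]; exact Ideal.subset_span (by simp)
  have hym : y ∈ maximalIdeal A := by rw [hm]; exact Ideal.subset_span (by simp)
  have hItop : I ≠ ⊤ := by
    intro h
    have : (1 : A) ∈ I := by rw [h]; exact Submodule.mem_top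
    rw [hI, Ideal.mem_span_singleton] at this
    exact (mem_maximalIdeal _).mp hxm (isUnit_of_dvd_one this)
  haveI : Nontrivial (A ⧸ I) := Ideal.Quotient.nontrivial_iff.mpr hItop
  haveI : IsLocalRing (A ⧸ I) :=
    IsLocalRing.of_surjective' (Ideal.Quotient.mk I) Ideal.Quotient.mk_surjective
  set J : Ideal (A ⧸ I) := Ideal.span {Ideal.Quotient.mk I y} with hJ
  have hJtop : J ≠ ⊤ := by
    intro h
    have h1 : (1 : A ⧸ I) ∈ J := by rw [h]; exact Submodule.mem_top
    rw [hJ, Ideal.mem_span_singleton] at h1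
    obtain ⟨t, ht⟩ := h1
    obtain ⟨t', rfl⟩ := Ideal.Quotient.mk_surjective t
    rw [← map_mul, ← map_one (Ideal.Quotient.mk I), Ideal.Quotient.eq, hI,
      Ideal.mem_span_singleton] at ht
    obtain ⟨s, hs⟩ := ht
    have h2 : (1 : A) ∈ maximalIdeal A := by
      have : (1 : A) = x * s + y * t' := by linear_combination hs
      rw [this]
      exact Ideal.add_mem _ (Ideal.mul_mem_right _ _ hxm) (Ideal.mul_mem_right _ _ hym)
    exact (mem_maximalIdeal _).mp h2 isUnit_one
  have hkrull := Ideal.iInf_pow_eq_bot_of_isLocalRing J hJtop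
  have ha0 : Ideal.Quotient.mk I a ≠ 0 := by
    rw [Ne, Ideal.Quotient.eq_zero_iff_mem, hI, Ideal.mem_span_singleton]
    exact ha
  have hex : ∃ i : ℕ, Ideal.Quotient.mk I a ∉ J ^ i := by
    by_contra hall
    push Not at hall
    apply ha0
    have : Ideal.Quotient.mk I a ∈ (⨅ i : ℕ, J ^ i) := by
      rw [Ideal.mem_iInf]; exact hall
    rw [hkrull] at this
    exact this
  set i := Nat.find hex with hi
  have hi_spec : Ideal.Quotient.mk I a ∉ J ^ i := Nat.find_spec hex
  have hi0 : i ≠ 0 := by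
    intro h0
    rw [h0, pow_zero, Ideal.one_eq_top] at hi_spec
    exact hi_spec Submodule.mem_top
  obtain ⟨m, hm'⟩ := Nat.exists_eq_succ_of_ne_zero hi0
  have hmem : Ideal.Quotient.mk I a ∈ J ^ m := by
    by_contra hnot
    have := Nat.find_min' hex hnot
    omega
  rw [hJ, Ideal.span_singleton_pow, Ideal.mem_span_singleton] at hmem
  obtain ⟨cbar, hc⟩ := hmem
  obtain ⟨c, rfl⟩ := Ideal.Quotient.mk_surjective cbar
  have hcJ : Ideal.Quotient.mk I c ∉ J := by
    intro hcJ
    apply hi_spec
    rw [hm', pow_succ, hc]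
    exact Ideal.mul_mem_mul (by
      rw [hJ, Ideal.span_singleton_pow]; exact Ideal.subset_span rfl) hcJ
  have hcu : IsUnit c := by
    by_contra hnu
    have hcm : c ∈ maximalIdeal A := (mem_maximalIdeal _).mpr hnu
    rw [hm, Ideal.mem_span_pair] at hcm
    obtain ⟨α, β, hαβ⟩ := hcm
    apply hcJ
    rw [hJ, Ideal.mem_span_singleton]
    refine ⟨Ideal.Quotient.mk I β, ?_⟩
    rw [← map_mul, Ideal.Quotient.eq, hI, Ideal.mem_span_singleton]
    exact ⟨α, by linear_combination -hαβ⟩
  have hfin : a - y ^ m * c ∈ I := by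
    rw [← Ideal.Quotient.eq, hc, map_mul, map_pow]
  rw [hI, Ideal.mem_span_singleton] at hfin
  obtain ⟨a₁, ha₁⟩ := hfin
  exact ⟨m, c, a₁, hcu, by linear_combination ha₁⟩

/-- (B5) `x` is prime if no power of `y` is divisible by `x`. -/
theorem tres5e_prime_of_krull (x y : A) (hm : maximalIdeal A = Ideal.span {x, y}) (hx0 : x ≠ 0)
    (hy : ∀ N : ℕ, ¬ x ∣ y ^ N) : Prime x := by
  have hxm : x ∈ maximalIdeal A := by rw [hm]; exact Ideal.subset_span (by simp)
  refine ⟨hx0, (mem_maximalIdeal _).mp hxm, fun a b hab => ?_⟩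
  by_contra hnot
  push Not at hnot
  obtain ⟨ha, hb⟩ := hnot
  obtain ⟨m, u, a₁, hu, rfl⟩ := tres5e_krull_normal_form x y hm ha
  obtain ⟨m', u', b₁, hu', rfl⟩ := tres5e_krull_normal_form x y hm hb
  apply hy (m + m')
  have h1 : x ∣ y ^ (m + m') * (u * u') := by
    obtain ⟨t, ht⟩ := hab
    refine ⟨t - (a₁ * (x * b₁ + y ^ m' * u') + y ^ m * u * b₁), ?_⟩
    rw [pow_add]
    linear_combination ht
  exact (hu.mul hu').dvd_mul_right.mp h1

end Krull

section Loc

variable {L : Type*} [Field L] {B : Type*} [CommRing B] [Algebra B L]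
variable (𝔫 : Ideal B) [h𝔫 : 𝔫.IsPrime]

/-- the structure map `B → B_𝔫`. -/
def tres5eToLoc : B →+* ls_localSubring (F := L) 𝔫 where
  toFun b := ⟨algebraMap B L b, ls_algebraMap_mem 𝔫 b⟩
  map_one' := Subtype.ext (map_one _)
  map_mul' x y := Subtype.ext (map_mul _ x y)
  map_zero' := Subtype.ext (map_zero _)
  map_add' x y := Subtype.ext (map_add _ x y)

@[simp] theorem tres5eToLoc_coe (b : B) :
    ((tres5eToLoc (L := L) 𝔫 b : ls_localSubring (F := L) 𝔫) : L) = algebraMap B L b := rfl

/-- `B_𝔫` is the localisation of `B` at `𝔫`. -/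
theorem tres5e_isLocalization (hinj : Function.Injective (algebraMap B L)) :
    @IsLocalization B _ 𝔫.primeCompl (ls_localSubring (F := L) 𝔫) _
      (tres5eToLoc (L := L) 𝔫).toAlgebra := by
  letI : Algebra B (ls_localSubring (F := L) 𝔫) := (tres5eToLoc (L := L) 𝔫).toAlgebra
  refine ⟨⟨fun s => ?_, fun z => ?_, fun {x y} hxy => ?_⟩⟩
  · exact ls_isUnit_of_not_mem hinj 𝔫 (tres5eToLoc (L := L) 𝔫 s.1) (b := s.1) (s := 1)
      s.2 (fun h => h𝔫.ne_top ((Ideal.eq_top_iff_one 𝔫).mpr h)) (by
        rw [map_one, one_mul]; rfl)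
  · obtain ⟨b, s, hs, h⟩ := z.2
    refine ⟨(b, ⟨s, hs⟩), Subtype.ext ?_⟩
    show (z : L) * algebraMap B L s = algebraMap B L b
    rw [mul_comm]; exact h
  · refine ⟨1, ?_⟩
    have : algebraMap B L x = algebraMap B L y := congrArg Subtype.val hxy
    rw [hinj this]

theorem tres5e_loc_isNoetherianRing (hinj : Function.Injective (algebraMap B L))
    [IsNoetherianRing B] : IsNoetherianRing (ls_localSubring (F := L) 𝔫) := by
  letI : Algebra B (ls_localSubring (F := L) 𝔫) := (tres5eToLoc (L := L) 𝔫).toAlgebra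
  haveI := tres5e_isLocalization (L := L) 𝔫 hinj
  exact IsLocalization.isNoetherianRing 𝔫.primeCompl (ls_localSubring (F := L) 𝔫) inferInstance

/-- the non-units of `B_𝔫` are the `b / s`, `b ∈ 𝔫`. -/
theorem tres5e_exists_of_nonunit (hinj : Function.Injective (algebraMap B L))
    (r : ls_localSubring (F := L) 𝔫) (hr : ¬ IsUnit r) :
    ∃ b s : B, b ∈ 𝔫 ∧ s ∉ 𝔫 ∧ algebraMap B L s * (r : L) = algebraMap B L b := by
  obtain ⟨b, s, hs, hbs⟩ := r.2
  refine ⟨b, s, ?_, hs, hbs⟩
  by_contra hb
  exact hr (ls_isUnit_of_not_mem hinj 𝔫 r hb hs hbs)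

/-- `b / s` with `b ∈ 𝔫` is a non-unit of `B_𝔫`. -/
theorem tres5e_nonunit_of_mem (hinj : Function.Injective (algebraMap B L))
    (r : ls_localSubring (F := L) 𝔫) {b s : B} (hb : b ∈ 𝔫) (hs : s ∉ 𝔫)
    (h : algebraMap B L s * (r : L) = algebraMap B L b) : ¬ IsUnit r := by
  intro hu
  obtain ⟨r', hr'⟩ := hu.exists_right_inv
  obtain ⟨b', s', hs', hbs'⟩ := r'.2
  have h1 : (r : L) * (r' : L) = 1 := congrArg Subtype.val hr'
  have h2 : algebraMap B L (s * s') = algebraMap B L (b * b') := by
    rw [map_mul, map_mul, ← h, ← hbs']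
    calc algebraMap B L s * algebraMap B L s'
        = algebraMap B L s * algebraMap B L s' * ((r : L) * (r' : L)) := by rw [h1, mul_one]
      _ = _ := by ring
  have h3 := hinj h2
  have h4 : s * s' ∈ 𝔫 := by rw [h3]; exact 𝔫.mul_mem_right _ hb
  rcases h𝔫.mem_or_mem h4 with h5 | h5
  · exact hs h5
  · exact hs' h5

end Loc

section Main

variable {R L : Type*} {F : Type*} [CommRing R] [IsDomain R] [Field F] [Field L]
  [Algebra R F] [IsFractionRing R F] [IsIntegrallyClosed R] [IsLocalRing R]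
  [Algebra F L] [Algebra R L] [IsScalarTower R F L]
  {ι : Type*} [Fintype ι] {z : L} {P : R[X]} {c : ι → R}

/-- the structure map `R → O'`, `O'` the local ring of `R[z]` at `(𝔫, z - a)`. -/
noncomputable def tres5eBaseToLoc (z : L) (a : R) [(tres5eMax R z a).IsPrime] :
    R →+* ls_localSubring (F := L) (tres5eMax R z a) :=
  (tres5eToLoc (L := L) (tres5eMax R z a)).comp
    (algebraMap R ↥(Algebra.adjoin R ({z} : Set L)))

@[simp] theorem tres5eBaseToLoc_coe (z : L) (a : R) [(tres5eMax R z a).IsPrime] (r : R) :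
    ((tres5eBaseToLoc z a r : ls_localSubring (F := L) (tres5eMax R z a)) : L) =
      algebraMap R L r := rfl

theorem tres5e_adjoin_injective (z : L) :
    Function.Injective (algebraMap ↥(Algebra.adjoin R ({z} : Set L)) L) :=
  fun _ _ h => Subtype.ext h

namespace Tres5eSplit

/-- `R[z]` is noetherian. -/
theorem adjoin_isNoetherianRing (H : Tres5eSplit F z P c) [IsNoetherianRing R] :
    IsNoetherianRing ↥(Algebra.adjoin R ({z} : Set L)) := by
  have hfg : (Algebra.adjoin R ({z} : Set L)).toSubmodule.FG := H.isIntegral.fg_adjoin_singleton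
  haveI : Module.Finite R ↥(Algebra.adjoin R ({z} : Set L)) :=
    Module.Finite.iff_fg.mpr hfg
  haveI : IsNoetherian R ↥(Algebra.adjoin R ({z} : Set L)) :=
    isNoetherian_of_isNoetherianRing_of_finite R _
  exact isNoetherian_of_tower R inferInstance

/-- (B2) `O'_k` is noetherian. -/
theorem loc_isNoetherianRing (H : Tres5eSplit F z P c) [IsNoetherianRing R] (k : ι)
    [(tres5eMax R z (c k)).IsPrime] :
    IsNoetherianRing (ls_localSubring (F := L) (tres5eMax R z (c k))) := by
  haveI := H.adjoin_isNoetherianRing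
  exact tres5e_loc_isNoetherianRing _ (tres5e_adjoin_injective z)

/-- (B1) divisibility by `X` descends from `O'_k` to `R`. -/
theorem dvd_of_dvd_loc (H : Tres5eSplit F z P c) (k : ι) [(tres5eMax R z (c k)).IsPrime]
    {X : R} (hX : Prime X) (b : R)
    (h : tres5eBaseToLoc z (c k) X ∣ tres5eBaseToLoc z (c k) b) : X ∣ b := by
  by_contra hXb
  obtain ⟨r, hr⟩ := h
  obtain ⟨β, s, hs, hβs⟩ := r.2
  have hr' : algebraMap R L b = algebraMap R L X * (r : L) := congrArg Subtype.val hr
  obtain ⟨S, hSdeg, hS⟩ := H.exists_aeval_lt s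
  obtain ⟨Bp, hBdeg, hB⟩ := H.exists_aeval_lt β
  have hsL : aeval z S = (s : L) := by rw [← hS, tres5e_coe_aeval]
  have hβL : aeval z Bp = (β : L) := by rw [← hB, tres5e_coe_aeval]
  have hβs' : (s : L) * (r : L) = (β : L) := hβs
  have hQ : aeval z (C b * S - C X * Bp) = 0 := by
    rw [map_sub, map_mul, map_mul, aeval_C, aeval_C, hsL, hβL, ← hβs', hr']
    ring
  have hQdeg : (C b * S - C X * Bp).degree < P.degree := by
    refine lt_of_le_of_lt (degree_sub_le _ _) (max_lt ?_ ?_)
    · exact lt_of_le_of_lt (by rw [C_mul']; exact degree_smul_le _ _) hSdeg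
    · exact lt_of_le_of_lt (by rw [C_mul']; exact degree_smul_le _ _) hBdeg
  have hQ0 := H.eq_zero_of_aeval _ hQdeg hQ
  have hcoeff : ∀ i, b * S.coeff i = X * Bp.coeff i := by
    intro i
    have := congrArg (fun q => q.coeff i) hQ0
    simp only [coeff_sub, coeff_C_mul, coeff_zero] at this
    exact sub_eq_zero.mp this
  have hXm : X ∈ maximalIdeal R := (mem_maximalIdeal _).mpr hX.not_isUnit
  have hall : ∀ i, S.coeff i ∈ maximalIdeal R := by
    intro i
    have h1 : X ∣ b * S.coeff i := ⟨_, hcoeff i⟩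
    rcases hX.dvd_or_dvd h1 with h2 | h2
    · exact absurd h2 hXb
    · obtain ⟨t, ht⟩ := h2
      rw [ht]; exact Ideal.mul_mem_right _ _ hXm
  apply hs
  rw [← hS]
  exact tres5e_map_le_max z (c k)
    (tres5e_aeval_mem_map (maximalIdeal R) (tres5eGen R z) S hall)

/-- (B3) `𝔪(O'_k) = (X, Y)`. -/
theorem loc_maximalIdeal (H : Tres5eSplit F z P c) (k : ι) [(tres5eMax R z (c k)).IsPrime]
    [IsLocalRing (ls_localSubring (F := L) (tres5eMax R z (c k)))]
    {X Y : R} (hmax : maximalIdeal R = Ideal.span {X, Y}) :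
    maximalIdeal (ls_localSubring (F := L) (tres5eMax R z (c k))) =
      Ideal.span {tres5eBaseToLoc z (c k) X, tres5eBaseToLoc z (c k) Y} := by
  have hinj := tres5e_adjoin_injective (R := R) z
  have h1 : (1 : ↥(Algebra.adjoin R ({z} : Set L))) ∉ tres5eMax R z (c k) := fun h =>
    (H.isPrime k).ne_top ((Ideal.eq_top_iff_one _).mpr h)
  have hgen : ∀ W : R, W ∈ maximalIdeal R →
      tres5eBaseToLoc z (c k) W ∈
        maximalIdeal (ls_localSubring (F := L) (tres5eMax R z (c k))) := by
    intro W hW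
    rw [mem_maximalIdeal]
    refine tres5e_nonunit_of_mem _ hinj _ (b := algebraMap R _ W) (s := 1) ?_ h1 ?_
    · exact (tres5e_algebraMap_mem_max F H.isIntegral (c k) (H.eval_mem k) W).mpr hW
    · rw [map_one, one_mul]; rfl
  apply le_antisymm
  · intro r hr
    obtain ⟨b, s, hb, hs, hbs⟩ := tres5e_exists_of_nonunit _ hinj r ((mem_maximalIdeal _).mp hr)
    obtain ⟨u, hu, hub⟩ := H.unram k hb
    have hmap : (maximalIdeal R).map (algebraMap R ↥(Algebra.adjoin R ({z} : Set L))) =
        Ideal.span {algebraMap R _ X, algebraMap R _ Y} := by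
      rw [hmax, Ideal.map_span, Set.image_pair]
    rw [hmap, Ideal.mem_span_pair] at hub
    obtain ⟨α, β, hαβ⟩ := hub
    have hus : u * s ∉ tres5eMax R z (c k) := fun h => by
      rcases (H.isPrime k).mem_or_mem h with h' | h'
      · exact hu h'
      · exact hs h'
    have hunit : IsUnit (tres5eToLoc (L := L) (tres5eMax R z (c k)) (u * s)) :=
      ls_isUnit_of_not_mem hinj _ _ (b := u * s) (s := 1) hus h1 (by
        rw [map_one, one_mul]; rfl)
    obtain ⟨v, hv⟩ := hunit
    have e : tres5eToLoc (L := L) (tres5eMax R z (c k)) (u * s) * r =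
        tres5eToLoc (L := L) (tres5eMax R z (c k)) α * tres5eBaseToLoc z (c k) X +
          tres5eToLoc (L := L) (tres5eMax R z (c k)) β * tres5eBaseToLoc z (c k) Y := by
      apply Subtype.ext
      show ((u * s : ↥(Algebra.adjoin R ({z} : Set L))) : L) * (r : L) =
        (α : L) * algebraMap R L X + (β : L) * algebraMap R L Y
      have h2 : ((u * s : ↥(Algebra.adjoin R ({z} : Set L))) : L) * (r : L) =
          ((u * b : ↥(Algebra.adjoin R ({z} : Set L))) : L) := by
        have hbs' : (s : L) * (r : L) = (b : L) := hbs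
        push_cast
        rw [mul_assoc, hbs']
      rw [h2, ← hαβ]
      rfl
    have e2 : r = ((v⁻¹ : (ls_localSubring (F := L) (tres5eMax R z (c k)))ˣ) :
        ls_localSubring (F := L) (tres5eMax R z (c k))) *
        (tres5eToLoc (L := L) (tres5eMax R z (c k)) α * tres5eBaseToLoc z (c k) X +
          tres5eToLoc (L := L) (tres5eMax R z (c k)) β * tres5eBaseToLoc z (c k) Y) := by
      rw [← e, ← hv, ← mul_assoc, Units.inv_mul, one_mul]
    rw [e2]
    refine Ideal.mul_mem_left _ _ (Ideal.add_mem _ ?_ ?_)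
    · exact Ideal.mul_mem_left _ _ (Ideal.subset_span (by simp))
    · exact Ideal.mul_mem_left _ _ (Ideal.subset_span (by simp))
  · rw [Ideal.span_le]
    intro w hw
    have hXm : X ∈ maximalIdeal R := by rw [hmax]; exact Ideal.subset_span (by simp)
    have hYm : Y ∈ maximalIdeal R := by rw [hmax]; exact Ideal.subset_span (by simp)
    rcases hw with rfl | rfl
    · exact hgen X hXm
    · exact hgen Y hYm

/-- (B5) `X` is prime in `O'_k`. -/
theorem loc_prime (H : Tres5eSplit F z P c) [IsNoetherianRing R] (k : ι)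
    [(tres5eMax R z (c k)).IsPrime]
    [IsLocalRing (ls_localSubring (F := L) (tres5eMax R z (c k)))]
    {X Y : R} (hmax : maximalIdeal R = Ideal.span {X, Y}) (hX : Prime X) :
    Prime (tres5eBaseToLoc z (c k) X) := by
  haveI := H.loc_isNoetherianRing k
  have hm' := H.loc_maximalIdeal k hmax
  have hX0 : tres5eBaseToLoc z (c k) X ≠ 0 := by
    intro h0
    have h1 : algebraMap R L X = 0 := congrArg Subtype.val h0
    exact hX.ne_zero (tres5e_algebraMap_injective R F L (h1.trans (map_zero _).symm))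
  by_cases hXY : X ∣ Y
  · -- `𝔪 = (X)`
    have hspan : maximalIdeal (ls_localSubring (F := L) (tres5eMax R z (c k))) =
        Ideal.span {tres5eBaseToLoc z (c k) X} := by
      rw [hm']
      apply le_antisymm
      · rw [Ideal.span_le]
        intro w hw
        rcases hw with rfl | rfl
        · exact Ideal.subset_span rfl
        · obtain ⟨t, rfl⟩ := hXY
          rw [map_mul]
          exact Ideal.mul_mem_right _ _ (Ideal.subset_span rfl)
      · exact Ideal.span_mono (by simp)
    rw [← Ideal.span_singleton_prime hX0, ← hspan]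
    exact (maximalIdeal.isMaximal _).isPrime
  · refine tres5e_prime_of_krull _ (tres5eBaseToLoc z (c k) Y) hm' hX0 fun N hN => ?_
    rw [← map_pow] at hN
    exact hXY (hX.dvd_of_dvd_pow (H.dvd_of_dvd_loc k hX _ hN))

/-- **ET-PRIME** (the deliverable of RULING v3): at a point of `X` with `𝔪_R = (X, Y)`, `X`
prime, `R` noetherian, the local ring `O'_k` of the cover is a noetherian local ring with
`𝔪 = (X, Y)` in which `X` is prime, and divisibility by `X` of elements of `R` can be tested
in `R`. -/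
theorem etPrime (H : Tres5eSplit F z P c) [IsNoetherianRing R] (k : ι)
    [(tres5eMax R z (c k)).IsPrime]
    [IsLocalRing (ls_localSubring (F := L) (tres5eMax R z (c k)))]
    {X Y : R} (hmax : maximalIdeal R = Ideal.span {X, Y}) (hX : Prime X) :
    Prime (tres5eBaseToLoc z (c k) X) ∧
    maximalIdeal (ls_localSubring (F := L) (tres5eMax R z (c k))) =
      Ideal.span {tres5eBaseToLoc z (c k) X, tres5eBaseToLoc z (c k) Y} ∧
    IsNoetherianRing (ls_localSubring (F := L) (tres5eMax R z (c k))) ∧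
    ∀ b : R, tres5eBaseToLoc z (c k) X ∣ tres5eBaseToLoc z (c k) b → X ∣ b :=
  ⟨H.loc_prime k hmax hX, H.loc_maximalIdeal k hmax, H.loc_isNoetherianRing k,
    fun b => H.dvd_of_dvd_loc k hX b⟩

end Tres5eSplit

end Main

end Fermat.Agent.R38
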