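/-
R38-TRES FAC-ET (helper28): fractions.  `L` is the fraction field of `R[z]` and of the local
rings `O'_k` (hypothesis `hfrac` of `tres5n_fac`, `RT.K6.rtk6lf_facAt`):
* `Tres5eSplit.adjoin_frac` : `∀ x : L, ∃ a ∈ R[z], ∃ b : R, b ≠ 0 ∧ x * b = a`;
* `Tres5eSplit.loc_frac`    : `∀ x : L, ∃ a b : O'_k, (b : L) ≠ 0 ∧ x * b = a`;
* `tres5e_toLoc_mem`, `Tres5eSplit.base_mem_loc`, `Tres5eSplit.adjoin_le_loc` : `R ⊆ R[z] ⊆ O'_k`.
-/
import Fermat.Agent.R38.TresEtalePrime

set_option autoImplicit false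
set_option linter.unusedSectionVars false
set_option linter.unusedVariables false
set_option linter.style.haveILetI false

namespace Fermat.Agent.R38

open IsLocalRing Polynomial Fermat.Agent.UNIP

namespace Tres5eSplit

variable {R L : Type*} {F : Type*} [CommRing R] [IsDomain R] [Field F] [Field L]
  [Algebra R F] [IsFractionRing R F] [IsIntegrallyClosed R] [IsLocalRing R]
  [Algebra F L] [Algebra R L] [IsScalarTower R F L]
  {ι : Type*} [Fintype ι] {z : L} {P : R[X]} {c : ι → R}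

/-- every element of `L = F[z]` is `a / b` with `a ∈ R[z]`, `b ∈ R ∖ 0`. -/
theorem adjoin_frac (H : Tres5eSplit F z P c) (x : L) :
    ∃ (a : ↥(Algebra.adjoin R ({z} : Set L))) (b : R), b ≠ 0 ∧
      x * algebraMap R L b = (a : L) := by
  have hx : x ∈ (aeval z : F[X] →ₐ[F] L).range := by
    rw [← Algebra.adjoin_singleton_eq_range_aeval, H.top]; exact Algebra.mem_top
  obtain ⟨q, rfl⟩ := hx
  obtain ⟨b, hbM, hb⟩ := IsLocalization.integerNormalization_spec (nonZeroDivisors R) q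
  refine ⟨aeval (tres5eGen R z) (IsLocalization.integerNormalization (nonZeroDivisors R) q),
    b, nonZeroDivisors.ne_zero hbM, ?_⟩
  rw [tres5e_coe_aeval]
  have h1 : aeval z ((IsLocalization.integerNormalization (nonZeroDivisors R) q).map
      (algebraMap R F)) = aeval z (b • q) := by rw [hb]
  rw [aeval_map_algebraMap] at h1
  have h2 : b • q = (algebraMap R F b) • q := by
    rw [algebraMap_smul]
  rw [h1, h2, map_smul, Algebra.smul_def, mul_comm, ← IsScalarTower.algebraMap_apply]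
  rfl

/-- `R[z] ⊆ O'_k`. -/
theorem adjoin_le_loc (H : Tres5eSplit F z P c) (k : ι) [(tres5eMax R z (c k)).IsPrime]
    (a : ↥(Algebra.adjoin R ({z} : Set L))) :
    (a : L) ∈ ls_localSubring (F := L) (tres5eMax R z (c k)) :=
  ls_algebraMap_mem (F := L) (tres5eMax R z (c k)) a

/-- `R ⊆ O'_k`. -/
theorem base_mem_loc (H : Tres5eSplit F z P c) (k : ι) [(tres5eMax R z (c k)).IsPrime]
    (r : R) : algebraMap R L r ∈ ls_localSubring (F := L) (tres5eMax R z (c k)) :=
  (tres5eBaseToLoc z (c k) r).2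

/-- **`L` is the fraction field of `O'_k`** (shape `hfrac` of `tres5n_fac`). -/
theorem loc_frac (H : Tres5eSplit F z P c) (k : ι) [(tres5eMax R z (c k)).IsPrime] (x : L) :
    ∃ a b : ls_localSubring (F := L) (tres5eMax R z (c k)),
      (b : L) ≠ 0 ∧ x * (b : L) = (a : L) := by
  obtain ⟨a, b, hb, hab⟩ := H.adjoin_frac x
  refine ⟨⟨(a : L), H.adjoin_le_loc k a⟩, tres5eBaseToLoc z (c k) b, ?_, hab⟩
  rw [tres5eBaseToLoc_coe]
  intro h0
  exact hb (tres5e_algebraMap_injective R F L (h0.trans (map_zero _).symm))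

/-- `¬ X ∣ Y` passes from `R` to `O'_k`. -/
theorem not_dvd_loc (H : Tres5eSplit F z P c) (k : ι) [(tres5eMax R z (c k)).IsPrime]
    {X : R} (hX : Prime X) {Y : R} (hXY : ¬ X ∣ Y) :
    ¬ tres5eBaseToLoc z (c k) X ∣ tres5eBaseToLoc z (c k) Y :=
  fun h => hXY (H.dvd_of_dvd_loc k hX Y h)

/-- units of `R` are units of `O'_k`. -/
theorem isUnit_loc (H : Tres5eSplit F z P c) (k : ι) [(tres5eMax R z (c k)).IsPrime]
    {w : R} (hw : IsUnit w) : IsUnit (tres5eBaseToLoc z (c k) w) :=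
  hw.map _

end Tres5eSplit

end Fermat.Agent.R38
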