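/-
Row 38, PKG-TRES, MONO, piece FAC-LOC (helper92), part 0: two-generator noetherian local rings.

`A` a noetherian local ring with `𝔪_A = (X, Y)`.

* `tres5n_krull`      : an element `a ∉ X A` is `a = X a₁ + Y ^ m u` with `u` a unit
  (Krull's intersection theorem for the module `A / X A`).
* `tres5n_prime_of_pow` : if `A` is a domain and no power of `Y` is divisible by `X`, then `X` is
  a prime element of `A`.
* `tres5n_not_mem_of_unit` : for a prime ideal `𝔮 ∋ X`, `𝔮 ∌ Y`: `𝔮 = X A`.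
-/
import Mathlib

set_option autoImplicit false
set_option linter.unusedSectionVars false
set_option linter.unusedVariables false
set_option linter.style.longLine false

namespace Fermat.Agent.R38

open IsLocalRing

section Krull

variable {A : Type*} [CommRing A] [IsLocalRing A] [IsNoetherianRing A]

/-- Krull: in a noetherian local ring, `⋂ₘ (X A + 𝔪 ^ m) = X A`. -/
theorem tres5n_mem_of_forall (X : A) {a : A}
    (h : ∀ m : ℕ, ∃ a₁ t : A, t ∈ maximalIdeal A ^ m ∧ a = X * a₁ + t) :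
    X ∣ a := by
  have hne : maximalIdeal A ≠ ⊤ := Ideal.IsPrime.ne_top'
  have hK := Ideal.iInf_pow_smul_eq_bot_of_isLocalRing (R := A) (I := maximalIdeal A)
    (M := A ⧸ Ideal.span {X}) hne
  have hmem : (Ideal.Quotient.mk (Ideal.span {X}) a) ∈
      (⨅ i : ℕ, maximalIdeal A ^ i • ⊤ : Submodule A (A ⧸ Ideal.span {X})) := by
    rw [Submodule.mem_iInf]
    intro m
    obtain ⟨a₁, t, ht, hat⟩ := h m
    have e : Ideal.Quotient.mk (Ideal.span {X}) a
        = t • (Ideal.Quotient.mk (Ideal.span {X}) 1) := by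
      rw [hat, map_add, ← Ideal.Quotient.mk_eq_mk, ← Ideal.Quotient.mk_eq_mk]
      have h0 : Ideal.Quotient.mk (Ideal.span {X}) (X * a₁) = 0 :=
        Ideal.Quotient.eq_zero_iff_mem.2 (Ideal.mul_mem_right _ _ (Ideal.mem_span_singleton_self X))
      rw [Ideal.Quotient.mk_eq_mk, Ideal.Quotient.mk_eq_mk, h0, zero_add]
      rw [Algebra.smul_def, Ideal.Quotient.algebraMap_eq, map_one, mul_one]
    rw [e]
    exact Submodule.smul_mem_smul ht Submodule.mem_top
  rw [hK, Submodule.mem_bot] at hmem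
  exact Ideal.mem_span_singleton.1 (Ideal.Quotient.eq_zero_iff_mem.1 hmem)

/-- `Y ^ m t` lies in `(X) + 𝔪 ^ (m + 1)` if `t ∈ 𝔪 = (X, Y)`. -/
theorem tres5n_step (X Y : A) (hm : maximalIdeal A = Ideal.span {X, Y}) {t : A}
    (ht : t ∈ maximalIdeal A) (m : ℕ) :
    ∃ a₁ t' : A, Y ^ m * t = X * a₁ + Y ^ (m + 1) * t' := by
  rw [hm, Ideal.mem_span_pair] at ht
  obtain ⟨r, s, hrs⟩ := ht
  exact ⟨Y ^ m * r, s, by rw [← hrs]; ring⟩

/-- **Krull, two generators**: `a ∉ X A` is `X a₁ + Y ^ m u`, `u` a unit. -/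
theorem tres5n_krull (X Y : A) (hm : maximalIdeal A = Ideal.span {X, Y}) {a : A}
    (ha : ¬ X ∣ a) : ∃ (m : ℕ) (a₁ u : A), IsUnit u ∧ a = X * a₁ + Y ^ m * u := by
  classical
  by_contra hcon
  push Not at hcon
  have hY : Y ∈ maximalIdeal A := by
    rw [hm]; exact Ideal.subset_span (by simp)
  -- `a ∈ (X) + Y ^ m A` for all `m`
  have key : ∀ m : ℕ, ∃ a₁ t : A, a = X * a₁ + Y ^ m * t := by
    intro m
    induction m with
    | zero => exact ⟨0, a, by ring⟩
    | succ m ih =>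
      obtain ⟨a₁, t, hat⟩ := ih
      have ht : t ∈ maximalIdeal A := by
        by_contra htm
        have hu : IsUnit t := by
          by_contra hnu
          exact htm ((mem_maximalIdeal t).2 hnu)
        exact hcon m a₁ t hu hat
      obtain ⟨b₁, t', hbt⟩ := tres5n_step X Y hm ht m
      exact ⟨a₁ + b₁, t', by rw [hat, hbt]; ring⟩
  apply ha
  refine tres5n_mem_of_forall X (fun m => ?_)
  obtain ⟨a₁, t, hat⟩ := key m
  exact ⟨a₁, Y ^ m * t, Ideal.mul_mem_right _ _ (Ideal.pow_mem_pow hY m), hat⟩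

/-- **`X` is prime** in a noetherian local domain with `𝔪 = (X, Y)`, provided no power of `Y`
is divisible by `X`. -/
theorem tres5n_prime_of_pow [IsDomain A] (X Y : A)
    (hm : maximalIdeal A = Ideal.span {X, Y}) (hX0 : X ≠ 0)
    (hpow : ∀ N : ℕ, ¬ X ∣ Y ^ N) : Prime X := by
  have hXm : X ∈ maximalIdeal A := by
    rw [hm]; exact Ideal.subset_span (by simp)
  refine ⟨hX0, fun hu => (mem_maximalIdeal X).1 hXm hu, fun a b hab => ?_⟩
  by_contra hcon
  rw [not_or] at hcon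
  obtain ⟨m, a₁, u, hu, hau⟩ := tres5n_krull X Y hm hcon.1
  obtain ⟨m', b₁, v, hv, hbv⟩ := tres5n_krull X Y hm hcon.2
  apply hpow (m + m')
  obtain ⟨c, hc⟩ := hab
  have e : Y ^ (m + m') * (u * v) = X * (c - a₁ * b - Y ^ m * u * b₁) := by
    have h1 : a * b = X * c := hc
    have h2 : Y ^ (m + m') * (u * v) = a * b - X * (a₁ * b) - X * (Y ^ m * u * b₁) := by
      rw [pow_add]
      conv_rhs => rw [hau]
      conv_rhs => enter [1, 1]; rw [hbv]
      conv_rhs => enter [1, 2, 2, 2]; rw [hbv]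
      ring
    rw [h2, h1]; ring
  have huv : IsUnit (u * v) := hu.mul hv
  obtain ⟨w, hw⟩ := huv.exists_right_inv
  refine ⟨(c - a₁ * b - Y ^ m * u * b₁) * w, ?_⟩
  calc Y ^ (m + m') = Y ^ (m + m') * (u * v * w) := by rw [hw, mul_one]
    _ = Y ^ (m + m') * (u * v) * w := by ring
    _ = X * ((c - a₁ * b - Y ^ m * u * b₁) * w) := by rw [e]; ring

/-- a prime ideal containing `X` but not `Y` is `X A`. -/
theorem tres5n_dvd_of_mem_prime (X Y : A) (hm : maximalIdeal A = Ideal.span {X, Y})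
    (𝔮 : Ideal A) [h𝔮 : 𝔮.IsPrime] (hX : X ∈ 𝔮) (hY : Y ∉ 𝔮) {a : A} (ha : a ∈ 𝔮) : X ∣ a := by
  by_contra hcon
  obtain ⟨m, a₁, u, hu, hau⟩ := tres5n_krull X Y hm hcon
  have h1 : Y ^ m * u ∈ 𝔮 := by
    have : Y ^ m * u = a - X * a₁ := by rw [hau]; ring
    rw [this]
    exact Ideal.sub_mem _ ha (Ideal.mul_mem_right _ _ hX)
  rcases h𝔮.mem_or_mem h1 with h | h
  · exact hY (h𝔮.mem_of_pow_mem m h)
  · exact h𝔮.ne_top (Ideal.eq_top_of_isUnit_mem _ h hu)

end Krull

end Fermat.Agent.R38
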