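/-
R38-TRES FAC-LOC (helper28): the instance of helper92's `tres5n_fac` (R38/TresNode.lean) at the
local ring `O'_k = ls_localSubring (tres5eMax R z (c k))` of the cover over a THIN NODE of `X`
(`𝔪_R = (X, Y)`, `X`, `Y` prime, `w ϖ = X Y`), from ET-PRIME (`Tres5eSplit.loc_prime`,
`loc_maximalIdeal`, `loc_isNoetherianRing`) and `Tres5eSplit.loc_frac`.
* `tres5eAt_fac`        : (LF) `y = ε X^a Y^b γ^m` at a thin node;
* `tres5eAt_fac_smooth` : (LF) `y = ε ϖ^a γ^m` at a smooth point (`𝔪_R = (ϖ, s)`).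
-/
import Fermat.Agent.R38.TresNode
import Fermat.Agent.R38.TresEtaleFrac

set_option autoImplicit false
set_option linter.unusedSectionVars false
set_option linter.unusedVariables false
set_option linter.style.haveILetI false

namespace Fermat.Agent.R38

open IsLocalRing Polynomial Fermat.Agent.UNIP AlgebraicCurve

variable {R L : Type*} {F : Type*} [CommRing R] [IsDomain R] [Field F] [Field L]
  [Algebra R F] [IsFractionRing R F] [IsIntegrallyClosed R] [IsLocalRing R]
  [Algebra F L] [Algebra R L] [IsScalarTower R F L]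
  {ι : Type*} [Fintype ι] {z : L} {P : R[X]} {c : ι → R}
  {E : Type*} [Field E] [Algebra E L]

/-- **(LF) at the point `(𝔫, z - c k)` of the cover over a thin node of `X`.** -/
theorem tres5eAt_fac (H : Tres5eSplit F z P c) [IsNoetherianRing R] (k : ι)
    [(tres5eMax R z (c k)).IsPrime]
    {X Y ϖ w : R} (hmax : maximalIdeal R = Ideal.span {X, Y}) (hX : Prime X) (hY : Prime Y)
    (hXY : ¬ X ∣ Y) (hYX : ¬ Y ∣ X) (hw : IsUnit w) (hϖ : w * ϖ = X * Y)
    (hE : ∀ e : E, ∃ (n : ℕ) (a : R), algebraMap E L e * algebraMap R L ϖ ^ n = algebraMap R L a) :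
    ∃ W₁ W₂ : ValuationSubring L,
      Tres5nIsLoc (ls_localSubring (F := L) (tres5eMax R z (c k))) (tres5eBaseToLoc z (c k) X) W₁ ∧
      Tres5nIsLoc (ls_localSubring (F := L) (tres5eMax R z (c k))) (tres5eBaseToLoc z (c k) Y) W₂ ∧
      ∀ (m : ℕ) (y : L), y ≠ 0 →
        (∀ P : Place E L, (∀ x ∈ ls_localSubring (F := L) (tres5eMax R z (c k)),
          x ∈ P.toValuationSubring) → (m : ℤ) ∣ P.ord y) →
        ∃ (γ : L) (ε : ls_localSubring (F := L) (tres5eMax R z (c k))) (a b : ℤ), IsUnit ε ∧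
          y = (ε : L) * (algebraMap R L X) ^ a * (algebraMap R L Y) ^ b * γ ^ m ∧ γ ≠ 0 ∧
          W₁.valuation γ = 1 ∧ W₂.valuation γ = 1 ∧
          W₁.valuation y = W₁.valuation (algebraMap R L ϖ) ^ a ∧
          W₂.valuation y = W₂.valuation (algebraMap R L ϖ) ^ b := by
  haveI := H.loc_isLocalRing k
  haveI := H.loc_isNoetherianRing k
  have hmax' := H.loc_maximalIdeal k hmax
  have hX' := H.loc_prime k hmax hX
  have hmaxYX : maximalIdeal R = Ideal.span {Y, X} := by rw [hmax, Set.pair_comm]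
  have hY' := H.loc_prime k hmaxYX hY
  exact tres5n_fac (E := E) (ls_localSubring (F := L) (tres5eMax R z (c k))) (H.loc_frac k)
    (tres5eBaseToLoc z (c k) X) (tres5eBaseToLoc z (c k) Y) hmax' hX' hY'
    (H.not_dvd_loc k hX hXY) (H.not_dvd_loc k hY hYX)
    (tres5eBaseToLoc z (c k) ϖ) (tres5eBaseToLoc z (c k) w) (H.isUnit_loc k hw)
    (by rw [← map_mul, hϖ, map_mul])
    (fun e => by
      obtain ⟨n, a, h⟩ := hE e
      exact ⟨n, tres5eBaseToLoc z (c k) a, h⟩)

/-- **(LF) at the point `(𝔫, z - c k)` of the cover over a smooth point of `X`.** -/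
theorem tres5eAt_fac_smooth (H : Tres5eSplit F z P c) [IsNoetherianRing R] (k : ι)
    [(tres5eMax R z (c k)).IsPrime]
    {ϖ s : R} (hmax : maximalIdeal R = Ideal.span {ϖ, s}) (hϖ : Prime ϖ)
    (hE : ∀ e : E, ∃ (n : ℕ) (a : R), algebraMap E L e * algebraMap R L ϖ ^ n = algebraMap R L a) :
    ∃ W : ValuationSubring L,
      Tres5nIsLoc (ls_localSubring (F := L) (tres5eMax R z (c k))) (tres5eBaseToLoc z (c k) ϖ) W ∧
      ∀ (m : ℕ) (y : L), y ≠ 0 →
        (∀ P : Place E L, (∀ x ∈ ls_localSubring (F := L) (tres5eMax R z (c k)),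
          x ∈ P.toValuationSubring) → (m : ℤ) ∣ P.ord y) →
        ∃ (γ : L) (ε : ls_localSubring (F := L) (tres5eMax R z (c k))) (a : ℤ), IsUnit ε ∧
          y = (ε : L) * (algebraMap R L ϖ) ^ a * γ ^ m ∧ γ ≠ 0 ∧
          W.valuation γ = 1 ∧ W.valuation y = W.valuation (algebraMap R L ϖ) ^ a := by
  haveI := H.loc_isLocalRing k
  haveI := H.loc_isNoetherianRing k
  have hmax' := H.loc_maximalIdeal k hmax
  have hϖ' := H.loc_prime k hmax hϖ
  exact tres5n_fac_smooth (E := E) (ls_localSubring (F := L) (tres5eMax R z (c k)))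
    (H.loc_frac k) (tres5eBaseToLoc z (c k) ϖ) (tres5eBaseToLoc z (c k) s) hmax' hϖ'
    (fun e => by
      obtain ⟨n, a, h⟩ := hE e
      exact ⟨n, tres5eBaseToLoc z (c k) a, h⟩)

end Fermat.Agent.R38
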