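/-
ROW 38, TRES, piece FAC-TR (helper90), part 1: THE REDUCTION MAP OF A SHEET (abstract).

`F ⊆ F′` fields, `V ⊆ F`, `W ⊆ F′` valuation subrings with `W ∩ F = V` and residue degree `1`
(`hres`: every element of `W` is congruent modulo `𝔪_W` to an element of `V` — the shape of
`Tres5Gen.W_residue`, `R38/TresCover.lean`), `ρ : V →+* L` a reduction map of `V` (kernel `𝔪_V`).

* `tresft_sheet`        : `ρ` extends to a reduction map `ρ_W : W →+* L` of `W` (kernel `𝔪_W`),
                          with `ρ_W x = ρ a` whenever `x ≡ a mod 𝔪_W`, `a ∈ V`;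
* `tresft_sheet_unique` : a ring homomorphism `W →+* L` killing `𝔪_W` and extending `ρ` is `ρ_W`.
So the residue function field of every sheet of the split cover (`Tres5Gen.W k`) is the one of the
vertical valuation downstairs, and the abstract dictionaries `RIB.MP.ribmp_rd_*`, `tresdn_*`
apply to the sheets with the same `L` and the same places `Q`.
-/
import Fermat.Agent.UNIP.MGVertCompat
import Fermat.Agent.R38.TresCover

set_option autoImplicit false
set_option linter.unusedSectionVars false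
set_option linter.style.haveILetI false

noncomputable section

namespace Fermat.Agent.R38

open Fermat.Agent.UNIP Fermat.Agent.INJ

section Sheet

variable {F F' L : Type*} [Field F] [Field F'] [Field L] [Algebra F F']

/-- `a ∈ 𝔪_V ↔ a ∈ 𝔪_W` for `V = W ∩ F` -/
theorem tresft_mem_nonunits_iff (V : ValuationSubring F) (W : ValuationSubring F')
    (hWV : W.comap (algebraMap F F') = V) (a : F) :
    algebraMap F F' a ∈ W.nonunits ↔ a ∈ V.nonunits := by
  rw [← hWV, vt_mem_nonunits_comap]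

theorem tresft_mem_iff (V : ValuationSubring F) (W : ValuationSubring F')
    (hWV : W.comap (algebraMap F F') = V) (a : F) :
    algebraMap F F' a ∈ W ↔ a ∈ V := by
  rw [← hWV, ValuationSubring.mem_comap]

/-- the value of the sheet reduction at `x`: `ρ a` for any `a ∈ V` with `x ≡ a` at `W` -/
theorem tresft_sheet_wd (V : ValuationSubring F) (W : ValuationSubring F')
    (hWV : W.comap (algebraMap F F') = V)
    (ρ : ↥V →+* L) (hker : ∀ a : ↥V, (a : F) ∈ V.nonunits → ρ a = 0)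
    {x : F'} {a b : F} (ha : a ∈ V) (hb : b ∈ V)
    (hxa : x - algebraMap F F' a ∈ W.nonunits) (hxb : x - algebraMap F F' b ∈ W.nonunits) :
    ρ ⟨a, ha⟩ = ρ ⟨b, hb⟩ := by
  have h1 : algebraMap F F' (a - b) ∈ W.nonunits := by
    have e : algebraMap F F' (a - b) = (x - algebraMap F F' b) - (x - algebraMap F F' a) := by
      rw [map_sub]; ring
    rw [e]
    exact vt_sub_mem_nonunits W hxb hxa
  have h2 : a - b ∈ V.nonunits := (tresft_mem_nonunits_iff V W hWV _).mp h1
  have h3 : ρ (⟨a, ha⟩ - ⟨b, hb⟩) = 0 := hker _ h2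
  rw [map_sub] at h3
  exact sub_eq_zero.mp h3

/-- **(T1) The reduction map of a sheet.**  `W` a valuation subring of `F′` over `V = W ∩ F` with
residue degree `1` (`hres`, the shape of `Tres5Gen.W_residue`), `ρ : V →+* L` a reduction map of
`V` (kernel `𝔪_V`).  Then `ρ` extends to a reduction map `ρ_W : W →+* L` of `W`. -/
theorem tresft_sheet (V : ValuationSubring F) (W : ValuationSubring F')
    (hWV : W.comap (algebraMap F F') = V)
    (hres : ∀ x ∈ W, ∃ a ∈ V, x - algebraMap F F' a ∈ W.nonunits)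
    (ρ : ↥V →+* L) (hρ : ∀ a : ↥V, ρ a = 0 ↔ (a : F) ∈ V.nonunits) :
    ∃ ρW : ↥W →+* L,
      (∀ (a : F) (ha : a ∈ V) (haW : algebraMap F F' a ∈ W),
        ρW ⟨algebraMap F F' a, haW⟩ = ρ ⟨a, ha⟩) ∧
      (∀ (x : F') (hx : x ∈ W) (a : F) (ha : a ∈ V),
        x - algebraMap F F' a ∈ W.nonunits → ρW ⟨x, hx⟩ = ρ ⟨a, ha⟩) ∧
      ∀ x : ↥W, ρW x = 0 ↔ (x : F') ∈ W.nonunits := by
  classical
  have hker : ∀ a : ↥V, (a : F) ∈ V.nonunits → ρ a = 0 := fun a ha => (hρ a).mpr ha
  -- the choice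
  let c : ↥W → F := fun x => Classical.choose (hres x x.2)
  have hcV : ∀ x : ↥W, c x ∈ V := fun x => (Classical.choose_spec (hres x x.2)).1
  have hcx : ∀ x : ↥W, (x : F') - algebraMap F F' (c x) ∈ W.nonunits :=
    fun x => (Classical.choose_spec (hres x x.2)).2
  let f : ↥W → L := fun x => ρ ⟨c x, hcV x⟩
  have hf : ∀ (x : ↥W) (a : F) (ha : a ∈ V),
      (x : F') - algebraMap F F' a ∈ W.nonunits → f x = ρ ⟨a, ha⟩ :=
    fun x a ha hxa => tresft_sheet_wd V W hWV ρ hker (hcV x) ha (hcx x) hxa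
  have hVW : ∀ a : F, a ∈ V → algebraMap F F' a ∈ W :=
    fun a ha => (tresft_mem_iff V W hWV a).mpr ha
  have h0 : (0 : F') ∈ W.nonunits := by
    rw [ValuationSubring.mem_nonunits_iff, map_zero]
    exact zero_lt_one
  have hone : f 1 = 1 := by
    rw [hf 1 1 V.one_mem (by simp [h0])]
    exact map_one ρ
  have hmul : ∀ x y : ↥W, f (x * y) = f x * f y := by
    intro x y
    have e : ((x * y : ↥W) : F') - algebraMap F F' (c x * c y) =
        ((x : F') - algebraMap F F' (c x)) * (y : F') +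
          algebraMap F F' (c x) * ((y : F') - algebraMap F F' (c y)) := by
      rw [MulMemClass.coe_mul, map_mul]
      ring
    have h1 : ((x * y : ↥W) : F') - algebraMap F F' (c x * c y) ∈ W.nonunits := by
      rw [e]
      refine vt_add_mem_nonunits W ?_ ?_
      · rw [mul_comm]
        exact vt_mul_mem_nonunits W y.2 (hcx x)
      · exact vt_mul_mem_nonunits W (hVW _ (hcV x)) (hcx y)
    rw [hf (x * y) (c x * c y) (V.mul_mem _ _ (hcV x) (hcV y)) h1]
    exact map_mul ρ ⟨c x, hcV x⟩ ⟨c y, hcV y⟩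
  have hzero : f 0 = 0 := by
    rw [hf 0 0 V.zero_mem (by simp [h0])]
    exact map_zero ρ
  have hadd : ∀ x y : ↥W, f (x + y) = f x + f y := by
    intro x y
    have e : ((x + y : ↥W) : F') - algebraMap F F' (c x + c y) =
        ((x : F') - algebraMap F F' (c x)) + ((y : F') - algebraMap F F' (c y)) := by
      rw [AddMemClass.coe_add, map_add]
      ring
    have h1 : ((x + y : ↥W) : F') - algebraMap F F' (c x + c y) ∈ W.nonunits := by
      rw [e]
      exact vt_add_mem_nonunits W (hcx x) (hcx y)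
    rw [hf (x + y) (c x + c y) (V.add_mem _ _ (hcV x) (hcV y)) h1]
    exact map_add ρ ⟨c x, hcV x⟩ ⟨c y, hcV y⟩
  let ρW : ↥W →+* L :=
    { toFun := f
      map_one' := hone
      map_mul' := hmul
      map_zero' := hzero
      map_add' := hadd }
  refine ⟨ρW, fun a ha haW => ?_, fun x hx a ha hxa => hf ⟨x, hx⟩ a ha hxa, fun x => ?_⟩
  · exact hf ⟨algebraMap F F' a, haW⟩ a ha (by simp [h0])
  · show f x = 0 ↔ _
    constructor
    · intro h
      have h1 : (c x : F) ∈ V.nonunits := (hρ ⟨c x, hcV x⟩).mp h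
      have h2 : algebraMap F F' (c x) ∈ W.nonunits := (tresft_mem_nonunits_iff V W hWV _).mpr h1
      have e : (x : F') = ((x : F') - algebraMap F F' (c x)) + algebraMap F F' (c x) := by ring
      rw [e]
      exact vt_add_mem_nonunits W (hcx x) h2
    · intro h
      have e : algebraMap F F' (c x) = (x : F') - ((x : F') - algebraMap F F' (c x)) := by ring
      have h2 : algebraMap F F' (c x) ∈ W.nonunits := by
        rw [e]
        exact vt_sub_mem_nonunits W h (hcx x)
      exact (hρ ⟨c x, hcV x⟩).mpr ((tresft_mem_nonunits_iff V W hWV _).mp h2)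

/-- **Uniqueness of the sheet reduction.** -/
theorem tresft_sheet_unique (V : ValuationSubring F) (W : ValuationSubring F')
    (hres : ∀ x ∈ W, ∃ a ∈ V, x - algebraMap F F' a ∈ W.nonunits)
    (ρ : ↥V →+* L) (ρ₁ ρ₂ : ↥W →+* L)
    (h₁ : ∀ (a : F) (ha : a ∈ V) (haW : algebraMap F F' a ∈ W),
      ρ₁ ⟨algebraMap F F' a, haW⟩ = ρ ⟨a, ha⟩)
    (h₂ : ∀ (a : F) (ha : a ∈ V) (haW : algebraMap F F' a ∈ W),
      ρ₂ ⟨algebraMap F F' a, haW⟩ = ρ ⟨a, ha⟩)
    (hk₁ : ∀ x : ↥W, (x : F') ∈ W.nonunits → ρ₁ x = 0)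
    (hk₂ : ∀ x : ↥W, (x : F') ∈ W.nonunits → ρ₂ x = 0) : ρ₁ = ρ₂ := by
  apply RingHom.ext
  intro x
  obtain ⟨a, ha, hxa⟩ := hres x x.2
  have haW : algebraMap F F' a ∈ W := by
    have e : algebraMap F F' a = (x : F') - ((x : F') - algebraMap F F' a) := by ring
    rw [e]
    exact W.sub_mem x.2 (vt_mem_of_mem_nonunits W hxa)
  have hx : x = (x - ⟨algebraMap F F' a, haW⟩) + ⟨algebraMap F F' a, haW⟩ := by ring
  have hd : ((x - ⟨algebraMap F F' a, haW⟩ : ↥W) : F') ∈ W.nonunits := by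
    rw [AddSubgroupClass.coe_sub]
    exact hxa
  rw [hx, map_add, map_add, hk₁ _ hd, hk₂ _ hd, h₁ a ha haW, h₂ a ha haW]

end Sheet

section Gen

variable {F F' L : Type*} [Field F] [Field F'] [Field L] [Algebra F F']

/-- **The reduction map of the sheet `S.W k` of a split cover** (`Tres5Gen`, helper78). -/
theorem tresft_sheet_gen {V : ValuationSubring F} {n : ℕ} (S : Tres5Gen F F' V n) {k : ℕ}
    (hk : k < n) (ρ : ↥V →+* L) (hρ : ∀ a : ↥V, ρ a = 0 ↔ (a : F) ∈ V.nonunits) :
    ∃ ρW : ↥(S.W k) →+* L,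
      (∀ (a : F) (ha : a ∈ V) (haW : algebraMap F F' a ∈ S.W k),
        ρW ⟨algebraMap F F' a, haW⟩ = ρ ⟨a, ha⟩) ∧
      (∀ (x : F') (hx : x ∈ S.W k) (a : F) (ha : a ∈ V),
        x - algebraMap F F' a ∈ (S.W k).nonunits → ρW ⟨x, hx⟩ = ρ ⟨a, ha⟩) ∧
      ∀ x : ↥(S.W k), ρW x = 0 ↔ (x : F') ∈ (S.W k).nonunits :=
  tresft_sheet V (S.W k) (S.W_comap hk)
    (fun x hx => by
      obtain ⟨a, ha⟩ := S.W_residue hk hx
      exact ⟨(a : F), a.2, ha⟩) ρ hρ

end Gen

end Fermat.Agent.R38
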