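/-
ROW 38, TRES, piece FAC-TR (helper90), part 3 (abstract): BASE CHANGE OF A SPLIT COVER AND THE
COMPARISON OF THE REDUCTIONS.

Setting: `S : Tres5Gen F L V n` (the split cover over the inertia field `K`, `R38/TresCover.lean`),
`F ⊆ F₂`, `L ⊆ L₂` (the same function fields over a finite extension `K₀` of `K`),
`V₂` a discrete valuation subring of `F₂` with `V₂ ∩ F = V` and uniformizer `π₂`.

* `tresftBC`          : the base change `Tres5Gen F₂ L₂ V₂ n` (same generator `z`, same roots `c i`);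
* `tresft_bc_comap`   : `(S₂.W k) ∩ L = S.W k` for every sheet `k < n`;
* `tresft_bc_red`     : the reduction map of the sheet `S₂.W k` restricts to the one of `S.W k`;
* `tresft_compare`    : **the comparison**.  If `u = b · γ ^ p · u″` with `u ∈ F₂`, `γ ∈ L₂`,
  `u″ ∈ L`, `b` a constant, and `r` is a reduction of `u` at `V₂` (up to constants), then for every
  sheet `k < n`:   `r = a · ρ_k (u″ / π ^ m) · s ^ p`   with `a` a nonzero constant and `s ≠ 0` in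
  the residue function field (`m` the order of `u″` on the sheet `k`).
  Hence `p ∣ ord_Q r − ord_Q ρ_k (u″ / π ^ m)` at every place `Q` (`tresft_compare_ord`).
-/
import Fermat.Agent.R38.TresFacTr
import Fermat.Agent.R38.TresCoverOrd
import Fermat.Agent.S24.PlaceBasic

set_option autoImplicit false
set_option linter.unusedSectionVars false
set_option linter.unusedVariables false
set_option linter.style.haveILetI false
set_option linter.style.longLine false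

noncomputable section

namespace Fermat.Agent.R38

open Polynomial Fermat.Agent.UNIP Fermat.Agent.INJ

section BC

variable {F L F₂ L₂ : Type*} [Field F] [Field L] [Field F₂] [Field L₂]
  [Algebra F L] [Algebra F F₂] [Algebra F₂ L₂] [Algebra L L₂] [Algebra F L₂]
  [IsScalarTower F F₂ L₂] [IsScalarTower F L L₂]
  {V : ValuationSubring F} {V₂ : ValuationSubring F₂} {n : ℕ}

/-- the inclusion `V → V₂` -/
def tresftIncl (hV : V₂.comap (algebraMap F F₂) = V) : ↥V →+* ↥V₂ :=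
  ((algebraMap F F₂).comp V.subtype).codRestrict V₂.toSubring (fun a => by
    have h : (a : F) ∈ V₂.comap (algebraMap F F₂) := by rw [hV]; exact a.2
    exact h)

theorem tresftIncl_coe (hV : V₂.comap (algebraMap F F₂) = V) (a : ↥V) :
    ((tresftIncl hV a : ↥V₂) : F₂) = algebraMap F F₂ (a : F) := rfl

theorem tresft_iota_comp (hV : V₂.comap (algebraMap F F₂) = V) :
    (tres5Iota V₂ L₂).comp (tresftIncl hV) = (algebraMap L L₂).comp (tres5Iota V L) := by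
  ext a
  simp only [RingHom.comp_apply, tres5Iota_apply, tresftIncl_coe]
  rw [← IsScalarTower.algebraMap_apply F F₂ L₂, ← IsScalarTower.algebraMap_apply F L L₂]

/-- units of `V` stay units in `V₂` -/
theorem tresftIncl_residue_ne_zero (hV : V₂.comap (algebraMap F F₂) = V) {a : ↥V}
    (ha : IsLocalRing.residue ↥V a ≠ 0) : IsLocalRing.residue ↥V₂ (tresftIncl hV a) ≠ 0 := by
  intro h
  apply ha
  rw [IsLocalRing.residue_eq_zero_iff, ValuationSubring.valuation_lt_one_iff] at h ⊢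
  have h1 : algebraMap F F₂ (a : F) ∈ V₂.nonunits := by
    rw [ValuationSubring.mem_nonunits_iff]
    exact h
  have h2 := (tresft_mem_nonunits_iff V V₂ hV _).mp h1
  rwa [ValuationSubring.mem_nonunits_iff] at h2

/-- a non-unit of `V₂` is a multiple of the uniformizer -/
theorem tresft_div_unif_mem {π₂ : F₂} (hπ₂ : π₂ ∈ V₂.nonunits) (hπ₂0 : π₂ ≠ 0)
    (hunif₂ : ∀ x : F₂, x ≠ 0 → ∃ m : ℤ, V₂.valuation (x / π₂ ^ m) = 1) {x : F₂}
    (hx : x ∈ V₂.nonunits) : x / π₂ ∈ V₂ := by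
  by_cases hx0 : x = 0
  · rw [hx0, zero_div]; exact V₂.zero_mem
  obtain ⟨m, hm⟩ := hunif₂ x hx0
  have hπV : π₂ ∈ V₂ := vt_mem_of_mem_nonunits V₂ hπ₂
  have hu : x / π₂ ^ m ∈ V₂ := (V₂.valuation_le_one_iff _).1 hm.le
  have hm1 : 1 ≤ m := by
    by_contra hlt
    have hle : m ≤ 0 := by omega
    obtain ⟨r, hr⟩ := Int.exists_eq_neg_ofNat hle
    have e : x = (x / π₂ ^ m) * (π₂ ^ r)⁻¹ := by
      rw [hr, zpow_neg, zpow_natCast]
      field_simp
    have hv : V₂.valuation x = (V₂.valuation π₂ ^ r)⁻¹ := by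
      conv_lhs => rw [e]
      rw [map_mul, hm, one_mul, map_inv₀, map_pow]
    have h1 : V₂.valuation π₂ ^ r ≤ 1 :=
      pow_le_one₀ zero_le ((V₂.valuation_le_one_iff _).2 hπV)
    have h0 : V₂.valuation π₂ ^ r ≠ 0 :=
      pow_ne_zero _ ((Valuation.ne_zero_iff _).2 hπ₂0)
    have h2 : 1 ≤ V₂.valuation x := by
      rw [hv]
      exact (one_le_inv₀ (zero_lt_iff.2 h0)).2 h1
    rw [ValuationSubring.mem_nonunits_iff] at hx
    exact absurd (lt_of_le_of_lt h2 hx) (lt_irrefl _)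
  obtain ⟨r, hr⟩ := Int.eq_ofNat_of_zero_le (show 0 ≤ m - 1 by omega)
  have e : x / π₂ = (x / π₂ ^ m) * π₂ ^ r := by
    have hm' : m = r + 1 := by omega
    rw [hm', zpow_add₀ hπ₂0, zpow_natCast, zpow_one]
    field_simp
  rw [e]
  exact mul_mem hu (pow_mem hπV r)

/-- **base change of a split cover** -/
def tresftBC (S : Tres5Gen F L V n) (hV : V₂.comap (algebraMap F F₂) = V)
    (hfin : Module.finrank F₂ L₂ = n)
    (htop : IntermediateField.adjoin F₂ {algebraMap L L₂ S.z} = ⊤)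
    (π₂ : F₂) (hπ₂ : π₂ ∈ V₂.nonunits) (hπ₂0 : π₂ ≠ 0)
    (hunif₂ : ∀ x : F₂, x ≠ 0 → ∃ m : ℤ, V₂.valuation (x / π₂ ^ m) = 1) :
    Tres5Gen F₂ L₂ V₂ n where
  hn := S.hn
  hfin := hfin
  π := π₂
  hπ := hπ₂
  hπ0 := hπ₂0
  hunif := hunif₂
  z := algebraMap L L₂ S.z
  htop := htop
  c := fun i => tresftIncl hV (S.c i)
  hc := fun i hi j hj hij => by
    rw [← map_sub]
    exact tresftIncl_residue_ne_zero hV (S.hc i hi j hj hij)
  R := C (⟨algebraMap F F₂ S.π / π₂, tresft_div_unif_mem hπ₂ hπ₂0 hunif₂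
      ((tresft_mem_nonunits_iff V V₂ hV _).mpr S.hπ)⟩ : ↥V₂) * S.R.map (tresftIncl hV)
  hR := lt_of_le_of_lt (degree_mul_le _ _) (by
    have h1 : (C (⟨algebraMap F F₂ S.π / π₂, tresft_div_unif_mem hπ₂ hπ₂0 hunif₂
      ((tresft_mem_nonunits_iff V V₂ hV _).mpr S.hπ)⟩ : ↥V₂)).degree ≤ 0 := degree_C_le
    have h2 : (S.R.map (tresftIncl hV)).degree ≤ S.R.degree := degree_map_le
    have h3 := S.hR
    calc (C (⟨algebraMap F F₂ S.π / π₂, _⟩ : ↥V₂)).degree + (S.R.map (tresftIncl hV)).degree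
        ≤ 0 + S.R.degree := add_le_add h1 h2
      _ = S.R.degree := zero_add _
      _ < n := h3)
  hz := by
    have h0 := congrArg (algebraMap L L₂) S.hz
    rw [map_zero, Polynomial.hom_eval₂, ← tresft_iota_comp hV, ← Polynomial.eval₂_map] at h0
    rw [← h0]
    congr 1
    rw [Polynomial.map_add, Polynomial.map_mul, Polynomial.map_prod, Polynomial.map_C,
      ← mul_assoc, ← C_mul]
    congr 1
    · apply Finset.prod_congr rfl
      intro i _
      rw [Polynomial.map_sub, Polynomial.map_X, Polynomial.map_C]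
    · congr 2
      apply Subtype.ext
      show π₂ * (algebraMap F F₂ S.π / π₂) = algebraMap F F₂ S.π
      field_simp

/-- the valuation of an image: `W₂ ∩ F = W` -/
theorem tresft_val_one_comap {K K' : Type*} [Field K] [Field K'] (f : K →+* K')
    (W : ValuationSubring K) (W' : ValuationSubring K') (hW : W'.comap f = W) {x : K} :
    W'.valuation (f x) = 1 ↔ W.valuation x = 1 := by
  by_cases hx : x = 0
  · rw [hx, map_zero, map_zero, map_zero]
    simp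
  have hfx : f x ≠ 0 := (map_ne_zero f).2 hx
  rw [tres5_valuation_eq_one_iff W' hfx, tres5_valuation_eq_one_iff W hx, ← hW,
    ValuationSubring.mem_comap, ValuationSubring.mem_comap, map_inv₀]

/-- **the sheets of the base change restrict to the sheets**: `(S₂.W k) ∩ L = S.W k` -/
theorem tresft_bc_comap (S : Tres5Gen F L V n) (S₂ : Tres5Gen F₂ L₂ V₂ n)
    (hV : V₂.comap (algebraMap F F₂) = V) (hz : S₂.z = algebraMap L L₂ S.z)
    (hc : ∀ i < n, ((S₂.c i : ↥V₂) : F₂) = algebraMap F F₂ (S.c i : F)) {k : ℕ} (hk : k < n) :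
    (S₂.W k).comap (algebraMap L L₂) = S.W k := by
  have h1 : ((S₂.W k).comap (algebraMap L L₂)).comap (algebraMap F L) = V := by
    ext x
    rw [ValuationSubring.mem_comap, ValuationSubring.mem_comap,
      ← IsScalarTower.algebraMap_apply F L L₂, IsScalarTower.algebraMap_apply F F₂ L₂,
      ← ValuationSubring.mem_comap, S₂.W_comap hk, ← hV, ValuationSubring.mem_comap]
  obtain ⟨j, hj, hW'⟩ := S.W_unique h1
  by_cases hjk : j = k
  · rw [hW', hjk]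
  exfalso
  have h2 : S.z - tres5Iota V L (S.c k) ∈ ((S₂.W k).comap (algebraMap L L₂)).nonunits := by
    rw [tres5_mem_nonunits_comap, map_sub, ← hz]
    have e : algebraMap L L₂ (tres5Iota V L (S.c k)) = tres5Iota V₂ L₂ (S₂.c k) := by
      rw [tres5Iota_apply, tres5Iota_apply, hc k hk,
        ← IsScalarTower.algebraMap_apply F L L₂, IsScalarTower.algebraMap_apply F F₂ L₂]
    rw [e]
    exact S₂.W_z_mem hk
  rw [hW', ValuationSubring.mem_nonunits_iff, S.W_z_unit hk hj (Ne.symm hjk)] at h2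
  exact lt_irrefl _ h2

/-- **every sheet of the big cover restricts to a sheet of the small one** -/
theorem tresft_exists_sheet {n₂ : ℕ} (S : Tres5Gen F L V n) (S₂ : Tres5Gen F₂ L₂ V₂ n₂)
    (hV : V₂.comap (algebraMap F F₂) = V) {k₂ : ℕ} (hk₂ : k₂ < n₂) :
    ∃ k < n, (S₂.W k₂).comap (algebraMap L L₂) = S.W k := by
  have h1 : ((S₂.W k₂).comap (algebraMap L L₂)).comap (algebraMap F L) = V := by
    ext x
    rw [ValuationSubring.mem_comap, ValuationSubring.mem_comap,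
      ← IsScalarTower.algebraMap_apply F L L₂, IsScalarTower.algebraMap_apply F F₂ L₂,
      ← ValuationSubring.mem_comap, S₂.W_comap hk₂, ← hV, ValuationSubring.mem_comap]
  exact S.W_unique h1

/-- the sheets of `tresftBC` -/
theorem tresftBC_comap (S : Tres5Gen F L V n) (hV : V₂.comap (algebraMap F F₂) = V)
    (hfin : Module.finrank F₂ L₂ = n)
    (htop : IntermediateField.adjoin F₂ {algebraMap L L₂ S.z} = ⊤)
    (π₂ : F₂) (hπ₂ : π₂ ∈ V₂.nonunits) (hπ₂0 : π₂ ≠ 0)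
    (hunif₂ : ∀ x : F₂, x ≠ 0 → ∃ m : ℤ, V₂.valuation (x / π₂ ^ m) = 1) {k : ℕ} (hk : k < n) :
    ((tresftBC S hV hfin htop π₂ hπ₂ hπ₂0 hunif₂).W k).comap (algebraMap L L₂) = S.W k :=
  tresft_bc_comap S _ hV rfl (fun _ _ => rfl) hk

/-- the inclusion of a sheet in the sheet of the base change -/
def tresftInclW {W : ValuationSubring L} {W₂ : ValuationSubring L₂}
    (hW : W₂.comap (algebraMap L L₂) = W) : ↥W →+* ↥W₂ :=
  ((algebraMap L L₂).comp W.subtype).codRestrict W₂.toSubring (fun a => by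
    have h : (a : L) ∈ W₂.comap (algebraMap L L₂) := by rw [hW]; exact a.2
    exact h)

theorem tresftInclW_coe {W : ValuationSubring L} {W₂ : ValuationSubring L₂}
    (hW : W₂.comap (algebraMap L L₂) = W) (a : ↥W) :
    ((tresftInclW hW a : ↥W₂) : L₂) = algebraMap L L₂ (a : L) := rfl

end BC

section Compare

variable {F L F₂ L₂ : Type*} [Field F] [Field L] [Field F₂] [Field L₂]
  [Algebra F L] [Algebra F F₂] [Algebra F₂ L₂] [Algebra L L₂] [Algebra F L₂]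
  [IsScalarTower F F₂ L₂] [IsScalarTower F L L₂]
  {V : ValuationSubring F} {V₂ : ValuationSubring F₂} {n n₂ : ℕ}
  {Lk : Type*} [Field Lk]

/-- **restriction of the reduction map**: the reduction map of the sheet `S₂.W k` of the base
change restricts to the reduction map of the sheet `S.W k`. -/
theorem tresft_bc_red (S : Tres5Gen F L V n) (S₂ : Tres5Gen F₂ L₂ V₂ n₂)
    (hV : V₂.comap (algebraMap F F₂) = V) {k k₂ : ℕ} (hk : k < n) (hk₂ : k₂ < n₂)
    (hW : (S₂.W k₂).comap (algebraMap L L₂) = S.W k)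
    (ρ₂ : ↥V₂ →+* Lk)
    (ρ₂W : ↥(S₂.W k₂) →+* Lk)
    (hρ₂W : ∀ (a : F₂) (ha : a ∈ V₂) (haW : algebraMap F₂ L₂ a ∈ S₂.W k₂),
      ρ₂W ⟨algebraMap F₂ L₂ a, haW⟩ = ρ₂ ⟨a, ha⟩)
    (hρ₂Wker : ∀ x : ↥(S₂.W k₂), (x : L₂) ∈ (S₂.W k₂).nonunits → ρ₂W x = 0)
    (ρW : ↥(S.W k) →+* Lk)
    (hρW : ∀ (a : F) (ha : a ∈ V) (haW : algebraMap F L a ∈ S.W k),
      ρW ⟨algebraMap F L a, haW⟩ = ρ₂ (tresftIncl hV ⟨a, ha⟩))
    (hρWker : ∀ x : ↥(S.W k), (x : L) ∈ (S.W k).nonunits → ρW x = 0) :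
    ρ₂W.comp (tresftInclW hW) = ρW := by
  refine tresft_sheet_unique V (S.W k)
    (fun x hx => by
      obtain ⟨a, ha⟩ := S.W_residue hk hx
      exact ⟨(a : F), a.2, ha⟩)
    (ρ₂.comp (tresftIncl hV)) _ _ ?_ hρW ?_ hρWker
  · intro a ha haW
    have haW₂ : algebraMap F₂ L₂ (algebraMap F F₂ a) ∈ S₂.W k₂ := by
      have h := S₂.ι_mem_W hk₂ (tresftIncl hV ⟨a, ha⟩)
      exact h
    have e : tresftInclW hW ⟨algebraMap F L a, haW⟩ =
        ⟨algebraMap F₂ L₂ (algebraMap F F₂ a), haW₂⟩ := by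
      apply Subtype.ext
      show algebraMap L L₂ (algebraMap F L a) = algebraMap F₂ L₂ (algebraMap F F₂ a)
      rw [← IsScalarTower.algebraMap_apply F L L₂, IsScalarTower.algebraMap_apply F F₂ L₂]
    rw [RingHom.comp_apply, e]
    exact hρ₂W (algebraMap F F₂ a) (tresftIncl hV ⟨a, ha⟩).2 haW₂
  · intro x hx
    rw [RingHom.comp_apply]
    apply hρ₂Wker
    have h := (tres5_mem_nonunits_comap (S₂.W k₂) (algebraMap L L₂) (x := (x : L))).1
      (by rw [hW]; exact hx)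
    exact h

variable {E₂ k₀ : Type*} [Field E₂] [Field k₀] [Algebra E₂ F₂] [Algebra k₀ Lk]

/-- membership from valuation one -/
theorem tresft_mem_of_val {K : Type*} [Field K] (W : ValuationSubring K) {x : K}
    (h : W.valuation x = 1) : x ∈ W :=
  (W.valuation_le_one_iff x).1 h.le

/-- **THE COMPARISON.**  `u = b · γ ^ p · u″` (`u ∈ F₂`, `b` a constant, `γ ∈ L₂`, `u″ ∈ L`),
`r = a₀ · ρ₂ (c₀ u)` a reduction of `u` at `V₂`, `m` the order of `u″` on the sheet `S.W k`: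
then `r = a · ρ_k (u″ / π ^ m) · s ^ p` with a nonzero constant `a` and `s ≠ 0`. -/
theorem tresft_compare (S : Tres5Gen F L V n) (S₂ : Tres5Gen F₂ L₂ V₂ n₂)
    (hV : V₂.comap (algebraMap F F₂) = V) {k k₂ : ℕ} (hk : k < n) (hk₂ : k₂ < n₂)
    (hW : (S₂.W k₂).comap (algebraMap L L₂) = S.W k)
    (ρ₂ : ↥V₂ →+* Lk) (hρ₂ : ∀ a : ↥V₂, ρ₂ a = 0 ↔ (a : F₂) ∈ V₂.nonunits)
    (ρW : ↥(S.W k) →+* Lk)
    (hρW : ∀ (a : F) (ha : a ∈ V) (haW : algebraMap F L a ∈ S.W k),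
      ρW ⟨algebraMap F L a, haW⟩ = ρ₂ (tresftIncl hV ⟨a, ha⟩))
    (hρWker : ∀ x : ↥(S.W k), (x : L) ∈ (S.W k).nonunits → ρW x = 0)
    (hconst : ∀ (c : E₂) (hc : V₂.valuation (algebraMap E₂ F₂ c) = 1),
      ∃ a : k₀, a ≠ 0 ∧ ρ₂ ⟨algebraMap E₂ F₂ c, tresft_mem_of_val V₂ hc⟩ = algebraMap k₀ Lk a)
    (hπ₂c : ∃ c : E₂, S₂.π = algebraMap E₂ F₂ c)
    (hπc : ∃ c : E₂, algebraMap F F₂ S.π = algebraMap E₂ F₂ c)
    {p : ℕ} {u : F₂} {b : E₂} {γ : L₂} {u'' : L} (hu0 : u ≠ 0) (hγ0 : γ ≠ 0)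
    (hfac : algebraMap F₂ L₂ u =
      algebraMap F₂ L₂ (algebraMap E₂ F₂ b) * γ ^ p * algebraMap L L₂ u'')
    {r : Lk} (c₀ : E₂) (hc₀ : V₂.valuation (algebraMap E₂ F₂ c₀ * u) = 1) {a₀ : k₀} (ha₀ : a₀ ≠ 0)
    (hr : r = algebraMap k₀ Lk a₀ * ρ₂ ⟨algebraMap E₂ F₂ c₀ * u, tresft_mem_of_val V₂ hc₀⟩)
    {m : ℤ} (hm : (S.W k).valuation (u'' / algebraMap F L S.π ^ m) = 1) :
    ∃ (a : k₀) (s : Lk), a ≠ 0 ∧ s ≠ 0 ∧
      ρW ⟨u'' / algebraMap F L S.π ^ m, tresft_mem_of_val _ hm⟩ ≠ 0 ∧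
      r = algebraMap k₀ Lk a * ρW ⟨u'' / algebraMap F L S.π ^ m, tresft_mem_of_val _ hm⟩ *
        s ^ p := by
  -- the reduction map of the big sheet
  obtain ⟨ρ₂W, hext, -, hker⟩ := tresft_sheet_gen S₂ hk₂ ρ₂ hρ₂
  have hrestr := tresft_bc_red S S₂ hV hk hk₂ hW ρ₂ ρ₂W hext (fun x hx => (hker x).2 hx) ρW hρW hρWker
  obtain ⟨π₂c, hπ₂c⟩ := hπ₂c
  obtain ⟨πc, hπc⟩ := hπc
  -- nonvanishing
  have hu0' : algebraMap F₂ L₂ u ≠ 0 := (_root_.map_ne_zero _).2 hu0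
  have hb0 : b ≠ 0 := by
    rintro rfl
    rw [map_zero, map_zero, zero_mul, zero_mul] at hfac
    exact hu0' hfac
  have hπ0 : algebraMap F L S.π ≠ 0 := (_root_.map_ne_zero _).2 S.hπ0
  have hπ₂0 : algebraMap F₂ L₂ S₂.π ≠ 0 := (_root_.map_ne_zero _).2 S₂.hπ0
  have hu''0 : u'' ≠ 0 := by
    rintro rfl
    rw [zero_div, map_zero] at hm
    exact zero_ne_one hm
  -- the order of `γ` on the big sheet
  obtain ⟨n₁, hn₁⟩ := S₂.W_unif hk₂ hγ0
  set g₁ : L₂ := γ / algebraMap F₂ L₂ S₂.π ^ n₁ with hg₁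
  set y₀ : L := u'' / algebraMap F L S.π ^ m with hy₀
  have hY₀ : (S₂.W k₂).valuation (algebraMap L L₂ y₀) = 1 :=
    (tresft_val_one_comap (algebraMap L L₂) (S.W k) (S₂.W k₂) hW).2 hm
  have hU₀ : (S₂.W k₂).valuation (algebraMap F₂ L₂ (algebraMap E₂ F₂ c₀ * u)) = 1 :=
    (tresft_val_one_comap (algebraMap F₂ L₂) V₂ (S₂.W k₂) (S₂.W_comap hk₂)).2 hc₀
  -- the constant
  set κ : E₂ := c₀ * b * π₂c ^ ((p : ℤ) * n₁) * πc ^ m with hκ
  have hπcL : algebraMap L L₂ (algebraMap F L S.π) = algebraMap F₂ L₂ (algebraMap E₂ F₂ πc) := by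
    rw [← IsScalarTower.algebraMap_apply F L L₂, IsScalarTower.algebraMap_apply F F₂ L₂, hπc]
  have hπc0 : algebraMap F₂ L₂ (algebraMap E₂ F₂ πc) ≠ 0 := by
    rw [← hπcL]; exact (_root_.map_ne_zero _).2 hπ0
  have hπ₂c0 : algebraMap F₂ L₂ (algebraMap E₂ F₂ π₂c) ≠ 0 := by
    rw [← hπ₂c]; exact hπ₂0
  have hkey : algebraMap F₂ L₂ (algebraMap E₂ F₂ c₀ * u) =
      algebraMap F₂ L₂ (algebraMap E₂ F₂ κ) * g₁ ^ p * algebraMap L L₂ y₀ := by
    rw [map_mul, hfac, hκ, hg₁, hy₀, map_mul, map_mul, map_mul, map_mul, map_mul, map_zpow₀,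
      map_zpow₀, map_zpow₀, map_zpow₀, map_div₀, map_zpow₀, hπcL, ← hπ₂c, div_pow,
      ← zpow_natCast (algebraMap F₂ L₂ S₂.π ^ n₁) p, ← zpow_mul, mul_comm n₁ (p : ℤ)]
    have h1 := zpow_ne_zero ((p : ℤ) * n₁) hπ₂0
    have h2 := zpow_ne_zero m hπc0
    field_simp
    rw [map_mul]
    ring
  have hg₁v : (S₂.W k₂).valuation (g₁ ^ p) = 1 := by rw [map_pow, hn₁, one_pow]
  have hκW : (S₂.W k₂).valuation (algebraMap F₂ L₂ (algebraMap E₂ F₂ κ)) = 1 := by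
    have h := congrArg (S₂.W k₂).valuation hkey
    rw [hU₀, map_mul, map_mul, hg₁v, hY₀, mul_one, mul_one] at h
    exact h.symm
  have hκV : V₂.valuation (algebraMap E₂ F₂ κ) = 1 :=
    (tresft_val_one_comap (algebraMap F₂ L₂) V₂ (S₂.W k₂) (S₂.W_comap hk₂)).1 hκW
  obtain ⟨a', ha', hρκ⟩ := hconst κ hκV
  -- the identity in the big sheet
  have hsub : (⟨algebraMap F₂ L₂ (algebraMap E₂ F₂ c₀ * u), tresft_mem_of_val _ hU₀⟩ :
      ↥(S₂.W k₂)) =
      ⟨algebraMap F₂ L₂ (algebraMap E₂ F₂ κ), tresft_mem_of_val _ hκW⟩ *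
        ⟨g₁, tresft_mem_of_val _ hn₁⟩ ^ p *
        tresftInclW hW ⟨y₀, tresft_mem_of_val _ hm⟩ := Subtype.ext hkey
  have e1 : ρ₂W ⟨algebraMap F₂ L₂ (algebraMap E₂ F₂ c₀ * u), tresft_mem_of_val _ hU₀⟩ =
      ρ₂ ⟨algebraMap E₂ F₂ c₀ * u, tresft_mem_of_val V₂ hc₀⟩ := hext _ _ _
  have e2 : ρ₂W ⟨algebraMap F₂ L₂ (algebraMap E₂ F₂ κ), tresft_mem_of_val _ hκW⟩ =
      ρ₂ ⟨algebraMap E₂ F₂ κ, tresft_mem_of_val V₂ hκV⟩ := hext _ _ _
  have e3 : ρ₂W (tresftInclW hW ⟨y₀, tresft_mem_of_val _ hm⟩) =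
      ρW ⟨y₀, tresft_mem_of_val _ hm⟩ := by
    rw [← hrestr]; rfl
  have hred : ρ₂ ⟨algebraMap E₂ F₂ c₀ * u, tresft_mem_of_val V₂ hc₀⟩ =
      algebraMap k₀ Lk a' * ρ₂W ⟨g₁, tresft_mem_of_val _ hn₁⟩ ^ p *
        ρW ⟨y₀, tresft_mem_of_val _ hm⟩ := by
    rw [← e1, hsub, map_mul, map_mul, map_pow, e2, hρκ, e3]
  have hρ0 : ρ₂ ⟨algebraMap E₂ F₂ c₀ * u, tresft_mem_of_val V₂ hc₀⟩ ≠ 0 := by
    intro h0
    have h1 := (hρ₂ _).1 h0
    rw [ValuationSubring.mem_nonunits_iff, hc₀] at h1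
    exact lt_irrefl _ h1
  refine ⟨a₀ * a', ρ₂W ⟨g₁, tresft_mem_of_val _ hn₁⟩, mul_ne_zero ha₀ ha', ?_, ?_, ?_⟩
  · intro h0
    have h1 := (hker _).1 h0
    rw [ValuationSubring.mem_nonunits_iff, hn₁] at h1
    exact lt_irrefl _ h1
  · intro h0
    rw [h0, mul_zero] at hred
    exact hρ0 hred
  · rw [hr, hred, map_mul]
    ring

end Compare

end Fermat.Agent.R38
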