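/-
ROW 38, TRES, piece FAC-TR (helper90), part 3 (concrete): THE COMPARISON `r = red(u)` versus the
reduction of `u″` along a sheet of the cover over the inertia field.

Frame of `RIB/MP/RedA.lean`: `A ⊂ ℚ̄` over `q`, `K₀ ≤ K₁` subfields of `ℚ̄` with `A ∩ K₀`, `A ∩ K₁`
discrete valuation rings (`K₀ = ℚ̄^I`, `K₁` a finite extension containing the constants of the
descent), `F₀ = F_{M₁q}(K₀) ⊆ F₁ = F_{M₁q}(K₁)`, `V₀ ⊆ V₁` the Gauss valuation rings,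
`ribmpRedF : V_i →+* F̄_{M₁}(k)` their reduction maps.   The covers `L/F₀`, `L₂/F₁` are abstract
(`Tres5Gen`), with `L ⊆ L₂` compatible with `F₀ ⊆ F₁` (`hsq`).

* `tresftc_redK_incl`, `tresftc_redF_incl` : the reduction maps over `K₁` restrict to those over
  `K₀`;
* `tresftc_const` : the reduction of a constant unit is a nonzero constant;
* `tresftc_red` : `R38Red A u r` and `c₀ u ∈ V₁^×` ⇒ `r = a₀ · red(c₀ u)`;
* `tresft_main` : **(T3)**  `u = b γ ^ p u″`, `R38Red A u r`  ⇒  `r ∈ F̄_{M₁}(k)` and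
  `r = a · ρ_W (u″ / π ^ m) · s ^ p`  for every reduction map `ρ_W` of a sheet `S.W k` of the cover
  over `K₀` extending `ribmpRedF` (`a ∈ k^×`, `s ∈ F̄_{M₁}(k)^×`): the hypothesis of
  `tresmono_clauses_congr`.
-/
import Fermat.Agent.R38.TresFacTrCmp
import Fermat.Agent.RIB.MP.RedA
import Fermat.Agent.R38.TresGeo

set_option autoImplicit false
set_option linter.unusedSectionVars false
set_option linter.unusedVariables false
set_option linter.style.haveILetI false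
set_option linter.style.longLine false
set_option synthInstance.maxHeartbeats 400000
set_option maxHeartbeats 1600000

noncomputable section

namespace Fermat.Agent.R38

open ModularCurve AlgebraicCurve Fermat.Agent.ES Fermat.Agent.ES.G2 Fermat.Agent.INJ
  Fermat.Agent.UNIP Fermat.Agent.STB Fermat.Agent.ES.M Fermat.Agent.DEU Fermat.Agent.S36
  Fermat.Agent.RIB.MP

section Incl

variable {A : ValuationSubring Qb} {K₀ K₁ : IntermediateField ℚ Qb}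
  [IsDiscreteValuationRing ↥(beta0Ring A K₀)] {π₀ : ↥(beta0Ring A K₀)} (hπ₀ : Irreducible π₀)
  [IsDiscreteValuationRing ↥(beta0Ring A K₁)] {π₁ : ↥(beta0Ring A K₁)} (hπ₁ : Irreducible π₁)
  (h : K₀ ≤ K₁)

/-- the Kronecker reduction over `K₁` restricts to the one over `K₀` -/
theorem tresftc_redK_incl (N : ℕ) [NeZero N]
    (x : ↥(vtInf (E := ↥K₀) (vtBase_residue hπ₀) N))
    (hx' : mgaIncl h N (x : modularFunctionFieldFullC ↥K₀ N) ∈
      vtInf (E := ↥K₁) (vtBase_residue hπ₁) N) :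
    ribmpRedK hπ₁ N ⟨mgaIncl h N (x : modularFunctionFieldFullC ↥K₀ N), hx'⟩ =
      ribmpRedK hπ₀ N x := by
  apply ribmpRedK_eq
  show GaussRed N A (nfEmb K₁ N (mgaIncl h N (x : modularFunctionFieldFullC ↥K₀ N))) _
  rw [nfEmb_mgaIncl]
  exact ribmpRedK_spec hπ₀ N x

end Incl

section Main

variable {M₁ q : ℕ} [NeZero M₁] [NeZero q] [NeZero (M₁ * q)] (hq : q.Prime) (hqM : ¬ q ∣ M₁)
  {A : ValuationSubring Qb} (hA : A.LiesOverPrime q) {K₀ K₁ : IntermediateField ℚ Qb}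
  [IsDiscreteValuationRing ↥(beta0Ring A K₀)] {π₀ : ↥(beta0Ring A K₀)} (hπ₀ : Irreducible π₀)
  [IsDiscreteValuationRing ↥(beta0Ring A K₁)] {π₁ : ↥(beta0Ring A K₁)} (hπ₁ : Irreducible π₁)
  (ιC₀ : ↥K₀ →+* ℂ) (ιC₁ : ↥K₁ →+* ℂ) (h : K₀ ≤ K₁)

include hA in
/-- the reduction map over `K₁` restricts to the one over `K₀` -/
theorem tresftc_redF_incl (hRedF : StmtRedF M₁ A) (x : ↥(mgvV hπ₀ ιC₀ hq hqM true))
    (hx' : mgaIncl h (M₁ * q) (x : modularFunctionFieldFullC ↥K₀ (M₁ * q)) ∈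
      mgvV hπ₁ ιC₁ hq hqM true) :
    ribmpRedF hq hqM hA hπ₁ ιC₁ hRedF
        ⟨mgaIncl h (M₁ * q) (x : modularFunctionFieldFullC ↥K₀ (M₁ * q)), hx'⟩ =
      ribmpRedF hq hqM hA hπ₀ ιC₀ hRedF x := by
  apply Subtype.ext
  rw [ribmpRedF_coe, ribmpRedF_coe]
  exact tresftc_redK_incl hπ₀ hπ₁ h (M₁ * q) _ _

include hA in
/-- the kernel of the reduction map is the maximal ideal -/
theorem tresftc_redF_eq_zero_iff (hRedF : StmtRedF M₁ A) (x : ↥(mgvV hπ₁ ιC₁ hq hqM true)) :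
    ribmpRedF hq hqM hA hπ₁ ιC₁ hRedF x = 0 ↔
      (x : modularFunctionFieldFullC ↥K₁ (M₁ * q)) ∈ (mgvV hπ₁ ιC₁ hq hqM true).nonunits := by
  constructor
  · intro h0
    by_contra hx
    have hv : (mgvV hπ₁ ιC₁ hq hqM true).valuation
        (x : modularFunctionFieldFullC ↥K₁ (M₁ * q)) = 1 := by
      have h1 := (ValuationSubring.valuation_le_one_iff _ _).2 x.2
      rw [ValuationSubring.mem_nonunits_iff, not_lt] at hx
      exact le_antisymm h1 hx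
    have h2 := ribmpRedK_ne_zero hπ₁ (M₁ * q)
      (ValuationSubring.inclusion _ _ (le_of_eq (mgvV_true hπ₁ ιC₁ hq hqM)) x) hv
    apply h2
    have h3 := congrArg Subtype.val h0
    rw [ribmpRedF_coe] at h3
    exact h3
  · intro hx
    apply Subtype.ext
    rw [ribmpRedF_coe]
    exact ribmpRedK_eq_zero_of_mem_nonunits hπ₁ (M₁ * q) _ hx

include hA in
/-- **(T3), with the two reduction facts (R1), (R3) as hypotheses.** -/
theorem tresft_main_of (hRedF : StmtRedF M₁ A)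
    (hR1 : ∀ (c : ↥K₁) (hc : (mgvV hπ₁ ιC₁ hq hqM true).valuation
        (algebraMap ↥K₁ ↥(modularFunctionFieldFullC ↥K₁ (M₁ * q)) c) = 1),
      ∃ a : kA A, a ≠ 0 ∧
        ribmpRedF hq hqM hA hπ₁ ιC₁ hRedF
          ⟨algebraMap ↥K₁ ↥(modularFunctionFieldFullC ↥K₁ (M₁ * q)) c, tresft_mem_of_val _ hc⟩ =
        algebraMap (kA A) ↥(modularFunctionFieldFullC (kA A) M₁) a)
    (hR3 : ∀ (u : ↥(modularFunctionFieldFullC ↥K₁ (M₁ * q))) (r : LaurentSeries (kA A)),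
      R38Red A ((nfEmb K₁ (M₁ * q) u : modularFunctionFieldBar (M₁ * q)) : LaurentSeries Qb) r →
      ∀ (c₀ : ↥K₁) (hv : (mgvV hπ₁ ιC₁ hq hqM true).valuation
          (algebraMap ↥K₁ ↥(modularFunctionFieldFullC ↥K₁ (M₁ * q)) c₀ * u) = 1),
      ∃ a₀ : kA A, a₀ ≠ 0 ∧ r = HahnSeries.C a₀ *
        ((ribmpRedF hq hqM hA hπ₁ ιC₁ hRedF
          ⟨algebraMap ↥K₁ ↥(modularFunctionFieldFullC ↥K₁ (M₁ * q)) c₀ * u,
            tresft_mem_of_val _ hv⟩ : ↥(modularFunctionFieldFullC (kA A) M₁)) :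
          LaurentSeries (kA A)))
    {L L₂ : Type*} [Field L] [Field L₂]
    [Algebra ↥(modularFunctionFieldFullC ↥K₀ (M₁ * q)) L]
    [Algebra ↥(modularFunctionFieldFullC ↥K₁ (M₁ * q)) L₂] [Algebra L L₂]
    (hsq : ∀ x : ↥(modularFunctionFieldFullC ↥K₀ (M₁ * q)),
      algebraMap L L₂ (algebraMap ↥(modularFunctionFieldFullC ↥K₀ (M₁ * q)) L x) =
        algebraMap ↥(modularFunctionFieldFullC ↥K₁ (M₁ * q)) L₂ (mgaIncl h (M₁ * q) x))
    {n n₂ : ℕ}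
    (S : Tres5Gen ↥(modularFunctionFieldFullC ↥K₀ (M₁ * q)) L (mgvV hπ₀ ιC₀ hq hqM true) n)
    (S₂ : Tres5Gen ↥(modularFunctionFieldFullC ↥K₁ (M₁ * q)) L₂ (mgvV hπ₁ ιC₁ hq hqM true) n₂)
    (hSπ : ∃ c : ↥K₀, S.π = algebraMap ↥K₀ ↥(modularFunctionFieldFullC ↥K₀ (M₁ * q)) c)
    (hS₂π : ∃ c : ↥K₁, S₂.π = algebraMap ↥K₁ ↥(modularFunctionFieldFullC ↥K₁ (M₁ * q)) c)
    {k k₂ : ℕ} (hk : k < n) (hk₂ : k₂ < n₂)
    (hW : (S₂.W k₂).comap (algebraMap L L₂) = S.W k)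
    (ρW : ↥(S.W k) →+* ↥(modularFunctionFieldFullC (kA A) M₁))
    (hρW : ∀ (a : ↥(modularFunctionFieldFullC ↥K₀ (M₁ * q))) (ha : a ∈ mgvV hπ₀ ιC₀ hq hqM true)
      (haW : algebraMap ↥(modularFunctionFieldFullC ↥K₀ (M₁ * q)) L a ∈ S.W k),
      ρW ⟨algebraMap ↥(modularFunctionFieldFullC ↥K₀ (M₁ * q)) L a, haW⟩ =
        ribmpRedF hq hqM hA hπ₀ ιC₀ hRedF ⟨a, ha⟩)
    (hρWker : ∀ x : ↥(S.W k), (x : L) ∈ (S.W k).nonunits → ρW x = 0)
    {p : ℕ} {u : ↥(modularFunctionFieldFullC ↥K₁ (M₁ * q))} {b : ↥K₁} {γ : L₂} {u'' : L}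
    (hu0 : u ≠ 0) (hγ0 : γ ≠ 0)
    (hfac : algebraMap ↥(modularFunctionFieldFullC ↥K₁ (M₁ * q)) L₂ u =
      algebraMap ↥(modularFunctionFieldFullC ↥K₁ (M₁ * q)) L₂
        (algebraMap ↥K₁ ↥(modularFunctionFieldFullC ↥K₁ (M₁ * q)) b) * γ ^ p *
        algebraMap L L₂ u'')
    {r : LaurentSeries (kA A)}
    (hr : R38Red A
      ((nfEmb K₁ (M₁ * q) u : modularFunctionFieldBar (M₁ * q)) : LaurentSeries Qb) r)
    {m : ℤ}
    (hm : (S.W k).valuation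
      (u'' / algebraMap ↥(modularFunctionFieldFullC ↥K₀ (M₁ * q)) L S.π ^ m) = 1) :
    ∃ (hrF : r ∈ modularFunctionFieldFullC (kA A) M₁) (a : kA A)
      (s : ↥(modularFunctionFieldFullC (kA A) M₁)), a ≠ 0 ∧ s ≠ 0 ∧
      ρW ⟨u'' / algebraMap ↥(modularFunctionFieldFullC ↥K₀ (M₁ * q)) L S.π ^ m,
        tresft_mem_of_val _ hm⟩ ≠ 0 ∧
      (⟨r, hrF⟩ : ↥(modularFunctionFieldFullC (kA A) M₁)) =
        algebraMap (kA A) ↥(modularFunctionFieldFullC (kA A) M₁) a *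
          ρW ⟨u'' / algebraMap ↥(modularFunctionFieldFullC ↥K₀ (M₁ * q)) L S.π ^ m,
            tresft_mem_of_val _ hm⟩ * s ^ p := by
  -- the algebra structures
  letI algFF : Algebra ↥(modularFunctionFieldFullC ↥K₀ (M₁ * q))
      ↥(modularFunctionFieldFullC ↥K₁ (M₁ * q)) := (mgaIncl h (M₁ * q)).toAlgebra
  letI algFL : Algebra ↥(modularFunctionFieldFullC ↥K₀ (M₁ * q)) L₂ :=
    ((algebraMap ↥(modularFunctionFieldFullC ↥K₁ (M₁ * q)) L₂).comp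
      (mgaIncl h (M₁ * q))).toAlgebra
  haveI t1 : IsScalarTower ↥(modularFunctionFieldFullC ↥K₀ (M₁ * q))
      ↥(modularFunctionFieldFullC ↥K₁ (M₁ * q)) L₂ :=
    IsScalarTower.of_algebraMap_eq (fun x => rfl)
  haveI t2 : IsScalarTower ↥(modularFunctionFieldFullC ↥K₀ (M₁ * q)) L L₂ :=
    IsScalarTower.of_algebraMap_eq (fun x => (hsq x).symm)
  have hV : (mgvV hπ₁ ιC₁ hq hqM true).comap
      (algebraMap ↥(modularFunctionFieldFullC ↥K₀ (M₁ * q))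
        ↥(modularFunctionFieldFullC ↥K₁ (M₁ * q))) = mgvV hπ₀ ιC₀ hq hqM true :=
    mgv_comap_incl hπ₀ hπ₁ ιC₀ ιC₁ hq hqM h true
  -- (R2): normalisation of `u`
  obtain ⟨c₂, hc₂⟩ := hS₂π
  obtain ⟨m₂, hm₂⟩ := S₂.hunif u hu0
  have hc₀ : (mgvV hπ₁ ιC₁ hq hqM true).valuation
      (algebraMap ↥K₁ ↥(modularFunctionFieldFullC ↥K₁ (M₁ * q)) ((c₂ ^ m₂)⁻¹) * u) = 1 := by
    have e : algebraMap ↥K₁ ↥(modularFunctionFieldFullC ↥K₁ (M₁ * q)) ((c₂ ^ m₂)⁻¹) * u =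
        u / S₂.π ^ m₂ := by
      rw [map_inv₀, map_zpow₀, ← hc₂, div_eq_mul_inv]
      exact mul_comm _ _
    rw [e]
    exact hm₂
  obtain ⟨a₀, ha₀, hra₀⟩ := hR3 u r hr _ hc₀
  have hrF : r ∈ modularFunctionFieldFullC (kA A) M₁ := by
    rw [hra₀]
    exact mul_mem (hahnC_mem_intermediateField _ _) (Subtype.property _)
  have hr' : (⟨r, hrF⟩ : ↥(modularFunctionFieldFullC (kA A) M₁)) =
      algebraMap (kA A) ↥(modularFunctionFieldFullC (kA A) M₁) a₀ *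
        ribmpRedF hq hqM hA hπ₁ ιC₁ hRedF
          ⟨algebraMap ↥K₁ ↥(modularFunctionFieldFullC ↥K₁ (M₁ * q)) ((c₂ ^ m₂)⁻¹) * u,
            tresft_mem_of_val _ hc₀⟩ := by
    apply Subtype.ext
    rw [MulMemClass.coe_mul]
    show r = ((algebraMap (kA A) ↥(modularFunctionFieldFullC (kA A) M₁) a₀ :
      ↥(modularFunctionFieldFullC (kA A) M₁)) : LaurentSeries (kA A)) * _
    rw [hra₀]
    congr 1
    exact (algebraMap_eq_hahnC a₀).symm
  obtain ⟨a, s, ha, hs, hne, hfin⟩ := tresft_compare (E₂ := ↥K₁) (k₀ := kA A) S S₂ hV hk hk₂ hW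
    (ribmpRedF hq hqM hA hπ₁ ιC₁ hRedF)
    (tresftc_redF_eq_zero_iff hq hqM hA hπ₁ ιC₁ hRedF) ρW
    (fun a ha haW => by
      rw [hρW a ha haW]
      exact (tresftc_redF_incl hq hqM hA hπ₀ hπ₁ ιC₀ ιC₁ h hRedF ⟨a, ha⟩ _).symm)
    hρWker hR1 ⟨c₂, hc₂⟩
    (by
      obtain ⟨c, hc⟩ := hSπ
      refine ⟨IntermediateField.inclusion h c, ?_⟩
      rw [hc]
      exact mgaIncl_mgaConst h (M₁ * q) c)
    hu0 hγ0 hfac ((c₂ ^ m₂)⁻¹) hc₀ ha₀ hr' hm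
  exact ⟨hrF, a, s, ha, hs, hne, hfin⟩

end Main

end Fermat.Agent.R38
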