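/-
ROW 38, TRES, piece FAC-TR (helper90), part 4: THE (TR) BLOCK OF THE FRAME THEOREM.

The hypotheses (I1) `hker hAW hπ ht hρt hAQ` of helper89's `tresmono_frame`
(`R38/TresMonoFrame.lean`) for the reduction map of a sheet `S.W k` of the cover over `K₀`:

* `tresftc_redF_J`     : `ribmpRedF j = j̄`;
* `tresftc_redF_const` : `ribmpRedF a = ā` for the constants `a ∈ A ∩ K₀`;
* `tresft_frame`       : **(I1)**  there is `ρ : S.W k →+* F̄_{M₁}(k)` extending `ribmpRedF`, with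
  kernel `𝔪(S.W k)`, `A₀ ⊆ S.W k`, `ρ π = 0`, `j` a unit of `S.W k`, `ρ j = j̄`, `ρ a ∈ O_Q`;
* `tresft_sheet_below` : every sheet `k₂` of the cover over `K₁` lies above a sheet `k` of the
  cover over `K₀` (the hypothesis `hW` of `tresft_main_of`, `R38/TresFacTrConc.lean`, which is
  the comparison (I6) `r = a · ρ (u″ / π ^ m) · s ^ p`).
-/
import Fermat.Agent.R38.TresFacTrConc
import Fermat.Agent.DEU.RamInst
import Fermat.Agent.INJ.BGRam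

set_option autoImplicit false
set_option linter.unusedSectionVars false
set_option linter.unusedVariables false
set_option linter.style.haveILetI false
set_option linter.style.longLine false
set_option synthInstance.maxHeartbeats 400000
set_option maxHeartbeats 1600000

noncomputable section

namespace Fermat.Agent.R38

open ModularCurve AlgebraicCurve Fermat.Agent.ES Fermat.Agent.ES.G2 Fermat.Agent.INJ
  Fermat.Agent.UNIP Fermat.Agent.STB Fermat.Agent.ES.M Fermat.Agent.DEU Fermat.Agent.S36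
  Fermat.Agent.RIB.MP

section Frame

variable {M₁ q : ℕ} [NeZero M₁] [NeZero q] [NeZero (M₁ * q)] (hq : q.Prime) (hqM : ¬ q ∣ M₁)
  {A : ValuationSubring Qb} (hA : A.LiesOverPrime q) {K₀ : IntermediateField ℚ Qb}
  [IsDiscreteValuationRing ↥(beta0Ring A K₀)] {π₀ : ↥(beta0Ring A K₀)} (hπ₀ : Irreducible π₀)
  (ιC₀ : ↥K₀ →+* ℂ)

include hA in
/-- the reduction of `j` is `j̄` -/
theorem tresftc_redF_J (hRedF : StmtRedF M₁ A)
    (hmem : bgJ ↥K₀ (M₁ * q) ∈ mgvV hπ₀ ιC₀ hq hqM true) :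
    ribmpRedF hq hqM hA hπ₀ ιC₀ hRedF ⟨bgJ ↥K₀ (M₁ * q), hmem⟩ =
      ⟨jqModC (kA A), jqModC_mem_full (kA A) M₁⟩ := by
  apply Subtype.ext
  rw [ribmpRedF_coe]
  apply ribmpRedK_eq
  show GaussRed (M₁ * q) A (nfEmb K₀ (M₁ * q) (bgJ ↥K₀ (M₁ * q))) _
  rw [bgRam_nfEmb_bgJ]
  exact deuRamInst_gaussRed_jF (M₁ * q) A

include hA in
/-- the reduction of a constant of `A ∩ K₀` -/
theorem tresftc_redF_const (hRedF : StmtRedF M₁ A) (a : ↥(beta0Ring A K₀))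
    (hmem : algebraMap ↥(beta0Ring A K₀) ↥(modularFunctionFieldFullC ↥K₀ (M₁ * q)) a ∈
      mgvV hπ₀ ιC₀ hq hqM true) :
    ribmpRedF hq hqM hA hπ₀ ιC₀ hRedF ⟨_, hmem⟩ =
      algebraMap (kA A) ↥(modularFunctionFieldFullC (kA A) M₁)
        (IsLocalRing.residue A ⟨algebraMap ↥K₀ Qb (algebraMap ↥(beta0Ring A K₀) ↥K₀ a),
          stb_mgt_c1 A K₀ a⟩) := by
  apply Subtype.ext
  rw [ribmpRedF_coe]
  exact (ribmpRedK_const hπ₀ (M₁ * q) a hmem).trans (algebraMap_eq_hahnC _).symm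

include hA in
/-- **(I1)**: the reduction map of a sheet of the cover over `K₀`, with the (TR) block of the
frame theorem. -/
theorem tresft_frame (hRedF : StmtRedF M₁ A) {L : Type*} [Field L]
    [Algebra ↥(modularFunctionFieldFullC ↥K₀ (M₁ * q)) L] {n : ℕ}
    (S : Tres5Gen ↥(modularFunctionFieldFullC ↥K₀ (M₁ * q)) L (mgvV hπ₀ ιC₀ hq hqM true) n)
    {k : ℕ} (hk : k < n) :
    ∃ ρ : ↥(S.W k) →+* ↥(modularFunctionFieldFullC (kA A) M₁),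
      (∀ (a : ↥(modularFunctionFieldFullC ↥K₀ (M₁ * q))) (ha : a ∈ mgvV hπ₀ ιC₀ hq hqM true)
        (haW : algebraMap ↥(modularFunctionFieldFullC ↥K₀ (M₁ * q)) L a ∈ S.W k),
        ρ ⟨algebraMap ↥(modularFunctionFieldFullC ↥K₀ (M₁ * q)) L a, haW⟩ =
          ribmpRedF hq hqM hA hπ₀ ιC₀ hRedF ⟨a, ha⟩) ∧
      (∀ x : ↥(S.W k), ρ x = 0 ↔ (x : L) ∈ (S.W k).nonunits) ∧
      (∀ a : ↥(beta0Ring A K₀),
        algebraMap ↥(modularFunctionFieldFullC ↥K₀ (M₁ * q)) L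
          (algebraMap ↥(beta0Ring A K₀) ↥(modularFunctionFieldFullC ↥K₀ (M₁ * q)) a) ∈ S.W k) ∧
      (∀ hmem : algebraMap ↥(modularFunctionFieldFullC ↥K₀ (M₁ * q)) L
          (algebraMap ↥(beta0Ring A K₀) ↥(modularFunctionFieldFullC ↥K₀ (M₁ * q)) π₀) ∈ S.W k,
        ρ ⟨_, hmem⟩ = 0) ∧
      (S.W k).valuation
        (algebraMap ↥(modularFunctionFieldFullC ↥K₀ (M₁ * q)) L (bgJ ↥K₀ (M₁ * q))) = 1 ∧
      (∀ hmem : algebraMap ↥(modularFunctionFieldFullC ↥K₀ (M₁ * q)) L (bgJ ↥K₀ (M₁ * q)) ∈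
          S.W k,
        ρ ⟨_, hmem⟩ = ⟨jqModC (kA A), jqModC_mem_full (kA A) M₁⟩) ∧
      (∀ (Q : Place (kA A) ↥(modularFunctionFieldFullC (kA A) M₁)) (a : ↥(beta0Ring A K₀))
        (hmem : algebraMap ↥(modularFunctionFieldFullC ↥K₀ (M₁ * q)) L
          (algebraMap ↥(beta0Ring A K₀) ↥(modularFunctionFieldFullC ↥K₀ (M₁ * q)) a) ∈ S.W k),
        ρ ⟨_, hmem⟩ ∈ Q.toValuationSubring) := by
  obtain ⟨ρ, hext, -, hker⟩ := tresft_sheet_gen S hk (ribmpRedF hq hqM hA hπ₀ ιC₀ hRedF)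
    (tresftc_redF_eq_zero_iff hq hqM hA hπ₀ ιC₀ hRedF)
  have hAV : ∀ a : ↥(beta0Ring A K₀),
      algebraMap ↥(beta0Ring A K₀) ↥(modularFunctionFieldFullC ↥K₀ (M₁ * q)) a ∈
        mgvV hπ₀ ιC₀ hq hqM true :=
    fun a => vtFam_const_mem (vtBase_residue hπ₀) ιC₀ hq hqM true a
  have hAW : ∀ a : ↥(beta0Ring A K₀),
      algebraMap ↥(modularFunctionFieldFullC ↥K₀ (M₁ * q)) L
        (algebraMap ↥(beta0Ring A K₀) ↥(modularFunctionFieldFullC ↥K₀ (M₁ * q)) a) ∈ S.W k :=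
    fun a => S.ι_mem_W hk ⟨_, hAV a⟩
  refine ⟨ρ, hext, hker, hAW, ?_, ?_, ?_, ?_⟩
  · intro hmem
    rw [hext _ (hAV π₀) hmem]
    exact (tresftc_redF_eq_zero_iff hq hqM hA hπ₀ ιC₀ hRedF _).2 (mgv_hπV hπ₀ ιC₀ hq hqM true)
  · exact (tresft_val_one_comap (algebraMap ↥(modularFunctionFieldFullC ↥K₀ (M₁ * q)) L)
      (mgvV hπ₀ ιC₀ hq hqM true) (S.W k) (S.W_comap hk)).2 (mgv_T_valuation hπ₀ ιC₀ hq hqM true)
  · intro hmem
    rw [hext _ (mgv_T_mem hπ₀ ιC₀ hq hqM true) hmem]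
    exact tresftc_redF_J hq hqM hA hπ₀ ιC₀ hRedF _
  · intro Q a hmem
    rw [hext _ (hAV a) hmem, tresftc_redF_const hq hqM hA hπ₀ ιC₀ hRedF a (hAV a)]
    exact Q.algebraMap_mem' _

end Frame

section FrameCmp

variable {M₁ q : ℕ} [NeZero M₁] [NeZero q] [NeZero (M₁ * q)] (hq : q.Prime) (hqM : ¬ q ∣ M₁)
  {A : ValuationSubring Qb} (hA : A.LiesOverPrime q) {K₀ K₁ : IntermediateField ℚ Qb}
  [IsDiscreteValuationRing ↥(beta0Ring A K₀)] {π₀ : ↥(beta0Ring A K₀)} (hπ₀ : Irreducible π₀)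
  [IsDiscreteValuationRing ↥(beta0Ring A K₁)] {π₁ : ↥(beta0Ring A K₁)} (hπ₁ : Irreducible π₁)
  (ιC₀ : ↥K₀ →+* ℂ) (ιC₁ : ↥K₁ →+* ℂ) (h : K₀ ≤ K₁)

/-- every sheet of the cover over `K₁` lies above a sheet of the cover over `K₀` -/
theorem tresft_sheet_below {L L₂ : Type*} [Field L] [Field L₂]
    [Algebra ↥(modularFunctionFieldFullC ↥K₀ (M₁ * q)) L]
    [Algebra ↥(modularFunctionFieldFullC ↥K₁ (M₁ * q)) L₂] [Algebra L L₂]
    (hsq : ∀ x : ↥(modularFunctionFieldFullC ↥K₀ (M₁ * q)),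
      algebraMap L L₂ (algebraMap ↥(modularFunctionFieldFullC ↥K₀ (M₁ * q)) L x) =
        algebraMap ↥(modularFunctionFieldFullC ↥K₁ (M₁ * q)) L₂ (mgaIncl h (M₁ * q) x))
    {n n₂ : ℕ}
    (S : Tres5Gen ↥(modularFunctionFieldFullC ↥K₀ (M₁ * q)) L (mgvV hπ₀ ιC₀ hq hqM true) n)
    (S₂ : Tres5Gen ↥(modularFunctionFieldFullC ↥K₁ (M₁ * q)) L₂ (mgvV hπ₁ ιC₁ hq hqM true) n₂)
    {k₂ : ℕ} (hk₂ : k₂ < n₂) :
    ∃ k < n, (S₂.W k₂).comap (algebraMap L L₂) = S.W k := by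
  letI algFF : Algebra ↥(modularFunctionFieldFullC ↥K₀ (M₁ * q))
      ↥(modularFunctionFieldFullC ↥K₁ (M₁ * q)) := (mgaIncl h (M₁ * q)).toAlgebra
  letI algFL : Algebra ↥(modularFunctionFieldFullC ↥K₀ (M₁ * q)) L₂ :=
    ((algebraMap ↥(modularFunctionFieldFullC ↥K₁ (M₁ * q)) L₂).comp
      (mgaIncl h (M₁ * q))).toAlgebra
  haveI t1 : IsScalarTower ↥(modularFunctionFieldFullC ↥K₀ (M₁ * q))
      ↥(modularFunctionFieldFullC ↥K₁ (M₁ * q)) L₂ :=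
    IsScalarTower.of_algebraMap_eq (fun x => rfl)
  haveI t2 : IsScalarTower ↥(modularFunctionFieldFullC ↥K₀ (M₁ * q)) L L₂ :=
    IsScalarTower.of_algebraMap_eq (fun x => (hsq x).symm)
  have hV : (mgvV hπ₁ ιC₁ hq hqM true).comap
      (algebraMap ↥(modularFunctionFieldFullC ↥K₀ (M₁ * q))
        ↥(modularFunctionFieldFullC ↥K₁ (M₁ * q))) = mgvV hπ₀ ιC₀ hq hqM true :=
    mgv_comap_incl hπ₀ hπ₁ ιC₀ ιC₁ hq hqM h true
  exact tresft_exists_sheet S S₂ hV hk₂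

end FrameCmp

end Fermat.Agent.R38
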