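/-
ROW 38, TRES, piece FAC-TR (helper90), part 5: (T3), final form.

* `tresft_main` : `tresft_main_of` (`R38/TresFacTrConc.lean`) with the reduction facts (R1), (R3)
  of helper72 (`R38/TresFacTrRed.lean`) plugged in: for abstract covers `L / F_N(K₀)`,
  `L₂ / F_N(K₁)`;
* `tresft_main_conc` : the same on helper78's concrete tower `L_K = tres5cL K₀ N y`,
  `L_E = tres5cL K₁ N y`, `tres5cIncl N y h : L_K →+* L_E` (`R38/TresCoverTower.lean`).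
Output = hypothesis `hcmp` (I6) of helper89's `tresmono_frame`.
-/
import Fermat.Agent.R38.TresFacTrFrame
import Fermat.Agent.R38.TresFacTrRed
import Fermat.Agent.R38.TresCoverTower

set_option autoImplicit false
set_option linter.unusedSectionVars false
set_option linter.unusedVariables false
set_option linter.style.haveILetI false
set_option linter.style.longLine false
set_option synthInstance.maxHeartbeats 400000
set_option maxHeartbeats 1600000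

noncomputable section

namespace Fermat.Agent.R38

open ModularCurve AlgebraicCurve Fermat.Agent.ES Fermat.Agent.ES.G2 Fermat.Agent.INJ
  Fermat.Agent.UNIP Fermat.Agent.STB Fermat.Agent.ES.M Fermat.Agent.DEU Fermat.Agent.S36
  Fermat.Agent.RIB.MP

section Main

variable {M₁ q : ℕ} [NeZero M₁] [NeZero q] [NeZero (M₁ * q)] (hq : q.Prime) (hqM : ¬ q ∣ M₁)
  {A : ValuationSubring Qb} (hA : A.LiesOverPrime q) {K₀ K₁ : IntermediateField ℚ Qb}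
  [IsDiscreteValuationRing ↥(beta0Ring A K₀)] {π₀ : ↥(beta0Ring A K₀)} (hπ₀ : Irreducible π₀)
  [IsDiscreteValuationRing ↥(beta0Ring A K₁)] {π₁ : ↥(beta0Ring A K₁)} (hπ₁ : Irreducible π₁)
  (ιC₀ : ↥K₀ →+* ℂ) (ιC₁ : ↥K₁ →+* ℂ) (h : K₀ ≤ K₁)

include hA in
/-- **(T3)**: `u = b γ ^ p u″` over `K₁`, `R38Red A u r` ⇒ `r ∈ F̄_{M₁}(k)` and
`r = a · ρ_W (u″ / π ^ m) · s ^ p`. -/
theorem tresft_main (hRedF : StmtRedF M₁ A)
    {L L₂ : Type*} [Field L] [Field L₂]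
    [Algebra ↥(modularFunctionFieldFullC ↥K₀ (M₁ * q)) L]
    [Algebra ↥(modularFunctionFieldFullC ↥K₁ (M₁ * q)) L₂] [Algebra L L₂]
    (hsq : ∀ x : ↥(modularFunctionFieldFullC ↥K₀ (M₁ * q)),
      algebraMap L L₂ (algebraMap ↥(modularFunctionFieldFullC ↥K₀ (M₁ * q)) L x) =
        algebraMap ↥(modularFunctionFieldFullC ↥K₁ (M₁ * q)) L₂ (mgaIncl h (M₁ * q) x))
    {n n₂ : ℕ}
    (S : Tres5Gen ↥(modularFunctionFieldFullC ↥K₀ (M₁ * q)) L (mgvV hπ₀ ιC₀ hq hqM true) n)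
    (S₂ : Tres5Gen ↥(modularFunctionFieldFullC ↥K₁ (M₁ * q)) L₂ (mgvV hπ₁ ιC₁ hq hqM true) n₂)
    (hSπ : ∃ c : ↥K₀, S.π = algebraMap ↥K₀ ↥(modularFunctionFieldFullC ↥K₀ (M₁ * q)) c)
    (hS₂π : ∃ c : ↥K₁, S₂.π = algebraMap ↥K₁ ↥(modularFunctionFieldFullC ↥K₁ (M₁ * q)) c)
    {k k₂ : ℕ} (hk : k < n) (hk₂ : k₂ < n₂)
    (hW : (S₂.W k₂).comap (algebraMap L L₂) = S.W k)
    (ρW : ↥(S.W k) →+* ↥(modularFunctionFieldFullC (kA A) M₁))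
    (hρW : ∀ (a : ↥(modularFunctionFieldFullC ↥K₀ (M₁ * q))) (ha : a ∈ mgvV hπ₀ ιC₀ hq hqM true)
      (haW : algebraMap ↥(modularFunctionFieldFullC ↥K₀ (M₁ * q)) L a ∈ S.W k),
      ρW ⟨algebraMap ↥(modularFunctionFieldFullC ↥K₀ (M₁ * q)) L a, haW⟩ =
        ribmpRedF hq hqM hA hπ₀ ιC₀ hRedF ⟨a, ha⟩)
    (hρWker : ∀ x : ↥(S.W k), (x : L) ∈ (S.W k).nonunits → ρW x = 0)
    {p : ℕ} {u : ↥(modularFunctionFieldFullC ↥K₁ (M₁ * q))} {b : ↥K₁} {γ : L₂} {u'' : L}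
    (hu0 : u ≠ 0) (hγ0 : γ ≠ 0)
    (hfac : algebraMap ↥(modularFunctionFieldFullC ↥K₁ (M₁ * q)) L₂ u =
      algebraMap ↥(modularFunctionFieldFullC ↥K₁ (M₁ * q)) L₂
        (algebraMap ↥K₁ ↥(modularFunctionFieldFullC ↥K₁ (M₁ * q)) b) * γ ^ p *
        algebraMap L L₂ u'')
    {r : LaurentSeries (kA A)}
    (hr : R38Red A
      ((nfEmb K₁ (M₁ * q) u : modularFunctionFieldBar (M₁ * q)) : LaurentSeries Qb) r)
    {m : ℤ}
    (hm : (S.W k).valuation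
      (u'' / algebraMap ↥(modularFunctionFieldFullC ↥K₀ (M₁ * q)) L S.π ^ m) = 1) :
    ∃ (hrF : r ∈ modularFunctionFieldFullC (kA A) M₁) (a : kA A)
      (s : ↥(modularFunctionFieldFullC (kA A) M₁)), a ≠ 0 ∧ s ≠ 0 ∧
      ρW ⟨u'' / algebraMap ↥(modularFunctionFieldFullC ↥K₀ (M₁ * q)) L S.π ^ m,
        tresft_mem_of_val _ hm⟩ ≠ 0 ∧
      (⟨r, hrF⟩ : ↥(modularFunctionFieldFullC (kA A) M₁)) =
        algebraMap (kA A) ↥(modularFunctionFieldFullC (kA A) M₁) a *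
          ρW ⟨u'' / algebraMap ↥(modularFunctionFieldFullC ↥K₀ (M₁ * q)) L S.π ^ m,
            tresft_mem_of_val _ hm⟩ * s ^ p :=
  tresft_main_of hq hqM hA hπ₀ hπ₁ ιC₀ ιC₁ h hRedF
    (fun c hc => tresftr_const hq hqM hA hπ₁ ιC₁ hRedF c hc)
    (fun u r hr c₀ hv => tresftr_red_F hq hqM hA hπ₁ ιC₁ hRedF u c₀ hr hv)
    hsq S S₂ hSπ hS₂π hk hk₂ hW ρW hρW hρWker hu0 hγ0 hfac hr hm

include hA in
/-- **(T3) on the concrete tower** `L_K = tres5cL K₀ N y ⊆ L_E = tres5cL K₁ N y`. -/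
theorem tresft_main_conc (hRedF : StmtRedF M₁ A) (y : LaurentSeries Qb)
    {n n₂ : ℕ}
    (S : Tres5Gen ↥(modularFunctionFieldFullC ↥K₀ (M₁ * q)) ↥(tres5cL K₀ (M₁ * q) y)
      (mgvV hπ₀ ιC₀ hq hqM true) n)
    (S₂ : Tres5Gen ↥(modularFunctionFieldFullC ↥K₁ (M₁ * q)) ↥(tres5cL K₁ (M₁ * q) y)
      (mgvV hπ₁ ιC₁ hq hqM true) n₂)
    (hSπ : ∃ c : ↥K₀, S.π = algebraMap ↥K₀ ↥(modularFunctionFieldFullC ↥K₀ (M₁ * q)) c)
    (hS₂π : ∃ c : ↥K₁, S₂.π = algebraMap ↥K₁ ↥(modularFunctionFieldFullC ↥K₁ (M₁ * q)) c)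
    {k k₂ : ℕ} (hk : k < n) (hk₂ : k₂ < n₂)
    (hW : (S₂.W k₂).comap (tres5cIncl (M₁ * q) y h) = S.W k)
    (ρW : ↥(S.W k) →+* ↥(modularFunctionFieldFullC (kA A) M₁))
    (hρW : ∀ (a : ↥(modularFunctionFieldFullC ↥K₀ (M₁ * q))) (ha : a ∈ mgvV hπ₀ ιC₀ hq hqM true)
      (haW : algebraMap ↥(modularFunctionFieldFullC ↥K₀ (M₁ * q)) ↥(tres5cL K₀ (M₁ * q) y) a ∈
        S.W k),
      ρW ⟨algebraMap ↥(modularFunctionFieldFullC ↥K₀ (M₁ * q)) ↥(tres5cL K₀ (M₁ * q) y) a, haW⟩ =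
        ribmpRedF hq hqM hA hπ₀ ιC₀ hRedF ⟨a, ha⟩)
    (hρWker : ∀ x : ↥(S.W k), (x : ↥(tres5cL K₀ (M₁ * q) y)) ∈ (S.W k).nonunits → ρW x = 0)
    {p : ℕ} {u : ↥(modularFunctionFieldFullC ↥K₁ (M₁ * q))} {b : ↥K₁}
    {γ : ↥(tres5cL K₁ (M₁ * q) y)} {u'' : ↥(tres5cL K₀ (M₁ * q) y)}
    (hu0 : u ≠ 0) (hγ0 : γ ≠ 0)
    (hfac : algebraMap ↥(modularFunctionFieldFullC ↥K₁ (M₁ * q)) ↥(tres5cL K₁ (M₁ * q) y) u =
      algebraMap ↥(modularFunctionFieldFullC ↥K₁ (M₁ * q)) ↥(tres5cL K₁ (M₁ * q) y)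
        (algebraMap ↥K₁ ↥(modularFunctionFieldFullC ↥K₁ (M₁ * q)) b) * γ ^ p *
        tres5cIncl (M₁ * q) y h u'')
    {r : LaurentSeries (kA A)}
    (hr : R38Red A
      ((nfEmb K₁ (M₁ * q) u : modularFunctionFieldBar (M₁ * q)) : LaurentSeries Qb) r)
    {m : ℤ}
    (hm : (S.W k).valuation (u'' /
      algebraMap ↥(modularFunctionFieldFullC ↥K₀ (M₁ * q)) ↥(tres5cL K₀ (M₁ * q) y) S.π ^ m) =
        1) :
    ∃ (hrF : r ∈ modularFunctionFieldFullC (kA A) M₁) (a : kA A)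
      (s : ↥(modularFunctionFieldFullC (kA A) M₁)), a ≠ 0 ∧ s ≠ 0 ∧
      ρW ⟨u'' / algebraMap ↥(modularFunctionFieldFullC ↥K₀ (M₁ * q))
        ↥(tres5cL K₀ (M₁ * q) y) S.π ^ m, tresft_mem_of_val _ hm⟩ ≠ 0 ∧
      (⟨r, hrF⟩ : ↥(modularFunctionFieldFullC (kA A) M₁)) =
        algebraMap (kA A) ↥(modularFunctionFieldFullC (kA A) M₁) a *
          ρW ⟨u'' / algebraMap ↥(modularFunctionFieldFullC ↥K₀ (M₁ * q))
            ↥(tres5cL K₀ (M₁ * q) y) S.π ^ m, tresft_mem_of_val _ hm⟩ * s ^ p := by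
  letI algLL : Algebra ↥(tres5cL K₀ (M₁ * q) y) ↥(tres5cL K₁ (M₁ * q) y) :=
    tres5cAlgLL (M₁ * q) y h
  exact tresft_main hq hqM hA hπ₀ hπ₁ ιC₀ ιC₁ h hRedF (fun x => Subtype.ext rfl) S S₂ hSπ hS₂π
    hk hk₂ hW ρW hρW hρWker hu0 hγ0 hfac hr hm

end Main

end Fermat.Agent.R38
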