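import Fermat.Agent.R38.TresCoverForm
import Fermat.Agent.R38.TresCoverRetr
import Fermat.Agent.UNIP.Beta0Abs
import Fermat.Agent.UNIP.MGConcrete

/-!
# R38 TRES, (FAC-p), piece FAC-FIXF (helper29): the fixed-field inputs of the K-FORM descent

Inputs `hfixL`, `hfixF` (and the stability / commutation needed for `hGR`, `hρG`) of helper53's
`tres5kp_descend'` / `Tres5Gen.descend'` for `G = Gal(E / K)` acting COEFFICIENTWISE, `K ≤ E`
intermediate fields of `ℚ̄ / ℚ`, `F_E = modularFunctionFieldFullC E N`, `L_E = tres5cL E N y`.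
Everything is stated at the level of `coeffMap`, so that no instance is needed.

## Abstract (any fields `K → E`)
* `tres5ff_exists_coeff` : a Laurent series over `E` fixed coefficientwise by a family of
  endomorphisms of `E` whose fixed field is `κ K` is `coeffMap κ y`.
* `tres5ff_full_le_closure`, `tres5ff_full_form` : **`F_N(E) ∩ K((q)) = F_N(K)`** for `E / K` algebraic
  (helper78's retraction `tres5c_form_le`; no Galois theory).

## Concrete (`K ≤ E ≤ ℚ̄`)
* `tres5ff_hfixF`, `tres5ff_hfixL` : the two fixed-field statements for `F_N(E)` and `tres5cL E N y`.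
* `tres5ff_lift` : `K = beta0Field A = ℚ̄^I`; every ring automorphism of `E` fixing `K` pointwise is
  the restriction of some `σ ∈ I = A.inertiaSubgroupIn ℚ`.
* `tres5ffRes`, `tres5ff_fixed` : for an `I`-stable `E ⊇ K` the restrictions of `σ ∈ I` to `E`
  have fixed field `K` (`= hK` of `tres5ff_hfixF/L` for `G = Gal(E / K)`).
* `tres5ff_stab` : `F′ = tres5cField N y` stable under `I` (helper30's `tresdesc_stab`) ⇒ `L_E` stable
  under `Gal(E / K)`.
* `tres5ff_comm` : a deck transformation of `F′` commuting with `I` (helper30's `tresdesc_comm`)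
  ⇒ its `E`-form commutes with `Gal(E / K)`.
-/

set_option autoImplicit false
set_option linter.style.haveILetI false
set_option linter.unusedSectionVars false

noncomputable section

open ModularCurve Fermat.Agent.INJ Fermat.Agent.UNIP IntermediateField

namespace Fermat.Agent.R38

section Abs

variable {K E : Type*} [Field K] [Field E]

/-- a Laurent series whose coefficients all come from `K` is `coeffMap κ y` -/
theorem tres5ff_exists_of_coeff (κ : K →+* E) {x : LaurentSeries E}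
    (hc : ∀ n : ℤ, ∃ k : K, κ k = x.coeff n) :
    ∃ y : LaurentSeries K, coeffMap κ y = x := by
  classical
  choose c hc using hc
  have hsupp : (Function.support c).IsPWO := by
    refine x.isPWO_support.mono fun n hn => ?_
    rw [Function.mem_support] at hn
    rw [HahnSeries.mem_support]
    intro h0
    apply hn
    apply κ.injective
    rw [hc n, map_zero]
    exact h0
  refine ⟨⟨c, hsupp⟩, ?_⟩
  ext n
  rw [coeffMap_coeff]
  exact hc n

/-- **coefficientwise fixed ⇒ coefficients in the fixed field.** -/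
theorem tres5ff_exists_coeff (κ : K →+* E) {G : Type*} (act : G → E →+* E)
    (hK : ∀ e : E, (∀ g, act g e = e) → ∃ k : K, κ k = e)
    {x : LaurentSeries E} (hx : ∀ g, coeffMap (act g) x = x) :
    ∃ y : LaurentSeries K, coeffMap κ y = x := by
  refine tres5ff_exists_of_coeff κ fun n => hK _ fun g => ?_
  have := congrArg (fun z : LaurentSeries E => z.coeff n) (hx g)
  simpa only [coeffMap_coeff] using this

variable [Algebra K E]

/-- `F_N(E)` is generated by the image of `F_N(K)` and the constants -/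
theorem tres5ff_full_le_closure (N : ℕ) [NeZero N] {x : LaurentSeries E}
    (hx : x ∈ modularFunctionFieldFullC E N) :
    x ∈ Subfield.closure
      ((coeffMap (algebraMap K E) '' (modularFunctionFieldFullC K N : Set (LaurentSeries K))) ∪
        Set.range (algebraMap E (LaurentSeries E))) := by
  have h1 : x ∈ (modularFunctionFieldFullC E N).toSubfield := hx
  rw [modularFunctionFieldFullC, IntermediateField.adjoin_toSubfield] at h1
  have hle : Subfield.closure
      (Set.range (algebraMap E (LaurentSeries E)) ∪ divisorExpansionsC E N) ≤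
      Subfield.closure
        ((coeffMap (algebraMap K E) '' (modularFunctionFieldFullC K N : Set (LaurentSeries K))) ∪
          Set.range (algebraMap E (LaurentSeries E))) := by
    rw [Subfield.closure_le]
    rintro z (hz | ⟨d, hd, hdN, rfl⟩)
    · exact Subfield.subset_closure (Or.inr hz)
    · refine Subfield.subset_closure (Or.inl ⟨qExpand K d (jqModC K), ?_, ?_⟩)
      · exact jqModCd_mem_full K N hdN
      · have := coeffMap_jqNModC (algebraMap K E) d
        rw [jqNModC, jqNModC] at this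
        exact this
  exact hle h1

/-- **`F_N(E) ∩ K((q)) = F_N(K)`** for an algebraic extension `E / K`. -/
theorem tres5ff_full_form [Algebra.IsAlgebraic K E] (N : ℕ) [NeZero N] {f : LaurentSeries K}
    (hf : coeffMap (algebraMap K E) f ∈ modularFunctionFieldFullC E N) :
    f ∈ modularFunctionFieldFullC K N :=
  tres5c_form_le (modularFunctionFieldFullC K N) (tres5ff_full_le_closure N hf)

end Abs

/-! ### The concrete fields `K ≤ E ≤ ℚ̄` -/

section Concrete

variable {K E : IntermediateField ℚ NfQb} (h : K ≤ E)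

theorem tres5ff_algebraMap_eq :
    letI := beta0FieldAlgebra h
    algebraMap ↥K ↥E = (IntermediateField.inclusion h).toRingHom := rfl

theorem tres5ff_isAlgebraic :
    letI := beta0FieldAlgebra h
    Algebra.IsAlgebraic ↥K ↥E := by
  letI := beta0FieldAlgebra h
  exact ⟨fun x => beta0FieldAlgebra_isAlgebraic h x⟩

/-- **`F_N(E) ∩ K((q)) = F_N(K)`**, concrete form (`hform` of helper64's `tres5ca_fixed_base`). -/
theorem tres5ff_hform (N : ℕ) [NeZero N] (f : LaurentSeries ↥K)
    (hf : coeffMap (IntermediateField.inclusion h).toRingHom f ∈ modularFunctionFieldFullC ↥E N) :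
    f ∈ modularFunctionFieldFullC ↥K N := by
  letI := beta0FieldAlgebra h
  haveI := tres5ff_isAlgebraic h
  exact tres5ff_full_form (K := ↥K) (E := ↥E) N hf

/-- **(hfixF), `coeffMap` form.** -/
theorem tres5ff_hfixF (N : ℕ) [NeZero N] {G : Type*} (act : G → ↥E →+* ↥E)
    (hK : ∀ e : ↥E, (∀ g, act g e = e) → (e : NfQb) ∈ K)
    (x : ↥(modularFunctionFieldFullC ↥E N))
    (hx : ∀ g, coeffMap (act g) (x : LaurentSeries ↥E) = x) :
    ∃ z : ↥(modularFunctionFieldFullC ↥K N),
      coeffMap (IntermediateField.inclusion h).toRingHom (z : LaurentSeries ↥K)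
        = (x : LaurentSeries ↥E) := by
  obtain ⟨z, hz⟩ := tres5ff_exists_coeff (IntermediateField.inclusion h).toRingHom act
    (fun e he => ⟨⟨(e : NfQb), hK e he⟩, Subtype.ext rfl⟩) hx
  exact ⟨⟨z, tres5ff_hform h N z (by rw [hz]; exact x.2)⟩, hz⟩

/-- **(hfixL), `coeffMap` form.** -/
theorem tres5ff_hfixL (N : ℕ) (y : LaurentSeries NfQb) {G : Type*} (act : G → ↥E →+* ↥E)
    (hK : ∀ e : ↥E, (∀ g, act g e = e) → (e : NfQb) ∈ K)
    (x : ↥(tres5cL E N y))
    (hx : ∀ g, coeffMap (act g) (x : LaurentSeries ↥E) = x) :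
    ∃ z : ↥(tres5cL K N y), tres5cIncl N y h z = x := by
  obtain ⟨z, hz⟩ := tres5ff_exists_coeff (IntermediateField.inclusion h).toRingHom act
    (fun e he => ⟨⟨(e : NfQb), hK e he⟩, Subtype.ext rfl⟩) hx
  have hzm : z ∈ tres5cL K N y := by
    rw [mem_tres5cL]
    have h1 : coeffMap (algebraMap ↥K NfQb) z =
        coeffMap (algebraMap ↥E NfQb) (coeffMap (IntermediateField.inclusion h).toRingHom z) := by
      rw [coeffMap_coeffMap]
      rfl
    rw [h1, hz]
    exact x.2
  exact ⟨⟨z, hzm⟩, Subtype.ext hz⟩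

/-- **(hGLK), `coeffMap` form.** -/
theorem tres5ff_hGLK (g : ↥E →+* ↥E)
    (hg : ∀ k : ↥K, g (IntermediateField.inclusion h k) = IntermediateField.inclusion h k)
    (z : LaurentSeries ↥K) :
    coeffMap g (coeffMap (IntermediateField.inclusion h).toRingHom z)
      = coeffMap (IntermediateField.inclusion h).toRingHom z := by
  refine HahnSeries.ext (funext fun n => ?_)
  rw [coeffMap_coeff, coeffMap_coeff]
  exact hg _

/-- the restriction to a stable `E` of an automorphism of `ℚ̄` fixing `K` pointwise, as an element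
of `Gal(E / K)` -/
def tres5ffRes (σ : NfQb ≃ₐ[ℚ] NfQb) (hσE : ∀ x ∈ E, σ x ∈ E) (hσK : ∀ x ∈ K, σ x = x) :
    letI := beta0FieldAlgebra h
    ↥E ≃ₐ[↥K] ↥E :=
  letI := beta0FieldAlgebra h
  AlgEquiv.ofRingEquiv (f := mgaRestrictEquiv E σ hσE) (fun k => Subtype.ext (hσK _ k.2))

theorem tres5ffRes_coe (σ : NfQb ≃ₐ[ℚ] NfQb) (hσE : ∀ x ∈ E, σ x ∈ E) (hσK : ∀ x ∈ K, σ x = x)
    (e : ↥E) : ((tres5ffRes h σ hσE hσK e : ↥E) : NfQb) = σ (e : NfQb) := rfl

end Concrete

/-! ### `K = ℚ̄^I`: lifting `Gal(E / K)` to the inertia group -/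

section Inertia

variable {A : ValuationSubring NfQb} {q : ℕ} {E : IntermediateField ℚ NfQb}

/-- **Every automorphism of `E` fixing `K = ℚ̄^I` pointwise is the restriction of some `σ ∈ I`.** -/
theorem tres5ff_lift (hq : q.Prime) (hA : A.LiesOverPrime q) (h : beta0Field A ≤ E)
    (g : ↥E ≃+* ↥E)
    (hg : ∀ k : ↥(beta0Field A),
      g (IntermediateField.inclusion h k) = IntermediateField.inclusion h k) :
    ∃ σ : NfQb ≃ₐ[ℚ] NfQb, σ ∈ A.inertiaSubgroupIn ℚ ∧
      ∀ e : ↥E, σ (e : NfQb) = ((g e : ↥E) : NfQb) := by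
  haveI := Fermat.Agent.Common.isAlgClosure_rat_qbar
  let χ : ↥E ≃ₐ[ℚ] ↥E := AlgEquiv.ofRingEquiv (f := g) (fun r => by
    rw [eq_ratCast, map_ratCast])
  refine ⟨χ.liftNormal NfQb, ?_, fun e => ?_⟩
  · refine beta0_mem_inertia_of_fixes hq hA _ fun x hx => ?_
    have h1 := AlgEquiv.liftNormal_commutes χ NfQb (IntermediateField.inclusion h ⟨x, hx⟩)
    have h2 : χ (IntermediateField.inclusion h ⟨x, hx⟩) = IntermediateField.inclusion h ⟨x, hx⟩ :=
      hg ⟨x, hx⟩
    rw [h2] at h1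
    exact h1
  · exact AlgEquiv.liftNormal_commutes χ NfQb e

/-- **The fixed field of `Gal(E / K)` is `K = ℚ̄^I`** for an `I`-stable `E ⊇ K`
(no finiteness needed). -/
theorem tres5ff_fixed (h : beta0Field A ≤ E)
    (hE : ∀ σ ∈ A.inertiaSubgroupIn ℚ, ∀ x ∈ E, σ x ∈ E) (e : ↥E)
    (he : letI := beta0FieldAlgebra h
      ∀ g : ↥E ≃ₐ[↥(beta0Field A)] ↥E, g e = e) :
    (e : NfQb) ∈ beta0Field A := by
  rw [mem_beta0Field]
  intro σ hσ
  have := he (tres5ffRes h σ (hE σ hσ) (fun x hx => mem_beta0Field.mp hx σ hσ))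
  exact congrArg Subtype.val this

/-- **Stability**: if `F′ = tres5cField N y` is stable under `I` (coefficientwise), then `L_E` is
stable under every automorphism of `E` fixing `K` pointwise. -/
theorem tres5ff_stab (hq : q.Prime) (hA : A.LiesOverPrime q) (h : beta0Field A ≤ E)
    (N : ℕ) (y : LaurentSeries NfQb)
    (hstabI : ∀ σ ∈ A.inertiaSubgroupIn ℚ, ∀ x ∈ tres5cField N y,
      coeffMap ((σ : NfQb ≃ₐ[ℚ] NfQb) : NfQb →+* NfQb) x ∈ tres5cField N y)
    (g : ↥E ≃+* ↥E)
    (hg : ∀ k : ↥(beta0Field A),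
      g (IntermediateField.inclusion h k) = IntermediateField.inclusion h k)
    (f : LaurentSeries ↥E) (hf : coeffMap (algebraMap ↥E NfQb) f ∈ tres5cField N y) :
    coeffMap (algebraMap ↥E NfQb) (coeffMap (g : ↥E →+* ↥E) f) ∈ tres5cField N y := by
  obtain ⟨σ, hσ, hσg⟩ := tres5ff_lift hq hA h g hg
  have h1 : coeffMap (algebraMap ↥E NfQb) (coeffMap (g : ↥E →+* ↥E) f) =
      coeffMap ((σ : NfQb ≃ₐ[ℚ] NfQb) : NfQb →+* NfQb) (coeffMap (algebraMap ↥E NfQb) f) := by
    ext n
    rw [coeffMap_coeff, coeffMap_coeff, coeffMap_coeff, coeffMap_coeff]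
    exact (hσg _).symm
  rw [h1]
  exact hstabI σ hσ _ hf

/-- **Stability, in the shape `hstab` of helper64's `tres5caAct`.** -/
theorem tres5ff_hstab (hq : q.Prime) (hA : A.LiesOverPrime q) (h : beta0Field A ≤ E)
    (N : ℕ) (y : LaurentSeries NfQb)
    (hstabI : ∀ σ ∈ A.inertiaSubgroupIn ℚ, ∀ x ∈ tres5cField N y,
      coeffMap ((σ : NfQb ≃ₐ[ℚ] NfQb) : NfQb →+* NfQb) x ∈ tres5cField N y) :
    letI := beta0FieldAlgebra h
    ∀ (g : ↥E ≃ₐ[↥(beta0Field A)] ↥E) (f : LaurentSeries ↥E),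
      coeffMap (algebraMap ↥E NfQb) f ∈ (tres5cField N y).toSubfield →
      coeffMap (algebraMap ↥E NfQb)
        (coeffMap ((g : ↥E ≃ₐ[↥(beta0Field A)] ↥E) : ↥E →+* ↥E) f) ∈
          (tres5cField N y).toSubfield := by
  letI := beta0FieldAlgebra h
  intro g f hf
  exact tres5ff_stab hq hA h N y hstabI (g : ↥E ≃+* ↥E) (fun k => g.commutes k) f hf

/-- **Commutation**: a ring homomorphism `t` on `F′` commuting with `I` (helper30's
`tresdesc_comm`), read on the `E`-forms: if `ρx`, `ρx'` are the `E`-forms of `t x`, `t x'` and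
`x' = g x`, then `ρx' = g ρx`. -/
theorem tres5ff_comm (hq : q.Prime) (hA : A.LiesOverPrime q) (h : beta0Field A ≤ E)
    (N : ℕ) (y : LaurentSeries NfQb)
    (t : ↥(tres5cField N y) →+* LaurentSeries NfQb)
    (hcomm : ∀ σ ∈ A.inertiaSubgroupIn ℚ, ∀ (x : ↥(tres5cField N y))
      (hx : coeffMap ((σ : NfQb ≃ₐ[ℚ] NfQb) : NfQb →+* NfQb) (x : LaurentSeries NfQb) ∈
        tres5cField N y),
      t ⟨_, hx⟩ = coeffMap ((σ : NfQb ≃ₐ[ℚ] NfQb) : NfQb →+* NfQb) (t x))
    (g : ↥E ≃+* ↥E)
    (hg : ∀ k : ↥(beta0Field A),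
      g (IntermediateField.inclusion h k) = IntermediateField.inclusion h k)
    (x x' : ↥(tres5cL E N y))
    (hx' : (x' : LaurentSeries ↥E) = coeffMap (g : ↥E →+* ↥E) (x : LaurentSeries ↥E))
    (ρx ρx' : LaurentSeries ↥E)
    (hρx : coeffMap (algebraMap ↥E NfQb) ρx = t (tres5cEmb E N y x))
    (hρx' : coeffMap (algebraMap ↥E NfQb) ρx' = t (tres5cEmb E N y x')) :
    ρx' = coeffMap (g : ↥E →+* ↥E) ρx := by
  obtain ⟨σ, hσ, hσg⟩ := tres5ff_lift hq hA h g hg
  have hsw : ∀ f : LaurentSeries ↥E,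
      coeffMap (algebraMap ↥E NfQb) (coeffMap (g : ↥E →+* ↥E) f) =
        coeffMap ((σ : NfQb ≃ₐ[ℚ] NfQb) : NfQb →+* NfQb) (coeffMap (algebraMap ↥E NfQb) f) := by
    intro f
    ext n
    rw [coeffMap_coeff, coeffMap_coeff, coeffMap_coeff, coeffMap_coeff]
    exact (hσg _).symm
  have hinj : Function.Injective (coeffMap (algebraMap ↥E NfQb)) :=
    (coeffMap (algebraMap ↥E NfQb)).injective
  apply hinj
  rw [hρx', hsw, hρx]
  have hmem : coeffMap ((σ : NfQb ≃ₐ[ℚ] NfQb) : NfQb →+* NfQb)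
      ((tres5cEmb E N y x : ↥(tres5cField N y)) : LaurentSeries NfQb) ∈ tres5cField N y := by
    rw [tres5cEmb_coe, ← hsw, ← hx']
    exact x'.2
  rw [← hcomm σ hσ (tres5cEmb E N y x) hmem]
  congr 1
  apply Subtype.ext
  rw [tres5cEmb_coe, hx', hsw]
  rfl

/-- `tres5ff_lift` for `g ∈ Gal(E / K)`. -/
theorem tres5ff_lift' (hq : q.Prime) (hA : A.LiesOverPrime q) (h : beta0Field A ≤ E) :
    letI := beta0FieldAlgebra h
    ∀ g : ↥E ≃ₐ[↥(beta0Field A)] ↥E,
      ∃ σ : NfQb ≃ₐ[ℚ] NfQb, σ ∈ A.inertiaSubgroupIn ℚ ∧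
        ∀ e : ↥E, σ (e : NfQb) = ((g e : ↥E) : NfQb) := by
  letI := beta0FieldAlgebra h
  intro g
  exact tres5ff_lift hq hA h (g : ↥E ≃+* ↥E) (fun k => g.commutes k)

/-- **(hform)** in the shape of helper64's `tres5ca_fixed_base`. -/
theorem tres5ff_hform' {K : IntermediateField ℚ NfQb} (h : K ≤ E) (N : ℕ) [NeZero N] :
    letI := beta0FieldAlgebra h
    ∀ f : LaurentSeries ↥K,
      coeffMap (algebraMap ↥K ↥E) f ∈ modularFunctionFieldFullC ↥E N →
        f ∈ modularFunctionFieldFullC ↥K N := by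
  letI := beta0FieldAlgebra h
  intro f hf
  exact tres5ff_hform h N f hf

/-- **`E / K` is Galois** (`K = ℚ̄^I`, `E ⊇ K` finite over `K` and `I`-stable). -/
theorem tres5ff_isGalois (h : beta0Field A ≤ E)
    (hE : ∀ σ ∈ A.inertiaSubgroupIn ℚ, ∀ x ∈ E, σ x ∈ E)
    (hfin : letI := beta0FieldAlgebra h
      FiniteDimensional ↥(beta0Field A) ↥E) :
    letI := beta0FieldAlgebra h
    IsGalois ↥(beta0Field A) ↥E := by
  letI := beta0FieldAlgebra h
  haveI := hfin
  refine IsGalois.of_fixedField_eq_bot _ _ ?_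
  rw [eq_bot_iff]
  intro e he
  rw [IntermediateField.mem_bot]
  have hK : (e : NfQb) ∈ beta0Field A := by
    refine tres5ff_fixed h hE e fun g => ?_
    exact he ⟨g, Subgroup.mem_top g⟩
  exact ⟨⟨(e : NfQb), hK⟩, Subtype.ext rfl⟩

end Inertia

/-! ### The big field `E′ = mgcE A K₁ = ℚ̄^I · K₁` -/

section Big

variable {A : ValuationSubring NfQb} {q : ℕ}
  (K₁ : IntermediateField ℚ NfQb) [NumberField K₁] [IsGalois ℚ K₁]

theorem tres5ff_mgcE_stable : ∀ σ ∈ A.inertiaSubgroupIn ℚ, ∀ x ∈ mgcE A K₁, σ x ∈ mgcE A K₁ :=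
  fun _ hσ => mga_stable_beta0_sup hσ K₁

/-- `E′ / K` is finite. -/
theorem tres5ff_mgcE_finite (hq : q.Prime) (hA : A.LiesOverPrime q) :
    letI := beta0FieldAlgebra (le_sup_left : beta0Field A ≤ mgcE A K₁)
    FiniteDimensional ↥(beta0Field A) ↥(mgcE A K₁) := by
  letI := beta0InstAlgebra A K₁
  letI := beta0InstFieldAlgebra A K₁
  obtain ⟨π', -, -, -, -, -, -, -, -, htop, halg⟩ := beta0Inst_main (A := A) K₁ hq hA
  have hint : IsIntegral ↥(beta0Field A) (π' : ↥(beta0Field A ⊔ K₁)) := halg.isIntegral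
  have hfin : Module.Finite ↥(beta0Field A)
      ↥(Algebra.adjoin ↥(beta0Field A) ({(π' : ↥(beta0Field A ⊔ K₁))} :
        Set ↥(beta0Field A ⊔ K₁))) :=
    Algebra.finite_adjoin_simple_of_isIntegral hint
  rw [htop] at hfin
  exact Module.Finite.equiv (Subalgebra.topEquiv (R := ↥(beta0Field A))
    (A := ↥(beta0Field A ⊔ K₁))).toLinearEquiv

/-- `E′ / K` is Galois. -/
theorem tres5ff_mgcE_isGalois (hq : q.Prime) (hA : A.LiesOverPrime q) :
    letI := beta0FieldAlgebra (le_sup_left : beta0Field A ≤ mgcE A K₁)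
    IsGalois ↥(beta0Field A) ↥(mgcE A K₁) :=
  tres5ff_isGalois (le_sup_left : beta0Field A ≤ mgcE A K₁) (tres5ff_mgcE_stable K₁)
    (tres5ff_mgcE_finite K₁ hq hA)

end Big

end Fermat.Agent.R38
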