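import Fermat.Agent.R38.TresFixFInst
import Fermat.Agent.S05.Inertia

/-!
# R38 TRES, (FAC-p), piece FAC-FIXF (helper29), part 3: more inputs of the K-FORM instance

Setting of `R38/TresFixFInst.lean` (`G = Gal(E / K)`, `K = ℚ̄^I`, acting on `L_E = tres5cL E N y`).
Further hypotheses of helper48's `tres5ki_point` (`R38/TresKFormInst.lean`):

* `tres5ff_gal_mem_A`  : `g ∈ G` preserves `A ∩ E`;
* `tres5ff_inst_hGA`   : `hGA` (the constants `A_E = beta0Ring A E` are preserved);
* `tres5ff_inst_hGt`   : `hGt` (the elements of `F_N(K)` are fixed);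
* `tres5ff_hGn`        : `hG𝔫`, abstract: a maximal ideal `𝔫` of a `G`-stable ring `B` which is the
  centre of a `G`-stable valuation ring is `G`-stable.
-/

set_option autoImplicit false
set_option linter.style.haveILetI false
set_option linter.unusedSectionVars false

noncomputable section

open ModularCurve Fermat.Agent.INJ Fermat.Agent.UNIP IntermediateField

namespace Fermat.Agent.R38

section Abs

variable {B L : Type*} [CommRing B] [Field L] {G : Type*} [Group G] [MulSemiringAction G L]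

/-- **(hG𝔫), abstract.**  `W` a `G`-stable valuation ring of `L`, `φ : B → L` with image in `W`,
`𝔫` a maximal ideal of `B` whose elements are non-units of `W`: if `g • φ b = φ b'` and `b ∈ 𝔫`
then `b' ∈ 𝔫`. -/
theorem tres5ff_hGn (φ : B →+* L) (𝔫 : Ideal B) [h𝔫 : 𝔫.IsMaximal] (W : ValuationSubring L)
    (hBW : ∀ b : B, φ b ∈ W) (hWmax : ∀ b ∈ 𝔫, φ b ∈ W.nonunits)
    (hGW : ∀ (g : G), ∀ x ∈ W, g • x ∈ W)
    (g : G) (b b' : B) (hb' : g • φ b = φ b') (hb : b ∈ 𝔫) : b' ∈ 𝔫 := by
  -- the centre of `W` on `B`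
  let 𝔠 : Ideal B :=
    { carrier := {x | φ x ∈ W.nonunits}
      add_mem' := fun {x y} hx hy => by
        have hx' : φ x ∈ W.nonunits := hx
        have hy' : φ y ∈ W.nonunits := hy
        show φ (x + y) ∈ W.nonunits
        rw [map_add]
        rw [ValuationSubring.mem_nonunits_iff] at hx' hy' ⊢
        exact lt_of_le_of_lt (W.valuation.map_add _ _) (max_lt hx' hy')
      zero_mem' := by
        show φ 0 ∈ W.nonunits
        rw [map_zero, ValuationSubring.mem_nonunits_iff, map_zero]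
        exact zero_lt_one
      smul_mem' := fun c x hx => by
        have hx' : φ x ∈ W.nonunits := hx
        show φ (c • x) ∈ W.nonunits
        rw [smul_eq_mul, map_mul]
        rw [ValuationSubring.mem_nonunits_iff] at hx' ⊢
        rw [map_mul]
        have hc : W.valuation (φ c) ≤ 1 := (W.valuation_le_one_iff _).2 (hBW c)
        calc W.valuation (φ c) * W.valuation (φ x) ≤ 1 * W.valuation (φ x) :=
              mul_le_mul' hc le_rfl
          _ = W.valuation (φ x) := one_mul _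
          _ < 1 := hx' }
  have hle : 𝔫 ≤ 𝔠 := fun x hx => hWmax x hx
  have hne : 𝔠 ≠ ⊤ := by
    intro h
    have h1 : (1 : B) ∈ 𝔠 := by rw [h]; trivial
    have h2 : φ 1 ∈ W.nonunits := h1
    rw [map_one, ValuationSubring.mem_nonunits_iff, map_one] at h2
    exact lt_irrefl _ h2
  have heq : 𝔫 = 𝔠 := h𝔫.eq_of_le hne hle
  rw [heq]
  show φ b' ∈ W.nonunits
  rw [← hb']
  -- `g` preserves the non-units
  have hx : φ b ∈ W.nonunits := hWmax b hb
  by_contra h
  rw [ValuationSubring.mem_nonunits_iff, not_lt] at h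
  have hinv : (g • φ b)⁻¹ ∈ W := by
    rw [← W.valuation_le_one_iff, map_inv₀]
    exact inv_le_one_of_one_le₀ h
  have h2 : g⁻¹ • (g • φ b)⁻¹ ∈ W := hGW _ _ hinv
  rw [smul_inv'', inv_smul_smul] at h2
  have h3 : W.valuation (φ b)⁻¹ ≤ 1 := (W.valuation_le_one_iff _).mpr h2
  rw [ValuationSubring.mem_nonunits_iff] at hx
  rcases eq_or_ne (φ b) 0 with h0 | hx0
  · rw [h0, smul_zero, map_zero] at h
    exact absurd h (not_le.mpr zero_lt_one)
  · have h4 : W.valuation (φ b) * W.valuation (φ b)⁻¹ = 1 := by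
      rw [← map_mul, mul_inv_cancel₀ hx0, map_one]
    have h5 : W.valuation (φ b) * W.valuation (φ b)⁻¹ < 1 := by
      calc W.valuation (φ b) * W.valuation (φ b)⁻¹ ≤ W.valuation (φ b) * 1 :=
            mul_le_mul' le_rfl h3
        _ < 1 := by rw [mul_one]; exact hx
    rw [h4] at h5
    exact lt_irrefl _ h5

end Abs

section Inst

variable {A : ValuationSubring NfQb} {q : ℕ} {E : IntermediateField ℚ NfQb}
  (hq : q.Prime) (hA : A.LiesOverPrime q) (h : beta0Field A ≤ E)

include hq hA in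
/-- every automorphism of `E` fixing `K = ℚ̄^I` pointwise preserves `A ∩ E` -/
theorem tres5ff_gal_mem_A (g : ↥E ≃+* ↥E)
    (hg : ∀ k : ↥(beta0Field A),
      g (IntermediateField.inclusion h k) = IntermediateField.inclusion h k)
    {a : ↥E} (ha : (a : NfQb) ∈ A) : ((g a : ↥E) : NfQb) ∈ A := by
  obtain ⟨σ, hσ, hσg⟩ := tres5ff_lift hq hA h g hg
  rw [← hσg]
  have h1 : σ (a : NfQb) - a ∈ A.nonunits :=
    Fermat.Agent.S05.inertia_apply_sub_mem_nonunits hσ ha
  have h2 : σ (a : NfQb) - a ∈ A := A.nonunits_le h1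
  have h3 := A.add_mem _ _ h2 ha
  rwa [sub_add_cancel] at h3

variable (N : ℕ) (y : LaurentSeries NfQb)
  (hstabI : ∀ σ ∈ A.inertiaSubgroupIn ℚ, ∀ x ∈ tres5cField N y,
    coeffMap ((σ : NfQb ≃ₐ[ℚ] NfQb) : NfQb →+* NfQb) x ∈ tres5cField N y)

/-- **(hGt)**: `G` fixes the image of `F_N(K)` in `L_E`. -/
theorem tres5ff_inst_hGt :
    letI := beta0FieldAlgebra h
    letI := tres5ffAct hq hA h N y hstabI
    ∀ (g : ↥E ≃ₐ[↥(beta0Field A)] ↥E) (t : ↥(modularFunctionFieldFullC ↥(beta0Field A) N)),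
      g • algebraMap ↥(modularFunctionFieldFullC ↥E N) ↥(tres5cL E N y) (tres5cBaseIncl N h t)
        = algebraMap ↥(modularFunctionFieldFullC ↥E N) ↥(tres5cL E N y)
            (tres5cBaseIncl N h t) := by
  letI := beta0FieldAlgebra h
  letI := tres5ffAct hq hA h N y hstabI
  intro g t
  apply Subtype.ext
  rw [tres5ffAct_coe hq hA h N y hstabI g, tres5ff_L_algebraMap_coe, tres5cBaseIncl_coe]
  exact tres5ff_hGLK h (g : ↥E →+* ↥E) (fun k => g.commutes k) _

/-- **(hGA)**: `G` preserves the constants `A_E = A ∩ E`. -/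
theorem tres5ff_inst_hGA :
    letI := beta0FieldAlgebra h
    letI := tres5ffAct hq hA h N y hstabI
    ∀ (g : ↥E ≃ₐ[↥(beta0Field A)] ↥E) (a : ↥(beta0Ring A E)),
      ∃ a' : ↥(beta0Ring A E),
        g • algebraMap ↥(modularFunctionFieldFullC ↥E N) ↥(tres5cL E N y)
            (algebraMap ↥(beta0Ring A E) ↥(modularFunctionFieldFullC ↥E N) a)
          = algebraMap ↥(modularFunctionFieldFullC ↥E N) ↥(tres5cL E N y)
            (algebraMap ↥(beta0Ring A E) ↥(modularFunctionFieldFullC ↥E N) a') ∧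
        (a' : ↥E) = g (a : ↥E) := by
  letI := beta0FieldAlgebra h
  letI := tres5ffAct hq hA h N y hstabI
  intro g a
  have hmem : ((g (a : ↥E) : ↥E) : NfQb) ∈ A :=
    tres5ff_gal_mem_A hq hA h (g : ↥E ≃+* ↥E) (fun k => g.commutes k) a.2
  refine ⟨⟨g (a : ↥E), hmem⟩, Subtype.ext ?_, rfl⟩
  rw [tres5ffAct_coe hq hA h N y hstabI g, tres5ff_L_algebraMap_coe, tres5ff_L_algebraMap_coe]
  show coeffMap ((g : ↥E ≃ₐ[↥(beta0Field A)] ↥E) : ↥E →+* ↥E)
      (algebraMap ↥E (LaurentSeries ↥E) (a : ↥E)) = algebraMap ↥E (LaurentSeries ↥E) (g (a : ↥E))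
  exact coeffMap_algebraMap _ _

end Inst

end Fermat.Agent.R38
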