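/-
ROW 38, TRES, piece FAC-GRED part 2, (P1) (helper16): THE CUSP `∞̄` AND `atLoc 𝔫_∞ ⊆ A[[q]]`.

Abstract frame: `A₀` a DVR, `E = Frac A₀`, `ι = algebraMap A₀ E`, `F` a field over `E` with a ring
homomorphism `e : F →+* E((q))` (the `q`-expansion), `e c = C c` on constants, `u ∈ F` with
`e u ∈ A₀[[q]]` (`u = 1/j`), `B = zchClosure {u}` the integral closure of `A₀[u]` in `F`.

* `tres5gcHom`, `tres5gcEquiv`, `tres5gcConst` : `A[[q]] ≃ tres5gPS ι`, and the constant
  coefficient `tres5gPS ι →+* A` (`tres5gcConst_spec`, `tres5gcConst_C`, `tres5gc_isUnit_of_const`).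
* `tres5gc_adjoin_mem` : `e (A₀[u]) ⊆ A₀[[q]]`.
* `tres5gc_chart_mem`  : `e B ⊆ A₀[[q]]`, from the normality `hnorm` of `A₀[[q]]` (helper24's
  `tres5gh_normal`) and `hfrac` (`UNIP.vt_frac_fullC`).
* `tres5gcRes`, `tres5gcPt` : the residue map `B → A₀[[q]] → A₀ → k` and THE CUSP
  `𝔫_∞ = ker : AtPt π u`; `tres5gc_mem_pt_iff` (`b ∈ 𝔫_∞ ↔` the constant coefficient of `e b` is in
  `ι 𝔪`), `tres5gc_gen_mem` (`u ∈ 𝔫_∞` if `e u` has no constant term), `tres5gc_pi_mem`.
* `tres5gc_atLoc_mem`  : **`e (atLoc 𝔫_∞) ⊆ A₀[[q]]`**.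
* `tres5gc_cusp`       : (P1) in existential form.
-/
import Fermat.Agent.R38.TresGRedPS
import Fermat.Agent.UNIP.AbstractT

set_option autoImplicit false
set_option linter.unusedSectionVars false
set_option linter.unusedVariables false
set_option linter.style.haveILetI false
set_option linter.style.longLine false

noncomputable section

namespace Fermat.Agent.R38

open Fermat.Agent.UNIP Fermat.Agent.INJ ModularCurve

section PSHom

variable {A E : Type*} [CommRing A] [Field E] (ι : A →+* E)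

/-- the ring homomorphism `A[[q]] → E((q))` whose range is `tres5gPS ι` -/
def tres5gcHom : PowerSeries A →+* LaurentSeries E :=
  (HahnSeries.ofPowerSeries ℤ E).comp (PowerSeries.map ι)

theorem tres5gcHom_apply (T : PowerSeries A) :
    tres5gcHom ι T = HahnSeries.ofPowerSeries ℤ E (T.map ι) := rfl

theorem tres5gcHom_mem (T : PowerSeries A) : tres5gcHom ι T ∈ tres5gPS ι := ⟨T, rfl⟩

variable {ι}

theorem tres5gcHom_injective (hι : Function.Injective ι) : Function.Injective (tres5gcHom ι) :=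
  (HahnSeries.ofPowerSeries_injective (Γ := ℤ) (R := E)).comp (PowerSeries.map_injective ι hι)

/-- `A[[q]] → tres5gPS ι` -/
def tres5gcToPS (ι : A →+* E) : PowerSeries A →+* ↥(tres5gPS ι) :=
  (tres5gcHom ι).codRestrict (tres5gPS ι) (tres5gcHom_mem ι)

theorem tres5gcToPS_coe (T : PowerSeries A) :
    ((tres5gcToPS ι T : ↥(tres5gPS ι)) : LaurentSeries E) =
      HahnSeries.ofPowerSeries ℤ E (T.map ι) := rfl

theorem tres5gcToPS_bijective (hι : Function.Injective ι) :
    Function.Bijective (tres5gcToPS ι) := by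
  constructor
  · intro S T h
    apply tres5gcHom_injective hι
    exact congrArg Subtype.val h
  · rintro ⟨x, T, rfl⟩
    exact ⟨T, rfl⟩

/-- **`A[[q]] ≃ tres5gPS ι`** -/
def tres5gcEquiv (hι : Function.Injective ι) : PowerSeries A ≃+* ↥(tres5gPS ι) :=
  RingEquiv.ofBijective (tres5gcToPS ι) (tres5gcToPS_bijective hι)

theorem tres5gcEquiv_apply (hι : Function.Injective ι) (T : PowerSeries A) :
    tres5gcEquiv hι T = tres5gcToPS ι T := rfl

/-- the power series of an element of `tres5gPS ι` -/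
def tres5gcSeries (hι : Function.Injective ι) : ↥(tres5gPS ι) →+* PowerSeries A :=
  (tres5gcEquiv hι).symm.toRingHom

theorem tres5gcSeries_spec (hι : Function.Injective ι) (x : ↥(tres5gPS ι)) :
    HahnSeries.ofPowerSeries ℤ E ((tres5gcSeries hι x).map ι) = (x : LaurentSeries E) := by
  have h : tres5gcEquiv hι (tres5gcSeries hι x) = x := (tres5gcEquiv hι).apply_symm_apply x
  have h' := congrArg Subtype.val h
  exact h'

theorem tres5gcSeries_toPS (hι : Function.Injective ι) (T : PowerSeries A) :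
    tres5gcSeries hι (tres5gcToPS ι T) = T :=
  (tres5gcEquiv hι).symm_apply_apply T

/-- **the constant coefficient** `tres5gPS ι →+* A` -/
def tres5gcConst (hι : Function.Injective ι) : ↥(tres5gPS ι) →+* A :=
  PowerSeries.constantCoeff.comp (tres5gcSeries hι)

theorem tres5gcConst_spec (hι : Function.Injective ι) (x : ↥(tres5gPS ι)) :
    ι (tres5gcConst hι x) = (x : LaurentSeries E).coeff 0 := by
  have h := tres5gcSeries_spec hι x
  rw [← h]
  have h2 := HahnSeries.ofPowerSeries_apply_coeff (Γ := ℤ) ((tres5gcSeries hι x).map ι) 0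
  rw [Nat.cast_zero] at h2
  rw [h2, PowerSeries.coeff_map, PowerSeries.coeff_zero_eq_constantCoeff]
  rfl

theorem tres5gcConst_C (hι : Function.Injective ι) (a : A) :
    tres5gcConst hι ⟨HahnSeries.C (ι a), tres5g_C_mem a⟩ = a := by
  apply hι
  rw [tres5gcConst_spec]
  simp

/-- an element of `A[[q]]` with invertible constant coefficient is a unit of `A[[q]]` -/
theorem tres5gc_isUnit_of_const (hι : Function.Injective ι) (x : ↥(tres5gPS ι))
    (h : IsUnit (tres5gcConst hι x)) : IsUnit x := by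
  have h1 : IsUnit (tres5gcSeries hι x) := PowerSeries.isUnit_iff_constantCoeff.2 h
  have h2 := h1.map (tres5gcEquiv hι)
  rwa [show tres5gcEquiv hι (tres5gcSeries hι x) = x from
    (tres5gcEquiv hι).apply_symm_apply x] at h2

/-- `s x = b` with `b, s ∈ A[[q]]`, the constant coefficient of `s` invertible ⇒ `x ∈ A[[q]]` -/
theorem tres5gc_mem_of_mul_eq (hι : Function.Injective ι) {s b x : LaurentSeries E}
    (hs : s ∈ tres5gPS ι) (hb : b ∈ tres5gPS ι) (hu : IsUnit (tres5gcConst hι ⟨s, hs⟩))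
    (h : s * x = b) : x ∈ tres5gPS ι := by
  obtain ⟨v, hv⟩ := tres5gc_isUnit_of_const hι ⟨s, hs⟩ hu
  have h1 : ((v⁻¹ : (↥(tres5gPS ι))ˣ) : ↥(tres5gPS ι)) * ⟨s, hs⟩ = 1 := by
    rw [← hv]; exact v.inv_mul
  have h2 : (((v⁻¹ : (↥(tres5gPS ι))ˣ) : ↥(tres5gPS ι)) : LaurentSeries E) * s = 1 := by
    have := congrArg Subtype.val h1
    exact this
  have h3 : x = (((v⁻¹ : (↥(tres5gPS ι))ˣ) : ↥(tres5gPS ι)) : LaurentSeries E) * b := by
    rw [← h, ← mul_assoc, h2, one_mul]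
  rw [h3]
  exact (tres5gPS ι).mul_mem (Subtype.mem _) hb

end PSHom

section Chart

variable {A₀ E F : Type*} [CommRing A₀] [IsDomain A₀] [IsDiscreteValuationRing A₀]
  [Field E] [Algebra A₀ E] [IsFractionRing A₀ E] [CharZero E]
  [Field F] [Algebra E F] [Algebra A₀ F] [IsScalarTower A₀ E F]
  (e : F →+* LaurentSeries E)

/-- `e` on the constants of `A₀` -/
theorem tres5gc_e_algebraMap (he : ∀ c : E, e (algebraMap E F c) = HahnSeries.C c) (a : A₀) :
    e (algebraMap A₀ F a) = HahnSeries.C (algebraMap A₀ E a) := by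
  rw [IsScalarTower.algebraMap_apply A₀ E F, he]

/-- **`e (A₀[u]) ⊆ A₀[[q]]`** -/
theorem tres5gc_adjoin_mem (he : ∀ c : E, e (algebraMap E F c) = HahnSeries.C c) {u : F}
    (hu : e u ∈ tres5gPS (algebraMap A₀ E)) :
    ∀ x ∈ Algebra.adjoin A₀ ({u} : Set F), e x ∈ tres5gPS (algebraMap A₀ E) := by
  intro x hx
  induction hx using Algebra.adjoin_induction with
  | mem y hy =>
    rw [Set.mem_singleton_iff] at hy
    rw [hy]; exact hu
  | algebraMap a =>
    rw [tres5gc_e_algebraMap e he]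
    exact tres5g_C_mem a
  | add y z _ _ hy hz =>
    rw [map_add]; exact (tres5gPS _).add_mem hy hz
  | mul y z _ _ hy hz =>
    rw [map_mul]; exact (tres5gPS _).mul_mem hy hz

/-- **`e B ⊆ A₀[[q]]`**: the chart `B = zchClosure {u}` has integral `q`-expansions, by the
normality of `A₀[[q]]`. -/
theorem tres5gc_chart_mem
    (hnorm : ∀ x : LaurentSeries E, IsIntegral ↥(tres5gPS (algebraMap A₀ E)) x →
      VtFrac (algebraMap A₀ E) x → x ∈ tres5gPS (algebraMap A₀ E))
    (hfrac : ∀ x : F, VtFrac (algebraMap A₀ E) (e x))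
    (he : ∀ c : E, e (algebraMap E F c) = HahnSeries.C c) {u : F}
    (hu : e u ∈ tres5gPS (algebraMap A₀ E)) :
    ∀ b ∈ zchClosure (A₀ := A₀) ({u} : Set F), e b ∈ tres5gPS (algebraMap A₀ E) := by
  intro b hb
  refine hnorm _ ?_ (hfrac b)
  have hb' : IsIntegral ↥(Algebra.adjoin A₀ ({u} : Set F)) b := mem_zchClosure.mp hb
  let φ : ↥(Algebra.adjoin A₀ ({u} : Set F)) →+* ↥(tres5gPS (algebraMap A₀ E)) :=
    (e.comp (Algebra.adjoin A₀ ({u} : Set F)).val.toRingHom).codRestrict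
      (tres5gPS (algebraMap A₀ E)) (fun x => tres5gc_adjoin_mem e he hu x.1 x.2)
  exact IsIntegral.map_of_comp_eq φ e (by ext x; rfl) hb'

/-- `u ∈ B_u` -/
theorem tres5gc_self_mem (u : F) : u ∈ zchClosure (A₀ := A₀) ({u} : Set F) := by
  rw [mem_zchClosure]
  exact isIntegral_algebraMap
    (x := (⟨u, Algebra.subset_adjoin (Set.mem_singleton u)⟩ : ↥(Algebra.adjoin A₀ ({u} : Set F))))

/-- `algebraMap A₀ E` is injective -/
theorem tres5gc_hι : Function.Injective (algebraMap A₀ E) := IsFractionRing.injective A₀ E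

variable {e} {u : F}

/-- the chart map `B → A₀[[q]]` -/
def tres5gcChartHom
    (hB : ∀ b ∈ zchClosure (A₀ := A₀) ({u} : Set F), e b ∈ tres5gPS (algebraMap A₀ E)) :
    ↥(zchClosure (A₀ := A₀) ({u} : Set F)) →+* ↥(tres5gPS (algebraMap A₀ E)) :=
  (e.comp (zchClosure (A₀ := A₀) ({u} : Set F)).val.toRingHom).codRestrict
    (tres5gPS (algebraMap A₀ E)) (fun b => hB b.1 b.2)

theorem tres5gcChartHom_coe
    (hB : ∀ b ∈ zchClosure (A₀ := A₀) ({u} : Set F), e b ∈ tres5gPS (algebraMap A₀ E))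
    (b : ↥(zchClosure (A₀ := A₀) ({u} : Set F))) :
    ((tres5gcChartHom hB b : ↥(tres5gPS (algebraMap A₀ E))) : LaurentSeries E) = e (b : F) := rfl

/-- the constant coefficient `B → A₀` -/
def tres5gcChartConst
    (hB : ∀ b ∈ zchClosure (A₀ := A₀) ({u} : Set F), e b ∈ tres5gPS (algebraMap A₀ E)) :
    ↥(zchClosure (A₀ := A₀) ({u} : Set F)) →+* A₀ :=
  (tres5gcConst (tres5gc_hι (A₀ := A₀) (E := E))).comp (tres5gcChartHom hB)

theorem tres5gcChartConst_spec
    (hB : ∀ b ∈ zchClosure (A₀ := A₀) ({u} : Set F), e b ∈ tres5gPS (algebraMap A₀ E))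
    (b : ↥(zchClosure (A₀ := A₀) ({u} : Set F))) :
    algebraMap A₀ E (tres5gcChartConst hB b) = (e (b : F)).coeff 0 :=
  tres5gcConst_spec tres5gc_hι (tres5gcChartHom hB b)

theorem tres5gcChartConst_algebraMap (he : ∀ c : E, e (algebraMap E F c) = HahnSeries.C c)
    (hB : ∀ b ∈ zchClosure (A₀ := A₀) ({u} : Set F), e b ∈ tres5gPS (algebraMap A₀ E))
    (a : A₀) :
    tres5gcChartConst hB (algebraMap A₀ ↥(zchClosure (A₀ := A₀) ({u} : Set F)) a) = a := by
  apply tres5gc_hι (A₀ := A₀) (E := E)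
  rw [tres5gcChartConst_spec]
  have h1 : ((algebraMap A₀ ↥(zchClosure (A₀ := A₀) ({u} : Set F)) a :
      ↥(zchClosure (A₀ := A₀) ({u} : Set F))) : F) = algebraMap A₀ F a := rfl
  rw [h1, tres5gc_e_algebraMap e he]
  simp

/-- **the residue map at the cusp** `B → A₀[[q]] → A₀ → k` -/
def tres5gcRes
    (hB : ∀ b ∈ zchClosure (A₀ := A₀) ({u} : Set F), e b ∈ tres5gPS (algebraMap A₀ E)) :
    ↥(zchClosure (A₀ := A₀) ({u} : Set F)) →+* IsLocalRing.ResidueField A₀ :=
  (IsLocalRing.residue A₀).comp (tres5gcChartConst hB)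

theorem tres5gcRes_surjective (he : ∀ c : E, e (algebraMap E F c) = HahnSeries.C c)
    (hB : ∀ b ∈ zchClosure (A₀ := A₀) ({u} : Set F), e b ∈ tres5gPS (algebraMap A₀ E)) :
    Function.Surjective (tres5gcRes hB) := by
  intro x
  obtain ⟨a, rfl⟩ := IsLocalRing.residue_surjective x
  refine ⟨algebraMap A₀ ↥(zchClosure (A₀ := A₀) ({u} : Set F)) a, ?_⟩
  show IsLocalRing.residue A₀ (tres5gcChartConst hB _) = _
  rw [tres5gcChartConst_algebraMap he hB]

/-- **THE CUSP `𝔫_∞`**: the kernel of the residue map, a closed point of the special fibre of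
the chart `u`. -/
def tres5gcPt {π : A₀} (hπ : Irreducible π)
    (he : ∀ c : E, e (algebraMap E F c) = HahnSeries.C c)
    (hB : ∀ b ∈ zchClosure (A₀ := A₀) ({u} : Set F), e b ∈ tres5gPS (algebraMap A₀ E)) :
    AtPt (F := F) π u :=
  ⟨RingHom.ker (tres5gcRes hB),
    RingHom.ker_isMaximal_of_surjective _ (tres5gcRes_surjective he hB), by
      rw [RingHom.mem_ker]
      show IsLocalRing.residue A₀ (tres5gcChartConst hB _) = 0
      rw [tres5gcChartConst_algebraMap he hB, IsLocalRing.residue_eq_zero_iff,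
        IsLocalRing.mem_maximalIdeal]
      exact hπ.not_isUnit⟩

variable {π : A₀} (hπ : Irreducible π)
  (he : ∀ c : E, e (algebraMap E F c) = HahnSeries.C c)
  (hB : ∀ b ∈ zchClosure (A₀ := A₀) ({u} : Set F), e b ∈ tres5gPS (algebraMap A₀ E))

theorem tres5gc_mem_pt_iff' (b : ↥(zchClosure (A₀ := A₀) ({u} : Set F))) :
    b ∈ (tres5gcPt hπ he hB).1 ↔ tres5gcChartConst hB b ∈ IsLocalRing.maximalIdeal A₀ := by
  show b ∈ RingHom.ker (tres5gcRes hB) ↔ _
  rw [RingHom.mem_ker]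
  show IsLocalRing.residue A₀ (tres5gcChartConst hB b) = 0 ↔ _
  rw [IsLocalRing.residue_eq_zero_iff]

/-- `b ∈ 𝔫_∞` iff the constant coefficient of the `q`-expansion of `b` lies in `ι 𝔪` -/
theorem tres5gc_mem_pt_iff (b : ↥(zchClosure (A₀ := A₀) ({u} : Set F))) :
    b ∈ (tres5gcPt hπ he hB).1 ↔
      ∃ a ∈ IsLocalRing.maximalIdeal A₀, algebraMap A₀ E a = (e (b : F)).coeff 0 := by
  rw [tres5gc_mem_pt_iff']
  constructor
  · intro h
    exact ⟨_, h, tres5gcChartConst_spec hB b⟩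
  · rintro ⟨a, ha, hab⟩
    have : tres5gcChartConst hB b = a := by
      apply tres5gc_hι (A₀ := A₀) (E := E)
      rw [tres5gcChartConst_spec, hab]
    rw [this]; exact ha

include hB in
/-- the `q`-expansions of the elements of `B` have no negative terms -/
theorem tres5gc_chart_coeff_neg (b : ↥(zchClosure (A₀ := A₀) ({u} : Set F))) {n : ℤ}
    (hn : n < 0) : (e (b : F)).coeff n = 0 :=
  tres5g_PS_coeff_neg (hB b.1 b.2) hn

/-- `π ∈ 𝔫_∞` -/
theorem tres5gc_pi_mem :
    algebraMap A₀ ↥(zchClosure (A₀ := A₀) ({u} : Set F)) π ∈ (tres5gcPt hπ he hB).1 :=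
  (tres5gcPt hπ he hB).2.2

/-- `u ∈ 𝔫_∞` if the `q`-expansion of `u` has no constant term (`u = 1/j`): `𝔫_∞` is a cusp -/
theorem tres5gc_gen_mem (h0 : (e u).coeff 0 = 0) :
    (⟨u, tres5gc_self_mem (A₀ := A₀) u⟩ : ↥(zchClosure (A₀ := A₀) ({u} : Set F))) ∈
      (tres5gcPt hπ he hB).1 := by
  rw [tres5gc_mem_pt_iff]
  exact ⟨0, zero_mem _, by rw [map_zero]; exact h0.symm⟩

/-- **`e (atLoc 𝔫_∞) ⊆ A₀[[q]]`**: the local ring at the cusp has integral `q`-expansions. -/
theorem tres5gc_atLoc_mem :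
    ∀ x ∈ atLoc (tres5gcPt hπ he hB), e x ∈ tres5gPS (algebraMap A₀ E) := by
  intro x hx
  obtain ⟨b, s, hs, hsx⟩ := hx
  have hs' : IsUnit (tres5gcChartConst hB s) := by
    rw [← IsLocalRing.notMem_maximalIdeal]
    intro h
    exact hs ((tres5gc_mem_pt_iff' hπ he hB s).2 h)
  have h1 : e (s : F) * e x = e (b : F) := by
    rw [← map_mul]
    exact congrArg e hsx
  exact tres5gc_mem_of_mul_eq tres5gc_hι (hB s.1 s.2) (hB b.1 b.2) hs' h1

/-- a valuation-free description: the elements of `atLoc 𝔫_∞` with `q`-expansion constant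
coefficient in `ι 𝔪` are the non-units -/
theorem tres5gc_atLoc_coeff (x : F) (hx : x ∈ atLoc (tres5gcPt hπ he hB)) :
    ∃ a : A₀, algebraMap A₀ E a = (e x).coeff 0 :=
  tres5g_PS_coeff (tres5gc_atLoc_mem hπ he hB x hx) 0

end Chart

section Main

variable {A₀ E F : Type*} [CommRing A₀] [IsDomain A₀] [IsDiscreteValuationRing A₀]
  [Field E] [Algebra A₀ E] [IsFractionRing A₀ E] [CharZero E]
  [Field F] [Algebra E F] [Algebra A₀ F] [IsScalarTower A₀ E F]
  (e : F →+* LaurentSeries E) {π : A₀}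

/-- **(P1), abstract form**: the cusp `𝔫_∞` of the chart `u` (`e u ∈ q A₀[[q]]`), with
`e (atLoc 𝔫_∞) ⊆ A₀[[q]]`. -/
theorem tres5gc_cusp (hπ : Irreducible π)
    (hnorm : ∀ x : LaurentSeries E, IsIntegral ↥(tres5gPS (algebraMap A₀ E)) x →
      VtFrac (algebraMap A₀ E) x → x ∈ tres5gPS (algebraMap A₀ E))
    (hfrac : ∀ x : F, VtFrac (algebraMap A₀ E) (e x))
    (he : ∀ c : E, e (algebraMap E F c) = HahnSeries.C c) {u : F}
    (hu : e u ∈ tres5gPS (algebraMap A₀ E)) (hu0 : (e u).coeff 0 = 0) :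
    ∃ 𝔫 : AtPt (F := F) π u,
      (∀ x ∈ atLoc 𝔫, e x ∈ tres5gPS (algebraMap A₀ E)) ∧
      (∀ b : ↥(zchClosure (A₀ := A₀) ({u} : Set F)), b ∈ 𝔫.1 ↔
        ∃ a ∈ IsLocalRing.maximalIdeal A₀, algebraMap A₀ E a = (e (b : F)).coeff 0) ∧
      (∀ b : ↥(zchClosure (A₀ := A₀) ({u} : Set F)), e (b : F) ∈ tres5gPS (algebraMap A₀ E)) ∧
      (⟨u, tres5gc_self_mem (A₀ := A₀) u⟩ : ↥(zchClosure (A₀ := A₀) ({u} : Set F))) ∈ 𝔫.1 :=
  have hB := tres5gc_chart_mem e hnorm hfrac he hu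
  ⟨tres5gcPt hπ he hB, tres5gc_atLoc_mem hπ he hB, tres5gc_mem_pt_iff hπ he hB,
    fun b => hB b.1 b.2, tres5gc_gen_mem hπ he hB hu0⟩

end Main

end Fermat.Agent.R38
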