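/-
ROW 38, TRES, piece FAC-GRED part 2, (P1), the INSTANCE (helper16): the cusp `∞̄` of the chart
`1/j` of `X₀(N)` over a discrete valuation ring `A ∩ K₀`.

`K₀ ⊆ ℚ̄` with `A₀ = beta0Ring A K₀` a DVR (e.g. `K₀ = mgcE A K₁`, `A₀ = mgcA A K₁`, or
`K₀ = beta0Field A`), `F = F_N(K₀) ⊆ K₀((q))`, `u = 1/j`.

* `tres5gc_cusp_fullC'` : (P1) with the inputs `hnorm` (normality of `A₀[[q]]`, helper24's
  `tres5gh_normal`) and `hJ`, `hJ0` (`1/j ∈ q A₀[[q]]`, helper72's `tres5gcj_*`) as hypotheses.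
* `tres5gcInf` : the point `𝔫_∞` as a definition (from `hB : e B ⊆ A₀[[q]]`).
-/
import Fermat.Agent.R38.TresGRedCusp
import Fermat.Agent.UNIP.MGVertInertia

set_option autoImplicit false
set_option linter.unusedSectionVars false
set_option linter.unusedVariables false
set_option linter.style.haveILetI false
set_option linter.style.longLine false
set_option synthInstance.maxHeartbeats 400000
set_option maxHeartbeats 1600000

noncomputable section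

namespace Fermat.Agent.R38

open Fermat.Agent.UNIP Fermat.Agent.INJ ModularCurve Fermat.Agent.ES Fermat.Agent.ES.G2

section Inst

variable {A : ValuationSubring Qb} {K₀ : IntermediateField ℚ Qb}
  [IsDiscreteValuationRing ↥(beta0Ring A K₀)] {π : ↥(beta0Ring A K₀)} (hπ : Irreducible π)
  (N : ℕ) [NeZero N]

/-- the `q`-expansion is the identity on constants -/
theorem tres5gc_vtEmb_const (c : ↥K₀) :
    vtEmb ↥K₀ N (algebraMap ↥K₀ ↥(modularFunctionFieldFullC ↥K₀ N) c) = HahnSeries.C c := by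
  show algebraMap ↥K₀ (LaurentSeries ↥K₀) c = _
  rw [algebraMap_laurentSeries_eq_single]
  rfl

include hπ in
/-- `hfrac` for `F_N(K₀)` -/
theorem tres5gc_vtEmb_frac (x : ↥(modularFunctionFieldFullC ↥K₀ N)) :
    VtFrac (algebraMap ↥(beta0Ring A K₀) ↥K₀) (vtEmb ↥K₀ N x) :=
  vt_frac_fullC (vtBase_residue hπ) N x.2

include hπ in
/-- **(P1)** at the chart `1/j` of `F_N(K₀)`, inputs `hnorm`, `hJ`, `hJ0` as hypotheses. -/
theorem tres5gc_cusp_fullC'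
    (hnorm : ∀ x : LaurentSeries ↥K₀,
      IsIntegral ↥(tres5gPS (algebraMap ↥(beta0Ring A K₀) ↥K₀)) x →
      VtFrac (algebraMap ↥(beta0Ring A K₀) ↥K₀) x →
      x ∈ tres5gPS (algebraMap ↥(beta0Ring A K₀) ↥K₀))
    (hJ : (((bgJ ↥K₀ N)⁻¹ : ↥(modularFunctionFieldFullC ↥K₀ N)) : LaurentSeries ↥K₀) ∈
      tres5gPS (algebraMap ↥(beta0Ring A K₀) ↥K₀))
    (hJ0 : (((bgJ ↥K₀ N)⁻¹ : ↥(modularFunctionFieldFullC ↥K₀ N)) : LaurentSeries ↥K₀).coeff 0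
      = 0) :
    ∃ 𝔫 : AtPt (F := ↥(modularFunctionFieldFullC ↥K₀ N)) π (bgJ ↥K₀ N)⁻¹,
      (∀ x ∈ atLoc 𝔫, ((x : ↥(modularFunctionFieldFullC ↥K₀ N)) : LaurentSeries ↥K₀) ∈
        tres5gPS (algebraMap ↥(beta0Ring A K₀) ↥K₀)) ∧
      (∀ b : ↥(zchClosure (A₀ := ↥(beta0Ring A K₀))
          ({(bgJ ↥K₀ N)⁻¹} : Set ↥(modularFunctionFieldFullC ↥K₀ N))), b ∈ 𝔫.1 ↔
        ∃ a ∈ IsLocalRing.maximalIdeal ↥(beta0Ring A K₀),
          algebraMap ↥(beta0Ring A K₀) ↥K₀ a =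
            (((b : ↥(modularFunctionFieldFullC ↥K₀ N)) : LaurentSeries ↥K₀)).coeff 0) ∧
      (∀ b : ↥(zchClosure (A₀ := ↥(beta0Ring A K₀))
          ({(bgJ ↥K₀ N)⁻¹} : Set ↥(modularFunctionFieldFullC ↥K₀ N))),
        (((b : ↥(modularFunctionFieldFullC ↥K₀ N)) : LaurentSeries ↥K₀)) ∈
          tres5gPS (algebraMap ↥(beta0Ring A K₀) ↥K₀)) ∧
      (⟨(bgJ ↥K₀ N)⁻¹, tres5gc_self_mem (A₀ := ↥(beta0Ring A K₀)) _⟩ :
        ↥(zchClosure (A₀ := ↥(beta0Ring A K₀))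
          ({(bgJ ↥K₀ N)⁻¹} : Set ↥(modularFunctionFieldFullC ↥K₀ N)))) ∈ 𝔫.1 :=
  tres5gc_cusp (vtEmb ↥K₀ N) hπ hnorm (tres5gc_vtEmb_frac hπ N) (tres5gc_vtEmb_const N) hJ hJ0

end Inst

end Fermat.Agent.R38
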