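/-
ROW 38, TRES, piece FAC-GRED (helper24), part 3b: `hfracY` FROM THE KUMMER SHAPE AT THE CLOSED
POINTS (= the last clause of the conclusion of `tres5biv_frame` / `tres5b_bar` / `tres5b_field`).

* `tres5g_lam_mem_of_p` : local ring with `p ∈ 𝔪`, `ζ ^ p = 1`  ⇒  `ζ − 1 ∈ 𝔪`.
* `tres5g_p_mem_mgc`, `tres5g_lam_mem_mgc` : `p ∈ 𝔪_{A′}`, `ζ − 1 ∈ 𝔪_{A′}` from `A.LiesOverPrime p`.
* `tres5g_hfracY_of_pts`      : **`hfracY`** : `VtFrac ι (e_L Y)` for `Y ^ p = u₀`, from `hA` and the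
  shape of `u₀` at the closed points (only `𝔫_∞ = tres5gcInf` is used).
* `tres5g_hfrac_cover_of_pts` : `VtFrac ι (e_L x)` for every `x` of `L = F(Y)`.
-/
import Fermat.Agent.R38.TresGRedShape

set_option autoImplicit false
set_option linter.style.haveILetI false
set_option linter.unusedSectionVars false
set_option linter.unusedVariables false

noncomputable section

namespace Fermat.Agent.R38

open ModularCurve AlgebraicCurve Fermat.Agent.ES Fermat.Agent.ES.G2 Fermat.Agent.INJ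
open Fermat.Agent.UNIP Fermat.Agent.STB Fermat.Agent.S33 IntermediateField

/-- in a local ring whose residue characteristic is `p`, a `p`-th root of unity is `≡ 1`. -/
theorem tres5g_lam_mem_of_p {R : Type*} [CommRing R] [IsLocalRing R] {p : ℕ} (hp : p.Prime)
    (hpR : ((p : ℕ) : R) ∈ IsLocalRing.maximalIdeal R) {ζ : R} (hζ : ζ ^ p = 1) :
    ζ - 1 ∈ IsLocalRing.maximalIdeal R := by
  haveI : Fact p.Prime := ⟨hp⟩
  have h0 : ((p : ℕ) : IsLocalRing.ResidueField R) = 0 := by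
    have := (IsLocalRing.residue_eq_zero_iff ((p : ℕ) : R)).2 hpR
    simpa using this
  haveI : CharP (IsLocalRing.ResidueField R) p := (CharP.charP_iff_prime_eq_zero hp).2 h0
  have h1 : (IsLocalRing.residue R ζ - 1) ^ p = 0 := by
    rw [sub_pow_char, one_pow, ← map_pow, hζ, map_one, sub_self]
  have h2 : IsLocalRing.residue R (ζ - 1) = 0 := by
    rw [map_sub, map_one]
    exact (pow_eq_zero_iff hp.ne_zero).1 h1
  exact (IsLocalRing.residue_eq_zero_iff _).1 h2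

section Mgc

variable {A : ValuationSubring Qb} {K₁ : IntermediateField ℚ Qb} {M p : ℕ} [NeZero M] [NeZero p]
  [NeZero (M * p)]
  [IsDiscreteValuationRing ↥(mgcA A K₁)] {π : ↥(mgcA A K₁)} (hπ : Irreducible π)
  (hp : p.Prime)

/-- `p ∈ 𝔪_{A′}` -/
theorem tres5g_p_mem_mgc (hA : A.LiesOverPrime p) :
    ((p : ℕ) : ↥(mgcA A K₁)) ∈ IsLocalRing.maximalIdeal ↥(mgcA A K₁) := by
  rw [beta0Ring_mem_maximalIdeal_iff]
  have : (((((p : ℕ) : ↥(mgcA A K₁)) : ↥(mgcE A K₁))) : Qb) = (p : Qb) := by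
    push_cast
    rfl
  rw [this]
  exact hA

include hp in
/-- `ζ − 1 ∈ 𝔪_{A′}` -/
theorem tres5g_lam_mem_mgc (hA : A.LiesOverPrime p) {ζ : ↥(mgcA A K₁)} (hζ : ζ ^ p = 1) :
    ζ - 1 ∈ IsLocalRing.maximalIdeal ↥(mgcA A K₁) :=
  tres5g_lam_mem_of_p hp (tres5g_p_mem_mgc hA) hζ

include hπ hp in
/-- **`hfracY`, from the Kummer shape at the closed points** (last clause of the conclusion of
`tres5biv_frame` / `tres5b_bar`; only the point `𝔫_∞` is used). -/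
theorem tres5g_hfracY_of_pts (hA : A.LiesOverPrime p)
    {ζ : ↥(mgcA A K₁)} (hζ : IsPrimitiveRoot ζ p)
    {u₀ : ↥(mgcF A K₁ (M * p))}
    (hpt : ∀ i, ∃ g : ↥(mgcF A K₁ (M * p)), g ≠ 0 ∧ ∃ y' ∈ atO π (mgcT A K₁ (M * p)) i,
      u₀ / g ^ p - 1 =
        (algebraMap ↥(mgcA A K₁) ↥(mgcF A K₁ (M * p)) ζ - 1) ^ p *
          algebraMap ↥(mgcA A K₁) ↥(mgcF A K₁ (M * p)) π * y')
    {L : Type*} [Field L] [Algebra ↥(mgcF A K₁ (M * p)) L]
    (eL : L →+* LaurentSeries ↥(mgcE A K₁))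
    (hcomp : ∀ a : ↥(mgcF A K₁ (M * p)),
      eL (algebraMap ↥(mgcF A K₁ (M * p)) L a) = (a : LaurentSeries ↥(mgcE A K₁)))
    {Y : L} (hY : Y ^ p = algebraMap ↥(mgcF A K₁ (M * p)) L u₀) :
    VtFrac (algebraMap ↥(mgcA A K₁) ↥(mgcE A K₁)) (eL Y) :=
  tres5g_hfracY_of_shape hπ hp (tres5g_p_mem_mgc hA) hζ
    (tres5g_lam_mem_mgc hp hA hζ.pow_eq_one)
    (tres5g_shape_of_pt hπ (hpt (Sum.inr (tres5gcInf (K₀ := mgcE A K₁) hπ (M * p)))))
    eL hcomp hY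

include hπ hp in
/-- **`hfrac` of the cover, from the Kummer shape at the closed points.** -/
theorem tres5g_hfrac_cover_of_pts (hA : A.LiesOverPrime p)
    {ζ : ↥(mgcA A K₁)} (hζ : IsPrimitiveRoot ζ p)
    {u₀ : ↥(mgcF A K₁ (M * p))}
    (hpt : ∀ i, ∃ g : ↥(mgcF A K₁ (M * p)), g ≠ 0 ∧ ∃ y' ∈ atO π (mgcT A K₁ (M * p)) i,
      u₀ / g ^ p - 1 =
        (algebraMap ↥(mgcA A K₁) ↥(mgcF A K₁ (M * p)) ζ - 1) ^ p *
          algebraMap ↥(mgcA A K₁) ↥(mgcF A K₁ (M * p)) π * y')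
    {L : Type*} [Field L] [Algebra ↥(mgcF A K₁ (M * p)) L]
    (eL : L →+* LaurentSeries ↥(mgcE A K₁))
    (hcomp : ∀ a : ↥(mgcF A K₁ (M * p)),
      eL (algebraMap ↥(mgcF A K₁ (M * p)) L a) = (a : LaurentSeries ↥(mgcE A K₁)))
    {Y : L} (hY : Y ^ p = algebraMap ↥(mgcF A K₁ (M * p)) L u₀)
    (htop : IntermediateField.adjoin ↥(mgcF A K₁ (M * p)) ({Y} : Set L) = ⊤) :
    ∀ x : L, VtFrac (algebraMap ↥(mgcA A K₁) ↥(mgcE A K₁)) (eL x) :=
  tres5g_hfrac_cover_of_shape hπ hp (tres5g_p_mem_mgc hA) hζ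
    (tres5g_lam_mem_mgc hp hA hζ.pow_eq_one)
    (tres5g_shape_of_pt hπ (hpt (Sum.inr (tres5gcInf (K₀ := mgcE A K₁) hπ (M * p)))))
    eL hcomp hY htop

end Mgc

end Fermat.Agent.R38
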