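import Fermat.Agent.R38.TresHenselCore

/-!
# R38 / SURJ-NEH — NON-ÉTALE HENSEL, `k`-point form

* `treshn_cert_of_pts` : Nullstellensatz: (ISO-k) ⇒ the certificate of `treshn_hensel_cert`;
* `treshn_hensel_pts` : `A` a local integrally closed domain of rank `≤ 1` with algebraically
  closed fraction field, `res : A → k` a model of the residue field (`k` algebraically closed),
  a system `f` of `≤ N` polynomials in `N` unknowns over `A`, `a ∈ Aᴺ` with `f(a) ≡ 0`, and
  (ISO-k): `res a` is the only `k`-solution of the reduced system in the basic open set `g ≠ 0`.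
  Then there is an exact solution `b ∈ Aᴺ` with `res b = res a`;
* `treshn_hensel_val` : the same for a valuation subring `A` of an algebraically closed field
  with the archimedean property (`∀ δ c, δ ∈ A.nonunits → c ≠ 0 → ∃ k, δ ^ k / c ∈ A`).
-/

set_option autoImplicit false
set_option linter.style.haveILetI false
set_option linter.unusedSectionVars false

namespace Fermat.Agent.R38

open MvPolynomial IsLocalRing

section pts

variable {A : Type*} [CommRing A] [IsLocalRing A] {σ : Type*}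

/-- **Nullstellensatz step**: (ISO-k) gives the certificate. -/
theorem treshn_cert_of_pts {k : Type*} [Field k] [IsAlgClosed k] (res : A →+* k)
    (hres : Function.Surjective res) (hker : ∀ x : A, res x = 0 ↔ x ∈ maximalIdeal A)
    {ι : Type*} [Finite σ] (f : ι → MvPolynomial σ A) (a : σ → A)
    (g : MvPolynomial σ k) (hg : eval (fun j => res (a j)) g ≠ 0)
    (hiso : ∀ x : σ → k, (∀ i, eval x (MvPolynomial.map res (f i)) = 0) → eval x g ≠ 0 →
      x = fun j => res (a j)) :
    ∃ G : MvPolynomial σ A, eval a G ∉ maximalIdeal A ∧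
      ∀ j, ∃ n : ℕ, (G * (X j - C (a j))) ^ n ∈
        Ideal.span (Set.range f) ⊔ Ideal.map (C : A →+* MvPolynomial σ A) (maximalIdeal A) := by
  classical
  set ρ : MvPolynomial σ A →+* MvPolynomial σ k := MvPolynomial.map res with hρ
  have hρsurj : Function.Surjective ρ := MvPolynomial.map_surjective res hres
  have hρker : RingHom.ker ρ = Ideal.map (C : A →+* MvPolynomial σ A) (maximalIdeal A) := by
    rw [hρ, MvPolynomial.ker_map]
    congr 1
    ext x
    rw [RingHom.mem_ker, hker]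
  have hev : ∀ p : MvPolynomial σ A, eval (fun j => res (a j)) (ρ p) = res (eval a p) := by
    intro p
    rw [hρ, MvPolynomial.eval_map]
    exact (MvPolynomial.eval₂_comp res a p).symm
  obtain ⟨G, hG⟩ := hρsurj g
  refine ⟨G, ?_, fun j => ?_⟩
  · intro h
    apply hg
    rw [← hG, hev]
    exact (hker _).2 h
  · set Ik : Ideal (MvPolynomial σ k) := Ideal.span (Set.range fun i => ρ (f i)) with hIk
    have hmem : g * (X j - C (res (a j))) ∈ Ik.radical := by
      rw [← MvPolynomial.vanishingIdeal_zeroLocus_eq_radical (K := k)]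
      rw [MvPolynomial.mem_vanishingIdeal_iff]
      intro x hx
      have hx' : ∀ i, eval x (ρ (f i)) = 0 := by
        intro i
        exact hx (ρ (f i)) (Ideal.subset_span ⟨i, rfl⟩)
      show eval x (g * (X j - C (res (a j)))) = 0
      by_cases hgx : eval x g = 0
      · rw [map_mul, hgx, zero_mul]
      · have hxa := hiso x hx' hgx
        rw [map_mul, map_sub, eval_X, eval_C, hxa, sub_self, mul_zero]
    obtain ⟨n, hn⟩ := hmem
    refine ⟨n, ?_⟩
    have hIk' : Ik = Ideal.map ρ (Ideal.span (Set.range f)) := by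
      rw [hIk, Ideal.map_span]
      congr 1
      ext y
      constructor
      · rintro ⟨i, rfl⟩
        exact ⟨f i, ⟨i, rfl⟩, rfl⟩
      · rintro ⟨_, ⟨i, rfl⟩, rfl⟩
        exact ⟨i, rfl⟩
    have hρz : ρ ((G * (X j - C (a j))) ^ n) = (g * (X j - C (res (a j)))) ^ n := by
      rw [map_pow, map_mul, hG, map_sub, hρ, MvPolynomial.map_X, MvPolynomial.map_C]
    rw [← hρz, hIk', Ideal.mem_map_iff_of_surjective ρ hρsurj] at hn
    obtain ⟨y, hy, hyz⟩ := hn
    have hsub : (G * (X j - C (a j))) ^ n - y ∈ RingHom.ker ρ := by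
      rw [RingHom.mem_ker, map_sub, hyz, sub_self]
    have := Ideal.add_mem _ (Ideal.mem_sup_left hy : y ∈ Ideal.span (Set.range f) ⊔
      Ideal.map (C : A →+* MvPolynomial σ A) (maximalIdeal A))
      (Ideal.mem_sup_right (hρker ▸ hsub))
    rwa [add_sub_cancel] at this

/-- **NON-ÉTALE HENSEL, `k`-point form.** -/
theorem treshn_hensel_pts {K : Type*} [IsDomain A] [Field K] [Algebra A K]
    [IsFractionRing A K] [IsAlgClosed K] [IsIntegrallyClosed A]
    (hrk : ∀ 𝔭 : Ideal A, 𝔭.IsPrime → 𝔭 ≠ ⊥ → 𝔭 = maximalIdeal A)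
    {k : Type*} [Field k] [IsAlgClosed k] (res : A →+* k)
    (hres : Function.Surjective res) (hker : ∀ x : A, res x = 0 ↔ x ∈ maximalIdeal A)
    {ι : Type*} [Fintype σ] [Fintype ι] (hcard : Fintype.card ι ≤ Fintype.card σ)
    (f : ι → MvPolynomial σ A) (a : σ → A)
    (hzero : ∀ i, res (eval a (f i)) = 0)
    (g : MvPolynomial σ k) (hg : eval (fun j => res (a j)) g ≠ 0)
    (hiso : ∀ x : σ → k, (∀ i, eval x (MvPolynomial.map res (f i)) = 0) → eval x g ≠ 0 →
      x = fun j => res (a j)) :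
    ∃ b : σ → A, (∀ j, res (b j) = res (a j)) ∧ ∀ i, eval b (f i) = 0 := by
  obtain ⟨G, hG, hcert⟩ := treshn_cert_of_pts res hres hker f a g hg hiso
  obtain ⟨b, hb, hfb⟩ := treshn_hensel_cert (K := K) hrk hcard f a
    (fun i => (hker _).1 (hzero i)) G hG hcert
  refine ⟨b, fun j => ?_, hfb⟩
  have := (hker _).2 (hb j)
  rwa [map_sub, sub_eq_zero] at this

end pts

section val

variable {K : Type*} [Field K] [IsAlgClosed K] (A : ValuationSubring K)

/-- rank `≤ 1` from the archimedean property -/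
theorem treshn_rank_of_arch
    (harch : ∀ δ c : K, δ ∈ A.nonunits → c ≠ 0 → ∃ n : ℕ, δ ^ n / c ∈ A)
    (𝔭 : Ideal A) (h𝔭 : 𝔭.IsPrime) (hne : 𝔭 ≠ ⊥) : 𝔭 = maximalIdeal A := by
  refine le_antisymm (le_maximalIdeal h𝔭.ne_top) fun δ hδ => ?_
  obtain ⟨c, hc, hc0⟩ : ∃ c ∈ 𝔭, c ≠ 0 := by
    by_contra hcon
    refine hne ((Submodule.eq_bot_iff _).2 fun x hx => ?_)
    by_contra hx0
    exact hcon ⟨x, hx, hx0⟩
  have hδ' : (δ : K) ∈ A.nonunits := by
    rw [ValuationSubring.mem_nonunits_iff_exists_mem_maximalIdeal]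
    exact ⟨δ.2, hδ⟩
  have hc0' : (c : K) ≠ 0 := fun h => hc0 (Subtype.ext h)
  obtain ⟨n, hn⟩ := harch δ c hδ' hc0'
  have hmem : δ ^ n ∈ 𝔭 := by
    have : δ ^ n = c * ⟨(δ : K) ^ n / c, hn⟩ := by
      apply Subtype.ext
      push_cast
      field_simp
    rw [this]
    exact 𝔭.mul_mem_right _ hc
  exact h𝔭.mem_of_pow_mem _ hmem

/-- **NON-ÉTALE HENSEL** for an archimedean valuation subring of an algebraically closed field,
`k`-point form. -/
theorem treshn_hensel_val
    (harch : ∀ δ c : K, δ ∈ A.nonunits → c ≠ 0 → ∃ n : ℕ, δ ^ n / c ∈ A)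
    {k : Type*} [Field k] [IsAlgClosed k] (res : A →+* k)
    (hres : Function.Surjective res) (hker : ∀ x : A, res x = 0 ↔ (x : K) ∈ A.nonunits)
    {σ ι : Type*} [Fintype σ] [Fintype ι] (hcard : Fintype.card ι ≤ Fintype.card σ)
    (f : ι → MvPolynomial σ A) (a : σ → A)
    (hzero : ∀ i, res (eval a (f i)) = 0)
    (g : MvPolynomial σ k) (hg : eval (fun j => res (a j)) g ≠ 0)
    (hiso : ∀ x : σ → k, (∀ i, eval x (MvPolynomial.map res (f i)) = 0) → eval x g ≠ 0 →
      x = fun j => res (a j)) :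
    ∃ b : σ → A, (∀ j, res (b j) = res (a j)) ∧ ∀ i, eval b (f i) = 0 := by
  have hker' : ∀ x : A, res x = 0 ↔ x ∈ maximalIdeal A := fun x => by
    rw [hker, ValuationSubring.mem_nonunits_iff_exists_mem_maximalIdeal]
    exact ⟨fun ⟨_, h⟩ => h, fun h => ⟨x.2, h⟩⟩
  exact treshn_hensel_pts (K := K) (treshn_rank_of_arch A harch) res hres hker' hcard f a hzero
    g hg hiso

end val

end Fermat.Agent.R38
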