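import Mathlib

/-!
# R38 / SURJ-NEH — NON-ÉTALE HENSEL, abstract core (Mathlib only)

`A` a local, integrally closed domain of rank `≤ 1` with algebraically closed fraction field
(e.g. a valuation ring of `ℚ̄`), `f₁, …, f_M ∈ A[X₁, …, X_N]` with `M ≤ N`, `a ∈ Aᴺ` with
`f(a) ≡ 0 mod 𝔪`, and `ā` an ISOLATED point of the fibre `V(f̄)` (certificate form: `g(a)` a unit and
`(g · (X_j - a_j)) ^ n ∈ (f) + 𝔪 A[X]`).  Then there is `b ∈ Aᴺ`, `b ≡ a mod 𝔪`, `f(b) = 0`.

* `treshn_integral_mem_range`, `treshn_surjective_of_quasiFiniteAt` : the step using Zariski's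
  main theorem;
* `treshn_minimal_nilp`, `treshnPart`, `treshn_height_ge`, `treshn_exists_noetherian`,
  `treshn_not_minimal` : the generization step (descent to a noetherian subring + Krull's height
  theorem; idea of helper67);
* `treshn_hensel_cert` : the theorem.
-/

set_option autoImplicit false
set_option linter.style.haveILetI false
set_option linter.unusedSectionVars false

namespace Fermat.Agent.R38

open Polynomial in
/-- An element of a domain `B ⊇ A` which is integral over the integrally closed domain `A` with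
algebraically closed fraction field comes from `A`. -/
theorem treshn_integral_mem_range {A K B : Type*} [CommRing A] [IsDomain A] [Field K]
    [Algebra A K] [IsFractionRing A K] [IsAlgClosed K] [IsIntegrallyClosed A]
    [CommRing B] [IsDomain B] [Algebra A B]
    (s : B) (hs : IsIntegral A s) : ∃ x : A, algebraMap A B x = s := by
  classical
  obtain ⟨P, hmonic, hP⟩ := hs
  have hsplit : (P.map (algebraMap A K)).Splits := IsAlgClosed.splits _
  have hroots : ∀ α ∈ (P.map (algebraMap A K)).roots, ∃ x : A, algebraMap A K x = α := by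
    intro α hα
    have hα' : (P.map (algebraMap A K)).eval α = 0 := (Polynomial.mem_roots'.1 hα).2
    have hint : IsIntegral A α := ⟨P, hmonic, by rwa [Polynomial.eval_map] at hα'⟩
    exact IsIntegrallyClosed.isIntegral_iff.1 hint
  have hprod := hsplit.eq_prod_roots_of_monic (hmonic.map _)
  set M : Multiset A := (P.map (algebraMap A K)).roots.attach.map
    (fun α => Classical.choose (hroots α.1 α.2)) with hMdef
  have hM : M.map (algebraMap A K) = (P.map (algebraMap A K)).roots := by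
    rw [hMdef, Multiset.map_map]
    conv_rhs => rw [← Multiset.attach_map_val (P.map (algebraMap A K)).roots]
    refine Multiset.map_congr rfl fun α _ => ?_
    exact Classical.choose_spec (hroots α.1 α.2)
  have hPA : P = (M.map (fun x => X - C x)).prod := by
    apply Polynomial.map_injective (algebraMap A K) (IsFractionRing.injective A K)
    rw [Polynomial.map_multiset_prod, Multiset.map_map, hprod, ← hM, Multiset.map_map]
    refine congrArg _ (Multiset.map_congr rfl fun x _ => ?_)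
    simp
  rw [hPA, Polynomial.eval₂_multiset_prod, Multiset.map_map, Multiset.prod_eq_zero_iff] at hP
  obtain ⟨x, -, hx⟩ := Multiset.mem_map.1 hP
  refine ⟨x, ?_⟩
  simp only [Function.comp_apply, eval₂_sub, eval₂_X, eval₂_C] at hx
  exact (sub_eq_zero.1 hx).symm

/-- **ZMT step.**  `A` a local, integrally closed domain with algebraically closed fraction
field; `B ⊇ A` a domain of finite type over `A`, quasi-finite at a prime `𝔑` over the maximal
ideal.  Then `B = A`. -/
theorem treshn_surjective_of_quasiFiniteAt {A K B : Type*} [CommRing A] [IsDomain A]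
    [IsLocalRing A] [Field K]
    [Algebra A K] [IsFractionRing A K] [IsAlgClosed K] [IsIntegrallyClosed A]
    [CommRing B] [IsDomain B] [Algebra A B] [Algebra.FiniteType A B]
    (𝔑 : Ideal B) [𝔑.IsPrime] [Algebra.QuasiFiniteAt A 𝔑]
    (hover : ∀ x ∈ IsLocalRing.maximalIdeal A, algebraMap A B x ∈ 𝔑) :
    Function.Surjective (algebraMap A B) := by
  obtain ⟨S', hfg, r, hr, hbij⟩ :=
    Algebra.QuasiFiniteAt.exists_fg_and_exists_notMem_and_awayMap_bijective (R := A) 𝔑
  have hS' : ∀ s : S', ∃ x : A, algebraMap A B x = (s : B) := by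
    intro s
    refine treshn_integral_mem_range (K := K) (s : B) ?_
    exact IsIntegral.of_mem_of_fg S' hfg _ s.2
  obtain ⟨xr, hxr⟩ := hS' r
  have hxr_unit : IsUnit xr := by
    by_contra hnu
    exact hr (hxr ▸ hover xr ((IsLocalRing.mem_maximalIdeal _).2 hnu))
  have hr0 : (r : B) ≠ 0 := fun h0 => hr (h0 ▸ 𝔑.zero_mem)
  intro c
  obtain ⟨y, hy⟩ := hbij.2 (algebraMap B (Localization.Away (r : B)) c)
  obtain ⟨s, ⟨_, n, rfl⟩, rfl⟩ := IsLocalization.exists_mk'_eq (Submonoid.powers r) y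
  have hinjB : Function.Injective (algebraMap B (Localization.Away (r : B))) :=
    IsLocalization.injective _ (powers_le_nonZeroDivisors_of_noZeroDivisors hr0)
  have hkey : (s : B) = c * (r : B) ^ n := by
    apply hinjB
    have h1 : Localization.awayMap S'.val.toRingHom r
        (IsLocalization.mk' (Localization.Away r) s
          (⟨r ^ n, ⟨n, rfl⟩⟩ : Submonoid.powers r)) =
        IsLocalization.mk' (Localization.Away (r : B)) (s : B)
          (⟨(r : B) ^ n, ⟨n, rfl⟩⟩ : Submonoid.powers (r : B)) := by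
      rw [Localization.awayMap, IsLocalization.Away.map, IsLocalization.map_mk']
      rfl
    have hy' : IsLocalization.mk' (Localization.Away (r : B)) (s : B)
          (⟨(r : B) ^ n, ⟨n, rfl⟩⟩ : Submonoid.powers (r : B)) =
        (algebraMap B (Localization.Away (r : B))) c := h1.symm.trans hy
    rw [IsLocalization.mk'_eq_iff_eq_mul] at hy'
    rw [hy', map_mul]
  obtain ⟨xs, hxs⟩ := hS' s
  obtain ⟨u, hu⟩ := hxr_unit
  refine ⟨xs * ((u⁻¹ : Aˣ) : A) ^ n, ?_⟩
  have h2 : algebraMap A B ((u⁻¹ : Aˣ) : A) * (r : B) = 1 := by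
    rw [← hxr, ← hu, ← map_mul, Units.inv_mul, map_one]
  rw [map_mul, map_pow, hxs, hkey, mul_assoc, ← mul_pow, mul_comm (r : B), h2, one_pow, mul_one]

/-- In the localisation at a minimal prime over `I` every element of the prime is nilpotent
modulo `I`. -/
theorem treshn_minimal_nilp {R : Type*} [CommRing R] {I p : Ideal R}
    (hp : p ∈ I.minimalPrimes) {x : R} (hx : x ∈ p) :
    ∃ y, y ∉ p ∧ ∃ n : ℕ, (x * y) ^ n ∈ I := by
  obtain ⟨⟨hp₁, hp₂⟩, hp₃⟩ := hp
  have : p.map (algebraMap R (Localization.AtPrime p)) ≤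
      (I.map (algebraMap _ _)).radical := by
    rw [Ideal.radical_eq_sInf, le_sInf_iff]
    rintro q ⟨hq', hq⟩
    obtain ⟨h₁, h₂⟩ := ((IsLocalization.AtPrime.orderIsoOfPrime _ p) ⟨q, hq⟩).2
    rw [Ideal.map_le_iff_le_comap] at hq' ⊢
    exact hp₃ ⟨h₁, hq'⟩ h₂
  obtain ⟨n, hn⟩ := this (Ideal.mem_map_of_mem _ hx)
  rw [IsLocalization.mem_map_algebraMap_iff (M := p.primeCompl)] at hn
  obtain ⟨⟨a, b⟩, hn⟩ := hn
  rw [← map_pow, ← map_mul, IsLocalization.eq_iff_exists p.primeCompl] at hn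
  obtain ⟨t, ht⟩ := hn
  refine ⟨t.1 * b.1, (t * b).2, n + 1, ?_⟩
  simp only at ht
  have : (x * (t.1 * b.1)) ^ (n + 1) = (t.1 ^ n * b.1 ^ n * x * t.1) * a := by
    rw [mul_assoc, ← ht]; ring
  rw [this]
  exact I.mul_mem_left _ a.2

section chain

open MvPolynomial

variable {R : Type*} [CommRing R] {σ : Type*}

open Classical in
/-- partial evaluation at the variables of `T` -/
noncomputable def treshnPart (a : σ → R) (T : Set σ) :
    MvPolynomial σ R →ₐ[R] MvPolynomial σ R :=
  aeval (fun j => if j ∈ T then C (a j) else X j)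

open Classical in
theorem treshnPart_X (a : σ → R) (T : Set σ) (j : σ) :
    treshnPart a T (X j) = if j ∈ T then C (a j) else X j := by
  simp [treshnPart]

theorem treshnPart_X_of_mem (a : σ → R) {T : Set σ} {j : σ} (hj : j ∈ T) :
    treshnPart a T (X j) = C (a j) := by
  rw [treshnPart_X, if_pos hj]

theorem treshnPart_X_of_not_mem (a : σ → R) {T : Set σ} {j : σ} (hj : j ∉ T) :
    treshnPart a T (X j) = X j := by
  rw [treshnPart_X, if_neg hj]

theorem treshnPart_C (a : σ → R) (T : Set σ) (c : R) :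
    treshnPart a T (C c) = C c := by
  simp [treshnPart]

theorem treshnPart_comp (a : σ → R) (T T' : Set σ) (h : T ⊆ T') (p : MvPolynomial σ R) :
    treshnPart a T' (treshnPart a T p) = treshnPart a T' p := by
  have : (treshnPart a T').comp (treshnPart a T) = treshnPart a T' := by
    apply MvPolynomial.algHom_ext
    intro j
    rw [AlgHom.comp_apply]
    by_cases hj : j ∈ T
    · rw [treshnPart_X_of_mem a hj, treshnPart_X_of_mem a (h hj), treshnPart_C]
    · rw [treshnPart_X_of_not_mem a hj]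
  exact DFunLike.congr_fun this p

theorem treshnPart_univ (a : σ → R) (p : MvPolynomial σ R) :
    treshnPart a Set.univ p = C (eval a p) := by
  have : (treshnPart a Set.univ) = (Algebra.ofId R (MvPolynomial σ R)).comp (aeval a) := by
    apply MvPolynomial.algHom_ext
    intro j
    rw [treshnPart_X_of_mem a (Set.mem_univ j)]
    simp [Algebra.ofId_apply, MvPolynomial.algebraMap_eq]
  rw [this]
  simp [Algebra.ofId_apply, MvPolynomial.algebraMap_eq]

/-- `p - p(a)` lies in the ideal generated by the `X_j - a_j` -/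
theorem treshn_sub_eval_mem (a : σ → R) (p : MvPolynomial σ R) :
    p - C (eval a p) ∈ Ideal.span (Set.range fun j => (X j - C (a j) : MvPolynomial σ R)) := by
  induction p using MvPolynomial.induction_on with
  | C c => simp
  | add p q hp hq =>
    have : p + q - C (eval a (p + q)) = (p - C (eval a p)) + (q - C (eval a q)) := by
      simp only [map_add]; ring
    rw [this]
    exact Ideal.add_mem _ hp hq
  | mul_X p j hp =>
    have : p * X j - C (eval a (p * X j)) =
        (p - C (eval a p)) * X j + C (eval a p) * (X j - C (a j)) := by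
      simp only [map_mul, eval_X]; ring
    rw [this]
    exact Ideal.add_mem _ (Ideal.mul_mem_right _ _ hp)
      (Ideal.mul_mem_left _ _ (Ideal.subset_span ⟨j, rfl⟩))

theorem treshn_X_sub_C_ne_zero [Nontrivial R] (a : σ → R) (j : σ) :
    (X j - C (a j) : MvPolynomial σ R) ≠ 0 := by
  intro h
  have := congrArg (eval (fun _ => a j + 1)) h
  simp at this

/-- the chain of primes `ker (treshnPart a T)` -/
theorem treshn_height_part [IsDomain R] (a : σ → R) (T : Finset σ) :
    (T.card : ℕ∞) ≤ (RingHom.ker (treshnPart a (T : Set σ)).toRingHom).height := by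
  classical
  induction T using Finset.induction_on with
  | empty => simp
  | insert j T hj ih =>
    have hlt : RingHom.ker (treshnPart a (T : Set σ)).toRingHom <
        RingHom.ker (treshnPart a ((insert j T : Finset σ) : Set σ)).toRingHom := by
      refine lt_of_le_of_ne ?_ ?_
      · intro p hp
        rw [RingHom.mem_ker] at hp ⊢
        have h1 := treshnPart_comp a (T : Set σ) ((insert j T : Finset σ) : Set σ)
          (by intro x hx; exact Finset.mem_insert_of_mem hx) p
        have hp' : treshnPart a (T : Set σ) p = 0 := hp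
        show treshnPart a ((insert j T : Finset σ) : Set σ) p = 0
        rw [← h1, hp', map_zero]
      · intro heq
        have hmem : (X j - C (a j) : MvPolynomial σ R) ∈
            RingHom.ker (treshnPart a ((insert j T : Finset σ) : Set σ)).toRingHom := by
          rw [RingHom.mem_ker]
          show treshnPart a ((insert j T : Finset σ) : Set σ) (X j - C (a j)) = 0
          rw [map_sub, treshnPart_X_of_mem a (by simp), treshnPart_C, sub_self]
        rw [← heq, RingHom.mem_ker] at hmem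
        have hmem' : treshnPart a (T : Set σ) (X j - C (a j)) = 0 := hmem
        rw [map_sub, treshnPart_X_of_not_mem a (by simpa using hj), treshnPart_C] at hmem'
        exact treshn_X_sub_C_ne_zero a j hmem'
    haveI : (RingHom.ker (treshnPart a (T : Set σ)).toRingHom).IsPrime := RingHom.ker_isPrime _
    haveI : (RingHom.ker (treshnPart a ((insert j T : Finset σ) : Set σ)).toRingHom).IsPrime :=
      RingHom.ker_isPrime _
    have h2 := Ideal.height_add_one_le_of_lt_of_isPrime hlt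
    rw [Finset.card_insert_of_notMem hj, Nat.cast_add, Nat.cast_one]
    exact (add_le_add_left ih 1).trans h2

/-- a prime of `R[X]` containing all `X_j - a_j` and a nonzero constant has height
`≥ N + 1` -/
theorem treshn_height_ge [IsDomain R] [Fintype σ] (a : σ → R) (𝔓 : Ideal (MvPolynomial σ R))
    [𝔓.IsPrime] (hX : ∀ j, (X j - C (a j) : MvPolynomial σ R) ∈ 𝔓) (ϖ : R) (hϖ0 : ϖ ≠ 0)
    (hϖ : (C ϖ : MvPolynomial σ R) ∈ 𝔓) :
    ((Fintype.card σ : ℕ∞) + 1) ≤ 𝔓.height := by
  have h1 := treshn_height_part a (Finset.univ : Finset σ)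
  rw [Finset.coe_univ, Finset.card_univ] at h1
  haveI : (RingHom.ker (treshnPart a (Set.univ : Set σ)).toRingHom).IsPrime :=
    RingHom.ker_isPrime _
  have hlt : RingHom.ker (treshnPart a (Set.univ : Set σ)).toRingHom < 𝔓 := by
    refine lt_of_le_of_ne ?_ ?_
    · intro p hp
      rw [RingHom.mem_ker] at hp
      have hp' : treshnPart a (Set.univ : Set σ) p = 0 := hp
      rw [treshnPart_univ] at hp'
      have h2 := treshn_sub_eval_mem a p
      rw [hp', sub_zero] at h2
      exact (Ideal.span_le.2 (by rintro _ ⟨j, rfl⟩; exact hX j)) h2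
    · intro heq
      rw [← heq, RingHom.mem_ker] at hϖ
      have hϖ' : treshnPart a (Set.univ : Set σ) (C ϖ) = 0 := hϖ
      rw [treshnPart_C] at hϖ'
      exact hϖ0 (MvPolynomial.C_injective σ R (hϖ'.trans (map_zero _).symm))
  exact (add_le_add_left h1 1).trans (Ideal.height_add_one_le_of_lt_of_isPrime hlt)

end chain


/-- **descent of finitely many polynomials to a noetherian subring** -/
theorem treshn_exists_noetherian {A : Type*} [CommRing A] {σ : Type*}
    (Ps : Finset (MvPolynomial σ A)) (S : Finset A) :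
    ∃ A₀ : Subalgebra ℤ A, IsNoetherianRing A₀ ∧ (∀ x ∈ S, x ∈ A₀) ∧
      ∀ p ∈ Ps, ∃ p₀ : MvPolynomial σ A₀, MvPolynomial.map (A₀.subtype : A₀ →+* A) p₀ = p := by
  classical
  let T : Finset A := S ∪ Ps.biUnion fun p => p.coeffs
  refine ⟨Algebra.adjoin ℤ (T : Set A), ?_, ?_, ?_⟩
  · have hfg : (Algebra.adjoin ℤ (T : Set A)).FG := Subalgebra.fg_adjoin_finset T
    haveI : Algebra.FiniteType ℤ (Algebra.adjoin ℤ (T : Set A)) :=
      (Subalgebra.fg_iff_finiteType _).1 hfg
    exact Algebra.FiniteType.isNoetherianRing ℤ _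
  · intro x hx
    exact Algebra.subset_adjoin (Finset.mem_coe.2 (Finset.mem_union_left _ hx))
  · intro p hp
    have : p ∈ Set.range (MvPolynomial.map
        ((Algebra.adjoin ℤ (T : Set A)).subtype : _ →+* A)) := by
      rw [MvPolynomial.mem_range_map_iff_coeffs_subset]
      intro c hc
      refine ⟨⟨c, Algebra.subset_adjoin (Finset.mem_coe.2 (Finset.mem_union_right _ ?_))⟩, rfl⟩
      exact Finset.mem_biUnion.2 ⟨p, hp, hc⟩
    exact this

section generization

open MvPolynomial

/-- **Generization step (G).**  `A` a domain, `𝔫` a prime of `A[X₁..X_N]` containing all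
`X_j - a_j` and a nonzero constant `ϖ`.  Then `𝔫` is not a minimal prime over an ideal generated
by at most `N` elements. -/
theorem treshn_not_minimal {A : Type*} [CommRing A] [IsDomain A] {σ ι : Type*} [Fintype σ]
    [Fintype ι] (hcard : Fintype.card ι ≤ Fintype.card σ) (f : ι → MvPolynomial σ A)
    (a : σ → A) (𝔫 : Ideal (MvPolynomial σ A)) [𝔫.IsPrime]
    (hX : ∀ j, (X j - C (a j) : MvPolynomial σ A) ∈ 𝔫) (ϖ : A) (hϖ0 : ϖ ≠ 0)
    (hϖ : (C ϖ : MvPolynomial σ A) ∈ 𝔫) :
    𝔫 ∉ (Ideal.span (Set.range f)).minimalPrimes := by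
  classical
  intro hmin
  -- nilpotence relations
  obtain ⟨s₀, hs₀, m₀, hm₀⟩ := treshn_minimal_nilp hmin hϖ
  have hnil := fun j => treshn_minimal_nilp hmin (hX j)
  choose s hs m hm using hnil
  rw [Ideal.mem_span_range_iff_exists_fun] at hm₀
  obtain ⟨c₀, hc₀⟩ := hm₀
  have hm' := fun j => (Ideal.mem_span_range_iff_exists_fun).1 (hm j)
  choose c hc using hm'
  -- the noetherian subring
  obtain ⟨A₀, hnoeth, hS, hP⟩ := treshn_exists_noetherian
    (Finset.univ.image f ∪ {s₀} ∪ Finset.univ.image s ∪ Finset.univ.image c₀ ∪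
      Finset.univ.image (fun x : σ × ι => c x.1 x.2))
    ({ϖ} ∪ Finset.univ.image a)
  haveI := hnoeth
  set ψ : MvPolynomial σ A₀ →+* MvPolynomial σ A :=
    MvPolynomial.map (A₀.subtype : A₀ →+* A) with hψ
  have hψinj : Function.Injective ψ :=
    MvPolynomial.map_injective _ Subtype.val_injective
  have hf₀ : ∀ i, ∃ p₀, ψ p₀ = f i := fun i => hP _ (by simp)
  have hs₀' : ∃ p₀, ψ p₀ = s₀ := hP _ (by simp)
  have hs' : ∀ j, ∃ p₀, ψ p₀ = s j := fun j => hP _ (by simp)
  have hc₀' : ∀ i, ∃ p₀, ψ p₀ = c₀ i := fun i => hP _ (by simp)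
  have hc' : ∀ j i, ∃ p₀, ψ p₀ = c j i := fun j i => hP _ (by
    simp only [Finset.mem_union, Finset.mem_image, Finset.mem_univ, true_and]
    exact Or.inr ⟨(j, i), rfl⟩)
  choose f₀ hf₀ using hf₀
  obtain ⟨t₀, ht₀⟩ := hs₀'
  choose t ht using hs'
  choose d₀ hd₀ using hc₀'
  choose d hd using hc'
  have hϖmem : ϖ ∈ A₀ := hS _ (by simp)
  have hamem : ∀ j, a j ∈ A₀ := fun j => hS _ (by simp)
  set ϖ₀ : A₀ := ⟨ϖ, hϖmem⟩ with hϖ₀
  set a₀ : σ → A₀ := fun j => ⟨a j, hamem j⟩ with ha₀
  have hψC : ∀ x : A₀, ψ (C x) = C (x : A) := fun x => by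
    rw [hψ, MvPolynomial.map_C]; rfl
  have hψX : ∀ j, ψ (X j) = X j := fun j => by rw [hψ, MvPolynomial.map_X]
  -- the ideals downstairs
  haveI h𝔫₀ : (𝔫.comap ψ).IsPrime := Ideal.comap_isPrime ψ 𝔫
  have hI₀ : Ideal.span (Set.range f₀) ≤ 𝔫.comap ψ := by
    rw [Ideal.span_le]
    rintro _ ⟨i, rfl⟩
    show ψ (f₀ i) ∈ 𝔫
    rw [hf₀ i]
    exact hmin.1.2 (Ideal.subset_span ⟨i, rfl⟩)
  obtain ⟨𝔓, h𝔓min, h𝔓le⟩ := Ideal.exists_minimalPrimes_le hI₀
  haveI : 𝔓.IsPrime := h𝔓min.1.1
  -- relations downstairs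
  have hrel₀ : (C ϖ₀ * t₀) ^ m₀ ∈ Ideal.span (Set.range f₀) := by
    have : (C ϖ₀ * t₀) ^ m₀ = ∑ i, d₀ i * f₀ i := by
      apply hψinj
      rw [map_pow, map_mul, hψC, ht₀, map_sum]
      simp only [map_mul, hd₀, hf₀]
      exact hc₀.symm
    rw [this]
    exact Ideal.sum_mem _ fun i _ => Ideal.mul_mem_left _ _ (Ideal.subset_span ⟨i, rfl⟩)
  have hrel : ∀ j, ((X j - C (a₀ j)) * t j) ^ m j ∈ Ideal.span (Set.range f₀) := by
    intro j
    have : ((X j - C (a₀ j)) * t j) ^ m j = ∑ i, d j i * f₀ i := by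
      apply hψinj
      rw [map_pow, map_mul, map_sub, hψX, hψC, ht j, map_sum]
      simp only [map_mul, hd, hf₀]
      exact (hc j).symm
    rw [this]
    exact Ideal.sum_mem _ fun i _ => Ideal.mul_mem_left _ _ (Ideal.subset_span ⟨i, rfl⟩)
  have hnot : ∀ q : MvPolynomial σ A₀, ψ q ∉ 𝔫 → q ∉ 𝔓 := fun q hq hq' => hq (h𝔓le hq')
  have hϖ𝔓 : (C ϖ₀ : MvPolynomial σ A₀) ∈ 𝔓 := by
    have h1 := Ideal.IsPrime.mem_of_pow_mem inferInstance _ (h𝔓min.1.2 hrel₀)
    exact ((Ideal.IsPrime.mem_or_mem inferInstance h1).resolve_right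
      (hnot t₀ (by rw [ht₀]; exact hs₀)))
  have hX𝔓 : ∀ j, (X j - C (a₀ j) : MvPolynomial σ A₀) ∈ 𝔓 := by
    intro j
    have h1 := Ideal.IsPrime.mem_of_pow_mem inferInstance _ (h𝔓min.1.2 (hrel j))
    exact ((Ideal.IsPrime.mem_or_mem inferInstance h1).resolve_right
      (hnot (t j) (by rw [ht j]; exact hs j)))
  have hϖ₀0 : ϖ₀ ≠ 0 := fun h0 => hϖ0 (congrArg Subtype.val h0)
  -- heights
  have hge := treshn_height_ge a₀ 𝔓 hX𝔓 ϖ₀ hϖ₀0 hϖ𝔓
  have hle : 𝔓.height ≤ (Finset.univ.image f₀).card := by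
    apply Ideal.height_le_card_of_mem_minimalPrimes_span_finset
    rw [Finset.coe_image, Finset.coe_univ, Set.image_univ]
    exact h𝔓min
  have hle2 : ((Finset.univ.image f₀).card : ℕ∞) ≤ (Fintype.card σ : ℕ∞) := by
    exact_mod_cast (Finset.card_image_le.trans (by rw [Finset.card_univ])).trans hcard
  have := hge.trans (hle.trans hle2)
  exact absurd this (by
    rw [not_le]
    exact_mod_cast Nat.lt_succ_self _)

end generization

section main

open MvPolynomial IsLocalRing

variable {A : Type*} [CommRing A] [IsLocalRing A] {σ : Type*}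

/-- the point `ā` as a ring homomorphism `A[X] → A/𝔪` -/
noncomputable def treshnPt (a : σ → A) : MvPolynomial σ A →+* ResidueField A :=
  (residue A).comp (eval a)

theorem treshnPt_eq_zero_iff (a : σ → A) (p : MvPolynomial σ A) :
    treshnPt a p = 0 ↔ eval a p ∈ maximalIdeal A := by
  rw [treshnPt, RingHom.comp_apply, residue_eq_zero_iff]

theorem treshn_mem_of_eval_mem (a : σ → A) (𝔮 : Ideal (MvPolynomial σ A))
    (hX : ∀ j, (X j - C (a j) : MvPolynomial σ A) ∈ 𝔮)
    (hm : ∀ c ∈ maximalIdeal A, (C c : MvPolynomial σ A) ∈ 𝔮)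
    (p : MvPolynomial σ A) (hp : eval a p ∈ maximalIdeal A) : p ∈ 𝔮 := by
  have h1 := treshn_sub_eval_mem a p
  have h2 : p - C (eval a p) ∈ 𝔮 :=
    (Ideal.span_le.2 (by rintro _ ⟨j, rfl⟩; exact hX j)) h1
  have h3 := 𝔮.add_mem h2 (hm _ hp)
  rwa [sub_add_cancel] at h3

/-- **NON-ÉTALE HENSEL, certificate form.** -/
theorem treshn_hensel_cert {K : Type*} [IsDomain A] [Field K] [Algebra A K]
    [IsFractionRing A K] [IsAlgClosed K] [IsIntegrallyClosed A]
    (hrk : ∀ 𝔭 : Ideal A, 𝔭.IsPrime → 𝔭 ≠ ⊥ → 𝔭 = maximalIdeal A)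
    {ι : Type*} [Fintype σ] [Fintype ι] (hcard : Fintype.card ι ≤ Fintype.card σ)
    (f : ι → MvPolynomial σ A) (a : σ → A)
    (hzero : ∀ i, eval a (f i) ∈ maximalIdeal A)
    (g : MvPolynomial σ A) (hg : eval a g ∉ maximalIdeal A)
    (hiso : ∀ j, ∃ n : ℕ, (g * (X j - C (a j))) ^ n ∈
      Ideal.span (Set.range f) ⊔ Ideal.map (C : A →+* MvPolynomial σ A) (maximalIdeal A)) :
    ∃ b : σ → A, (∀ j, b j - a j ∈ maximalIdeal A) ∧ ∀ i, eval b (f i) = 0 := by
  classical
  by_cases hbot : maximalIdeal A = ⊥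
  · refine ⟨a, fun j => by simp, fun i => ?_⟩
    have := hzero i
    rwa [hbot, Ideal.mem_bot] at this
  obtain ⟨ϖ, hϖm, hϖ0⟩ : ∃ ϖ ∈ maximalIdeal A, ϖ ≠ 0 := by
    by_contra hcon
    refine hbot ((Submodule.eq_bot_iff _).2 fun x hx => ?_)
    by_contra hx0
    exact hcon ⟨x, hx, hx0⟩
  set 𝔫 : Ideal (MvPolynomial σ A) := RingHom.ker (treshnPt a) with h𝔫
  haveI : 𝔫.IsPrime := RingHom.ker_isPrime _
  have hmem𝔫 : ∀ p, p ∈ 𝔫 ↔ eval a p ∈ maximalIdeal A := fun p => by
    rw [h𝔫, RingHom.mem_ker, treshnPt_eq_zero_iff]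
  have hX : ∀ j, (X j - C (a j) : MvPolynomial σ A) ∈ 𝔫 := fun j => by
    rw [hmem𝔫]; simp
  have hϖ : (C ϖ : MvPolynomial σ A) ∈ 𝔫 := by rw [hmem𝔫]; simpa using hϖm
  have hI : Ideal.span (Set.range f) ≤ 𝔫 := by
    rw [Ideal.span_le]
    rintro _ ⟨i, rfl⟩
    exact (hmem𝔫 _).2 (hzero i)
  obtain ⟨𝔮, h𝔮min, h𝔮le⟩ := Ideal.exists_minimalPrimes_le hI
  haveI h𝔮p : 𝔮.IsPrime := h𝔮min.1.1
  have h𝔮ne : 𝔮 ≠ 𝔫 := fun h => treshn_not_minimal hcard f a 𝔫 hX ϖ hϖ0 hϖ (h ▸ h𝔮min)
  have hg𝔮 : g ∉ 𝔮 := fun h => hg ((hmem𝔫 g).1 (h𝔮le h))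
  -- the key consequence of the certificate
  have hkey : ∀ 𝔯 : Ideal (MvPolynomial σ A), 𝔯.IsPrime → 𝔮 ≤ 𝔯 → g ∉ 𝔯 →
      (∀ c ∈ maximalIdeal A, (C c : MvPolynomial σ A) ∈ 𝔯) → 𝔫 ≤ 𝔯 := by
    intro 𝔯 h𝔯 hle hg𝔯 hm p hp
    refine treshn_mem_of_eval_mem a 𝔯 (fun j => ?_) hm p ((hmem𝔫 p).1 hp)
    obtain ⟨n, hn⟩ := hiso j
    have h1 : (g * (X j - C (a j))) ^ n ∈ 𝔯 := by
      refine (sup_le (h𝔮min.1.2.trans hle) ?_) hn
      rw [Ideal.map_le_iff_le_comap]
      intro c hc
      exact hm c hc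
    exact (h𝔯.mem_or_mem (h𝔯.mem_of_pow_mem _ h1)).resolve_left hg𝔯
  -- `𝔮` lies over `0`
  have h𝔮A : 𝔮.comap (C : A →+* MvPolynomial σ A) = ⊥ := by
    by_contra hne
    have h1 := hrk _ (Ideal.comap_isPrime _ _) hne
    have h2 : 𝔫 ≤ 𝔮 := hkey 𝔮 h𝔮p le_rfl hg𝔮 (fun c hc => by
      have : c ∈ 𝔮.comap (C : A →+* MvPolynomial σ A) := h1 ▸ hc
      exact this)
    exact h𝔮ne (le_antisymm h𝔮le h2)
  -- the quotient
  let B := MvPolynomial σ A ⧸ 𝔮
  haveI : IsDomain B := Ideal.Quotient.isDomain 𝔮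
  haveI : Algebra.FiniteType A B :=
    Algebra.FiniteType.of_surjective (Ideal.Quotient.mkₐ A 𝔮) (Ideal.Quotient.mkₐ_surjective A 𝔮)
  have halg : ∀ c : A, algebraMap A B c = Ideal.Quotient.mk 𝔮 (C c) := fun c => rfl
  have hinj : Function.Injective (algebraMap A B) := by
    rw [injective_iff_map_eq_zero]
    intro c hc
    rw [halg, Ideal.Quotient.eq_zero_iff_mem] at hc
    have : c ∈ 𝔮.comap (C : A →+* MvPolynomial σ A) := hc
    rwa [h𝔮A, Ideal.mem_bot] at this
  set φ : B →+* ResidueField A := Ideal.Quotient.lift 𝔮 (treshnPt a)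
    (fun p hp => (RingHom.mem_ker).1 (h𝔮le hp)) with hφ
  set 𝔑 : Ideal B := RingHom.ker φ with h𝔑
  haveI : 𝔑.IsPrime := RingHom.ker_isPrime _
  have hmem𝔑 : ∀ p, Ideal.Quotient.mk 𝔮 p ∈ 𝔑 ↔ eval a p ∈ maximalIdeal A := fun p => by
    rw [h𝔑, RingHom.mem_ker, hφ, Ideal.Quotient.lift_mk, treshnPt_eq_zero_iff]
  have h𝔑A : ∀ c : A, algebraMap A B c ∈ 𝔑 ↔ c ∈ maximalIdeal A := fun c => by
    rw [halg, hmem𝔑]; simp
  -- quasi-finiteness at `𝔑`
  haveI hQF : Algebra.QuasiFiniteAt A 𝔑 := by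
    let q : PrimeSpectrum B := ⟨𝔑, inferInstance⟩
    have hq : Algebra.QuasiFiniteAt A q.asIdeal := by
      apply Algebra.QuasiFiniteAt.of_isOpen_singleton_fiber
      have hset : ({⟨q, rfl⟩} : Set ↥((PrimeSpectrum.comap (algebraMap A B)) ⁻¹'
          {q.comap (algebraMap A B)})) =
          Subtype.val ⁻¹' (PrimeSpectrum.basicOpen (Ideal.Quotient.mk 𝔮 g) : Set _) := by
        ext ⟨x, hx⟩
        rw [Set.mem_singleton_iff, Subtype.ext_iff]
        show x = q ↔ Ideal.Quotient.mk 𝔮 g ∉ x.asIdeal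
        constructor
        · intro hxq
          rw [hxq]
          intro h
          exact hg ((hmem𝔑 g).1 h)
        · intro hgx
          have hxA : ∀ c ∈ maximalIdeal A, algebraMap A B c ∈ x.asIdeal := by
            intro c hc
            have h1 : x.comap (algebraMap A B) = q.comap (algebraMap A B) := hx
            have h2 : c ∈ (q.comap (algebraMap A B)).asIdeal := (h𝔑A c).2 hc
            rw [← h1] at h2
            exact h2
          have hle : 𝔫 ≤ x.asIdeal.comap (Ideal.Quotient.mk 𝔮) :=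
            hkey _ (Ideal.comap_isPrime _ _)
              (fun p hp => by
                show Ideal.Quotient.mk 𝔮 p ∈ x.asIdeal
                rw [Ideal.Quotient.eq_zero_iff_mem.2 hp]
                exact x.asIdeal.zero_mem)
              hgx (fun c hc => hxA c hc)
          have hle' : 𝔑 ≤ x.asIdeal := by
            intro y hy
            obtain ⟨p, rfl⟩ := Ideal.Quotient.mk_surjective y
            exact hle ((hmem𝔫 p).2 ((hmem𝔑 p).1 hy))
          have hmax : 𝔑.IsMaximal := by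
            rw [h𝔑]
            refine RingHom.ker_isMaximal_of_surjective φ ?_
            intro y
            obtain ⟨c, rfl⟩ := residue_surjective y
            refine ⟨algebraMap A B c, ?_⟩
            rw [halg, hφ, Ideal.Quotient.lift_mk, treshnPt, RingHom.comp_apply, eval_C]
          apply PrimeSpectrum.ext
          exact (hmax.eq_of_le x.2.ne_top hle').symm
      rw [hset]
      exact (PrimeSpectrum.basicOpen _).isOpen.preimage continuous_subtype_val
    exact hq
  have hsurj := treshn_surjective_of_quasiFiniteAt (K := K) 𝔑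
    (fun c hc => (h𝔑A c).2 hc)
  choose b hb using fun j => hsurj (Ideal.Quotient.mk 𝔮 (X j))
  have hev : ∀ p : MvPolynomial σ A, algebraMap A B (eval b p) = Ideal.Quotient.mk 𝔮 p := by
    intro p
    have : (Algebra.ofId A B).comp (aeval b) = Ideal.Quotient.mkₐ A 𝔮 := by
      apply MvPolynomial.algHom_ext
      intro j
      simp only [AlgHom.comp_apply, aeval_X, Algebra.ofId_apply]
      exact hb j
    have h1 := DFunLike.congr_fun this p
    rw [AlgHom.comp_apply, Algebra.ofId_apply, Ideal.Quotient.mkₐ_eq_mk] at h1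
    rw [← h1]
    rfl
  refine ⟨b, fun j => ?_, fun i => ?_⟩
  · rw [← h𝔑A, map_sub, hb j, halg, ← map_sub, hmem𝔑]
    simp
  · apply hinj
    rw [hev, map_zero, Ideal.Quotient.eq_zero_iff_mem]
    exact h𝔮min.1.2 (Ideal.subset_span ⟨i, rfl⟩)

end main

end Fermat.Agent.R38
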