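import Fermat.Agent.R38.TresHensel
import Fermat.Agent.ES.LR.Arch

/-!
# R38 / SURJ-NEH — NON-ÉTALE HENSEL for the valuation subrings of `ℚ̄`

`treshn_hensel_Kb` : `A ⊂ ℚ̄` a valuation subring over a prime `ℓ`, `res : A → k` a model of the
residue field (`k` algebraically closed), `f` a system of `≤ N` polynomials in `N` unknowns over
`A`, `a ∈ Aᴺ` with `f(a) ≡ 0`, and (ISO-k): `res a` is the only `k`-solution of the reduced
system in the basic open set `g ≠ 0`.  Then there is an exact solution `b ∈ Aᴺ`, `res b = res a`.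
-/

set_option autoImplicit false

namespace Fermat.Agent.R38

open MvPolynomial

/-- **NON-ÉTALE HENSEL** for `A ⊂ ℚ̄` over `ℓ`, `k`-point form. -/
theorem treshn_hensel_Kb (A : ValuationSubring (AlgebraicClosure ℚ)) {ℓ : ℕ} (hℓ : ℓ.Prime)
    (hA : A.LiesOverPrime ℓ)
    {k : Type*} [Field k] [IsAlgClosed k] (res : A →+* k)
    (hres : Function.Surjective res)
    (hker : ∀ x : A, res x = 0 ↔ (x : AlgebraicClosure ℚ) ∈ A.nonunits)
    {σ ι : Type*} [Fintype σ] [Fintype ι] (hcard : Fintype.card ι ≤ Fintype.card σ)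
    (f : ι → MvPolynomial σ A) (a : σ → A)
    (hzero : ∀ i, res (eval a (f i)) = 0)
    (g : MvPolynomial σ k) (hg : eval (fun j => res (a j)) g ≠ 0)
    (hiso : ∀ x : σ → k, (∀ i, eval x (MvPolynomial.map res (f i)) = 0) → eval x g ≠ 0 →
      x = fun j => res (a j)) :
    ∃ b : σ → A, (∀ j, res (b j) = res (a j)) ∧ ∀ i, eval b (f i) = 0 :=
  treshn_hensel_val A (fun δ c h1 h2 => Fermat.Agent.ES.LR.arch_Qbar A hℓ hA δ c h1 h2)
    res hres hker hcard f a hzero g hg hiso

end Fermat.Agent.R38
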