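/-
ROW 38, TRES, piece FAC-HOR (helper61), part 2: THE COVER IS GENERATED BY ITS `K`-FORM.

Abstract setting of `R38/TresHor.lean`: `K̄` the big constant field, `F̄ ⊆ L̄` function fields
over `K̄` with `[L̄ : F̄] = p` PRIME, `L_K ⊆ L̄` a subfield (the `K`-form of the cover).
If `F̄ ⊆ K̄ · L_K` (e.g. `F̄ = K̄ · F_K` and `F_K ⊆ L_K`) and `L_K` contains ONE element outside
`F̄` (e.g. the `K`-rational split generator `z_K` of K-FORM), then `L̄ = K̄ · L_K`:

* `tres5h_hgen_of_prime` : `IntermediateField.adjoin K̄ (Set.range (algebraMap L_K L̄)) = ⊤`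
  (= hypothesis `hgen` of `tres5h_main`);
* `tres5h_hgen_of_adjoin` : the same from `F̄(z) = L̄`, `z ∈ L_K` (any degree);
* `tres5h_hgen_of_prime'`, `tres5h_hgen_of_adjoin'` : the same with `F̄ = K̄ · F_K`,
  `F_K ⊆ L_K` as hypotheses (`tres5h_base_mem`).
-/
import Mathlib

set_option autoImplicit false
set_option linter.style.haveILetI false
set_option linter.unusedSectionVars false
set_option linter.unusedVariables false

namespace Fermat.Agent.R38

section Gen

variable {Kb Fb Lb LK : Type*} [Field Kb] [Field Fb] [Field Lb] [Field LK]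
  [Algebra Kb Lb] [Algebra LK Lb] [Algebra Fb Lb]

/-- **the cover is generated by its `K`-form** (prime degree) -/
theorem tres5h_hgen_of_prime (hp : (Module.finrank Fb Lb).Prime)
    (hF : ∀ x : Fb, algebraMap Fb Lb x ∈
      IntermediateField.adjoin Kb (Set.range (algebraMap LK Lb)))
    (z : LK) (hz : algebraMap LK Lb z ∉ Set.range (algebraMap Fb Lb)) :
    IntermediateField.adjoin Kb (Set.range (algebraMap LK Lb)) = ⊤ := by
  set M := IntermediateField.adjoin Kb (Set.range (algebraMap LK Lb)) with hM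
  let M' : IntermediateField Fb Lb := M.toSubfield.toIntermediateField hF
  haveI : IsSimpleOrder (IntermediateField Fb Lb) :=
    IntermediateField.isSimpleOrder_of_finrank_prime Fb Lb hp
  have hzM : algebraMap LK Lb z ∈ M' :=
    IntermediateField.subset_adjoin Kb _ ⟨z, rfl⟩
  rcases eq_bot_or_eq_top M' with h | h
  · exfalso
    apply hz
    rw [h, IntermediateField.mem_bot] at hzM
    exact hzM
  · rw [eq_top_iff]
    intro x _
    have hx : x ∈ M' := by rw [h]; trivial
    exact hx

/-- **the cover is generated by its `K`-form**, from a generator of `L̄ / F̄` in `L_K`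
(no hypothesis on the degree) -/
theorem tres5h_hgen_of_adjoin
    (hF : ∀ x : Fb, algebraMap Fb Lb x ∈
      IntermediateField.adjoin Kb (Set.range (algebraMap LK Lb)))
    (z : LK) (hz : IntermediateField.adjoin Fb {algebraMap LK Lb z} = ⊤) :
    IntermediateField.adjoin Kb (Set.range (algebraMap LK Lb)) = ⊤ := by
  set M := IntermediateField.adjoin Kb (Set.range (algebraMap LK Lb)) with hM
  let M' : IntermediateField Fb Lb := M.toSubfield.toIntermediateField hF
  have hzM : algebraMap LK Lb z ∈ M' :=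
    IntermediateField.subset_adjoin Kb _ ⟨z, rfl⟩
  have hle : IntermediateField.adjoin Fb {algebraMap LK Lb z} ≤ M' := by
    rw [IntermediateField.adjoin_le_iff]
    rintro _ rfl
    exact hzM
  rw [hz] at hle
  rw [eq_top_iff]
  intro x _
  have hx : x ∈ M' := hle trivial
  exact hx

/-- `F̄ = K̄ · F_K` and `F_K ⊆ L_K` give `F̄ ⊆ K̄ · L_K` -/
theorem tres5h_base_mem {FK : Type*} [Field FK] [Algebra FK LK] [Algebra FK Fb] [Algebra FK Lb]
    [Algebra Kb Fb] [IsScalarTower FK LK Lb] [IsScalarTower FK Fb Lb] [IsScalarTower Kb Fb Lb]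
    (hFgen : IntermediateField.adjoin Kb (Set.range (algebraMap FK Fb)) = ⊤) (x : Fb) :
    algebraMap Fb Lb x ∈ IntermediateField.adjoin Kb (Set.range (algebraMap LK Lb)) := by
  have hx : x ∈ IntermediateField.adjoin Kb (Set.range (algebraMap FK Fb)) := by
    rw [hFgen]; trivial
  have hle : (IntermediateField.adjoin Kb (Set.range (algebraMap FK Fb))).map
      (IsScalarTower.toAlgHom Kb Fb Lb) ≤
      IntermediateField.adjoin Kb (Set.range (algebraMap LK Lb)) := by
    rw [IntermediateField.adjoin_map, IntermediateField.adjoin_le_iff]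
    rintro _ ⟨_, ⟨a, rfl⟩, rfl⟩
    refine IntermediateField.subset_adjoin Kb _ ⟨algebraMap FK LK a, ?_⟩
    rw [← IsScalarTower.algebraMap_apply FK LK Lb]
    exact IsScalarTower.algebraMap_apply FK Fb Lb a
  exact hle ⟨x, hx, rfl⟩

variable {FK : Type*} [Field FK] [Algebra FK LK] [Algebra FK Fb] [Algebra FK Lb]
  [Algebra Kb Fb] [IsScalarTower FK LK Lb] [IsScalarTower FK Fb Lb] [IsScalarTower Kb Fb Lb]

/-- the same, with `F̄ = K̄ · F_K` and `F_K ⊆ L_K` -/
theorem tres5h_hgen_of_prime' (hp : (Module.finrank Fb Lb).Prime)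
    (hFgen : IntermediateField.adjoin Kb (Set.range (algebraMap FK Fb)) = ⊤)
    (z : LK) (hz : algebraMap LK Lb z ∉ Set.range (algebraMap Fb Lb)) :
    IntermediateField.adjoin Kb (Set.range (algebraMap LK Lb)) = ⊤ :=
  tres5h_hgen_of_prime hp (fun x => tres5h_base_mem hFgen x) z hz

/-- the same from a generator of `L̄ / F̄` in `L_K` -/
theorem tres5h_hgen_of_adjoin'
    (hFgen : IntermediateField.adjoin Kb (Set.range (algebraMap FK Fb)) = ⊤)
    (z : LK) (hz : IntermediateField.adjoin Fb {algebraMap LK Lb z} = ⊤) :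
    IntermediateField.adjoin Kb (Set.range (algebraMap LK Lb)) = ⊤ :=
  tres5h_hgen_of_adjoin (fun x => tres5h_base_mem hFgen x) z hz

end Gen

end Fermat.Agent.R38
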