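/-
ROW 38, TRES, StmtMonoCover, piece HHOR-WIRE (helper10; helper44 RULING 01:40Z).

THE LITERAL hypothesis `hhor` of (I3) `tres5npj_hfin` (`R38/TresNodePtConc.lean`, helper92) and of
(I4) `tres5npc_hcusp` / `tres5npc_hcusp_rigid` (`R38/TresNodePtCusp.lean`, helper84) for

    K = beta0Field A = ℚ̄^I,   L = ↥(tres5cL K N y)   (the `K`-form of the cover `F_N(ℚ̄)(y)`),
    `Algebra F_N(K) L`  = the `IntermediateField` instance,
    `Algebra K L`       = `tres5hAlgEL K N y` (helper61; reducible def, passed by `letI`),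
    `IsScalarTower K F_N(K) L` = `tres5hi_tower K N y`,

from helper61's `tres5h_cover`, helper64's `tres5cd_hgen_kummer` / `tres5cd_all` and helper30's
`tresdesck_final`.

* `tres5hi_tower`      : the scalar tower `K → F_N(K) → L_K` for `tres5hAlgEL`;
* `tres5hi_of_forall`  : the 4th clause of `tres5cd_all` / `tresdesck_all`
                         (`∀ alg, hconst → ∀ P, p ∣ ord_P w`)  ⇒  the literal `hhor`;
* `tres5hi_hhor`       : the literal `hhor` from a decomposition `u = C c · H ^ p · ι g`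
                         (`hgen` discharged: `tres5cd_hor_kummer`);
* `tres5hi_all`        : `tres5cd_all` with its 4th clause in the literal form;
USAGE in a consumer (no global instance `Algebra K L_K` exists, the search times out):
    letI := tres5hAlgEL K N y
    haveI := tres5hi_tower K N y
    ... (tres5hi_of_forall K N y w hhor4) ...
The wrappers of (I3)/(I4) themselves are in `R38/TresHorInstW.lean`.
-/
import Fermat.Agent.R38.TresDescKAll

set_option autoImplicit false
set_option linter.unusedSectionVars false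
set_option linter.unusedVariables false
set_option linter.style.haveILetI false
set_option linter.style.longLine false
set_option synthInstance.maxHeartbeats 400000
set_option maxHeartbeats 1600000

noncomputable section

namespace Fermat.Agent.R38

open ModularCurve AlgebraicCurve Fermat.Agent.ES Fermat.Agent.ES.G2 Fermat.Agent.INJ
  Fermat.Agent.UNIP Fermat.Agent.S36 Fermat.Agent.RIB.MP

section Tower

variable (E : IntermediateField ℚ NfQb) (N : ℕ) (y : LaurentSeries NfQb)

/-- the scalar tower `E → F_N(E) → L_E` for the algebra structure `tres5hAlgEL` -/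
theorem tres5hi_tower :
    @IsScalarTower ↥E ↥(modularFunctionFieldFullC ↥E N) ↥(tres5cL E N y) _ _
      (tres5hAlgEL E N y).toSMul := by
  letI := tres5hAlgEL E N y
  exact IsScalarTower.of_algebraMap_eq (fun _ => rfl)

/-- the 4th clause of `tres5cd_all` gives the literal `hhor` -/
theorem tres5hi_of_forall {p : ℕ} (w : ↥(tres5cL E N y))
    (H : ∀ (alg : Algebra ↥E ↥(tres5cL E N y)),
      (∀ c : ↥E, ((@algebraMap ↥E ↥(tres5cL E N y) _ _ alg c : ↥(tres5cL E N y)) :
        LaurentSeries ↥E) = algebraMap ↥E (LaurentSeries ↥E) c) →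
      ∀ P : @Place ↥E ↥(tres5cL E N y) _ _ alg,
        (p : ℤ) ∣ @Place.ord ↥E ↥(tres5cL E N y) _ _ alg P w) :
    letI := tres5hAlgEL E N y
    ∀ Pl : Place ↥E ↥(tres5cL E N y), (p : ℤ) ∣ Pl.ord w :=
  H (tres5hAlgEL E N y) (tres5hAlgEL_const E N y)

end Tower

section Hor

variable {N : ℕ} [NeZero N]

/-- **the literal `hhor`** from a decomposition `u = C c · H ^ p · ι g` of a Kummer function. -/
theorem tres5hi_hhor (A : ValuationSubring Qb) {y : LaurentSeries NfQb}
    {p : ℕ} (hp : p ≠ 0) {x z₀ : JZero N} {u w₀ : modularFunctionFieldBar N}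
    (hu : KummerRel p x u) (hw : KummerRel p z₀ w₀)
    (hy : y ^ p = (w₀ : LaurentSeries NfQb))
    (htor : ∀ σ ∈ A.inertiaSubgroupIn ℚ, ∃ g : ℤ, σ • z₀ = g • z₀)
    {c : NfQb} (hc : c ≠ 0) {H : LaurentSeries NfQb} (hH : H ∈ tres5cField N y) (hH0 : H ≠ 0)
    (g : ↥(tres5cL (beta0Field A) N y))
    (h : (u : LaurentSeries NfQb) = HahnSeries.C c * H ^ p *
      coeffMap (algebraMap ↥(beta0Field A) NfQb) (g : LaurentSeries ↥(beta0Field A))) :
    letI := tres5hAlgEL (beta0Field A) N y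
    ∀ Pl : Place ↥(beta0Field A) ↥(tres5cL (beta0Field A) N y), (p : ℤ) ∣ Pl.ord g := by
  letI := tres5hAlgEL (beta0Field A) N y
  intro Pl
  refine tres5cd_hor_kummer A (tres5hAlgEL_const (beta0Field A) N y) hp hu hw hy htor hc hH hH0
    g ?_ Pl
  rw [s36d_algebraMap_eq_C]
  exact h

/-- **Steps 4 + 5 over `K = ℚ̄^I`** (`tres5cd_all`) with `hhor` in the LITERAL form of
`tres5npj_hfin` / `tres5npc_hcusp`. -/
theorem tres5hi_all {p : ℕ} [Fact p.Prime] (A : ValuationSubring Qb)
    (hA : A.LiesOverPrime p)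
    {x z₀ : JZero N} {u w₀ : modularFunctionFieldBar N} (hu : KummerRel p x u)
    (hw : KummerRel p z₀ w₀) {y : LaurentSeries NfQb}
    (hy : y ^ p = (w₀ : LaurentSeries NfQb))
    (hline : ∀ σ ∈ A.inertiaSubgroupIn ℚ, ∃ k : ℤ, σ • x - x = k • z₀)
    (hpeu : ∀ σ ∈ peuSubgroup A p, σ • x = x)
    (t : ↥(tres5cField N y) →+* LaurentSeries NfQb) (htmem : ∀ z, t z ∈ tres5cField N y)
    (htF : ∀ (f : LaurentSeries NfQb) (hf : f ∈ modularFunctionFieldBar N),
      t ⟨f, tres5c_bar_le N y hf⟩ = f)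
    {ζ : NfQb} (hζ : ζ ≠ 0) (hty : t ⟨y, tres5c_y_mem N y⟩ = HahnSeries.C ζ * y)
    (htor : ∀ σ ∈ A.inertiaSubgroupIn ℚ, ∃ g : ℤ, σ • z₀ = g • z₀ ∧ σ ζ = ζ ^ g) :
    ∃ (w h : ↥(tres5cL (beta0Field A) N y)) (γ : LaurentSeries NfQb)
      (a : ↥(modularFunctionFieldFullC ↥(beta0Field A) N)),
      w ≠ 0 ∧ h ≠ 0 ∧ a ≠ 0 ∧ γ ∈ tres5cField N y ∧ γ ≠ 0 ∧
      (u : LaurentSeries NfQb) =
        HahnSeries.C (u : LaurentSeries NfQb).leadingCoeff * γ ^ p *
          coeffMap (algebraMap ↥(beta0Field A) NfQb) (w : LaurentSeries ↥(beta0Field A)) ∧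
      (∀ ρK : ↥(tres5cL (beta0Field A) N y) →+* ↥(tres5cL (beta0Field A) N y),
        (∀ f : ↥(tres5cL (beta0Field A) N y),
          coeffMap (algebraMap ↥(beta0Field A) NfQb)
            ((ρK f : ↥(tres5cL (beta0Field A) N y)) : LaurentSeries ↥(beta0Field A)) =
              t (tres5cEmb (beta0Field A) N y f)) →
        ρK w = algebraMap ↥(modularFunctionFieldFullC ↥(beta0Field A) N)
          ↥(tres5cL (beta0Field A) N y) a * w * h ^ p) ∧
      (∀ (VK : ValuationSubring ↥(modularFunctionFieldFullC ↥(beta0Field A) N))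
        (πK : ↥(modularFunctionFieldFullC ↥(beta0Field A) N)), πK ∈ VK.nonunits → πK ≠ 0 →
        (∀ x : ↥(modularFunctionFieldFullC ↥(beta0Field A) N), x ≠ 0 →
          ∃ m : ℤ, VK.valuation (x / πK ^ m) = 1) →
        (∀ υ : ↥(beta0Field A), (υ : Qb) ∈ A → ((υ : Qb))⁻¹ ∈ A →
          VK.valuation
            (algebraMap ↥(beta0Field A) ↥(modularFunctionFieldFullC ↥(beta0Field A) N) υ) = 1) →
        (p : ℤ) ∣ tres5Ord VK πK a) ∧
      (letI := tres5hAlgEL (beta0Field A) N y
       ∀ Pl : Place ↥(beta0Field A) ↥(tres5cL (beta0Field A) N y), (p : ℤ) ∣ Pl.ord w) := by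
  obtain ⟨w, h, γ, a, hw0, hh0, ha0, hγF, hγ, hU, hdeck, hord, hhor⟩ :=
    tres5cd_all A hA hu hw hy hline hpeu t htmem htF hζ hty htor
  exact ⟨w, h, γ, a, hw0, hh0, ha0, hγF, hγ, hU, hdeck, hord,
    tres5hi_of_forall (beta0Field A) N y w hhor⟩

end Hor

end Fermat.Agent.R38

end
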