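/-
Row 38, PKG-TRES, MONO, piece FAC-LOC (helper92), part 2: the local factorisation (LF) at the
points `(𝔫, z - c k)` of the cover — the INSTANCE of `R38/TresNode.lean` at helper28's local rings
`O′_k = ls_localSubring (tres5eMax R z (c k))` (`R38/TresEtale.lean`, ET-PRIME).

Frame of helper28: `R` a noetherian normal local domain (`R = atLoc 𝔫`, `𝔫` a closed point of the
chart of `X` over `K`), `F = Frac R`, `L = F[z]`, `H : Tres5eSplit F z P c`, `k : ι`.

* `tres5n_cross_at`  : **(LF) at a point of the cover above a THIN node** `𝔪_R = (X, Y)`,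
  `w ϖ = X Y`: `y = ε · X ^ a · Y ^ b · γ ^ m`, `W₁ = O′_(X)`, `W₂ = O′_(Y)`.
* `tres5n_smooth_at` : the same above a smooth point `𝔪_R = (ϖ, s)`.
* `tres5n_comap_at`  : `O′_(X) ∩ F = V₁` if `V₁ = R_(X)`.
* `tres5n_unique_at` : a valuation ring `W ⊇ O′_k` of `L` over `V₁` is `O′_(X)`.
* `tres5n_exists_le` : every valuation ring `W ⊇ R` of `L` contains some `O′_k`
  (so every sheet passes through a point above `𝔫`; with `tres5n_unique_at`: every valuation
  ring of `L` over `V₁` is `(O′_k)_(X)` for some `k`).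
-/
import Fermat.Agent.R38.TresNode
import Fermat.Agent.R38.TresEtaleFrac
import Fermat.Agent.R38.TresCoverLoc

set_option autoImplicit false
set_option linter.unusedSectionVars false
set_option linter.unusedVariables false
set_option linter.style.haveILetI false
set_option linter.style.longLine false

noncomputable section

namespace Fermat.Agent.R38

open IsLocalRing AlgebraicCurve Polynomial Fermat.Agent.UNIP

section At

variable {R L : Type*} {F : Type*} [CommRing R] [IsDomain R] [Field F] [Field L]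
  [Algebra R F] [IsFractionRing R F] [IsIntegrallyClosed R] [IsLocalRing R]
  [Algebra F L] [Algebra R L] [IsScalarTower R F L]
  {ι : Type*} [Fintype ι] {z : L} {P : R[X]} {c : ι → R}
  {E : Type*} [Field E] [Algebra E F] [Algebra E L] [IsScalarTower E F L]

/-- the constants lie in `O′_k [1 / ϖ]` -/
theorem tres5n_hE_at (H : Tres5eSplit F z P c) (k : ι) [(tres5eMax R z (c k)).IsPrime]
    (ϖ : R)
    (hE : ∀ e : E, ∃ (n : ℕ) (a : R),
      algebraMap E F e * algebraMap R F ϖ ^ n = algebraMap R F a) (e : E) :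
    ∃ (n : ℕ) (a : ls_localSubring (F := L) (tres5eMax R z (c k))),
      algebraMap E L e * ((tres5eBaseToLoc z (c k) ϖ :
        ls_localSubring (F := L) (tres5eMax R z (c k))) : L) ^ n = (a : L) := by
  obtain ⟨n, a, h⟩ := hE e
  refine ⟨n, tres5eBaseToLoc z (c k) a, ?_⟩
  rw [tres5eBaseToLoc_coe, tres5eBaseToLoc_coe, IsScalarTower.algebraMap_apply E F L,
    IsScalarTower.algebraMap_apply R F L, IsScalarTower.algebraMap_apply R F L a, ← map_pow,
    ← map_mul, h]

/-- **(LF) at a point of the cover above a thin node.** -/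
theorem tres5n_cross_at (H : Tres5eSplit F z P c) [IsNoetherianRing R] (k : ι)
    [(tres5eMax R z (c k)).IsPrime]
    {X Y ϖ w : R} (hmax : maximalIdeal R = Ideal.span {X, Y}) (hX : Prime X) (hY : Prime Y)
    (hXY : ¬ X ∣ Y) (hYX : ¬ Y ∣ X) (hw : IsUnit w) (hϖ : w * ϖ = X * Y)
    (hE : ∀ e : E, ∃ (n : ℕ) (a : R),
      algebraMap E F e * algebraMap R F ϖ ^ n = algebraMap R F a) :
    ∃ W₁ W₂ : ValuationSubring L,
      Tres5nIsLoc (ls_localSubring (F := L) (tres5eMax R z (c k)))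
        (tres5eBaseToLoc z (c k) X) W₁ ∧
      Tres5nIsLoc (ls_localSubring (F := L) (tres5eMax R z (c k)))
        (tres5eBaseToLoc z (c k) Y) W₂ ∧
      ∀ (m : ℕ) (y : L), y ≠ 0 →
        (∀ Pl : Place E L, (∀ x ∈ ls_localSubring (F := L) (tres5eMax R z (c k)),
          x ∈ Pl.toValuationSubring) → (m : ℤ) ∣ Pl.ord y) →
        ∃ (γ : L) (ε : ls_localSubring (F := L) (tres5eMax R z (c k))) (a b : ℤ), IsUnit ε ∧
          y = (ε : L) * algebraMap R L X ^ a * algebraMap R L Y ^ b * γ ^ m ∧ γ ≠ 0 ∧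
          W₁.valuation γ = 1 ∧ W₂.valuation γ = 1 ∧
          W₁.valuation y = W₁.valuation (algebraMap R L ϖ) ^ a ∧
          W₂.valuation y = W₂.valuation (algebraMap R L ϖ) ^ b := by
  haveI := H.loc_isLocalRing k
  haveI := H.loc_isNoetherianRing k
  have hmax' := H.loc_maximalIdeal k hmax
  have hX' := H.loc_prime k hmax hX
  have hmaxY : maximalIdeal R = Ideal.span {Y, X} := by rw [hmax, Set.pair_comm]
  have hY' := H.loc_prime k hmaxY hY
  have hϖ' : tres5eBaseToLoc z (c k) w * tres5eBaseToLoc z (c k) ϖ =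
      tres5eBaseToLoc z (c k) X * tres5eBaseToLoc z (c k) Y := by
    rw [← map_mul, ← map_mul, hϖ]
  exact tres5n_fac (E := E) (ls_localSubring (F := L) (tres5eMax R z (c k))) (H.loc_frac k)
    (tres5eBaseToLoc z (c k) X) (tres5eBaseToLoc z (c k) Y) hmax' hX' hY'
    (H.not_dvd_loc k hX hXY) (H.not_dvd_loc k hY hYX)
    (tres5eBaseToLoc z (c k) ϖ) (tres5eBaseToLoc z (c k) w) (H.isUnit_loc k hw) hϖ'
    (tres5n_hE_at H k ϖ hE)

/-- **(LF) at a point of the cover above a smooth point.** -/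
theorem tres5n_smooth_at (H : Tres5eSplit F z P c) [IsNoetherianRing R] (k : ι)
    [(tres5eMax R z (c k)).IsPrime]
    {ϖ s : R} (hmax : maximalIdeal R = Ideal.span {ϖ, s}) (hϖ : Prime ϖ)
    (hE : ∀ e : E, ∃ (n : ℕ) (a : R),
      algebraMap E F e * algebraMap R F ϖ ^ n = algebraMap R F a) :
    ∃ W : ValuationSubring L,
      Tres5nIsLoc (ls_localSubring (F := L) (tres5eMax R z (c k)))
        (tres5eBaseToLoc z (c k) ϖ) W ∧
      ∀ (m : ℕ) (y : L), y ≠ 0 →
        (∀ Pl : Place E L, (∀ x ∈ ls_localSubring (F := L) (tres5eMax R z (c k)),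
          x ∈ Pl.toValuationSubring) → (m : ℤ) ∣ Pl.ord y) →
        ∃ (γ : L) (ε : ls_localSubring (F := L) (tres5eMax R z (c k))) (a : ℤ), IsUnit ε ∧
          y = (ε : L) * algebraMap R L ϖ ^ a * γ ^ m ∧ γ ≠ 0 ∧
          W.valuation γ = 1 ∧ W.valuation y = W.valuation (algebraMap R L ϖ) ^ a := by
  haveI := H.loc_isLocalRing k
  haveI := H.loc_isNoetherianRing k
  have hmax' := H.loc_maximalIdeal k hmax
  have hϖ' := H.loc_prime k hmax hϖ
  exact tres5n_fac_smooth (E := E) (ls_localSubring (F := L) (tres5eMax R z (c k)))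
    (H.loc_frac k) (tres5eBaseToLoc z (c k) ϖ) (tres5eBaseToLoc z (c k) s) hmax' hϖ'
    (tres5n_hE_at H k ϖ hE)

/-- **`O′_(X) ∩ F = V₁`** for the vertical valuation ring `V₁ = R_(X)` of `F`. -/
theorem tres5n_comap_at (H : Tres5eSplit F z P c) (k : ι) [(tres5eMax R z (c k)).IsPrime]
    {X : R} (hX : Prime X) (hX' : Prime (tres5eBaseToLoc z (c k) X))
    {W₁ : ValuationSubring L}
    (hW₁ : Tres5nIsLoc (ls_localSubring (F := L) (tres5eMax R z (c k)))
      (tres5eBaseToLoc z (c k) X) W₁)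
    (V₁ : ValuationSubring F)
    (hV₁ : ∀ x ∈ V₁, ∃ a b : R, ¬ X ∣ b ∧ x * algebraMap R F b = algebraMap R F a)
    (hUX : ∀ x ∈ V₁.nonunits, ∃ v ∈ V₁, x = algebraMap R F X * v) :
    W₁.comap (algebraMap F L) = V₁ := by
  have hsub : ∀ x ∈ V₁, algebraMap F L x ∈ W₁ := by
    intro x hx
    obtain ⟨a, b, hb, hab⟩ := hV₁ x hx
    refine (hW₁ _).2 ⟨tres5eBaseToLoc z (c k) a, tres5eBaseToLoc z (c k) b,
      fun h => hb (H.dvd_of_dvd_loc k hX b h), ?_⟩
    rw [tres5eBaseToLoc_coe, tres5eBaseToLoc_coe, IsScalarTower.algebraMap_apply R F L,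
      IsScalarTower.algebraMap_apply R F L a, ← map_mul, hab]
  ext x
  rw [ValuationSubring.mem_comap]
  constructor
  · intro hx
    by_contra hxV
    have hx0 : x ≠ 0 := fun h0 => hxV (by rw [h0]; exact V₁.zero_mem)
    have hinv : x⁻¹ ∈ V₁.nonunits := by
      rw [ValuationSubring.mem_nonunits_iff, map_inv₀]
      have h1 : 1 < V₁.valuation x := by
        rw [← not_le, V₁.valuation_le_one_iff]; exact hxV
      exact inv_lt_one_of_one_lt₀ h1
    obtain ⟨v, hv, hxv⟩ := hUX _ hinv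
    have hXnu : algebraMap F L (algebraMap R F X) ∈ W₁.nonunits := by
      have := hW₁.mem_nonunits hX'
      rwa [tres5eBaseToLoc_coe, IsScalarTower.algebraMap_apply R F L] at this
    have h1 : W₁.valuation (algebraMap F L x⁻¹) < 1 := by
      rw [hxv, map_mul, map_mul]
      have hv' : W₁.valuation (algebraMap F L v) ≤ 1 := (W₁.valuation_le_one_iff _).2 (hsub v hv)
      calc W₁.valuation (algebraMap F L (algebraMap R F X)) * W₁.valuation (algebraMap F L v)
          ≤ W₁.valuation (algebraMap F L (algebraMap R F X)) * 1 := by gcongr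
        _ = W₁.valuation (algebraMap F L (algebraMap R F X)) := mul_one _
        _ < 1 := (ValuationSubring.mem_nonunits_iff W₁).1 hXnu
    rw [map_inv₀, map_inv₀] at h1
    have h2 : W₁.valuation (algebraMap F L x) ≤ 1 := (W₁.valuation_le_one_iff _).2 hx
    have hv0 : W₁.valuation (algebraMap F L x) ≠ 0 :=
      (Valuation.ne_zero_iff _).2 ((_root_.map_ne_zero _).2 hx0)
    have h3 : 1 ≤ (W₁.valuation (algebraMap F L x))⁻¹ := (one_le_inv₀ (zero_lt_iff.2 hv0)).2 h2
    exact absurd h1 (not_lt.2 h3)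
  · exact hsub x

/-- **One sheet through a point**: a valuation ring `W ⊇ O′_k` of `L` whose restriction `V₁` to
`F` has `X ∈ 𝔪(V₁)`, `Y ∉ 𝔪(V₁)` is `O′_(X)`. -/
theorem tres5n_unique_at (H : Tres5eSplit F z P c) [IsNoetherianRing R] (k : ι)
    [(tres5eMax R z (c k)).IsPrime]
    {X Y : R} (hmax : maximalIdeal R = Ideal.span {X, Y}) (hX : Prime X)
    {W₁ : ValuationSubring L}
    (hW₁ : Tres5nIsLoc (ls_localSubring (F := L) (tres5eMax R z (c k)))
      (tres5eBaseToLoc z (c k) X) W₁)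
    (W : ValuationSubring L)
    (hO'W : ∀ x ∈ ls_localSubring (F := L) (tres5eMax R z (c k)), x ∈ W)
    (V₁ : ValuationSubring F) (hWV : W.comap (algebraMap F L) = V₁)
    (hXV : algebraMap R F X ∈ V₁.nonunits) (hYV : algebraMap R F Y ∉ V₁.nonunits) :
    W = W₁ := by
  haveI := H.loc_isLocalRing k
  haveI := H.loc_isNoetherianRing k
  have hmax' := H.loc_maximalIdeal k hmax
  have hX' := H.loc_prime k hmax hX
  refine tres5n_unique (ls_localSubring (F := L) (tres5eMax R z (c k)))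
    (tres5eBaseToLoc z (c k) X) (tres5eBaseToLoc z (c k) Y) hmax' hX' hW₁ W hO'W ?_ ?_
  · rw [tres5eBaseToLoc_coe, IsScalarTower.algebraMap_apply R F L,
      ← tres5_mem_nonunits_comap, hWV]
    exact hXV
  · rw [tres5eBaseToLoc_coe, IsScalarTower.algebraMap_apply R F L,
      ← tres5_mem_nonunits_comap, hWV]
    exact hYV

/-- **Every sheet passes through a point above `𝔫`**: a valuation ring `W ⊇ R` of `L` contains
`O′_k` for some `k`. -/
theorem tres5n_exists_le (H : Tres5eSplit F z P c) (W : ValuationSubring L)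
    (hRW : ∀ r : R, algebraMap R L r ∈ W) :
    ∃ k : ι, ∀ (_ : (tres5eMax R z (c k)).IsPrime),
      ∀ x ∈ ls_localSubring (F := L) (tres5eMax R z (c k)), x ∈ W := by
  classical
  -- `R[z] ⊆ W`
  have hzW : z ∈ W := tres5e_mem_val_of_isIntegral W hRW H.isIntegral
  have hΛW : ∀ b : ↥(Algebra.adjoin R ({z} : Set L)), (b : L) ∈ W := by
    intro b
    have hle : Algebra.adjoin R ({z} : Set L) ≤
        { W.toSubring with algebraMap_mem' := hRW } :=
      Algebra.adjoin_le (Set.singleton_subset_iff.2 hzW)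
    exact hle b.2
  -- the centre
  let φ : ↥(Algebra.adjoin R ({z} : Set L)) →+* ↥W :=
    (algebraMap ↥(Algebra.adjoin R ({z} : Set L)) L).codRestrict W.toSubring hΛW
  let 𝔮 : Ideal ↥(Algebra.adjoin R ({z} : Set L)) := Ideal.comap φ (maximalIdeal W)
  have h𝔮 : 𝔮 ≠ ⊤ := (Ideal.comap_isPrime φ (maximalIdeal W)).ne_top
  obtain ⟨𝔐, h𝔐, hle⟩ := Ideal.exists_le_maximal 𝔮 h𝔮
  obtain ⟨k, hk⟩ := H.exists_eq_of_isMaximal 𝔐
  refine ⟨k, fun _ x hx => ?_⟩
  obtain ⟨b, s, hs, hbs⟩ := hx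
  -- `s ∉ 𝔮`, so `s` is a unit of `W`
  have hs𝔮 : s ∉ 𝔮 := fun h => hs (hk ▸ hle h)
  have hsW : W.valuation (s : L) = 1 := by
    refine tres5n_val_eq_one W (hΛW s) (fun hnu => hs𝔮 ?_)
    rw [Ideal.mem_comap]
    obtain ⟨hmem, h⟩ := (ValuationSubring.mem_nonunits_iff_exists_mem_maximalIdeal).1 hnu
    exact h
  refine tres5n_div_mem W (hΛW b) hsW ?_
  rw [mul_comm]; exact hbs

end At

end Fermat.Agent.R38
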