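/-
Row 38, PKG-TRES, MONO, piece MONO-0 (helper14; helper44's ruling 00:34Z = helper92's v5 (1)):
**all sheets of the cover over one vertical branch have the same order of `u″` modulo `p`.**

Frame of `R38/TresNodeAt.lean`: `R` a noetherian normal local domain (`R = atLoc 𝔫`, `𝔫` ONE thin
node of `X` over `K`, `𝔪_R = (X, Y)`, `w ϖ = X Y`), `F = Frac R`, `L = F[z]`,
`H : Tres5eSplit F z P c`, `O′_k = ls_localSubring (tres5eMax R z (c k))`.
`V₀` a valuation ring of `F` containing `R` with `X ∈ 𝔪(V₀)`, `Y ∉ 𝔪(V₀)` (the branch `X = 0`).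

* `tresmz_sheet` : every valuation ring `W` of `L` over `V₀` is `(O′_k)_(X)` for some `k`
  (`tres5n_exists_le` + `tres5n_unique_at`);
* `tresmz_unif`, `tresmz_sheet_unif` : such a `W` is discrete with uniformizer `ϖ` (`e = 1`);
* `tresmz_isLoc_comap` : an automorphism `ρ` with `ρ⁻¹ O₁ = O₂`, `ρ f₂ = f₁` has
  `ρ⁻¹ (O₁)_(f₁) = (O₂)_(f₂)`;  `tresmz_deck` : `ρ⁻¹ (O′_i)_(X) = (O′_j)_(X)` if `ρ z ≡ c j`
  modulo `(𝔫, z - c i)` (`H.loc_deck`);
* `tresmz_main` : **MONO-0**.  If for all `i j` there is a deck transformation `ρ` with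
  `ρ z ≡ c j` mod `(𝔫, z - c i)` and `ρ u = a · u · h ^ p`, `a ∈ F`, `p ∣ ord_{V₀} a`, then for
  any two valuation rings `W`, `W′` of `L` over `V₀`:  `p ∣ ord_{W′} u − ord_W u`
  (`ord = tres5Ord · ϖ` of `R38/TresCoverOrd.lean`);
* `tresmz_iterate`, `tresmz_main_pow` : the same from ONE `ρ` with `ρ u = a · u · h ^ p` whose
  powers act transitively on the points above `𝔫`;
* `tresmz_pow_of_step` : transitivity from `ρ z ≡ c (σ i)` mod `(𝔫, z - c i)`, `σ` transitive.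
-/
import Fermat.Agent.R38.TresNodeAt
import Fermat.Agent.R38.TresCoverOrd

set_option autoImplicit false
set_option linter.unusedSectionVars false
set_option linter.unusedVariables false
set_option linter.style.haveILetI false
set_option linter.style.longLine false

noncomputable section

namespace Fermat.Agent.R38

open IsLocalRing AlgebraicCurve Polynomial Fermat.Agent.UNIP Fermat.Agent.S36 Fermat.Agent.RT.K6

section Abs

variable {L : Type*} [Field L]

/-- `O′_(f)` is discrete with uniformizer `f`: every `x ≠ 0` is `f ^ n · unit`. -/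
theorem tresmz_unif (O' : Subring L) [UniqueFactorizationMonoid O']
    (hfrac : ∀ x : L, ∃ a b : O', (b : L) ≠ 0 ∧ x * (b : L) = (a : L))
    {f : O'} (hf : Prime f) {W : ValuationSubring L} (hW : Tres5nIsLoc O' f W)
    {x : L} (hx : x ≠ 0) : ∃ n : ℤ, W.valuation (x / (f : L) ^ n) = 1 := by
  obtain ⟨a, b, hb0, hab⟩ := hfrac x
  have hb0' : b ≠ 0 := fun h => hb0 (by rw [h]; rfl)
  have ha0 : a ≠ 0 := by
    intro h
    have h1 : (a : L) = 0 := by rw [h]; rfl
    rw [h1] at hab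
    rcases mul_eq_zero.mp hab with h2 | h2
    · exact hx h2
    · exact hb0 h2
  obtain ⟨n, a', hn, ha'⟩ := s36n2p_exists_mult hf ha0
  obtain ⟨k, b', hk, hb'⟩ := s36n2p_exists_mult hf hb0'
  refine ⟨(n : ℤ) - k, ?_⟩
  have hva : W.valuation (a' : L) = 1 := hW.valuation_eq_one hf ha'
  have hvb : W.valuation (b' : L) = 1 := hW.valuation_eq_one hf hb'
  have hf0 : (f : L) ≠ 0 := fun h0 => hf.ne_zero (Subtype.ext h0)
  have hb'0 : (b' : L) ≠ 0 := by
    intro h0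
    rw [h0, map_zero] at hvb
    exact zero_ne_one hvb
  have haL : (a : L) = (f : L) ^ n * (a' : L) := by rw [hn]; rfl
  have hbL : (b : L) = (f : L) ^ k * (b' : L) := by rw [hk]; rfl
  have e : x / (f : L) ^ ((n : ℤ) - k) = (a' : L) / (b' : L) := by
    have hx' : x = (a : L) / (b : L) := by rw [← hab]; field_simp
    rw [hx', haL, hbL, zpow_sub₀ hf0, zpow_natCast, zpow_natCast]
    have h1 := pow_ne_zero n hf0
    have h2 := pow_ne_zero k hf0
    field_simp
  rw [e, map_div₀, hva, hvb, div_one]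

/-- transport of `O_(f)` along an automorphism. -/
theorem tresmz_isLoc_comap {O₁ O₂ : Subring L} (ρ : L ≃+* L)
    (hO : ∀ x : L, x ∈ O₂ ↔ ρ x ∈ O₁) {f₁ : O₁} {f₂ : O₂} (hf : ρ (f₂ : L) = (f₁ : L))
    {W₁ : ValuationSubring L} (h₁ : Tres5nIsLoc O₁ f₁ W₁) :
    Tres5nIsLoc O₂ f₂ (W₁.comap (ρ : L →+* L)) := by
  intro x
  rw [ValuationSubring.mem_comap]
  have hρx : ((ρ : L →+* L) x) = ρ x := rfl
  rw [hρx, h₁ (ρ x)]
  constructor
  · rintro ⟨a, b, hb, hab⟩
    have ha' : ρ.symm (a : L) ∈ O₂ := (hO _).2 (by rw [ρ.apply_symm_apply]; exact a.2)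
    have hb' : ρ.symm (b : L) ∈ O₂ := (hO _).2 (by rw [ρ.apply_symm_apply]; exact b.2)
    refine ⟨⟨_, ha'⟩, ⟨_, hb'⟩, ?_, ?_⟩
    · rintro ⟨t, ht⟩
      apply hb
      refine ⟨⟨ρ (t : L), (hO _).1 t.2⟩, Subtype.ext ?_⟩
      have h1 : ρ.symm (b : L) = (f₂ : L) * (t : L) := congrArg Subtype.val ht
      have h2 : (b : L) = ρ ((f₂ : L) * (t : L)) := by rw [← h1, ρ.apply_symm_apply]
      rw [h2, map_mul, hf]
      rfl
    · apply ρ.injective
      show ρ (x * ρ.symm (b : L)) = ρ (ρ.symm (a : L))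
      rw [map_mul, ρ.apply_symm_apply, ρ.apply_symm_apply]
      exact hab
  · rintro ⟨a, b, hb, hab⟩
    refine ⟨⟨ρ (a : L), (hO _).1 a.2⟩, ⟨ρ (b : L), (hO _).1 b.2⟩, ?_, ?_⟩
    · rintro ⟨t, ht⟩
      apply hb
      have ht' : ρ.symm (t : L) ∈ O₂ := (hO _).2 (by rw [ρ.apply_symm_apply]; exact t.2)
      refine ⟨⟨_, ht'⟩, Subtype.ext ?_⟩
      apply ρ.injective
      show ρ (b : L) = ρ ((f₂ : L) * ρ.symm (t : L))
      rw [map_mul, ρ.apply_symm_apply, hf]
      exact congrArg Subtype.val ht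
    · show ρ x * ρ (b : L) = ρ (a : L)
      rw [← map_mul, hab]

end Abs

section Node

variable {R L : Type*} {F : Type*} [CommRing R] [IsDomain R] [Field F] [Field L]
  [Algebra R F] [IsFractionRing R F] [IsIntegrallyClosed R] [IsLocalRing R]
  [Algebra F L] [Algebra R L] [IsScalarTower R F L]
  {ι : Type*} [Fintype ι] {z : L} {P : R[X]} {c : ι → R}

/-- **every sheet over the branch `X = 0` passes through a point above the node and is the
localisation `(O′_k)_(X)`.** -/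
theorem tresmz_sheet (H : Tres5eSplit F z P c) [IsNoetherianRing R] {X Y : R}
    (hmax : maximalIdeal R = Ideal.span {X, Y}) (hX : Prime X)
    (V₀ : ValuationSubring F) (hRV : ∀ r : R, algebraMap R F r ∈ V₀)
    (hXV : algebraMap R F X ∈ V₀.nonunits) (hYV : algebraMap R F Y ∉ V₀.nonunits)
    (W : ValuationSubring L) (hW : W.comap (algebraMap F L) = V₀) :
    ∃ k : ι, ∀ (_ : (tres5eMax R z (c k)).IsPrime),
      Tres5nIsLoc (ls_localSubring (F := L) (tres5eMax R z (c k)))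
        (tres5eBaseToLoc z (c k) X) W := by
  have hRW : ∀ r : R, algebraMap R L r ∈ W := fun r => by
    rw [IsScalarTower.algebraMap_apply R F L, ← ValuationSubring.mem_comap, hW]
    exact hRV r
  obtain ⟨k, hk⟩ := tres5n_exists_le H W hRW
  refine ⟨k, fun inst => ?_⟩
  haveI := inst
  haveI := H.loc_isLocalRing k
  haveI := H.loc_isNoetherianRing k
  have hmax' := H.loc_maximalIdeal k hmax
  have hX' := H.loc_prime k hmax hX
  haveI : UniqueFactorizationMonoid (ls_localSubring (F := L) (tres5eMax R z (c k))) :=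
    rtk6lf_ufd _ _ hmax' hX'
  haveI : IsFractionRing (ls_localSubring (F := L) (tres5eMax R z (c k))) L :=
    s36n2p_isFractionRing _ (H.loc_frac k)
  have hW₁ := tres5n_isLoc_s36 (ls_localSubring (F := L) (tres5eMax R z (c k))) hX'
  have hWeq := tres5n_unique_at H k hmax hX hW₁ W (hk inst) V₀ hW hXV hYV
  rw [hWeq]
  exact hW₁

/-- `ϖ` is a uniformizer of `V₀`-sheets: `W (ϖ) = W (X)`. -/
theorem tresmz_val_pi (H : Tres5eSplit F z P c) (k : ι) [(tres5eMax R z (c k)).IsPrime]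
    {X Y ϖ w : R} (hX : Prime X) (hX' : Prime (tres5eBaseToLoc z (c k) X))
    (hXY : ¬ X ∣ Y) (hw : IsUnit w) (hϖ : w * ϖ = X * Y)
    {W : ValuationSubring L}
    (hW : Tres5nIsLoc (ls_localSubring (F := L) (tres5eMax R z (c k)))
      (tres5eBaseToLoc z (c k) X) W) :
    W.valuation (algebraMap R L ϖ) = W.valuation (algebraMap R L X) := by
  have hwX : ¬ tres5eBaseToLoc z (c k) X ∣ tres5eBaseToLoc z (c k) w := by
    intro h
    exact hX'.not_isUnit (isUnit_of_dvd_unit h (H.isUnit_loc k hw))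
  have h1 : W.valuation (algebraMap R L w) = 1 := by
    have := hW.valuation_eq_one hX' hwX
    rwa [tres5eBaseToLoc_coe] at this
  have h2 : W.valuation (algebraMap R L Y) = 1 := by
    have := hW.valuation_eq_one hX' (H.not_dvd_loc k hX hXY)
    rwa [tres5eBaseToLoc_coe] at this
  have h3 : algebraMap R L w * algebraMap R L ϖ = algebraMap R L X * algebraMap R L Y := by
    rw [← map_mul, ← map_mul, hϖ]
  have h4 := congrArg W.valuation h3
  rw [map_mul, map_mul, h1, h2, one_mul, mul_one] at h4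
  exact h4

/-- **`e = 1`**: every sheet over the branch `X = 0` is discrete with uniformizer `ϖ`. -/
theorem tresmz_sheet_unif (H : Tres5eSplit F z P c) [IsNoetherianRing R] {X Y ϖ w : R}
    (hmax : maximalIdeal R = Ideal.span {X, Y}) (hX : Prime X) (hXY : ¬ X ∣ Y)
    (hw : IsUnit w) (hϖ : w * ϖ = X * Y)
    (V₀ : ValuationSubring F) (hRV : ∀ r : R, algebraMap R F r ∈ V₀)
    (hXV : algebraMap R F X ∈ V₀.nonunits) (hYV : algebraMap R F Y ∉ V₀.nonunits)
    (W : ValuationSubring L) (hW : W.comap (algebraMap F L) = V₀) {x : L} (hx : x ≠ 0) :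
    ∃ n : ℤ, W.valuation (x / algebraMap F L (algebraMap R F ϖ) ^ n) = 1 := by
  obtain ⟨k, hk⟩ := tresmz_sheet H hmax hX V₀ hRV hXV hYV W hW
  haveI := H.isPrime k
  have hWk := hk inferInstance
  haveI := H.loc_isLocalRing k
  haveI := H.loc_isNoetherianRing k
  have hmax' := H.loc_maximalIdeal k hmax
  have hX' := H.loc_prime k hmax hX
  haveI : UniqueFactorizationMonoid (ls_localSubring (F := L) (tres5eMax R z (c k))) :=
    rtk6lf_ufd _ _ hmax' hX'
  obtain ⟨n, hn⟩ := tresmz_unif _ (H.loc_frac k) hX' hWk hx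
  refine ⟨n, ?_⟩
  rw [tres5eBaseToLoc_coe] at hn
  rw [← IsScalarTower.algebraMap_apply R F L]
  rw [map_div₀, map_zpow₀] at hn ⊢
  rw [tresmz_val_pi H k hX hX' hXY hw hϖ hWk]
  exact hn

/-- deck transformations permute the sheets `(O′_k)_(X)`. -/
theorem tresmz_deck (H : Tres5eSplit F z P c) (i j : ι) [(tres5eMax R z (c i)).IsPrime]
    [(tres5eMax R z (c j)).IsPrime] (ρ : L ≃ₐ[F] L)
    (hρ : ∃ b ∈ tres5eMax R z (c i), ρ z = algebraMap R L (c j) + (b : L)) (X : R)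
    {W : ValuationSubring L}
    (hW : Tres5nIsLoc (ls_localSubring (F := L) (tres5eMax R z (c i)))
      (tres5eBaseToLoc z (c i) X) W) :
    Tres5nIsLoc (ls_localSubring (F := L) (tres5eMax R z (c j)))
      (tres5eBaseToLoc z (c j) X) (W.comap ((ρ : L →ₐ[F] L) : L →+* L)) := by
  have h := tresmz_isLoc_comap (O₁ := ls_localSubring (F := L) (tres5eMax R z (c i)))
    (O₂ := ls_localSubring (F := L) (tres5eMax R z (c j))) (ρ : L ≃+* L)
    (fun x => H.loc_deck i j ρ hρ x)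
    (f₁ := tres5eBaseToLoc z (c i) X) (f₂ := tres5eBaseToLoc z (c j) X) (by
      rw [tres5eBaseToLoc_coe, tres5eBaseToLoc_coe]
      show ρ (algebraMap R L X) = algebraMap R L X
      rw [IsScalarTower.algebraMap_apply R F L, AlgEquiv.commutes]) hW
  exact h

/-- `ϖ` is a nonzero non-unit of `V₀`. -/
theorem tresmz_pi_nonunit {X Y ϖ w : R} (hX : Prime X) (hXY : ¬ X ∣ Y)
    (hw : IsUnit w) (hϖ : w * ϖ = X * Y)
    (V₀ : ValuationSubring F) (hRV : ∀ r : R, algebraMap R F r ∈ V₀)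
    (hXV : algebraMap R F X ∈ V₀.nonunits) :
    algebraMap R F ϖ ≠ 0 ∧ algebraMap R F ϖ ∈ V₀.nonunits := by
  have hX0 : X ≠ 0 := hX.ne_zero
  have hY0 : Y ≠ 0 := fun h0 => hXY (by rw [h0]; exact dvd_zero X)
  have hinj : Function.Injective (algebraMap R F) := IsFractionRing.injective R F
  have hϖ0 : ϖ ≠ 0 := by
    rintro rfl
    rw [mul_zero] at hϖ
    exact mul_ne_zero hX0 hY0 hϖ.symm
  refine ⟨fun h0 => hϖ0 (hinj (h0.trans (map_zero _).symm)), ?_⟩
  obtain ⟨w', hw'⟩ := hw.exists_left_inv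
  have e : algebraMap R F ϖ = algebraMap R F (w' * Y) * algebraMap R F X := by
    rw [← map_mul]
    congr 1
    calc ϖ = w' * w * ϖ := by rw [hw', one_mul]
      _ = w' * (w * ϖ) := by ring
      _ = w' * Y * X := by rw [hϖ]; ring
  rw [e]
  rw [ValuationSubring.mem_nonunits_iff] at hXV ⊢
  rw [map_mul]
  have h1 : V₀.valuation (algebraMap R F (w' * Y)) ≤ 1 :=
    (V₀.valuation_le_one_iff _).2 (hRV _)
  calc V₀.valuation (algebraMap R F (w' * Y)) * V₀.valuation (algebraMap R F X)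
      ≤ 1 * V₀.valuation (algebraMap R F X) := by gcongr
    _ = V₀.valuation (algebraMap R F X) := one_mul _
    _ < 1 := hXV

/-- **MONO-0**: the orders of `u` at any two sheets over the branch `X = 0` of ONE thin node
are congruent modulo `p`, if the deck transformations act transitively on the points above the
node and multiply `u` by `a · h ^ p`, `a ∈ F`, `p ∣ ord_{V₀} a`. -/
theorem tresmz_main (H : Tres5eSplit F z P c) [IsNoetherianRing R] {X Y ϖ w : R}
    (hmax : maximalIdeal R = Ideal.span {X, Y}) (hX : Prime X) (hXY : ¬ X ∣ Y)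
    (hw : IsUnit w) (hϖ : w * ϖ = X * Y)
    (V₀ : ValuationSubring F) (hRV : ∀ r : R, algebraMap R F r ∈ V₀)
    (hXV : algebraMap R F X ∈ V₀.nonunits) (hYV : algebraMap R F Y ∉ V₀.nonunits)
    (p : ℕ) {u : L} (hu : u ≠ 0)
    (hdeck : ∀ i j : ι, ∃ (ρ : L ≃ₐ[F] L) (a : F) (h : L),
      (∃ b ∈ tres5eMax R z (c i), ρ z = algebraMap R L (c j) + (b : L)) ∧
      a ≠ 0 ∧ h ≠ 0 ∧ ρ u = algebraMap F L a * u * h ^ p ∧
      (∃ m : ℤ, V₀.valuation (a / algebraMap R F ϖ ^ m) = 1) ∧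
      (p : ℤ) ∣ tres5Ord V₀ (algebraMap R F ϖ) a)
    (W W' : ValuationSubring L) (hW : W.comap (algebraMap F L) = V₀)
    (hW' : W'.comap (algebraMap F L) = V₀) :
    (p : ℤ) ∣ tres5Ord W' (algebraMap F L (algebraMap R F ϖ)) u -
      tres5Ord W (algebraMap F L (algebraMap R F ϖ)) u := by
  obtain ⟨k, hk⟩ := tresmz_sheet H hmax hX V₀ hRV hXV hYV W hW
  obtain ⟨k', hk'⟩ := tresmz_sheet H hmax hX V₀ hRV hXV hYV W' hW'
  haveI := H.isPrime k
  haveI := H.isPrime k'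
  have hWk := hk inferInstance
  have hWk' := hk' inferInstance
  obtain ⟨ρ, a, h, hρz, ha, hh, hρu, hVa, hpa⟩ := hdeck k k'
  have hcomap : W.comap ((ρ : L →ₐ[F] L) : L →+* L) = W' :=
    Tres5nIsLoc.eq (tresmz_deck H k k' ρ hρz X hWk) hWk'
  obtain ⟨hϖF0, hϖnu⟩ := tresmz_pi_nonunit hX hXY hw hϖ V₀ hRV hXV
  exact tres5_deck_congr hW hϖnu hϖF0
    (fun f hf => tresmz_sheet_unif H hmax hX hXY hw hϖ V₀ hRV hXV hYV W hW hf)
    (ρ : L →ₐ[F] L) hcomap p hu ha hh hVa hρu hpa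

/-- iterating `ρ u = a · u · h ^ p`. -/
theorem tresmz_iterate (ρ : L ≃ₐ[F] L) (p : ℕ) {u h : L} {a : F} (hh : h ≠ 0)
    (hρu : ρ u = algebraMap F L a * u * h ^ p) (n : ℕ) :
    ∃ h' : L, h' ≠ 0 ∧ (ρ ^ n) u = algebraMap F L (a ^ n) * u * h' ^ p := by
  induction n with
  | zero => exact ⟨1, one_ne_zero, by simp⟩
  | succ n ih =>
    obtain ⟨h', hh', hn⟩ := ih
    refine ⟨h * ρ h', mul_ne_zero hh ((_root_.map_ne_zero ρ).2 hh'), ?_⟩
    have e1 : (ρ ^ (n + 1)) u = ρ ((ρ ^ n) u) := by rw [pow_succ', AlgEquiv.mul_apply]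
    rw [e1, hn, map_mul, map_mul, map_pow ρ h' p, AlgEquiv.commutes, hρu, map_pow, map_pow,
      mul_pow]
    ring

/-- the powers of a deck transformation with `ρ z ≡ c (σ i)` mod `(𝔫, z - c i)`. -/
theorem tresmz_pow_of_step (H : Tres5eSplit F z P c) (ρ : L ≃ₐ[F] L) (σ : ι → ι)
    (hstep : ∀ i, ∃ b ∈ tres5eMax R z (c i), ρ z = algebraMap R L (c (σ i)) + (b : L))
    (n : ℕ) (i : ι) :
    ∃ b ∈ tres5eMax R z (c i), (ρ ^ n) z = algebraMap R L (c (σ^[n] i)) + (b : L) := by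
  induction n with
  | zero =>
    refine ⟨tres5eGen R z - algebraMap R _ (c i), ?_, ?_⟩
    · exact Ideal.mem_sup_right (Ideal.subset_span rfl)
    · show z = algebraMap R L (c i) + (z - algebraMap R L (c i))
      ring
  | succ n ih =>
    obtain ⟨b', hb', hn⟩ := ih
    obtain ⟨b, hb, hz⟩ := hstep (σ^[n] i)
    refine ⟨H.mapAdj (ρ ^ n) b, (H.deck_max i (σ^[n] i) (ρ ^ n) ⟨b', hb', hn⟩ b).1 hb, ?_⟩
    rw [pow_succ, AlgEquiv.mul_apply, hz, map_add, Tres5eSplit.mapAdj_coe,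
      Function.iterate_succ_apply']
    congr 1
    rw [IsScalarTower.algebraMap_apply R F L, AlgEquiv.commutes]

/-- **MONO-0** for ONE deck transformation whose powers act transitively on the points above
the node. -/
theorem tresmz_main_pow (H : Tres5eSplit F z P c) [IsNoetherianRing R] {X Y ϖ w : R}
    (hmax : maximalIdeal R = Ideal.span {X, Y}) (hX : Prime X) (hXY : ¬ X ∣ Y)
    (hw : IsUnit w) (hϖ : w * ϖ = X * Y)
    (V₀ : ValuationSubring F) (hRV : ∀ r : R, algebraMap R F r ∈ V₀)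
    (hXV : algebraMap R F X ∈ V₀.nonunits) (hYV : algebraMap R F Y ∉ V₀.nonunits)
    (p : ℕ) {u h : L} {a : F} (hu : u ≠ 0) (ha : a ≠ 0) (hh : h ≠ 0)
    (ρ : L ≃ₐ[F] L) (hρu : ρ u = algebraMap F L a * u * h ^ p)
    (hVa : ∃ m : ℤ, V₀.valuation (a / algebraMap R F ϖ ^ m) = 1)
    (hpa : (p : ℤ) ∣ tres5Ord V₀ (algebraMap R F ϖ) a)
    (htr : ∀ i j : ι, ∃ n : ℕ, ∃ b ∈ tres5eMax R z (c i),
      (ρ ^ n) z = algebraMap R L (c j) + (b : L))
    (W W' : ValuationSubring L) (hW : W.comap (algebraMap F L) = V₀)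
    (hW' : W'.comap (algebraMap F L) = V₀) :
    (p : ℤ) ∣ tres5Ord W' (algebraMap F L (algebraMap R F ϖ)) u -
      tres5Ord W (algebraMap F L (algebraMap R F ϖ)) u := by
  obtain ⟨hϖF0, hϖnu⟩ := tresmz_pi_nonunit hX hXY hw hϖ V₀ hRV hXV
  refine tresmz_main H hmax hX hXY hw hϖ V₀ hRV hXV hYV p hu (fun i j => ?_) W W' hW hW'
  obtain ⟨n, hn⟩ := htr i j
  obtain ⟨h', hh', hρn⟩ := tresmz_iterate ρ p hh hρu n
  refine ⟨ρ ^ n, a ^ n, h', hn, pow_ne_zero n ha, hh', hρn, ?_, ?_⟩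
  · obtain ⟨m, hm⟩ := hVa
    refine ⟨(n : ℤ) * m, ?_⟩
    have e : a ^ n / algebraMap R F ϖ ^ ((n : ℤ) * m) = (a / algebraMap R F ϖ ^ m) ^ n := by
      rw [div_pow, ← zpow_natCast (algebraMap R F ϖ ^ m) n, ← zpow_mul, mul_comm]
    rw [e, map_pow, hm, one_pow]
  · rw [tres5Ord_pow hϖnu hϖF0 hVa]
    exact Dvd.dvd.mul_left hpa _

/-- **MONO-0**, step form: `ρ z ≡ c (σ i)` modulo `(𝔫, z - c i)` with `σ` transitive. -/
theorem tresmz_main_step (H : Tres5eSplit F z P c) [IsNoetherianRing R] {X Y ϖ w : R}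
    (hmax : maximalIdeal R = Ideal.span {X, Y}) (hX : Prime X) (hXY : ¬ X ∣ Y)
    (hw : IsUnit w) (hϖ : w * ϖ = X * Y)
    (V₀ : ValuationSubring F) (hRV : ∀ r : R, algebraMap R F r ∈ V₀)
    (hXV : algebraMap R F X ∈ V₀.nonunits) (hYV : algebraMap R F Y ∉ V₀.nonunits)
    (p : ℕ) {u h : L} {a : F} (hu : u ≠ 0) (ha : a ≠ 0) (hh : h ≠ 0)
    (ρ : L ≃ₐ[F] L) (hρu : ρ u = algebraMap F L a * u * h ^ p)
    (hVa : ∃ m : ℤ, V₀.valuation (a / algebraMap R F ϖ ^ m) = 1)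
    (hpa : (p : ℤ) ∣ tres5Ord V₀ (algebraMap R F ϖ) a)
    (σ : ι → ι) (hσ : ∀ i j : ι, ∃ n : ℕ, σ^[n] i = j)
    (hstep : ∀ i, ∃ b ∈ tres5eMax R z (c i), ρ z = algebraMap R L (c (σ i)) + (b : L))
    (W W' : ValuationSubring L) (hW : W.comap (algebraMap F L) = V₀)
    (hW' : W'.comap (algebraMap F L) = V₀) :
    (p : ℤ) ∣ tres5Ord W' (algebraMap F L (algebraMap R F ϖ)) u -
      tres5Ord W (algebraMap F L (algebraMap R F ϖ)) u := by
  refine tresmz_main_pow H hmax hX hXY hw hϖ V₀ hRV hXV hYV p hu ha hh ρ hρu hVa hpa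
    (fun i j => ?_) W W' hW hW'
  obtain ⟨n, hn⟩ := hσ i j
  obtain ⟨b, hb, hz⟩ := tresmz_pow_of_step H ρ σ hstep n i
  exact ⟨n, b, hb, by rw [hz, hn]⟩

end Node

end Fermat.Agent.R38

end
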