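import Fermat.Agent.R38.TresMonoNorm
import Fermat.Agent.R38.TresMonoZero

/-!
# Row 38, TRES, piece FAC-ASM-MAIN (helper89), part M3c: the hypotheses (I3), (I4) at ONE closed point

Frame of `R38/TresNodeAt.lean` (helper92) and `R38/TresMonoNorm.lean` (helper87): `R` a
noetherian normal local domain (`R = atLoc 𝔫`, `𝔫` a closed point of a chart of `X` over `K`),
`F = Frac R`, `L = F[z]` the function field of the cover, `H : Tres5eSplit F z P c`,
`O′_k = ls_localSubring (tres5eMax R z (c k))`, `W` a valuation ring of `L` (the Gauss sheet),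
`V₁ = W ∩ F`.  `u ∈ L` the Kummer function of the cover (`u″`), `m = ord_W u`.

The three theorems have the conclusion of the hypotheses `hfin` / `hcusp` of `tresmono_cover`
and `tresmono_frame` AT THE POINT `𝔫`:

    ∀ T valuation ring of L, R ⊆ T ⊆ W → ∃ O' ⊆ T, TresMonoPt W O' p c e (u / ϖ ^ m) h
                                                    (resp. StbFacAt O' p (u / ϖ ^ m)).

* `tresmono_node_pt`   : `𝔫` a THIN NODE `𝔪_R = (X, Y)`, `w ϖ = X Y`, `X = 0` the branch of `W`;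
  the Ogg unit is `h = ε′ Y ^ e` (helper10), every sheet `W'` over the other branch `V₂`
  (`Y = 0`) has `ord_{W'} u ≡ m₀ mod p` (helper14's MONO-0);  `c = m₀ − m`.
* `tresmono_smooth_pt` : `𝔫` a smooth point `𝔪_R = (ϖ, s)`; `h` a unit of `R`.
* `tresmono_cusp_pt`   : the same without `h`.
-/

set_option autoImplicit false
set_option linter.unusedSectionVars false
set_option linter.unusedVariables false
set_option linter.style.haveILetI false
set_option linter.style.longLine false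

noncomputable section

namespace Fermat.Agent.R38

open IsLocalRing AlgebraicCurve Polynomial Fermat.Agent.UNIP Fermat.Agent.STB

section Pt

variable {R L : Type*} {F : Type*} [CommRing R] [IsDomain R] [Field F] [Field L]
  [Algebra R F] [IsFractionRing R F] [IsIntegrallyClosed R] [IsLocalRing R]
  [Algebra F L] [Algebra R L] [IsScalarTower R F L]
  {ι : Type*} [Fintype ι] {z : L} {P : R[X]} {c : ι → R}
  {E : Type*} [Field E] [Algebra E F] [Algebra E L] [IsScalarTower E F L]

/-- the exponent of the normalisation is the order on the sheet -/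
theorem tresmono_exp_unique (W : ValuationSubring L) {ϖ u : L} (hϖ0 : ϖ ≠ 0)
    (hϖW : W.valuation ϖ < 1) {a m : ℤ} (ha : W.valuation u = W.valuation ϖ ^ a)
    (hm : W.valuation (u / ϖ ^ m) = 1) : a = m :=
  tres5Ord_unique ((ValuationSubring.mem_nonunits_iff W).2 hϖW) hϖ0
    (tresmn_val W hϖ0 a ha) hm

/-- **(I3) at a thin node.** -/
theorem tresmono_node_pt (H : Tres5eSplit F z P c) [IsNoetherianRing R]
    {X Y ϖ w : R} (hmax : maximalIdeal R = Ideal.span {X, Y}) (hX : Prime X) (hY : Prime Y)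
    (hXY : ¬ X ∣ Y) (hYX : ¬ Y ∣ X) (hw : IsUnit w) (hϖ : w * ϖ = X * Y)
    (hE : ∀ e : E, ∃ (n : ℕ) (a : R),
      algebraMap E F e * algebraMap R F ϖ ^ n = algebraMap R F a)
    (W : ValuationSubring L) (V₁ : ValuationSubring F)
    (hWV : W.comap (algebraMap F L) = V₁)
    (hXV : algebraMap R F X ∈ V₁.nonunits) (hYV : algebraMap R F Y ∉ V₁.nonunits)
    {p : ℕ} {u h : L} (hu0 : u ≠ 0)
    (hhor : ∀ (k : ι) [(tres5eMax R z (c k)).IsPrime] (Pl : Place E L),
      (∀ x ∈ ls_localSubring (F := L) (tres5eMax R z (c k)), x ∈ Pl.toValuationSubring) →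
        (p : ℤ) ∣ Pl.ord u)
    -- the Ogg unit
    (ε' : R) (hε' : IsUnit ε') (e : ℤ)
    (hh : h = algebraMap R L ε' * algebraMap R L Y ^ e)
    -- the other branch and MONO-0
    (V₂ : ValuationSubring F)
    (hV₂ : ∀ x ∈ V₂, ∃ a b : R, ¬ Y ∣ b ∧ x * algebraMap R F b = algebraMap R F a)
    (hUY : ∀ x ∈ V₂.nonunits, ∃ v ∈ V₂, x = algebraMap R F Y * v)
    (m₀ : ℤ)
    (hm₀ : ∀ W' : ValuationSubring L, W'.comap (algebraMap F L) = V₂ →
      (p : ℤ) ∣ tres5Ord W' (algebraMap F L (algebraMap R F ϖ)) u - m₀)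
    -- the normalisation
    (m : ℤ) (hm : W.valuation (u / algebraMap R L ϖ ^ m) = 1) :
    ∀ T : ValuationSubring L, (∀ r : R, algebraMap R L r ∈ T) → (∀ x ∈ T, x ∈ W) →
      ∃ O' : Subring L, (∀ x ∈ O', x ∈ T) ∧
        TresMonoPt W O' p (m₀ - m) e (u / algebraMap R L ϖ ^ m) h := by
  intro T hRT hTW
  obtain ⟨k, hk⟩ := tres5n_exists_le H T hRT
  haveI := H.isPrime k
  have hO'T := hk inferInstance
  have hO'W : ∀ x ∈ ls_localSubring (F := L) (tres5eMax R z (c k)), x ∈ W :=
    fun x hx => hTW x (hO'T x hx)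
  haveI := H.loc_isLocalRing k
  -- valuations on `W`
  have hYW : W.valuation (algebraMap R L Y) = 1 := tresmn_val_base k W hO'W V₁ hWV hYV
  have hεW : W.valuation (algebraMap R L ε') = 1 := by
    have := tresmn_val_unit W (ls_localSubring (F := L) (tres5eMax R z (c k))) hO'W
      (tres5eBaseToLoc z (c k) ε') (H.isUnit_loc k hε')
    rwa [tres5eBaseToLoc_coe] at this
  have hhW : W.valuation h = 1 := by
    rw [hh, map_mul, map_zpow₀, hεW, hYW, one_zpow, one_mul]
  have hh' : h = ((tres5eBaseToLoc z (c k) ε' :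
      ls_localSubring (F := L) (tres5eMax R z (c k))) : L) * algebraMap R L X ^ (0 : ℤ) *
        algebraMap R L Y ^ e := by
    rw [tres5eBaseToLoc_coe, zpow_zero, mul_one, hh]
  obtain ⟨W₂, a, b, hW₂, hva, hvb, -, himp⟩ :=
    tresmn_cross_at (E := E) H k hmax hX hY hXY hYX hw hϖ hE W hO'W V₁ hWV hXV hYV u h hu0
      (fun Pl hPl => hhor k Pl hPl) (tres5eBaseToLoc z (c k) ε') (H.isUnit_loc k hε') 0 e hh'
      hhW (m₀ - m)
  -- `ϖ` on `W`
  have hϖR0 : ϖ ≠ 0 := by
    rintro rfl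
    rw [mul_zero] at hϖ
    rcases mul_eq_zero.1 hϖ.symm with h0 | h0
    · exact hX.ne_zero h0
    · exact hY.ne_zero h0
  have hϖ0 : algebraMap R L ϖ ≠ 0 := by
    rw [IsScalarTower.algebraMap_apply R F L]
    exact (_root_.map_ne_zero _).2
      ((_root_.map_ne_zero_iff _ (IsFractionRing.injective R F)).2 hϖR0)
  have hwϖL : algebraMap R L w * algebraMap R L ϖ = algebraMap R L X * algebraMap R L Y := by
    rw [← map_mul, ← map_mul, hϖ]
  have hwW : W.valuation (algebraMap R L w) = 1 := by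
    have := tresmn_val_unit W (ls_localSubring (F := L) (tres5eMax R z (c k))) hO'W
      (tres5eBaseToLoc z (c k) w) (H.isUnit_loc k hw)
    rwa [tres5eBaseToLoc_coe] at this
  have hXW : W.valuation (algebraMap R L X) < 1 := tresmn_val_base_lt W V₁ hWV hXV
  have hϖW : W.valuation (algebraMap R L ϖ) < 1 := by
    have h1 := congrArg W.valuation hwϖL
    rw [map_mul, map_mul, hwW, one_mul, hYW, mul_one] at h1
    rw [h1]
    exact hXW
  have ham : a = m := tresmono_exp_unique W hϖ0 hϖW hva hm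
  subst ham
  -- the other sheet
  haveI := H.loc_isNoetherianRing k
  have hmaxY : maximalIdeal R = Ideal.span {Y, X} := by rw [hmax, Set.pair_comm]
  have hY' : Prime (tres5eBaseToLoc z (c k) Y) := H.loc_prime k hmaxY hY
  have hW₂V : W₂.comap (algebraMap F L) = V₂ := tres5n_comap_at H k hY hY' hW₂ V₂ hV₂ hUY
  have hϖW₂ : algebraMap R L ϖ ∈ W₂.nonunits := by
    have hYnu : algebraMap R L Y ∈ W₂.nonunits := by
      have := hW₂.mem_nonunits hY'
      rwa [tres5eBaseToLoc_coe] at this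
    have hXmem : algebraMap R L X ∈ W₂ := by
      have := hW₂.le hY' (tres5eBaseToLoc z (c k) X).2
      rwa [tres5eBaseToLoc_coe] at this
    have hwW₂ : W₂.valuation (algebraMap R L w) = 1 := by
      have := tresmn_val_unit W₂ (ls_localSubring (F := L) (tres5eMax R z (c k)))
        (fun x hx => hW₂.le hY' hx) (tres5eBaseToLoc z (c k) w) (H.isUnit_loc k hw)
      rwa [tres5eBaseToLoc_coe] at this
    rw [ValuationSubring.mem_nonunits_iff]
    have h1 := congrArg W₂.valuation hwϖL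
    rw [map_mul, map_mul, hwW₂, one_mul] at h1
    rw [h1]
    calc W₂.valuation (algebraMap R L X) * W₂.valuation (algebraMap R L Y)
        ≤ 1 * W₂.valuation (algebraMap R L Y) := by
          gcongr
          exact (W₂.valuation_le_one_iff _).2 hXmem
      _ = W₂.valuation (algebraMap R L Y) := one_mul _
      _ < 1 := (ValuationSubring.mem_nonunits_iff W₂).1 hYnu
  have hb : tres5Ord W₂ (algebraMap F L (algebraMap R F ϖ)) u = b := by
    rw [← IsScalarTower.algebraMap_apply R F L]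
    exact tres5Ord_eq hϖW₂ hϖ0 (tresmn_val W₂ hϖ0 b hvb)
  have hdvd : (p : ℤ) ∣ (b - a) - (m₀ - a) := by
    have := hm₀ W₂ hW₂V
    rw [hb] at this
    have e1 : (b - a) - (m₀ - a) = b - m₀ := by ring
    rw [e1]
    exact this
  exact ⟨ls_localSubring (F := L) (tres5eMax R z (c k)), hO'T, himp hdvd⟩

/-- **(I3) at a smooth point.** -/
theorem tresmono_smooth_pt (H : Tres5eSplit F z P c) [IsNoetherianRing R]
    {ϖ s : R} (hmax : maximalIdeal R = Ideal.span {ϖ, s}) (hϖ : Prime ϖ)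
    (hE : ∀ e : E, ∃ (n : ℕ) (a : R),
      algebraMap E F e * algebraMap R F ϖ ^ n = algebraMap R F a)
    (W : ValuationSubring L) (V₁ : ValuationSubring F)
    (hWV : W.comap (algebraMap F L) = V₁)
    (hϖV : algebraMap R F ϖ ∈ V₁.nonunits) (hsV : algebraMap R F s ∉ V₁.nonunits)
    {p : ℕ} {u h : L} (hu0 : u ≠ 0)
    (hhor : ∀ (k : ι) [(tres5eMax R z (c k)).IsPrime] (Pl : Place E L),
      (∀ x ∈ ls_localSubring (F := L) (tres5eMax R z (c k)), x ∈ Pl.toValuationSubring) →
        (p : ℤ) ∣ Pl.ord u)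
    (ε' : R) (hε' : IsUnit ε') (hh : h = algebraMap R L ε') (cc e : ℤ)
    (m : ℤ) (hm : W.valuation (u / algebraMap R L ϖ ^ m) = 1) :
    ∀ T : ValuationSubring L, (∀ r : R, algebraMap R L r ∈ T) → (∀ x ∈ T, x ∈ W) →
      ∃ O' : Subring L, (∀ x ∈ O', x ∈ T) ∧
        TresMonoPt W O' p cc e (u / algebraMap R L ϖ ^ m) h := by
  intro T hRT hTW
  obtain ⟨k, hk⟩ := tres5n_exists_le H T hRT
  haveI := H.isPrime k
  have hO'T := hk inferInstance
  have hO'W : ∀ x ∈ ls_localSubring (F := L) (tres5eMax R z (c k)), x ∈ W :=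
    fun x hx => hTW x (hO'T x hx)
  obtain ⟨a, hva, hpt⟩ :=
    tresmn_smooth_at (E := E) H k hmax hϖ hE W hO'W V₁ hWV hϖV hsV u h hu0
      (fun Pl hPl => hhor k Pl hPl) (tres5eBaseToLoc z (c k) ε') (H.isUnit_loc k hε')
      (by rw [tres5eBaseToLoc_coe, hh]) cc e
  have hϖ0 : algebraMap R L ϖ ≠ 0 := by
    rw [IsScalarTower.algebraMap_apply R F L]
    exact (_root_.map_ne_zero _).2
      ((_root_.map_ne_zero_iff _ (IsFractionRing.injective R F)).2 hϖ.ne_zero)
  have hϖW : W.valuation (algebraMap R L ϖ) < 1 := tresmn_val_base_lt W V₁ hWV hϖV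
  have ham : a = m := tresmono_exp_unique W hϖ0 hϖW hva hm
  subst ham
  exact ⟨ls_localSubring (F := L) (tres5eMax R z (c k)), hO'T, hpt⟩

/-- **(I4) at a cusp** (a smooth point; no condition on the Ogg unit). -/
theorem tresmono_cusp_pt (H : Tres5eSplit F z P c) [IsNoetherianRing R]
    {ϖ s : R} (hmax : maximalIdeal R = Ideal.span {ϖ, s}) (hϖ : Prime ϖ)
    (hE : ∀ e : E, ∃ (n : ℕ) (a : R),
      algebraMap E F e * algebraMap R F ϖ ^ n = algebraMap R F a)
    (W : ValuationSubring L) (V₁ : ValuationSubring F)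
    (hWV : W.comap (algebraMap F L) = V₁)
    (hϖV : algebraMap R F ϖ ∈ V₁.nonunits) (hsV : algebraMap R F s ∉ V₁.nonunits)
    {p : ℕ} {u : L} (hu0 : u ≠ 0)
    (hhor : ∀ (k : ι) [(tres5eMax R z (c k)).IsPrime] (Pl : Place E L),
      (∀ x ∈ ls_localSubring (F := L) (tres5eMax R z (c k)), x ∈ Pl.toValuationSubring) →
        (p : ℤ) ∣ Pl.ord u)
    (m : ℤ) (hm : W.valuation (u / algebraMap R L ϖ ^ m) = 1) :
    ∀ T : ValuationSubring L, (∀ r : R, algebraMap R L r ∈ T) → (∀ x ∈ T, x ∈ W) →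
      ∃ O' : Subring L, (∀ x ∈ O', x ∈ T) ∧ StbFacAt O' p (u / algebraMap R L ϖ ^ m) := by
  intro T hRT hTW
  obtain ⟨k, hk⟩ := tres5n_exists_le H T hRT
  haveI := H.isPrime k
  have hO'T := hk inferInstance
  have hO'W : ∀ x ∈ ls_localSubring (F := L) (tres5eMax R z (c k)), x ∈ W :=
    fun x hx => hTW x (hO'T x hx)
  obtain ⟨a, hva, hfac⟩ :=
    tresmn_cusp_at (E := E) H k hmax hϖ hE W hO'W V₁ hWV hϖV hsV u hu0
      (fun Pl hPl => hhor k Pl hPl)
  have hϖ0 : algebraMap R L ϖ ≠ 0 := by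
    rw [IsScalarTower.algebraMap_apply R F L]
    exact (_root_.map_ne_zero _).2
      ((_root_.map_ne_zero_iff _ (IsFractionRing.injective R F)).2 hϖ.ne_zero)
  have hϖW : W.valuation (algebraMap R L ϖ) < 1 := tresmn_val_base_lt W V₁ hWV hϖV
  have ham : a = m := tresmono_exp_unique W hϖ0 hϖW hva hm
  subst ham
  exact ⟨ls_localSubring (F := L) (tres5eMax R z (c k)), hO'T, hfac⟩

end Pt

end Fermat.Agent.R38
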