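/-
Row 38, PKG-TRES, MONO, piece FAC-LOC, part (a) of helper92's ruling v4 (helper65): the X-SIDE
inputs of `tres5n_comap` (`R38/TresNode.lean`), from the chart data of `RT/K6/DLFPt.lean`.

Frame of `rtk6lfp_cross_dvd`: `B` a chart, `𝔫` a prime of `B`, `R = ls_localSubring 𝔫 = B_𝔫 ⊆ F`,
`V : κ → ValuationSubring F` the vertical valuation rings, `ϖ` the uniformizer of the base,
(KR), (U); THIN CROSSING POINT `w ϖ = X Y`, `w ∉ 𝔫`, `X ∈ 𝔪(V c₁)`, `Y ∈ 𝔪(V c₂)`.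
`Xr = s36n2pToLoc 𝔫 X : R`.

* `tres5nv_loc_gen`  : GENERIC: `R ⊆ V` a subring with fraction field `F`, `WfDvdMonoid R`,
  `Xr ∈ R` nonzero, not a unit, with `𝔪(V) ∩ R = Xr R`: every `x ∈ V` is `a / b`, `a, b ∈ R`,
  `Xr ∤ b` (`V = R_(Xr)`).
* `tres5nv_loc`   : `∀ x ∈ V c₁, ∃ a b : R, ¬ Xr ∣ b ∧ x * b = a`            (hypothesis `hV₁`);
* `tres5nv_unif`  : `∀ x ∈ 𝔪(V c₁), ∃ v ∈ V c₁, x = Xr * v`                   (hypothesis `hUX`);
* `tres5nv_Y`     : `v_{c₁}(Y) = 1`;   `tres5nv_X₂` : `v_{c₂}(X) = 1`;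
* `tres5nv_isLoc` : the form `x ∈ V c₁ ↔ ∃ a b : R, ¬ Xr ∣ b ∧ x * b = a`.
* SMOOTH POINT (frame of `rtk6lfp_smooth_dvd`, `X := ϖ`): `tres5nv_smooth_loc`,
  `tres5nv_smooth_unif`, `tres5nv_smooth_isLoc`, and `tres5nv_smooth_s` (`v_c(s) = 1` if
  `ϖ ∤ s` in `R`).
-/
import Fermat.Agent.RT.K6.DLFPt

set_option autoImplicit false
set_option linter.unusedSectionVars false
set_option linter.unusedVariables false
set_option linter.style.haveILetI false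
set_option linter.style.longLine false

namespace Fermat.Agent.R38

open Fermat.Agent.UNIP Fermat.Agent.STB Fermat.Agent.S36 Fermat.Agent.RT.K6 AlgebraicCurve
  IsLocalRing

section Gen

variable {F : Type*} [Field F]

/-- an element of `R ⊆ V` which is not divisible by `Xr` is a unit of `V`, if
`𝔪(V) ∩ R ⊆ Xr R` -/
theorem tres5nv_val_eq_one (R : Subring F) (V : ValuationSubring F) (hRV : ∀ x ∈ R, x ∈ V)
    (Xr : R) (hdvd : ∀ y : R, (y : F) ∈ V.nonunits → Xr ∣ y) {a : R} (ha : ¬ Xr ∣ a) :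
    V.valuation (a : F) = 1 :=
  stb_gc_val_eq_one V (hRV a a.2) (fun h => ha (hdvd a h))

/-- **GENERIC `V = R_(Xr)`**: `R ⊆ V` with fraction field `F`, divisibility well founded on `R`,
`Xr ∈ 𝔪(V)` nonzero and not a unit of `R`, `𝔪(V) ∩ R ⊆ Xr R`.  Then every element of `V` is a
fraction with denominator prime to `Xr`. -/
theorem tres5nv_loc_gen (R : Subring F) [WfDvdMonoid R] (V : ValuationSubring F)
    (hRV : ∀ x ∈ R, x ∈ V)
    (hfrac : ∀ x : F, ∃ a b : R, (b : F) ≠ 0 ∧ x * (b : F) = (a : F))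
    (Xr : R) (hX0 : Xr ≠ 0) (hXu : ¬ IsUnit Xr) (hXnu : (Xr : F) ∈ V.nonunits)
    (hdvd : ∀ y : R, (y : F) ∈ V.nonunits → Xr ∣ y) :
    ∀ x ∈ V, ∃ a b : R, ¬ Xr ∣ b ∧ x * (b : F) = (a : F) := by
  intro x hx
  have hX1 : ¬ Xr ∣ (1 : R) := fun h => hXu (isUnit_of_dvd_one h)
  obtain ⟨a, b, hb0, hab⟩ := hfrac x
  by_cases hx0 : x = 0
  · exact ⟨0, 1, hX1, by rw [hx0]; simp⟩
  have hb0' : b ≠ 0 := fun h => hb0 (by rw [h]; rfl)
  have ha0 : a ≠ 0 := by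
    intro h
    rw [h] at hab
    have : x * (b : F) = 0 := by rw [hab]; rfl
    rcases mul_eq_zero.1 this with h' | h'
    · exact hx0 h'
    · exact hb0 h'
  obtain ⟨i, a', ha', rfl⟩ := WfDvdMonoid.max_power_factor' ha0 hXu
  obtain ⟨j, b', hb', rfl⟩ := WfDvdMonoid.max_power_factor' hb0' hXu
  have hva := tres5nv_val_eq_one R V hRV Xr hdvd ha'
  have hvb := tres5nv_val_eq_one R V hRV Xr hdvd hb'
  have hXF0 : (Xr : F) ≠ 0 := fun h0 => hX0 (Subtype.ext h0)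
  have hvX : V.valuation (Xr : F) < 1 := (ValuationSubring.mem_nonunits_iff V).1 hXnu
  have hvX0 : V.valuation (Xr : F) ≠ 0 := (Valuation.ne_zero_iff _).2 hXF0
  have hvx : V.valuation x ≤ 1 := (V.valuation_le_one_iff x).2 hx
  have hab' : x * ((Xr : F) ^ j * (b' : F)) = (Xr : F) ^ i * (a' : F) := hab
  rcases le_or_gt j i with hji | hij
  · refine ⟨Xr ^ (i - j) * a', b', hb', ?_⟩
    have e : (Xr : F) ^ i = (Xr : F) ^ j * (Xr : F) ^ (i - j) := by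
      rw [← pow_add, Nat.add_sub_cancel' hji]
    rw [e] at hab'
    have h2 : (Xr : F) ^ j * (x * (b' : F)) = (Xr : F) ^ j * ((Xr : F) ^ (i - j) * (a' : F)) := by
      linear_combination hab'
    have h3 := mul_left_cancel₀ (pow_ne_zero j hXF0) h2
    rw [h3]
    rfl
  · exfalso
    have e : (Xr : F) ^ j = (Xr : F) ^ i * (Xr : F) ^ (j - i) := by
      rw [← pow_add, Nat.add_sub_cancel' hij.le]
    rw [e] at hab'
    have h2 : (Xr : F) ^ i * (x * (Xr : F) ^ (j - i) * (b' : F)) = (Xr : F) ^ i * (a' : F) := by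
      linear_combination hab'
    have h3 := mul_left_cancel₀ (pow_ne_zero i hXF0) h2
    have h4 := congrArg V.valuation h3
    rw [map_mul, map_mul, map_pow, hva, hvb, mul_one] at h4
    have hpos : 0 < j - i := Nat.sub_pos_of_lt hij
    have h5 : V.valuation (Xr : F) ^ (j - i) < 1 := pow_lt_one₀ zero_le hvX hpos.ne'
    have h6 : V.valuation x * V.valuation (Xr : F) ^ (j - i) < 1 :=
      lt_of_le_of_lt (mul_le_mul' hvx le_rfl) (by rwa [one_mul])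
    exact absurd h4 h6.ne

/-- the converse: a fraction with denominator prime to `Xr` lies in `V` -/
theorem tres5nv_mem_gen (R : Subring F) (V : ValuationSubring F) (hRV : ∀ x ∈ R, x ∈ V)
    (Xr : R) (hdvd : ∀ y : R, (y : F) ∈ V.nonunits → Xr ∣ y) {x : F} {a b : R}
    (hb : ¬ Xr ∣ b) (hab : x * (b : F) = (a : F)) : x ∈ V := by
  have hvb := tres5nv_val_eq_one R V hRV Xr hdvd hb
  have hva : V.valuation (a : F) ≤ 1 := (V.valuation_le_one_iff _).2 (hRV a a.2)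
  rw [← V.valuation_le_one_iff]
  have h := congrArg V.valuation hab
  rw [map_mul, hvb, mul_one] at h
  rw [h]
  exact hva

end Gen

section Core

variable {F : Type*} [Field F] {B : Type*} [CommRing B] [Algebra B F]
variable (hinj : Function.Injective (algebraMap B F)) (𝔫 : Ideal B) [h𝔫 : 𝔫.IsPrime]
variable {κ : Type*}

include hinj in
/-- divisibility is well founded on `B_𝔫` (`B` noetherian) -/
theorem tres5nv_wf [IsNoetherianRing B] : WfDvdMonoid (ls_localSubring (F := F) 𝔫) := by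
  haveI := s36n2p_isNoetherianRing (F := F) hinj 𝔫
  infer_instance

include hinj in
/-- `F` is the fraction field of `B_𝔫` -/
theorem tres5nv_frac
    (hfrac : ∀ x : F, ∃ a b : B, b ≠ 0 ∧ x * algebraMap B F b = algebraMap B F a) :
    ∀ x : F, ∃ a b : ls_localSubring (F := F) 𝔫, (b : F) ≠ 0 ∧ x * (b : F) = (a : F) := by
  intro x
  obtain ⟨a, b, hb, h⟩ := hfrac x
  exact ⟨s36n2pToLoc (F := F) 𝔫 a, s36n2pToLoc (F := F) 𝔫 b,
    fun h0 => hb (hinj (by rw [map_zero]; exact h0)), h⟩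

/-! ### thin crossing points -/

/-- **`v_{c₁}(Y) = 1`** at a thin crossing point. -/
theorem tres5nv_Y (V : κ → ValuationSubring F)
    (hBV : ∀ c (b : B), algebraMap B F b ∈ V c) (ϖ : B)
    (hU : ∀ c (x : F), x ∈ (V c).nonunits → ∃ z ∈ V c, x = algebraMap B F ϖ * z)
    (hϖ0 : algebraMap B F ϖ ≠ 0) (c₁ : κ)
    (hthr₁ : ∀ b : B, algebraMap B F b ∈ (V c₁).nonunits → b ∈ 𝔫)
    {X Y w : B} (hw : w ∉ 𝔫) (hXY : w * ϖ = X * Y)
    (hX : algebraMap B F X ∈ (V c₁).nonunits) :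
    (V c₁).valuation ((s36n2pToLoc (F := F) 𝔫 Y : ls_localSubring (F := F) 𝔫) : F) = 1 :=
  (rtk6lfp_cross_val 𝔫 (V c₁) (hBV c₁) ϖ (hU c₁) hϖ0 hthr₁ hw hXY hX).1

/-- **`v_{c₂}(X) = 1`** at a thin crossing point. -/
theorem tres5nv_X₂ (V : κ → ValuationSubring F)
    (hBV : ∀ c (b : B), algebraMap B F b ∈ V c) (ϖ : B)
    (hU : ∀ c (x : F), x ∈ (V c).nonunits → ∃ z ∈ V c, x = algebraMap B F ϖ * z)
    (hϖ0 : algebraMap B F ϖ ≠ 0) (c₂ : κ)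
    (hthr₂ : ∀ b : B, algebraMap B F b ∈ (V c₂).nonunits → b ∈ 𝔫)
    {X Y w : B} (hw : w ∉ 𝔫) (hXY : w * ϖ = X * Y)
    (hY : algebraMap B F Y ∈ (V c₂).nonunits) :
    (V c₂).valuation ((s36n2pToLoc (F := F) 𝔫 X : ls_localSubring (F := F) 𝔫) : F) = 1 :=
  (rtk6lfp_cross_val 𝔫 (V c₂) (hBV c₂) ϖ (hU c₂) hϖ0 hthr₂ hw
    (by rw [hXY, mul_comm] : w * ϖ = Y * X) hY).1

/-- **`𝔪(V c₁) = X V c₁`** at a thin crossing point (hypothesis `hUX` of `tres5n_comap`). -/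
theorem tres5nv_unif (V : κ → ValuationSubring F)
    (hBV : ∀ c (b : B), algebraMap B F b ∈ V c) (ϖ : B)
    (hU : ∀ c (x : F), x ∈ (V c).nonunits → ∃ z ∈ V c, x = algebraMap B F ϖ * z)
    (hϖ0 : algebraMap B F ϖ ≠ 0) (c₁ : κ)
    (hthr₁ : ∀ b : B, algebraMap B F b ∈ (V c₁).nonunits → b ∈ 𝔫)
    {X Y w : B} (hw : w ∉ 𝔫) (hXY : w * ϖ = X * Y)
    (hX : algebraMap B F X ∈ (V c₁).nonunits) :
    ∀ x ∈ (V c₁).nonunits, ∃ v ∈ V c₁,
      x = ((s36n2pToLoc (F := F) 𝔫 X : ls_localSubring (F := F) 𝔫) : F) * v := by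
  intro x hx
  obtain ⟨z, hz, hxz⟩ := hU c₁ x hx
  obtain ⟨z', hz', hXz'⟩ := hU c₁ _ hX
  have hX1 := (rtk6lfp_cross_val 𝔫 (V c₁) (hBV c₁) ϖ (hU c₁) hϖ0 hthr₁ hw hXY hX).2
  have hz'1 : (V c₁).valuation z' = 1 := by
    have h1 := hX1
    rw [hXz', map_mul] at h1
    have hϖv : (V c₁).valuation (algebraMap B F ϖ) ≠ 0 := (Valuation.ne_zero_iff _).2 hϖ0
    exact mul_left_cancel₀ hϖv (by rw [h1, mul_one])
  have hz'0 : z' ≠ 0 := fun h0 => by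
    rw [h0, map_zero] at hz'1
    exact zero_ne_one hz'1
  refine ⟨z'⁻¹ * z, mul_mem (rtk6lfp_inv_mem (V c₁) hz'1) hz, ?_⟩
  show x = algebraMap B F X * (z'⁻¹ * z)
  rw [hxz, hXz']
  field_simp

include hinj in
/-- **`V c₁ ⊆ (B_𝔫)_(X)`** at a thin crossing point (hypothesis `hV₁` of `tres5n_comap`). -/
theorem tres5nv_loc [Finite κ] [IsNoetherianRing B] (V : κ → ValuationSubring F)
    (hBV : ∀ c (b : B), algebraMap B F b ∈ V c) (ϖ : B)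
    (hKR : ∀ x : F, (∃ b : B, algebraMap B F ϖ * x = algebraMap B F b) → (∀ c, x ∈ V c) →
      ∃ b : B, x = algebraMap B F b)
    (hU : ∀ c (x : F), x ∈ (V c).nonunits → ∃ z ∈ V c, x = algebraMap B F ϖ * z)
    (hϖ0 : algebraMap B F ϖ ≠ 0)
    (hfrac : ∀ x : F, ∃ a b : B, b ≠ 0 ∧ x * algebraMap B F b = algebraMap B F a)
    (c₁ c₂ : κ)
    (hκ : ∀ c, (∀ b : B, algebraMap B F b ∈ (V c).nonunits → b ∈ 𝔫) → c = c₁ ∨ c = c₂)
    (hthr₁ : ∀ b : B, algebraMap B F b ∈ (V c₁).nonunits → b ∈ 𝔫)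
    (hthr₂ : ∀ b : B, algebraMap B F b ∈ (V c₂).nonunits → b ∈ 𝔫)
    {X Y w : B} (hw : w ∉ 𝔫) (hXY : w * ϖ = X * Y)
    (hX : algebraMap B F X ∈ (V c₁).nonunits) (hY : algebraMap B F Y ∈ (V c₂).nonunits) :
    ∀ x ∈ V c₁, ∃ a b : ls_localSubring (F := F) 𝔫,
      ¬ s36n2pToLoc (F := F) 𝔫 X ∣ b ∧ x * (b : F) = (a : F) := by
  haveI := tres5nv_wf (F := F) hinj 𝔫
  have hp := rtk6lfp_cross_prime hinj 𝔫 V hBV ϖ hKR hU hϖ0 c₁ c₂ hκ hthr₁ hthr₂ hw hXY hX hY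
  exact tres5nv_loc_gen (ls_localSubring (F := F) 𝔫) (V c₁)
    (stb_gc_le 𝔫 (V c₁) (hBV c₁) hthr₁) (tres5nv_frac hinj 𝔫 hfrac) _ hp.ne_zero hp.not_isUnit hX
    (fun y hy => rtk6lfp_cross_dvd hinj 𝔫 V hBV ϖ hKR hU hϖ0 c₁ c₂ hκ hthr₁ hthr₂ hw hXY hX hY
      y hy)

include hinj in
/-- **`V c₁ = (B_𝔫)_(X)`** at a thin crossing point. -/
theorem tres5nv_isLoc [Finite κ] [IsNoetherianRing B] (V : κ → ValuationSubring F)
    (hBV : ∀ c (b : B), algebraMap B F b ∈ V c) (ϖ : B)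
    (hKR : ∀ x : F, (∃ b : B, algebraMap B F ϖ * x = algebraMap B F b) → (∀ c, x ∈ V c) →
      ∃ b : B, x = algebraMap B F b)
    (hU : ∀ c (x : F), x ∈ (V c).nonunits → ∃ z ∈ V c, x = algebraMap B F ϖ * z)
    (hϖ0 : algebraMap B F ϖ ≠ 0)
    (hfrac : ∀ x : F, ∃ a b : B, b ≠ 0 ∧ x * algebraMap B F b = algebraMap B F a)
    (c₁ c₂ : κ)
    (hκ : ∀ c, (∀ b : B, algebraMap B F b ∈ (V c).nonunits → b ∈ 𝔫) → c = c₁ ∨ c = c₂)
    (hthr₁ : ∀ b : B, algebraMap B F b ∈ (V c₁).nonunits → b ∈ 𝔫)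
    (hthr₂ : ∀ b : B, algebraMap B F b ∈ (V c₂).nonunits → b ∈ 𝔫)
    {X Y w : B} (hw : w ∉ 𝔫) (hXY : w * ϖ = X * Y)
    (hX : algebraMap B F X ∈ (V c₁).nonunits) (hY : algebraMap B F Y ∈ (V c₂).nonunits)
    (x : F) :
    x ∈ V c₁ ↔ ∃ a b : ls_localSubring (F := F) 𝔫,
      ¬ s36n2pToLoc (F := F) 𝔫 X ∣ b ∧ x * (b : F) = (a : F) := by
  constructor
  · exact tres5nv_loc hinj 𝔫 V hBV ϖ hKR hU hϖ0 hfrac c₁ c₂ hκ hthr₁ hthr₂ hw hXY hX hY x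
  · rintro ⟨a, b, hb, hab⟩
    exact tres5nv_mem_gen (ls_localSubring (F := F) 𝔫) (V c₁)
      (stb_gc_le 𝔫 (V c₁) (hBV c₁) hthr₁) _
      (fun y hy => rtk6lfp_cross_dvd hinj 𝔫 V hBV ϖ hKR hU hϖ0 c₁ c₂ hκ hthr₁ hthr₂ hw hXY hX hY
        y hy) hb hab

/-! ### smooth points -/

/-- **`𝔪(V c) = ϖ V c`** (hypothesis `hUX` of `tres5n_comap` at a smooth point). -/
theorem tres5nv_smooth_unif (V : κ → ValuationSubring F) (ϖ : B)
    (hU : ∀ c (x : F), x ∈ (V c).nonunits → ∃ z ∈ V c, x = algebraMap B F ϖ * z) (c : κ) :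
    ∀ x ∈ (V c).nonunits, ∃ v ∈ V c,
      x = ((s36n2pToLoc (F := F) 𝔫 ϖ : ls_localSubring (F := F) 𝔫) : F) * v :=
  fun x hx => hU c x hx

include hinj in
/-- **`V c ⊆ (B_𝔫)_(ϖ)`** at a point with only one component through it (hypothesis `hV₁` of
`tres5n_comap` at a smooth point). -/
theorem tres5nv_smooth_loc [Finite κ] [IsNoetherianRing B] (V : κ → ValuationSubring F)
    (hBV : ∀ c (b : B), algebraMap B F b ∈ V c) (ϖ : B)
    (hKR : ∀ x : F, (∃ b : B, algebraMap B F ϖ * x = algebraMap B F b) → (∀ c, x ∈ V c) →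
      ∃ b : B, x = algebraMap B F b)
    (hU : ∀ c (x : F), x ∈ (V c).nonunits → ∃ z ∈ V c, x = algebraMap B F ϖ * z)
    (hϖ0 : algebraMap B F ϖ ≠ 0) (hϖV : ∀ c, algebraMap B F ϖ ∈ (V c).nonunits)
    (hfrac : ∀ x : F, ∃ a b : B, b ≠ 0 ∧ x * algebraMap B F b = algebraMap B F a)
    (c : κ) (hthr : ∀ b : B, algebraMap B F b ∈ (V c).nonunits → b ∈ 𝔫)
    (hone : ∀ c', (∀ b : B, algebraMap B F b ∈ (V c').nonunits → b ∈ 𝔫) → c' = c) :
    ∀ x ∈ V c, ∃ a b : ls_localSubring (F := F) 𝔫,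
      ¬ s36n2pToLoc (F := F) 𝔫 ϖ ∣ b ∧ x * (b : F) = (a : F) := by
  haveI := tres5nv_wf (F := F) hinj 𝔫
  have hp := rtk6lfp_smooth_prime hinj 𝔫 V hBV ϖ hKR hU hϖ0 hϖV c hthr hone
  exact tres5nv_loc_gen (ls_localSubring (F := F) 𝔫) (V c)
    (stb_gc_le 𝔫 (V c) (hBV c) hthr) (tres5nv_frac hinj 𝔫 hfrac) _ hp.ne_zero hp.not_isUnit
    (hϖV c) (fun y hy => rtk6lfp_smooth_dvd hinj 𝔫 V hBV ϖ hKR hU c hone y hy)

include hinj in
/-- **`V c = (B_𝔫)_(ϖ)`** at a point with only one component through it. -/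
theorem tres5nv_smooth_isLoc [Finite κ] [IsNoetherianRing B] (V : κ → ValuationSubring F)
    (hBV : ∀ c (b : B), algebraMap B F b ∈ V c) (ϖ : B)
    (hKR : ∀ x : F, (∃ b : B, algebraMap B F ϖ * x = algebraMap B F b) → (∀ c, x ∈ V c) →
      ∃ b : B, x = algebraMap B F b)
    (hU : ∀ c (x : F), x ∈ (V c).nonunits → ∃ z ∈ V c, x = algebraMap B F ϖ * z)
    (hϖ0 : algebraMap B F ϖ ≠ 0) (hϖV : ∀ c, algebraMap B F ϖ ∈ (V c).nonunits)
    (hfrac : ∀ x : F, ∃ a b : B, b ≠ 0 ∧ x * algebraMap B F b = algebraMap B F a)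
    (c : κ) (hthr : ∀ b : B, algebraMap B F b ∈ (V c).nonunits → b ∈ 𝔫)
    (hone : ∀ c', (∀ b : B, algebraMap B F b ∈ (V c').nonunits → b ∈ 𝔫) → c' = c)
    (x : F) :
    x ∈ V c ↔ ∃ a b : ls_localSubring (F := F) 𝔫,
      ¬ s36n2pToLoc (F := F) 𝔫 ϖ ∣ b ∧ x * (b : F) = (a : F) := by
  constructor
  · exact tres5nv_smooth_loc hinj 𝔫 V hBV ϖ hKR hU hϖ0 hϖV hfrac c hthr hone x
  · rintro ⟨a, b, hb, hab⟩
    exact tres5nv_mem_gen (ls_localSubring (F := F) 𝔫) (V c)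
      (stb_gc_le 𝔫 (V c) (hBV c) hthr) _
      (fun y hy => rtk6lfp_smooth_dvd hinj 𝔫 V hBV ϖ hKR hU c hone y hy) hb hab

include hinj in
/-- at a smooth point the second coordinate `s` is a unit of `V c`, if `ϖ ∤ s` in `B_𝔫` -/
theorem tres5nv_smooth_s [Finite κ] (V : κ → ValuationSubring F)
    (hBV : ∀ c (b : B), algebraMap B F b ∈ V c) (ϖ : B)
    (hKR : ∀ x : F, (∃ b : B, algebraMap B F ϖ * x = algebraMap B F b) → (∀ c, x ∈ V c) →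
      ∃ b : B, x = algebraMap B F b)
    (hU : ∀ c (x : F), x ∈ (V c).nonunits → ∃ z ∈ V c, x = algebraMap B F ϖ * z)
    (c : κ)
    (hone : ∀ c', (∀ b : B, algebraMap B F b ∈ (V c').nonunits → b ∈ 𝔫) → c' = c)
    {s : B} (hs : ¬ s36n2pToLoc (F := F) 𝔫 ϖ ∣ s36n2pToLoc (F := F) 𝔫 s) :
    (V c).valuation ((s36n2pToLoc (F := F) 𝔫 s : ls_localSubring (F := F) 𝔫) : F) = 1 :=
  stb_gc_val_eq_one (V c) (hBV c s)
    (fun h => hs (rtk6lfp_smooth_dvd hinj 𝔫 V hBV ϖ hKR hU c hone _ h))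

end Core

end Fermat.Agent.R38
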