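import Fermat.Agent.R38.TresOgg
import Fermat.Agent.RIB.MP.FacConc

/-!
# Row 38, PKG-TRES, MONO, piece FAC-OGG (helper10), part 1b: concrete forms over `K₀ ⊇ ℚ̄^I`

Frame of `RIB/MP/FacConc.lean`: `hA : A.LiesOverPrime q`, `hE : beta0Field A ≤ K₀`,
`h2 : q = 2 → 3 ∣ M`, `h3 : q = 3 → 2 ∣ M` (regular charts), `q ∼ π ^ e`.

* `tres5o_assoc_q`     : over `K₀ = beta0Field A = ℚ̄^I`: `q ∼ π ^ 1`;
* `tres5o_cross_fac`   : **the node formula** `h = ε · Y ^ (12 e)` (`X ∈ 𝔪(V_∞)`, `Y ∈ 𝔪(V_0)`);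
* `tres5o_cross_fac'`  : other orientation, `h = ε · X ^ (12 e)`;
* `tres5o_smooth_unit` : `h` is a unit of `(B_j)_𝔫` at a smooth point on `V_∞`;
* `tres5o_smooth_fac`  : `h = ε · π ^ (12 e)` at a smooth point on `V_0`.
-/

set_option autoImplicit false
set_option linter.unusedSectionVars false
set_option linter.unusedVariables false
set_option linter.style.haveILetI false
set_option linter.style.longLine false

noncomputable section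

namespace Fermat.Agent.R38

open ModularCurve AlgebraicCurve IntermediateField Fermat.Agent.INJ Fermat.Agent.UNIP
  Fermat.Agent.STB Fermat.Agent.S36 Fermat.Agent.S33 Fermat.Agent.S28 Fermat.Agent.RIB.MP
  Fermat.Agent.RT.K6 Fermat.Agent.AL Fermat.Agent.ES Fermat.Agent.ES.G2 Fermat.Agent.S24

section Base

variable {A : ValuationSubring Qb} [IsDiscreteValuationRing ↥(beta0Ring A (beta0Field A))]
  {π : ↥(beta0Ring A (beta0Field A))} {q : ℕ}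

/-- over `ℚ̄^I` the prime `q` is a uniformizer: `q ∼ π ^ 1` -/
theorem tres5o_assoc_q (hπ : Irreducible π) (hq : q.Prime) (hA : A.LiesOverPrime q) :
    Associated ((q : ℕ) : ↥(beta0Ring A (beta0Field A))) (π ^ 1) := by
  rw [pow_one]
  exact IsDiscreteValuationRing.associated_of_irreducible _ (beta0Ring_irreducible_q hq hA) hπ

end Base

section Mgv

variable {A : ValuationSubring Qb} {K₀ : IntermediateField ℚ Qb}
  [IsDiscreteValuationRing ↥(beta0Ring A K₀)] {π : ↥(beta0Ring A K₀)} (hπ : Irreducible π)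
  (ιC : ↥K₀ →+* ℂ) {q M : ℕ} [NeZero q] [NeZero M] [NeZero (M * q)]
  (hq : q.Prime) (hqM : ¬ q ∣ M)

/-- **The node formula for the Ogg unit**, concrete form. -/
theorem tres5o_cross_fac (hA : A.LiesOverPrime q) (hE : beta0Field A ≤ K₀)
    (h2 : q = 2 → 3 ∣ M) (h3 : q = 3 → 2 ∣ M)
    [IsNoetherianRing ↥(zchClosure (A₀ := ↥(beta0Ring A K₀))
      ({bgJ ↥K₀ (M * q)} : Set ↥(modularFunctionFieldFullC ↥K₀ (M * q))))]
    {e : ℕ} (hqπ : Associated ((q : ℕ) : ↥(beta0Ring A K₀)) (π ^ e))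
    (𝔫 : AtPt (F := ↥(modularFunctionFieldFullC ↥K₀ (M * q))) π (bgJ ↥K₀ (M * q)))
    {X Y : ↥(zchClosure (A₀ := ↥(beta0Ring A K₀))
      ({bgJ ↥K₀ (M * q)} : Set ↥(modularFunctionFieldFullC ↥K₀ (M * q))))}
    (h : Rtk6lfCrossAt (mgvV hπ ιC hq hqM true) (mgvV hπ ιC hq hqM false) 𝔫 X Y) :
    ∃ ε : ↥(atLoc 𝔫), IsUnit ε ∧
      s36tuV ↥K₀ ιC (q := q) (M := M) =
        (ε : ↥(modularFunctionFieldFullC ↥K₀ (M * q))) *
          (Y : ↥(modularFunctionFieldFullC ↥K₀ (M * q))) ^ (12 * e) := by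
  haveI := ribmp_fc_fin (K₀ := K₀) (M * q)
  exact tres5o_cross_fac_of hπ ιC hq hqM hA (ribmp_fc_hSS1 hπ ιC hq hqM hA hE h2 h3)
    (ribmp_fc_hU hπ ιC hq hqM) hqπ 𝔫 h

/-- **The node formula for the Ogg unit**, concrete form, other orientation. -/
theorem tres5o_cross_fac' (hA : A.LiesOverPrime q) (hE : beta0Field A ≤ K₀)
    (h2 : q = 2 → 3 ∣ M) (h3 : q = 3 → 2 ∣ M)
    [IsNoetherianRing ↥(zchClosure (A₀ := ↥(beta0Ring A K₀))
      ({bgJ ↥K₀ (M * q)} : Set ↥(modularFunctionFieldFullC ↥K₀ (M * q))))]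
    {e : ℕ} (hqπ : Associated ((q : ℕ) : ↥(beta0Ring A K₀)) (π ^ e))
    (𝔫 : AtPt (F := ↥(modularFunctionFieldFullC ↥K₀ (M * q))) π (bgJ ↥K₀ (M * q)))
    {X Y : ↥(zchClosure (A₀ := ↥(beta0Ring A K₀))
      ({bgJ ↥K₀ (M * q)} : Set ↥(modularFunctionFieldFullC ↥K₀ (M * q))))}
    (h : Rtk6lfCrossAt (mgvV hπ ιC hq hqM false) (mgvV hπ ιC hq hqM true) 𝔫 X Y) :
    ∃ ε : ↥(atLoc 𝔫), IsUnit ε ∧
      s36tuV ↥K₀ ιC (q := q) (M := M) =
        (ε : ↥(modularFunctionFieldFullC ↥K₀ (M * q))) *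
          (X : ↥(modularFunctionFieldFullC ↥K₀ (M * q))) ^ (12 * e) := by
  haveI := ribmp_fc_fin (K₀ := K₀) (M * q)
  exact tres5o_cross_fac_of' hπ ιC hq hqM hA (ribmp_fc_hSS1 hπ ιC hq hqM hA hE h2 h3)
    (ribmp_fc_hU hπ ιC hq hqM) hqπ 𝔫 h

/-- **The Ogg unit is a unit** at a smooth point on the component `V_∞`, concrete form. -/
theorem tres5o_smooth_unit (hA : A.LiesOverPrime q) (hE : beta0Field A ≤ K₀)
    (h2 : q = 2 → 3 ∣ M) (h3 : q = 3 → 2 ∣ M)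
    [IsNoetherianRing ↥(zchClosure (A₀ := ↥(beta0Ring A K₀))
      ({bgJ ↥K₀ (M * q)} : Set ↥(modularFunctionFieldFullC ↥K₀ (M * q))))]
    (𝔫 : AtPt (F := ↥(modularFunctionFieldFullC ↥K₀ (M * q))) π (bgJ ↥K₀ (M * q)))
    (hthr : atThrough 𝔫 (mgvV hπ ιC hq hqM true))
    (hone : ∀ c', atThrough 𝔫 (mgvV hπ ιC hq hqM c') → c' = true)
    {s : ↥(zchClosure (A₀ := ↥(beta0Ring A K₀))
      ({bgJ ↥K₀ (M * q)} : Set ↥(modularFunctionFieldFullC ↥K₀ (M * q))))} (hs : s ∈ 𝔫.1)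
    (hgen : NodesLocGen 𝔫.1 {algebraMap ↥(beta0Ring A K₀) ↥(zchClosure (A₀ := ↥(beta0Ring A K₀))
      ({bgJ ↥K₀ (M * q)} : Set ↥(modularFunctionFieldFullC ↥K₀ (M * q)))) π, s}) :
    ∃ ε : ↥(atLoc 𝔫), IsUnit ε ∧
      s36tuV ↥K₀ ιC (q := q) (M := M) = (ε : ↥(modularFunctionFieldFullC ↥K₀ (M * q))) := by
  haveI := ribmp_fc_fin (K₀ := K₀) (M * q)
  exact tres5o_smooth_unit_of hπ ιC hq hqM hA (ribmp_fc_hSS1 hπ ιC hq hqM hA hE h2 h3)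
    (ribmp_fc_hU hπ ιC hq hqM) 𝔫 hthr hone hs hgen

/-- **The Ogg unit at a smooth point on the component `V_0`**, concrete form. -/
theorem tres5o_smooth_fac (hA : A.LiesOverPrime q) (hE : beta0Field A ≤ K₀)
    (h2 : q = 2 → 3 ∣ M) (h3 : q = 3 → 2 ∣ M)
    [IsNoetherianRing ↥(zchClosure (A₀ := ↥(beta0Ring A K₀))
      ({bgJ ↥K₀ (M * q)} : Set ↥(modularFunctionFieldFullC ↥K₀ (M * q))))]
    {e : ℕ} (hqπ : Associated ((q : ℕ) : ↥(beta0Ring A K₀)) (π ^ e))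
    (𝔫 : AtPt (F := ↥(modularFunctionFieldFullC ↥K₀ (M * q))) π (bgJ ↥K₀ (M * q)))
    (hthr : atThrough 𝔫 (mgvV hπ ιC hq hqM false))
    (hone : ∀ c', atThrough 𝔫 (mgvV hπ ιC hq hqM c') → c' = false)
    {s : ↥(zchClosure (A₀ := ↥(beta0Ring A K₀))
      ({bgJ ↥K₀ (M * q)} : Set ↥(modularFunctionFieldFullC ↥K₀ (M * q))))} (hs : s ∈ 𝔫.1)
    (hgen : NodesLocGen 𝔫.1 {algebraMap ↥(beta0Ring A K₀) ↥(zchClosure (A₀ := ↥(beta0Ring A K₀))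
      ({bgJ ↥K₀ (M * q)} : Set ↥(modularFunctionFieldFullC ↥K₀ (M * q)))) π, s}) :
    ∃ ε : ↥(atLoc 𝔫), IsUnit ε ∧
      s36tuV ↥K₀ ιC (q := q) (M := M) =
        (ε : ↥(modularFunctionFieldFullC ↥K₀ (M * q))) *
          algebraMap ↥(beta0Ring A K₀) ↥(modularFunctionFieldFullC ↥K₀ (M * q)) π ^ (12 * e) := by
  haveI := ribmp_fc_fin (K₀ := K₀) (M * q)
  exact tres5o_smooth_fac_of hπ ιC hq hqM hA (ribmp_fc_hSS1 hπ ιC hq hqM hA hE h2 h3)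
    (ribmp_fc_hU hπ ιC hq hqM) hqπ 𝔫 hthr hone hs hgen

end Mgv

end Fermat.Agent.R38
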