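/-
Row 38, PKG-TRES, MONO, piece FAC-LOC (helper92), part 4: THE HYPOTHESIS (I3) `hfin` OF
`tresmono_frame`, CONCRETE FORM on the chart `j` of `X₀(M q)` over `K = ℚ̄^I` (rigid level).

Frame of `RT/K6/DLFConc.lean` (section `Base`): `K = beta0Field A`, `A₀ = beta0Ring A K`,
`F = modularFunctionFieldFullC K (M q)`, `t = bgJ K (M q)`, `V = mgvV hπ ιC hq hqM`
(`true = V_∞`, `false = V_0`), `h = s36tuV K ιC` the Ogg unit (helper10, `R38/TresOgg*.lean`).
`L ⊇ F` the function field of the cover over `K`, `W` its Gauss sheet (`W ∩ F = V_∞`).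

* `tres5npj_through` : a closed point `𝔫` with `atLoc 𝔫 ⊆ T ⊆ W` lies on `V_∞`;
* `tres5npj_hfin_node` : the same as `tres5npj_hfin` with `hm₀` required only at thin nodes;
* `tres5npj_hfin`    : **(I3)** at every closed point of the chart `j`, from
    - the thin dichotomy `rtk6lfb0_thinAt_J` (S36 G-thin, rigid level),
    - `hsplit` : the split situation `Tres5eSplit` over `atLoc 𝔫` at the closed points on `V_∞`
                 (K-FORM (B), helper48/helper53),
    - `hhor`   : `p ∣ ord_P u` at the places of `L / K` (FAC-HOR),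
    - `hm₀`    : MONO-0 on the sheets over `V_0` (helper14),
    - the Ogg node formula (helper10) — `e = 12`.
-/
import Fermat.Agent.R38.TresNodePt
import Fermat.Agent.RT.K6.DLFConc
import Fermat.Agent.R38.TresOggConc

set_option autoImplicit false
set_option linter.unusedSectionVars false
set_option linter.unusedVariables false
set_option linter.style.haveILetI false
set_option linter.style.longLine false
set_option synthInstance.maxHeartbeats 400000
set_option maxHeartbeats 1600000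

noncomputable section

namespace Fermat.Agent.R38

open ModularCurve AlgebraicCurve IntermediateField Polynomial Fermat.Agent.INJ Fermat.Agent.UNIP
  Fermat.Agent.STB Fermat.Agent.S36 Fermat.Agent.RIB.MP Fermat.Agent.RT.K6 Fermat.Agent.AL
  Fermat.Agent.ES Fermat.Agent.ES.G2

section Through

variable {A₀ F : Type*} [CommRing A₀] [Field F] [Algebra A₀ F]
  {L : Type*} [Field L] [Algebra F L]

/-- a closed point `𝔫` of a chart with `atLoc 𝔫 ⊆ T ⊆ W` lies on the component `W ∩ F` -/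
theorem tres5npj_through {π : A₀} {t : F} (𝔫 : AtPt (F := F) π t) (W T : ValuationSubring L)
    (V : ValuationSubring F) (hWV : W.comap (algebraMap F L) = V)
    (hRT : ∀ x ∈ atLoc 𝔫, algebraMap F L x ∈ T) (hTW : ∀ x ∈ T, x ∈ W) :
    atThrough 𝔫 V := by
  haveI := 𝔫.2.1.isPrime
  intro b hb
  by_contra hb𝔫
  have hb0 : (b : F) ≠ 0 := fun h0 => hb𝔫 (by
    have : b = 0 := Subtype.ext h0
    rw [this]; exact 𝔫.1.zero_mem)
  have hinv : (b : F)⁻¹ ∈ atLoc 𝔫 := by
    refine ⟨1, b, hb𝔫, ?_⟩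
    show (b : F) * (b : F)⁻¹ = ((1 : ↥(zchClosure (A₀ := A₀) ({t} : Set F))) : F)
    rw [mul_inv_cancel₀ hb0]; rfl
  have h1 : (b : F)⁻¹ ∈ V := by
    rw [← hWV, ValuationSubring.mem_comap]
    exact hTW _ (hRT _ hinv)
  have h2 : V.valuation (b : F)⁻¹ ≤ 1 := (V.valuation_le_one_iff _).2 h1
  have h3 : V.valuation (b : F) < 1 := (ValuationSubring.mem_nonunits_iff V).1 hb
  have h4 : V.valuation (b : F) * V.valuation (b : F)⁻¹ = 1 := by
    rw [← map_mul, mul_inv_cancel₀ hb0, map_one]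
  have h5 : V.valuation (b : F) * V.valuation (b : F)⁻¹ < 1 :=
    mul_lt_one_of_nonneg_of_lt_one_left zero_le h3 h2
  rw [h4] at h5
  exact lt_irrefl _ h5

end Through

section Base

variable {A : ValuationSubring Qb} {q M : ℕ} [NeZero q] [NeZero M] [NeZero (M * q)]
  [IsDiscreteValuationRing ↥(beta0Ring A (beta0Field A))]
  {π : ↥(beta0Ring A (beta0Field A))} (hπ : Irreducible π)
  (ιC : ↥(beta0Field A) →+* ℂ) (hq : q.Prime) (hqM : ¬ q ∣ M)

include hπ ιC hq hqM in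
/-- **(I3) of `tresmono_frame` on the chart `j` of `X₀(M q)` over `ℚ̄^I`** (rigid level), with
MONO-0 `hm₀` required ONLY in the presence of a thin node (the shape of helper14's instance
`tresmzi_main`). -/
theorem tres5npj_hfin_node (hA : A.LiesOverPrime q)
    (rigid : (q ≠ 2 → 4 ∣ M) ∧ (q = 2 → 9 ∣ M))
    {L : Type*} [Field L] [Algebra ↥(modularFunctionFieldFullC ↥(beta0Field A) (M * q)) L]
    [Algebra ↥(beta0Field A) L]
    [IsScalarTower ↥(beta0Field A) ↥(modularFunctionFieldFullC ↥(beta0Field A) (M * q)) L]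
    (W : ValuationSubring L)
    (hWV : W.comap (algebraMap ↥(modularFunctionFieldFullC ↥(beta0Field A) (M * q)) L) =
      mgvV hπ ιC hq hqM true)
    {ι : Type*} [Fintype ι]
    (hsplit : ∀ 𝔫 : AtPt (F := ↥(modularFunctionFieldFullC ↥(beta0Field A) (M * q))) π
        (bgJ ↥(beta0Field A) (M * q)),
      atThrough 𝔫 (mgvV hπ ιC hq hqM true) → ∀ [IsLocalRing ↥(atLoc 𝔫)],
        ∃ (z : L) (P : (↥(atLoc 𝔫))[X]) (c : ι → ↥(atLoc 𝔫)),
          Tres5eSplit ↥(modularFunctionFieldFullC ↥(beta0Field A) (M * q)) z P c)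
    {p : ℕ} {u : L} (hu0 : u ≠ 0)
    (hhor : ∀ Pl : Place ↥(beta0Field A) L, (p : ℤ) ∣ Pl.ord u)
    (m₀ : ℤ)
    (hm₀ : ∀ (𝔫 : AtPt (F := ↥(modularFunctionFieldFullC ↥(beta0Field A) (M * q))) π
        (bgJ ↥(beta0Field A) (M * q)))
      (X Y : ↥(zchClosure (A₀ := ↥(beta0Ring A (beta0Field A)))
        ({bgJ ↥(beta0Field A) (M * q)} :
          Set ↥(modularFunctionFieldFullC ↥(beta0Field A) (M * q))))),
      Rtk6lfCrossAt (mgvV hπ ιC hq hqM true) (mgvV hπ ιC hq hqM false) 𝔫 X Y →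
      ∀ W' : ValuationSubring L,
      W'.comap (algebraMap ↥(modularFunctionFieldFullC ↥(beta0Field A) (M * q)) L) =
        mgvV hπ ιC hq hqM false →
      (p : ℤ) ∣ tres5Ord W' (algebraMap ↥(modularFunctionFieldFullC ↥(beta0Field A) (M * q)) L
        (algebraMap ↥(beta0Ring A (beta0Field A))
          ↥(modularFunctionFieldFullC ↥(beta0Field A) (M * q)) π)) u - m₀)
    (m : ℤ)
    (hm : W.valuation (u / algebraMap ↥(modularFunctionFieldFullC ↥(beta0Field A) (M * q)) L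
      (algebraMap ↥(beta0Ring A (beta0Field A))
        ↥(modularFunctionFieldFullC ↥(beta0Field A) (M * q)) π) ^ m) = 1) :
    ∀ 𝔫 : AtPt (F := ↥(modularFunctionFieldFullC ↥(beta0Field A) (M * q))) π
        (bgJ ↥(beta0Field A) (M * q)),
      ∀ T : ValuationSubring L,
      (∀ x ∈ atLoc 𝔫,
        algebraMap ↥(modularFunctionFieldFullC ↥(beta0Field A) (M * q)) L x ∈ T) →
      (∀ x ∈ T, x ∈ W) →
      ∃ O' : Subring L, (∀ x ∈ O', x ∈ T) ∧
        TresMonoPt W O' p (m₀ - m) 12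
          (u / algebraMap ↥(modularFunctionFieldFullC ↥(beta0Field A) (M * q)) L
            (algebraMap ↥(beta0Ring A (beta0Field A))
              ↥(modularFunctionFieldFullC ↥(beta0Field A) (M * q)) π) ^ m)
          (algebraMap ↥(modularFunctionFieldFullC ↥(beta0Field A) (M * q)) L
            (s36tuV ↥(beta0Field A) ιC (q := q) (M := M))) := by
  intro 𝔫 T hRT hTW
  haveI := 𝔫.2.1.isPrime
  haveI := rtk6lfb_noeth_J (A := A) (K₀ := beta0Field A) (M := M) (q := q)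
  haveI := ribmp_fc_fin (K₀ := beta0Field A) (M * q)
  haveI : IsLocalRing ↥(atLoc 𝔫) :=
    ls_localSubring_isLocalRing (F := ↥(modularFunctionFieldFullC ↥(beta0Field A) (M * q)))
      Subtype.val_injective 𝔫.1
  have h2 := rtk6lfb_rigid_h2 rigid
  have h3 := rtk6lfb_rigid_h3 rigid
  have hSS1 := ribmp_fc_hSS1 hπ ιC hq hqM hA (le_refl (beta0Field A)) h2 h3
  have hthr : atThrough 𝔫 (mgvV hπ ιC hq hqM true) :=
    tres5npj_through 𝔫 W T _ hWV hRT hTW
  obtain ⟨z, P, c, H⟩ := hsplit 𝔫 hthr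
  rcases rtk6lfb0_thinAt_J hπ ιC hq hqM hA rigid 𝔫 with ⟨s, hs, hgen⟩ | ⟨X, Y, hcross⟩
  · -- smooth point
    have harch' : ∀ c, StbArch (mgvV hπ ιC hq hqM c) := fun c x a ha => by
      obtain ⟨N, hN⟩ := mgv_harch hπ ιC hq hqM c a x ha
      exact ⟨N, by rw [mul_comm x (a ^ N)]; exact hN⟩
    obtain ⟨c₀, hc₀, hone⟩ := stb_sx_exists_unique (mgvV hπ ιC hq hqM) (mgv_hBV₁ hπ ιC hq hqM)
      (mgv_hπV hπ ιC hq hqM) hSS1 (mgv_hVloc₁ hπ ιC hq hqM hA hSS1)
      (fun c c' hcc' => stb_not_le_of_ne (harch' c) (ribmp_fc_hπ0 hπ) (mgv_hπV hπ ιC hq hqM c')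
        (rtk6lfb_hne hπ ιC hq hqM hA c c' hcc')) 𝔫 s hs hgen
    have hc₀t : c₀ = true := (hone true hthr).symm
    subst hc₀t
    obtain ⟨ε', hε', hh⟩ := tres5o_smooth_unit hπ ιC hq hqM hA (le_refl (beta0Field A)) h2 h3 𝔫
      hthr hone hs hgen
    exact tres5np_smooth (E := ↥(beta0Field A)) hπ (mgvV hπ ιC hq hqM)
      (mgv_hBV₁ hπ ιC hq hqM) (mgv_hπV hπ ιC hq hqM) hSS1 (ribmp_fc_hU hπ ιC hq hqM) 𝔫 true
      hthr hone hs hgen H W hWV hu0 (fun Pl _ => hhor Pl) ε' hε' (by rw [hh]) (m₀ - m) 12 m hm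
      T hRT hTW
  · -- thin node
    obtain ⟨ε', hε', hh⟩ := tres5o_cross_fac hπ ιC hq hqM hA (le_refl (beta0Field A)) h2 h3
      (tres5o_assoc_q hπ hq hA) 𝔫 hcross
    exact tres5np_node (E := ↥(beta0Field A)) hπ (mgvV hπ ιC hq hqM) true false mgv_hκ
      (mgv_hBV₁ hπ ιC hq hqM) (mgv_hπV hπ ιC hq hqM) hSS1 (ribmp_fc_hU hπ ιC hq hqM) 𝔫
      hcross H W hWV hu0 (fun Pl _ => hhor Pl) ε' hε' 12
      (by rw [hh]; norm_num) m₀ (hm₀ 𝔫 X Y hcross) m hm T hRT hTW

include hπ ιC hq hqM in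
/-- **(I3) of `tresmono_frame` on the chart `j`**, with a global MONO-0 hypothesis. -/
theorem tres5npj_hfin (hA : A.LiesOverPrime q)
    (rigid : (q ≠ 2 → 4 ∣ M) ∧ (q = 2 → 9 ∣ M))
    {L : Type*} [Field L] [Algebra ↥(modularFunctionFieldFullC ↥(beta0Field A) (M * q)) L]
    [Algebra ↥(beta0Field A) L]
    [IsScalarTower ↥(beta0Field A) ↥(modularFunctionFieldFullC ↥(beta0Field A) (M * q)) L]
    (W : ValuationSubring L)
    (hWV : W.comap (algebraMap ↥(modularFunctionFieldFullC ↥(beta0Field A) (M * q)) L) =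
      mgvV hπ ιC hq hqM true)
    {ι : Type*} [Fintype ι]
    (hsplit : ∀ 𝔫 : AtPt (F := ↥(modularFunctionFieldFullC ↥(beta0Field A) (M * q))) π
        (bgJ ↥(beta0Field A) (M * q)),
      atThrough 𝔫 (mgvV hπ ιC hq hqM true) → ∀ [IsLocalRing ↥(atLoc 𝔫)],
        ∃ (z : L) (P : (↥(atLoc 𝔫))[X]) (c : ι → ↥(atLoc 𝔫)),
          Tres5eSplit ↥(modularFunctionFieldFullC ↥(beta0Field A) (M * q)) z P c)
    {p : ℕ} {u : L} (hu0 : u ≠ 0)
    (hhor : ∀ Pl : Place ↥(beta0Field A) L, (p : ℤ) ∣ Pl.ord u)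
    (m₀ : ℤ)
    (hm₀ : ∀ W' : ValuationSubring L,
      W'.comap (algebraMap ↥(modularFunctionFieldFullC ↥(beta0Field A) (M * q)) L) =
        mgvV hπ ιC hq hqM false →
      (p : ℤ) ∣ tres5Ord W' (algebraMap ↥(modularFunctionFieldFullC ↥(beta0Field A) (M * q)) L
        (algebraMap ↥(beta0Ring A (beta0Field A))
          ↥(modularFunctionFieldFullC ↥(beta0Field A) (M * q)) π)) u - m₀)
    (m : ℤ)
    (hm : W.valuation (u / algebraMap ↥(modularFunctionFieldFullC ↥(beta0Field A) (M * q)) L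
      (algebraMap ↥(beta0Ring A (beta0Field A))
        ↥(modularFunctionFieldFullC ↥(beta0Field A) (M * q)) π) ^ m) = 1) :
    ∀ 𝔫 : AtPt (F := ↥(modularFunctionFieldFullC ↥(beta0Field A) (M * q))) π
        (bgJ ↥(beta0Field A) (M * q)),
      ∀ T : ValuationSubring L,
      (∀ x ∈ atLoc 𝔫,
        algebraMap ↥(modularFunctionFieldFullC ↥(beta0Field A) (M * q)) L x ∈ T) →
      (∀ x ∈ T, x ∈ W) →
      ∃ O' : Subring L, (∀ x ∈ O', x ∈ T) ∧
        TresMonoPt W O' p (m₀ - m) 12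
          (u / algebraMap ↥(modularFunctionFieldFullC ↥(beta0Field A) (M * q)) L
            (algebraMap ↥(beta0Ring A (beta0Field A))
              ↥(modularFunctionFieldFullC ↥(beta0Field A) (M * q)) π) ^ m)
          (algebraMap ↥(modularFunctionFieldFullC ↥(beta0Field A) (M * q)) L
            (s36tuV ↥(beta0Field A) ιC (q := q) (M := M))) :=
  tres5npj_hfin_node hπ ιC hq hqM hA rigid W hWV hsplit hu0 hhor m₀
    (fun _ _ _ _ => hm₀) m hm

end Base

end Fermat.Agent.R38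

end
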