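/-
Row 38, PKG-TRES, MONO, piece FAC-LOC, leaf (I4)-CONCRETE (helper84): THE HYPOTHESIS `hcusp` OF
`tresmono_frame`, CONCRETE FORM on the chart `1 / j` of `X₀(M q)` (twin of helper92's
`R38/TresNodePtConc.lean`, which does the chart `j`).

Frame of `RIB/MP/FacCusp.lean`: `A ⊂ ℚ̄` over `q`, `q ∤ M`, `K₀ ⊇ ℚ̄^I` with `A₀ = A ∩ K₀` a DVR
(uniformizer `π`), `F = modularFunctionFieldFullC K₀ (M q)`, `t = bgJ K₀ (M q)`,
`V = mgvV hπ ιC hq hqM` (`true = V_∞`, `false = V_0`).  `L ⊇ F` the function field of the cover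
over `K₀`, `W` its Gauss sheet (`W ∩ F = V_∞`).

A CUSP is a closed point `𝔫` of the special fibre of the chart `1 / j` with `1 / j ∈ 𝔫`.

* `tres5npc_gen_mem`   : the cusp condition of `tresmono_frame` gives `ribmpFglGen (1 / j) ∈ 𝔫`;
* `tres5npc_smooth`    : a cusp is a smooth point, `𝔫 = (π, s)` locally (`ribmp_fcu_smooth`),
                         for `K₀` stable under the decomposition group;
* `tres5npc_unique`    : exactly one of `V_∞`, `V_0` passes through a cusp;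
* `tres5npc_hcusp_gen` : **(I4)** at every cusp, `K₀` stable under the decomposition group;
* `tres5npc_hcusp`     : **(I4)** at every cusp for `K₀ = ℚ̄^I = beta0Field A` (frame K), from
    - `hsplit` : the split situation `Tres5eSplit` over `atLoc 𝔫` at the cusps on `V_∞`
                 (K-FORM (B)),
    - `hhor`   : `p ∣ ord_P u` at the places of `L / K` (FAC-HOR);
  the conclusion is LITERALLY the hypothesis `hcusp` of `tresmono_frame` with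
  `y = u / π ^ m`;
* `tres5npc_hcusp_rigid` : the same with the rigidity hypothesis of `tres5npj_hfin`.
-/
import Fermat.Agent.R38.TresNodePtConc
import Fermat.Agent.RIB.MP.FacCusp

set_option autoImplicit false
set_option linter.unusedSectionVars false
set_option linter.unusedVariables false
set_option linter.style.haveILetI false
set_option linter.style.longLine false
set_option synthInstance.maxHeartbeats 400000
set_option maxHeartbeats 1600000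

noncomputable section

namespace Fermat.Agent.R38

open ModularCurve AlgebraicCurve IntermediateField Polynomial Fermat.Agent.INJ Fermat.Agent.UNIP
  Fermat.Agent.STB Fermat.Agent.S36 Fermat.Agent.RIB.MP Fermat.Agent.RT.K6 Fermat.Agent.AL
  Fermat.Agent.ES Fermat.Agent.ES.G2

section Gen

variable {A : ValuationSubring Qb} {K₀ : IntermediateField ℚ Qb}
  [IsDiscreteValuationRing ↥(beta0Ring A K₀)] {π : ↥(beta0Ring A K₀)} (hπ : Irreducible π)
  (ιC : ↥K₀ →+* ℂ) {q M : ℕ} [NeZero q] [NeZero M] [NeZero (M * q)]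
  (hq : q.Prime) (hqM : ¬ q ∣ M)

/-- the cusp condition of `tresmono_frame`, in the form of `RIB/MP/FacCusp.lean` -/
theorem tres5npc_gen_mem
    (𝔫 : AtPt (F := ↥(modularFunctionFieldFullC ↥K₀ (M * q))) π (bgJ ↥K₀ (M * q))⁻¹)
    (hcu : ∀ b : ↥(zchClosure (A₀ := ↥(beta0Ring A K₀))
        ({(bgJ ↥K₀ (M * q))⁻¹} : Set ↥(modularFunctionFieldFullC ↥K₀ (M * q)))),
      (b : ↥(modularFunctionFieldFullC ↥K₀ (M * q))) = (bgJ ↥K₀ (M * q))⁻¹ → b ∈ 𝔫.1) :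
    ribmpFglGen (A₀ := ↥(beta0Ring A K₀)) (bgJ ↥K₀ (M * q))⁻¹ ∈ 𝔫.1 :=
  hcu _ rfl

include hπ hq hqM in
/-- **a cusp is a smooth point** (`K₀` stable under the decomposition group of `A`) -/
theorem tres5npc_smooth (hA : A.LiesOverPrime q) (hE : beta0Field A ≤ K₀)
    (hstab : ∀ τ : Qb ≃ₐ[ℚ] Qb, τ ∈ A.decompositionSubgroup ℚ → ∀ x ∈ K₀, τ x ∈ K₀)
    (h2 : q = 2 → 3 ∣ M) (h3 : q = 3 → 2 ∣ M)
    (𝔫 : AtPt (F := ↥(modularFunctionFieldFullC ↥K₀ (M * q))) π (bgJ ↥K₀ (M * q))⁻¹)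
    (hcu : ∀ b : ↥(zchClosure (A₀ := ↥(beta0Ring A K₀))
        ({(bgJ ↥K₀ (M * q))⁻¹} : Set ↥(modularFunctionFieldFullC ↥K₀ (M * q)))),
      (b : ↥(modularFunctionFieldFullC ↥K₀ (M * q))) = (bgJ ↥K₀ (M * q))⁻¹ → b ∈ 𝔫.1) :
    ∃ s ∈ 𝔫.1, NodesLocGen 𝔫.1
      {algebraMap ↥(beta0Ring A K₀) ↥(zchClosure (A₀ := ↥(beta0Ring A K₀))
        ({(bgJ ↥K₀ (M * q))⁻¹} : Set ↥(modularFunctionFieldFullC ↥K₀ (M * q)))) π, s} := by
  obtain ⟨φ, hφF⟩ := Fermat.Agent.Common.exists_isFrobeniusAt_of_liesOverPrime q hq A hA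
  exact ribmp_fcu_smooth hπ hq hqM hA hE hφF (hstab φ hφF.mem_decompositionSubgroup) h2 h3 𝔫
    (tres5npc_gen_mem 𝔫 hcu)

include hπ ιC hq hqM in
/-- **exactly one vertical component passes through a smooth point of the chart `1 / j`** -/
theorem tres5npc_unique (hA : A.LiesOverPrime q) (hE : beta0Field A ≤ K₀)
    (h2 : q = 2 → 3 ∣ M) (h3 : q = 3 → 2 ∣ M)
    (𝔫 : AtPt (F := ↥(modularFunctionFieldFullC ↥K₀ (M * q))) π (bgJ ↥K₀ (M * q))⁻¹)
    {s : ↥(zchClosure (A₀ := ↥(beta0Ring A K₀))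
      ({(bgJ ↥K₀ (M * q))⁻¹} : Set ↥(modularFunctionFieldFullC ↥K₀ (M * q))))} (hs : s ∈ 𝔫.1)
    (hgen : NodesLocGen 𝔫.1
      {algebraMap ↥(beta0Ring A K₀) ↥(zchClosure (A₀ := ↥(beta0Ring A K₀))
        ({(bgJ ↥K₀ (M * q))⁻¹} : Set ↥(modularFunctionFieldFullC ↥K₀ (M * q)))) π, s}) :
    ∃ c : Bool, atThrough 𝔫 (mgvV hπ ιC hq hqM c) ∧
      ∀ c', atThrough 𝔫 (mgvV hπ ιC hq hqM c') → c' = c := by
  haveI := ribmp_fcu_noeth (A := A) (K₀ := K₀) (q := q) (M := M)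
  have hSS1 := ribmp_fc_hSS1 hπ ιC hq hqM hA hE h2 h3
  have hSS1i := ribmp_fc_hSS1_inv hπ ιC hq hqM hA hE h2 h3
  have harch' : ∀ c, StbArch (mgvV hπ ιC hq hqM c) := fun c x a ha => by
    obtain ⟨N, hN⟩ := mgv_harch hπ ιC hq hqM c a x ha
    exact ⟨N, by rw [mul_comm x (a ^ N)]; exact hN⟩
  exact stb_sx_exists_unique (mgvV hπ ιC hq hqM) (mgv_hBV₂ hπ ιC hq hqM)
    (mgv_hπV hπ ιC hq hqM) hSS1i (mgv_hVloc₂ hπ ιC hq hqM hA hSS1)
    (fun c c' hcc' => stb_not_le_of_ne (harch' c) (ribmp_fc_hπ0 hπ) (mgv_hπV hπ ιC hq hqM c')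
      (rtk6lfb_hne hπ ιC hq hqM hA c c' hcc')) 𝔫 s hs hgen

include hπ ιC hq hqM in
/-- **(I4) of `tresmono_frame` at the cusps of `X₀(M q)` over `K₀`** (`K₀ ⊇ ℚ̄^I` stable under
the decomposition group of `A`). -/
theorem tres5npc_hcusp_gen (hA : A.LiesOverPrime q) (hE : beta0Field A ≤ K₀)
    (hstab : ∀ τ : Qb ≃ₐ[ℚ] Qb, τ ∈ A.decompositionSubgroup ℚ → ∀ x ∈ K₀, τ x ∈ K₀)
    (h2 : q = 2 → 3 ∣ M) (h3 : q = 3 → 2 ∣ M)
    {L : Type*} [Field L] [Algebra ↥(modularFunctionFieldFullC ↥K₀ (M * q)) L]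
    [Algebra ↥K₀ L] [IsScalarTower ↥K₀ ↥(modularFunctionFieldFullC ↥K₀ (M * q)) L]
    (W : ValuationSubring L)
    (hWV : W.comap (algebraMap ↥(modularFunctionFieldFullC ↥K₀ (M * q)) L) =
      mgvV hπ ιC hq hqM true)
    {ι : Type*} [Fintype ι]
    (hsplit : ∀ 𝔫 : AtPt (F := ↥(modularFunctionFieldFullC ↥K₀ (M * q))) π
        (bgJ ↥K₀ (M * q))⁻¹,
      atThrough 𝔫 (mgvV hπ ιC hq hqM true) →
      (∀ b : ↥(zchClosure (A₀ := ↥(beta0Ring A K₀))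
          ({(bgJ ↥K₀ (M * q))⁻¹} : Set ↥(modularFunctionFieldFullC ↥K₀ (M * q)))),
        (b : ↥(modularFunctionFieldFullC ↥K₀ (M * q))) = (bgJ ↥K₀ (M * q))⁻¹ → b ∈ 𝔫.1) →
      ∀ [IsLocalRing ↥(atLoc 𝔫)],
        ∃ (z : L) (P : (↥(atLoc 𝔫))[X]) (c : ι → ↥(atLoc 𝔫)),
          Tres5eSplit ↥(modularFunctionFieldFullC ↥K₀ (M * q)) z P c)
    {p : ℕ} {u : L} (hu0 : u ≠ 0)
    (hhor : ∀ Pl : Place ↥K₀ L, (p : ℤ) ∣ Pl.ord u)
    (m : ℤ)
    (hm : W.valuation (u / algebraMap ↥(modularFunctionFieldFullC ↥K₀ (M * q)) L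
      (algebraMap ↥(beta0Ring A K₀) ↥(modularFunctionFieldFullC ↥K₀ (M * q)) π) ^ m) = 1) :
    ∀ 𝔫 : AtPt (F := ↥(modularFunctionFieldFullC ↥K₀ (M * q))) π (bgJ ↥K₀ (M * q))⁻¹,
      ∀ T : ValuationSubring L,
      (∀ x ∈ atLoc 𝔫, algebraMap ↥(modularFunctionFieldFullC ↥K₀ (M * q)) L x ∈ T) →
      (∀ x ∈ T, x ∈ W) →
      (∀ b : ↥(zchClosure (A₀ := ↥(beta0Ring A K₀))
          ({(bgJ ↥K₀ (M * q))⁻¹} : Set ↥(modularFunctionFieldFullC ↥K₀ (M * q)))),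
        (b : ↥(modularFunctionFieldFullC ↥K₀ (M * q))) = (bgJ ↥K₀ (M * q))⁻¹ → b ∈ 𝔫.1) →
      ∃ O' : Subring L, (∀ x ∈ O', x ∈ T) ∧
        StbFacAt O' p
          (u / algebraMap ↥(modularFunctionFieldFullC ↥K₀ (M * q)) L
            (algebraMap ↥(beta0Ring A K₀) ↥(modularFunctionFieldFullC ↥K₀ (M * q)) π) ^ m) := by
  intro 𝔫 T hRT hTW hcu
  haveI := 𝔫.2.1.isPrime
  haveI := ribmp_fcu_noeth (A := A) (K₀ := K₀) (q := q) (M := M)
  haveI := ribmp_fc_fin_inv (K₀ := K₀) (M * q)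
  haveI : IsLocalRing ↥(atLoc 𝔫) :=
    ls_localSubring_isLocalRing (F := ↥(modularFunctionFieldFullC ↥K₀ (M * q)))
      Subtype.val_injective 𝔫.1
  have hSS1i := ribmp_fc_hSS1_inv hπ ιC hq hqM hA hE h2 h3
  have hthr : atThrough 𝔫 (mgvV hπ ιC hq hqM true) :=
    tres5npj_through 𝔫 W T _ hWV hRT hTW
  obtain ⟨z, P, c, H⟩ := hsplit 𝔫 hthr hcu
  obtain ⟨s, hs, hgen⟩ := tres5npc_smooth hπ hq hqM hA hE hstab h2 h3 𝔫 hcu
  obtain ⟨c₀, hc₀, hone⟩ := tres5npc_unique hπ ιC hq hqM hA hE h2 h3 𝔫 hs hgen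
  have hc₀t : c₀ = true := (hone true hthr).symm
  subst hc₀t
  exact tres5np_cusp (E := ↥K₀) hπ (mgvV hπ ιC hq hqM)
    (mgv_hBV₂ hπ ιC hq hqM) (mgv_hπV hπ ιC hq hqM) hSS1i (ribmp_fc_hU hπ ιC hq hqM) 𝔫 true
    hthr hone hs hgen H W hWV hu0 (fun Pl _ => hhor Pl) m hm T hRT hTW

end Gen

section Base

variable {A : ValuationSubring Qb} {q M : ℕ} [NeZero q] [NeZero M] [NeZero (M * q)]
  [IsDiscreteValuationRing ↥(beta0Ring A (beta0Field A))]
  {π : ↥(beta0Ring A (beta0Field A))} (hπ : Irreducible π)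
  (ιC : ↥(beta0Field A) →+* ℂ) (hq : q.Prime) (hqM : ¬ q ∣ M)

include hπ ιC hq hqM in
/-- **(I4) of `tresmono_frame` at the cusps of `X₀(M q)` over `ℚ̄^I`** (frame K): the
conclusion is the hypothesis `hcusp` of `tresmono_frame` with `y = u / π ^ m`. -/
theorem tres5npc_hcusp (hA : A.LiesOverPrime q)
    (h2 : q = 2 → 3 ∣ M) (h3 : q = 3 → 2 ∣ M)
    {L : Type*} [Field L] [Algebra ↥(modularFunctionFieldFullC ↥(beta0Field A) (M * q)) L]
    [Algebra ↥(beta0Field A) L]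
    [IsScalarTower ↥(beta0Field A) ↥(modularFunctionFieldFullC ↥(beta0Field A) (M * q)) L]
    (W : ValuationSubring L)
    (hWV : W.comap (algebraMap ↥(modularFunctionFieldFullC ↥(beta0Field A) (M * q)) L) =
      mgvV hπ ιC hq hqM true)
    {ι : Type*} [Fintype ι]
    (hsplit : ∀ 𝔫 : AtPt (F := ↥(modularFunctionFieldFullC ↥(beta0Field A) (M * q))) π
        (bgJ ↥(beta0Field A) (M * q))⁻¹,
      atThrough 𝔫 (mgvV hπ ιC hq hqM true) →
      (∀ b : ↥(zchClosure (A₀ := ↥(beta0Ring A (beta0Field A)))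
          ({(bgJ ↥(beta0Field A) (M * q))⁻¹} :
            Set ↥(modularFunctionFieldFullC ↥(beta0Field A) (M * q)))),
        (b : ↥(modularFunctionFieldFullC ↥(beta0Field A) (M * q))) =
          (bgJ ↥(beta0Field A) (M * q))⁻¹ → b ∈ 𝔫.1) →
      ∀ [IsLocalRing ↥(atLoc 𝔫)],
        ∃ (z : L) (P : (↥(atLoc 𝔫))[X]) (c : ι → ↥(atLoc 𝔫)),
          Tres5eSplit ↥(modularFunctionFieldFullC ↥(beta0Field A) (M * q)) z P c)
    {p : ℕ} {u : L} (hu0 : u ≠ 0)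
    (hhor : ∀ Pl : Place ↥(beta0Field A) L, (p : ℤ) ∣ Pl.ord u)
    (m : ℤ)
    (hm : W.valuation (u / algebraMap ↥(modularFunctionFieldFullC ↥(beta0Field A) (M * q)) L
      (algebraMap ↥(beta0Ring A (beta0Field A))
        ↥(modularFunctionFieldFullC ↥(beta0Field A) (M * q)) π) ^ m) = 1) :
    ∀ 𝔫 : AtPt (F := ↥(modularFunctionFieldFullC ↥(beta0Field A) (M * q))) π
        (bgJ ↥(beta0Field A) (M * q))⁻¹,
      ∀ T : ValuationSubring L,
      (∀ x ∈ atLoc 𝔫,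
        algebraMap ↥(modularFunctionFieldFullC ↥(beta0Field A) (M * q)) L x ∈ T) →
      (∀ x ∈ T, x ∈ W) →
      (∀ b : ↥(zchClosure (A₀ := ↥(beta0Ring A (beta0Field A)))
          ({(bgJ ↥(beta0Field A) (M * q))⁻¹} :
            Set ↥(modularFunctionFieldFullC ↥(beta0Field A) (M * q)))),
        (b : ↥(modularFunctionFieldFullC ↥(beta0Field A) (M * q))) =
          (bgJ ↥(beta0Field A) (M * q))⁻¹ → b ∈ 𝔫.1) →
      ∃ O' : Subring L, (∀ x ∈ O', x ∈ T) ∧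
        StbFacAt O' p
          (u / algebraMap ↥(modularFunctionFieldFullC ↥(beta0Field A) (M * q)) L
            (algebraMap ↥(beta0Ring A (beta0Field A))
              ↥(modularFunctionFieldFullC ↥(beta0Field A) (M * q)) π) ^ m) :=
  tres5npc_hcusp_gen hπ ιC hq hqM hA le_rfl (fun τ hτ => stb_stable_beta0 hτ) h2 h3 W hWV
    hsplit hu0 hhor m hm

include hπ ιC hq hqM in
/-- **(I4) at the cusps, rigid level** (the hypotheses of `tres5npj_hfin`). -/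
theorem tres5npc_hcusp_rigid (hA : A.LiesOverPrime q)
    (rigid : (q ≠ 2 → 4 ∣ M) ∧ (q = 2 → 9 ∣ M))
    {L : Type*} [Field L] [Algebra ↥(modularFunctionFieldFullC ↥(beta0Field A) (M * q)) L]
    [Algebra ↥(beta0Field A) L]
    [IsScalarTower ↥(beta0Field A) ↥(modularFunctionFieldFullC ↥(beta0Field A) (M * q)) L]
    (W : ValuationSubring L)
    (hWV : W.comap (algebraMap ↥(modularFunctionFieldFullC ↥(beta0Field A) (M * q)) L) =
      mgvV hπ ιC hq hqM true)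
    {ι : Type*} [Fintype ι]
    (hsplit : ∀ 𝔫 : AtPt (F := ↥(modularFunctionFieldFullC ↥(beta0Field A) (M * q))) π
        (bgJ ↥(beta0Field A) (M * q))⁻¹,
      atThrough 𝔫 (mgvV hπ ιC hq hqM true) →
      (∀ b : ↥(zchClosure (A₀ := ↥(beta0Ring A (beta0Field A)))
          ({(bgJ ↥(beta0Field A) (M * q))⁻¹} :
            Set ↥(modularFunctionFieldFullC ↥(beta0Field A) (M * q)))),
        (b : ↥(modularFunctionFieldFullC ↥(beta0Field A) (M * q))) =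
          (bgJ ↥(beta0Field A) (M * q))⁻¹ → b ∈ 𝔫.1) →
      ∀ [IsLocalRing ↥(atLoc 𝔫)],
        ∃ (z : L) (P : (↥(atLoc 𝔫))[X]) (c : ι → ↥(atLoc 𝔫)),
          Tres5eSplit ↥(modularFunctionFieldFullC ↥(beta0Field A) (M * q)) z P c)
    {p : ℕ} {u : L} (hu0 : u ≠ 0)
    (hhor : ∀ Pl : Place ↥(beta0Field A) L, (p : ℤ) ∣ Pl.ord u)
    (m : ℤ)
    (hm : W.valuation (u / algebraMap ↥(modularFunctionFieldFullC ↥(beta0Field A) (M * q)) L
      (algebraMap ↥(beta0Ring A (beta0Field A))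
        ↥(modularFunctionFieldFullC ↥(beta0Field A) (M * q)) π) ^ m) = 1) :
    ∀ 𝔫 : AtPt (F := ↥(modularFunctionFieldFullC ↥(beta0Field A) (M * q))) π
        (bgJ ↥(beta0Field A) (M * q))⁻¹,
      ∀ T : ValuationSubring L,
      (∀ x ∈ atLoc 𝔫,
        algebraMap ↥(modularFunctionFieldFullC ↥(beta0Field A) (M * q)) L x ∈ T) →
      (∀ x ∈ T, x ∈ W) →
      (∀ b : ↥(zchClosure (A₀ := ↥(beta0Ring A (beta0Field A)))
          ({(bgJ ↥(beta0Field A) (M * q))⁻¹} :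
            Set ↥(modularFunctionFieldFullC ↥(beta0Field A) (M * q)))),
        (b : ↥(modularFunctionFieldFullC ↥(beta0Field A) (M * q))) =
          (bgJ ↥(beta0Field A) (M * q))⁻¹ → b ∈ 𝔫.1) →
      ∃ O' : Subring L, (∀ x ∈ O', x ∈ T) ∧
        StbFacAt O' p
          (u / algebraMap ↥(modularFunctionFieldFullC ↥(beta0Field A) (M * q)) L
            (algebraMap ↥(beta0Ring A (beta0Field A))
              ↥(modularFunctionFieldFullC ↥(beta0Field A) (M * q)) π) ^ m) :=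
  tres5npc_hcusp hπ ιC hq hqM hA (rtk6lfb_rigid_h2 rigid) (rtk6lfb_rigid_h3 rigid) W hWV
    hsplit hu0 hhor m hm

end Base

end Fermat.Agent.R38

end
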