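/-
ROW 38, TRES, StmtMonoCover, piece HHOR-WIRE, part 2 (helper10): the wrappers of (I3) / (I4)
ON THE `K`-FORM OF THE COVER.

    K = beta0Field A = ℚ̄^I,   L = ↥(tres5cL K (M q) y),
    `Algebra K L` = `tres5hAlgEL K (M q) y`, tower = `tres5hi_tower` (`R38/TresHorInst.lean`).

* `tres5hi_hfin_node`  : (I3) `tres5npj_hfin_node` (helper92) at `L = tres5cL K (M q) y`, with `hhor`
                         replaced by the 4th clause of `tres5cd_all` / `tresdesck(v)_all`
                         (`∀ alg, hconst → ∀ P, p ∣ ord_P u`);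
* `tres5hi_hfin`       : the same for `tres5npj_hfin`;
* `tres5hi_hcusp`      : (I4) `tres5npc_hcusp_rigid` (helper84) likewise.
The statements do not mention the `K`-algebra structure of `L` any more.

INSTANCES.  `Tres5eSplit F z P c` needs `Algebra ↥(atLoc 𝔫) L`; for abstract `L` the search finds
`Algebra.ofSubsemiring (atLoc 𝔫)`, for the concrete `L` the default search times out; with the
local priority below the SAME instance is found first.
-/
import Fermat.Agent.R38.TresHorInst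
import Fermat.Agent.R38.TresNodePtConc
import Fermat.Agent.R38.TresNodePtCusp

set_option autoImplicit false
set_option linter.unusedSectionVars false
set_option linter.unusedVariables false
set_option linter.style.haveILetI false
set_option linter.style.longLine false
set_option synthInstance.maxHeartbeats 400000
set_option maxHeartbeats 1600000

attribute [local instance 100000] Algebra.ofSubsemiring

noncomputable section

namespace Fermat.Agent.R38

open ModularCurve AlgebraicCurve IntermediateField Polynomial Fermat.Agent.INJ Fermat.Agent.UNIP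
  Fermat.Agent.STB Fermat.Agent.S36 Fermat.Agent.RIB.MP Fermat.Agent.RT.K6 Fermat.Agent.AL
  Fermat.Agent.ES Fermat.Agent.ES.G2

section Frame

variable {A : ValuationSubring Qb} {q M : ℕ} [NeZero q] [NeZero M] [NeZero (M * q)]
  [IsDiscreteValuationRing ↥(beta0Ring A (beta0Field A))]
  {π : ↥(beta0Ring A (beta0Field A))} (hπ : Irreducible π)
  (ιC : ↥(beta0Field A) →+* ℂ) (hq : q.Prime) (hqM : ¬ q ∣ M)

include hπ ιC hq hqM in
/-- **(I3) `tres5npj_hfin_node` on the `K`-form of the cover**, `hhor` in the shape of the 4th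
clause of `tres5cd_all`. -/
theorem tres5hi_hfin_node (hA : A.LiesOverPrime q)
    (rigid : (q ≠ 2 → 4 ∣ M) ∧ (q = 2 → 9 ∣ M)) (y : LaurentSeries NfQb)
    (W : ValuationSubring ↥(tres5cL (beta0Field A) (M * q) y))
    (hWV : W.comap (algebraMap ↥(modularFunctionFieldFullC ↥(beta0Field A) (M * q))
      ↥(tres5cL (beta0Field A) (M * q) y)) = mgvV hπ ιC hq hqM true)
    {ι : Type*} [Fintype ι]
    (hsplit : ∀ 𝔫 : AtPt (F := ↥(modularFunctionFieldFullC ↥(beta0Field A) (M * q))) π
        (bgJ ↥(beta0Field A) (M * q)),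
      atThrough 𝔫 (mgvV hπ ιC hq hqM true) → ∀ [IsLocalRing ↥(atLoc 𝔫)],
        ∃ (z : ↥(tres5cL (beta0Field A) (M * q) y)) (P : (↥(atLoc 𝔫))[X])
          (c : ι → ↥(atLoc 𝔫)),
          Tres5eSplit ↥(modularFunctionFieldFullC ↥(beta0Field A) (M * q)) z P c)
    {p : ℕ} {u : ↥(tres5cL (beta0Field A) (M * q) y)} (hu0 : u ≠ 0)
    (hhor : ∀ (alg : Algebra ↥(beta0Field A) ↥(tres5cL (beta0Field A) (M * q) y)),
      (∀ c : ↥(beta0Field A),
        ((@algebraMap ↥(beta0Field A) ↥(tres5cL (beta0Field A) (M * q) y) _ _ alg c :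
          ↥(tres5cL (beta0Field A) (M * q) y)) : LaurentSeries ↥(beta0Field A)) =
            algebraMap ↥(beta0Field A) (LaurentSeries ↥(beta0Field A)) c) →
      ∀ P : @Place ↥(beta0Field A) ↥(tres5cL (beta0Field A) (M * q) y) _ _ alg,
        (p : ℤ) ∣ @Place.ord ↥(beta0Field A) ↥(tres5cL (beta0Field A) (M * q) y) _ _ alg P u)
    (m₀ : ℤ)
    (hm₀ : ∀ (𝔫 : AtPt (F := ↥(modularFunctionFieldFullC ↥(beta0Field A) (M * q))) π
        (bgJ ↥(beta0Field A) (M * q)))
      (X Y : ↥(zchClosure (A₀ := ↥(beta0Ring A (beta0Field A)))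
        ({bgJ ↥(beta0Field A) (M * q)} :
          Set ↥(modularFunctionFieldFullC ↥(beta0Field A) (M * q))))),
      Rtk6lfCrossAt (mgvV hπ ιC hq hqM true) (mgvV hπ ιC hq hqM false) 𝔫 X Y →
      ∀ W' : ValuationSubring ↥(tres5cL (beta0Field A) (M * q) y),
      W'.comap (algebraMap ↥(modularFunctionFieldFullC ↥(beta0Field A) (M * q))
        ↥(tres5cL (beta0Field A) (M * q) y)) = mgvV hπ ιC hq hqM false →
      (p : ℤ) ∣ tres5Ord W' (algebraMap ↥(modularFunctionFieldFullC ↥(beta0Field A) (M * q))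
        ↥(tres5cL (beta0Field A) (M * q) y)
        (algebraMap ↥(beta0Ring A (beta0Field A))
          ↥(modularFunctionFieldFullC ↥(beta0Field A) (M * q)) π)) u - m₀)
    (m : ℤ)
    (hm : W.valuation (u / algebraMap ↥(modularFunctionFieldFullC ↥(beta0Field A) (M * q))
      ↥(tres5cL (beta0Field A) (M * q) y)
      (algebraMap ↥(beta0Ring A (beta0Field A))
        ↥(modularFunctionFieldFullC ↥(beta0Field A) (M * q)) π) ^ m) = 1) :
    ∀ 𝔫 : AtPt (F := ↥(modularFunctionFieldFullC ↥(beta0Field A) (M * q))) π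
        (bgJ ↥(beta0Field A) (M * q)),
      ∀ T : ValuationSubring ↥(tres5cL (beta0Field A) (M * q) y),
      (∀ x ∈ atLoc 𝔫,
        algebraMap ↥(modularFunctionFieldFullC ↥(beta0Field A) (M * q))
          ↥(tres5cL (beta0Field A) (M * q) y) x ∈ T) →
      (∀ x ∈ T, x ∈ W) →
      ∃ O' : Subring ↥(tres5cL (beta0Field A) (M * q) y), (∀ x ∈ O', x ∈ T) ∧
        TresMonoPt W O' p (m₀ - m) 12
          (u / algebraMap ↥(modularFunctionFieldFullC ↥(beta0Field A) (M * q))
            ↥(tres5cL (beta0Field A) (M * q) y)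
            (algebraMap ↥(beta0Ring A (beta0Field A))
              ↥(modularFunctionFieldFullC ↥(beta0Field A) (M * q)) π) ^ m)
          (algebraMap ↥(modularFunctionFieldFullC ↥(beta0Field A) (M * q))
            ↥(tres5cL (beta0Field A) (M * q) y)
            (s36tuV ↥(beta0Field A) ιC (q := q) (M := M))) := by
  letI := tres5hAlgEL (beta0Field A) (M * q) y
  haveI := tres5hi_tower (beta0Field A) (M * q) y
  exact tres5npj_hfin_node hπ ιC hq hqM hA rigid W hWV hsplit hu0
    (tres5hi_of_forall (beta0Field A) (M * q) y u hhor) m₀ hm₀ m hm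

include hπ ιC hq hqM in
/-- **(I3) `tres5npj_hfin` on the `K`-form of the cover**, `hhor` in the shape of the 4th clause
of `tres5cd_all`. -/
theorem tres5hi_hfin (hA : A.LiesOverPrime q)
    (rigid : (q ≠ 2 → 4 ∣ M) ∧ (q = 2 → 9 ∣ M)) (y : LaurentSeries NfQb)
    (W : ValuationSubring ↥(tres5cL (beta0Field A) (M * q) y))
    (hWV : W.comap (algebraMap ↥(modularFunctionFieldFullC ↥(beta0Field A) (M * q))
      ↥(tres5cL (beta0Field A) (M * q) y)) = mgvV hπ ιC hq hqM true)
    {ι : Type*} [Fintype ι]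
    (hsplit : ∀ 𝔫 : AtPt (F := ↥(modularFunctionFieldFullC ↥(beta0Field A) (M * q))) π
        (bgJ ↥(beta0Field A) (M * q)),
      atThrough 𝔫 (mgvV hπ ιC hq hqM true) → ∀ [IsLocalRing ↥(atLoc 𝔫)],
        ∃ (z : ↥(tres5cL (beta0Field A) (M * q) y)) (P : (↥(atLoc 𝔫))[X])
          (c : ι → ↥(atLoc 𝔫)),
          Tres5eSplit ↥(modularFunctionFieldFullC ↥(beta0Field A) (M * q)) z P c)
    {p : ℕ} {u : ↥(tres5cL (beta0Field A) (M * q) y)} (hu0 : u ≠ 0)
    (hhor : ∀ (alg : Algebra ↥(beta0Field A) ↥(tres5cL (beta0Field A) (M * q) y)),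
      (∀ c : ↥(beta0Field A),
        ((@algebraMap ↥(beta0Field A) ↥(tres5cL (beta0Field A) (M * q) y) _ _ alg c :
          ↥(tres5cL (beta0Field A) (M * q) y)) : LaurentSeries ↥(beta0Field A)) =
            algebraMap ↥(beta0Field A) (LaurentSeries ↥(beta0Field A)) c) →
      ∀ P : @Place ↥(beta0Field A) ↥(tres5cL (beta0Field A) (M * q) y) _ _ alg,
        (p : ℤ) ∣ @Place.ord ↥(beta0Field A) ↥(tres5cL (beta0Field A) (M * q) y) _ _ alg P u)
    (m₀ : ℤ)
    (hm₀ : ∀ W' : ValuationSubring ↥(tres5cL (beta0Field A) (M * q) y),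
      W'.comap (algebraMap ↥(modularFunctionFieldFullC ↥(beta0Field A) (M * q))
        ↥(tres5cL (beta0Field A) (M * q) y)) = mgvV hπ ιC hq hqM false →
      (p : ℤ) ∣ tres5Ord W' (algebraMap ↥(modularFunctionFieldFullC ↥(beta0Field A) (M * q))
        ↥(tres5cL (beta0Field A) (M * q) y)
        (algebraMap ↥(beta0Ring A (beta0Field A))
          ↥(modularFunctionFieldFullC ↥(beta0Field A) (M * q)) π)) u - m₀)
    (m : ℤ)
    (hm : W.valuation (u / algebraMap ↥(modularFunctionFieldFullC ↥(beta0Field A) (M * q))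
      ↥(tres5cL (beta0Field A) (M * q) y)
      (algebraMap ↥(beta0Ring A (beta0Field A))
        ↥(modularFunctionFieldFullC ↥(beta0Field A) (M * q)) π) ^ m) = 1) :
    ∀ 𝔫 : AtPt (F := ↥(modularFunctionFieldFullC ↥(beta0Field A) (M * q))) π
        (bgJ ↥(beta0Field A) (M * q)),
      ∀ T : ValuationSubring ↥(tres5cL (beta0Field A) (M * q) y),
      (∀ x ∈ atLoc 𝔫,
        algebraMap ↥(modularFunctionFieldFullC ↥(beta0Field A) (M * q))
          ↥(tres5cL (beta0Field A) (M * q) y) x ∈ T) →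
      (∀ x ∈ T, x ∈ W) →
      ∃ O' : Subring ↥(tres5cL (beta0Field A) (M * q) y), (∀ x ∈ O', x ∈ T) ∧
        TresMonoPt W O' p (m₀ - m) 12
          (u / algebraMap ↥(modularFunctionFieldFullC ↥(beta0Field A) (M * q))
            ↥(tres5cL (beta0Field A) (M * q) y)
            (algebraMap ↥(beta0Ring A (beta0Field A))
              ↥(modularFunctionFieldFullC ↥(beta0Field A) (M * q)) π) ^ m)
          (algebraMap ↥(modularFunctionFieldFullC ↥(beta0Field A) (M * q))
            ↥(tres5cL (beta0Field A) (M * q) y)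
            (s36tuV ↥(beta0Field A) ιC (q := q) (M := M))) :=
  tres5hi_hfin_node hπ ιC hq hqM hA rigid y W hWV hsplit hu0 hhor m₀
    (fun _ _ _ _ => hm₀) m hm

include hπ ιC hq hqM in
/-- **(I4) `tres5npc_hcusp_rigid` on the `K`-form of the cover**, `hhor` in the shape of the 4th
clause of `tres5cd_all`. -/
theorem tres5hi_hcusp (hA : A.LiesOverPrime q)
    (rigid : (q ≠ 2 → 4 ∣ M) ∧ (q = 2 → 9 ∣ M)) (y : LaurentSeries NfQb)
    (W : ValuationSubring ↥(tres5cL (beta0Field A) (M * q) y))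
    (hWV : W.comap (algebraMap ↥(modularFunctionFieldFullC ↥(beta0Field A) (M * q))
      ↥(tres5cL (beta0Field A) (M * q) y)) = mgvV hπ ιC hq hqM true)
    {ι : Type*} [Fintype ι]
    (hsplit : ∀ 𝔫 : AtPt (F := ↥(modularFunctionFieldFullC ↥(beta0Field A) (M * q))) π
        (bgJ ↥(beta0Field A) (M * q))⁻¹,
      atThrough 𝔫 (mgvV hπ ιC hq hqM true) →
      (∀ b : ↥(zchClosure (A₀ := ↥(beta0Ring A (beta0Field A)))
          ({(bgJ ↥(beta0Field A) (M * q))⁻¹} :
            Set ↥(modularFunctionFieldFullC ↥(beta0Field A) (M * q)))),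
        (b : ↥(modularFunctionFieldFullC ↥(beta0Field A) (M * q))) =
          (bgJ ↥(beta0Field A) (M * q))⁻¹ → b ∈ 𝔫.1) →
      ∀ [IsLocalRing ↥(atLoc 𝔫)],
        ∃ (z : ↥(tres5cL (beta0Field A) (M * q) y)) (P : (↥(atLoc 𝔫))[X])
          (c : ι → ↥(atLoc 𝔫)),
          Tres5eSplit ↥(modularFunctionFieldFullC ↥(beta0Field A) (M * q)) z P c)
    {p : ℕ} {u : ↥(tres5cL (beta0Field A) (M * q) y)} (hu0 : u ≠ 0)
    (hhor : ∀ (alg : Algebra ↥(beta0Field A) ↥(tres5cL (beta0Field A) (M * q) y)),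
      (∀ c : ↥(beta0Field A),
        ((@algebraMap ↥(beta0Field A) ↥(tres5cL (beta0Field A) (M * q) y) _ _ alg c :
          ↥(tres5cL (beta0Field A) (M * q) y)) : LaurentSeries ↥(beta0Field A)) =
            algebraMap ↥(beta0Field A) (LaurentSeries ↥(beta0Field A)) c) →
      ∀ P : @Place ↥(beta0Field A) ↥(tres5cL (beta0Field A) (M * q) y) _ _ alg,
        (p : ℤ) ∣ @Place.ord ↥(beta0Field A) ↥(tres5cL (beta0Field A) (M * q) y) _ _ alg P u)
    (m : ℤ)
    (hm : W.valuation (u / algebraMap ↥(modularFunctionFieldFullC ↥(beta0Field A) (M * q))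
      ↥(tres5cL (beta0Field A) (M * q) y)
      (algebraMap ↥(beta0Ring A (beta0Field A))
        ↥(modularFunctionFieldFullC ↥(beta0Field A) (M * q)) π) ^ m) = 1) :
    ∀ 𝔫 : AtPt (F := ↥(modularFunctionFieldFullC ↥(beta0Field A) (M * q))) π
        (bgJ ↥(beta0Field A) (M * q))⁻¹,
      ∀ T : ValuationSubring ↥(tres5cL (beta0Field A) (M * q) y),
      (∀ x ∈ atLoc 𝔫,
        algebraMap ↥(modularFunctionFieldFullC ↥(beta0Field A) (M * q))
          ↥(tres5cL (beta0Field A) (M * q) y) x ∈ T) →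
      (∀ x ∈ T, x ∈ W) →
      (∀ b : ↥(zchClosure (A₀ := ↥(beta0Ring A (beta0Field A)))
          ({(bgJ ↥(beta0Field A) (M * q))⁻¹} :
            Set ↥(modularFunctionFieldFullC ↥(beta0Field A) (M * q)))),
        (b : ↥(modularFunctionFieldFullC ↥(beta0Field A) (M * q))) =
          (bgJ ↥(beta0Field A) (M * q))⁻¹ → b ∈ 𝔫.1) →
      ∃ O' : Subring ↥(tres5cL (beta0Field A) (M * q) y), (∀ x ∈ O', x ∈ T) ∧
        StbFacAt O' p
          (u / algebraMap ↥(modularFunctionFieldFullC ↥(beta0Field A) (M * q))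
            ↥(tres5cL (beta0Field A) (M * q) y)
            (algebraMap ↥(beta0Ring A (beta0Field A))
              ↥(modularFunctionFieldFullC ↥(beta0Field A) (M * q)) π) ^ m) := by
  letI := tres5hAlgEL (beta0Field A) (M * q) y
  haveI := tres5hi_tower (beta0Field A) (M * q) y
  exact tres5npc_hcusp_rigid hπ ιC hq hqM hA rigid W hWV hsplit hu0
    (tres5hi_of_forall (beta0Field A) (M * q) y u hhor) m hm

end Frame

end Fermat.Agent.R38

end
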