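/-
ROW 38, TRES, MONO, K-FORM (B) instance, leaf (B-fix) (helper26), COMPOSITE route.

The frame `tres5ki_point` (helper48, `R38/TresKFormInst.lean`) asks for a `G`-STABLE valuation
ring `W` of `L = L_E` DOMINATING the local ring `R = (B_E)_{𝔫E}` of a closed point of the special
fibre.  Here it is produced from the Gauss sheet `W₀` (which contains `R` but does NOT dominate
it) without any knowledge of the local structure of `R` (so also at the supersingular points,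
where `R` is a THICK node over the ramified base and the hypothesis `hD` of FAC-FIX is not
available in the `(X, Y)` form):

* `tres5kd_exists_dom` : `W₀` a valuation ring of `L`, `G` acting on `L` with `g W₀ ⊆ W₀` and
  `g x − x ∈ 𝔪(W₀)` for `x ∈ W₀` (inertia is trivial on the residues of the Gauss sheet:
  `tres5g_gauss_sub_mem`), `φ : R → L` a map from a LOCAL ring with values in `W₀`.  Then there is
  a valuation ring `W ≤ W₀` of `L`, `G`-stable, with `φ R ⊆ W` and `φ 𝔪_R ⊆ 𝔪(W)`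
  (`W` = the composite of `W₀` with a valuation ring of its residue field dominating the image
  of `R`).
* `tres5kd_atLoc` : the same at `R = atLoc 𝔫` of a chart: EXACTLY the hypotheses
  `W`, `hWdom`, `hWmax`, `hGW` of `tres5ki_point`.
-/
import Fermat.Agent.RIB.MP.RedDict
import Mathlib.RingTheory.Valuation.LocalSubring

set_option autoImplicit false
set_option linter.unusedSectionVars false
set_option linter.style.haveILetI false

namespace Fermat.Agent.R38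

open Fermat.Agent.UNIP Fermat.Agent.INJ Fermat.Agent.RIB.MP

section Abs

variable {L : Type*} [Field L]

/-- the residue map of a valuation subring kills the non-units -/
theorem tres5kd_residue_ker (W₀ : ValuationSubring L) (x : ↥W₀) (hx : (x : L) ∈ W₀.nonunits) :
    IsLocalRing.residue ↥W₀ x = 0 := by
  rw [IsLocalRing.residue_eq_zero_iff, IsLocalRing.mem_maximalIdeal, mem_nonunits_iff]
  intro hu
  rw [ValuationSubring.mem_nonunits_iff] at hx
  have h1 := (ValuationSubring.valuation_eq_one_iff W₀ x).1 hu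
  rw [h1] at hx
  exact lt_irrefl _ hx

/-- **(B-fix), composite route.**  A `G`-stable valuation ring `W ≤ W₀` dominating the local
ring `R`. -/
theorem tres5kd_exists_dom {G : Type*} [Group G] [MulSemiringAction G L]
    (W₀ : ValuationSubring L)
    (hGW₀ : ∀ (g : G), ∀ x ∈ W₀, g • x ∈ W₀)
    (hGsub : ∀ (g : G), ∀ x ∈ W₀, g • x - x ∈ W₀.nonunits)
    {R : Type*} [CommRing R] [IsLocalRing R] (φ : R →+* L) (hφ : ∀ r : R, φ r ∈ W₀) :
    ∃ W : ValuationSubring L, W ≤ W₀ ∧ (∀ r : R, φ r ∈ W) ∧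
      (∀ r ∈ IsLocalRing.maximalIdeal R, φ r ∈ W.nonunits) ∧
      (∀ (g : G), ∀ x ∈ W, g • x ∈ W) := by
  classical
  -- the map `R → κ(W₀)`
  set φ₀ : R →+* ↥W₀ := φ.codRestrict W₀.toSubring hφ with hφ₀
  set f : R →+* IsLocalRing.ResidueField ↥W₀ := (IsLocalRing.residue ↥W₀).comp φ₀ with hf
  obtain ⟨O, hO, hloc⟩ := IsLocalRing.exists_factor_valuationRing f
  set W : ValuationSubring L :=
    ribmp_rd_comp W₀ (IsLocalRing.residue ↥W₀) O (tres5kd_residue_ker W₀) with hW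
  have hmem : ∀ x : L, x ∈ W ↔ ∃ hx : x ∈ W₀, IsLocalRing.residue ↥W₀ ⟨x, hx⟩ ∈ O :=
    fun x => Iff.rfl
  have hφW : ∀ r : R, φ r ∈ W := fun r => (hmem _).2 ⟨hφ r, hO r⟩
  refine ⟨W, fun x hx => ((hmem x).1 hx).1, hφW, ?_, ?_⟩
  · intro r hr
    by_contra hnu
    -- `φ r` is a unit of `W`
    have hr0 : φ r ≠ 0 := by
      intro h0
      apply hnu
      rw [h0, ValuationSubring.mem_nonunits_iff, map_zero]
      exact zero_lt_one
    have hval : W.valuation (φ r) = 1 := by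
      rw [ValuationSubring.mem_nonunits_iff, not_lt] at hnu
      exact le_antisymm ((ValuationSubring.valuation_le_one_iff W _).2 (hφW r)) hnu
    have hinv : (φ r)⁻¹ ∈ W := by
      rw [← ValuationSubring.valuation_le_one_iff, map_inv₀, hval, inv_one]
    obtain ⟨hi, hiO⟩ := (hmem _).1 hinv
    -- so `f r` is a unit of `O`
    have hmul : f r * IsLocalRing.residue ↥W₀ ⟨(φ r)⁻¹, hi⟩ = 1 := by
      have e : (φ₀ r) * (⟨(φ r)⁻¹, hi⟩ : ↥W₀) = 1 := by
        apply Subtype.ext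
        show φ r * (φ r)⁻¹ = 1
        exact mul_inv_cancel₀ hr0
      rw [hf, RingHom.comp_apply, ← map_mul, e, map_one]
    have hunit : IsUnit ((f.codRestrict O.toSubring hO) r) := by
      refine IsUnit.of_mul_eq_one ⟨IsLocalRing.residue ↥W₀ ⟨(φ r)⁻¹, hi⟩, hiO⟩ ?_
      apply Subtype.ext
      exact hmul
    have hru : IsUnit r := hloc.map_nonunit r hunit
    exact (IsLocalRing.mem_maximalIdeal r).1 hr hru
  · intro g x hx
    obtain ⟨hx0, hxO⟩ := (hmem x).1 hx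
    refine (hmem _).2 ⟨hGW₀ g x hx0, ?_⟩
    have hsub := hGsub g x hx0
    have e : (⟨g • x, hGW₀ g x hx0⟩ : ↥W₀) =
        ⟨g • x - x, ValuationSubring.nonunits_subset hsub⟩ + ⟨x, hx0⟩ := by
      apply Subtype.ext
      show g • x = (g • x - x) + x
      ring
    rw [e, map_add, tres5kd_residue_ker W₀ _ hsub, zero_add]
    exact hxO

end Abs

section Chart

variable {G : Type*} [Group G] {L : Type*} [Field L] [MulSemiringAction G L]
  {AE EE FE : Type*} [CommRing AE] [IsDomain AE] [IsDiscreteValuationRing AE]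
  [Field EE] [Algebra AE EE] [IsFractionRing AE EE] [CharZero EE]
  [Field FE] [Algebra EE FE] [Algebra AE FE] [IsScalarTower AE EE FE] [Algebra FE L]
  {πE : AE} {u : FE}

/-- an element of the closed point is a non-unit of the local ring -/
theorem tres5kd_mem_maximalIdeal (𝔫E : AtPt (F := FE) πE u) [IsLocalRing ↥(atLoc 𝔫E)]
    (b : ↥(zchClosure (A₀ := AE) ({u} : Set FE))) (hb : b ∈ 𝔫E.1)
    (hbm : (b : FE) ∈ atLoc 𝔫E) :
    (⟨(b : FE), hbm⟩ : ↥(atLoc 𝔫E)) ∈ IsLocalRing.maximalIdeal ↥(atLoc 𝔫E) := by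
  haveI := 𝔫E.2.1.isPrime
  rw [IsLocalRing.mem_maximalIdeal, mem_nonunits_iff]
  rintro ⟨v, hv⟩
  obtain ⟨c, s, hs, hsc⟩ := ((v⁻¹ : (↥(atLoc 𝔫E))ˣ) : ↥(atLoc 𝔫E)).2
  -- `s = c b`
  have h1 : (b : FE) * (((v⁻¹ : (↥(atLoc 𝔫E))ˣ) : ↥(atLoc 𝔫E)) : FE) = 1 := by
    have h2 : (v : ↥(atLoc 𝔫E)) * ((v⁻¹ : (↥(atLoc 𝔫E))ˣ) : ↥(atLoc 𝔫E)) = 1 := Units.mul_inv v
    rw [hv] at h2
    exact congrArg Subtype.val h2
  have h3 : (s : FE) = (c : FE) * (b : FE) := by
    have hsc' : (s : FE) * (((v⁻¹ : (↥(atLoc 𝔫E))ˣ) : ↥(atLoc 𝔫E)) : FE) = (c : FE) := hsc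
    calc (s : FE) = (s : FE) * ((b : FE) * (((v⁻¹ : (↥(atLoc 𝔫E))ˣ) : ↥(atLoc 𝔫E)) : FE)) := by
          rw [h1, mul_one]
      _ = ((s : FE) * (((v⁻¹ : (↥(atLoc 𝔫E))ˣ) : ↥(atLoc 𝔫E)) : FE)) * (b : FE) := by ring
      _ = (c : FE) * (b : FE) := by rw [hsc']
  have h4 : s = c * b := Subtype.ext h3
  exact hs (h4 ▸ Ideal.mul_mem_left _ c hb)

/-- **(B-fix) at a closed point of a chart**: from the `G`-stable Gauss sheet `W₀ ⊇ (B_E)_{𝔫E}`
on whose residues `G` is trivial, a `G`-stable valuation ring `W ≤ W₀` DOMINATING `(B_E)_{𝔫E}`: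
the hypotheses `W`, `hWdom`, `hWmax`, `hGW` of `tres5ki_point`. -/
theorem tres5kd_atLoc (𝔫E : AtPt (F := FE) πE u) [IsLocalRing ↥(atLoc 𝔫E)]
    (W₀ : ValuationSubring L)
    (hGW₀ : ∀ (g : G), ∀ x ∈ W₀, g • x ∈ W₀)
    (hGsub : ∀ (g : G), ∀ x ∈ W₀, g • x - x ∈ W₀.nonunits)
    (hW₀ : ∀ x ∈ atLoc 𝔫E, algebraMap FE L x ∈ W₀) :
    ∃ W : ValuationSubring L, W ≤ W₀ ∧
      (∀ x ∈ atLoc 𝔫E, algebraMap FE L x ∈ W) ∧
      (∀ b : ↥(zchClosure (A₀ := AE) ({u} : Set FE)), b ∈ 𝔫E.1 →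
        algebraMap FE L (b : FE) ∈ W.nonunits) ∧
      (∀ (g : G), ∀ x ∈ W, g • x ∈ W) := by
  haveI := 𝔫E.2.1.isPrime
  obtain ⟨W, hle, hφW, hmax, hGW⟩ := tres5kd_exists_dom W₀ hGW₀ hGsub
    ((algebraMap FE L).comp (atLoc 𝔫E).subtype) (fun r => hW₀ _ r.2)
  refine ⟨W, hle, fun x hx => hφW ⟨x, hx⟩, fun b hb => ?_, hGW⟩
  have hbm : (b : FE) ∈ atLoc 𝔫E := ls_algebraMap_mem (F := FE) 𝔫E.1 b
  exact hmax _ (tres5kd_mem_maximalIdeal 𝔫E b hb hbm)

end Chart

end Fermat.Agent.R38
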