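import Fermat.Agent.UNIP.AbstractT

/-!
# Row 38, TRES, piece FAC-PTS (helper87): local rings of the `K`-chart vs the `E″`-chart

Abstract norm argument for helper92's assembly recipe (inputs `hRK`, `hGR` of helper53's
`tres5kp_descend`, `R38/TresKFormPt.lean`).

Frame: `G` a finite group acting on a field `L` by ring automorphisms, `F ⊆ L` a subfield
(`[Algebra F L]`), `FK ⊆ F` the field of the `G`-fixed elements of `F` (`hfixF`),
`B → F` a `G`-stable ring (`hGB`), `BK → FK` with `B ∩ FK = BK` (`hBK`), `𝔫` a `G`-stable prime of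
`B` (`hG𝔫`), `𝔫K` a prime of `BK` lying under `𝔫` (`h𝔫K`).  Local rings as subrings of the
fields: `ls_localSubring 𝔫 ⊆ F`, `ls_localSubring 𝔫K ⊆ FK` (`UNIP/LocalShape.lean`; `atLoc` is of
this form).

* `tres5p_norm`  : the norm `N s = ∏ g • s` of `s ∉ 𝔫` is `n = s c`, `n ∉ 𝔫`, `G`-invariant;
* `tres5p_hRK'`, `tres5p_hRK` : `B_𝔫 ∩ FK ⊆ (BK)_𝔫K`;
* `tres5p_hGR'`, `tres5p_hGR` : `G` preserves `B_𝔫`;
* `tres5p_isIntegral_inter`, `tres5p_zch_inter` : the instance `B = zchClosure {t}`: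
  `x ∈ FK` integral over `A_E[t]` is integral over `A_K[t]` (`A_E` integral over `A_K`);
* `tres5p_isIntegral_smul`, `tres5p_zch_smul` : `zchClosure {t}` is stable under a ring
  automorphism of `L` preserving `A₀` and fixing `t`.
-/

set_option autoImplicit false
set_option linter.unusedSectionVars false
set_option linter.unusedVariables false
set_option linter.style.haveILetI false
set_option linter.style.longLine false

noncomputable section

namespace Fermat.Agent.R38

open Fermat.Agent.UNIP Fermat.Agent.INJ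

section Norm

variable {G : Type*} [Group G] [Finite G] {L : Type*} [Field L] [MulSemiringAction G L]
  {F : Type*} [Field F] [Algebra F L] {B : Type*} [CommRing B] [Algebra B F]

/-- **The norm.**  `B` a `G`-stable ring, `𝔫` a `G`-stable prime, `s ∉ 𝔫`: there are `n, c : B`
with `n ∉ 𝔫`, `n = s c` in `L`, and the image of `n` in `L` is `G`-invariant. -/
theorem tres5p_norm
    (hGB : ∀ (g : G) (b : B), ∃ b' : B,
      g • algebraMap F L (algebraMap B F b) = algebraMap F L (algebraMap B F b'))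
    (𝔫 : Ideal B) [h𝔫 : 𝔫.IsPrime]
    (hG𝔫 : ∀ (g : G) (b b' : B),
      g • algebraMap F L (algebraMap B F b) = algebraMap F L (algebraMap B F b') →
      b ∈ 𝔫 → b' ∈ 𝔫)
    (s : B) (hs : s ∉ 𝔫) :
    ∃ n c : B, n ∉ 𝔫 ∧
      algebraMap F L (algebraMap B F n) =
        algebraMap F L (algebraMap B F s) * algebraMap F L (algebraMap B F c) ∧
      ∀ g : G, g • algebraMap F L (algebraMap B F n) = algebraMap F L (algebraMap B F n) := by
  classical
  haveI : Fintype G := Fintype.ofFinite G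
  set ι : B →+* L := (algebraMap F L).comp (algebraMap B F) with hι
  have hιa : ∀ b : B, algebraMap F L (algebraMap B F b) = ι b := fun _ => rfl
  simp only [hιa] at hGB hG𝔫 ⊢
  -- the translates of `s`
  choose φ hφ using fun g : G => hGB g s
  have hφ𝔫 : ∀ g : G, φ g ∉ 𝔫 := by
    intro g hmem
    refine hs (hG𝔫 g⁻¹ (φ g) s ?_ hmem)
    rw [← hφ g, inv_smul_smul]
  -- the products
  have hprod : ∀ T : Finset G, (∏ g ∈ T, g • ι s) = ι (∏ g ∈ T, φ g) := by
    intro T
    rw [map_prod]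
    exact Finset.prod_congr rfl fun g _ => hφ g
  have hnot : ∀ T : Finset G, (∏ g ∈ T, φ g) ∉ 𝔫 := by
    intro T
    induction T using Finset.induction_on with
    | empty =>
      rw [Finset.prod_empty]
      exact fun h => h𝔫.ne_top ((Ideal.eq_top_iff_one 𝔫).2 h)
    | insert a T ha ih =>
      rw [Finset.prod_insert ha]
      exact fun h => (h𝔫.mem_or_mem h).elim (hφ𝔫 a) ih
  refine ⟨∏ g ∈ (Finset.univ : Finset G), φ g, ∏ g ∈ (Finset.univ : Finset G).erase 1, φ g,
    hnot _, ?_, fun g => ?_⟩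
  · rw [← hprod, ← hprod, ← Finset.mul_prod_erase Finset.univ (fun g : G => g • ι s)
      (Finset.mem_univ (1 : G)), one_smul]
  · rw [← hprod]
    exact Finset.smul_prod_perm (ι s) g

variable {FK : Type*} [Field FK] [Algebra FK F] {BK : Type*} [CommRing BK] [Algebra BK FK]

/-- **`hRK`, membership form**: `B_𝔫 ∩ FK ⊆ (BK)_𝔫K`. -/
theorem tres5p_hRK'
    (hGB : ∀ (g : G) (b : B), ∃ b' : B,
      g • algebraMap F L (algebraMap B F b) = algebraMap F L (algebraMap B F b'))
    (𝔫 : Ideal B) [h𝔫 : 𝔫.IsPrime]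
    (hG𝔫 : ∀ (g : G) (b b' : B),
      g • algebraMap F L (algebraMap B F b) = algebraMap F L (algebraMap B F b') →
      b ∈ 𝔫 → b' ∈ 𝔫)
    (hfixF : ∀ x : F, (∀ g : G, g • algebraMap F L x = algebraMap F L x) →
      ∃ y : FK, algebraMap FK F y = x)
    (hBK : ∀ (x : FK) (b : B), algebraMap B F b = algebraMap FK F x →
      ∃ bK : BK, algebraMap BK FK bK = x)
    (𝔫K : Ideal BK) [h𝔫K' : 𝔫K.IsPrime]
    (h𝔫K : ∀ (bK : BK) (b : B), algebraMap B F b = algebraMap FK F (algebraMap BK FK bK) →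
      bK ∈ 𝔫K → b ∈ 𝔫)
    (x : FK) (hx : algebraMap FK F x ∈ ls_localSubring (F := F) 𝔫) :
    x ∈ ls_localSubring (F := FK) 𝔫K := by
  obtain ⟨b, s, hs, hsx⟩ := hx
  obtain ⟨n, c, hn, hnsc, hfix⟩ := tres5p_norm (G := G) (L := L) hGB 𝔫 hG𝔫 s hs
  have hinjL : Function.Injective (algebraMap F L) := (algebraMap F L).injective
  have hnsc' : algebraMap B F n = algebraMap B F s * algebraMap B F c :=
    hinjL (by rw [hnsc, map_mul])
  obtain ⟨ν, hν⟩ := hfixF (algebraMap B F n) hfix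
  obtain ⟨nK, hnK⟩ := hBK ν n hν.symm
  have hnK𝔫 : nK ∉ 𝔫K := fun h => hn (h𝔫K nK n (by rw [hnK, hν]) h)
  have h1 : algebraMap B F (c * b) = algebraMap FK F (ν * x) := by
    rw [map_mul, map_mul, hν, hnsc', ← hsx]
    ring
  obtain ⟨bK, hbK⟩ := hBK (ν * x) (c * b) h1
  exact ⟨bK, nK, hnK𝔫, by rw [hnK, hbK]⟩

/-- **`hRK`** in the shape of `tres5kp_descend` (`R := ls_localSubring 𝔫`,
`RK := ls_localSubring 𝔫K`). -/
theorem tres5p_hRK
    (hGB : ∀ (g : G) (b : B), ∃ b' : B,
      g • algebraMap F L (algebraMap B F b) = algebraMap F L (algebraMap B F b'))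
    (𝔫 : Ideal B) [h𝔫 : 𝔫.IsPrime]
    (hG𝔫 : ∀ (g : G) (b b' : B),
      g • algebraMap F L (algebraMap B F b) = algebraMap F L (algebraMap B F b') →
      b ∈ 𝔫 → b' ∈ 𝔫)
    (hfixF : ∀ x : F, (∀ g : G, g • algebraMap F L x = algebraMap F L x) →
      ∃ y : FK, algebraMap FK F y = x)
    (hBK : ∀ (x : FK) (b : B), algebraMap B F b = algebraMap FK F x →
      ∃ bK : BK, algebraMap BK FK bK = x)
    (𝔫K : Ideal BK) [h𝔫K' : 𝔫K.IsPrime]
    (h𝔫K : ∀ (bK : BK) (b : B), algebraMap B F b = algebraMap FK F (algebraMap BK FK bK) →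
      bK ∈ 𝔫K → b ∈ 𝔫)
    (x : FK) (r : ↥(ls_localSubring (F := F) 𝔫)) (hr : (r : F) = algebraMap FK F x) :
    ∃ rK : ↥(ls_localSubring (F := FK) 𝔫K), (rK : FK) = x :=
  ⟨⟨x, tres5p_hRK' (G := G) (L := L) hGB 𝔫 hG𝔫 hfixF hBK 𝔫K h𝔫K x (hr ▸ r.2)⟩, rfl⟩

omit [Finite G] in
/-- **`hGR`, membership form**: `G` preserves the local ring `B_𝔫`. -/
theorem tres5p_hGR' (hinj : Function.Injective (algebraMap B F))
    (hGB : ∀ (g : G) (b : B), ∃ b' : B,
      g • algebraMap F L (algebraMap B F b) = algebraMap F L (algebraMap B F b'))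
    (𝔫 : Ideal B) [h𝔫 : 𝔫.IsPrime]
    (hG𝔫 : ∀ (g : G) (b b' : B),
      g • algebraMap F L (algebraMap B F b) = algebraMap F L (algebraMap B F b') →
      b ∈ 𝔫 → b' ∈ 𝔫)
    (g : G) (r : F) (hr : r ∈ ls_localSubring (F := F) 𝔫) :
    ∃ r' ∈ ls_localSubring (F := F) 𝔫, g • algebraMap F L r = algebraMap F L r' := by
  obtain ⟨b, s, hs, hsr⟩ := hr
  obtain ⟨s', hs'⟩ := hGB g s
  obtain ⟨b', hb'⟩ := hGB g b
  have hs'𝔫 : s' ∉ 𝔫 := by
    intro hmem
    refine hs (hG𝔫 g⁻¹ s' s ?_ hmem)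
    rw [← hs', inv_smul_smul]
  have hs'0 : algebraMap B F s' ≠ 0 := by
    intro h0
    apply hs'𝔫
    rw [hinj (h0.trans (map_zero _).symm)]
    exact 𝔫.zero_mem
  refine ⟨algebraMap B F b' / algebraMap B F s', ⟨b', s', hs'𝔫, ?_⟩, ?_⟩
  · field_simp
  · have h1 : g • (algebraMap F L (algebraMap B F s) * algebraMap F L r) =
        g • algebraMap F L (algebraMap B F b) := by
      rw [← map_mul, hsr]
    rw [smul_mul', hs', hb'] at h1
    have hs'L : algebraMap F L (algebraMap B F s') ≠ 0 :=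
      (map_ne_zero (algebraMap F L)).2 hs'0
    rw [map_div₀, eq_div_iff hs'L, mul_comm]
    exact h1

omit [Finite G] in
/-- **`hGR`** in the shape of `tres5kp_descend` (`R := ls_localSubring 𝔫`). -/
theorem tres5p_hGR (hinj : Function.Injective (algebraMap B F))
    (hGB : ∀ (g : G) (b : B), ∃ b' : B,
      g • algebraMap F L (algebraMap B F b) = algebraMap F L (algebraMap B F b'))
    (𝔫 : Ideal B) [h𝔫 : 𝔫.IsPrime]
    (hG𝔫 : ∀ (g : G) (b b' : B),
      g • algebraMap F L (algebraMap B F b) = algebraMap F L (algebraMap B F b') →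
      b ∈ 𝔫 → b' ∈ 𝔫)
    (g : G) (r : ↥(ls_localSubring (F := F) 𝔫)) :
    ∃ r' : ↥(ls_localSubring (F := F) 𝔫),
      g • algebraMap F L (r : F) = algebraMap F L (r' : F) := by
  obtain ⟨r', hr', h⟩ := tres5p_hGR' (G := G) (L := L) hinj hGB 𝔫 hG𝔫 g (r : F) r.2
  exact ⟨⟨r', hr'⟩, h⟩

end Norm

/-! ### The instance `B = zchClosure {t}` -/

section Inst

variable {AK AE FK FE : Type*} [CommRing AK] [CommRing AE] [Field FK] [Field FE]
  [Algebra AK AE] [Algebra AK FK] [Algebra AE FE] [Algebra FK FE] [Algebra AK FE]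
  [IsScalarTower AK AE FE] [IsScalarTower AK FK FE]

/-- `A_E[t]` is integral over `A_K[t]` if `A_E` is integral over `A_K`: every element of
`A_E[t] ⊆ FE` is integral over `A_K[t] ⊆ FE`. -/
theorem tres5p_adjoin_isIntegral [Algebra.IsIntegral AK AE] (t : FE) (y : FE)
    (hy : y ∈ Algebra.adjoin AE ({t} : Set FE)) :
    IsIntegral (Algebra.adjoin AK ({t} : Set FE)) y := by
  refine Algebra.adjoin_induction (p := fun y _ => IsIntegral (Algebra.adjoin AK ({t} : Set FE)) y)
    ?_ ?_ ?_ ?_ hy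
  · intro x hx
    rw [Set.mem_singleton_iff] at hx
    subst hx
    have : x ∈ Algebra.adjoin AK ({x} : Set FE) := Algebra.subset_adjoin (Set.mem_singleton x)
    exact (isIntegral_algebraMap (R := ↥(Algebra.adjoin AK ({x} : Set FE))) (A := FE)
      (x := ⟨x, this⟩))
  · intro a
    have h1 : IsIntegral AK a := Algebra.IsIntegral.isIntegral a
    have h2 : IsIntegral AK (algebraMap AE FE a) := h1.map (IsScalarTower.toAlgHom AK AE FE)
    exact h2.tower_top
  · intro x y _ _ hx hy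
    exact hx.add hy
  · intro x y _ _ hx hy
    exact hx.mul hy

/-- **`B_E ∩ FK = B_K`, integrality form.**  `x ∈ FK` whose image in `FE` is integral over
`A_E[t]` is integral over `A_K[t]`. -/
theorem tres5p_isIntegral_inter [Algebra.IsIntegral AK AE] (t x : FK)
    (hx : IsIntegral (Algebra.adjoin AE ({algebraMap FK FE t} : Set FE)) (algebraMap FK FE x)) :
    IsIntegral (Algebra.adjoin AK ({t} : Set FK)) x := by
  classical
  -- Step 1: integral over `A_K[t] ⊆ FE`
  have h1 : IsIntegral (Algebra.adjoin AK ({algebraMap FK FE t} : Set FE))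
      (algebraMap FK FE x) := by
    have hC : ∀ y ∈ Algebra.adjoin AE ({algebraMap FK FE t} : Set FE),
        y ∈ integralClosure (Algebra.adjoin AK ({algebraMap FK FE t} : Set FE)) FE :=
      fun y hy => tres5p_adjoin_isIntegral (AK := AK) (algebraMap FK FE t) y hy
    obtain ⟨q, hq, hqx⟩ := hx
    let f : ↥(Algebra.adjoin AE ({algebraMap FK FE t} : Set FE)) →+*
        ↥(integralClosure (Algebra.adjoin AK ({algebraMap FK FE t} : Set FE)) FE) :=
      { toFun := fun b => ⟨b.1, hC b.1 b.2⟩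
        map_one' := rfl
        map_mul' := fun _ _ => rfl
        map_zero' := rfl
        map_add' := fun _ _ => rfl }
    have h2 : IsIntegral
        ↥(integralClosure (Algebra.adjoin AK ({algebraMap FK FE t} : Set FE)) FE)
        (algebraMap FK FE x) := by
      refine ⟨q.map f, hq.map f, ?_⟩
      rw [Polynomial.eval₂_map]
      exact hqx
    exact isIntegral_trans _ h2
  -- Step 2: pull the equation back to `FK`
  obtain ⟨q, hq, hqx⟩ := h1
  let ψ : FK →ₐ[AK] FE := IsScalarTower.toAlgHom AK FK FE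
  have hmap : (Algebra.adjoin AK ({t} : Set FK)).map ψ =
      Algebra.adjoin AK ({algebraMap FK FE t} : Set FE) := by
    rw [AlgHom.map_adjoin, Set.image_singleton]
    rfl
  have hmem : ∀ b : ↥(Algebra.adjoin AK ({t} : Set FK)),
      ψ b.1 ∈ Algebra.adjoin AK ({algebraMap FK FE t} : Set FE) := by
    intro b
    rw [← hmap]
    exact ⟨b.1, b.2, rfl⟩
  let h : ↥(Algebra.adjoin AK ({t} : Set FK)) →+*
      ↥(Algebra.adjoin AK ({algebraMap FK FE t} : Set FE)) :=
    { toFun := fun b => ⟨ψ b.1, hmem b⟩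
      map_one' := Subtype.ext (map_one ψ)
      map_mul' := fun a b => Subtype.ext (map_mul ψ a.1 b.1)
      map_zero' := Subtype.ext (map_zero ψ)
      map_add' := fun a b => Subtype.ext (map_add ψ a.1 b.1) }
  have hsurj : Function.Surjective h := by
    rintro ⟨y, hy⟩
    rw [← hmap] at hy
    obtain ⟨b, hb, hby⟩ := hy
    exact ⟨⟨b, hb⟩, Subtype.ext hby⟩
  obtain ⟨q', hq'⟩ := Polynomial.map_surjective h hsurj q
  obtain ⟨q'', hq''map, -, hq''monic⟩ :=
    Polynomial.lifts_and_natDegree_eq_and_monic ((Polynomial.mem_lifts q).2 ⟨q', hq'⟩) hq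
  refine ⟨q'', hq''monic, ?_⟩
  apply (algebraMap FK FE).injective
  rw [map_zero, Polynomial.hom_eval₂]
  have hcomp : (algebraMap FK FE).comp (algebraMap ↥(Algebra.adjoin AK ({t} : Set FK)) FK) =
      (algebraMap ↥(Algebra.adjoin AK ({algebraMap FK FE t} : Set FE)) FE).comp h := by
    ext b
    rfl
  rw [hcomp, ← Polynomial.eval₂_map, hq''map]
  exact hqx

end Inst

/-! ### `zchClosure` form -/

section Zch

variable {AK AE EK EE FK FE : Type*}
  [CommRing AK] [IsDomain AK] [IsDiscreteValuationRing AK]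
  [CommRing AE] [IsDomain AE] [IsDiscreteValuationRing AE]
  [Field EK] [Algebra AK EK] [IsFractionRing AK EK] [CharZero EK]
  [Field EE] [Algebra AE EE] [IsFractionRing AE EE] [CharZero EE]
  [Field FK] [Algebra EK FK] [Algebra AK FK] [IsScalarTower AK EK FK]
  [Field FE] [Algebra EE FE] [Algebra AE FE] [IsScalarTower AE EE FE]
  [Algebra AK AE] [Algebra FK FE] [Algebra AK FE]
  [IsScalarTower AK AE FE] [IsScalarTower AK FK FE]

/-- **`B_E ∩ FK = B_K` for the charts `B = zchClosure {t}`.** -/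
theorem tres5p_zch_inter [Algebra.IsIntegral AK AE] (t x : FK)
    (hx : algebraMap FK FE x ∈ zchClosure (A₀ := AE) ({algebraMap FK FE t} : Set FE)) :
    x ∈ zchClosure (A₀ := AK) ({t} : Set FK) :=
  mem_zchClosure.2 (tres5p_isIntegral_inter (AK := AK) (AE := AE) t x (mem_zchClosure.1 hx))

/-- the converse inclusion `B_K ⊆ B_E` -/
theorem tres5p_zch_le (t x : FK) (hx : x ∈ zchClosure (A₀ := AK) ({t} : Set FK)) :
    algebraMap FK FE x ∈ zchClosure (A₀ := AE) ({algebraMap FK FE t} : Set FE) := by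
  rw [mem_zchClosure] at hx ⊢
  obtain ⟨q, hq, hqx⟩ := hx
  let ψ : FK →ₐ[AK] FE := IsScalarTower.toAlgHom AK FK FE
  have hmem : ∀ b : ↥(Algebra.adjoin AK ({t} : Set FK)),
      ψ b.1 ∈ Algebra.adjoin AE ({algebraMap FK FE t} : Set FE) := by
    intro b
    have h1 : ψ b.1 ∈ (Algebra.adjoin AK ({t} : Set FK)).map ψ := ⟨b.1, b.2, rfl⟩
    rw [AlgHom.map_adjoin, Set.image_singleton] at h1
    have h2 : (Algebra.adjoin AK ({ψ t} : Set FE) : Set FE) ⊆
        (Algebra.adjoin AE ({algebraMap FK FE t} : Set FE) : Set FE) := by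
      intro y hy
      refine Algebra.adjoin_induction
        (p := fun y _ => y ∈ Algebra.adjoin AE ({algebraMap FK FE t} : Set FE))
        ?_ ?_ ?_ ?_ hy
      · intro z hz
        exact Algebra.subset_adjoin hz
      · intro a
        rw [IsScalarTower.algebraMap_apply AK AE FE]
        exact Subalgebra.algebraMap_mem _ _
      · intro _ _ _ _ h1 h2
        exact Subalgebra.add_mem _ h1 h2
      · intro _ _ _ _ h1 h2
        exact Subalgebra.mul_mem _ h1 h2
    exact h2 h1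
  let h : ↥(Algebra.adjoin AK ({t} : Set FK)) →+*
      ↥(Algebra.adjoin AE ({algebraMap FK FE t} : Set FE)) :=
    { toFun := fun b => ⟨ψ b.1, hmem b⟩
      map_one' := Subtype.ext (map_one ψ)
      map_mul' := fun a b => Subtype.ext (map_mul ψ a.1 b.1)
      map_zero' := Subtype.ext (map_zero ψ)
      map_add' := fun a b => Subtype.ext (map_add ψ a.1 b.1) }
  refine ⟨q.map h, hq.map h, ?_⟩
  rw [Polynomial.eval₂_map]
  have hcomp : (algebraMap ↥(Algebra.adjoin AE ({algebraMap FK FE t} : Set FE)) FE).comp h =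
      (algebraMap FK FE).comp (algebraMap ↥(Algebra.adjoin AK ({t} : Set FK)) FK) := by
    ext b
    rfl
  rw [hcomp, ← Polynomial.hom_eval₂, hqx, map_zero]

end Zch

/-! ### Stability of a chart under an automorphism -/

section Stab

variable {A₀ L : Type*} [CommRing A₀] [Field L] [Algebra A₀ L]

/-- a ring endomorphism `σ` of `L` which maps `A₀` into `A₀` and fixes `t` maps `A₀[t]` into
`A₀[t]` -/
theorem tres5p_adjoin_smul (σ : L →+* L)
    (hσA : ∀ a : A₀, ∃ a' : A₀, σ (algebraMap A₀ L a) = algebraMap A₀ L a')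
    (t : L) (hσt : σ t = t) (y : L) (hy : y ∈ Algebra.adjoin A₀ ({t} : Set L)) :
    σ y ∈ Algebra.adjoin A₀ ({t} : Set L) := by
  refine Algebra.adjoin_induction (p := fun y _ => σ y ∈ Algebra.adjoin A₀ ({t} : Set L))
    ?_ ?_ ?_ ?_ hy
  · intro z hz
    rw [Set.mem_singleton_iff] at hz
    rw [hz, hσt]
    exact Algebra.subset_adjoin (Set.mem_singleton t)
  · intro a
    obtain ⟨a', ha'⟩ := hσA a
    rw [ha']
    exact Subalgebra.algebraMap_mem _ _
  · intro _ _ _ _ h1 h2
    rw [map_add]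
    exact Subalgebra.add_mem _ h1 h2
  · intro _ _ _ _ h1 h2
    rw [map_mul]
    exact Subalgebra.mul_mem _ h1 h2

/-- **`hGB` for a chart**: a ring endomorphism `σ` of `L` which maps `A₀` into `A₀` and fixes
`t` maps the integral closure of `A₀[t]` into itself. -/
theorem tres5p_isIntegral_smul (σ : L →+* L)
    (hσA : ∀ a : A₀, ∃ a' : A₀, σ (algebraMap A₀ L a) = algebraMap A₀ L a')
    (t : L) (hσt : σ t = t) (x : L) (hx : IsIntegral (Algebra.adjoin A₀ ({t} : Set L)) x) :
    IsIntegral (Algebra.adjoin A₀ ({t} : Set L)) (σ x) := by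
  let φ : ↥(Algebra.adjoin A₀ ({t} : Set L)) →+* ↥(Algebra.adjoin A₀ ({t} : Set L)) :=
    { toFun := fun b => ⟨σ b.1, tres5p_adjoin_smul σ hσA t hσt b.1 b.2⟩
      map_one' := Subtype.ext (map_one σ)
      map_mul' := fun a b => Subtype.ext (map_mul σ a.1 b.1)
      map_zero' := Subtype.ext (map_zero σ)
      map_add' := fun a b => Subtype.ext (map_add σ a.1 b.1) }
  exact IsIntegral.map_of_comp_eq φ σ (by ext b; rfl) hx

end Stab



/-! ### The charts: `B = zchClosure {t}`, local rings `atLoc 𝔫` -/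

section Chart

variable {G : Type*} [Group G] {L : Type*} [Field L] [MulSemiringAction G L]
  {AE EE FE : Type*} [CommRing AE] [IsDomain AE] [IsDiscreteValuationRing AE]
  [Field EE] [Algebra AE EE] [IsFractionRing AE EE] [CharZero EE]
  [Field FE] [Algebra EE FE] [Algebra AE FE] [IsScalarTower AE EE FE] [Algebra FE L]

/-- **`hGB` for the chart `zchClosure {t}`**: `G` acts on `L ⊇ FE`, preserves `FE` and `A_E`, and
fixes `t`. -/
theorem tres5p_hGB_zch
    (hGF : ∀ (g : G) (x : FE), ∃ x' : FE, g • algebraMap FE L x = algebraMap FE L x')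
    (hGA : ∀ (g : G) (a : AE), ∃ a' : AE,
      g • algebraMap FE L (algebraMap AE FE a) = algebraMap FE L (algebraMap AE FE a'))
    (t : FE) (hGt : ∀ g : G, g • algebraMap FE L t = algebraMap FE L t)
    (g : G) (b : ↥(zchClosure (A₀ := AE) ({t} : Set FE))) :
    ∃ b' : ↥(zchClosure (A₀ := AE) ({t} : Set FE)),
      g • algebraMap FE L (algebraMap ↥(zchClosure (A₀ := AE) ({t} : Set FE)) FE b) =
        algebraMap FE L (algebraMap ↥(zchClosure (A₀ := AE) ({t} : Set FE)) FE b') := by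
  have hinj : Function.Injective (algebraMap FE L) := (algebraMap FE L).injective
  choose φ hφ using hGF g
  let σ : FE →+* FE :=
    { toFun := φ
      map_one' := hinj (by rw [← hφ, map_one, smul_one])
      map_mul' := fun a b => hinj (by rw [← hφ, map_mul, map_mul, smul_mul', hφ, hφ])
      map_zero' := hinj (by rw [← hφ, map_zero, smul_zero])
      map_add' := fun a b => hinj (by rw [← hφ, map_add, map_add, smul_add, hφ, hφ]) }
  have hσ : ∀ x : FE, algebraMap FE L (σ x) = g • algebraMap FE L x := fun x => (hφ x).symm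
  have hσA : ∀ a : AE, ∃ a' : AE, σ (algebraMap AE FE a) = algebraMap AE FE a' := by
    intro a
    obtain ⟨a', ha'⟩ := hGA g a
    exact ⟨a', hinj (by rw [hσ, ha'])⟩
  have hσt : σ t = t := hinj (by rw [hσ, hGt])
  have hb : IsIntegral (Algebra.adjoin AE ({t} : Set FE)) (σ (b : FE)) :=
    tres5p_isIntegral_smul σ hσA t hσt (b : FE) (mem_zchClosure.1 b.2)
  refine ⟨⟨σ (b : FE), mem_zchClosure.2 hb⟩, ?_⟩
  exact (hσ (b : FE)).symm

variable [Finite G]
  {AK EK FK : Type*} [CommRing AK] [IsDomain AK] [IsDiscreteValuationRing AK]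
  [Field EK] [Algebra AK EK] [IsFractionRing AK EK] [CharZero EK]
  [Field FK] [Algebra EK FK] [Algebra AK FK] [IsScalarTower AK EK FK]
  [Algebra AK AE] [Algebra FK FE] [Algebra AK FE]
  [IsScalarTower AK AE FE] [IsScalarTower AK FK FE]

/-- **FAC-PTS, `hRK` at closed points of the charts.**  `𝔫E` a `G`-stable closed point of the chart
`t` over `A_E`, `𝔫K` a closed point of the chart `t` over `A_K` lying under it:
`(B_E)_{𝔫E} ∩ FK ⊆ (B_K)_{𝔫K}`. -/
theorem tres5p_atLoc_hRK [Algebra.IsIntegral AK AE]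
    (hGF : ∀ (g : G) (x : FE), ∃ x' : FE, g • algebraMap FE L x = algebraMap FE L x')
    (hGA : ∀ (g : G) (a : AE), ∃ a' : AE,
      g • algebraMap FE L (algebraMap AE FE a) = algebraMap FE L (algebraMap AE FE a'))
    (hfixF : ∀ x : FE, (∀ g : G, g • algebraMap FE L x = algebraMap FE L x) →
      ∃ y : FK, algebraMap FK FE y = x)
    (t : FK) (hGt : ∀ g : G, g • algebraMap FE L (algebraMap FK FE t) =
      algebraMap FE L (algebraMap FK FE t))
    {πE : AE} {πK : AK}
    (𝔫E : AtPt (F := FE) πE (algebraMap FK FE t)) (𝔫K : AtPt (F := FK) πK t)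
    (hG𝔫 : ∀ (g : G) (b b' : ↥(zchClosure (A₀ := AE) ({algebraMap FK FE t} : Set FE))),
      g • algebraMap FE L (b : FE) = algebraMap FE L (b' : FE) → b ∈ 𝔫E.1 → b' ∈ 𝔫E.1)
    (h𝔫K : ∀ (bK : ↥(zchClosure (A₀ := AK) ({t} : Set FK)))
      (b : ↥(zchClosure (A₀ := AE) ({algebraMap FK FE t} : Set FE))),
      (b : FE) = algebraMap FK FE (bK : FK) → bK ∈ 𝔫K.1 → b ∈ 𝔫E.1)
    (x : FK) (hx : algebraMap FK FE x ∈ atLoc 𝔫E) : x ∈ atLoc 𝔫K := by
  haveI := 𝔫E.2.1.isPrime
  haveI := 𝔫K.2.1.isPrime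
  refine tres5p_hRK' (G := G) (L := L) (F := FE) (FK := FK)
    (B := ↥(zchClosure (A₀ := AE) ({algebraMap FK FE t} : Set FE)))
    (BK := ↥(zchClosure (A₀ := AK) ({t} : Set FK)))
    (tres5p_hGB_zch hGF hGA (algebraMap FK FE t) hGt) 𝔫E.1 hG𝔫 hfixF ?_ 𝔫K.1 h𝔫K x hx
  intro y b hb
  have hy : algebraMap FK FE y ∈ zchClosure (A₀ := AE) ({algebraMap FK FE t} : Set FE) := by
    have hb' : (b : FE) = algebraMap FK FE y := hb
    rw [← hb']
    exact b.2
  exact ⟨⟨y, tres5p_zch_inter (AK := AK) (AE := AE) t y hy⟩, rfl⟩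

omit [Finite G] in
/-- **FAC-PTS, `hGR` at a closed point of the chart.**  `G` preserves the local ring of a
`G`-stable closed point. -/
theorem tres5p_atLoc_hGR
    (hGF : ∀ (g : G) (x : FE), ∃ x' : FE, g • algebraMap FE L x = algebraMap FE L x')
    (hGA : ∀ (g : G) (a : AE), ∃ a' : AE,
      g • algebraMap FE L (algebraMap AE FE a) = algebraMap FE L (algebraMap AE FE a'))
    (t : FE) (hGt : ∀ g : G, g • algebraMap FE L t = algebraMap FE L t)
    {πE : AE} (𝔫E : AtPt (F := FE) πE t)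
    (hG𝔫 : ∀ (g : G) (b b' : ↥(zchClosure (A₀ := AE) ({t} : Set FE))),
      g • algebraMap FE L (b : FE) = algebraMap FE L (b' : FE) → b ∈ 𝔫E.1 → b' ∈ 𝔫E.1)
    (g : G) (r : ↥(atLoc 𝔫E)) :
    ∃ r' : ↥(atLoc 𝔫E), g • algebraMap FE L (r : FE) = algebraMap FE L (r' : FE) := by
  haveI := 𝔫E.2.1.isPrime
  exact tres5p_hGR (G := G) (L := L) (F := FE)
    (B := ↥(zchClosure (A₀ := AE) ({t} : Set FE)))
    (fun _ _ h => Subtype.ext h) (tres5p_hGB_zch hGF hGA t hGt) 𝔫E.1 hG𝔫 g r

end Chart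

end Fermat.Agent.R38
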