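/-
ROW 38, TRES, piece FAC-KFORM, the INSTANCE at closed points (helper48), layer 1:
THE COMPOSITE OF STEPS 3–4 of the assembly recipe of the cover case (abstract frame of helper53's
`tres5kp_descend'`, `R38/TresKFormPt.lean`).

`H : Tres5eSplit F z P c` the split structure over the BIG field at the local ring `R` of a closed
point, `G` a finite group acting on `L` with `L^G = LK`, `F ∩ L^G = FK`, `RK = R ∩ FK`, and
`W` a `G`-STABLE valuation ring of `L` DOMINATING `R` (the composite of the Gauss sheet with a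
place `Q` of the residue function field).  Then

* `tres5ki_j0_local`     : `j₀ : RK → R` is local (from `hRK`);
* `tres5ki_comap_dom`    : `W ∩ LK` dominates `RK`;
* `tres5ki_descend`      : the split structure `HK : Tres5eSplit FK zK PK (0, …, p − 1)` at `RK`,
  `[LK : FK] = p`, `ρ zK ≠ zK`, and ONE point `k` above the closed point of `RK` such that
  `W ∩ LK` has centre `(𝔫_K, zK − k)` on `RK[zK]` and contains the local ring `O′_k`.
-/
import Fermat.Agent.R38.TresKFormPt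
import Fermat.Agent.R38.TresPts
import Fermat.Agent.R38.TresBigPt
import Fermat.Agent.R38.TresDictNode
import Fermat.Agent.UNIP.MGVertCompat

set_option autoImplicit false
set_option linter.style.haveILetI false
set_option linter.unusedSectionVars false

namespace Fermat.Agent.R38

open Polynomial Fermat.Agent.UNIP

section Layer1

variable {R F L RK FK LK : Type*}
  [CommRing R] [IsDomain R] [Field F] [Field L] [Algebra R F] [IsFractionRing R F]
  [IsIntegrallyClosed R] [IsLocalRing R] [Algebra F L] [Algebra R L] [IsScalarTower R F L]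
  [CommRing RK] [IsDomain RK] [Field FK] [Field LK] [Algebra RK FK] [IsFractionRing RK FK]
  [IsIntegrallyClosed RK] [IsLocalRing RK] [Algebra FK LK] [Algebra RK LK]
  [IsScalarTower RK FK LK]
  [Algebra FK F] [Algebra LK L] [Algebra FK L] [IsScalarTower FK LK L] [IsScalarTower FK F L]
  {p : ℕ}

/-- the two ways from `RK` to `L` agree -/
theorem tres5ki_map_eq (j₀ : RK →+* R)
    (hj₀ : ∀ r : RK, algebraMap R F (j₀ r) = algebraMap FK F (algebraMap RK FK r)) (r : RK) :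
    algebraMap LK L (algebraMap RK LK r) = algebraMap R L (j₀ r) := by
  rw [IsScalarTower.algebraMap_apply R F L, hj₀, IsScalarTower.algebraMap_apply RK FK LK,
    ← IsScalarTower.algebraMap_apply FK LK L, ← IsScalarTower.algebraMap_apply FK F L]

/-- `j₀ : RK → R` is a local homomorphism: `RK = R ∩ FK`. -/
theorem tres5ki_j0_local (j₀ : RK →+* R)
    (hj₀ : ∀ r : RK, algebraMap R F (j₀ r) = algebraMap FK F (algebraMap RK FK r))
    (hRK : ∀ (x : FK) (r : R), algebraMap R F r = algebraMap FK F x →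
      ∃ rK : RK, algebraMap RK FK rK = x)
    {r : RK} (hr : r ∈ IsLocalRing.maximalIdeal RK) : j₀ r ∈ IsLocalRing.maximalIdeal R := by
  rw [IsLocalRing.mem_maximalIdeal, mem_nonunits_iff] at hr ⊢
  intro hu
  apply hr
  obtain ⟨u, hu⟩ := hu
  -- `1 / r ∈ FK` comes from `R`
  have hinjK : Function.Injective (algebraMap RK FK) := IsFractionRing.injective RK FK
  have hr0 : r ≠ 0 := by
    rintro rfl
    rw [map_zero] at hu
    exact u.ne_zero hu
  have hrK0 : algebraMap RK FK r ≠ 0 := fun h => hr0 (hinjK (by rw [h, map_zero]))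
  have h1 : algebraMap R F ((u⁻¹ : Rˣ) : R) = algebraMap FK F (algebraMap RK FK r)⁻¹ := by
    have h2 : algebraMap R F ((u⁻¹ : Rˣ) : R) * algebraMap FK F (algebraMap RK FK r) = 1 := by
      rw [← hj₀, ← hu, ← map_mul, Units.inv_mul, map_one]
    rw [map_inv₀]
    exact eq_inv_of_mul_eq_one_left h2
  obtain ⟨s, hs⟩ := hRK _ _ h1
  refine IsUnit.of_mul_eq_one s (hinjK ?_)
  rw [map_mul, hs, map_one, mul_inv_cancel₀ hrK0]

/-- `W ∩ LK` dominates `RK` -/
theorem tres5ki_comap_dom (j₀ : RK →+* R)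
    (hj₀ : ∀ r : RK, algebraMap R F (j₀ r) = algebraMap FK F (algebraMap RK FK r))
    (hRK : ∀ (x : FK) (r : R), algebraMap R F r = algebraMap FK F x →
      ∃ rK : RK, algebraMap RK FK rK = x)
    (W : ValuationSubring L) (hRW : ∀ r : R, algebraMap R L r ∈ W)
    (h𝔫W : ∀ r ∈ IsLocalRing.maximalIdeal R, algebraMap R L r ∈ W.nonunits) :
    (∀ r : RK, algebraMap RK LK r ∈ W.comap (algebraMap LK L)) ∧
    ∀ r ∈ IsLocalRing.maximalIdeal RK,
      algebraMap RK LK r ∈ (W.comap (algebraMap LK L)).nonunits := by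
  refine ⟨fun r => ?_, fun r hr => ?_⟩
  · rw [ValuationSubring.mem_comap, tres5ki_map_eq (LK := LK) j₀ hj₀]
    exact hRW _
  · have h1 := h𝔫W _ (tres5ki_j0_local j₀ hj₀ hRK hr)
    rw [← tres5ki_map_eq (LK := LK) j₀ hj₀] at h1
    exact (vt_mem_nonunits_comap W (algebraMap LK L) _).2 h1

variable [hp : Fact p.Prime]

/-- **K-FORM at a closed point, steps 3–4 of the recipe.**  The split structure over the big
field at `R`, a finite group `G` with `L^G = LK`, `F ∩ L^G = FK`, `RK = R ∩ FK`, and a `G`-stable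
valuation ring `W` of `L` dominating `R` give: the split structure at `RK` with roots
`0, …, p − 1`, and a point `k` above the closed point of `RK` through which `W ∩ LK` passes. -/
theorem tres5ki_descend {z : L} {P : R[X]} {c : ZMod p → R} (H : Tres5eSplit F z P c)
    (hfin : Module.finrank F L = p)
    {G : Type*} [Group G] [Finite G] [MulSemiringAction G L]
    (j₀ : RK →+* R)
    (hj₀ : ∀ r : RK, algebraMap R F (j₀ r) = algebraMap FK F (algebraMap RK FK r))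
    (hRK : ∀ (x : FK) (r : R), algebraMap R F r = algebraMap FK F x →
      ∃ rK : RK, algebraMap RK FK rK = x)
    (hpR : (p : RK) ∈ IsLocalRing.maximalIdeal RK)
    (hGLK : ∀ (g : G) (y : LK), g • algebraMap LK L y = algebraMap LK L y)
    (hfixL : ∀ x : L, (∀ g : G, g • x = x) → ∃ y : LK, algebraMap LK L y = x)
    (hfixF : ∀ x : F, (∀ g : G, g • algebraMap F L x = algebraMap F L x) →
      ∃ y : FK, algebraMap FK F y = x)
    (hGR : ∀ (g : G) (r : R), ∃ r' : R, g • algebraMap R L r = algebraMap R L r')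
    (W : ValuationSubring L) (hRW : ∀ r : R, algebraMap R L r ∈ W)
    (h𝔫W : ∀ r ∈ IsLocalRing.maximalIdeal R, algebraMap R L r ∈ W.nonunits)
    (hGW : ∀ (g : G), ∀ x ∈ W, g • x ∈ W)
    (ρ : L ≃ₐ[F] L) (hρG : ∀ (g : G) x, ρ (g • x) = g • ρ x)
    (hρ : ∀ i : ZMod p, ∃ b ∈ tres5eMax R z (c i),
      ρ z = algebraMap R L (c (i + 1)) + (b : L)) :
    ∃ (zK : LK) (PK : RK[X]),
      Tres5eSplit FK zK PK (fun k : ZMod p => ((k.val : ℕ) : RK)) ∧
      Module.finrank FK LK = p ∧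
      ρ (algebraMap LK L zK) ≠ algebraMap LK L zK ∧
      (∀ i : ZMod p, ∃ b ∈ tres5eMax R z (c i),
        algebraMap LK L zK = ((i.val : ℕ) : L) + (b : L)) ∧
      ∃ k : ZMod p,
        (∀ b : ↥(Algebra.adjoin RK ({zK} : Set LK)),
          b ∈ tres5eMax RK zK ((k.val : ℕ) : RK) ↔ algebraMap LK L (b : LK) ∈ W.nonunits) ∧
        ∀ (_ : (tres5eMax RK zK ((k.val : ℕ) : RK)).IsPrime),
          ∀ x ∈ ls_localSubring (F := LK) (tres5eMax RK zK ((k.val : ℕ) : RK)),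
            algebraMap LK L x ∈ W := by
  obtain ⟨i₀, -, hG0⟩ := tres5kp_fixed_of_val H hGR W hRW h𝔫W hGW
  obtain ⟨zK, PK, hT, hz, hfinK, hρz⟩ := tres5kp_descend' H hfin j₀ hj₀ hRK
    (fun k : ZMod p => ((k.val : ℕ) : RK)) (tres5kp_sep_natCast hpR) hGLK hfixL hfixF hGR
    i₀ hG0 ρ hρG hρ
  obtain ⟨hdom1, hdom2⟩ := tres5ki_comap_dom (LK := LK) j₀ hj₀ hRK W hRW h𝔫W
  obtain ⟨k, hk⟩ := hT.val_center (W.comap (algebraMap LK L)) hdom1 hdom2
  have hk' : ∀ b : ↥(Algebra.adjoin RK ({zK} : Set LK)),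
      b ∈ tres5eMax RK zK ((k.val : ℕ) : RK) ↔ algebraMap LK L (b : LK) ∈ W.nonunits := by
    intro b
    rw [hk b]
    exact vt_mem_nonunits_comap W (algebraMap LK L) _
  refine ⟨zK, PK, hT, hfinK, hρz, fun i => ?_, k, hk', fun _ x hx => ?_⟩
  · obtain ⟨b, hb, hzb⟩ := hz i
    refine ⟨b, hb, ?_⟩
    rw [hzb, map_natCast, map_natCast]
  · have h1 := (hT.loc_le_val k (W.comap (algebraMap LK L)) hk
      (fun b => hT.mem_val (W.comap (algebraMap LK L)) hdom1 b) hx).1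
    exact h1

end Layer1

/-! ### Layer 2: the charts (frame of FAC-PTS, `R38/TresPts.lean`) -/

section Layer2

open Fermat.Agent.INJ Fermat.Agent.RIB.MP

variable {G : Type*} [Group G] {L : Type*} [Field L] [MulSemiringAction G L]
  {AE EE FE : Type*} [CommRing AE] [IsDomain AE] [IsDiscreteValuationRing AE]
  [Field EE] [Algebra AE EE] [IsFractionRing AE EE] [CharZero EE]
  [Field FE] [Algebra EE FE] [Algebra AE FE] [IsScalarTower AE EE FE] [Algebra FE L]
  {AK EK FK : Type*} [CommRing AK] [IsDomain AK] [IsDiscreteValuationRing AK]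
  [Field EK] [Algebra AK EK] [IsFractionRing AK EK] [CharZero EK]
  [Field FK] [Algebra EK FK] [Algebra AK FK] [IsScalarTower AK EK FK]
  [Algebra AK AE] [Algebra FK FE] [Algebra AK FE]
  [IsScalarTower AK AE FE] [IsScalarTower AK FK FE]
  {t : FK} {πE : AE} {πK : AK}

/-- the transition map `B_K → B_E` of the charts -/
noncomputable def tres5kiChart (t : FK) :
    ↥(zchClosure (A₀ := AK) ({t} : Set FK)) →+*
      ↥(zchClosure (A₀ := AE) ({algebraMap FK FE t} : Set FE)) where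
  toFun b := ⟨algebraMap FK FE (b : FK), tres5p_zch_le (AK := AK) (AE := AE) t (b : FK) b.2⟩
  map_one' := Subtype.ext (by simp)
  map_mul' a b := Subtype.ext (by simp)
  map_zero' := Subtype.ext (by simp)
  map_add' a b := Subtype.ext (by simp)

theorem tres5kiChart_coe (t : FK) (b : ↥(zchClosure (A₀ := AK) ({t} : Set FK))) :
    ((tres5kiChart (AK := AK) (AE := AE) (FE := FE) t b :
      ↥(zchClosure (A₀ := AE) ({algebraMap FK FE t} : Set FE))) : FE) =
      algebraMap FK FE (b : FK) := rfl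

/-- **`𝔫K = 𝔫E ∩ B_K`**: a closed point of the `K`-chart lying under `𝔫E` is the contraction of
`𝔫E` (maximality). -/
theorem tres5ki_under (𝔫E : AtPt (F := FE) πE (algebraMap FK FE t)) (𝔫K : AtPt (F := FK) πK t)
    (h𝔫K : ∀ (bK : ↥(zchClosure (A₀ := AK) ({t} : Set FK)))
      (b : ↥(zchClosure (A₀ := AE) ({algebraMap FK FE t} : Set FE))),
      (b : FE) = algebraMap FK FE (bK : FK) → bK ∈ 𝔫K.1 → b ∈ 𝔫E.1)
    (bK : ↥(zchClosure (A₀ := AK) ({t} : Set FK)))
    (b : ↥(zchClosure (A₀ := AE) ({algebraMap FK FE t} : Set FE)))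
    (hb : (b : FE) = algebraMap FK FE (bK : FK)) : bK ∈ 𝔫K.1 ↔ b ∈ 𝔫E.1 := by
  refine ⟨h𝔫K bK b hb, fun hbE => ?_⟩
  haveI := 𝔫E.2.1.isPrime
  have hle : 𝔫K.1 ≤ Ideal.comap (tres5kiChart (AK := AK) (AE := AE) (FE := FE) t) 𝔫E.1 := by
    intro x hx
    rw [Ideal.mem_comap]
    exact h𝔫K x _ (tres5kiChart_coe (AK := AK) (AE := AE) (FE := FE) t x) hx
  have hne : Ideal.comap (tres5kiChart (AK := AK) (AE := AE) (FE := FE) t) 𝔫E.1 ≠ ⊤ :=
    (Ideal.comap_isPrime (tres5kiChart (AK := AK) (AE := AE) (FE := FE) t) 𝔫E.1).ne_top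
  have heq := 𝔫K.2.1.eq_of_le hne hle
  rw [heq, Ideal.mem_comap]
  have e : tres5kiChart (AK := AK) (AE := AE) (FE := FE) t bK = b := Subtype.ext hb.symm
  rw [e]
  exact hbE

/-- the local ring of the `K`-chart at `𝔫K` lies in the local ring of the `E`-chart at `𝔫E` -/
theorem tres5ki_loc_le (𝔫E : AtPt (F := FE) πE (algebraMap FK FE t)) (𝔫K : AtPt (F := FK) πK t)
    (h𝔫K : ∀ (bK : ↥(zchClosure (A₀ := AK) ({t} : Set FK)))
      (b : ↥(zchClosure (A₀ := AE) ({algebraMap FK FE t} : Set FE))),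
      (b : FE) = algebraMap FK FE (bK : FK) → bK ∈ 𝔫K.1 → b ∈ 𝔫E.1)
    {x : FK} (hx : x ∈ atLoc 𝔫K) : algebraMap FK FE x ∈ atLoc 𝔫E := by
  obtain ⟨b, s, hs, hsx⟩ := hx
  refine ⟨tres5kiChart (AK := AK) (AE := AE) (FE := FE) t b, tres5kiChart (AK := AK) (AE := AE) (FE := FE) t s,
    fun h => hs ((tres5ki_under 𝔫E 𝔫K h𝔫K s _ (tres5kiChart_coe (AK := AK) (AE := AE) (FE := FE) t s)).2 h), ?_⟩
  have h1 : algebraMap FK FE ((s : FK) * x) = algebraMap FK FE (b : FK) := congrArg _ hsx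
  rw [map_mul] at h1
  exact h1

/-- a valuation ring containing the local ring of a closed point, in which the elements of the
point are non-units, dominates the local ring -/
theorem tres5ki_dom {F : Type*} [Field F] {B : Type*} [CommRing B] [Algebra B F]
    (hinj : Function.Injective (algebraMap B F)) (𝔫 : Ideal B) [𝔫.IsPrime]
    [IsLocalRing ↥(ls_localSubring (F := F) 𝔫)]
    {L : Type*} [Field L] [Algebra F L] (W : ValuationSubring L)
    (hWdom : ∀ x ∈ ls_localSubring (F := F) 𝔫, algebraMap F L x ∈ W)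
    (hWmax : ∀ b : B, b ∈ 𝔫 → algebraMap F L (algebraMap B F b) ∈ W.nonunits)
    (r : ↥(ls_localSubring (F := F) 𝔫))
    (hr : r ∈ IsLocalRing.maximalIdeal ↥(ls_localSubring (F := F) 𝔫)) :
    algebraMap F L (r : F) ∈ W.nonunits := by
  obtain ⟨b, s, hs, hsr⟩ := r.2
  have hb : b ∈ 𝔫 := by
    by_contra hb
    exact (IsLocalRing.mem_maximalIdeal _).1 hr (ls_isUnit_of_not_mem hinj 𝔫 r hb hs hsr)
  have h1 := hWmax b hb
  rw [← hsr, map_mul] at h1
  -- `s` is a unit of `W`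
  have hs1 : (algebraMap B F s)⁻¹ ∈ ls_localSubring (F := F) 𝔫 :=
    (ls_unit_mem_localSubring hinj 𝔫 (ε := algebraMap B F s) (s := 1) (t := s)
      (fun h => (inferInstance : 𝔫.IsPrime).ne_top ((Ideal.eq_top_iff_one 𝔫).mpr h)) hs
      (by rw [map_one, one_mul])).2
  have hs2 := hWdom _ hs1
  rw [map_inv₀] at hs2
  have hs0 : algebraMap F L (algebraMap B F s) ≠ 0 := by
    intro h0
    rw [h0, zero_mul] at h1
    have hsB : algebraMap B F s = 0 := (map_eq_zero (algebraMap F L)).1 h0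
    apply hs
    rw [hinj (hsB.trans (map_zero _).symm)]
    exact 𝔫.zero_mem
  rw [ValuationSubring.mem_nonunits_iff] at h1 ⊢
  rw [map_mul] at h1
  have hs3 : W.valuation (algebraMap F L (algebraMap B F s))⁻¹ ≤ 1 :=
    (W.valuation_le_one_iff _).2 hs2
  rw [map_inv₀] at hs3
  have hs4 : 1 ≤ W.valuation (algebraMap F L (algebraMap B F s)) := by
    have hv0 : W.valuation (algebraMap F L (algebraMap B F s)) ≠ 0 :=
      (Valuation.ne_zero_iff _).2 hs0
    exact (inv_le_one₀ (zero_lt_iff.2 hv0)).1 hs3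
  calc W.valuation (algebraMap F L (r : F))
      = 1 * W.valuation (algebraMap F L (r : F)) := (one_mul _).symm
    _ ≤ W.valuation (algebraMap F L (algebraMap B F s)) * W.valuation (algebraMap F L (r : F)) :=
        mul_le_mul' hs4 le_rfl
    _ < 1 := h1

variable [Finite G]
  {LK : Type*} [Field LK] [Algebra FK LK] [Algebra LK L] [Algebra FK L]
  [IsScalarTower FK LK L] [IsScalarTower FK FE L]
  {p : ℕ} [hp : Fact p.Prime]

/-- **K-FORM at a closed point of the chart (the instance, abstract charts).**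
`𝔫E` a closed point of the chart `t` over `A_E` (big field), `G`-stable; `𝔫K` the closed point of
the chart `t` over `A_K` under it; `W` a `G`-stable valuation ring of `L = L_E` dominating
`(B_E)_{𝔫E}`; `H` the split structure of FAC-BIG at `𝔫E`.  Then the cover `LK / FK` has the split
structure at `(B_K)_{𝔫K}` with roots `0, …, p − 1`, `[LK : FK] = p`, and `W ∩ LK` contains the
local ring `O′_k` of ONE point `(𝔫K, zK − k)` above `𝔫K`. -/
theorem tres5ki_point (𝔫E : AtPt (F := FE) πE (algebraMap FK FE t)) (𝔫K : AtPt (F := FK) πK t)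
    [IsLocalRing ↥(atLoc 𝔫E)] [IsFractionRing ↥(atLoc 𝔫E) FE] [IsIntegrallyClosed ↥(atLoc 𝔫E)]
    [Algebra ↥(atLoc 𝔫E) L] [IsScalarTower ↥(atLoc 𝔫E) FE L]
    [IsLocalRing ↥(atLoc 𝔫K)] [IsFractionRing ↥(atLoc 𝔫K) FK] [IsIntegrallyClosed ↥(atLoc 𝔫K)]
    [Algebra ↥(atLoc 𝔫K) LK] [IsScalarTower ↥(atLoc 𝔫K) FK LK]
    [Algebra.IsIntegral AK AE]
    {z : L} {P : (↥(atLoc 𝔫E))[X]} {c : ZMod p → ↥(atLoc 𝔫E)}
    (H : Tres5eSplit FE z P c) (hfin : Module.finrank FE L = p)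
    (hpK : πK ∣ (p : AK))
    (hGF : ∀ (g : G) (x : FE), ∃ x' : FE, g • algebraMap FE L x = algebraMap FE L x')
    (hGA : ∀ (g : G) (a : AE), ∃ a' : AE,
      g • algebraMap FE L (algebraMap AE FE a) = algebraMap FE L (algebraMap AE FE a'))
    (hGt : ∀ g : G, g • algebraMap FE L (algebraMap FK FE t) =
      algebraMap FE L (algebraMap FK FE t))
    (hGLK : ∀ (g : G) (y : LK), g • algebraMap LK L y = algebraMap LK L y)
    (hfixL : ∀ x : L, (∀ g : G, g • x = x) → ∃ y : LK, algebraMap LK L y = x)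
    (hfixF : ∀ x : FE, (∀ g : G, g • algebraMap FE L x = algebraMap FE L x) →
      ∃ y : FK, algebraMap FK FE y = x)
    (hG𝔫 : ∀ (g : G) (b b' : ↥(zchClosure (A₀ := AE) ({algebraMap FK FE t} : Set FE))),
      g • algebraMap FE L (b : FE) = algebraMap FE L (b' : FE) → b ∈ 𝔫E.1 → b' ∈ 𝔫E.1)
    (h𝔫K : ∀ (bK : ↥(zchClosure (A₀ := AK) ({t} : Set FK)))
      (b : ↥(zchClosure (A₀ := AE) ({algebraMap FK FE t} : Set FE))),
      (b : FE) = algebraMap FK FE (bK : FK) → bK ∈ 𝔫K.1 → b ∈ 𝔫E.1)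
    (W : ValuationSubring L)
    (hWdom : ∀ x ∈ atLoc 𝔫E, algebraMap FE L x ∈ W)
    (hWmax : ∀ b : ↥(zchClosure (A₀ := AE) ({algebraMap FK FE t} : Set FE)), b ∈ 𝔫E.1 →
      algebraMap FE L (b : FE) ∈ W.nonunits)
    (hGW : ∀ (g : G), ∀ x ∈ W, g • x ∈ W)
    (ρ : L ≃ₐ[FE] L) (hρG : ∀ (g : G) x, ρ (g • x) = g • ρ x)
    (hρ : ∀ i : ZMod p, ∃ b ∈ tres5eMax ↥(atLoc 𝔫E) z (c i),
      ρ z = algebraMap ↥(atLoc 𝔫E) L (c (i + 1)) + (b : L)) :
    ∃ (zK : LK) (PK : (↥(atLoc 𝔫K))[X]),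
      Tres5eSplit FK zK PK (fun k : ZMod p => ((k.val : ℕ) : ↥(atLoc 𝔫K))) ∧
      Module.finrank FK LK = p ∧
      ρ (algebraMap LK L zK) ≠ algebraMap LK L zK ∧
      (∀ i : ZMod p, ∃ b ∈ tres5eMax ↥(atLoc 𝔫E) z (c i),
        algebraMap LK L zK = ((i.val : ℕ) : L) + (b : L)) ∧
      ∃ k : ZMod p,
        (∀ b : ↥(Algebra.adjoin ↥(atLoc 𝔫K) ({zK} : Set LK)),
          b ∈ tres5eMax ↥(atLoc 𝔫K) zK ((k.val : ℕ) : ↥(atLoc 𝔫K)) ↔
            algebraMap LK L (b : LK) ∈ W.nonunits) ∧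
        ∀ (_ : (tres5eMax ↥(atLoc 𝔫K) zK ((k.val : ℕ) : ↥(atLoc 𝔫K))).IsPrime),
          ∀ x ∈ ls_localSubring (F := LK) (tres5eMax ↥(atLoc 𝔫K) zK ((k.val : ℕ) : ↥(atLoc 𝔫K))),
            algebraMap LK L x ∈ W := by
  haveI := 𝔫E.2.1.isPrime
  haveI := 𝔫K.2.1.isPrime
  have hRL : ∀ r : ↥(atLoc 𝔫E), algebraMap ↥(atLoc 𝔫E) L r = algebraMap FE L (r : FE) :=
    fun r => IsScalarTower.algebraMap_apply ↥(atLoc 𝔫E) FE L r
  -- `j₀`
  let j₀ : ↥(atLoc 𝔫K) →+* ↥(atLoc 𝔫E) :=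
    ((algebraMap FK FE).comp (atLoc 𝔫K).subtype).codRestrict (atLoc 𝔫E)
      (fun x => tres5ki_loc_le 𝔫E 𝔫K h𝔫K x.2)
  have hj₀ : ∀ r : ↥(atLoc 𝔫K), algebraMap ↥(atLoc 𝔫E) FE (j₀ r) =
      algebraMap FK FE (algebraMap ↥(atLoc 𝔫K) FK r) := fun r => rfl
  have hRK : ∀ (x : FK) (r : ↥(atLoc 𝔫E)), algebraMap ↥(atLoc 𝔫E) FE r = algebraMap FK FE x →
      ∃ rK : ↥(atLoc 𝔫K), algebraMap ↥(atLoc 𝔫K) FK rK = x := by
    intro x r hrx
    have hx : algebraMap FK FE x ∈ atLoc 𝔫E := by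
      rw [← hrx]
      exact r.2
    exact ⟨⟨x, tres5p_atLoc_hRK (G := G) (L := L) hGF hGA hfixF t hGt 𝔫E 𝔫K hG𝔫 h𝔫K x hx⟩, rfl⟩
  have hpR : ((p : ℕ) : ↥(atLoc 𝔫K)) ∈ IsLocalRing.maximalIdeal ↥(atLoc 𝔫K) := by
    have h2 := tres5bp_pi_mul_mem 𝔫K (p : AK) hpK
    convert h2 using 1
    apply Subtype.ext
    simp
  have hGR : ∀ (g : G) (r : ↥(atLoc 𝔫E)), ∃ r' : ↥(atLoc 𝔫E),
      g • algebraMap ↥(atLoc 𝔫E) L r = algebraMap ↥(atLoc 𝔫E) L r' := by
    intro g r
    obtain ⟨r', hr'⟩ := tres5p_atLoc_hGR (G := G) (L := L) hGF hGA (algebraMap FK FE t) hGt 𝔫E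
      hG𝔫 g r
    exact ⟨r', by rw [hRL, hRL, hr']⟩
  have hRW : ∀ r : ↥(atLoc 𝔫E), algebraMap ↥(atLoc 𝔫E) L r ∈ W := fun r => by
    rw [hRL]
    exact hWdom _ r.2
  have hinjB : Function.Injective
      (algebraMap ↥(zchClosure (A₀ := AE) ({algebraMap FK FE t} : Set FE)) FE) :=
    Subtype.val_injective
  have h𝔫W : ∀ r ∈ IsLocalRing.maximalIdeal ↥(atLoc 𝔫E),
      algebraMap ↥(atLoc 𝔫E) L r ∈ W.nonunits := by
    intro r hr
    rw [hRL]
    haveI hloc : IsLocalRing ↥(ls_localSubring (F := FE) 𝔫E.1) :=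
      (inferInstance : IsLocalRing ↥(atLoc 𝔫E))
    exact tres5ki_dom hinjB 𝔫E.1 W hWdom hWmax r hr
  exact tres5ki_descend H hfin j₀ hj₀ hRK hpR hGLK hfixL hfixF hGR W hRW h𝔫W hGW ρ hρG hρ

end Layer2

end Fermat.Agent.R38
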