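/-
ROW 38, TRES, MONO, K-FORM (B) instance, leaf (B-fix) (helper26), part 2: `tres5ki_point`
(helper48) WITH THE GAUSS SHEET as input.

`tres5kd_point` : the frame of `tres5ki_point` (`R38/TresKFormInst.lean`), where the `G`-stable
valuation ring `W` dominating `(B_E)_{𝔫E}` is replaced by the `G`-stable sheet `W₀ ⊇ (B_E)_{𝔫E}`
on whose residues `G` acts trivially (`tres5g_gauss_smul_mem`, `tres5g_gauss_sub_mem`).
Conclusion: the split structure of `LK / FK` at `(B_K)_{𝔫K}` with roots `0, …, p − 1`, and ONE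
point `k` above `𝔫K` whose local ring `O′_k` lies in the sheet `W₀` (the sheet `W₀ ∩ LK` passes
through the point `k`).
-/
import Fermat.Agent.R38.TresKFormInst
import Fermat.Agent.R38.TresKFormDom

set_option autoImplicit false
set_option linter.style.haveILetI false
set_option linter.unusedSectionVars false

namespace Fermat.Agent.R38

open Polynomial Fermat.Agent.UNIP Fermat.Agent.INJ Fermat.Agent.RIB.MP

section Pt

variable {G : Type*} [Group G] {L : Type*} [Field L] [MulSemiringAction G L]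
  {AE EE FE : Type*} [CommRing AE] [IsDomain AE] [IsDiscreteValuationRing AE]
  [Field EE] [Algebra AE EE] [IsFractionRing AE EE] [CharZero EE]
  [Field FE] [Algebra EE FE] [Algebra AE FE] [IsScalarTower AE EE FE] [Algebra FE L]
  {AK EK FK : Type*} [CommRing AK] [IsDomain AK] [IsDiscreteValuationRing AK]
  [Field EK] [Algebra AK EK] [IsFractionRing AK EK] [CharZero EK]
  [Field FK] [Algebra EK FK] [Algebra AK FK] [IsScalarTower AK EK FK]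
  [Algebra AK AE] [Algebra FK FE] [Algebra AK FE]
  [IsScalarTower AK AE FE] [IsScalarTower AK FK FE]
  {t : FK} {πE : AE} {πK : AK}
  [Finite G]
  {LK : Type*} [Field LK] [Algebra FK LK] [Algebra LK L] [Algebra FK L]
  [IsScalarTower FK LK L] [IsScalarTower FK FE L]
  {p : ℕ} [hp : Fact p.Prime]

/-- **K-FORM at a closed point of the chart, from the Gauss sheet.** -/
theorem tres5kd_point (𝔫E : AtPt (F := FE) πE (algebraMap FK FE t)) (𝔫K : AtPt (F := FK) πK t)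
    [IsLocalRing ↥(atLoc 𝔫E)] [IsFractionRing ↥(atLoc 𝔫E) FE] [IsIntegrallyClosed ↥(atLoc 𝔫E)]
    [Algebra ↥(atLoc 𝔫E) L] [IsScalarTower ↥(atLoc 𝔫E) FE L]
    [IsLocalRing ↥(atLoc 𝔫K)] [IsFractionRing ↥(atLoc 𝔫K) FK] [IsIntegrallyClosed ↥(atLoc 𝔫K)]
    [Algebra ↥(atLoc 𝔫K) LK] [IsScalarTower ↥(atLoc 𝔫K) FK LK]
    [Algebra.IsIntegral AK AE]
    {z : L} {P : (↥(atLoc 𝔫E))[X]} {c : ZMod p → ↥(atLoc 𝔫E)}
    (H : Tres5eSplit FE z P c) (hfin : Module.finrank FE L = p)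
    (hpK : πK ∣ (p : AK))
    (hGF : ∀ (g : G) (x : FE), ∃ x' : FE, g • algebraMap FE L x = algebraMap FE L x')
    (hGA : ∀ (g : G) (a : AE), ∃ a' : AE,
      g • algebraMap FE L (algebraMap AE FE a) = algebraMap FE L (algebraMap AE FE a'))
    (hGt : ∀ g : G, g • algebraMap FE L (algebraMap FK FE t) =
      algebraMap FE L (algebraMap FK FE t))
    (hGLK : ∀ (g : G) (y : LK), g • algebraMap LK L y = algebraMap LK L y)
    (hfixL : ∀ x : L, (∀ g : G, g • x = x) → ∃ y : LK, algebraMap LK L y = x)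
    (hfixF : ∀ x : FE, (∀ g : G, g • algebraMap FE L x = algebraMap FE L x) →
      ∃ y : FK, algebraMap FK FE y = x)
    (hG𝔫 : ∀ (g : G) (b b' : ↥(zchClosure (A₀ := AE) ({algebraMap FK FE t} : Set FE))),
      g • algebraMap FE L (b : FE) = algebraMap FE L (b' : FE) → b ∈ 𝔫E.1 → b' ∈ 𝔫E.1)
    (h𝔫K : ∀ (bK : ↥(zchClosure (A₀ := AK) ({t} : Set FK)))
      (b : ↥(zchClosure (A₀ := AE) ({algebraMap FK FE t} : Set FE))),
      (b : FE) = algebraMap FK FE (bK : FK) → bK ∈ 𝔫K.1 → b ∈ 𝔫E.1)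
    (W₀ : ValuationSubring L)
    (hW₀ : ∀ x ∈ atLoc 𝔫E, algebraMap FE L x ∈ W₀)
    (hGW₀ : ∀ (g : G), ∀ x ∈ W₀, g • x ∈ W₀)
    (hGsub : ∀ (g : G), ∀ x ∈ W₀, g • x - x ∈ W₀.nonunits)
    (ρ : L ≃ₐ[FE] L) (hρG : ∀ (g : G) x, ρ (g • x) = g • ρ x)
    (hρ : ∀ i : ZMod p, ∃ b ∈ tres5eMax ↥(atLoc 𝔫E) z (c i),
      ρ z = algebraMap ↥(atLoc 𝔫E) L (c (i + 1)) + (b : L)) :
    ∃ (zK : LK) (PK : (↥(atLoc 𝔫K))[X]),
      Tres5eSplit FK zK PK (fun k : ZMod p => ((k.val : ℕ) : ↥(atLoc 𝔫K))) ∧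
      Module.finrank FK LK = p ∧
      ρ (algebraMap LK L zK) ≠ algebraMap LK L zK ∧
      (∀ i : ZMod p, ∃ b ∈ tres5eMax ↥(atLoc 𝔫E) z (c i),
        algebraMap LK L zK = ((i.val : ℕ) : L) + (b : L)) ∧
      ∃ (W : ValuationSubring L) (k : ZMod p), W ≤ W₀ ∧
        (∀ (g : G), ∀ x ∈ W, g • x ∈ W) ∧
        (∀ x ∈ atLoc 𝔫E, algebraMap FE L x ∈ W) ∧
        (∀ b : ↥(zchClosure (A₀ := AE) ({algebraMap FK FE t} : Set FE)), b ∈ 𝔫E.1 →
          algebraMap FE L (b : FE) ∈ W.nonunits) ∧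
        (∀ b : ↥(Algebra.adjoin ↥(atLoc 𝔫K) ({zK} : Set LK)),
          b ∈ tres5eMax ↥(atLoc 𝔫K) zK ((k.val : ℕ) : ↥(atLoc 𝔫K)) ↔
            algebraMap LK L (b : LK) ∈ W.nonunits) ∧
        (∀ (_ : (tres5eMax ↥(atLoc 𝔫K) zK ((k.val : ℕ) : ↥(atLoc 𝔫K))).IsPrime),
          ∀ x ∈ ls_localSubring (F := LK) (tres5eMax ↥(atLoc 𝔫K) zK ((k.val : ℕ) : ↥(atLoc 𝔫K))),
            algebraMap LK L x ∈ W) ∧
        (∀ (_ : (tres5eMax ↥(atLoc 𝔫K) zK ((k.val : ℕ) : ↥(atLoc 𝔫K))).IsPrime),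
          ∀ x ∈ ls_localSubring (F := LK) (tres5eMax ↥(atLoc 𝔫K) zK ((k.val : ℕ) : ↥(atLoc 𝔫K))),
            algebraMap LK L x ∈ W₀) := by
  obtain ⟨W, hle, hWdom, hWmax, hGW⟩ := tres5kd_atLoc 𝔫E W₀ hGW₀ hGsub hW₀
  obtain ⟨zK, PK, hT, hfinK, hρz, hz, k, hk1, hk2⟩ :=
    tres5ki_point 𝔫E 𝔫K H hfin hpK hGF hGA hGt hGLK hfixL hfixF hG𝔫 h𝔫K W hWdom hWmax hGW
      ρ hρG hρ
  exact ⟨zK, PK, hT, hfinK, hρz, hz, W, k, hle, hGW, hWdom, hWmax, hk1, hk2,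
    fun h x hx => hle (hk2 h x hx)⟩

end Pt

end Fermat.Agent.R38
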