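/-
ROW 38, TRES, MONO, K-FORM (B) instance, leaf (B-fix) (helper26), part 3: the hypothesis `hW₀` of
`tres5kd_point` from `atThrough`.

* `tres5kd_atLoc_le` : a closed point `𝔫` of the chart `B` through the component `V`
  (`atThrough 𝔫 V`, `B ⊆ V`): `atLoc 𝔫 ⊆ V`.
* `tres5kd_hW0`      : hence `atLoc 𝔫 ⊆ W₀` for every valuation ring `W₀` of `L` over `V`
  (`W₀ ∩ F = V`): the hypothesis `hW₀` of `tres5kd_point` / `tres5kd_atLoc`.
-/
import Fermat.Agent.R38.TresKFormDom

set_option autoImplicit false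
set_option linter.unusedSectionVars false
set_option linter.style.haveILetI false

namespace Fermat.Agent.R38

open Fermat.Agent.UNIP Fermat.Agent.INJ

section Thr

variable {AE EE FE : Type*} [CommRing AE] [IsDomain AE] [IsDiscreteValuationRing AE]
  [Field EE] [Algebra AE EE] [IsFractionRing AE EE] [CharZero EE]
  [Field FE] [Algebra EE FE] [Algebra AE FE] [IsScalarTower AE EE FE]
  {πE : AE} {u : FE}

/-- the local ring of a closed point on the component `V` lies in `V` -/
theorem tres5kd_atLoc_le (𝔫E : AtPt (F := FE) πE u) (V : ValuationSubring FE)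
    (hBV : ∀ b : ↥(zchClosure (A₀ := AE) ({u} : Set FE)), (b : FE) ∈ V)
    (hthr : atThrough 𝔫E V) : ∀ x ∈ atLoc 𝔫E, x ∈ V := by
  rintro x ⟨b, s, hs, hsx⟩
  have hsx' : (s : FE) * x = (b : FE) := hsx
  have hsV : (s : FE) ∉ V.nonunits := fun h => hs (hthr s h)
  have hs1 : V.valuation (s : FE) = 1 := by
    rw [ValuationSubring.mem_nonunits_iff, not_lt] at hsV
    exact le_antisymm ((ValuationSubring.valuation_le_one_iff V _).2 (hBV s)) hsV
  rw [← ValuationSubring.valuation_le_one_iff]
  have h1 : V.valuation (b : FE) ≤ 1 := (ValuationSubring.valuation_le_one_iff V _).2 (hBV b)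
  rwa [← hsx', map_mul, hs1, one_mul] at h1

/-- **`hW₀`** of `tres5kd_point`: the local ring of a closed point on the component `V` lies in
every valuation ring of `L` over `V`. -/
theorem tres5kd_hW0 {L : Type*} [Field L] [Algebra FE L] (𝔫E : AtPt (F := FE) πE u)
    (V : ValuationSubring FE)
    (hBV : ∀ b : ↥(zchClosure (A₀ := AE) ({u} : Set FE)), (b : FE) ∈ V)
    (hthr : atThrough 𝔫E V) (W₀ : ValuationSubring L)
    (hW₀V : W₀.comap (algebraMap FE L) = V) :
    ∀ x ∈ atLoc 𝔫E, algebraMap FE L x ∈ W₀ := by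
  intro x hx
  have h1 : x ∈ W₀.comap (algebraMap FE L) := by
    rw [hW₀V]
    exact tres5kd_atLoc_le 𝔫E V hBV hthr x hx
  exact h1

end Thr

end Fermat.Agent.R38
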