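import Fermat.Agent.R38.TresKFormPt
import Fermat.Agent.R38.TresNodeKrull

/-!
# Row 38, TRES, MONO, piece FAC-FIX (helper26; ruling v5 of helper92)

Frame of helper28 (`R38/TresEtale.lean`): `R` a normal local domain, `F = Frac R`, `L = F[z]`,
`H : Tres5eSplit F z P c`, `Λ = R[z]`.  `W` a valuation ring of `L` containing `R` — the GAUSS
sheet, which does NOT dominate `R` (its centre on `R` is the prime `𝔭 = 𝔪_W ∩ R` of the component,
not `𝔫`) — with

* `hres` : the residue field of `W` is that of `W ∩ F`  (`f = 1`);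
* `hD`   : `R / 𝔭` is integrally closed in the residue field of `W ∩ F`.

Then the sheet passes through exactly ONE point above `𝔫`:

* `tres5kf_exists_res` : `∃ r : R, z − r ∈ 𝔪_W`;
* `tres5kf_center`, `tres5kf_center_unique`, `tres5kf_existsUnique` :
  `∃! i, ∀ b : Λ, b ∈ 𝔪_W → b ∈ (𝔫, z − c i)`;
* `tres5kf_fixed` : a group `G` acting on `L`, preserving `R` and `W`, fixes that point
  (exactly the hypothesis `hG0` of `tres5kp_descend`);
* `tres5kf_hD` : `hD` when `R` is noetherian with `𝔫 = (X, Y)`, `𝔪_W ∩ R = X R`, `Y ∉ 𝔪_W`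
  (thin node or smooth point: `R / X R` is a discrete valuation ring).
-/

set_option autoImplicit false
set_option linter.unusedSectionVars false
set_option linter.style.haveILetI false

open Polynomial

namespace Fermat.Agent.R38

section Val

variable {R L : Type*} [CommRing R] [Field L] [Algebra R L]

/-- a sum of two non-units of a valuation ring is a non-unit -/
theorem tres5kf_add_mem_nonunits (W : ValuationSubring L) {x y : L} (hx : x ∈ W.nonunits)
    (hy : y ∈ W.nonunits) : x + y ∈ W.nonunits := by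
  rw [ValuationSubring.mem_nonunits_iff] at hx hy ⊢
  exact lt_of_le_of_lt (Valuation.map_add _ _ _) (max_lt hx hy)

theorem tres5kf_neg_mem_nonunits (W : ValuationSubring L) {x : L} (hx : x ∈ W.nonunits) :
    -x ∈ W.nonunits := by
  rw [ValuationSubring.mem_nonunits_iff] at hx ⊢
  rwa [Valuation.map_neg]

theorem tres5kf_sub_mem_nonunits (W : ValuationSubring L) {x y : L} (hx : x ∈ W.nonunits)
    (hy : y ∈ W.nonunits) : x - y ∈ W.nonunits := by
  rw [sub_eq_add_neg]
  exact tres5kf_add_mem_nonunits W hx (tres5kf_neg_mem_nonunits W hy)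

/-- the product of a non-unit with an element of the valuation ring is a non-unit -/
theorem tres5kf_mul_mem_nonunits (W : ValuationSubring L) {x y : L} (hx : x ∈ W.nonunits)
    (hy : y ∈ W) : x * y ∈ W.nonunits := by
  rw [ValuationSubring.mem_nonunits_iff] at hx ⊢
  have h4 := (ValuationSubring.valuation_le_one_iff W _).mpr hy
  rw [map_mul]
  calc W.valuation x * W.valuation y ≤ W.valuation x * 1 := mul_le_mul' le_rfl h4
    _ < 1 := by rw [mul_one]; exact hx

/-- a non-unit is in the valuation ring -/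
theorem tres5kf_mem_of_nonunits (W : ValuationSubring L) {x : L} (hx : x ∈ W.nonunits) :
    x ∈ W := by
  rw [ValuationSubring.mem_nonunits_iff] at hx
  exact (ValuationSubring.valuation_le_one_iff W _).mp hx.le

/-- an element of `R` which is a non-unit of `W ⊇ R` is a non-unit of `R` -/
theorem tres5kf_not_isUnit (W : ValuationSubring L) (hRW : ∀ r : R, algebraMap R L r ∈ W)
    {r : R} (hr : algebraMap R L r ∈ W.nonunits) : ¬ IsUnit r := by
  rintro ⟨u, rfl⟩
  have h1 : algebraMap R L (u : R) * algebraMap R L ((u⁻¹ : Rˣ) : R) ∈ W.nonunits :=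
    tres5kf_mul_mem_nonunits W hr (hRW _)
  rw [← map_mul, Units.mul_inv, map_one, ValuationSubring.mem_nonunits_iff, map_one] at h1
  exact lt_irrefl _ h1

/-- values of a polynomial over `R` at two congruent points of `W` are congruent -/
theorem tres5kf_aeval_sub_mem (W : ValuationSubring L) (hRW : ∀ r : R, algebraMap R L r ∈ W)
    (Q : R[X]) {x y : L} (hx : x ∈ W) (hy : y ∈ W) (hxy : x - y ∈ W.nonunits) :
    aeval x Q - aeval y Q ∈ W.nonunits := by
  set f : R →+* ↥W := (algebraMap R L).codRestrict W.toSubring hRW with hf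
  have hcomp : (algebraMap ↥W L).comp f = algebraMap R L := by ext r; rfl
  have hev : ∀ w : ↥W, ((((Q.map f).eval w : ↥W)) : L) = aeval (w : L) Q := by
    intro w
    have h1 := Polynomial.hom_eval₂ Q f (algebraMap ↥W L) w
    rw [hcomp] at h1
    rw [Polynomial.eval_map, aeval_def]
    exact h1
  obtain ⟨w, hw⟩ := Polynomial.sub_dvd_eval_sub (⟨x, hx⟩ : ↥W) ⟨y, hy⟩ (Q.map f)
  have h2 : aeval x Q - aeval y Q = (x - y) * (w : L) := by
    have h3 : ((((Q.map f).eval (⟨x, hx⟩ : ↥W) : ↥W)) : L) -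
        ((((Q.map f).eval (⟨y, hy⟩ : ↥W) : ↥W)) : L) = (x - y) * (w : L) :=
      congrArg (fun t : ↥W => (t : L)) hw
    rw [hev, hev] at h3
    exact h3
  rw [h2]
  exact tres5kf_mul_mem_nonunits W hxy w.2

end Val

section Center

variable {R L : Type*} (F : Type*) [CommRing R] [IsDomain R] [Field F] [Field L]
  [Algebra R F] [IsFractionRing R F] [IsIntegrallyClosed R] [IsLocalRing R]
  [Algebra F L] [Algebra R L] [IsScalarTower R F L]
  {ι : Type*} [Fintype ι]

variable {F} {z : L} {P : R[X]} {c : ι → R}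

/-- **the sheet meets the section `z = r`**: `z ≡ r` modulo `𝔪_W` for some `r ∈ R`. -/
theorem tres5kf_exists_res (H : Tres5eSplit F z P c) (W : ValuationSubring L)
    (hRW : ∀ r : R, algebraMap R L r ∈ W)
    (hres : ∀ x ∈ W, ∃ a : F, x - algebraMap F L a ∈ W.nonunits)
    (hD : ∀ a : F, algebraMap F L a ∈ W →
      (∃ Q : R[X], Q.Monic ∧ algebraMap F L (aeval a Q) ∈ W.nonunits) →
        ∃ r : R, algebraMap F L (a - algebraMap R F r) ∈ W.nonunits) :
    ∃ r : R, z - algebraMap R L r ∈ W.nonunits := by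
  have hz : z ∈ W := H.mem_val W hRW (tres5eGen R z)
  obtain ⟨a, ha⟩ := hres z hz
  have haW : algebraMap F L a ∈ W := by
    have h1 : algebraMap F L a = z - (z - algebraMap F L a) := by ring
    rw [h1]
    exact W.sub_mem hz (tres5kf_mem_of_nonunits W ha)
  have hPa : algebraMap F L (aeval a P) ∈ W.nonunits := by
    have h1 := tres5kf_aeval_sub_mem W hRW P haW hz
      (by
        have h2 : algebraMap F L a - z = -(z - algebraMap F L a) := by ring
        rw [h2]
        exact tres5kf_neg_mem_nonunits W ha)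
    rw [H.root, sub_zero] at h1
    rwa [← Polynomial.aeval_algebraMap_apply]
  obtain ⟨r, hr⟩ := hD a haW ⟨P, H.monic, hPa⟩
  refine ⟨r, ?_⟩
  have h3 : z - algebraMap R L r =
      (z - algebraMap F L a) + algebraMap F L (a - algebraMap R F r) := by
    rw [map_sub, ← IsScalarTower.algebraMap_apply R F L]
    ring
  rw [h3]
  exact tres5kf_add_mem_nonunits W ha hr

/-- values in `R`: `Q(z) ∈ 𝔪_W ⇒ Q(r) ∈ 𝔫` when `z ≡ r` mod `𝔪_W`. -/
theorem tres5kf_eval_mem (H : Tres5eSplit F z P c) (W : ValuationSubring L)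
    (hRW : ∀ r : R, algebraMap R L r ∈ W) {r : R}
    (hr : z - algebraMap R L r ∈ W.nonunits) (Q : R[X])
    (hQ : aeval z Q ∈ W.nonunits) : Q.eval r ∈ IsLocalRing.maximalIdeal R := by
  have hz : z ∈ W := H.mem_val W hRW (tres5eGen R z)
  have h1 := tres5kf_aeval_sub_mem W hRW Q (hRW r) hz
    (by
      have h2 : algebraMap R L r - z = -(z - algebraMap R L r) := by ring
      rw [h2]
      exact tres5kf_neg_mem_nonunits W hr)
  have h2 : aeval (algebraMap R L r) Q ∈ W.nonunits := by
    have h3 : aeval (algebraMap R L r) Q = (aeval (algebraMap R L r) Q - aeval z Q) + aeval z Q := by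
      ring
    rw [h3]
    exact tres5kf_add_mem_nonunits W h1 hQ
  rw [Polynomial.aeval_algebraMap_apply, Polynomial.coe_aeval_eq_eval] at h2
  rw [IsLocalRing.mem_maximalIdeal, mem_nonunits_iff]
  exact tres5kf_not_isUnit W hRW h2

/-- **the centre**: if `z ≡ r` mod `𝔪_W`, then `r ≡ c i` mod `𝔫` for some `i` and the centre
`𝔪_W ∩ R[z]` of `W` lies in `(𝔫, z − c i)`. -/
theorem tres5kf_center (H : Tres5eSplit F z P c) (W : ValuationSubring L)
    (hRW : ∀ r : R, algebraMap R L r ∈ W) {r : R}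
    (hr : z - algebraMap R L r ∈ W.nonunits) :
    ∃ i, r - c i ∈ IsLocalRing.maximalIdeal R ∧
      ∀ b : ↥(Algebra.adjoin R ({z} : Set L)), (b : L) ∈ W.nonunits →
        b ∈ tres5eMax R z (c i) := by
  classical
  have hPr : P.eval r ∈ IsLocalRing.maximalIdeal R := by
    refine tres5kf_eval_mem H W hRW hr P ?_
    rw [H.root, ValuationSubring.mem_nonunits_iff, map_zero]
    exact zero_lt_one
  have hprod : ∏ i, (r - c i) ∈ IsLocalRing.maximalIdeal R := by
    have h1 := tres5e_eval_mem (IsLocalRing.maximalIdeal R) r _ H.red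
    rw [eval_sub, Polynomial.eval_prod] at h1
    have h2 : ∏ i, (r - c i) = P.eval r - (P.eval r - ∏ j, eval r (X - C (c j))) := by
      rw [sub_sub_cancel]
      refine Finset.prod_congr rfl fun i _ => ?_
      rw [eval_sub, eval_X, eval_C]
    rw [h2]
    exact Ideal.sub_mem _ hPr h1
  obtain ⟨i, -, hi⟩ := (Ideal.IsPrime.prod_mem_iff).mp hprod
  refine ⟨i, hi, fun b hb => ?_⟩
  obtain ⟨Q, rfl⟩ := tres5e_exists_aeval z b
  rw [tres5e_coe_aeval] at hb
  have hQr := tres5kf_eval_mem H W hRW hr Q hb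
  rw [tres5e_aeval_mem_max F H.isIntegral (c i) (H.eval_mem i)]
  obtain ⟨w, hw⟩ := Polynomial.sub_dvd_eval_sub r (c i) Q
  have h3 : Q.eval (c i) = Q.eval r - (r - c i) * w := by rw [← hw]; ring
  rw [h3]
  exact Ideal.sub_mem _ hQr (Ideal.mul_mem_right _ _ hi)

/-- the centre determines the point -/
theorem tres5kf_center_unique (H : Tres5eSplit F z P c) (W : ValuationSubring L)
    (_hRW : ∀ r : R, algebraMap R L r ∈ W) {r : R}
    (hr : z - algebraMap R L r ∈ W.nonunits) {i j : ι}
    (hi : ∀ b : ↥(Algebra.adjoin R ({z} : Set L)), (b : L) ∈ W.nonunits →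
        b ∈ tres5eMax R z (c i))
    (hj : ∀ b : ↥(Algebra.adjoin R ({z} : Set L)), (b : L) ∈ W.nonunits →
        b ∈ tres5eMax R z (c j)) : i = j := by
  by_contra hij
  have key : ∀ k, (∀ b : ↥(Algebra.adjoin R ({z} : Set L)), (b : L) ∈ W.nonunits →
      b ∈ tres5eMax R z (c k)) → c k - r ∈ IsLocalRing.maximalIdeal R := by
    intro k hk
    have h1 : aeval (tres5eGen R z) (X - C r) ∈ tres5eMax R z (c k) := by
      refine hk _ ?_
      rw [tres5e_coe_aeval, map_sub, aeval_X, aeval_C]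
      exact hr
    rw [tres5e_aeval_mem_max F H.isIntegral (c k) (H.eval_mem k), eval_sub, eval_X, eval_C] at h1
    exact h1
  have h1 : c i - c j ∈ IsLocalRing.maximalIdeal R := by
    have h2 : c i - c j = (c i - r) - (c j - r) := by ring
    rw [h2]
    exact Ideal.sub_mem _ (key i hi) (key j hj)
  exact (IsLocalRing.mem_maximalIdeal _).mp h1 (H.sep i j hij)

/-- **(FAC-FIX), centre.**  The sheet `W` passes through exactly ONE point above `𝔫`. -/
theorem tres5kf_existsUnique (H : Tres5eSplit F z P c) (W : ValuationSubring L)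
    (hRW : ∀ r : R, algebraMap R L r ∈ W)
    (hres : ∀ x ∈ W, ∃ a : F, x - algebraMap F L a ∈ W.nonunits)
    (hD : ∀ a : F, algebraMap F L a ∈ W →
      (∃ Q : R[X], Q.Monic ∧ algebraMap F L (aeval a Q) ∈ W.nonunits) →
        ∃ r : R, algebraMap F L (a - algebraMap R F r) ∈ W.nonunits) :
    ∃! i, ∀ b : ↥(Algebra.adjoin R ({z} : Set L)), (b : L) ∈ W.nonunits →
      b ∈ tres5eMax R z (c i) := by
  obtain ⟨r, hr⟩ := tres5kf_exists_res H W hRW hres hD
  obtain ⟨i, -, hi⟩ := tres5kf_center H W hRW hr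
  exact ⟨i, hi, fun j hj => tres5kf_center_unique H W hRW hr hj hi⟩

/-- **(FAC-FIX), fixed point.**  A group acting on `L`, preserving `R` and the sheet `W`, fixes
the point `(𝔫, z − c i₀)` through which `W` passes: the hypothesis `hG0` of `tres5kp_descend`. -/
theorem tres5kf_fixed {G : Type*} [Group G] [MulSemiringAction G L]
    (H : Tres5eSplit F z P c) (W : ValuationSubring L)
    (hRW : ∀ r : R, algebraMap R L r ∈ W)
    (hres : ∀ x ∈ W, ∃ a : F, x - algebraMap F L a ∈ W.nonunits)
    (hD : ∀ a : F, algebraMap F L a ∈ W →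
      (∃ Q : R[X], Q.Monic ∧ algebraMap F L (aeval a Q) ∈ W.nonunits) →
        ∃ r : R, algebraMap F L (a - algebraMap R F r) ∈ W.nonunits)
    (hGR : ∀ (g : G) (r : R), ∃ r' : R, g • algebraMap R L r = algebraMap R L r')
    (hGW : ∀ (g : G), ∀ x ∈ W, g • x ∈ W) :
    ∃ i₀, (∀ b : ↥(Algebra.adjoin R ({z} : Set L)), (b : L) ∈ W.nonunits →
        b ∈ tres5eMax R z (c i₀)) ∧
      ∀ (g : G) (b : ↥(Algebra.adjoin R ({z} : Set L))), b ∈ tres5eMax R z (c i₀) →
        ∃ b' ∈ tres5eMax R z (c i₀), (b' : L) = g • (b : L) := by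
  obtain ⟨r, hr⟩ := tres5kf_exists_res H W hRW hres hD
  obtain ⟨i, hri, hi⟩ := tres5kf_center H W hRW hr
  refine ⟨i, hi, fun g b hb => ?_⟩
  refine ⟨⟨g • (b : L), tres5kp_smul_mem H hGR g b.2⟩, ?_, rfl⟩
  -- `b ≡ ρ` modulo `𝔪_W`, `ρ = Q(r) ∈ 𝔫`
  obtain ⟨Q, hQ⟩ := tres5e_exists_aeval z b
  have hz : z ∈ W := H.mem_val W hRW (tres5eGen R z)
  have hbρ : (b : L) - algebraMap R L (Q.eval r) ∈ W.nonunits := by
    have h1 := tres5kf_aeval_sub_mem W hRW Q hz (hRW r) hr
    rw [Polynomial.aeval_algebraMap_apply, Polynomial.coe_aeval_eq_eval, ← tres5e_coe_aeval,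
      hQ] at h1
    exact h1
  have hρ : Q.eval r ∈ IsLocalRing.maximalIdeal R := by
    have h1 : aeval (tres5eGen R z) Q ∈ tres5eMax R z (c i) := by rw [hQ]; exact hb
    rw [tres5e_aeval_mem_max F H.isIntegral (c i) (H.eval_mem i)] at h1
    obtain ⟨w, hw⟩ := Polynomial.sub_dvd_eval_sub r (c i) Q
    have h3 : Q.eval r = Q.eval (c i) + (r - c i) * w := by rw [← hw]; ring
    rw [h3]
    exact Ideal.add_mem _ h1 (Ideal.mul_mem_right _ _ hri)
  -- apply `g`
  obtain ⟨ρ', hρ'⟩ := hGR g (Q.eval r)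
  have hρ'm : ρ' ∈ IsLocalRing.maximalIdeal R := by
    rw [IsLocalRing.mem_maximalIdeal, mem_nonunits_iff]
    rintro ⟨u, hu⟩
    obtain ⟨v, hv⟩ := hGR g⁻¹ ((u⁻¹ : Rˣ) : R)
    have hinj : Function.Injective (algebraMap R L) := tres5e_algebraMap_injective R F L
    have h1 : Q.eval r * v = 1 := by
      apply hinj
      rw [map_mul, map_one, ← hv]
      have h2 : algebraMap R L (Q.eval r) = g⁻¹ • algebraMap R L ρ' := by
        rw [← hρ', inv_smul_smul]
      rw [h2, ← smul_mul', ← map_mul, ← hu, Units.mul_inv, map_one, smul_one]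
    exact (IsLocalRing.mem_maximalIdeal _).mp hρ (IsUnit.of_mul_eq_one _ h1)
  have hsplit : (⟨g • (b : L), tres5kp_smul_mem H hGR g b.2⟩ :
      ↥(Algebra.adjoin R ({z} : Set L))) =
      (⟨g • (b : L), tres5kp_smul_mem H hGR g b.2⟩ - algebraMap R _ ρ') +
        algebraMap R _ ρ' := by ring
  rw [hsplit]
  refine Ideal.add_mem _ (hi _ ?_) ?_
  · have h1 : (((⟨g • (b : L), tres5kp_smul_mem H hGR g b.2⟩ :
        ↥(Algebra.adjoin R ({z} : Set L))) - algebraMap R _ ρ' :
        ↥(Algebra.adjoin R ({z} : Set L))) : L) =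
        g • ((b : L) - algebraMap R L (Q.eval r)) := by
      rw [smul_sub, hρ']
      rfl
    rw [h1]
    exact tres5k_smul_mem_nonunits W hGW g hbρ
  · exact (tres5e_algebraMap_mem_max F H.isIntegral (c i) (H.eval_mem i) ρ').2 hρ'm

end Center

section HD

open IsLocalRing

variable {R F L : Type*} [CommRing R] [IsDomain R] [IsLocalRing R] [IsNoetherianRing R]
  [Field F] [Field L] [Algebra R F] [IsFractionRing R F] [Algebra F L] [Algebra R L]
  [IsScalarTower R F L]

/-- an element of `W` which is not a non-unit has valuation one -/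
theorem tres5kf_val_eq_one (W : ValuationSubring L) {x : L} (hx : x ∈ W)
    (hx' : x ∉ W.nonunits) : W.valuation x = 1 := by
  rw [ValuationSubring.mem_nonunits_iff] at hx'
  exact le_antisymm ((ValuationSubring.valuation_le_one_iff W _).mpr hx) (not_lt.mp hx')

/-- cancel a unit of `W` -/
theorem tres5kf_nonunits_of_mul (W : ValuationSubring L) {x s : L} (hs : W.valuation s = 1)
    (h : x * s ∈ W.nonunits) : x ∈ W.nonunits := by
  rw [ValuationSubring.mem_nonunits_iff] at h ⊢
  rwa [map_mul, hs, mul_one] at h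

/-- `W ∩ F ⊆ R_(X)`: an element of `F` lying in `W` is a fraction `α / s` with `X ∤ s`. -/
theorem tres5kf_exists_frac (W : ValuationSubring L) (hRW : ∀ r : R, algebraMap R L r ∈ W)
    (X : R) (hX0 : X ≠ 0) (hXW : algebraMap R L X ∈ W.nonunits)
    (h𝔭 : ∀ r : R, algebraMap R L r ∈ W.nonunits → X ∣ r)
    (a : F) (ha : algebraMap F L a ∈ W) :
    ∃ α s : R, ¬ X ∣ s ∧ algebraMap F L a * algebraMap R L s = algebraMap R L α := by
  have hinj : Function.Injective (algebraMap R L) := tres5e_algebraMap_injective R F L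
  have hXu : ¬ IsUnit X := tres5kf_not_isUnit W hRW hXW
  obtain ⟨β, t, ht, hβt⟩ := IsFractionRing.div_surjective (A := R) a
  have ht0 : t ≠ 0 := nonZeroDivisors.ne_zero ht
  have htF : algebraMap R F t ≠ 0 := by
    rw [Ne, map_eq_zero_iff _ (IsFractionRing.injective R F)]
    exact ht0
  have hrel : algebraMap F L a * algebraMap R L t = algebraMap R L β := by
    rw [IsScalarTower.algebraMap_apply R F L, IsScalarTower.algebraMap_apply R F L, ← map_mul,
      ← hβt, div_mul_cancel₀ _ htF]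
  by_cases hβ0 : β = 0
  · refine ⟨0, 1, fun h => hXu (isUnit_of_dvd_one h), ?_⟩
    have ha0 : algebraMap F L a = 0 := by
      rw [hβ0, map_zero] at hrel
      rcases mul_eq_zero.1 hrel with h | h
      · exact h
      · exact absurd ((map_eq_zero_iff _ hinj).1 h) ht0
    rw [ha0, zero_mul, map_zero]
  obtain ⟨n, β', hβ', hβeq⟩ := WfDvdMonoid.max_power_factor' hβ0 hXu
  obtain ⟨m, t', ht', hteq⟩ := WfDvdMonoid.max_power_factor' ht0 hXu
  have hXL : algebraMap R L X ≠ 0 := by
    rw [Ne, map_eq_zero_iff _ hinj]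
    exact hX0
  have hrel2 : algebraMap F L a * (algebraMap R L X ^ m * algebraMap R L t') =
      algebraMap R L X ^ n * algebraMap R L β' := by
    rw [← map_pow, ← map_pow, ← map_mul, ← map_mul, ← hteq, ← hβeq]
    exact hrel
  rcases le_or_gt m n with hmn | hmn
  · refine ⟨X ^ (n - m) * β', t', ht', ?_⟩
    have hpow : algebraMap R L X ^ n = algebraMap R L X ^ m * algebraMap R L X ^ (n - m) := by
      rw [← pow_add, Nat.add_sub_cancel' hmn]
    have h1 : algebraMap R L X ^ m * (algebraMap F L a * algebraMap R L t') =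
        algebraMap R L X ^ m * algebraMap R L (X ^ (n - m) * β') := by
      rw [map_mul, map_pow]
      linear_combination hrel2 + algebraMap R L β' * hpow
    exact mul_left_cancel₀ (pow_ne_zero m hXL) h1
  · exfalso
    apply hβ'
    apply h𝔭
    have hpow : algebraMap R L X ^ m = algebraMap R L X ^ n * algebraMap R L X ^ (m - n) := by
      rw [← pow_add, Nat.add_sub_cancel' hmn.le]
    have h1 : algebraMap R L X ^ n * algebraMap R L β' =
        algebraMap R L X ^ n *
          (algebraMap R L X ^ (m - n) * (algebraMap F L a * algebraMap R L t')) := by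
      linear_combination -hrel2 + (algebraMap F L a * algebraMap R L t') * hpow
    have h2 := mul_left_cancel₀ (pow_ne_zero n hXL) h1
    rw [h2]
    have h3 : algebraMap R L X ^ (m - n) ∈ W.nonunits := by
      obtain ⟨d, hd⟩ : ∃ d, m - n = d + 1 := ⟨m - n - 1, by omega⟩
      rw [hd, pow_succ, mul_comm]
      exact tres5kf_mul_mem_nonunits W hXW (pow_mem (hRW X) d)
    exact tres5kf_mul_mem_nonunits W h3 (mul_mem ha (hRW t'))

/-- **(hD)** for a noetherian local domain with `𝔫 = (X, Y)`, `𝔪_W ∩ R = X R`, `Y ∉ 𝔪_W`: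
an element of `W ∩ F` which is integral over `R` modulo `𝔪_W` is congruent to an element of `R`
(`R / X R` is a discrete valuation ring with uniformizer `Y`). -/
theorem tres5kf_hD (W : ValuationSubring L) (hRW : ∀ r : R, algebraMap R L r ∈ W)
    (X Y : R) (hm : maximalIdeal R = Ideal.span {X, Y}) (hX0 : X ≠ 0)
    (hXW : algebraMap R L X ∈ W.nonunits) (hYW : algebraMap R L Y ∉ W.nonunits)
    (h𝔭 : ∀ r : R, algebraMap R L r ∈ W.nonunits → X ∣ r)
    (a : F) (ha : algebraMap F L a ∈ W)
    (hQ : ∃ Q : R[X], Q.Monic ∧ algebraMap F L (aeval a Q) ∈ W.nonunits) :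
    ∃ r : R, algebraMap F L (a - algebraMap R F r) ∈ W.nonunits := by
  classical
  obtain ⟨Q, hQm, hQa⟩ := hQ
  have hXm : X ∈ maximalIdeal R := by
    rw [hm]; exact Ideal.subset_span (by simp)
  have hYm : Y ∈ maximalIdeal R := by
    rw [hm]; exact Ideal.subset_span (by simp)
  have hdvdW : ∀ r : R, X ∣ r → algebraMap R L r ∈ W.nonunits := by
    rintro r ⟨w, rfl⟩
    rw [map_mul]
    exact tres5kf_mul_mem_nonunits W hXW (hRW w)
  have hvalY : W.valuation (algebraMap R L Y) = 1 := tres5kf_val_eq_one W (hRW Y) hYW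
  obtain ⟨α, s, hs, hrel⟩ := tres5kf_exists_frac W hRW X hX0 hXW h𝔭 a ha
  have hvals : W.valuation (algebraMap R L s) = 1 :=
    tres5kf_val_eq_one W (hRW s) (fun h => hs (h𝔭 s h))
  -- it suffices to find `r` with `X ∣ α - r s`
  have hsuff : ∀ r : R, X ∣ α - r * s →
      algebraMap F L (a - algebraMap R F r) ∈ W.nonunits := by
    intro r hr
    refine tres5kf_nonunits_of_mul W hvals ?_
    have h1 : algebraMap F L (a - algebraMap R F r) * algebraMap R L s =
        algebraMap R L (α - r * s) := by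
      rw [map_sub, sub_mul, hrel, ← IsScalarTower.algebraMap_apply R F L, map_sub, map_mul]
    rw [h1]
    exact hdvdW _ hr
  by_cases hα : X ∣ α
  · refine ⟨0, hsuff 0 ?_⟩
    rwa [zero_mul, sub_zero]
  obtain ⟨m, s₁, u, hu, hsu⟩ := tres5n_krull X Y hm hs
  obtain ⟨m', α₁, u', hu', hαu⟩ := tres5n_krull X Y hm hα
  obtain ⟨v, hv⟩ := hu.exists_right_inv
  rcases le_or_gt m m' with hmm | hmm
  · refine ⟨Y ^ (m' - m) * u' * v, hsuff _ ⟨α₁ - Y ^ (m' - m) * u' * v * s₁, ?_⟩⟩
    have h1 : Y ^ m' = Y ^ (m' - m) * Y ^ m := by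
      rw [← pow_add, Nat.sub_add_cancel hmm]
    have h2 : Y ^ (m' - m) * u' * v * (Y ^ m * u) = Y ^ m' * u' * (u * v) := by
      rw [h1]; ring
    calc α - Y ^ (m' - m) * u' * v * s
        = X * α₁ + Y ^ m' * u' - Y ^ (m' - m) * u' * v * (X * s₁ + Y ^ m * u) := by
          rw [← hαu, ← hsu]
      _ = X * α₁ + Y ^ m' * u' - Y ^ (m' - m) * u' * v * (X * s₁) -
            Y ^ (m' - m) * u' * v * (Y ^ m * u) := by ring
      _ = X * (α₁ - Y ^ (m' - m) * u' * v * s₁) := by rw [h2, hv]; ring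
  · -- `m' < m`: contradiction with the integrality
    exfalso
    set n := Q.natDegree with hn
    set σ : R := Y ^ (m - m') * u with hσ
    have hσm : σ ∈ maximalIdeal R := by
      obtain ⟨d, hd⟩ : ∃ d, m - m' = d + 1 := ⟨m - m' - 1, by omega⟩
      rw [hσ, hd, pow_succ]
      exact Ideal.mul_mem_right _ _ (Ideal.mul_mem_left _ _ hYm)
    have hsσ : s = X * s₁ + Y ^ m' * σ := by
      rw [hσ, ← mul_assoc, ← pow_add, Nat.add_sub_cancel' hmm.le]
      exact hsu
    -- the homogenised value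
    set E : R := ∑ i ∈ Finset.range (n + 1), Q.coeff i * α ^ i * s ^ (n - i) with hE
    have hEL : algebraMap R L E =
        algebraMap R L s ^ n * aeval (algebraMap F L a) Q := by
      rw [hE, map_sum, aeval_eq_sum_range, Finset.mul_sum]
      refine Finset.sum_congr rfl fun i hi => ?_
      have hi' : i ≤ n := Nat.lt_succ_iff.mp (Finset.mem_range.mp hi)
      rw [map_mul, map_mul, map_pow, map_pow, ← hrel, Algebra.smul_def, mul_pow]
      have h1 : algebraMap R L s ^ n = algebraMap R L s ^ i * algebraMap R L s ^ (n - i) := by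
        rw [← pow_add, Nat.add_sub_cancel' hi']
      rw [h1]
      ring
    have hEW : algebraMap R L E ∈ W.nonunits := by
      rw [hEL, mul_comm]
      refine tres5kf_mul_mem_nonunits W ?_ (pow_mem (hRW s) n)
      rwa [Polynomial.aeval_algebraMap_apply]
    have hXE : X ∣ E := h𝔭 E hEW
    -- `E ≡ Y ^ (n m') ε` modulo `X`
    set ε : R := ∑ i ∈ Finset.range (n + 1), Q.coeff i * u' ^ i * σ ^ (n - i) with hε
    have hcong : X ∣ E - Y ^ (n * m') * ε := by
      rw [hE, hε, Finset.mul_sum, ← Finset.sum_sub_distrib]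
      refine Finset.dvd_sum fun i hi => ?_
      have hi' : i ≤ n := Nat.lt_succ_iff.mp (Finset.mem_range.mp hi)
      have h1 : X ∣ α ^ i - (Y ^ m' * u') ^ i := by
        have := sub_dvd_pow_sub_pow α (Y ^ m' * u') i
        refine Dvd.dvd.trans ⟨α₁, ?_⟩ this
        rw [hαu]; ring
      have h2 : X ∣ s ^ (n - i) - (Y ^ m' * σ) ^ (n - i) := by
        have := sub_dvd_pow_sub_pow s (Y ^ m' * σ) (n - i)
        refine Dvd.dvd.trans ⟨s₁, ?_⟩ this
        rw [hsσ]; ring
      obtain ⟨w1, hw1⟩ := h1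
      obtain ⟨w2, hw2⟩ := h2
      have h3 : Y ^ (n * m') = (Y ^ m') ^ i * (Y ^ m') ^ (n - i) := by
        rw [← pow_add, Nat.add_sub_cancel' hi', ← pow_mul, mul_comm]
      refine ⟨Q.coeff i * (w1 * s ^ (n - i) + (Y ^ m' * u') ^ i * w2), ?_⟩
      have e1 : α ^ i = (Y ^ m' * u') ^ i + X * w1 := by rw [← hw1]; ring
      have e2 : s ^ (n - i) = (Y ^ m' * σ) ^ (n - i) + X * w2 := by rw [← hw2]; ring
      rw [h3]
      conv_lhs => rw [e1]
      conv_lhs => enter [1, 2]; rw [e2]
      rw [mul_pow, mul_pow]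
      ring_nf
      rw [e2]
      ring
    have hεu : IsUnit ε := by
      have h1 : ε = u' ^ n + ∑ i ∈ Finset.range n, Q.coeff i * u' ^ i * σ ^ (n - i) := by
        rw [hε, Finset.sum_range_succ, Nat.sub_self, pow_zero, mul_one, hn,
          hQm.coeff_natDegree, one_mul, add_comm]
      have h2 : ∑ i ∈ Finset.range n, Q.coeff i * u' ^ i * σ ^ (n - i) ∈ maximalIdeal R := by
        refine Ideal.sum_mem _ fun i hi => ?_
        have hi' : i < n := Finset.mem_range.mp hi
        obtain ⟨d, hd⟩ : ∃ d, n - i = d + 1 := ⟨n - i - 1, by omega⟩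
        rw [hd, pow_succ]
        exact Ideal.mul_mem_left _ _ (Ideal.mul_mem_left _ _ hσm)
      by_contra hne
      have h3 : ε ∈ maximalIdeal R := (mem_maximalIdeal ε).2 hne
      have h4 : u' ^ n ∈ maximalIdeal R := by
        have : u' ^ n = ε - ∑ i ∈ Finset.range n, Q.coeff i * u' ^ i * σ ^ (n - i) := by
          rw [h1]; ring
        rw [this]
        exact Ideal.sub_mem _ h3 h2
      exact (mem_maximalIdeal _).1 h4 (hu'.pow n)
    have hXY : X ∣ Y ^ (n * m') := by
      have h1 : X ∣ Y ^ (n * m') * ε := by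
        have h2 : Y ^ (n * m') * ε = E - (E - Y ^ (n * m') * ε) := by ring
        rw [h2]
        exact dvd_sub hXE hcong
      obtain ⟨w, hw⟩ := hεu.exists_right_inv
      obtain ⟨x, hx⟩ := h1
      refine ⟨x * w, ?_⟩
      calc Y ^ (n * m') = Y ^ (n * m') * (ε * w) := by rw [hw, mul_one]
        _ = Y ^ (n * m') * ε * w := by ring
        _ = X * (x * w) := by rw [hx]; ring
    have h5 := hdvdW _ hXY
    rw [ValuationSubring.mem_nonunits_iff, map_pow, map_pow, hvalY, one_pow] at h5
    exact lt_irrefl _ h5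

end HD

end Fermat.Agent.R38
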