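import Fermat.Agent.R38.TresPts

/-!
# Row 38, TRES, K-FORM (B) instance, leaf (B-pts) (helper47): lying over for the charts

Frame of FAC-PTS (`R38/TresPts.lean`, section `Chart`) and of helper48's `tres5ki_point`
(`R38/TresKFormInst.lean`, Layer 2): `A_K ⊆ A_E` discrete valuation rings, `A_E` integral over
`A_K`, `F_K ⊆ F_E` the function fields, `t ∈ F_K`, charts `B_K = zchClosure {t} ⊆ F_K`,
`B_E = zchClosure {t} ⊆ F_E`.

* `tres5kqChart`           : the transition map `B_K → B_E` (own copy of `tres5kiChart`);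
* `tres5kq_isIntegral_adjoin` : `y ∈ F_E` integral over `A_E[u]` is integral over `A_K[u]`;
* `tres5kqChart_isIntegral` : `B_E` is integral over `B_K`;
* `tres5kq_pi_mem`         : a prime of `B_E` containing the image of `π_K` contains `π_E`;
* `tres5kq_exists_comap`   : **lying over**: every closed point `𝔫K` of the `K`-chart is the
  contraction of a closed point `𝔫E` of the `E`-chart;
* `tres5kq_exists`         : the same in the EXACT shape `h𝔫K` of `tres5p_atLoc_hRK` /
  `tres5ki_point`;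
* `tres5kq_exists_iff`     : with `bK ∈ 𝔫K ↔ b ∈ 𝔫E`;
* `tres5kq_exists_comap_ge`, `tres5kq_exists_through'`, `tres5kq_exists_through` : **going-up
  with a base ideal** (helper92's ruling): `𝔫E` over `𝔫K` ON the component `V_E`
  (`atThrough 𝔫E V_E`);
* `tres5kq_loc_le`         : `atLoc 𝔫E ⊆ V_E` for a point on `V_E`;
* `tres5kq_stable`         : (bonus) `hG𝔫` from triviality mod `π_E`.
-/

set_option autoImplicit false
set_option linter.unusedSectionVars false
set_option linter.unusedVariables false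
set_option linter.style.haveILetI false
set_option linter.style.longLine false

noncomputable section

namespace Fermat.Agent.R38

open Fermat.Agent.UNIP Fermat.Agent.INJ

section Adjoin

variable {AK AE FE : Type*} [CommRing AK] [CommRing AE] [Field FE]
  [Algebra AK AE] [Algebra AE FE] [Algebra AK FE] [IsScalarTower AK AE FE]

/-- `y ∈ F_E` integral over `A_E[u]` is integral over `A_K[u]` (`A_E` integral over `A_K`). -/
theorem tres5kq_isIntegral_adjoin [Algebra.IsIntegral AK AE] (u y : FE)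
    (hy : IsIntegral (Algebra.adjoin AE ({u} : Set FE)) y) :
    IsIntegral (Algebra.adjoin AK ({u} : Set FE)) y := by
  classical
  have hC : ∀ z ∈ Algebra.adjoin AE ({u} : Set FE),
      z ∈ integralClosure (Algebra.adjoin AK ({u} : Set FE)) FE :=
    fun z hz => tres5p_adjoin_isIntegral (AK := AK) u z hz
  obtain ⟨q, hq, hqx⟩ := hy
  let f : ↥(Algebra.adjoin AE ({u} : Set FE)) →+*
      ↥(integralClosure (Algebra.adjoin AK ({u} : Set FE)) FE) :=
    { toFun := fun b => ⟨b.1, hC b.1 b.2⟩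
      map_one' := rfl
      map_mul' := fun _ _ => rfl
      map_zero' := rfl
      map_add' := fun _ _ => rfl }
  have h2 : IsIntegral ↥(integralClosure (Algebra.adjoin AK ({u} : Set FE)) FE) y := by
    refine ⟨q.map f, hq.map f, ?_⟩
    rw [Polynomial.eval₂_map]
    exact hqx
  exact isIntegral_trans _ h2

end Adjoin

section Pts

variable {AE EE FE : Type*} [CommRing AE] [IsDomain AE] [IsDiscreteValuationRing AE]
  [Field EE] [Algebra AE EE] [IsFractionRing AE EE] [CharZero EE]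
  [Field FE] [Algebra EE FE] [Algebra AE FE] [IsScalarTower AE EE FE]
  {AK EK FK : Type*} [CommRing AK] [IsDomain AK] [IsDiscreteValuationRing AK]
  [Field EK] [Algebra AK EK] [IsFractionRing AK EK] [CharZero EK]
  [Field FK] [Algebra EK FK] [Algebra AK FK] [IsScalarTower AK EK FK]
  [Algebra AK AE] [Algebra FK FE] [Algebra AK FE]
  [IsScalarTower AK AE FE] [IsScalarTower AK FK FE]

/-- the transition map `B_K → B_E` of the charts -/
def tres5kqChart (t : FK) :
    ↥(zchClosure (A₀ := AK) ({t} : Set FK)) →+*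
      ↥(zchClosure (A₀ := AE) ({algebraMap FK FE t} : Set FE)) where
  toFun b := ⟨algebraMap FK FE (b : FK), tres5p_zch_le (AK := AK) (AE := AE) t (b : FK) b.2⟩
  map_one' := Subtype.ext (by simp)
  map_mul' a b := Subtype.ext (by simp)
  map_zero' := Subtype.ext (by simp)
  map_add' a b := Subtype.ext (by simp)

theorem tres5kqChart_coe (t : FK) (b : ↥(zchClosure (A₀ := AK) ({t} : Set FK))) :
    ((tres5kqChart (AK := AK) (AE := AE) (FE := FE) t b :
      ↥(zchClosure (A₀ := AE) ({algebraMap FK FE t} : Set FE))) : FE) =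
      algebraMap FK FE (b : FK) := rfl

theorem tres5kqChart_injective (t : FK) :
    Function.Injective (tres5kqChart (AK := AK) (AE := AE) (FE := FE) t) := by
  intro a b hab
  have h1 : algebraMap FK FE (a : FK) = algebraMap FK FE (b : FK) := congrArg Subtype.val hab
  exact Subtype.ext ((algebraMap FK FE).injective h1)

/-- the transition map is compatible with the constants -/
theorem tres5kqChart_algebraMap (t : FK) (a : AK) :
    tres5kqChart (AK := AK) (AE := AE) (FE := FE) t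
        (algebraMap AK ↥(zchClosure (A₀ := AK) ({t} : Set FK)) a) =
      algebraMap AE ↥(zchClosure (A₀ := AE) ({algebraMap FK FE t} : Set FE))
        (algebraMap AK AE a) := by
  apply Subtype.ext
  show algebraMap FK FE (algebraMap AK FK a) = algebraMap AE FE (algebraMap AK AE a)
  rw [← IsScalarTower.algebraMap_apply AK FK FE, ← IsScalarTower.algebraMap_apply AK AE FE]

/-- **`B_E` is integral over `B_K`.** -/
theorem tres5kqChart_isIntegral [Algebra.IsIntegral AK AE] (t : FK) :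
    (tres5kqChart (AK := AK) (AE := AE) (FE := FE) t).IsIntegral := by
  classical
  intro b
  -- Step 1: `b` is integral over `A_K[t] ⊆ FE`
  have h1 : IsIntegral (Algebra.adjoin AK ({algebraMap FK FE t} : Set FE)) (b : FE) :=
    tres5kq_isIntegral_adjoin (AK := AK) (AE := AE) (algebraMap FK FE t) (b : FE)
      (mem_zchClosure.1 b.2)
  obtain ⟨q, hq, hqx⟩ := h1
  -- Step 2: lift the equation to `A_K[t] ⊆ FK`
  let ψ : FK →ₐ[AK] FE := IsScalarTower.toAlgHom AK FK FE
  have hmap : (Algebra.adjoin AK ({t} : Set FK)).map ψ =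
      Algebra.adjoin AK ({algebraMap FK FE t} : Set FE) := by
    rw [AlgHom.map_adjoin, Set.image_singleton]
    rfl
  have hmem : ∀ x : ↥(Algebra.adjoin AK ({t} : Set FK)),
      ψ x.1 ∈ Algebra.adjoin AK ({algebraMap FK FE t} : Set FE) := by
    intro x
    rw [← hmap]
    exact ⟨x.1, x.2, rfl⟩
  let h : ↥(Algebra.adjoin AK ({t} : Set FK)) →+*
      ↥(Algebra.adjoin AK ({algebraMap FK FE t} : Set FE)) :=
    { toFun := fun x => ⟨ψ x.1, hmem x⟩
      map_one' := Subtype.ext (map_one ψ)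
      map_mul' := fun a b => Subtype.ext (map_mul ψ a.1 b.1)
      map_zero' := Subtype.ext (map_zero ψ)
      map_add' := fun a b => Subtype.ext (map_add ψ a.1 b.1) }
  have hsurj : Function.Surjective h := by
    rintro ⟨y, hy⟩
    rw [← hmap] at hy
    obtain ⟨x, hx, hxy⟩ := hy
    exact ⟨⟨x, hx⟩, Subtype.ext hxy⟩
  obtain ⟨q', hq'⟩ := Polynomial.map_surjective h hsurj q
  obtain ⟨q'', hq''map, -, hq''monic⟩ :=
    Polynomial.lifts_and_natDegree_eq_and_monic ((Polynomial.mem_lifts q).2 ⟨q', hq'⟩) hq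
  -- Step 3: `A_K[t] ⊆ B_K`
  let ι : ↥(Algebra.adjoin AK ({t} : Set FK)) →+* ↥(zchClosure (A₀ := AK) ({t} : Set FK)) :=
    { toFun := fun x => ⟨x.1, mem_zchClosure.2
        (isIntegral_algebraMap (R := ↥(Algebra.adjoin AK ({t} : Set FK))) (A := FK) (x := x))⟩
      map_one' := rfl
      map_mul' := fun _ _ => rfl
      map_zero' := rfl
      map_add' := fun _ _ => rfl }
  refine ⟨q''.map ι, hq''monic.map ι, ?_⟩
  rw [Polynomial.eval₂_map]
  apply Subtype.val_injective
  have hval : ∀ x : ↥(zchClosure (A₀ := AE) ({algebraMap FK FE t} : Set FE)),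
      (x : FE) = algebraMap ↥(zchClosure (A₀ := AE) ({algebraMap FK FE t} : Set FE)) FE x :=
    fun _ => rfl
  rw [hval, Polynomial.hom_eval₂, ← hval]
  have hcomp : (algebraMap ↥(zchClosure (A₀ := AE) ({algebraMap FK FE t} : Set FE)) FE).comp
        ((tres5kqChart (AK := AK) (AE := AE) (FE := FE) t).comp ι) =
      (algebraMap ↥(Algebra.adjoin AK ({algebraMap FK FE t} : Set FE)) FE).comp h := by
    ext x
    rfl
  rw [hcomp, ← Polynomial.eval₂_map, hq''map]
  exact hqx

/-- a prime of `B_E` containing the image of `π_K` contains `π_E` -/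
theorem tres5kq_pi_mem {u : FE} {πE : AE} (hπE : Irreducible πE) {a : AE} (ha : a ≠ 0)
    (Q : Ideal ↥(zchClosure (A₀ := AE) ({u} : Set FE))) [hQ : Q.IsPrime]
    (haQ : algebraMap AE ↥(zchClosure (A₀ := AE) ({u} : Set FE)) a ∈ Q) :
    algebraMap AE ↥(zchClosure (A₀ := AE) ({u} : Set FE)) πE ∈ Q := by
  -- `a = πE ^ n * unit`
  obtain ⟨n, w, hw⟩ := IsDiscreteValuationRing.eq_unit_mul_pow_irreducible ha hπE
  have h1 : algebraMap AE ↥(zchClosure (A₀ := AE) ({u} : Set FE)) πE ^ n ∈ Q := by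
    have h2 : algebraMap AE ↥(zchClosure (A₀ := AE) ({u} : Set FE)) ((w⁻¹ : AEˣ) : AE) *
        algebraMap AE ↥(zchClosure (A₀ := AE) ({u} : Set FE)) a ∈ Q := Q.mul_mem_left _ haQ
    rw [← map_mul, hw, ← mul_assoc, Units.inv_mul, one_mul, map_pow] at h2
    exact h2
  exact hQ.mem_of_pow_mem n h1

variable {t : FK} {πE : AE} {πK : AK}

/-- **(B-pts), lying over.**  Every closed point `𝔫K` of the `K`-chart is the contraction of a
closed point `𝔫E` of the `E`-chart. -/
theorem tres5kq_exists_comap [Algebra.IsIntegral AK AE] (hπE : Irreducible πE)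
    (hπK : algebraMap AK AE πK ≠ 0) (𝔫K : AtPt (F := FK) πK t) :
    ∃ 𝔫E : AtPt (F := FE) πE (algebraMap FK FE t),
      Ideal.comap (tres5kqChart (AK := AK) (AE := AE) (FE := FE) t) 𝔫E.1 = 𝔫K.1 := by
  classical
  letI : Algebra ↥(zchClosure (A₀ := AK) ({t} : Set FK))
      ↥(zchClosure (A₀ := AE) ({algebraMap FK FE t} : Set FE)) :=
    (tres5kqChart (AK := AK) (AE := AE) (FE := FE) t).toAlgebra
  haveI : Algebra.IsIntegral ↥(zchClosure (A₀ := AK) ({t} : Set FK))
      ↥(zchClosure (A₀ := AE) ({algebraMap FK FE t} : Set FE)) :=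
    ⟨tres5kqChart_isIntegral (AK := AK) (AE := AE) (FE := FE) t⟩
  haveI := 𝔫K.2.1
  have hker : RingHom.ker (algebraMap ↥(zchClosure (A₀ := AK) ({t} : Set FK))
      ↥(zchClosure (A₀ := AE) ({algebraMap FK FE t} : Set FE))) ≤ 𝔫K.1 := by
    intro x hx
    rw [RingHom.mem_ker] at hx
    have hx0 : x = 0 :=
      tres5kqChart_injective (AK := AK) (AE := AE) (FE := FE) t (hx.trans (map_zero _).symm)
    rw [hx0]
    exact 𝔫K.1.zero_mem
  obtain ⟨Q, hQmax, hQ⟩ := Ideal.exists_ideal_over_maximal_of_isIntegral 𝔫K.1 hker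
  haveI := hQmax.isPrime
  have hπQ : algebraMap AE ↥(zchClosure (A₀ := AE) ({algebraMap FK FE t} : Set FE))
      (algebraMap AK AE πK) ∈ Q := by
    rw [← tres5kqChart_algebraMap (AK := AK) (AE := AE) (FE := FE) t πK]
    have h1 : algebraMap AK ↥(zchClosure (A₀ := AK) ({t} : Set FK)) πK ∈
        Q.comap (algebraMap ↥(zchClosure (A₀ := AK) ({t} : Set FK))
          ↥(zchClosure (A₀ := AE) ({algebraMap FK FE t} : Set FE))) := by
      rw [hQ]
      exact 𝔫K.2.2
    exact h1
  exact ⟨⟨Q, hQmax, tres5kq_pi_mem hπE hπK Q hπQ⟩, hQ⟩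

/-- **(B-pts), `h𝔫K`** in the EXACT shape of `tres5p_atLoc_hRK` / `tres5ki_point`. -/
theorem tres5kq_exists [Algebra.IsIntegral AK AE] (hπE : Irreducible πE)
    (hπK : algebraMap AK AE πK ≠ 0) (𝔫K : AtPt (F := FK) πK t) :
    ∃ 𝔫E : AtPt (F := FE) πE (algebraMap FK FE t),
      ∀ (bK : ↥(zchClosure (A₀ := AK) ({t} : Set FK)))
        (b : ↥(zchClosure (A₀ := AE) ({algebraMap FK FE t} : Set FE))),
        (b : FE) = algebraMap FK FE (bK : FK) → bK ∈ 𝔫K.1 → b ∈ 𝔫E.1 := by
  obtain ⟨𝔫E, h𝔫E⟩ := tres5kq_exists_comap (AE := AE) (FE := FE) hπE hπK 𝔫K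
  refine ⟨𝔫E, fun bK b hb hbK => ?_⟩
  have h1 : bK ∈ Ideal.comap (tres5kqChart (AK := AK) (AE := AE) (FE := FE) t) 𝔫E.1 := by
    rw [h𝔫E]
    exact hbK
  rw [Ideal.mem_comap] at h1
  have e : tres5kqChart (AK := AK) (AE := AE) (FE := FE) t bK = b := Subtype.ext hb.symm
  rw [e] at h1
  exact h1

/-- **(B-pts)**, with the equivalence `bK ∈ 𝔫K ↔ b ∈ 𝔫E`. -/
theorem tres5kq_exists_iff [Algebra.IsIntegral AK AE] (hπE : Irreducible πE)
    (hπK : algebraMap AK AE πK ≠ 0) (𝔫K : AtPt (F := FK) πK t) :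
    ∃ 𝔫E : AtPt (F := FE) πE (algebraMap FK FE t),
      ∀ (bK : ↥(zchClosure (A₀ := AK) ({t} : Set FK)))
        (b : ↥(zchClosure (A₀ := AE) ({algebraMap FK FE t} : Set FE))),
        (b : FE) = algebraMap FK FE (bK : FK) → (bK ∈ 𝔫K.1 ↔ b ∈ 𝔫E.1) := by
  obtain ⟨𝔫E, h𝔫E⟩ := tres5kq_exists_comap (AE := AE) (FE := FE) hπE hπK 𝔫K
  refine ⟨𝔫E, fun bK b hb => ?_⟩
  have e : tres5kqChart (AK := AK) (AE := AE) (FE := FE) t bK = b := Subtype.ext hb.symm
  rw [← h𝔫E, Ideal.mem_comap, e]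

/-! ### Going-up with a base ideal: the point `𝔫E` on a prescribed component -/

/-- non-units of a valuation ring and of its restriction -/
theorem tres5kq_nonunits_comap (VE : ValuationSubring FE) (x : FK)
    (hx : algebraMap FK FE x ∈ VE.nonunits) :
    x ∈ (VE.comap (algebraMap FK FE)).nonunits := by
  rw [ValuationSubring.mem_nonunits_iff]
  by_contra hcon
  rw [not_lt] at hcon
  have hx0 : x ≠ 0 := by
    rintro rfl
    rw [map_zero] at hcon
    exact absurd hcon (not_le.mpr zero_lt_one)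
  have hv0 : (VE.comap (algebraMap FK FE)).valuation x ≠ 0 :=
    (Valuation.ne_zero_iff _).2 hx0
  have h1 : (VE.comap (algebraMap FK FE)).valuation x⁻¹ ≤ 1 := by
    rw [map_inv₀]
    exact inv_le_one_of_one_le₀ hcon
  have h2 : x⁻¹ ∈ VE.comap (algebraMap FK FE) :=
    ((VE.comap (algebraMap FK FE)).valuation_le_one_iff _).1 h1
  rw [ValuationSubring.mem_comap, map_inv₀] at h2
  have h3 : VE.valuation (algebraMap FK FE x)⁻¹ ≤ 1 := (VE.valuation_le_one_iff _).2 h2
  have h4 : VE.valuation (algebraMap FK FE x) < 1 := (ValuationSubring.mem_nonunits_iff VE).1 hx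
  have hy0 : algebraMap FK FE x ≠ 0 := (map_ne_zero (algebraMap FK FE)).2 hx0
  have h5 : VE.valuation (algebraMap FK FE x) * VE.valuation (algebraMap FK FE x)⁻¹ = 1 := by
    rw [← map_mul, mul_inv_cancel₀ hy0, map_one]
  have h6 : VE.valuation (algebraMap FK FE x) * VE.valuation (algebraMap FK FE x)⁻¹ < 1 :=
    mul_lt_one_of_nonneg_of_lt_one_left zero_le h4 h3
  rw [h5] at h6
  exact lt_irrefl _ h6

/-- **(B-pts″), going-up with a base ideal, contraction form.**  `I` an ideal of `B_E` whose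
contraction to `B_K` lies in the closed point `𝔫K`: there is a closed point `𝔫E ⊇ I` of the
`E`-chart over `𝔫K`. -/
theorem tres5kq_exists_comap_ge [Algebra.IsIntegral AK AE] (hπE : Irreducible πE)
    (hπK : algebraMap AK AE πK ≠ 0) (𝔫K : AtPt (F := FK) πK t)
    (I : Ideal ↥(zchClosure (A₀ := AE) ({algebraMap FK FE t} : Set FE)))
    (hI : Ideal.comap (tres5kqChart (AK := AK) (AE := AE) (FE := FE) t) I ≤ 𝔫K.1) :
    ∃ 𝔫E : AtPt (F := FE) πE (algebraMap FK FE t), I ≤ 𝔫E.1 ∧
      Ideal.comap (tres5kqChart (AK := AK) (AE := AE) (FE := FE) t) 𝔫E.1 = 𝔫K.1 := by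
  classical
  letI : Algebra ↥(zchClosure (A₀ := AK) ({t} : Set FK))
      ↥(zchClosure (A₀ := AE) ({algebraMap FK FE t} : Set FE)) :=
    (tres5kqChart (AK := AK) (AE := AE) (FE := FE) t).toAlgebra
  haveI : Algebra.IsIntegral ↥(zchClosure (A₀ := AK) ({t} : Set FK))
      ↥(zchClosure (A₀ := AE) ({algebraMap FK FE t} : Set FE)) :=
    ⟨tres5kqChart_isIntegral (AK := AK) (AE := AE) (FE := FE) t⟩
  haveI := 𝔫K.2.1
  haveI := 𝔫K.2.1.isPrime
  obtain ⟨Q, hIQ, hQprime, hQ⟩ := Ideal.exists_ideal_over_prime_of_isIntegral 𝔫K.1 I hI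
  haveI := hQprime
  have hQmax : Q.IsMaximal :=
    Ideal.isMaximal_of_isIntegral_of_isMaximal_comap (R := ↥(zchClosure (A₀ := AK) ({t} : Set FK)))
      Q (by rw [hQ]; exact 𝔫K.2.1)
  have hπQ : algebraMap AE ↥(zchClosure (A₀ := AE) ({algebraMap FK FE t} : Set FE))
      (algebraMap AK AE πK) ∈ Q := by
    rw [← tres5kqChart_algebraMap (AK := AK) (AE := AE) (FE := FE) t πK]
    have h1 : algebraMap AK ↥(zchClosure (A₀ := AK) ({t} : Set FK)) πK ∈
        Q.comap (algebraMap ↥(zchClosure (A₀ := AK) ({t} : Set FK))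
          ↥(zchClosure (A₀ := AE) ({algebraMap FK FE t} : Set FE))) := by
      rw [hQ]
      exact 𝔫K.2.2
    exact h1
  exact ⟨⟨Q, hQmax, tres5kq_pi_mem hπE hπK Q hπQ⟩, hIQ, hQ⟩

/-- **(B-pts″), going-up with a base ideal** (helper92's ruling): a closed point `𝔫K` of the
`K`-chart on the component `V_K` lies under a closed point `𝔫E` of the `E`-chart ON the
component `V_E` (`V_E ∩ F_K = V_K`, weak form `hVV`).  Conclusion = `h𝔫K` in the EXACT shape of
`tres5p_atLoc_hRK` / `tres5ki_point`, and `atThrough 𝔫E V_E`. -/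
theorem tres5kq_exists_through' [Algebra.IsIntegral AK AE] (hπE : Irreducible πE)
    (hπK : algebraMap AK AE πK ≠ 0)
    (VE : ValuationSubring FE) (VK : ValuationSubring FK)
    (hBV : ∀ x : FE, IsIntegral (Algebra.adjoin AE ({algebraMap FK FE t} : Set FE)) x → x ∈ VE)
    (hVV : ∀ x : FK, algebraMap FK FE x ∈ VE.nonunits → x ∈ VK.nonunits)
    (𝔫K : AtPt (F := FK) πK t) (hthr : atThrough 𝔫K VK) :
    ∃ 𝔫E : AtPt (F := FE) πE (algebraMap FK FE t),
      (∀ (bK : ↥(zchClosure (A₀ := AK) ({t} : Set FK)))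
        (b : ↥(zchClosure (A₀ := AE) ({algebraMap FK FE t} : Set FE))),
        (b : FE) = algebraMap FK FE (bK : FK) → bK ∈ 𝔫K.1 → b ∈ 𝔫E.1) ∧
      atThrough 𝔫E VE := by
  have hI : Ideal.comap (tres5kqChart (AK := AK) (AE := AE) (FE := FE) t)
      (crossingIdeal (A₀ := AE) ({algebraMap FK FE t} : Set FE) VE hBV) ≤ 𝔫K.1 := by
    intro x hx
    rw [Ideal.mem_comap, mem_crossingIdeal] at hx
    exact hthr x (hVV (x : FK) hx)
  obtain ⟨𝔫E, hI𝔫, h𝔫E⟩ := tres5kq_exists_comap_ge (AE := AE) (FE := FE) hπE hπK 𝔫K _ hI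
  refine ⟨𝔫E, fun bK b hb hbK => ?_, fun b hb => hI𝔫 (mem_crossingIdeal.2 hb)⟩
  have h1 : bK ∈ Ideal.comap (tres5kqChart (AK := AK) (AE := AE) (FE := FE) t) 𝔫E.1 := by
    rw [h𝔫E]
    exact hbK
  rw [Ideal.mem_comap] at h1
  have e : tres5kqChart (AK := AK) (AE := AE) (FE := FE) t bK = b := Subtype.ext hb.symm
  rw [e] at h1
  exact h1

/-- **(B-pts″)** with `V_K = V_E ∩ F_K` in the shape of helper53's `tres5kiv_hVK`. -/
theorem tres5kq_exists_through [Algebra.IsIntegral AK AE] (hπE : Irreducible πE)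
    (hπK : algebraMap AK AE πK ≠ 0)
    (VE : ValuationSubring FE) (VK : ValuationSubring FK)
    (hBV : ∀ x : FE, IsIntegral (Algebra.adjoin AE ({algebraMap FK FE t} : Set FE)) x → x ∈ VE)
    (hVK : VK = VE.comap (algebraMap FK FE))
    (𝔫K : AtPt (F := FK) πK t) (hthr : atThrough 𝔫K VK) :
    ∃ 𝔫E : AtPt (F := FE) πE (algebraMap FK FE t),
      (∀ (bK : ↥(zchClosure (A₀ := AK) ({t} : Set FK)))
        (b : ↥(zchClosure (A₀ := AE) ({algebraMap FK FE t} : Set FE))),
        (b : FE) = algebraMap FK FE (bK : FK) → bK ∈ 𝔫K.1 → b ∈ 𝔫E.1) ∧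
      atThrough 𝔫E VE :=
  tres5kq_exists_through' hπE hπK VE VK hBV
    (fun x hx => by rw [hVK]; exact tres5kq_nonunits_comap VE x hx) 𝔫K hthr

/-- the local ring of a closed point on the component `V` lies in `V` -/
theorem tres5kq_loc_le {u : FE} (VE : ValuationSubring FE)
    (hBV : ∀ x : FE, IsIntegral (Algebra.adjoin AE ({u} : Set FE)) x → x ∈ VE)
    (𝔫E : AtPt (F := FE) πE u) (hthr : atThrough 𝔫E VE) {x : FE} (hx : x ∈ atLoc 𝔫E) :
    x ∈ VE := by
  obtain ⟨b, s, hs, hsx⟩ := hx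
  have hsx' : (s : FE) * x = (b : FE) := hsx
  have hsV : (s : FE) ∈ VE := hBV _ (mem_zchClosure.1 s.2)
  have hbV : (b : FE) ∈ VE := hBV _ (mem_zchClosure.1 b.2)
  have hsn : (s : FE) ∉ VE.nonunits := fun h => hs (hthr s h)
  rw [ValuationSubring.mem_nonunits_iff, not_lt] at hsn
  have hs1 : VE.valuation (s : FE) = 1 :=
    le_antisymm ((VE.valuation_le_one_iff _).2 hsV) hsn
  rw [← VE.valuation_le_one_iff]
  have h1 : VE.valuation ((s : FE) * x) ≤ 1 := by
    rw [hsx']
    exact (VE.valuation_le_one_iff _).2 hbV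
  rwa [map_mul, hs1, one_mul] at h1

end Pts

/-! ### (bonus) `hG𝔫` from triviality modulo `π_E` -/

section Stable

variable {G : Type*} [Group G] {L : Type*} [Field L] [MulSemiringAction G L]
  {AE EE FE : Type*} [CommRing AE] [IsDomain AE] [IsDiscreteValuationRing AE]
  [Field EE] [Algebra AE EE] [IsFractionRing AE EE] [CharZero EE]
  [Field FE] [Algebra EE FE] [Algebra AE FE] [IsScalarTower AE EE FE] [Algebra FE L]

/-- **`hG𝔫` from triviality mod `π_E`.**  If every `g ∈ G` moves every `b ∈ B_E` by an element of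
`π_E B_E`, every closed point of the special fibre of the chart is `G`-stable. -/
theorem tres5kq_stable {u : FE} {πE : AE} (𝔫E : AtPt (F := FE) πE u)
    (htriv : ∀ (g : G) (b : ↥(zchClosure (A₀ := AE) ({u} : Set FE))),
      ∃ c : ↥(zchClosure (A₀ := AE) ({u} : Set FE)),
        g • algebraMap FE L (b : FE) =
          algebraMap FE L ((b : FE) + algebraMap AE FE πE * (c : FE)))
    (g : G) (b b' : ↥(zchClosure (A₀ := AE) ({u} : Set FE)))
    (hbb' : g • algebraMap FE L (b : FE) = algebraMap FE L (b' : FE)) (hb : b ∈ 𝔫E.1) :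
    b' ∈ 𝔫E.1 := by
  obtain ⟨c, hc⟩ := htriv g b
  have h1 : (b' : FE) = (b : FE) + algebraMap AE FE πE * (c : FE) :=
    (algebraMap FE L).injective (hbb'.symm.trans hc)
  have h2 : b' = b + algebraMap AE ↥(zchClosure (A₀ := AE) ({u} : Set FE)) πE * c :=
    Subtype.ext h1
  rw [h2]
  exact 𝔫E.1.add_mem hb (𝔫E.1.mul_mem_right _ 𝔫E.2.2)

end Stable

end Fermat.Agent.R38
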