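/-
ROW 38, TRES, piece FAC-KFORM, the INSTANCE at closed points (helper48), layer 2c:
`hsplit` OF (I3) (`tres5npj_hfin`, `R38/TresNodePtConc.lean`) IN THE ABSTRACT CHART FRAME.

Frame of FAC-PTS / `tres5ki_point`: charts over `A_K ⊂ A_E`, `FK ⊂ FE`, `LK ⊂ L = L_E`, finite
group `G` on `L`.  Inputs:
* `VE`, `VK = VE ∩ FK` the vertical valuations (`V_∞`), `W₀` the GAUSS SHEET of `L` over `VE`,
  `G`-stable, `G` trivial on its residues (helper53's (A)-instance, helper24's FAC-GRED);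
* `hBig` : the split structure over the big field at every closed point of the `E`-chart on `VE`,
  with the deck congruences (FAC-BIG, helper16/helper26);
* the field-level inputs of helper29 (`hGF`, `hGA`, `hGt`, `hGLK`, `hfixL`, `hfixF`, `hρG`).
Output (`tres5ki_hsplit_abs`): at EVERY closed point `𝔫K` of the `K`-chart on `VK`, the cover
`LK / FK` has the split structure with roots `0, …, p − 1`, `[LK : FK] = p`, and one of the points
above `𝔫K` lies on the sheet `W₀ ∩ LK`.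

Route (helper92's ruling): going-up with base ideal (helper47 `tres5kq_exists_through`) ⇒ `𝔫E`;
composite (helper26 `tres5kd_atLoc`) ⇒ a `G`-stable `W ≤ W₀` dominating `(B_E)_{𝔫E}`;
`tres5ff_hGn`-type argument ⇒ `𝔫E` is `G`-stable; `tres5ki_point`.
-/
import Fermat.Agent.R38.TresKFormInst
import Fermat.Agent.R38.TresKFormDom
import Fermat.Agent.R38.TresKFormPts

set_option autoImplicit false
set_option linter.style.haveILetI false
set_option linter.unusedSectionVars false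

noncomputable section

namespace Fermat.Agent.R38

open Polynomial Fermat.Agent.UNIP Fermat.Agent.INJ Fermat.Agent.RIB.MP IntermediateField

section Stab

variable {G : Type*} [Group G] {L : Type*} [Field L] [MulSemiringAction G L]

/-- a group preserving a valuation ring preserves its maximal ideal -/
theorem tres5ki_nonunits_smul (W : ValuationSubring L)
    (hGW : ∀ (g : G), ∀ x ∈ W, g • x ∈ W) (g : G) {x : L} (hx : x ∈ W.nonunits) :
    g • x ∈ W.nonunits := by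
  rw [tres5_mem_nonunits_iff] at hx ⊢
  rcases hx with rfl | hx
  · exact Or.inl (smul_zero g)
  · refine Or.inr fun h => hx ?_
    have h2 : g⁻¹ • (g • x)⁻¹ ∈ W := hGW _ _ h
    rwa [smul_inv'', inv_smul_smul] at h2

variable {AE EE FE : Type*} [CommRing AE] [IsDomain AE] [IsDiscreteValuationRing AE]
  [Field EE] [Algebra AE EE] [IsFractionRing AE EE] [CharZero EE]
  [Field FE] [Algebra EE FE] [Algebra AE FE] [IsScalarTower AE EE FE] [Algebra FE L]

/-- **`hG𝔫`**: a closed point which is the centre of a `G`-stable valuation ring containing the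
chart is `G`-stable. -/
theorem tres5ki_stable {u : FE} {πE : AE} (𝔫E : AtPt (F := FE) πE u) (W : ValuationSubring L)
    (hWdom : ∀ x ∈ atLoc 𝔫E, algebraMap FE L x ∈ W)
    (hWmax : ∀ b : ↥(zchClosure (A₀ := AE) ({u} : Set FE)), b ∈ 𝔫E.1 →
      algebraMap FE L (b : FE) ∈ W.nonunits)
    (hGW : ∀ (g : G), ∀ x ∈ W, g • x ∈ W)
    (g : G) (b b' : ↥(zchClosure (A₀ := AE) ({u} : Set FE)))
    (hbb' : g • algebraMap FE L (b : FE) = algebraMap FE L (b' : FE)) (hb : b ∈ 𝔫E.1) :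
    b' ∈ 𝔫E.1 := by
  haveI := 𝔫E.2.1.isPrime
  by_contra hb'
  -- `b'` is a unit of the local ring, hence of `W`
  have hinv : (b' : FE)⁻¹ ∈ atLoc 𝔫E :=
    (ls_unit_mem_localSubring (F := FE) Subtype.val_injective 𝔫E.1
      (ε := (b' : FE)) (s := 1) (t := b')
      (fun h => 𝔫E.2.1.ne_top ((Ideal.eq_top_iff_one _).mpr h)) hb'
      (by
        show ((1 : ↥(zchClosure (A₀ := AE) ({u} : Set FE))) : FE) * (b' : FE) = (b' : FE)
        rw [OneMemClass.coe_one, one_mul])).2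
  have h1 : algebraMap FE L (b' : FE)⁻¹ ∈ W := hWdom _ hinv
  rw [map_inv₀] at h1
  have h2 : algebraMap FE L (b' : FE) ∈ W.nonunits := by
    rw [← hbb']
    exact tres5ki_nonunits_smul W hGW g (hWmax b hb)
  rw [tres5_mem_nonunits_iff] at h2
  rcases h2 with h0 | h2
  · apply hb'
    have : (b' : FE) = 0 := (map_eq_zero (algebraMap FE L)).1 h0
    have e : b' = 0 := Subtype.ext this
    rw [e]
    exact 𝔫E.1.zero_mem
  · exact h2 h1

end Stab

section Layer2c

variable {G : Type*} [Group G] [Finite G] {L : Type*} [Field L] [MulSemiringAction G L]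
  {AE EE FE : Type*} [CommRing AE] [IsDomain AE] [IsDiscreteValuationRing AE]
  [Field EE] [Algebra AE EE] [IsFractionRing AE EE] [CharZero EE]
  [Field FE] [Algebra EE FE] [Algebra AE FE] [IsScalarTower AE EE FE] [Algebra FE L]
  {AK EK FK : Type*} [CommRing AK] [IsDomain AK] [IsDiscreteValuationRing AK]
  [Field EK] [Algebra AK EK] [IsFractionRing AK EK] [CharZero EK]
  [Field FK] [Algebra EK FK] [Algebra AK FK] [IsScalarTower AK EK FK]
  [Algebra AK AE] [Algebra FK FE] [Algebra AK FE]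
  [IsScalarTower AK AE FE] [IsScalarTower AK FK FE]
  {t : FK} {πE : AE} {πK : AK}
  {LK : Type*} [Field LK] [Algebra FK LK] [Algebra LK L] [Algebra FK L]
  [IsScalarTower FK LK L] [IsScalarTower FK FE L]
  {p : ℕ} [hp : Fact p.Prime]

/-- **`hsplit`, abstract chart frame.**  At every closed point `𝔫K` of the `K`-chart on the
component `VK`, the cover `LK / FK` has the split structure with roots `0, …, p − 1`. -/
theorem tres5ki_hsplit_abs [Algebra.IsIntegral AK AE]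
    [FiniteDimensional EE⟮algebraMap FK FE t⟯ FE]
    (hπE : Irreducible πE) (hπK : algebraMap AK AE πK ≠ 0) (hpK : πK ∣ (p : AK))
    (VE : ValuationSubring FE) (VK : ValuationSubring FK)
    (hBV : ∀ x : FE, IsIntegral (Algebra.adjoin AE ({algebraMap FK FE t} : Set FE)) x → x ∈ VE)
    (hVK : VK = VE.comap (algebraMap FK FE))
    (W₀ : ValuationSubring L) (hW₀V : ∀ x ∈ VE, algebraMap FE L x ∈ W₀)
    (hGW₀ : ∀ (g : G), ∀ x ∈ W₀, g • x ∈ W₀)
    (hGsub : ∀ (g : G), ∀ x ∈ W₀, g • x - x ∈ W₀.nonunits)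
    (hGF : ∀ (g : G) (x : FE), ∃ x' : FE, g • algebraMap FE L x = algebraMap FE L x')
    (hGA : ∀ (g : G) (a : AE), ∃ a' : AE,
      g • algebraMap FE L (algebraMap AE FE a) = algebraMap FE L (algebraMap AE FE a'))
    (hGt : ∀ g : G, g • algebraMap FE L (algebraMap FK FE t) =
      algebraMap FE L (algebraMap FK FE t))
    (hGLK : ∀ (g : G) (y : LK), g • algebraMap LK L y = algebraMap LK L y)
    (hfixL : ∀ x : L, (∀ g : G, g • x = x) → ∃ y : LK, algebraMap LK L y = x)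
    (hfixF : ∀ x : FE, (∀ g : G, g • algebraMap FE L x = algebraMap FE L x) →
      ∃ y : FK, algebraMap FK FE y = x)
    (hfin : Module.finrank FE L = p)
    (ρ : L ≃ₐ[FE] L) (hρG : ∀ (g : G) x, ρ (g • x) = g • ρ x)
    (hBig : ∀ 𝔫E : AtPt (F := FE) πE (algebraMap FK FE t), atThrough 𝔫E VE →
      ∀ [IsLocalRing ↥(atLoc 𝔫E)] [IsFractionRing ↥(atLoc 𝔫E) FE]
        [IsIntegrallyClosed ↥(atLoc 𝔫E)] [Algebra ↥(atLoc 𝔫E) L]
        [IsScalarTower ↥(atLoc 𝔫E) FE L],
        ∃ (z : L) (P : (↥(atLoc 𝔫E))[X]) (c : ZMod p → ↥(atLoc 𝔫E)),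
          Tres5eSplit FE z P c ∧
          ∀ i : ZMod p, ∃ b ∈ tres5eMax ↥(atLoc 𝔫E) z (c i),
            ρ z = algebraMap ↥(atLoc 𝔫E) L (c (i + 1)) + (b : L))
    (𝔫K : AtPt (F := FK) πK t) (hthr : atThrough 𝔫K VK)
    [IsLocalRing ↥(atLoc 𝔫K)] [IsFractionRing ↥(atLoc 𝔫K) FK] [IsIntegrallyClosed ↥(atLoc 𝔫K)]
    [Algebra ↥(atLoc 𝔫K) LK] [IsScalarTower ↥(atLoc 𝔫K) FK LK] :
    ∃ (zK : LK) (PK : (↥(atLoc 𝔫K))[X]),
      Tres5eSplit FK zK PK (fun k : ZMod p => ((k.val : ℕ) : ↥(atLoc 𝔫K))) ∧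
      Module.finrank FK LK = p ∧
      ρ (algebraMap LK L zK) ≠ algebraMap LK L zK ∧
      ∃ k : ZMod p,
        ∀ (_ : (tres5eMax ↥(atLoc 𝔫K) zK ((k.val : ℕ) : ↥(atLoc 𝔫K))).IsPrime),
          ∀ x ∈ ls_localSubring (F := LK) (tres5eMax ↥(atLoc 𝔫K) zK ((k.val : ℕ) : ↥(atLoc 𝔫K))),
            algebraMap LK L x ∈ W₀ := by
  -- the point over the big field
  obtain ⟨𝔫E, h𝔫K, hthrE⟩ := tres5kq_exists_through (AE := AE) (FE := FE) hπE hπK VE VK hBV hVK
    𝔫K hthr
  haveI hlocE : IsLocalRing ↥(atLoc 𝔫E) := tres5bp_isLocalRing 𝔫E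
  haveI hfrE : IsFractionRing ↥(atLoc 𝔫E) FE :=
    tres5bp_isFractionRing (A₀ := AE) (E := EE) (algebraMap FK FE t) 𝔫E
  haveI hicE : IsIntegrallyClosed ↥(atLoc 𝔫E) :=
    tres5bp_isIntegrallyClosed (A₀ := AE) (E := EE) (algebraMap FK FE t) 𝔫E
  letI algE : Algebra ↥(atLoc 𝔫E) L := ((algebraMap FE L).comp (atLoc 𝔫E).subtype).toAlgebra
  haveI towE : IsScalarTower ↥(atLoc 𝔫E) FE L := IsScalarTower.of_algebraMap_eq fun _ => rfl
  obtain ⟨z, P, c, H, hρ⟩ := hBig 𝔫E hthrE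
  -- the Gauss sheet contains the local ring
  have hW₀ : ∀ x ∈ atLoc 𝔫E, algebraMap FE L x ∈ W₀ := fun x hx =>
    hW₀V x (tres5kq_loc_le VE hBV 𝔫E hthrE hx)
  -- a `G`-stable valuation ring dominating the local ring
  obtain ⟨W, hle, hWdom, hWmax, hGW⟩ := tres5kd_atLoc 𝔫E W₀ hGW₀ hGsub hW₀
  have hG𝔫 := tres5ki_stable 𝔫E W hWdom hWmax hGW
  obtain ⟨zK, PK, hT, hfinK, hρz, -, k, -, hk2⟩ :=
    tres5ki_point 𝔫E 𝔫K H hfin hpK hGF hGA hGt hGLK hfixL hfixF hG𝔫 h𝔫K W hWdom hWmax hGW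
      ρ hρG hρ
  exact ⟨zK, PK, hT, hfinK, hρz, k, fun h x hx => hle (hk2 h x hx)⟩

end Layer2c

end Fermat.Agent.R38

end
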