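/-
Row 38, PKG-TRES, MONO, piece DECK-K (helper14): the deck transformation on the K-FORM.

Frame of `R38/TresKFormPt.lean` (helper53): `H : Tres5eSplit F z P c` the split structure of the
cover at a closed point over a BIG field (`R`, `F = Frac R`, `L = F[z]`), `HK : Tres5eSplit FK zK
PK cK` its descent to `K` (`RK`, `FK`, `LK`, output of `tres5kp_descend`), with
`hz : zK ≡ cK i` modulo `𝔐 i = (𝔫, z − c i)` for every `i`.  `ρ` a deck transformation of `L / F`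
with `ρ z ≡ c (σ i)` modulo `𝔐 i`, inducing `ρK` on `LK`.

* `tresmzk_map_base`, `tresmzk_mem_adjoin` : `RK[zK] ⊆ R[z]` inside `L`;
* `tresmzk_comap_max` : `𝔐 i ∩ RK[zK] = (𝔫_K, zK − cK i)`;
* `tresmzk_step`  : **`ρK zK ≡ cK (σ i)` modulo `(𝔫_K, zK − cK i)`** — the hypothesis `hstep` of
  `tresmz_main_step` (R38/TresMonoZero.lean) over `K`;
* `tresmzk_main`, `tresmzk_main_zmod` (sheets indexed by `ZMod p`, `σ i = i + 1`) : MONO-0 over `K` from the big-field deck relation: for a thin node of `X` over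
  `K` (`𝔪_{RK} = (X, Y)`, `w ϖ = X Y`) and `ρK u = a · u · h ^ p`, `p ∣ ord_{V₀} a`, any two valuation
  rings `W`, `W′` of `LK` over the branch `V₀` have `p ∣ ord_{W′} u − ord_W u`.
-/
import Fermat.Agent.R38.TresMonoZero

set_option autoImplicit false
set_option linter.unusedSectionVars false
set_option linter.unusedVariables false
set_option linter.style.haveILetI false
set_option linter.style.longLine false

noncomputable section

namespace Fermat.Agent.R38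

open IsLocalRing Polynomial Fermat.Agent.UNIP

section DeckK

variable {R F L RK FK LK : Type*}
  [CommRing R] [IsDomain R] [Field F] [Field L] [Algebra R F] [IsFractionRing R F]
  [IsIntegrallyClosed R] [IsLocalRing R] [Algebra F L] [Algebra R L] [IsScalarTower R F L]
  [CommRing RK] [IsDomain RK] [Field FK] [Field LK] [Algebra RK FK] [IsFractionRing RK FK]
  [IsIntegrallyClosed RK] [IsLocalRing RK] [Algebra FK LK] [Algebra RK LK]
  [IsScalarTower RK FK LK]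
  [Algebra FK F] [Algebra LK L] [Algebra FK L] [IsScalarTower FK LK L] [IsScalarTower FK F L]
  {ι : Type*} [Fintype ι]

/-- the two structure maps `RK → L` agree. -/
theorem tresmzk_map_base (j₀ : RK →+* R)
    (hj₀ : ∀ r : RK, algebraMap R F (j₀ r) = algebraMap FK F (algebraMap RK FK r)) (r : RK) :
    algebraMap LK L (algebraMap RK LK r) = algebraMap R L (j₀ r) := by
  rw [IsScalarTower.algebraMap_apply RK FK LK, ← IsScalarTower.algebraMap_apply FK LK L,
    IsScalarTower.algebraMap_apply FK F L, ← hj₀, ← IsScalarTower.algebraMap_apply R F L]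

/-- `RK[zK] ⊆ R[z]` inside `L`. -/
theorem tresmzk_mem_adjoin {z : L} {P : R[X]} {c : ι → R} (H : Tres5eSplit F z P c)
    {zK : LK} {PK : RK[X]} {cK : ι → RK} (HK : Tres5eSplit FK zK PK cK) (j₀ : RK →+* R)
    (hj₀ : ∀ r : RK, algebraMap R F (j₀ r) = algebraMap FK F (algebraMap RK FK r))
    (b : ↥(Algebra.adjoin RK ({zK} : Set LK))) :
    algebraMap LK L (b : LK) ∈ Algebra.adjoin R ({z} : Set L) := by
  refine H.integral_mem ?_
  have hb : IsIntegral RK (b : LK) := tres5e_isIntegral_of_mem HK.isIntegral b.2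
  exact IsIntegral.map_of_comp_eq j₀ (algebraMap LK L)
    (by ext r; exact (tresmzk_map_base j₀ hj₀ r).symm) hb

/-- the ring homomorphism `RK[zK] → R[z]`. -/
def tresmzkInc {z : L} {P : R[X]} {c : ι → R} (H : Tres5eSplit F z P c)
    {zK : LK} {PK : RK[X]} {cK : ι → RK} (HK : Tres5eSplit FK zK PK cK) (j₀ : RK →+* R)
    (hj₀ : ∀ r : RK, algebraMap R F (j₀ r) = algebraMap FK F (algebraMap RK FK r)) :
    ↥(Algebra.adjoin RK ({zK} : Set LK)) →+* ↥(Algebra.adjoin R ({z} : Set L)) :=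
  ((algebraMap LK L).comp (Algebra.adjoin RK ({zK} : Set LK)).val.toRingHom).codRestrict
    (Algebra.adjoin R ({z} : Set L)).toSubring (fun b => tresmzk_mem_adjoin H HK j₀ hj₀ b)

theorem tresmzkInc_coe {z : L} {P : R[X]} {c : ι → R} (H : Tres5eSplit F z P c)
    {zK : LK} {PK : RK[X]} {cK : ι → RK} (HK : Tres5eSplit FK zK PK cK) (j₀ : RK →+* R)
    (hj₀ : ∀ r : RK, algebraMap R F (j₀ r) = algebraMap FK F (algebraMap RK FK r))
    (b : ↥(Algebra.adjoin RK ({zK} : Set LK))) :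
    ((tresmzkInc H HK j₀ hj₀ b : ↥(Algebra.adjoin R ({z} : Set L))) : L) =
      algebraMap LK L (b : LK) := rfl

/-- **`𝔐 i ∩ RK[zK] = (𝔫_K, zK − cK i)`.** -/
theorem tresmzk_comap_max {z : L} {P : R[X]} {c : ι → R} (H : Tres5eSplit F z P c)
    {zK : LK} {PK : RK[X]} {cK : ι → RK} (HK : Tres5eSplit FK zK PK cK) (j₀ : RK →+* R)
    (hj₀ : ∀ r : RK, algebraMap R F (j₀ r) = algebraMap FK F (algebraMap RK FK r))
    (hloc : ∀ r ∈ maximalIdeal RK, j₀ r ∈ maximalIdeal R)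
    (hz : ∀ i, ∃ b ∈ tres5eMax R z (c i),
      algebraMap LK L zK = algebraMap R L (j₀ (cK i)) + (b : L)) (i : ι) :
    Ideal.comap (tresmzkInc H HK j₀ hj₀) (tres5eMax R z (c i)) = tres5eMax RK zK (cK i) := by
  haveI := H.isPrime i
  have hne : Ideal.comap (tresmzkInc H HK j₀ hj₀) (tres5eMax R z (c i)) ≠ ⊤ :=
    (Ideal.comap_isPrime _ _).ne_top
  refine ((HK.isMaximal i).eq_of_le hne ?_).symm
  rw [tres5eMax, sup_le_iff]
  constructor
  · rw [Ideal.map_le_iff_le_comap]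
    intro r hr
    rw [Ideal.mem_comap, Ideal.mem_comap]
    have e : tresmzkInc H HK j₀ hj₀ (algebraMap RK _ r) = algebraMap R _ (j₀ r) := by
      apply Subtype.ext
      rw [tresmzkInc_coe]
      exact tresmzk_map_base j₀ hj₀ r
    rw [e]
    exact tres5e_map_le_max z (c i) (Ideal.mem_map_of_mem _ (hloc r hr))
  · rw [Ideal.span_le, Set.singleton_subset_iff, SetLike.mem_coe, Ideal.mem_comap]
    obtain ⟨b, hb, hzb⟩ := hz i
    have e : tresmzkInc H HK j₀ hj₀ (tres5eGen RK zK - algebraMap RK _ (cK i)) = b := by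
      apply Subtype.ext
      rw [tresmzkInc_coe]
      show algebraMap LK L (zK - algebraMap RK LK (cK i)) = (b : L)
      rw [map_sub, tresmzk_map_base j₀ hj₀, hzb]
      ring
    rw [e]
    exact hb

/-- **DECK-K**: `ρK zK ≡ cK (σ i)` modulo `(𝔫_K, zK − cK i)`. -/
theorem tresmzk_step {z : L} {P : R[X]} {c : ι → R} (H : Tres5eSplit F z P c)
    {zK : LK} {PK : RK[X]} {cK : ι → RK} (HK : Tres5eSplit FK zK PK cK) (j₀ : RK →+* R)
    (hj₀ : ∀ r : RK, algebraMap R F (j₀ r) = algebraMap FK F (algebraMap RK FK r))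
    (hloc : ∀ r ∈ maximalIdeal RK, j₀ r ∈ maximalIdeal R)
    (hz : ∀ i, ∃ b ∈ tres5eMax R z (c i),
      algebraMap LK L zK = algebraMap R L (j₀ (cK i)) + (b : L))
    (σ : ι → ι) (ρ : L ≃ₐ[F] L)
    (hρ : ∀ i, ∃ b ∈ tres5eMax R z (c i), ρ z = algebraMap R L (c (σ i)) + (b : L))
    (ρK : LK ≃ₐ[FK] LK) (hρK : ∀ y : LK, algebraMap LK L (ρK y) = ρ (algebraMap LK L y))
    (i : ι) :
    ∃ b ∈ tres5eMax RK zK (cK i), ρK zK = algebraMap RK LK (cK (σ i)) + (b : LK) := by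
  set β : ↥(Algebra.adjoin RK ({zK} : Set LK)) :=
    HK.mapAdj ρK (tres5eGen RK zK) - algebraMap RK _ (cK (σ i)) with hβ
  have hβL : (β : LK) = ρK zK - algebraMap RK LK (cK (σ i)) := rfl
  refine ⟨β, ?_, by rw [hβL]; ring⟩
  rw [← tresmzk_comap_max H HK j₀ hj₀ hloc hz i, Ideal.mem_comap]
  obtain ⟨b', hb', hzb'⟩ := hz (σ i)
  have e : tresmzkInc H HK j₀ hj₀ β = H.mapAdj ρ b' := by
    apply Subtype.ext
    rw [tresmzkInc_coe, Tres5eSplit.mapAdj_coe, hβL, map_sub, hρK, tresmzk_map_base j₀ hj₀, hzb',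
      map_add]
    have h1 : ρ (algebraMap R L (j₀ (cK (σ i)))) = algebraMap R L (j₀ (cK (σ i))) := by
      rw [IsScalarTower.algebraMap_apply R F L, AlgEquiv.commutes]
    rw [h1]
    ring
  rw [e]
  exact (H.deck_max i (σ i) ρ (hρ i) b').1 hb'

/-- **MONO-0 over `K`** from the big-field deck relation. -/
theorem tresmzk_main {z : L} {P : R[X]} {c : ι → R} (H : Tres5eSplit F z P c)
    {zK : LK} {PK : RK[X]} {cK : ι → RK} (HK : Tres5eSplit FK zK PK cK) (j₀ : RK →+* R)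
    (hj₀ : ∀ r : RK, algebraMap R F (j₀ r) = algebraMap FK F (algebraMap RK FK r))
    (hloc : ∀ r ∈ maximalIdeal RK, j₀ r ∈ maximalIdeal R)
    (hz : ∀ i, ∃ b ∈ tres5eMax R z (c i),
      algebraMap LK L zK = algebraMap R L (j₀ (cK i)) + (b : L))
    (σ : ι → ι) (hσ : ∀ i j : ι, ∃ n : ℕ, σ^[n] i = j) (ρ : L ≃ₐ[F] L)
    (hρ : ∀ i, ∃ b ∈ tres5eMax R z (c i), ρ z = algebraMap R L (c (σ i)) + (b : L))
    (ρK : LK ≃ₐ[FK] LK) (hρK : ∀ y : LK, algebraMap LK L (ρK y) = ρ (algebraMap LK L y))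
    [IsNoetherianRing RK] {X Y ϖ w : RK}
    (hmax : maximalIdeal RK = Ideal.span {X, Y}) (hX : Prime X) (hXY : ¬ X ∣ Y)
    (hw : IsUnit w) (hϖ : w * ϖ = X * Y)
    (V₀ : ValuationSubring FK) (hRV : ∀ r : RK, algebraMap RK FK r ∈ V₀)
    (hXV : algebraMap RK FK X ∈ V₀.nonunits) (hYV : algebraMap RK FK Y ∉ V₀.nonunits)
    (p : ℕ) {u h : LK} {a : FK} (hu : u ≠ 0) (ha : a ≠ 0) (hh : h ≠ 0)
    (hρu : ρK u = algebraMap FK LK a * u * h ^ p)
    (hVa : ∃ m : ℤ, V₀.valuation (a / algebraMap RK FK ϖ ^ m) = 1)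
    (hpa : (p : ℤ) ∣ tres5Ord V₀ (algebraMap RK FK ϖ) a)
    (W W' : ValuationSubring LK) (hW : W.comap (algebraMap FK LK) = V₀)
    (hW' : W'.comap (algebraMap FK LK) = V₀) :
    (p : ℤ) ∣ tres5Ord W' (algebraMap FK LK (algebraMap RK FK ϖ)) u -
      tres5Ord W (algebraMap FK LK (algebraMap RK FK ϖ)) u :=
  tresmz_main_step HK hmax hX hXY hw hϖ V₀ hRV hXV hYV p hu ha hh ρK hρu hVa hpa σ hσ
    (tresmzk_step H HK j₀ hj₀ hloc hz σ ρ hρ ρK hρK) W W' hW hW'

/-- the shift by `1` is transitive on `ZMod p`. -/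
theorem tresmzk_shift_trans (p : ℕ) [NeZero p] (i j : ZMod p) :
    ∃ n : ℕ, (fun k : ZMod p => k + 1)^[n] i = j := by
  have h : ∀ n : ℕ, (fun k : ZMod p => k + 1)^[n] i = i + n := by
    intro n
    induction n with
    | zero => simp
    | succ n ih => rw [Function.iterate_succ_apply', ih, Nat.cast_succ, add_assoc]
  refine ⟨(j - i).val, ?_⟩
  rw [h, ZMod.natCast_zmod_val]
  ring

/-- **MONO-0 over `K`**, in the shape of `tres5kp_descend` (sheets indexed by `ZMod p`,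
`ρ z ≡ c (i + 1)` modulo `𝔐 i`). -/
theorem tresmzk_main_zmod {p : ℕ} [hp : Fact p.Prime] {z : L} {P : R[X]} {c : ZMod p → R}
    (H : Tres5eSplit F z P c)
    {zK : LK} {PK : RK[X]} {cK : ZMod p → RK} (HK : Tres5eSplit FK zK PK cK) (j₀ : RK →+* R)
    (hj₀ : ∀ r : RK, algebraMap R F (j₀ r) = algebraMap FK F (algebraMap RK FK r))
    (hloc : ∀ r ∈ maximalIdeal RK, j₀ r ∈ maximalIdeal R)
    (hz : ∀ i, ∃ b ∈ tres5eMax R z (c i),
      algebraMap LK L zK = algebraMap R L (j₀ (cK i)) + (b : L))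
    (ρ : L ≃ₐ[F] L)
    (hρ : ∀ i : ZMod p, ∃ b ∈ tres5eMax R z (c i),
      ρ z = algebraMap R L (c (i + 1)) + (b : L))
    (ρK : LK ≃ₐ[FK] LK) (hρK : ∀ y : LK, algebraMap LK L (ρK y) = ρ (algebraMap LK L y))
    [IsNoetherianRing RK] {X Y ϖ w : RK}
    (hmax : maximalIdeal RK = Ideal.span {X, Y}) (hX : Prime X) (hXY : ¬ X ∣ Y)
    (hw : IsUnit w) (hϖ : w * ϖ = X * Y)
    (V₀ : ValuationSubring FK) (hRV : ∀ r : RK, algebraMap RK FK r ∈ V₀)
    (hXV : algebraMap RK FK X ∈ V₀.nonunits) (hYV : algebraMap RK FK Y ∉ V₀.nonunits)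
    (m : ℕ) {u h : LK} {a : FK} (hu : u ≠ 0) (ha : a ≠ 0) (hh : h ≠ 0)
    (hρu : ρK u = algebraMap FK LK a * u * h ^ m)
    (hVa : ∃ k : ℤ, V₀.valuation (a / algebraMap RK FK ϖ ^ k) = 1)
    (hpa : (m : ℤ) ∣ tres5Ord V₀ (algebraMap RK FK ϖ) a)
    (W W' : ValuationSubring LK) (hW : W.comap (algebraMap FK LK) = V₀)
    (hW' : W'.comap (algebraMap FK LK) = V₀) :
    (m : ℤ) ∣ tres5Ord W' (algebraMap FK LK (algebraMap RK FK ϖ)) u -
      tres5Ord W (algebraMap FK LK (algebraMap RK FK ϖ)) u :=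
  haveI : NeZero p := ⟨hp.out.ne_zero⟩
  tresmzk_main H HK j₀ hj₀ hloc hz (fun k : ZMod p => k + 1) (tresmzk_shift_trans p) ρ hρ ρK hρK
    hmax hX hXY hw hϖ V₀ hRV hXV hYV m hu ha hh hρu hVa hpa W W' hW hW'

end DeckK

end Fermat.Agent.R38

end
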