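/-
ROW 38, TRES, MONO-0 INSTANCE, leaf (L1) (helper64, for helper14's R38/TresMonoZeroInst.lean):
THE K-FORM AT A CLOSED POINT OF THE CHART, WITH THE STEP RELATION OF THE DESCENDED DECK MAP.

`tresmzi_point_step` = helper48's `tres5ki_point` (R38/TresKFormInst.lean, same binders) with one
more input, the descended deck transformation `ρK : LK ≃ₐ[FK] LK`
(`hρK : algebraMap LK L (ρK y) = ρ (algebraMap LK L y)`), and one more conclusion,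
the step relation of `ρK` at the closed point `𝔫K` of the `K`-chart:

  `∀ i : ZMod p, ∃ b ∈ tres5eMax ↥(atLoc 𝔫K) zK (i.val : ↥(atLoc 𝔫K)),
      ρK zK = algebraMap ↥(atLoc 𝔫K) LK ((i + 1).val : ↥(atLoc 𝔫K)) + b`

(= `hstep` of `tresmzi_node_abs` / `tresmz_main_step`), by helper14's `tresmzk_step`.

* `tresmzi_step_of_point` (POST-HOC form): from `H`, `hρ` at `𝔫E` and ANY `(zK, PK, HK, hz)` as
  output by `tres5ki_point` or `tres5kd_point`, and `ρK`, `hρK`: the step relation of `ρK`;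
* `tresmzi_step_of_point_hom` : the same for `ρK : LK →ₐ[FK] LK` (needs `[LK : FK] = p`);
* `tresmzi_point_step`, `tresmzi_point_step_hom` : `tres5ki_point` + the step relation.
-/
import Fermat.Agent.R38.TresKFormInst
import Fermat.Agent.R38.TresMonoZeroK

set_option autoImplicit false
set_option linter.style.haveILetI false
set_option linter.unusedSectionVars false
set_option linter.unusedVariables false
set_option linter.style.longLine false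

namespace Fermat.Agent.R38

open Polynomial Fermat.Agent.UNIP Fermat.Agent.INJ Fermat.Agent.RIB.MP

section PointStep

variable {G : Type*} [Group G] {L : Type*} [Field L] [MulSemiringAction G L]
  {AE EE FE : Type*} [CommRing AE] [IsDomain AE] [IsDiscreteValuationRing AE]
  [Field EE] [Algebra AE EE] [IsFractionRing AE EE] [CharZero EE]
  [Field FE] [Algebra EE FE] [Algebra AE FE] [IsScalarTower AE EE FE] [Algebra FE L]
  {AK EK FK : Type*} [CommRing AK] [IsDomain AK] [IsDiscreteValuationRing AK]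
  [Field EK] [Algebra AK EK] [IsFractionRing AK EK] [CharZero EK]
  [Field FK] [Algebra EK FK] [Algebra AK FK] [IsScalarTower AK EK FK]
  [Algebra AK AE] [Algebra FK FE] [Algebra AK FE]
  [IsScalarTower AK AE FE] [IsScalarTower AK FK FE]
  {t : FK} {πE : AE} {πK : AK}

variable [Finite G]
  {LK : Type*} [Field LK] [Algebra FK LK] [Algebra LK L] [Algebra FK L]
  [IsScalarTower FK LK L] [IsScalarTower FK FE L]
  {p : ℕ} [hp : Fact p.Prime]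

/-- **The step relation of the descended deck map, post-hoc form.**  `H`, `hρ` the split
structure and the step relation of `ρ` at the closed point `𝔫E` of the big chart; `(zK, PK, HK,
hz)` ANY output of `tres5ki_point` / `tres5kd_point` at the closed point `𝔫K` under `𝔫E`; `ρK`
induced by `ρ` on `LK`. -/
theorem tresmzi_step_of_point (𝔫E : AtPt (F := FE) πE (algebraMap FK FE t))
    (𝔫K : AtPt (F := FK) πK t)
    [IsLocalRing ↥(atLoc 𝔫E)] [IsFractionRing ↥(atLoc 𝔫E) FE] [IsIntegrallyClosed ↥(atLoc 𝔫E)]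
    [Algebra ↥(atLoc 𝔫E) L] [IsScalarTower ↥(atLoc 𝔫E) FE L]
    [IsLocalRing ↥(atLoc 𝔫K)] [IsFractionRing ↥(atLoc 𝔫K) FK] [IsIntegrallyClosed ↥(atLoc 𝔫K)]
    [Algebra ↥(atLoc 𝔫K) LK] [IsScalarTower ↥(atLoc 𝔫K) FK LK]
    [Algebra.IsIntegral AK AE]
    {z : L} {P : (↥(atLoc 𝔫E))[X]} {c : ZMod p → ↥(atLoc 𝔫E)}
    (H : Tres5eSplit FE z P c)
    (hGF : ∀ (g : G) (x : FE), ∃ x' : FE, g • algebraMap FE L x = algebraMap FE L x')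
    (hGA : ∀ (g : G) (a : AE), ∃ a' : AE,
      g • algebraMap FE L (algebraMap AE FE a) = algebraMap FE L (algebraMap AE FE a'))
    (hGt : ∀ g : G, g • algebraMap FE L (algebraMap FK FE t) =
      algebraMap FE L (algebraMap FK FE t))
    (hfixF : ∀ x : FE, (∀ g : G, g • algebraMap FE L x = algebraMap FE L x) →
      ∃ y : FK, algebraMap FK FE y = x)
    (hG𝔫 : ∀ (g : G) (b b' : ↥(zchClosure (A₀ := AE) ({algebraMap FK FE t} : Set FE))),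
      g • algebraMap FE L (b : FE) = algebraMap FE L (b' : FE) → b ∈ 𝔫E.1 → b' ∈ 𝔫E.1)
    (h𝔫K : ∀ (bK : ↥(zchClosure (A₀ := AK) ({t} : Set FK)))
      (b : ↥(zchClosure (A₀ := AE) ({algebraMap FK FE t} : Set FE))),
      (b : FE) = algebraMap FK FE (bK : FK) → bK ∈ 𝔫K.1 → b ∈ 𝔫E.1)
    (ρ : L ≃ₐ[FE] L)
    (hρ : ∀ i : ZMod p, ∃ b ∈ tres5eMax ↥(atLoc 𝔫E) z (c i),
      ρ z = algebraMap ↥(atLoc 𝔫E) L (c (i + 1)) + (b : L))
    {zK : LK} {PK : (↥(atLoc 𝔫K))[X]}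
    (HK : Tres5eSplit FK zK PK (fun k : ZMod p => ((k.val : ℕ) : ↥(atLoc 𝔫K))))
    (hz : ∀ i : ZMod p, ∃ b ∈ tres5eMax ↥(atLoc 𝔫E) z (c i),
      algebraMap LK L zK = ((i.val : ℕ) : L) + (b : L))
    (ρK : LK ≃ₐ[FK] LK) (hρK : ∀ y : LK, algebraMap LK L (ρK y) = ρ (algebraMap LK L y))
    (i : ZMod p) :
    ∃ b ∈ tres5eMax ↥(atLoc 𝔫K) zK ((i.val : ℕ) : ↥(atLoc 𝔫K)),
      ρK zK = algebraMap ↥(atLoc 𝔫K) LK (((i + 1).val : ℕ) : ↥(atLoc 𝔫K)) + (b : LK) := by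
  haveI := 𝔫E.2.1.isPrime
  haveI := 𝔫K.2.1.isPrime
  -- `j₀`
  let j₀ : ↥(atLoc 𝔫K) →+* ↥(atLoc 𝔫E) :=
    ((algebraMap FK FE).comp (atLoc 𝔫K).subtype).codRestrict (atLoc 𝔫E)
      (fun x => tres5ki_loc_le 𝔫E 𝔫K h𝔫K x.2)
  have hj₀ : ∀ r : ↥(atLoc 𝔫K), algebraMap ↥(atLoc 𝔫E) FE (j₀ r) =
      algebraMap FK FE (algebraMap ↥(atLoc 𝔫K) FK r) := fun r => rfl
  have hRK : ∀ (x : FK) (r : ↥(atLoc 𝔫E)), algebraMap ↥(atLoc 𝔫E) FE r = algebraMap FK FE x →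
      ∃ rK : ↥(atLoc 𝔫K), algebraMap ↥(atLoc 𝔫K) FK rK = x := by
    intro x r hrx
    have hx : algebraMap FK FE x ∈ atLoc 𝔫E := by
      rw [← hrx]
      exact r.2
    exact ⟨⟨x, tres5p_atLoc_hRK (G := G) (L := L) hGF hGA hfixF t hGt 𝔫E 𝔫K hG𝔫 h𝔫K x hx⟩, rfl⟩
  have hloc : ∀ r ∈ IsLocalRing.maximalIdeal ↥(atLoc 𝔫K),
      j₀ r ∈ IsLocalRing.maximalIdeal ↥(atLoc 𝔫E) := fun r hr =>
    tres5ki_j0_local j₀ hj₀ hRK hr
  have hz' : ∀ i : ZMod p, ∃ b ∈ tres5eMax ↥(atLoc 𝔫E) z (c i),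
      algebraMap LK L zK =
        algebraMap ↥(atLoc 𝔫E) L (j₀ (((i.val : ℕ) : ↥(atLoc 𝔫K)))) + (b : L) := by
    intro i
    obtain ⟨b, hb, hzb⟩ := hz i
    refine ⟨b, hb, ?_⟩
    rw [hzb, map_natCast, map_natCast]
  exact tresmzk_step H HK j₀ hj₀ hloc hz' (fun k : ZMod p => k + 1) ρ hρ ρK hρK i

/-- the post-hoc form for `ρK` an algebra HOMOMORPHISM (`[LK : FK] = p` makes it bijective) -/
theorem tresmzi_step_of_point_hom (𝔫E : AtPt (F := FE) πE (algebraMap FK FE t))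
    (𝔫K : AtPt (F := FK) πK t)
    [IsLocalRing ↥(atLoc 𝔫E)] [IsFractionRing ↥(atLoc 𝔫E) FE] [IsIntegrallyClosed ↥(atLoc 𝔫E)]
    [Algebra ↥(atLoc 𝔫E) L] [IsScalarTower ↥(atLoc 𝔫E) FE L]
    [IsLocalRing ↥(atLoc 𝔫K)] [IsFractionRing ↥(atLoc 𝔫K) FK] [IsIntegrallyClosed ↥(atLoc 𝔫K)]
    [Algebra ↥(atLoc 𝔫K) LK] [IsScalarTower ↥(atLoc 𝔫K) FK LK]
    [Algebra.IsIntegral AK AE]
    {z : L} {P : (↥(atLoc 𝔫E))[X]} {c : ZMod p → ↥(atLoc 𝔫E)}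
    (H : Tres5eSplit FE z P c)
    (hGF : ∀ (g : G) (x : FE), ∃ x' : FE, g • algebraMap FE L x = algebraMap FE L x')
    (hGA : ∀ (g : G) (a : AE), ∃ a' : AE,
      g • algebraMap FE L (algebraMap AE FE a) = algebraMap FE L (algebraMap AE FE a'))
    (hGt : ∀ g : G, g • algebraMap FE L (algebraMap FK FE t) =
      algebraMap FE L (algebraMap FK FE t))
    (hfixF : ∀ x : FE, (∀ g : G, g • algebraMap FE L x = algebraMap FE L x) →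
      ∃ y : FK, algebraMap FK FE y = x)
    (hG𝔫 : ∀ (g : G) (b b' : ↥(zchClosure (A₀ := AE) ({algebraMap FK FE t} : Set FE))),
      g • algebraMap FE L (b : FE) = algebraMap FE L (b' : FE) → b ∈ 𝔫E.1 → b' ∈ 𝔫E.1)
    (h𝔫K : ∀ (bK : ↥(zchClosure (A₀ := AK) ({t} : Set FK)))
      (b : ↥(zchClosure (A₀ := AE) ({algebraMap FK FE t} : Set FE))),
      (b : FE) = algebraMap FK FE (bK : FK) → bK ∈ 𝔫K.1 → b ∈ 𝔫E.1)
    (ρ : L ≃ₐ[FE] L)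
    (hρ : ∀ i : ZMod p, ∃ b ∈ tres5eMax ↥(atLoc 𝔫E) z (c i),
      ρ z = algebraMap ↥(atLoc 𝔫E) L (c (i + 1)) + (b : L))
    {zK : LK} {PK : (↥(atLoc 𝔫K))[X]}
    (HK : Tres5eSplit FK zK PK (fun k : ZMod p => ((k.val : ℕ) : ↥(atLoc 𝔫K))))
    (hfinK : Module.finrank FK LK = p)
    (hz : ∀ i : ZMod p, ∃ b ∈ tres5eMax ↥(atLoc 𝔫E) z (c i),
      algebraMap LK L zK = ((i.val : ℕ) : L) + (b : L))
    (ρK : LK →ₐ[FK] LK) (hρK : ∀ y : LK, algebraMap LK L (ρK y) = ρ (algebraMap LK L y))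
    (i : ZMod p) :
    ∃ b ∈ tres5eMax ↥(atLoc 𝔫K) zK ((i.val : ℕ) : ↥(atLoc 𝔫K)),
      ρK zK = algebraMap ↥(atLoc 𝔫K) LK (((i + 1).val : ℕ) : ↥(atLoc 𝔫K)) + (b : LK) := by
  haveI : FiniteDimensional FK LK :=
    Module.finite_of_finrank_pos (by rw [hfinK]; exact hp.out.pos)
  let ρK' : LK ≃ₐ[FK] LK := AlgEquiv.ofBijective ρK (Algebra.IsAlgebraic.algHom_bijective ρK)
  exact tresmzi_step_of_point 𝔫E 𝔫K H hGF hGA hGt hfixF hG𝔫 h𝔫K ρ hρ HK hz ρK'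
    (fun y => hρK y) i

/-- **K-FORM at a closed point of the chart, with the step relation of `ρK`.** -/
theorem tresmzi_point_step (𝔫E : AtPt (F := FE) πE (algebraMap FK FE t)) (𝔫K : AtPt (F := FK) πK t)
    [IsLocalRing ↥(atLoc 𝔫E)] [IsFractionRing ↥(atLoc 𝔫E) FE] [IsIntegrallyClosed ↥(atLoc 𝔫E)]
    [Algebra ↥(atLoc 𝔫E) L] [IsScalarTower ↥(atLoc 𝔫E) FE L]
    [IsLocalRing ↥(atLoc 𝔫K)] [IsFractionRing ↥(atLoc 𝔫K) FK] [IsIntegrallyClosed ↥(atLoc 𝔫K)]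
    [Algebra ↥(atLoc 𝔫K) LK] [IsScalarTower ↥(atLoc 𝔫K) FK LK]
    [Algebra.IsIntegral AK AE]
    {z : L} {P : (↥(atLoc 𝔫E))[X]} {c : ZMod p → ↥(atLoc 𝔫E)}
    (H : Tres5eSplit FE z P c) (hfin : Module.finrank FE L = p)
    (hpK : πK ∣ (p : AK))
    (hGF : ∀ (g : G) (x : FE), ∃ x' : FE, g • algebraMap FE L x = algebraMap FE L x')
    (hGA : ∀ (g : G) (a : AE), ∃ a' : AE,
      g • algebraMap FE L (algebraMap AE FE a) = algebraMap FE L (algebraMap AE FE a'))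
    (hGt : ∀ g : G, g • algebraMap FE L (algebraMap FK FE t) =
      algebraMap FE L (algebraMap FK FE t))
    (hGLK : ∀ (g : G) (y : LK), g • algebraMap LK L y = algebraMap LK L y)
    (hfixL : ∀ x : L, (∀ g : G, g • x = x) → ∃ y : LK, algebraMap LK L y = x)
    (hfixF : ∀ x : FE, (∀ g : G, g • algebraMap FE L x = algebraMap FE L x) →
      ∃ y : FK, algebraMap FK FE y = x)
    (hG𝔫 : ∀ (g : G) (b b' : ↥(zchClosure (A₀ := AE) ({algebraMap FK FE t} : Set FE))),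
      g • algebraMap FE L (b : FE) = algebraMap FE L (b' : FE) → b ∈ 𝔫E.1 → b' ∈ 𝔫E.1)
    (h𝔫K : ∀ (bK : ↥(zchClosure (A₀ := AK) ({t} : Set FK)))
      (b : ↥(zchClosure (A₀ := AE) ({algebraMap FK FE t} : Set FE))),
      (b : FE) = algebraMap FK FE (bK : FK) → bK ∈ 𝔫K.1 → b ∈ 𝔫E.1)
    (W : ValuationSubring L)
    (hWdom : ∀ x ∈ atLoc 𝔫E, algebraMap FE L x ∈ W)
    (hWmax : ∀ b : ↥(zchClosure (A₀ := AE) ({algebraMap FK FE t} : Set FE)), b ∈ 𝔫E.1 →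
      algebraMap FE L (b : FE) ∈ W.nonunits)
    (hGW : ∀ (g : G), ∀ x ∈ W, g • x ∈ W)
    (ρ : L ≃ₐ[FE] L) (hρG : ∀ (g : G) x, ρ (g • x) = g • ρ x)
    (hρ : ∀ i : ZMod p, ∃ b ∈ tres5eMax ↥(atLoc 𝔫E) z (c i),
      ρ z = algebraMap ↥(atLoc 𝔫E) L (c (i + 1)) + (b : L))
    (ρK : LK ≃ₐ[FK] LK) (hρK : ∀ y : LK, algebraMap LK L (ρK y) = ρ (algebraMap LK L y)) :
    ∃ (zK : LK) (PK : (↥(atLoc 𝔫K))[X]),
      Tres5eSplit FK zK PK (fun k : ZMod p => ((k.val : ℕ) : ↥(atLoc 𝔫K))) ∧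
      Module.finrank FK LK = p ∧
      ρ (algebraMap LK L zK) ≠ algebraMap LK L zK ∧
      (∀ i : ZMod p, ∃ b ∈ tres5eMax ↥(atLoc 𝔫E) z (c i),
        algebraMap LK L zK = ((i.val : ℕ) : L) + (b : L)) ∧
      (∃ k : ZMod p,
        (∀ b : ↥(Algebra.adjoin ↥(atLoc 𝔫K) ({zK} : Set LK)),
          b ∈ tres5eMax ↥(atLoc 𝔫K) zK ((k.val : ℕ) : ↥(atLoc 𝔫K)) ↔
            algebraMap LK L (b : LK) ∈ W.nonunits) ∧
        ∀ (_ : (tres5eMax ↥(atLoc 𝔫K) zK ((k.val : ℕ) : ↥(atLoc 𝔫K))).IsPrime),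
          ∀ x ∈ ls_localSubring (F := LK) (tres5eMax ↥(atLoc 𝔫K) zK ((k.val : ℕ) : ↥(atLoc 𝔫K))),
            algebraMap LK L x ∈ W) ∧
      ∀ i : ZMod p, ∃ b ∈ tres5eMax ↥(atLoc 𝔫K) zK ((i.val : ℕ) : ↥(atLoc 𝔫K)),
        ρK zK = algebraMap ↥(atLoc 𝔫K) LK (((i + 1).val : ℕ) : ↥(atLoc 𝔫K)) + (b : LK) := by
  obtain ⟨zK, PK, HK, hfinK, hρz, hz, hk⟩ :=
    tres5ki_point 𝔫E 𝔫K H hfin hpK hGF hGA hGt hGLK hfixL hfixF hG𝔫 h𝔫K W hWdom hWmax hGW ρ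
      hρG hρ
  exact ⟨zK, PK, HK, hfinK, hρz, hz, hk, fun i =>
    tresmzi_step_of_point 𝔫E 𝔫K H hGF hGA hGt hfixF hG𝔫 h𝔫K ρ hρ HK hz ρK hρK i⟩

/-- the same for a descended deck map `ρK` given as an algebra HOMOMORPHISM (the shape of
`tres5c_descend` / `tres5kiv_descend`): `[LK : FK] = p` makes it bijective. -/
theorem tresmzi_point_step_hom (𝔫E : AtPt (F := FE) πE (algebraMap FK FE t)) (𝔫K : AtPt (F := FK) πK t)
    [IsLocalRing ↥(atLoc 𝔫E)] [IsFractionRing ↥(atLoc 𝔫E) FE] [IsIntegrallyClosed ↥(atLoc 𝔫E)]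
    [Algebra ↥(atLoc 𝔫E) L] [IsScalarTower ↥(atLoc 𝔫E) FE L]
    [IsLocalRing ↥(atLoc 𝔫K)] [IsFractionRing ↥(atLoc 𝔫K) FK] [IsIntegrallyClosed ↥(atLoc 𝔫K)]
    [Algebra ↥(atLoc 𝔫K) LK] [IsScalarTower ↥(atLoc 𝔫K) FK LK]
    [Algebra.IsIntegral AK AE]
    {z : L} {P : (↥(atLoc 𝔫E))[X]} {c : ZMod p → ↥(atLoc 𝔫E)}
    (H : Tres5eSplit FE z P c) (hfin : Module.finrank FE L = p)
    (hpK : πK ∣ (p : AK))
    (hGF : ∀ (g : G) (x : FE), ∃ x' : FE, g • algebraMap FE L x = algebraMap FE L x')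
    (hGA : ∀ (g : G) (a : AE), ∃ a' : AE,
      g • algebraMap FE L (algebraMap AE FE a) = algebraMap FE L (algebraMap AE FE a'))
    (hGt : ∀ g : G, g • algebraMap FE L (algebraMap FK FE t) =
      algebraMap FE L (algebraMap FK FE t))
    (hGLK : ∀ (g : G) (y : LK), g • algebraMap LK L y = algebraMap LK L y)
    (hfixL : ∀ x : L, (∀ g : G, g • x = x) → ∃ y : LK, algebraMap LK L y = x)
    (hfixF : ∀ x : FE, (∀ g : G, g • algebraMap FE L x = algebraMap FE L x) →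
      ∃ y : FK, algebraMap FK FE y = x)
    (hG𝔫 : ∀ (g : G) (b b' : ↥(zchClosure (A₀ := AE) ({algebraMap FK FE t} : Set FE))),
      g • algebraMap FE L (b : FE) = algebraMap FE L (b' : FE) → b ∈ 𝔫E.1 → b' ∈ 𝔫E.1)
    (h𝔫K : ∀ (bK : ↥(zchClosure (A₀ := AK) ({t} : Set FK)))
      (b : ↥(zchClosure (A₀ := AE) ({algebraMap FK FE t} : Set FE))),
      (b : FE) = algebraMap FK FE (bK : FK) → bK ∈ 𝔫K.1 → b ∈ 𝔫E.1)
    (W : ValuationSubring L)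
    (hWdom : ∀ x ∈ atLoc 𝔫E, algebraMap FE L x ∈ W)
    (hWmax : ∀ b : ↥(zchClosure (A₀ := AE) ({algebraMap FK FE t} : Set FE)), b ∈ 𝔫E.1 →
      algebraMap FE L (b : FE) ∈ W.nonunits)
    (hGW : ∀ (g : G), ∀ x ∈ W, g • x ∈ W)
    (ρ : L ≃ₐ[FE] L) (hρG : ∀ (g : G) x, ρ (g • x) = g • ρ x)
    (hρ : ∀ i : ZMod p, ∃ b ∈ tres5eMax ↥(atLoc 𝔫E) z (c i),
      ρ z = algebraMap ↥(atLoc 𝔫E) L (c (i + 1)) + (b : L))
    (ρK : LK →ₐ[FK] LK) (hρK : ∀ y : LK, algebraMap LK L (ρK y) = ρ (algebraMap LK L y)) :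
    ∃ (zK : LK) (PK : (↥(atLoc 𝔫K))[X]),
      Tres5eSplit FK zK PK (fun k : ZMod p => ((k.val : ℕ) : ↥(atLoc 𝔫K))) ∧
      Module.finrank FK LK = p ∧
      ρ (algebraMap LK L zK) ≠ algebraMap LK L zK ∧
      (∀ i : ZMod p, ∃ b ∈ tres5eMax ↥(atLoc 𝔫E) z (c i),
        algebraMap LK L zK = ((i.val : ℕ) : L) + (b : L)) ∧
      (∃ k : ZMod p,
        (∀ b : ↥(Algebra.adjoin ↥(atLoc 𝔫K) ({zK} : Set LK)),
          b ∈ tres5eMax ↥(atLoc 𝔫K) zK ((k.val : ℕ) : ↥(atLoc 𝔫K)) ↔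
            algebraMap LK L (b : LK) ∈ W.nonunits) ∧
        ∀ (_ : (tres5eMax ↥(atLoc 𝔫K) zK ((k.val : ℕ) : ↥(atLoc 𝔫K))).IsPrime),
          ∀ x ∈ ls_localSubring (F := LK) (tres5eMax ↥(atLoc 𝔫K) zK ((k.val : ℕ) : ↥(atLoc 𝔫K))),
            algebraMap LK L x ∈ W) ∧
      ∀ i : ZMod p, ∃ b ∈ tres5eMax ↥(atLoc 𝔫K) zK ((i.val : ℕ) : ↥(atLoc 𝔫K)),
        ρK zK = algebraMap ↥(atLoc 𝔫K) LK (((i + 1).val : ℕ) : ↥(atLoc 𝔫K)) + (b : LK) := by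
  obtain ⟨zK, PK, HK, hfinK, hρz, hz, hk⟩ :=
    tres5ki_point 𝔫E 𝔫K H hfin hpK hGF hGA hGt hGLK hfixL hfixF hG𝔫 h𝔫K W hWdom hWmax hGW ρ
      hρG hρ
  exact ⟨zK, PK, HK, hfinK, hρz, hz, hk, fun i =>
    tresmzi_step_of_point_hom 𝔫E 𝔫K H hGF hGA hGt hfixF hG𝔫 h𝔫K ρ hρ HK hfinK hz ρK hρK i⟩

end PointStep

end Fermat.Agent.R38
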