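import Fermat.Agent.R38.TresKFormInstG
import Fermat.Agent.S05.Inertia
import Fermat.Agent.UNIP.Beta0Abs

/-!
# R38 TRES, (FAC-p), piece FAC-KFORM, the INSTANCE (helper52), part 2: integrality for every `E`

`A` a valuation subring of `ℚ̄` over the prime `q`, `K = beta0Field A = ℚ̄^I`.
The valuation ring `A ∩ K` has a UNIQUE extension to `ℚ̄`, so for EVERY intermediate field
`E ⊇ K` the ring `A_E = A ∩ E` is integral over `A_K = A ∩ K`:

* `tres5kig_normal`            : `ℚ̄ / K` is normal;
* `tres5kig_conj_mem`          : the `K`-conjugates of an element of `A` lie in `A`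
  (`Gal(ℚ̄ / K) = I`, `beta0_mem_inertia_of_fixes`);
* `tres5kig_minpoly_coeff_mem` : the minimal polynomial over `K` of an element of `A` has
  coefficients in `A` (Vieta);
* **`tres5kig_isIntegral hq hA h`** : `Algebra.IsIntegral A_K A_E` for the algebra structure
  `tres5kigAlgAA h` of `R38/TresKFormInstG.lean` — no finiteness, no Galois hypothesis on `E`.
-/

set_option autoImplicit false
set_option linter.style.haveILetI false
set_option linter.unusedSectionVars false

noncomputable section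

open ModularCurve Fermat.Agent.INJ Fermat.Agent.UNIP IntermediateField Polynomial

namespace Fermat.Agent.R38

section GenInt

variable {A : ValuationSubring NfQb} {q : ℕ}

/-- `ℚ̄ / K` is normal, `K = ℚ̄^I` -/
theorem tres5kig_normal (A : ValuationSubring NfQb) : Normal ↥(beta0Field A) NfQb := by
  haveI hnormQ : Normal ℚ NfQb := by
    have h1 : @Normal ℚ (AlgebraicClosure ℚ) _ _ (AlgebraicClosure.instAlgebra ℚ) := inferInstance
    convert h1
    exact Subsingleton.elim _ _
  exact Normal.tower_top_of_normal ℚ ↥(beta0Field A) NfQb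

/-- the conjugates over `K = ℚ̄^I` of an element of `A` lie in `A` -/
theorem tres5kig_conj_mem (hq : q.Prime) (hA : A.LiesOverPrime q) {ξ y : NfQb} (hξ : ξ ∈ A)
    (hy : Polynomial.aeval y (minpoly ↥(beta0Field A) ξ) = 0) : y ∈ A := by
  haveI hnorm : Normal ↥(beta0Field A) NfQb := tres5kig_normal A
  have halg : IsAlgebraic ↥(beta0Field A) ξ := hnorm.isAlgebraic ξ
  obtain ⟨σ, hσ⟩ := minpoly.exists_algEquiv_of_root' halg hy
  have hσI : (σ.restrictScalars ℚ) ∈ A.inertiaSubgroupIn ℚ :=
    beta0_mem_inertia_of_fixes hq hA _ (fun k hk => σ.commutes ⟨k, hk⟩)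
  have h1 : (σ.restrictScalars ℚ) ξ - ξ ∈ A.nonunits :=
    Fermat.Agent.S05.inertia_apply_sub_mem_nonunits hσI hξ
  have h2 : (σ.restrictScalars ℚ) ξ - ξ ∈ A := A.nonunits_le h1
  have h3 := A.add_mem _ _ h2 hξ
  rw [sub_add_cancel] at h3
  rw [← hσ]
  exact h3

/-- the minimal polynomial over `K = ℚ̄^I` of an element of `A` has coefficients in `A` -/
theorem tres5kig_minpoly_coeff_mem (hq : q.Prime) (hA : A.LiesOverPrime q) {ξ : NfQb}
    (hξ : ξ ∈ A) (n : ℕ) :
    (((minpoly ↥(beta0Field A) ξ).coeff n : ↥(beta0Field A)) : NfQb) ∈ A := by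
  haveI hnorm : Normal ↥(beta0Field A) NfQb := tres5kig_normal A
  have hint : IsIntegral ↥(beta0Field A) ξ := hnorm.isIntegral ξ
  set m := minpoly ↥(beta0Field A) ξ with hm
  have hmon : (m.map (algebraMap ↥(beta0Field A) NfQb)).Monic := (minpoly.monic hint).map _
  have hsplit : (m.map (algebraMap ↥(beta0Field A) NfQb)).Splits := IsAlgClosed.splits _
  have hlift : m.map (algebraMap ↥(beta0Field A) NfQb) ∈ Polynomial.lifts A.subtype := by
    rw [hsplit.eq_prod_roots_of_monic hmon]
    apply multiset_prod_mem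
    intro p hp
    obtain ⟨r, hr, rfl⟩ := Multiset.mem_map.1 hp
    have hr0 : Polynomial.aeval r m = 0 := by
      have h1 := (Polynomial.mem_roots'.1 hr).2
      rwa [Polynomial.IsRoot, Polynomial.eval_map, ← Polynomial.aeval_def] at h1
    have hrA : r ∈ A := tres5kig_conj_mem hq hA hξ hr0
    rw [Polynomial.mem_lifts]
    refine ⟨X - C ⟨r, hrA⟩, ?_⟩
    simp
  rw [Polynomial.lifts_iff_coeff_lifts] at hlift
  obtain ⟨a, ha⟩ := hlift n
  rw [Polynomial.coeff_map] at ha
  have : (((m.coeff n : ↥(beta0Field A)) : NfQb)) = (a : NfQb) := ha.symm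
  rw [this]
  exact a.2

variable {E : IntermediateField ℚ NfQb}

/-- **`A_E = A ∩ E` is integral over `A_K = A ∩ K`, `K = ℚ̄^I`, for EVERY `E ⊇ K`**
(the valuation ring `A ∩ K` has a unique extension to `ℚ̄`). -/
theorem tres5kig_isIntegral (hq : q.Prime) (hA : A.LiesOverPrime q) (h : beta0Field A ≤ E) :
    @Algebra.IsIntegral ↥(beta0Ring A (beta0Field A)) ↥(beta0Ring A E) _ _
      (tres5kigAlgAA h) := by
  letI := tres5kigAlgAA (A := A) h
  refine ⟨fun x => ?_⟩
  have hξ : ((x : ↥E) : NfQb) ∈ A := x.2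
  haveI hnorm : Normal ↥(beta0Field A) NfQb := tres5kig_normal A
  have hint : IsIntegral ↥(beta0Field A) ((x : ↥E) : NfQb) := hnorm.isIntegral _
  set m := minpoly ↥(beta0Field A) ((x : ↥E) : NfQb) with hm
  have hlift : m ∈ Polynomial.lifts (beta0Ring A (beta0Field A)).subtype := by
    rw [Polynomial.lifts_iff_coeff_lifts]
    intro n
    exact ⟨⟨m.coeff n, tres5kig_minpoly_coeff_mem hq hA hξ n⟩, rfl⟩
  obtain ⟨g, hg, -, hgmon⟩ := Polynomial.lifts_and_natDegree_eq_and_monic hlift (minpoly.monic hint)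
  refine ⟨g, hgmon, ?_⟩
  -- push to `ℚ̄`
  let ιE : ↥(beta0Ring A E) →+* NfQb := (algebraMap ↥E NfQb).comp (beta0Ring A E).subtype
  have hιE : Function.Injective ιE := fun a b hab => Subtype.ext (Subtype.ext hab)
  apply hιE
  rw [map_zero, Polynomial.hom_eval₂]
  have e1 : ιE.comp (algebraMap ↥(beta0Ring A (beta0Field A)) ↥(beta0Ring A E))
      = (algebraMap ↥(beta0Field A) NfQb).comp (beta0Ring A (beta0Field A)).subtype := rfl
  rw [e1, ← Polynomial.eval₂_map, hg]
  exact minpoly.aeval _ _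

end GenInt

end Fermat.Agent.R38
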