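import Fermat.Agent.R38.TresFixFInst2
import Fermat.Agent.R38.TresPts
import Fermat.Agent.RIB.MP.FacConc

/-!
# R38 TRES, (FAC-p), K-FORM (B) instance, leaf (B-pts), `G`-stability half (helper90)

`A` a valuation subring of `ℚ̄` over `q`, `K = beta0Field A = ℚ̄^I`, `E ⊇ K` with `A ∩ E` a
discrete valuation ring with uniformizer `π`, `G = Gal(E / K)` acting coefficientwise on
`L_E = tres5cL E (M q) y` (helper29's `tres5ffAct`), `F_E = F_{Mq}(E)`,
`B_E = zchClosure {t}` the chart `t = j` (or `t = 1 / j`) over `A ∩ E`.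

* `tres5pi_smul_eq_mgAct` : on `F_E`, `g ∈ G` acts as `mgAct E (M q) σ` for a lift `σ ∈ I`;
* `tres5pi_trivMod_j`, `tres5pi_trivMod_jinv` : **`G` is trivial modulo `π` on the charts**:
  `g b = b + π c` with `c ∈ B_E` (inertia is trivial modulo `𝔪(V c)`, `mgv_hτV`, and (SS1),
  `ribmp_fc_hSS1`);
* `tres5pi_hGn_j`, `tres5pi_hGn_jinv` : **(hG𝔫)** of helper48's `tres5ki_point` / helper87's
  `tres5p_atLoc_hRK`, `tres5p_atLoc_hGR`, at EVERY closed point `𝔫E` of the special fibre of the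
  chart (`t` is a variable with `ht : t = j`, so that the consumer can take
  `t := algebraMap F_K F_E j_K`).
-/

set_option autoImplicit false
set_option linter.style.haveILetI false
set_option linter.unusedSectionVars false
set_option linter.unusedVariables false
set_option linter.style.longLine false
set_option synthInstance.maxHeartbeats 400000
set_option maxHeartbeats 1000000

noncomputable section

open ModularCurve Fermat.Agent.INJ Fermat.Agent.UNIP IntermediateField Fermat.Agent.RIB.MP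

namespace Fermat.Agent.R38

section Inst

variable {A : ValuationSubring NfQb} {q M : ℕ} [NeZero q] [NeZero M] [NeZero (M * q)]
  {E : IntermediateField ℚ NfQb} [IsDiscreteValuationRing ↥(beta0Ring A E)]
  {π : ↥(beta0Ring A E)} (hπ : Irreducible π) (ιC : ↥E →+* ℂ)
  (hq : q.Prime) (hqM : ¬ q ∣ M) (hA : A.LiesOverPrime q) (h : beta0Field A ≤ E)
  (h2 : q = 2 → 3 ∣ M) (h3 : q = 3 → 2 ∣ M)
  (y : LaurentSeries NfQb)
  (hstabI : ∀ σ ∈ A.inertiaSubgroupIn ℚ, ∀ x ∈ tres5cField (M * q) y,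
    coeffMap ((σ : NfQb ≃ₐ[ℚ] NfQb) : NfQb →+* NfQb) x ∈ tres5cField (M * q) y)

/-- on `F_E`, `g ∈ Gal(E / K)` acts as `mgAct E (M q) σ` for any lift `σ` of `g` -/
theorem tres5pi_smul_eq_mgAct :
    letI := beta0FieldAlgebra h
    letI := tres5ffAct hq hA h (M * q) y hstabI
    ∀ (g : ↥E ≃ₐ[↥(beta0Field A)] ↥E) (σ : NfQb ≃ₐ[ℚ] NfQb)
      (hσg : ∀ e : ↥E, σ (e : NfQb) = ((g e : ↥E) : NfQb))
      (hσE : ∀ x ∈ E, σ x ∈ E) (x : ↥(modularFunctionFieldFullC ↥E (M * q))),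
      g • algebraMap ↥(modularFunctionFieldFullC ↥E (M * q)) ↥(tres5cL E (M * q) y) x
        = algebraMap ↥(modularFunctionFieldFullC ↥E (M * q)) ↥(tres5cL E (M * q) y)
            (mgAct E (M * q) σ hσE x) := by
  letI := beta0FieldAlgebra h
  letI := tres5ffAct hq hA h (M * q) y hstabI
  intro g σ hσg hσE x
  have hg : ((g : ↥E ≃ₐ[↥(beta0Field A)] ↥E) : ↥E →+* ↥E) = mgRestrict E σ hσE :=
    RingHom.ext fun e => Subtype.ext (hσg e).symm
  apply Subtype.ext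
  rw [tres5ffAct_coe hq hA h (M * q) y hstabI g, tres5ff_L_algebraMap_coe,
    tres5ff_L_algebraMap_coe, mgAct_coe, hg]

include hq hA in
/-- a lift `σ ∈ I` of `g ∈ Gal(E / K)` stabilises `E` -/
theorem tres5pi_lift :
    letI := beta0FieldAlgebra h
    ∀ g : ↥E ≃ₐ[↥(beta0Field A)] ↥E,
      ∃ σ : NfQb ≃ₐ[ℚ] NfQb, σ ∈ A.inertiaSubgroupIn ℚ ∧
        (∀ e : ↥E, σ (e : NfQb) = ((g e : ↥E) : NfQb)) ∧ ∀ x ∈ E, σ x ∈ E := by
  letI := beta0FieldAlgebra h
  intro g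
  obtain ⟨σ, hσ, hσg⟩ := tres5ff_lift' hq hA h g
  refine ⟨σ, hσ, hσg, fun x hx => ?_⟩
  rw [hσg ⟨x, hx⟩]
  exact (g ⟨x, hx⟩).2

/-- `mgAct` of an inertial `σ` preserves the constants `A ∩ E` -/
theorem tres5pi_mgAct_const {σ : NfQb ≃ₐ[ℚ] NfQb} (hσ : σ ∈ A.inertiaSubgroupIn ℚ)
    (hσE : ∀ x ∈ E, σ x ∈ E) (N : ℕ) (a : ↥(beta0Ring A E)) :
    ∃ a' : ↥(beta0Ring A E),
      mgAct E N σ hσE (algebraMap ↥(beta0Ring A E) ↥(modularFunctionFieldFullC ↥E N) a)
        = algebraMap ↥(beta0Ring A E) ↥(modularFunctionFieldFullC ↥E N) a' := by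
  refine ⟨⟨mgRestrict E σ hσE (a : ↥E),
    (Fermat.Agent.S05.inertia_apply_mem_iff hσ _).2 a.2⟩, ?_⟩
  rw [IsScalarTower.algebraMap_apply ↥(beta0Ring A E) ↥E ↥(modularFunctionFieldFullC ↥E N),
    mgAct_algebraMap]
  rfl

/-- `mgAct` fixes `j` -/
theorem tres5pi_mgAct_bgJ (σ : NfQb ≃ₐ[ℚ] NfQb) (hσE : ∀ x ∈ E, σ x ∈ E) (N : ℕ) :
    mgAct E N σ hσE (bgJ ↥E N) = bgJ ↥E N :=
  Subtype.ext (coeffMap_jqModC (mgRestrict E σ hσE))

include hπ ιC hqM h2 h3 in
/-- **`G = Gal(E / K)` is trivial modulo `π` on the chart `j`** of `F_{Mq}(E)` over `A ∩ E`. -/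
theorem tres5pi_trivMod_j :
    letI := beta0FieldAlgebra h
    letI := tres5ffAct hq hA h (M * q) y hstabI
    ∀ (g : ↥E ≃ₐ[↥(beta0Field A)] ↥E) (b : ↥(modularFunctionFieldFullC ↥E (M * q))),
      IsIntegral ↥(Algebra.adjoin ↥(beta0Ring A E)
        ({bgJ ↥E (M * q)} : Set ↥(modularFunctionFieldFullC ↥E (M * q)))) b →
      ∃ c : ↥(modularFunctionFieldFullC ↥E (M * q)),
        IsIntegral ↥(Algebra.adjoin ↥(beta0Ring A E)
          ({bgJ ↥E (M * q)} : Set ↥(modularFunctionFieldFullC ↥E (M * q)))) c ∧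
        g • algebraMap ↥(modularFunctionFieldFullC ↥E (M * q)) ↥(tres5cL E (M * q) y) b
          = algebraMap ↥(modularFunctionFieldFullC ↥E (M * q)) ↥(tres5cL E (M * q) y)
              (b + algebraMap ↥(beta0Ring A E) ↥(modularFunctionFieldFullC ↥E (M * q)) π * c) := by
  letI := beta0FieldAlgebra h
  letI := tres5ffAct hq hA h (M * q) y hstabI
  intro g b hb
  obtain ⟨σ, hσ, hσg, hσE⟩ := tres5pi_lift hq hA h g
  have hact := tres5pi_smul_eq_mgAct hq hA h y hstabI g σ hσg hσE b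
  have hb' : IsIntegral ↥(Algebra.adjoin ↥(beta0Ring A E)
      ({bgJ ↥E (M * q)} : Set ↥(modularFunctionFieldFullC ↥E (M * q))))
      (mgAct E (M * q) σ hσE b) :=
    tres5p_isIntegral_smul (mgAct E (M * q) σ hσE)
      (fun a => tres5pi_mgAct_const hσ hσE (M * q) a) _
      (tres5pi_mgAct_bgJ σ hσE (M * q)) b hb
  have hd : IsIntegral ↥(Algebra.adjoin ↥(beta0Ring A E)
      ({bgJ ↥E (M * q)} : Set ↥(modularFunctionFieldFullC ↥E (M * q))))
      (mgAct E (M * q) σ hσE b - b) := IsIntegral.sub hb' hb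
  have hdV : ∀ c, mgAct E (M * q) σ hσE b - b ∈ (mgvV hπ ιC hq hqM c).nonunits := fun c =>
    mgv_hτV hπ ιC hq hqM hσ hσE c b (mgv_hBV₁ hπ ιC hq hqM c b hb)
  obtain ⟨d', hd', hdd'⟩ := ribmp_fc_hSS1 hπ ιC hq hqM hA h h2 h3 _ hd hdV
  refine ⟨d', hd', ?_⟩
  rw [hact, ← hdd', add_sub_cancel]

include hπ ιC hqM h2 h3 in
/-- **`G = Gal(E / K)` is trivial modulo `π` on the chart `1 / j`** of `F_{Mq}(E)` over
`A ∩ E`. -/
theorem tres5pi_trivMod_jinv :
    letI := beta0FieldAlgebra h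
    letI := tres5ffAct hq hA h (M * q) y hstabI
    ∀ (g : ↥E ≃ₐ[↥(beta0Field A)] ↥E) (b : ↥(modularFunctionFieldFullC ↥E (M * q))),
      IsIntegral ↥(Algebra.adjoin ↥(beta0Ring A E)
        ({(bgJ ↥E (M * q))⁻¹} : Set ↥(modularFunctionFieldFullC ↥E (M * q)))) b →
      ∃ c : ↥(modularFunctionFieldFullC ↥E (M * q)),
        IsIntegral ↥(Algebra.adjoin ↥(beta0Ring A E)
          ({(bgJ ↥E (M * q))⁻¹} : Set ↥(modularFunctionFieldFullC ↥E (M * q)))) c ∧
        g • algebraMap ↥(modularFunctionFieldFullC ↥E (M * q)) ↥(tres5cL E (M * q) y) b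
          = algebraMap ↥(modularFunctionFieldFullC ↥E (M * q)) ↥(tres5cL E (M * q) y)
              (b + algebraMap ↥(beta0Ring A E) ↥(modularFunctionFieldFullC ↥E (M * q)) π * c) := by
  letI := beta0FieldAlgebra h
  letI := tres5ffAct hq hA h (M * q) y hstabI
  intro g b hb
  obtain ⟨σ, hσ, hσg, hσE⟩ := tres5pi_lift hq hA h g
  have hact := tres5pi_smul_eq_mgAct hq hA h y hstabI g σ hσg hσE b
  have hb' : IsIntegral ↥(Algebra.adjoin ↥(beta0Ring A E)
      ({(bgJ ↥E (M * q))⁻¹} : Set ↥(modularFunctionFieldFullC ↥E (M * q))))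
      (mgAct E (M * q) σ hσE b) :=
    tres5p_isIntegral_smul (mgAct E (M * q) σ hσE)
      (fun a => tres5pi_mgAct_const hσ hσE (M * q) a) _
      (by rw [map_inv₀, tres5pi_mgAct_bgJ σ hσE (M * q)]) b hb
  have hd : IsIntegral ↥(Algebra.adjoin ↥(beta0Ring A E)
      ({(bgJ ↥E (M * q))⁻¹} : Set ↥(modularFunctionFieldFullC ↥E (M * q))))
      (mgAct E (M * q) σ hσE b - b) := IsIntegral.sub hb' hb
  have hdV : ∀ c, mgAct E (M * q) σ hσE b - b ∈ (mgvV hπ ιC hq hqM c).nonunits := fun c =>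
    mgv_hτV hπ ιC hq hqM hσ hσE c b (mgv_hBV₂ hπ ιC hq hqM c b hb)
  obtain ⟨d', hd', hdd'⟩ := ribmp_fc_hSS1_inv hπ ιC hq hqM hA h h2 h3 _ hd hdV
  refine ⟨d', hd', ?_⟩
  rw [hact, ← hdd', add_sub_cancel]

/-- the base change `F_N(K) → F_N(E)` maps `j` to `j` -/
theorem tres5pi_baseIncl_bgJ {K : IntermediateField ℚ NfQb} (hKE : K ≤ E) (N : ℕ) :
    tres5cBaseIncl N hKE (bgJ ↥K N) = bgJ ↥E N :=
  Subtype.ext (coeffMap_jqModC (IntermediateField.inclusion hKE).toRingHom)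

/-- the base change `F_N(K) → F_N(E)` maps `1 / j` to `1 / j` -/
theorem tres5pi_baseIncl_bgJ_inv {K : IntermediateField ℚ NfQb} (hKE : K ≤ E) (N : ℕ) :
    tres5cBaseIncl N hKE (bgJ ↥K N)⁻¹ = (bgJ ↥E N)⁻¹ := by
  rw [map_inv₀, tres5pi_baseIncl_bgJ]

include hπ ιC hqM h2 h3 in
/-- **(hG𝔫), chart `j`**: EVERY closed point `𝔫E` of the special fibre of the chart `j` of
`F_{Mq}(E)` over `A ∩ E` is stable under `G = Gal(E / K)`. -/
theorem tres5pi_hGn_j (t : ↥(modularFunctionFieldFullC ↥E (M * q)))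
    (ht : t = bgJ ↥E (M * q))
    (𝔫E : AtPt (F := ↥(modularFunctionFieldFullC ↥E (M * q))) π t) :
    letI := beta0FieldAlgebra h
    letI := tres5ffAct hq hA h (M * q) y hstabI
    ∀ (g : ↥E ≃ₐ[↥(beta0Field A)] ↥E)
      (b b' : ↥(zchClosure (A₀ := ↥(beta0Ring A E))
        ({t} : Set ↥(modularFunctionFieldFullC ↥E (M * q))))),
      g • algebraMap ↥(modularFunctionFieldFullC ↥E (M * q)) ↥(tres5cL E (M * q) y)
          (b : ↥(modularFunctionFieldFullC ↥E (M * q)))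
        = algebraMap ↥(modularFunctionFieldFullC ↥E (M * q)) ↥(tres5cL E (M * q) y)
          (b' : ↥(modularFunctionFieldFullC ↥E (M * q))) →
      b ∈ 𝔫E.1 → b' ∈ 𝔫E.1 := by
  letI := beta0FieldAlgebra h
  letI := tres5ffAct hq hA h (M * q) y hstabI
  subst ht
  intro g b b' hgb hb
  obtain ⟨c, hc, hgc⟩ := tres5pi_trivMod_j hπ ιC hq hqM hA h h2 h3 y hstabI g
    (b : ↥(modularFunctionFieldFullC ↥E (M * q))) (mem_zchClosure.1 b.2)
  have hinj : Function.Injective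
      (algebraMap ↥(modularFunctionFieldFullC ↥E (M * q)) ↥(tres5cL E (M * q) y)) :=
    (algebraMap ↥(modularFunctionFieldFullC ↥E (M * q)) ↥(tres5cL E (M * q) y)).injective
  have e1 : (b' : ↥(modularFunctionFieldFullC ↥E (M * q))) =
      (b : ↥(modularFunctionFieldFullC ↥E (M * q))) +
        algebraMap ↥(beta0Ring A E) ↥(modularFunctionFieldFullC ↥E (M * q)) π * c :=
    hinj (hgb.symm.trans hgc)
  have e2 : b' = b + algebraMap ↥(beta0Ring A E) ↥(zchClosure (A₀ := ↥(beta0Ring A E))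
      ({bgJ ↥E (M * q)} : Set ↥(modularFunctionFieldFullC ↥E (M * q)))) π *
        ⟨c, mem_zchClosure.2 hc⟩ := Subtype.ext e1
  rw [e2]
  exact 𝔫E.1.add_mem hb (𝔫E.1.mul_mem_right _ 𝔫E.2.2)

include hπ ιC hqM h2 h3 in
/-- **(hG𝔫), chart `1 / j`**: EVERY closed point `𝔫E` of the special fibre of the chart `1 / j`
of `F_{Mq}(E)` over `A ∩ E` is stable under `G = Gal(E / K)`. -/
theorem tres5pi_hGn_jinv (t : ↥(modularFunctionFieldFullC ↥E (M * q)))
    (ht : t = (bgJ ↥E (M * q))⁻¹)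
    (𝔫E : AtPt (F := ↥(modularFunctionFieldFullC ↥E (M * q))) π t) :
    letI := beta0FieldAlgebra h
    letI := tres5ffAct hq hA h (M * q) y hstabI
    ∀ (g : ↥E ≃ₐ[↥(beta0Field A)] ↥E)
      (b b' : ↥(zchClosure (A₀ := ↥(beta0Ring A E))
        ({t} : Set ↥(modularFunctionFieldFullC ↥E (M * q))))),
      g • algebraMap ↥(modularFunctionFieldFullC ↥E (M * q)) ↥(tres5cL E (M * q) y)
          (b : ↥(modularFunctionFieldFullC ↥E (M * q)))
        = algebraMap ↥(modularFunctionFieldFullC ↥E (M * q)) ↥(tres5cL E (M * q) y)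
          (b' : ↥(modularFunctionFieldFullC ↥E (M * q))) →
      b ∈ 𝔫E.1 → b' ∈ 𝔫E.1 := by
  letI := beta0FieldAlgebra h
  letI := tres5ffAct hq hA h (M * q) y hstabI
  subst ht
  intro g b b' hgb hb
  obtain ⟨c, hc, hgc⟩ := tres5pi_trivMod_jinv hπ ιC hq hqM hA h h2 h3 y hstabI g
    (b : ↥(modularFunctionFieldFullC ↥E (M * q))) (mem_zchClosure.1 b.2)
  have hinj : Function.Injective
      (algebraMap ↥(modularFunctionFieldFullC ↥E (M * q)) ↥(tres5cL E (M * q) y)) :=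
    (algebraMap ↥(modularFunctionFieldFullC ↥E (M * q)) ↥(tres5cL E (M * q) y)).injective
  have e1 : (b' : ↥(modularFunctionFieldFullC ↥E (M * q))) =
      (b : ↥(modularFunctionFieldFullC ↥E (M * q))) +
        algebraMap ↥(beta0Ring A E) ↥(modularFunctionFieldFullC ↥E (M * q)) π * c :=
    hinj (hgb.symm.trans hgc)
  have e2 : b' = b + algebraMap ↥(beta0Ring A E) ↥(zchClosure (A₀ := ↥(beta0Ring A E))
      ({(bgJ ↥E (M * q))⁻¹} : Set ↥(modularFunctionFieldFullC ↥E (M * q)))) π *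
        ⟨c, mem_zchClosure.2 hc⟩ := Subtype.ext e1
  rw [e2]
  exact 𝔫E.1.add_mem hb (𝔫E.1.mul_mem_right _ 𝔫E.2.2)

end Inst

end Fermat.Agent.R38
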