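import Fermat.Agent.R38.TresKFormPts
import Fermat.Agent.R38.TresKFormInstG2
import Fermat.Agent.R38.TresKFormInstV
import Fermat.Agent.R38.TresPtsInst

/-!
# Row 38, TRES, K-FORM (B) instance, leaf (B-pts″), CONCRETE FORM (helper47)

Concrete frame of helper52 (`R38/TresKFormInstG.lean`), helper53 (`R38/TresKFormInstV.lean`) and
helper90 (`R38/TresPtsInst.lean`): `A` a valuation subring of `ℚ̄` over `q`,
`K = beta0Field A = ℚ̄^I`, `E ⊇ K`, `A_K = beta0Ring A K`, `A_E = beta0Ring A E` discrete valuation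
rings, `F_K = F_{Mq}(K)`, `F_E = F_{Mq}(E)`, vertical valuations `mgvV … c`.

* `tres5kqi_exists`      : **going-up with a base ideal**, any chart `t ∈ F_K`: a closed point
  `𝔫K` of the `K`-chart on `V_K c` lies under a closed point `𝔫E` of the `E`-chart on `V_E c`;
* `tres5kqi_exists_j`    : the chart `t = j`;
* `tres5kqi_exists_jinv` : the chart `t = 1 / j`;
* `tres5kqi_point_j`, `tres5kqi_point_jinv` : the same together with `hG𝔫` (helper90's
  `tres5pi_hGn_j`, `tres5pi_hGn_jinv`) at the point `𝔫E` found.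

The algebra structures are helper52's `tres5kigAlgAA h`, `tres5kigAlgAF h N` and helper78's
`tres5cAlgFF N h` (`letI`).
-/

set_option autoImplicit false
set_option linter.style.haveILetI false
set_option linter.unusedSectionVars false
set_option linter.unusedVariables false
set_option linter.style.longLine false
set_option synthInstance.maxHeartbeats 400000
set_option maxHeartbeats 1000000

noncomputable section

open ModularCurve Fermat.Agent.INJ Fermat.Agent.UNIP IntermediateField Fermat.Agent.RIB.MP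

namespace Fermat.Agent.R38

section Conc

variable {A : ValuationSubring NfQb} {q M : ℕ} [NeZero q] [NeZero M] [NeZero (M * q)]
  {E : IntermediateField ℚ NfQb}
  [IsDiscreteValuationRing ↥(beta0Ring A (beta0Field A))]
  {π₀ : ↥(beta0Ring A (beta0Field A))} (hπ₀ : Irreducible π₀)
  [IsDiscreteValuationRing ↥(beta0Ring A E)] {π₁ : ↥(beta0Ring A E)} (hπ₁ : Irreducible π₁)
  (ιC₀ : ↥(beta0Field A) →+* ℂ) (ιC₁ : ↥E →+* ℂ)
  (hq : q.Prime) (hqM : ¬ q ∣ M) (hA : A.LiesOverPrime q) (h : beta0Field A ≤ E)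

include hπ₀ in
/-- the image of `π_K` in `A_E` is not zero -/
theorem tres5kqi_pi_ne_zero :
    @algebraMap ↥(beta0Ring A (beta0Field A)) ↥(beta0Ring A E) _ _ (tres5kigAlgAA h) π₀ ≠ 0 := by
  intro h0
  apply hπ₀.ne_zero
  apply beta0RingIncl_injective (A := A) h
  rw [map_zero]
  exact h0

include hπ₀ hπ₁ hq hA in
/-- **(B-pts″), concrete, any chart.**  `t ∈ F_K` a chart coordinate whose `E`-chart lies in
`V_E c` (`hBV`): every closed point `𝔫K` of the `K`-chart on `V_K c` lies under a closed point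
`𝔫E` of the `E`-chart on `V_E c`. -/
theorem tres5kqi_exists (c : Bool)
    (t : ↥(modularFunctionFieldFullC ↥(beta0Field A) (M * q)))
    (hBV : ∀ x : ↥(modularFunctionFieldFullC ↥E (M * q)),
      IsIntegral ↥(Algebra.adjoin ↥(beta0Ring A E)
        ({tres5cBaseIncl (M * q) h t} : Set ↥(modularFunctionFieldFullC ↥E (M * q)))) x →
      x ∈ mgvV hπ₁ ιC₁ hq hqM c)
    (𝔫K : AtPt (F := ↥(modularFunctionFieldFullC ↥(beta0Field A) (M * q))) π₀ t)
    (hthr : atThrough 𝔫K (mgvV hπ₀ ιC₀ hq hqM c)) :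
    letI := tres5cAlgFF (M * q) h
    letI := tres5kigAlgAA (A := A) h
    letI := tres5kigAlgAF (A := A) h (M * q)
    ∃ 𝔫E : AtPt (F := ↥(modularFunctionFieldFullC ↥E (M * q))) π₁
        (algebraMap ↥(modularFunctionFieldFullC ↥(beta0Field A) (M * q))
          ↥(modularFunctionFieldFullC ↥E (M * q)) t),
      (∀ (bK : ↥(zchClosure (A₀ := ↥(beta0Ring A (beta0Field A)))
          ({t} : Set ↥(modularFunctionFieldFullC ↥(beta0Field A) (M * q)))))
        (b : ↥(zchClosure (A₀ := ↥(beta0Ring A E))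
          ({algebraMap ↥(modularFunctionFieldFullC ↥(beta0Field A) (M * q))
            ↥(modularFunctionFieldFullC ↥E (M * q)) t} :
            Set ↥(modularFunctionFieldFullC ↥E (M * q))))),
        (b : ↥(modularFunctionFieldFullC ↥E (M * q))) =
          algebraMap ↥(modularFunctionFieldFullC ↥(beta0Field A) (M * q))
            ↥(modularFunctionFieldFullC ↥E (M * q))
            (bK : ↥(modularFunctionFieldFullC ↥(beta0Field A) (M * q))) →
        bK ∈ 𝔫K.1 → b ∈ 𝔫E.1) ∧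
      atThrough 𝔫E (mgvV hπ₁ ιC₁ hq hqM c) := by
  letI := tres5cAlgFF (M * q) h
  letI := tres5kigAlgAA (A := A) h
  letI := tres5kigAlgAF (A := A) h (M * q)
  haveI := tres5kig_tower_AAF (A := A) h (M * q)
  haveI := tres5kig_tower_AFF (A := A) h (M * q)
  haveI := tres5kig_isIntegral hq hA h
  exact tres5kq_exists_through hπ₁ (tres5kqi_pi_ne_zero hπ₀ h)
    (mgvV hπ₁ ιC₁ hq hqM c) (mgvV hπ₀ ιC₀ hq hqM c) hBV
    (tres5kiv_hVK hπ₀ hπ₁ ιC₀ ιC₁ hq hqM h c) 𝔫K hthr

include hπ₀ hπ₁ hq hA in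
/-- **(B-pts″), concrete, chart `j`.** -/
theorem tres5kqi_exists_j (c : Bool)
    (𝔫K : AtPt (F := ↥(modularFunctionFieldFullC ↥(beta0Field A) (M * q))) π₀
      (bgJ ↥(beta0Field A) (M * q)))
    (hthr : atThrough 𝔫K (mgvV hπ₀ ιC₀ hq hqM c)) :
    letI := tres5cAlgFF (M * q) h
    letI := tres5kigAlgAA (A := A) h
    letI := tres5kigAlgAF (A := A) h (M * q)
    ∃ 𝔫E : AtPt (F := ↥(modularFunctionFieldFullC ↥E (M * q))) π₁
        (algebraMap ↥(modularFunctionFieldFullC ↥(beta0Field A) (M * q))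
          ↥(modularFunctionFieldFullC ↥E (M * q)) (bgJ ↥(beta0Field A) (M * q))),
      (∀ (bK : ↥(zchClosure (A₀ := ↥(beta0Ring A (beta0Field A)))
          ({bgJ ↥(beta0Field A) (M * q)} :
            Set ↥(modularFunctionFieldFullC ↥(beta0Field A) (M * q)))))
        (b : ↥(zchClosure (A₀ := ↥(beta0Ring A E))
          ({algebraMap ↥(modularFunctionFieldFullC ↥(beta0Field A) (M * q))
            ↥(modularFunctionFieldFullC ↥E (M * q)) (bgJ ↥(beta0Field A) (M * q))} :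
            Set ↥(modularFunctionFieldFullC ↥E (M * q))))),
        (b : ↥(modularFunctionFieldFullC ↥E (M * q))) =
          algebraMap ↥(modularFunctionFieldFullC ↥(beta0Field A) (M * q))
            ↥(modularFunctionFieldFullC ↥E (M * q))
            (bK : ↥(modularFunctionFieldFullC ↥(beta0Field A) (M * q))) →
        bK ∈ 𝔫K.1 → b ∈ 𝔫E.1) ∧
      atThrough 𝔫E (mgvV hπ₁ ιC₁ hq hqM c) := by
  refine tres5kqi_exists hπ₀ hπ₁ ιC₀ ιC₁ hq hqM hA h c (bgJ ↥(beta0Field A) (M * q)) ?_ 𝔫K hthr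
  intro x hx
  rw [tres5pi_baseIncl_bgJ h (M * q)] at hx
  exact mgv_hBV₁ hπ₁ ιC₁ hq hqM c x hx

include hπ₀ hπ₁ hq hA in
/-- **(B-pts″), concrete, chart `1 / j`.** -/
theorem tres5kqi_exists_jinv (c : Bool)
    (𝔫K : AtPt (F := ↥(modularFunctionFieldFullC ↥(beta0Field A) (M * q))) π₀
      (bgJ ↥(beta0Field A) (M * q))⁻¹)
    (hthr : atThrough 𝔫K (mgvV hπ₀ ιC₀ hq hqM c)) :
    letI := tres5cAlgFF (M * q) h
    letI := tres5kigAlgAA (A := A) h
    letI := tres5kigAlgAF (A := A) h (M * q)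
    ∃ 𝔫E : AtPt (F := ↥(modularFunctionFieldFullC ↥E (M * q))) π₁
        (algebraMap ↥(modularFunctionFieldFullC ↥(beta0Field A) (M * q))
          ↥(modularFunctionFieldFullC ↥E (M * q)) (bgJ ↥(beta0Field A) (M * q))⁻¹),
      (∀ (bK : ↥(zchClosure (A₀ := ↥(beta0Ring A (beta0Field A)))
          ({(bgJ ↥(beta0Field A) (M * q))⁻¹} :
            Set ↥(modularFunctionFieldFullC ↥(beta0Field A) (M * q)))))
        (b : ↥(zchClosure (A₀ := ↥(beta0Ring A E))
          ({algebraMap ↥(modularFunctionFieldFullC ↥(beta0Field A) (M * q))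
            ↥(modularFunctionFieldFullC ↥E (M * q)) (bgJ ↥(beta0Field A) (M * q))⁻¹} :
            Set ↥(modularFunctionFieldFullC ↥E (M * q))))),
        (b : ↥(modularFunctionFieldFullC ↥E (M * q))) =
          algebraMap ↥(modularFunctionFieldFullC ↥(beta0Field A) (M * q))
            ↥(modularFunctionFieldFullC ↥E (M * q))
            (bK : ↥(modularFunctionFieldFullC ↥(beta0Field A) (M * q))) →
        bK ∈ 𝔫K.1 → b ∈ 𝔫E.1) ∧
      atThrough 𝔫E (mgvV hπ₁ ιC₁ hq hqM c) := by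
  refine tres5kqi_exists hπ₀ hπ₁ ιC₀ ιC₁ hq hqM hA h c (bgJ ↥(beta0Field A) (M * q))⁻¹ ?_ 𝔫K hthr
  intro x hx
  rw [tres5pi_baseIncl_bgJ_inv h (M * q)] at hx
  exact mgv_hBV₂ hπ₁ ιC₁ hq hqM c x hx

/-! ### One stop: `𝔫E` with `h𝔫K`, `atThrough` and `hG𝔫` -/

section Point

variable (h2 : q = 2 → 3 ∣ M) (h3 : q = 3 → 2 ∣ M)
  (y : LaurentSeries NfQb)
  (hstabI : ∀ σ ∈ A.inertiaSubgroupIn ℚ, ∀ x ∈ tres5cField (M * q) y,
    coeffMap ((σ : NfQb ≃ₐ[ℚ] NfQb) : NfQb →+* NfQb) x ∈ tres5cField (M * q) y)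

include hπ₀ hπ₁ hq hA ιC₁ hqM h2 h3 in
/-- **(B-pts), concrete, chart `j`, both halves**: a closed point `𝔫K` of the `K`-chart on
`V_K c` lies under a closed point `𝔫E` of the `E`-chart ON `V_E c`, with `h𝔫K` and `hG𝔫`
(helper90's `tres5pi_hGn_j`) in the EXACT shapes of `tres5ki_point` / `tres5kd_point`. -/
theorem tres5kqi_point_j (c : Bool)
    (𝔫K : AtPt (F := ↥(modularFunctionFieldFullC ↥(beta0Field A) (M * q))) π₀
      (bgJ ↥(beta0Field A) (M * q)))
    (hthr : atThrough 𝔫K (mgvV hπ₀ ιC₀ hq hqM c)) :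
    letI := tres5cAlgFF (M * q) h
    letI := tres5kigAlgAA (A := A) h
    letI := tres5kigAlgAF (A := A) h (M * q)
    letI := beta0FieldAlgebra h
    letI := tres5ffAct hq hA h (M * q) y hstabI
    ∃ 𝔫E : AtPt (F := ↥(modularFunctionFieldFullC ↥E (M * q))) π₁
        (algebraMap ↥(modularFunctionFieldFullC ↥(beta0Field A) (M * q))
          ↥(modularFunctionFieldFullC ↥E (M * q)) (bgJ ↥(beta0Field A) (M * q))),
      (∀ (bK : ↥(zchClosure (A₀ := ↥(beta0Ring A (beta0Field A)))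
          ({bgJ ↥(beta0Field A) (M * q)} :
            Set ↥(modularFunctionFieldFullC ↥(beta0Field A) (M * q)))))
        (b : ↥(zchClosure (A₀ := ↥(beta0Ring A E))
          ({algebraMap ↥(modularFunctionFieldFullC ↥(beta0Field A) (M * q))
            ↥(modularFunctionFieldFullC ↥E (M * q)) (bgJ ↥(beta0Field A) (M * q))} :
            Set ↥(modularFunctionFieldFullC ↥E (M * q))))),
        (b : ↥(modularFunctionFieldFullC ↥E (M * q))) =
          algebraMap ↥(modularFunctionFieldFullC ↥(beta0Field A) (M * q))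
            ↥(modularFunctionFieldFullC ↥E (M * q))
            (bK : ↥(modularFunctionFieldFullC ↥(beta0Field A) (M * q))) →
        bK ∈ 𝔫K.1 → b ∈ 𝔫E.1) ∧
      atThrough 𝔫E (mgvV hπ₁ ιC₁ hq hqM c) ∧
      ∀ (g : ↥E ≃ₐ[↥(beta0Field A)] ↥E)
        (b b' : ↥(zchClosure (A₀ := ↥(beta0Ring A E))
          ({algebraMap ↥(modularFunctionFieldFullC ↥(beta0Field A) (M * q))
            ↥(modularFunctionFieldFullC ↥E (M * q)) (bgJ ↥(beta0Field A) (M * q))} :
            Set ↥(modularFunctionFieldFullC ↥E (M * q))))),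
        g • algebraMap ↥(modularFunctionFieldFullC ↥E (M * q)) ↥(tres5cL E (M * q) y)
            (b : ↥(modularFunctionFieldFullC ↥E (M * q)))
          = algebraMap ↥(modularFunctionFieldFullC ↥E (M * q)) ↥(tres5cL E (M * q) y)
            (b' : ↥(modularFunctionFieldFullC ↥E (M * q))) →
        b ∈ 𝔫E.1 → b' ∈ 𝔫E.1 := by
  letI := tres5cAlgFF (M * q) h
  letI := tres5kigAlgAA (A := A) h
  letI := tres5kigAlgAF (A := A) h (M * q)
  letI := beta0FieldAlgebra h
  letI := tres5ffAct hq hA h (M * q) y hstabI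
  obtain ⟨𝔫E, h𝔫K, hthrE⟩ := tres5kqi_exists_j hπ₀ hπ₁ ιC₀ ιC₁ hq hqM hA h c 𝔫K hthr
  exact ⟨𝔫E, h𝔫K, hthrE,
    tres5pi_hGn_j hπ₁ ιC₁ hq hqM hA h h2 h3 y hstabI _ (tres5pi_baseIncl_bgJ h (M * q)) 𝔫E⟩

include hπ₀ hπ₁ hq hA ιC₁ hqM h2 h3 in
/-- **(B-pts), concrete, chart `1 / j`, both halves.** -/
theorem tres5kqi_point_jinv (c : Bool)
    (𝔫K : AtPt (F := ↥(modularFunctionFieldFullC ↥(beta0Field A) (M * q))) π₀
      (bgJ ↥(beta0Field A) (M * q))⁻¹)
    (hthr : atThrough 𝔫K (mgvV hπ₀ ιC₀ hq hqM c)) :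
    letI := tres5cAlgFF (M * q) h
    letI := tres5kigAlgAA (A := A) h
    letI := tres5kigAlgAF (A := A) h (M * q)
    letI := beta0FieldAlgebra h
    letI := tres5ffAct hq hA h (M * q) y hstabI
    ∃ 𝔫E : AtPt (F := ↥(modularFunctionFieldFullC ↥E (M * q))) π₁
        (algebraMap ↥(modularFunctionFieldFullC ↥(beta0Field A) (M * q))
          ↥(modularFunctionFieldFullC ↥E (M * q)) (bgJ ↥(beta0Field A) (M * q))⁻¹),
      (∀ (bK : ↥(zchClosure (A₀ := ↥(beta0Ring A (beta0Field A)))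
          ({(bgJ ↥(beta0Field A) (M * q))⁻¹} :
            Set ↥(modularFunctionFieldFullC ↥(beta0Field A) (M * q)))))
        (b : ↥(zchClosure (A₀ := ↥(beta0Ring A E))
          ({algebraMap ↥(modularFunctionFieldFullC ↥(beta0Field A) (M * q))
            ↥(modularFunctionFieldFullC ↥E (M * q)) (bgJ ↥(beta0Field A) (M * q))⁻¹} :
            Set ↥(modularFunctionFieldFullC ↥E (M * q))))),
        (b : ↥(modularFunctionFieldFullC ↥E (M * q))) =
          algebraMap ↥(modularFunctionFieldFullC ↥(beta0Field A) (M * q))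
            ↥(modularFunctionFieldFullC ↥E (M * q))
            (bK : ↥(modularFunctionFieldFullC ↥(beta0Field A) (M * q))) →
        bK ∈ 𝔫K.1 → b ∈ 𝔫E.1) ∧
      atThrough 𝔫E (mgvV hπ₁ ιC₁ hq hqM c) ∧
      ∀ (g : ↥E ≃ₐ[↥(beta0Field A)] ↥E)
        (b b' : ↥(zchClosure (A₀ := ↥(beta0Ring A E))
          ({algebraMap ↥(modularFunctionFieldFullC ↥(beta0Field A) (M * q))
            ↥(modularFunctionFieldFullC ↥E (M * q)) (bgJ ↥(beta0Field A) (M * q))⁻¹} :
            Set ↥(modularFunctionFieldFullC ↥E (M * q))))),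
        g • algebraMap ↥(modularFunctionFieldFullC ↥E (M * q)) ↥(tres5cL E (M * q) y)
            (b : ↥(modularFunctionFieldFullC ↥E (M * q)))
          = algebraMap ↥(modularFunctionFieldFullC ↥E (M * q)) ↥(tres5cL E (M * q) y)
            (b' : ↥(modularFunctionFieldFullC ↥E (M * q))) →
        b ∈ 𝔫E.1 → b' ∈ 𝔫E.1 := by
  letI := tres5cAlgFF (M * q) h
  letI := tres5kigAlgAA (A := A) h
  letI := tres5kigAlgAF (A := A) h (M * q)
  letI := beta0FieldAlgebra h
  letI := tres5ffAct hq hA h (M * q) y hstabI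
  obtain ⟨𝔫E, h𝔫K, hthrE⟩ := tres5kqi_exists_jinv hπ₀ hπ₁ ιC₀ ιC₁ hq hqM hA h c 𝔫K hthr
  exact ⟨𝔫E, h𝔫K, hthrE,
    tres5pi_hGn_jinv hπ₁ ιC₁ hq hqM hA h h2 h3 y hstabI _
      (tres5pi_baseIncl_bgJ_inv h (M * q)) 𝔫E⟩

end Point

end Conc

end Fermat.Agent.R38
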