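/-
ROW 38, TRES, piece FAC-KFORM, Layer 3 (helper48): THE CONCRETE `hsplitJ` — the split structure
of the cover `L_K / F_{Mq}(K)`, `K = ℚ̄^I = beta0Field A`, at EVERY closed point of a chart of
`X₀(M q)` over `A ∩ K` lying on the component `V_∞`, WITH the step relation of the descended deck
transformation `ρK`.

Concrete frame of helper47's `R38/TresKFormPtsInst.lean`: `E ⊇ K` (`h : beta0Field A ≤ E`),
`A_K = beta0Ring A K`, `A_E = beta0Ring A E` discrete valuation rings, `F_K = F_{Mq}(K)`,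
`F_E = F_{Mq}(E)`, `L_K = tres5cL K (M q) y`, `L_E = tres5cL E (M q) y` (helper78),
`G = Gal(E / K)` acting coefficientwise on `L_E` (helper29 `tres5ffAct`), Gauss sheet
`W₀ = tres5kivW` (helper53).

* `tres5kic_pi_dvd`      : `hpK`, the uniformizer of `A_K` divides the residue characteristic;
* `tres5kic_hsplit_chart`: **Layer 3, any chart** `tK ∈ F_K` with `E`-chart `tE = incl tK`:
     from `hBig` (the split structure over `E` at the closed points of the `E`-chart on `V_∞`,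
     with the deck congruences, FAC-BIG at the points) the body of `hsplitJ` of `tresmt_loc`
     at every closed point of the `K`-chart on `V_∞`
     (= helper64's `tres5kin_hsplitJ_abs` = `tres5ki_hsplit_abs` + step, all instances plugged in);
* `tres5kic_hsplitJ`     : the chart `j` — VERBATIM `hsplitJ` of helper41's `tresmt_loc` /
     `hKF` of helper92's `tres5npa_all` at `L := L_K`;
* `tres5kic_hsplitJinv`  : the chart `1 / j` (all closed points on `V_∞`, with the step).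
-/
import Fermat.Agent.R38.TresKFormInstN
import Fermat.Agent.R38.TresKFormPtsInst
import Fermat.Agent.R38.TresFixFInst2

set_option autoImplicit false
set_option linter.style.haveILetI false
set_option linter.unusedSectionVars false
set_option linter.unusedVariables false
set_option linter.style.longLine false
set_option synthInstance.maxHeartbeats 400000
set_option maxHeartbeats 1600000

noncomputable section

open ModularCurve Polynomial Fermat.Agent.INJ Fermat.Agent.UNIP IntermediateField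
  Fermat.Agent.RIB.MP

namespace Fermat.Agent.R38


section Conc

variable {A : ValuationSubring NfQb} {q M : ℕ} [NeZero q] [NeZero M] [NeZero (M * q)]
  {E : IntermediateField ℚ NfQb}
  [IsDiscreteValuationRing ↥(beta0Ring A (beta0Field A))]
  {π₀ : ↥(beta0Ring A (beta0Field A))} (hπ₀ : Irreducible π₀)
  [IsDiscreteValuationRing ↥(beta0Ring A E)] {π₁ : ↥(beta0Ring A E)} (hπ₁ : Irreducible π₁)
  (ιC₀ : ↥(beta0Field A) →+* ℂ) (ιC₁ : ↥E →+* ℂ)
  (hq : q.Prime) (hqM : ¬ q ∣ M) (hA : A.LiesOverPrime q) (h : beta0Field A ≤ E)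
  (y : LaurentSeries NfQb)
  (hstabI : ∀ σ ∈ A.inertiaSubgroupIn ℚ, ∀ x ∈ tres5cField (M * q) y,
    coeffMap ((σ : NfQb ≃ₐ[ℚ] NfQb) : NfQb →+* NfQb) x ∈ tres5cField (M * q) y)

include hπ₀ hA in
/-- **(hpK)** the uniformizer of `A ∩ K` divides the residue characteristic -/
theorem tres5kic_pi_dvd : π₀ ∣ ((q : ℕ) : ↥(beta0Ring A (beta0Field A))) := by
  have hmem : ((q : ℕ) : ↥(beta0Ring A (beta0Field A))) ∈
      IsLocalRing.maximalIdeal ↥(beta0Ring A (beta0Field A)) := by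
    rw [beta0Ring_mem_maximalIdeal_iff]
    have : ((((q : ℕ) : ↥(beta0Ring A (beta0Field A))) : ↥(beta0Field A)) : NfQb)
        = ((q : ℕ) : NfQb) := by simp
    rw [this]
    exact hA
  rw [(IsDiscreteValuationRing.irreducible_iff_uniformizer π₀).1 hπ₀] at hmem
  exact Ideal.mem_span_singleton.1 hmem

include hπ₀ hπ₁ hq hA in
/-- **Layer 3, any chart.**  `tK ∈ F_K` a chart coordinate with `E`-chart `tE = incl tK` lying in
`V_∞` (`hBV`), `F_E / E(tE)` finite; `ρ` an automorphism of `L_E / F_E` commuting with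
`G = Gal(E / K)`, `ρK` its descent to `L_K`; `hBig` : the split structure with the congruences of
`ρ` at every closed point of the `E`-chart on `V_∞`.  Then at every closed point of the `K`-chart
on `V_∞` the cover `L_K / F_K` has the split structure, with the step relation of `ρK`. -/
theorem tres5kic_hsplit_chart [Fact q.Prime]
    (tK : ↥(modularFunctionFieldFullC ↥(beta0Field A) (M * q)))
    (tE : ↥(modularFunctionFieldFullC ↥E (M * q)))
    (ht : tres5cBaseIncl (M * q) h tK = tE)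
    (hfdK : FiniteDimensional (↥(beta0Field A))⟮tK⟯
      ↥(modularFunctionFieldFullC ↥(beta0Field A) (M * q)))
    (hfd : FiniteDimensional (↥E)⟮tE⟯ ↥(modularFunctionFieldFullC ↥E (M * q)))
    (hBV : ∀ x : ↥(modularFunctionFieldFullC ↥E (M * q)),
      IsIntegral ↥(Algebra.adjoin ↥(beta0Ring A E)
        ({tE} : Set ↥(modularFunctionFieldFullC ↥E (M * q)))) x →
      x ∈ mgvV hπ₁ ιC₁ hq hqM true)
    (hE : ∀ σ ∈ A.inertiaSubgroupIn ℚ, ∀ x ∈ E, σ x ∈ E)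
    (hfinE : letI := beta0FieldAlgebra h
      FiniteDimensional ↥(beta0Field A) ↥E)
    (hfrac : ∀ x : ↥(tres5cL E (M * q) y),
      VtFrac (algebraMap ↥(beta0Ring A E) ↥E) (tres5kivEmb (E := E) (M * q) y x))
    (hfin : Module.finrank ↥(modularFunctionFieldFullC ↥E (M * q)) ↥(tres5cL E (M * q) y) = q)
    (ρ : ↥(tres5cL E (M * q) y) ≃ₐ[↥(modularFunctionFieldFullC ↥E (M * q))]
      ↥(tres5cL E (M * q) y))
    (hρG : letI := beta0FieldAlgebra h
      letI := tres5ffAct hq hA h (M * q) y hstabI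
      ∀ (g : ↥E ≃ₐ[↥(beta0Field A)] ↥E) (x : ↥(tres5cL E (M * q) y)), ρ (g • x) = g • ρ x)
    (hBig : ∀ 𝔫E : AtPt (F := ↥(modularFunctionFieldFullC ↥E (M * q))) π₁ tE,
      atThrough 𝔫E (mgvV hπ₁ ιC₁ hq hqM true) →
      ∀ [IsLocalRing ↥(atLoc 𝔫E)]
        [IsFractionRing ↥(atLoc 𝔫E) ↥(modularFunctionFieldFullC ↥E (M * q))]
        [IsIntegrallyClosed ↥(atLoc 𝔫E)] [Algebra ↥(atLoc 𝔫E) ↥(tres5cL E (M * q) y)]
        [IsScalarTower ↥(atLoc 𝔫E) ↥(modularFunctionFieldFullC ↥E (M * q))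
          ↥(tres5cL E (M * q) y)],
        ∃ (z : ↥(tres5cL E (M * q) y)) (P : (↥(atLoc 𝔫E))[X]) (c : ZMod q → ↥(atLoc 𝔫E)),
          Tres5eSplit ↥(modularFunctionFieldFullC ↥E (M * q)) z P c ∧
          ∀ i : ZMod q, ∃ b ∈ tres5eMax ↥(atLoc 𝔫E) z (c i),
            ρ z = algebraMap ↥(atLoc 𝔫E) ↥(tres5cL E (M * q) y) (c (i + 1)) +
              (b : ↥(tres5cL E (M * q) y)))
    (ρK : ↥(tres5cL (beta0Field A) (M * q) y) →ₐ[↥(modularFunctionFieldFullC
      ↥(beta0Field A) (M * q))] ↥(tres5cL (beta0Field A) (M * q) y))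
    (hρK : ∀ f : ↥(tres5cL (beta0Field A) (M * q) y),
      tres5cIncl (M * q) y h (ρK f) = ρ (tres5cIncl (M * q) y h f)) :
    ∀ 𝔫 : AtPt (F := ↥(modularFunctionFieldFullC ↥(beta0Field A) (M * q))) π₀ tK,
      atThrough 𝔫 (mgvV hπ₀ ιC₀ hq hqM true) → ∀ [IsLocalRing ↥(atLoc 𝔫)],
        letI : Algebra ↥(atLoc 𝔫) ↥(tres5cL (beta0Field A) (M * q) y) :=
          Algebra.ofSubsemiring (atLoc 𝔫)
        ∃ (z : ↥(tres5cL (beta0Field A) (M * q) y)) (P : (↥(atLoc 𝔫))[X])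
          (c : ZMod q → ↥(atLoc 𝔫)),
          Tres5eSplit ↥(modularFunctionFieldFullC ↥(beta0Field A) (M * q)) z P c ∧
          ∀ i : ZMod q, ∃ b ∈ tres5eMax ↥(atLoc 𝔫) z (c i),
            ρK z = algebraMap ↥(atLoc 𝔫) ↥(tres5cL (beta0Field A) (M * q) y) (c (i + 1)) +
              (b : ↥(tres5cL (beta0Field A) (M * q) y)) := by
  intro 𝔫 hthr iloc
  subst ht
  letI iAK : Algebra ↥(atLoc 𝔫) ↥(tres5cL (beta0Field A) (M * q) y) :=
    Algebra.ofSubsemiring (atLoc 𝔫)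
  letI := tres5cAlgFF (K := beta0Field A) (E := E) (M * q) h
  letI := tres5kigAlgAA (A := A) h
  letI := tres5kigAlgAF (A := A) h (M * q)
  letI := beta0FieldAlgebra h
  letI := tres5ffAct hq hA h (M * q) y hstabI
  letI := tres5cAlgLL (K := beta0Field A) (E := E) (M * q) y h
  letI := tres5cAlgFL (K := beta0Field A) (E := E) (M * q) y h
  haveI := tres5kig_tower_AAF (A := A) h (M * q)
  haveI := tres5kig_tower_AFF (A := A) h (M * q)
  haveI := tres5kig_isIntegral hq hA h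
  haveI := tres5c_tower_FFL (K := beta0Field A) (E := E) (M * q) y h
  haveI := tres5c_tower_FLL (K := beta0Field A) (E := E) (M * q) y h
  haveI := tres5ff_inst_finite h hfinE
  haveI : FiniteDimensional
      (↥E)⟮algebraMap ↥(modularFunctionFieldFullC ↥(beta0Field A) (M * q))
        ↥(modularFunctionFieldFullC ↥E (M * q)) tK⟯ ↥(modularFunctionFieldFullC ↥E (M * q)) := hfd
  haveI : FiniteDimensional (↥(beta0Field A))⟮tK⟯
      ↥(modularFunctionFieldFullC ↥(beta0Field A) (M * q)) := hfdK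
  -- the Gauss sheet lies over `V_∞`
  have hW₀V : ∀ x ∈ mgvV hπ₁ ιC₁ hq hqM true,
      algebraMap ↥(modularFunctionFieldFullC ↥E (M * q)) ↥(tres5cL E (M * q) y) x ∈
        tres5kivW hπ₁ (M * q) y hfrac := by
    intro x hx
    have hc : (tres5kivW hπ₁ (M * q) y hfrac).comap
        (algebraMap ↥(modularFunctionFieldFullC ↥E (M * q)) ↥(tres5cL E (M * q) y)) =
        mgvV hπ₁ ιC₁ hq hqM true := tres5kivW_comap_vtInf hπ₁ (M * q) y hfrac
    rw [← hc] at hx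
    exact hx
  haveI hfrK : IsFractionRing ↥(atLoc 𝔫) ↥(modularFunctionFieldFullC ↥(beta0Field A) (M * q)) :=
    tres5bp_isFractionRing (A₀ := ↥(beta0Ring A (beta0Field A))) (E := ↥(beta0Field A)) tK 𝔫
  haveI hicK : IsIntegrallyClosed ↥(atLoc 𝔫) :=
    tres5bp_isIntegrallyClosed (A₀ := ↥(beta0Ring A (beta0Field A))) (E := ↥(beta0Field A)) tK 𝔫
  haveI towK : IsScalarTower ↥(atLoc 𝔫) ↥(modularFunctionFieldFullC ↥(beta0Field A) (M * q))
      ↥(tres5cL (beta0Field A) (M * q) y) := IsScalarTower.of_algebraMap_eq fun _ => rfl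
  exact tres5kin_hsplitJ_abs (G := ↥E ≃ₐ[↥(beta0Field A)] ↥E) (EE := ↥E)
    (AE := ↥(beta0Ring A E)) (AK := ↥(beta0Ring A (beta0Field A)))
    (FE := ↥(modularFunctionFieldFullC ↥E (M * q)))
    (FK := ↥(modularFunctionFieldFullC ↥(beta0Field A) (M * q)))
    (L := ↥(tres5cL E (M * q) y)) (LK := ↥(tres5cL (beta0Field A) (M * q) y)) (p := q)
    hπ₁ (tres5kqi_pi_ne_zero hπ₀ h) (tres5kic_pi_dvd hπ₀ hA)
    (mgvV hπ₁ ιC₁ hq hqM true) (mgvV hπ₀ ιC₀ hq hqM true) hBV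
    (tres5kiv_hVK hπ₀ hπ₁ ιC₀ ιC₁ hq hqM h true)
    (tres5kivW hπ₁ (M * q) y hfrac) hW₀V
    (tres5kivW_smul_mem hπ₁ hq hA h (M * q) y hstabI hfrac)
    (tres5kivW_sub_mem hπ₁ hq hA h (M * q) y hstabI hfrac)
    (fun g x => (tres5ff_inst_hGF hq hA h (M * q) y hstabI g x).imp fun _ hx => hx.1)
    (fun g a => (tres5ff_inst_hGA hq hA h (M * q) y hstabI g a).imp fun _ ha => ha.1)
    (fun g => tres5ff_inst_hGt hq hA h (M * q) y hstabI g tK)
    (tres5ff_inst_hGLK hq hA h (M * q) y hstabI)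
    (tres5ff_inst_hfixL hq hA h (M * q) y hstabI hE)
    (tres5ff_inst_hfixF hq hA h (M * q) y hstabI hE)
    hfin ρ hρG hBig 𝔫 hthr ρK hρK

include hπ₀ hπ₁ hq hA in
/-- **Layer 3, chart `j`** = `hsplitJ` of `tresmt_loc` (helper41) / `hKF` of `tres5npa_all`
(helper92), VERBATIM at `L := L_K`. -/
theorem tres5kic_hsplitJ [Fact q.Prime]
    (hE : ∀ σ ∈ A.inertiaSubgroupIn ℚ, ∀ x ∈ E, σ x ∈ E)
    (hfinE : letI := beta0FieldAlgebra h
      FiniteDimensional ↥(beta0Field A) ↥E)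
    (hfrac : ∀ x : ↥(tres5cL E (M * q) y),
      VtFrac (algebraMap ↥(beta0Ring A E) ↥E) (tres5kivEmb (E := E) (M * q) y x))
    (hfin : Module.finrank ↥(modularFunctionFieldFullC ↥E (M * q)) ↥(tres5cL E (M * q) y) = q)
    (ρ : ↥(tres5cL E (M * q) y) ≃ₐ[↥(modularFunctionFieldFullC ↥E (M * q))]
      ↥(tres5cL E (M * q) y))
    (hρG : letI := beta0FieldAlgebra h
      letI := tres5ffAct hq hA h (M * q) y hstabI
      ∀ (g : ↥E ≃ₐ[↥(beta0Field A)] ↥E) (x : ↥(tres5cL E (M * q) y)), ρ (g • x) = g • ρ x)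
    (hBig : ∀ 𝔫E : AtPt (F := ↥(modularFunctionFieldFullC ↥E (M * q))) π₁ (bgJ ↥E (M * q)),
      atThrough 𝔫E (mgvV hπ₁ ιC₁ hq hqM true) →
      ∀ [IsLocalRing ↥(atLoc 𝔫E)]
        [IsFractionRing ↥(atLoc 𝔫E) ↥(modularFunctionFieldFullC ↥E (M * q))]
        [IsIntegrallyClosed ↥(atLoc 𝔫E)] [Algebra ↥(atLoc 𝔫E) ↥(tres5cL E (M * q) y)]
        [IsScalarTower ↥(atLoc 𝔫E) ↥(modularFunctionFieldFullC ↥E (M * q))
          ↥(tres5cL E (M * q) y)],
        ∃ (z : ↥(tres5cL E (M * q) y)) (P : (↥(atLoc 𝔫E))[X]) (c : ZMod q → ↥(atLoc 𝔫E)),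
          Tres5eSplit ↥(modularFunctionFieldFullC ↥E (M * q)) z P c ∧
          ∀ i : ZMod q, ∃ b ∈ tres5eMax ↥(atLoc 𝔫E) z (c i),
            ρ z = algebraMap ↥(atLoc 𝔫E) ↥(tres5cL E (M * q) y) (c (i + 1)) +
              (b : ↥(tres5cL E (M * q) y)))
    (ρK : ↥(tres5cL (beta0Field A) (M * q) y) →ₐ[↥(modularFunctionFieldFullC
      ↥(beta0Field A) (M * q))] ↥(tres5cL (beta0Field A) (M * q) y))
    (hρK : ∀ f : ↥(tres5cL (beta0Field A) (M * q) y),
      tres5cIncl (M * q) y h (ρK f) = ρ (tres5cIncl (M * q) y h f)) :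
    ∀ 𝔫 : AtPt (F := ↥(modularFunctionFieldFullC ↥(beta0Field A) (M * q))) π₀ (bgJ ↥(beta0Field A) (M * q)),
      atThrough 𝔫 (mgvV hπ₀ ιC₀ hq hqM true) → ∀ [IsLocalRing ↥(atLoc 𝔫)],
        letI : Algebra ↥(atLoc 𝔫) ↥(tres5cL (beta0Field A) (M * q) y) :=
          Algebra.ofSubsemiring (atLoc 𝔫)
        ∃ (z : ↥(tres5cL (beta0Field A) (M * q) y)) (P : (↥(atLoc 𝔫))[X])
          (c : ZMod q → ↥(atLoc 𝔫)),
          Tres5eSplit ↥(modularFunctionFieldFullC ↥(beta0Field A) (M * q)) z P c ∧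
          ∀ i : ZMod q, ∃ b ∈ tres5eMax ↥(atLoc 𝔫) z (c i),
            ρK z = algebraMap ↥(atLoc 𝔫) ↥(tres5cL (beta0Field A) (M * q) y) (c (i + 1)) +
              (b : ↥(tres5cL (beta0Field A) (M * q) y)) :=
  tres5kic_hsplit_chart hπ₀ hπ₁ ιC₀ ιC₁ hq hqM hA h y hstabI _ _
    (tres5pi_baseIncl_bgJ h (M * q)) (ribmp_fc_fin (K₀ := beta0Field A) (M * q))
    (ribmp_fc_fin (K₀ := E) (M * q)) (mgv_hBV₁ hπ₁ ιC₁ hq hqM true)
    hE hfinE hfrac hfin ρ hρG hBig ρK hρK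

include hπ₀ hπ₁ hq hA in
/-- **Layer 3, chart `1 / j`**, all closed points on `V_∞`, with the step relation of `ρK`. -/
theorem tres5kic_hsplitJinv [Fact q.Prime]
    (hE : ∀ σ ∈ A.inertiaSubgroupIn ℚ, ∀ x ∈ E, σ x ∈ E)
    (hfinE : letI := beta0FieldAlgebra h
      FiniteDimensional ↥(beta0Field A) ↥E)
    (hfrac : ∀ x : ↥(tres5cL E (M * q) y),
      VtFrac (algebraMap ↥(beta0Ring A E) ↥E) (tres5kivEmb (E := E) (M * q) y x))
    (hfin : Module.finrank ↥(modularFunctionFieldFullC ↥E (M * q)) ↥(tres5cL E (M * q) y) = q)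
    (ρ : ↥(tres5cL E (M * q) y) ≃ₐ[↥(modularFunctionFieldFullC ↥E (M * q))]
      ↥(tres5cL E (M * q) y))
    (hρG : letI := beta0FieldAlgebra h
      letI := tres5ffAct hq hA h (M * q) y hstabI
      ∀ (g : ↥E ≃ₐ[↥(beta0Field A)] ↥E) (x : ↥(tres5cL E (M * q) y)), ρ (g • x) = g • ρ x)
    (hBig : ∀ 𝔫E : AtPt (F := ↥(modularFunctionFieldFullC ↥E (M * q))) π₁ (bgJ ↥E (M * q))⁻¹,
      atThrough 𝔫E (mgvV hπ₁ ιC₁ hq hqM true) →
      ∀ [IsLocalRing ↥(atLoc 𝔫E)]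
        [IsFractionRing ↥(atLoc 𝔫E) ↥(modularFunctionFieldFullC ↥E (M * q))]
        [IsIntegrallyClosed ↥(atLoc 𝔫E)] [Algebra ↥(atLoc 𝔫E) ↥(tres5cL E (M * q) y)]
        [IsScalarTower ↥(atLoc 𝔫E) ↥(modularFunctionFieldFullC ↥E (M * q))
          ↥(tres5cL E (M * q) y)],
        ∃ (z : ↥(tres5cL E (M * q) y)) (P : (↥(atLoc 𝔫E))[X]) (c : ZMod q → ↥(atLoc 𝔫E)),
          Tres5eSplit ↥(modularFunctionFieldFullC ↥E (M * q)) z P c ∧
          ∀ i : ZMod q, ∃ b ∈ tres5eMax ↥(atLoc 𝔫E) z (c i),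
            ρ z = algebraMap ↥(atLoc 𝔫E) ↥(tres5cL E (M * q) y) (c (i + 1)) +
              (b : ↥(tres5cL E (M * q) y)))
    (ρK : ↥(tres5cL (beta0Field A) (M * q) y) →ₐ[↥(modularFunctionFieldFullC
      ↥(beta0Field A) (M * q))] ↥(tres5cL (beta0Field A) (M * q) y))
    (hρK : ∀ f : ↥(tres5cL (beta0Field A) (M * q) y),
      tres5cIncl (M * q) y h (ρK f) = ρ (tres5cIncl (M * q) y h f)) :
    ∀ 𝔫 : AtPt (F := ↥(modularFunctionFieldFullC ↥(beta0Field A) (M * q))) π₀ (bgJ ↥(beta0Field A) (M * q))⁻¹,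
      atThrough 𝔫 (mgvV hπ₀ ιC₀ hq hqM true) → ∀ [IsLocalRing ↥(atLoc 𝔫)],
        letI : Algebra ↥(atLoc 𝔫) ↥(tres5cL (beta0Field A) (M * q) y) :=
          Algebra.ofSubsemiring (atLoc 𝔫)
        ∃ (z : ↥(tres5cL (beta0Field A) (M * q) y)) (P : (↥(atLoc 𝔫))[X])
          (c : ZMod q → ↥(atLoc 𝔫)),
          Tres5eSplit ↥(modularFunctionFieldFullC ↥(beta0Field A) (M * q)) z P c ∧
          ∀ i : ZMod q, ∃ b ∈ tres5eMax ↥(atLoc 𝔫) z (c i),
            ρK z = algebraMap ↥(atLoc 𝔫) ↥(tres5cL (beta0Field A) (M * q) y) (c (i + 1)) +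
              (b : ↥(tres5cL (beta0Field A) (M * q) y)) :=
  tres5kic_hsplit_chart hπ₀ hπ₁ ιC₀ ιC₁ hq hqM hA h y hstabI _ _
    (tres5pi_baseIncl_bgJ_inv h (M * q)) (ribmp_fc_fin_inv (K₀ := beta0Field A) (M * q))
    (ribmp_fc_fin_inv (K₀ := E) (M * q)) (mgv_hBV₂ hπ₁ ιC₁ hq hqM true)
    hE hfinE hfrac hfin ρ hρG hBig ρK hρK

end Conc

end Fermat.Agent.R38

end
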