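import Fermat.Agent.R38.TresKFormInstA
import Fermat.Agent.R38.TresKFormPtsInst
import Fermat.Agent.R38.TresFixFInst2

/-!
# Row 38, TRES, K-FORM (B) instance, LAYER 3 at the chart `1 / j` (helper52): `hsplitC`

Concrete frame of helper47's `R38/TresKFormPtsInst.lean`: `A` over `q`, `K = beta0Field A = ℚ̄^I`,
`E ⊇ K` finite and `I`-stable, `A_K ⊂ A_E` discrete valuation rings, `F_K = F_{Mq}(K)`,
`F_E = F_{Mq}(E)`, covers `L_K = tres5cL K (Mq) y ⊂ L_E = tres5cL E (Mq) y`, `G = Gal(E / K)`,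
`V_∞ = mgvV … true`, Gauss sheet `W₀ = tres5kivW` of `L_E`.

* `tres5kicv_hsplit_gen` : helper48's `tres5ki_hsplit_abs` (`R38/TresKFormInstA.lean`) in this
  frame, for ANY chart coordinate `t ∈ F_K` with `E`-model `tE = tres5cBaseIncl t`: all instance
  arguments and the inputs `hπK`, `hpK`, `hVK`, `hW₀V`, `hGW₀`, `hGsub`, `hGF`, `hGA`, `hGt`,
  `hGLK`, `hfixL`, `hfixF` are discharged (helper29, helper53, helper24, helper52).
  LEFT as hypotheses: `hBV` (the `E`-chart lies in `V_∞`), `hfrac` (the Gauss sheet exists),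
  `hfin`, `ρ`, `hρG`, and `hBig` (FAC-BIG at the closed points of the `E`-chart).
* **`tres5kicv_hsplitC`** : the chart `t = 1 / j`: the hypothesis `hsplitC` of helper41's
  `tresmt_loc` (without using the cusp condition) from `hBig` at `(bgJ ↥E (M q))⁻¹`.
* `tres5kicv_hsplitJ0` : the chart `t = j`, split structure only (no step relation).
-/

set_option autoImplicit false
set_option linter.style.haveILetI false
set_option linter.unusedSectionVars false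
set_option linter.unusedVariables false
set_option linter.style.longLine false
set_option synthInstance.maxHeartbeats 400000
set_option maxHeartbeats 1000000

noncomputable section

open ModularCurve Fermat.Agent.INJ Fermat.Agent.UNIP IntermediateField Fermat.Agent.RIB.MP
  Polynomial

namespace Fermat.Agent.R38

/-! ### The generic instances `Algebra ↥S L`, `IsScalarTower ↥S F L` for a subring `S ⊆ F`

In the concrete frame the instance problem `Algebra ↥(atLoc 𝔫) ↥(tres5cL K N y)` TIMES OUT; the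
consumers (`tresmt_loc`, `tres5npc_hcusp`, …) are stated for an abstract `L`, where Lean finds
`Algebra.ofSubsemiring`.  We name that instance and pass it explicitly. -/

section GenericInst

variable {F L : Type*} [Field F] [Field L] [Algebra F L]

/-- the `S`-algebra structure of `L` Lean finds for a subring `S ⊆ F` (`Algebra.ofSubsemiring`) -/
@[reducible] def tres5kicvAlg (S : Subring F) : Algebra ↥S L := inferInstance

theorem tres5kicv_tower (S : Subring F) : IsScalarTower ↥S F L := inferInstance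

end GenericInst

section Conc

variable {A : ValuationSubring NfQb} {q M : ℕ} [NeZero q] [NeZero M] [NeZero (M * q)]
  {E : IntermediateField ℚ NfQb}
  [IsDiscreteValuationRing ↥(beta0Ring A (beta0Field A))]
  {π₀ : ↥(beta0Ring A (beta0Field A))} (hπ₀ : Irreducible π₀)
  [IsDiscreteValuationRing ↥(beta0Ring A E)] {π₁ : ↥(beta0Ring A E)} (hπ₁ : Irreducible π₁)
  (ιC₀ : ↥(beta0Field A) →+* ℂ) (ιC₁ : ↥E →+* ℂ)
  (hq : q.Prime) (hqM : ¬ q ∣ M) (hA : A.LiesOverPrime q) (h : beta0Field A ≤ E)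
  (y : LaurentSeries NfQb)
  (hstabI : ∀ σ ∈ A.inertiaSubgroupIn ℚ, ∀ x ∈ tres5cField (M * q) y,
    coeffMap ((σ : NfQb ≃ₐ[ℚ] NfQb) : NfQb →+* NfQb) x ∈ tres5cField (M * q) y)

include hπ₀ hq hA in
/-- **(hpK)** the uniformizer of `A_K` divides the residue characteristic -/
theorem tres5kicv_hpK : π₀ ∣ ((q : ℕ) : ↥(beta0Ring A (beta0Field A))) :=
  (IsDiscreteValuationRing.associated_of_irreducible _ hπ₀
    (beta0Ring_irreducible_q hq hA)).dvd

include hπ₀ hπ₁ hq hA in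
/-- **Layer 3, chart-generic, concrete frame.** -/
theorem tres5kicv_hsplit_gen
    (t : ↥(modularFunctionFieldFullC ↥(beta0Field A) (M * q)))
    (tE : ↥(modularFunctionFieldFullC ↥E (M * q)))
    (ht : tres5cBaseIncl (M * q) h t = tE)
    [FiniteDimensional (↥(beta0Field A))⟮t⟯ ↥(modularFunctionFieldFullC ↥(beta0Field A) (M * q))]
    [FiniteDimensional (↥E)⟮tE⟯ ↥(modularFunctionFieldFullC ↥E (M * q))]
    (hBV : ∀ x : ↥(modularFunctionFieldFullC ↥E (M * q)),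
      IsIntegral ↥(Algebra.adjoin ↥(beta0Ring A E)
        ({tE} : Set ↥(modularFunctionFieldFullC ↥E (M * q)))) x →
      x ∈ mgvV hπ₁ ιC₁ hq hqM true)
    (hE : ∀ σ ∈ A.inertiaSubgroupIn ℚ, ∀ x ∈ E, σ x ∈ E)
    (hfinE : letI := beta0FieldAlgebra h
      FiniteDimensional ↥(beta0Field A) ↥E)
    (hfrac : ∀ x : ↥(tres5cL E (M * q) y),
      VtFrac (algebraMap ↥(beta0Ring A E) ↥E) (tres5kivEmb (E := E) (M * q) y x))
    (hfin : Module.finrank ↥(modularFunctionFieldFullC ↥E (M * q)) ↥(tres5cL E (M * q) y) = q)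
    (ρ : ↥(tres5cL E (M * q) y) ≃ₐ[↥(modularFunctionFieldFullC ↥E (M * q))]
      ↥(tres5cL E (M * q) y))
    (hρG : letI := beta0FieldAlgebra h
      letI := tres5ffAct hq hA h (M * q) y hstabI
      ∀ (g : ↥E ≃ₐ[↥(beta0Field A)] ↥E) (x : ↥(tres5cL E (M * q) y)), ρ (g • x) = g • ρ x)
    (hBig : ∀ 𝔫E : AtPt (F := ↥(modularFunctionFieldFullC ↥E (M * q))) π₁ tE,
      atThrough 𝔫E (mgvV hπ₁ ιC₁ hq hqM true) →
      ∀ [IsLocalRing ↥(atLoc 𝔫E)]
        [IsFractionRing ↥(atLoc 𝔫E) ↥(modularFunctionFieldFullC ↥E (M * q))]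
        [IsIntegrallyClosed ↥(atLoc 𝔫E)] [Algebra ↥(atLoc 𝔫E) ↥(tres5cL E (M * q) y)]
        [IsScalarTower ↥(atLoc 𝔫E) ↥(modularFunctionFieldFullC ↥E (M * q))
          ↥(tres5cL E (M * q) y)],
        ∃ (z : ↥(tres5cL E (M * q) y)) (P : (↥(atLoc 𝔫E))[X]) (c : ZMod q → ↥(atLoc 𝔫E)),
          Tres5eSplit ↥(modularFunctionFieldFullC ↥E (M * q)) z P c ∧
          ∀ i : ZMod q, ∃ b ∈ tres5eMax ↥(atLoc 𝔫E) z (c i),
            ρ z = algebraMap ↥(atLoc 𝔫E) ↥(tres5cL E (M * q) y) (c (i + 1)) +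
              (b : ↥(tres5cL E (M * q) y)))
    (𝔫K : AtPt (F := ↥(modularFunctionFieldFullC ↥(beta0Field A) (M * q))) π₀ t)
    (hthr : atThrough 𝔫K (mgvV hπ₀ ιC₀ hq hqM true))
    [IsLocalRing ↥(atLoc 𝔫K)]
    [Algebra ↥(atLoc 𝔫K) ↥(tres5cL (beta0Field A) (M * q) y)]
    [IsScalarTower ↥(atLoc 𝔫K) ↥(modularFunctionFieldFullC ↥(beta0Field A) (M * q))
      ↥(tres5cL (beta0Field A) (M * q) y)] :
    ∃ (zK : ↥(tres5cL (beta0Field A) (M * q) y)) (PK : (↥(atLoc 𝔫K))[X]),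
      Tres5eSplit ↥(modularFunctionFieldFullC ↥(beta0Field A) (M * q)) zK PK
        (fun k : ZMod q => ((k.val : ℕ) : ↥(atLoc 𝔫K))) ∧
      Module.finrank ↥(modularFunctionFieldFullC ↥(beta0Field A) (M * q))
        ↥(tres5cL (beta0Field A) (M * q) y) = q ∧
      ρ (tres5cIncl (M * q) y h zK) ≠ tres5cIncl (M * q) y h zK ∧
      ∃ k : ZMod q,
        ∀ (_ : (tres5eMax ↥(atLoc 𝔫K) zK ((k.val : ℕ) : ↥(atLoc 𝔫K))).IsPrime),
          ∀ x ∈ ls_localSubring (F := ↥(tres5cL (beta0Field A) (M * q) y))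
              (tres5eMax ↥(atLoc 𝔫K) zK ((k.val : ℕ) : ↥(atLoc 𝔫K))),
            tres5cIncl (M * q) y h x ∈ tres5kivW hπ₁ (M * q) y hfrac := by
  subst ht
  haveI : Fact q.Prime := ⟨hq⟩
  letI := tres5cAlgFF (M * q) h
  letI := tres5kigAlgAA (A := A) h
  letI := tres5kigAlgAF (A := A) h (M * q)
  letI := tres5cAlgLL (M * q) y h
  letI := tres5cAlgFL (M * q) y h
  haveI := tres5kig_tower_AAF (A := A) h (M * q)
  haveI := tres5kig_tower_AFF (A := A) h (M * q)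
  haveI := tres5c_tower_FFL (M * q) y h
  haveI := tres5c_tower_FLL (M * q) y h
  haveI := tres5kig_isIntegral hq hA h
  letI := beta0FieldAlgebra h
  letI := tres5ffAct hq hA h (M * q) y hstabI
  haveI : Finite (↥E ≃ₐ[↥(beta0Field A)] ↥E) := tres5ff_inst_finite h hfinE
  haveI hfdE : FiniteDimensional
      (↥E)⟮algebraMap ↥(modularFunctionFieldFullC ↥(beta0Field A) (M * q))
        ↥(modularFunctionFieldFullC ↥E (M * q)) t⟯ ↥(modularFunctionFieldFullC ↥E (M * q)) :=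
    ‹FiniteDimensional (↥E)⟮tres5cBaseIncl (M * q) h t⟯ ↥(modularFunctionFieldFullC ↥E (M * q))›
  haveI hfrK : IsFractionRing ↥(atLoc 𝔫K) ↥(modularFunctionFieldFullC ↥(beta0Field A) (M * q)) :=
    tres5bp_isFractionRing (A₀ := ↥(beta0Ring A (beta0Field A))) (E := ↥(beta0Field A)) t 𝔫K
  haveI hicK : IsIntegrallyClosed ↥(atLoc 𝔫K) :=
    tres5bp_isIntegrallyClosed (A₀ := ↥(beta0Ring A (beta0Field A))) (E := ↥(beta0Field A)) t 𝔫K
  have hW₀V : ∀ x ∈ mgvV hπ₁ ιC₁ hq hqM true,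
      algebraMap ↥(modularFunctionFieldFullC ↥E (M * q)) ↥(tres5cL E (M * q) y) x ∈
        tres5kivW hπ₁ (M * q) y hfrac := by
    intro x hx
    have h1 : x ∈ (tres5kivW hπ₁ (M * q) y hfrac).comap
        (algebraMap ↥(modularFunctionFieldFullC ↥E (M * q)) ↥(tres5cL E (M * q) y)) := by
      rw [tres5kivW_comap_vtInf hπ₁ (M * q) y hfrac]
      exact hx
    exact h1
  exact tres5ki_hsplit_abs (G := ↥E ≃ₐ[↥(beta0Field A)] ↥E)
    (L := ↥(tres5cL E (M * q) y))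
    (AE := ↥(beta0Ring A E)) (EE := ↥E) (FE := ↥(modularFunctionFieldFullC ↥E (M * q)))
    (AK := ↥(beta0Ring A (beta0Field A)))
    (FK := ↥(modularFunctionFieldFullC ↥(beta0Field A) (M * q)))
    (LK := ↥(tres5cL (beta0Field A) (M * q) y)) (t := t) (πE := π₁) (πK := π₀) (p := q)
    hπ₁ (tres5kqi_pi_ne_zero hπ₀ h) (tres5kicv_hpK hπ₀ hq hA)
    (mgvV hπ₁ ιC₁ hq hqM true) (mgvV hπ₀ ιC₀ hq hqM true) hBV
    (tres5kiv_hVK hπ₀ hπ₁ ιC₀ ιC₁ hq hqM h true)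
    (tres5kivW hπ₁ (M * q) y hfrac) hW₀V
    (tres5kivW_smul_mem hπ₁ hq hA h (M * q) y hstabI hfrac)
    (tres5kivW_sub_mem hπ₁ hq hA h (M * q) y hstabI hfrac)
    (fun g x => (tres5ff_inst_hGF hq hA h (M * q) y hstabI g x).imp fun _ hx => hx.1)
    (fun g a => (tres5ff_inst_hGA hq hA h (M * q) y hstabI g a).imp fun _ ha => ha.1)
    (fun g => tres5ff_inst_hGt hq hA h (M * q) y hstabI g t)
    (tres5ff_inst_hGLK hq hA h (M * q) y hstabI)
    (tres5ff_inst_hfixL hq hA h (M * q) y hstabI hE)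
    (tres5ff_inst_hfixF hq hA h (M * q) y hstabI hE)
    hfin ρ hρG hBig 𝔫K hthr

include hπ₀ hπ₁ hq hA in
/-- **Layer 3 at the chart `1 / j`: `hsplitC`.**  At EVERY closed point `𝔫` of the chart `1 / j`
of `F_{Mq}(K)` on `V_∞`, the cover `L_K / F_{Mq}(K)` has the split structure (roots
`0, …, q − 1`), from FAC-BIG at the closed points of the chart `1 / j` over `E`. -/
theorem tres5kicv_hsplitC
    (hE : ∀ σ ∈ A.inertiaSubgroupIn ℚ, ∀ x ∈ E, σ x ∈ E)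
    (hfinE : letI := beta0FieldAlgebra h
      FiniteDimensional ↥(beta0Field A) ↥E)
    (hfrac : ∀ x : ↥(tres5cL E (M * q) y),
      VtFrac (algebraMap ↥(beta0Ring A E) ↥E) (tres5kivEmb (E := E) (M * q) y x))
    (hfin : Module.finrank ↥(modularFunctionFieldFullC ↥E (M * q)) ↥(tres5cL E (M * q) y) = q)
    (ρ : ↥(tres5cL E (M * q) y) ≃ₐ[↥(modularFunctionFieldFullC ↥E (M * q))]
      ↥(tres5cL E (M * q) y))
    (hρG : letI := beta0FieldAlgebra h
      letI := tres5ffAct hq hA h (M * q) y hstabI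
      ∀ (g : ↥E ≃ₐ[↥(beta0Field A)] ↥E) (x : ↥(tres5cL E (M * q) y)), ρ (g • x) = g • ρ x)
    (hBig : ∀ 𝔫E : AtPt (F := ↥(modularFunctionFieldFullC ↥E (M * q))) π₁
        (bgJ ↥E (M * q))⁻¹,
      atThrough 𝔫E (mgvV hπ₁ ιC₁ hq hqM true) →
      ∀ [IsLocalRing ↥(atLoc 𝔫E)]
        [IsFractionRing ↥(atLoc 𝔫E) ↥(modularFunctionFieldFullC ↥E (M * q))]
        [IsIntegrallyClosed ↥(atLoc 𝔫E)] [Algebra ↥(atLoc 𝔫E) ↥(tres5cL E (M * q) y)]
        [IsScalarTower ↥(atLoc 𝔫E) ↥(modularFunctionFieldFullC ↥E (M * q))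
          ↥(tres5cL E (M * q) y)],
        ∃ (z : ↥(tres5cL E (M * q) y)) (P : (↥(atLoc 𝔫E))[X]) (c : ZMod q → ↥(atLoc 𝔫E)),
          Tres5eSplit ↥(modularFunctionFieldFullC ↥E (M * q)) z P c ∧
          ∀ i : ZMod q, ∃ b ∈ tres5eMax ↥(atLoc 𝔫E) z (c i),
            ρ z = algebraMap ↥(atLoc 𝔫E) ↥(tres5cL E (M * q) y) (c (i + 1)) +
              (b : ↥(tres5cL E (M * q) y))) :
    ∀ 𝔫 : AtPt (F := ↥(modularFunctionFieldFullC ↥(beta0Field A) (M * q))) π₀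
        (bgJ ↥(beta0Field A) (M * q))⁻¹,
      atThrough 𝔫 (mgvV hπ₀ ιC₀ hq hqM true) →
      ∀ [IsLocalRing ↥(atLoc 𝔫)],
        letI := tres5kicvAlg (L := ↥(tres5cL (beta0Field A) (M * q) y)) (atLoc 𝔫)
        ∃ (z : ↥(tres5cL (beta0Field A) (M * q) y)) (P : (↥(atLoc 𝔫))[X])
          (c : ZMod q → ↥(atLoc 𝔫)),
          Tres5eSplit ↥(modularFunctionFieldFullC ↥(beta0Field A) (M * q)) z P c := by
  intro 𝔫 hthr _
  letI := tres5kicvAlg (L := ↥(tres5cL (beta0Field A) (M * q) y)) (atLoc 𝔫)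
  haveI := tres5kicv_tower (L := ↥(tres5cL (beta0Field A) (M * q) y)) (atLoc 𝔫)
  haveI hfdK : FiniteDimensional (↥(beta0Field A))⟮bgJ ↥(beta0Field A) (M * q)⟯
      ↥(modularFunctionFieldFullC ↥(beta0Field A) (M * q)) :=
    bgFin_finiteDimensional_full (E := ↥(beta0Field A)) (N := M * q)
  haveI hfdK' : FiniteDimensional (↥(beta0Field A))⟮(bgJ ↥(beta0Field A) (M * q))⁻¹⟯
      ↥(modularFunctionFieldFullC ↥(beta0Field A) (M * q)) :=
    at_finiteDimensional_inv _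
  haveI hfdE : FiniteDimensional (↥E)⟮bgJ ↥E (M * q)⟯ ↥(modularFunctionFieldFullC ↥E (M * q)) :=
    bgFin_finiteDimensional_full (E := ↥E) (N := M * q)
  haveI hfdE' : FiniteDimensional (↥E)⟮(bgJ ↥E (M * q))⁻¹⟯
      ↥(modularFunctionFieldFullC ↥E (M * q)) :=
    at_finiteDimensional_inv _
  obtain ⟨zK, PK, hT, -⟩ := tres5kicv_hsplit_gen hπ₀ hπ₁ ιC₀ ιC₁ hq hqM hA h y hstabI
    (bgJ ↥(beta0Field A) (M * q))⁻¹ (bgJ ↥E (M * q))⁻¹ (tres5pi_baseIncl_bgJ_inv h (M * q))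
    (fun x hx => mgv_hBV₂ hπ₁ ιC₁ hq hqM true x hx) hE hfinE hfrac hfin ρ hρG hBig 𝔫 hthr
  exact ⟨zK, PK, _, hT⟩

include hπ₀ hπ₁ hq hA in
/-- **Layer 3 at the chart `j`, split structure only** (the step relation of `hsplitJ` is
helper14's `tresmzi_kd_node` / `tresmzi_hsplit_step_abs`). -/
theorem tres5kicv_hsplitJ0
    (hE : ∀ σ ∈ A.inertiaSubgroupIn ℚ, ∀ x ∈ E, σ x ∈ E)
    (hfinE : letI := beta0FieldAlgebra h
      FiniteDimensional ↥(beta0Field A) ↥E)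
    (hfrac : ∀ x : ↥(tres5cL E (M * q) y),
      VtFrac (algebraMap ↥(beta0Ring A E) ↥E) (tres5kivEmb (E := E) (M * q) y x))
    (hfin : Module.finrank ↥(modularFunctionFieldFullC ↥E (M * q)) ↥(tres5cL E (M * q) y) = q)
    (ρ : ↥(tres5cL E (M * q) y) ≃ₐ[↥(modularFunctionFieldFullC ↥E (M * q))]
      ↥(tres5cL E (M * q) y))
    (hρG : letI := beta0FieldAlgebra h
      letI := tres5ffAct hq hA h (M * q) y hstabI
      ∀ (g : ↥E ≃ₐ[↥(beta0Field A)] ↥E) (x : ↥(tres5cL E (M * q) y)), ρ (g • x) = g • ρ x)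
    (hBig : ∀ 𝔫E : AtPt (F := ↥(modularFunctionFieldFullC ↥E (M * q))) π₁
        (bgJ ↥E (M * q)),
      atThrough 𝔫E (mgvV hπ₁ ιC₁ hq hqM true) →
      ∀ [IsLocalRing ↥(atLoc 𝔫E)]
        [IsFractionRing ↥(atLoc 𝔫E) ↥(modularFunctionFieldFullC ↥E (M * q))]
        [IsIntegrallyClosed ↥(atLoc 𝔫E)] [Algebra ↥(atLoc 𝔫E) ↥(tres5cL E (M * q) y)]
        [IsScalarTower ↥(atLoc 𝔫E) ↥(modularFunctionFieldFullC ↥E (M * q))
          ↥(tres5cL E (M * q) y)],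
        ∃ (z : ↥(tres5cL E (M * q) y)) (P : (↥(atLoc 𝔫E))[X]) (c : ZMod q → ↥(atLoc 𝔫E)),
          Tres5eSplit ↥(modularFunctionFieldFullC ↥E (M * q)) z P c ∧
          ∀ i : ZMod q, ∃ b ∈ tres5eMax ↥(atLoc 𝔫E) z (c i),
            ρ z = algebraMap ↥(atLoc 𝔫E) ↥(tres5cL E (M * q) y) (c (i + 1)) +
              (b : ↥(tres5cL E (M * q) y))) :
    ∀ 𝔫 : AtPt (F := ↥(modularFunctionFieldFullC ↥(beta0Field A) (M * q))) π₀
        (bgJ ↥(beta0Field A) (M * q)),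
      atThrough 𝔫 (mgvV hπ₀ ιC₀ hq hqM true) →
      ∀ [IsLocalRing ↥(atLoc 𝔫)],
        letI := tres5kicvAlg (L := ↥(tres5cL (beta0Field A) (M * q) y)) (atLoc 𝔫)
        ∃ (z : ↥(tres5cL (beta0Field A) (M * q) y)) (P : (↥(atLoc 𝔫))[X])
          (c : ZMod q → ↥(atLoc 𝔫)),
          Tres5eSplit ↥(modularFunctionFieldFullC ↥(beta0Field A) (M * q)) z P c := by
  intro 𝔫 hthr _
  letI := tres5kicvAlg (L := ↥(tres5cL (beta0Field A) (M * q) y)) (atLoc 𝔫)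
  haveI := tres5kicv_tower (L := ↥(tres5cL (beta0Field A) (M * q) y)) (atLoc 𝔫)
  haveI hfdK : FiniteDimensional (↥(beta0Field A))⟮bgJ ↥(beta0Field A) (M * q)⟯
      ↥(modularFunctionFieldFullC ↥(beta0Field A) (M * q)) :=
    bgFin_finiteDimensional_full (E := ↥(beta0Field A)) (N := M * q)
  haveI hfdE : FiniteDimensional (↥E)⟮bgJ ↥E (M * q)⟯ ↥(modularFunctionFieldFullC ↥E (M * q)) :=
    bgFin_finiteDimensional_full (E := ↥E) (N := M * q)
  obtain ⟨zK, PK, hT, -⟩ := tres5kicv_hsplit_gen hπ₀ hπ₁ ιC₀ ιC₁ hq hqM hA h y hstabI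
    (bgJ ↥(beta0Field A) (M * q)) (bgJ ↥E (M * q)) (tres5pi_baseIncl_bgJ h (M * q))
    (fun x hx => mgv_hBV₁ hπ₁ ιC₁ hq hqM true x hx) hE hfinE hfrac hfin ρ hρG hBig 𝔫 hthr
  exact ⟨zK, PK, _, hT⟩

end Conc

end Fermat.Agent.R38
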