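import Fermat.Agent.R38.TresKFormInstCInv
import Fermat.Agent.R38.TresKFormInstAS

/-!
# Row 38, TRES, K-FORM (B) instance, LAYER 3 at the chart `j` WITH STEP (helper52, hedge): `hsplitJ`

Clone of `R38/TresKFormInstCInv.lean` on helper47's `tres5kq_hsplitJ_abs`
(`R38/TresKFormInstAS.lean`): in the concrete frame (`K = ℚ̄^I`, `E ⊇ K` finite and `I`-stable,
`L_K = tres5cL K (Mq) y ⊂ L_E = tres5cL E (Mq) y`, `G = Gal(E / K)`, Gauss sheet `tres5kivW`),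

* `tres5kicj_hsplit_gen` : ANY chart `t ∈ F_K` (`E`-model `tE`): at every closed point `𝔫K` of
  the `K`-chart on `V_∞` the cover `L_K / F_K` has the split structure AND the step relation of
  the descended deck transformation `ρK` (`hρK : incl ∘ ρK = ρ ∘ incl`);
* **`tres5kicj_hsplitJ`** : the chart `t = j`: the hypothesis `hsplitJ` of helper41's `tresmt_loc`
  at `L := ↥(tres5cL (beta0Field A) (M * q) y)` (instance `Algebra ↥(atLoc 𝔫) L_K` pinned to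
  `tres5kicvAlg` = `Algebra.ofSubsemiring`);
* `tres5kicj_hsplitJinv` : the chart `t = 1 / j`, with step.
-/

set_option autoImplicit false
set_option linter.style.haveILetI false
set_option linter.unusedSectionVars false
set_option linter.unusedVariables false
set_option linter.style.longLine false
set_option synthInstance.maxHeartbeats 400000
set_option maxHeartbeats 1000000

noncomputable section

open ModularCurve Fermat.Agent.INJ Fermat.Agent.UNIP IntermediateField Fermat.Agent.RIB.MP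
  Polynomial

namespace Fermat.Agent.R38

section Conc

variable {A : ValuationSubring NfQb} {q M : ℕ} [NeZero q] [NeZero M] [NeZero (M * q)]
  {E : IntermediateField ℚ NfQb}
  [IsDiscreteValuationRing ↥(beta0Ring A (beta0Field A))]
  {π₀ : ↥(beta0Ring A (beta0Field A))} (hπ₀ : Irreducible π₀)
  [IsDiscreteValuationRing ↥(beta0Ring A E)] {π₁ : ↥(beta0Ring A E)} (hπ₁ : Irreducible π₁)
  (ιC₀ : ↥(beta0Field A) →+* ℂ) (ιC₁ : ↥E →+* ℂ)
  (hq : q.Prime) (hqM : ¬ q ∣ M) (hA : A.LiesOverPrime q) (h : beta0Field A ≤ E)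
  (y : LaurentSeries NfQb)
  (hstabI : ∀ σ ∈ A.inertiaSubgroupIn ℚ, ∀ x ∈ tres5cField (M * q) y,
    coeffMap ((σ : NfQb ≃ₐ[ℚ] NfQb) : NfQb →+* NfQb) x ∈ tres5cField (M * q) y)

include hπ₀ hπ₁ hq hA in
/-- **Layer 3 with step, chart-generic, concrete frame.** -/
theorem tres5kicj_hsplit_gen
    (t : ↥(modularFunctionFieldFullC ↥(beta0Field A) (M * q)))
    (tE : ↥(modularFunctionFieldFullC ↥E (M * q)))
    (ht : tres5cBaseIncl (M * q) h t = tE)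
    [FiniteDimensional (↥(beta0Field A))⟮t⟯ ↥(modularFunctionFieldFullC ↥(beta0Field A) (M * q))]
    [FiniteDimensional (↥E)⟮tE⟯ ↥(modularFunctionFieldFullC ↥E (M * q))]
    (hBV : ∀ x : ↥(modularFunctionFieldFullC ↥E (M * q)),
      IsIntegral ↥(Algebra.adjoin ↥(beta0Ring A E)
        ({tE} : Set ↥(modularFunctionFieldFullC ↥E (M * q)))) x →
      x ∈ mgvV hπ₁ ιC₁ hq hqM true)
    (hE : ∀ σ ∈ A.inertiaSubgroupIn ℚ, ∀ x ∈ E, σ x ∈ E)
    (hfinE : letI := beta0FieldAlgebra h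
      FiniteDimensional ↥(beta0Field A) ↥E)
    (hfrac : ∀ x : ↥(tres5cL E (M * q) y),
      VtFrac (algebraMap ↥(beta0Ring A E) ↥E) (tres5kivEmb (E := E) (M * q) y x))
    (hfin : Module.finrank ↥(modularFunctionFieldFullC ↥E (M * q)) ↥(tres5cL E (M * q) y) = q)
    (ρ : ↥(tres5cL E (M * q) y) ≃ₐ[↥(modularFunctionFieldFullC ↥E (M * q))]
      ↥(tres5cL E (M * q) y))
    (hρG : letI := beta0FieldAlgebra h
      letI := tres5ffAct hq hA h (M * q) y hstabI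
      ∀ (g : ↥E ≃ₐ[↥(beta0Field A)] ↥E) (x : ↥(tres5cL E (M * q) y)), ρ (g • x) = g • ρ x)
    (hBig : ∀ 𝔫E : AtPt (F := ↥(modularFunctionFieldFullC ↥E (M * q))) π₁ tE,
      atThrough 𝔫E (mgvV hπ₁ ιC₁ hq hqM true) →
      ∀ [IsLocalRing ↥(atLoc 𝔫E)]
        [IsFractionRing ↥(atLoc 𝔫E) ↥(modularFunctionFieldFullC ↥E (M * q))]
        [IsIntegrallyClosed ↥(atLoc 𝔫E)] [Algebra ↥(atLoc 𝔫E) ↥(tres5cL E (M * q) y)]
        [IsScalarTower ↥(atLoc 𝔫E) ↥(modularFunctionFieldFullC ↥E (M * q))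
          ↥(tres5cL E (M * q) y)],
        ∃ (z : ↥(tres5cL E (M * q) y)) (P : (↥(atLoc 𝔫E))[X]) (c : ZMod q → ↥(atLoc 𝔫E)),
          Tres5eSplit ↥(modularFunctionFieldFullC ↥E (M * q)) z P c ∧
          ∀ i : ZMod q, ∃ b ∈ tres5eMax ↥(atLoc 𝔫E) z (c i),
            ρ z = algebraMap ↥(atLoc 𝔫E) ↥(tres5cL E (M * q) y) (c (i + 1)) +
              (b : ↥(tres5cL E (M * q) y)))
    (ρK : ↥(tres5cL (beta0Field A) (M * q) y) →ₐ[↥(modularFunctionFieldFullC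
      ↥(beta0Field A) (M * q))] ↥(tres5cL (beta0Field A) (M * q) y))
    (hρK : ∀ f : ↥(tres5cL (beta0Field A) (M * q) y),
      tres5cIncl (M * q) y h (ρK f) = ρ (tres5cIncl (M * q) y h f))
    (𝔫K : AtPt (F := ↥(modularFunctionFieldFullC ↥(beta0Field A) (M * q))) π₀ t)
    (hthr : atThrough 𝔫K (mgvV hπ₀ ιC₀ hq hqM true))
    [IsLocalRing ↥(atLoc 𝔫K)]
    [Algebra ↥(atLoc 𝔫K) ↥(tres5cL (beta0Field A) (M * q) y)]
    [IsScalarTower ↥(atLoc 𝔫K) ↥(modularFunctionFieldFullC ↥(beta0Field A) (M * q))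
      ↥(tres5cL (beta0Field A) (M * q) y)] :
    ∃ (z : ↥(tres5cL (beta0Field A) (M * q) y)) (P : (↥(atLoc 𝔫K))[X])
      (c : ZMod q → ↥(atLoc 𝔫K)),
      Tres5eSplit ↥(modularFunctionFieldFullC ↥(beta0Field A) (M * q)) z P c ∧
      ∀ i : ZMod q, ∃ b ∈ tres5eMax ↥(atLoc 𝔫K) z (c i),
        ρK z = algebraMap ↥(atLoc 𝔫K) ↥(tres5cL (beta0Field A) (M * q) y) (c (i + 1)) +
          (b : ↥(tres5cL (beta0Field A) (M * q) y)) := by
  subst ht
  haveI : Fact q.Prime := ⟨hq⟩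
  letI := tres5cAlgFF (M * q) h
  letI := tres5kigAlgAA (A := A) h
  letI := tres5kigAlgAF (A := A) h (M * q)
  letI := tres5cAlgLL (M * q) y h
  letI := tres5cAlgFL (M * q) y h
  haveI := tres5kig_tower_AAF (A := A) h (M * q)
  haveI := tres5kig_tower_AFF (A := A) h (M * q)
  haveI := tres5c_tower_FFL (M * q) y h
  haveI := tres5c_tower_FLL (M * q) y h
  haveI := tres5kig_isIntegral hq hA h
  letI := beta0FieldAlgebra h
  letI := tres5ffAct hq hA h (M * q) y hstabI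
  haveI : Finite (↥E ≃ₐ[↥(beta0Field A)] ↥E) := tres5ff_inst_finite h hfinE
  haveI hfdE : FiniteDimensional
      (↥E)⟮algebraMap ↥(modularFunctionFieldFullC ↥(beta0Field A) (M * q))
        ↥(modularFunctionFieldFullC ↥E (M * q)) t⟯ ↥(modularFunctionFieldFullC ↥E (M * q)) :=
    ‹FiniteDimensional (↥E)⟮tres5cBaseIncl (M * q) h t⟯ ↥(modularFunctionFieldFullC ↥E (M * q))›
  haveI hfrK : IsFractionRing ↥(atLoc 𝔫K) ↥(modularFunctionFieldFullC ↥(beta0Field A) (M * q)) :=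
    tres5bp_isFractionRing (A₀ := ↥(beta0Ring A (beta0Field A))) (E := ↥(beta0Field A)) t 𝔫K
  haveI hicK : IsIntegrallyClosed ↥(atLoc 𝔫K) :=
    tres5bp_isIntegrallyClosed (A₀ := ↥(beta0Ring A (beta0Field A))) (E := ↥(beta0Field A)) t 𝔫K
  have hW₀V : ∀ x ∈ mgvV hπ₁ ιC₁ hq hqM true,
      algebraMap ↥(modularFunctionFieldFullC ↥E (M * q)) ↥(tres5cL E (M * q) y) x ∈
        tres5kivW hπ₁ (M * q) y hfrac := by
    intro x hx
    have h1 : x ∈ (tres5kivW hπ₁ (M * q) y hfrac).comap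
        (algebraMap ↥(modularFunctionFieldFullC ↥E (M * q)) ↥(tres5cL E (M * q) y)) := by
      rw [tres5kivW_comap_vtInf hπ₁ (M * q) y hfrac]
      exact hx
    exact h1
  exact tres5kq_hsplitJ_abs (G := ↥E ≃ₐ[↥(beta0Field A)] ↥E)
    (L := ↥(tres5cL E (M * q) y))
    (AE := ↥(beta0Ring A E)) (EE := ↥E) (FE := ↥(modularFunctionFieldFullC ↥E (M * q)))
    (AK := ↥(beta0Ring A (beta0Field A)))
    (FK := ↥(modularFunctionFieldFullC ↥(beta0Field A) (M * q)))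
    (LK := ↥(tres5cL (beta0Field A) (M * q) y)) (t := t) (πE := π₁) (πK := π₀) (p := q)
    hπ₁ (tres5kqi_pi_ne_zero hπ₀ h) (tres5kicv_hpK hπ₀ hq hA)
    (mgvV hπ₁ ιC₁ hq hqM true) (mgvV hπ₀ ιC₀ hq hqM true) hBV
    (tres5kiv_hVK hπ₀ hπ₁ ιC₀ ιC₁ hq hqM h true)
    (tres5kivW hπ₁ (M * q) y hfrac) hW₀V
    (tres5kivW_smul_mem hπ₁ hq hA h (M * q) y hstabI hfrac)
    (tres5kivW_sub_mem hπ₁ hq hA h (M * q) y hstabI hfrac)
    (fun g x => (tres5ff_inst_hGF hq hA h (M * q) y hstabI g x).imp fun _ hx => hx.1)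
    (fun g a => (tres5ff_inst_hGA hq hA h (M * q) y hstabI g a).imp fun _ ha => ha.1)
    (fun g => tres5ff_inst_hGt hq hA h (M * q) y hstabI g t)
    (tres5ff_inst_hGLK hq hA h (M * q) y hstabI)
    (tres5ff_inst_hfixL hq hA h (M * q) y hstabI hE)
    (tres5ff_inst_hfixF hq hA h (M * q) y hstabI hE)
    hfin ρ hρG hBig ρK hρK 𝔫K hthr

include hπ₀ hπ₁ hq hA in
/-- **Layer 3 at the chart `j`: `hsplitJ` of `tresmt_loc`** (split structure and step of `ρK`). -/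
theorem tres5kicj_hsplitJ
    (hE : ∀ σ ∈ A.inertiaSubgroupIn ℚ, ∀ x ∈ E, σ x ∈ E)
    (hfinE : letI := beta0FieldAlgebra h
      FiniteDimensional ↥(beta0Field A) ↥E)
    (hfrac : ∀ x : ↥(tres5cL E (M * q) y),
      VtFrac (algebraMap ↥(beta0Ring A E) ↥E) (tres5kivEmb (E := E) (M * q) y x))
    (hfin : Module.finrank ↥(modularFunctionFieldFullC ↥E (M * q)) ↥(tres5cL E (M * q) y) = q)
    (ρ : ↥(tres5cL E (M * q) y) ≃ₐ[↥(modularFunctionFieldFullC ↥E (M * q))]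
      ↥(tres5cL E (M * q) y))
    (hρG : letI := beta0FieldAlgebra h
      letI := tres5ffAct hq hA h (M * q) y hstabI
      ∀ (g : ↥E ≃ₐ[↥(beta0Field A)] ↥E) (x : ↥(tres5cL E (M * q) y)), ρ (g • x) = g • ρ x)
    (hBig : ∀ 𝔫E : AtPt (F := ↥(modularFunctionFieldFullC ↥E (M * q))) π₁ (bgJ ↥E (M * q)),
      atThrough 𝔫E (mgvV hπ₁ ιC₁ hq hqM true) →
      ∀ [IsLocalRing ↥(atLoc 𝔫E)]
        [IsFractionRing ↥(atLoc 𝔫E) ↥(modularFunctionFieldFullC ↥E (M * q))]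
        [IsIntegrallyClosed ↥(atLoc 𝔫E)] [Algebra ↥(atLoc 𝔫E) ↥(tres5cL E (M * q) y)]
        [IsScalarTower ↥(atLoc 𝔫E) ↥(modularFunctionFieldFullC ↥E (M * q))
          ↥(tres5cL E (M * q) y)],
        ∃ (z : ↥(tres5cL E (M * q) y)) (P : (↥(atLoc 𝔫E))[X]) (c : ZMod q → ↥(atLoc 𝔫E)),
          Tres5eSplit ↥(modularFunctionFieldFullC ↥E (M * q)) z P c ∧
          ∀ i : ZMod q, ∃ b ∈ tres5eMax ↥(atLoc 𝔫E) z (c i),
            ρ z = algebraMap ↥(atLoc 𝔫E) ↥(tres5cL E (M * q) y) (c (i + 1)) +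
              (b : ↥(tres5cL E (M * q) y)))
    (ρK : ↥(tres5cL (beta0Field A) (M * q) y) →ₐ[↥(modularFunctionFieldFullC
      ↥(beta0Field A) (M * q))] ↥(tres5cL (beta0Field A) (M * q) y))
    (hρK : ∀ f : ↥(tres5cL (beta0Field A) (M * q) y),
      tres5cIncl (M * q) y h (ρK f) = ρ (tres5cIncl (M * q) y h f)) :
    ∀ 𝔫 : AtPt (F := ↥(modularFunctionFieldFullC ↥(beta0Field A) (M * q))) π₀
        (bgJ ↥(beta0Field A) (M * q)),
      atThrough 𝔫 (mgvV hπ₀ ιC₀ hq hqM true) →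
      ∀ [IsLocalRing ↥(atLoc 𝔫)],
        letI := tres5kicvAlg (L := ↥(tres5cL (beta0Field A) (M * q) y)) (atLoc 𝔫)
        ∃ (z : ↥(tres5cL (beta0Field A) (M * q) y)) (P : (↥(atLoc 𝔫))[X])
          (c : ZMod q → ↥(atLoc 𝔫)),
          Tres5eSplit ↥(modularFunctionFieldFullC ↥(beta0Field A) (M * q)) z P c ∧
          ∀ i : ZMod q, ∃ b ∈ tres5eMax ↥(atLoc 𝔫) z (c i),
            ρK z = algebraMap ↥(atLoc 𝔫) ↥(tres5cL (beta0Field A) (M * q) y) (c (i + 1)) +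
              (b : ↥(tres5cL (beta0Field A) (M * q) y)) := by
  intro 𝔫 hthr _
  letI := tres5kicvAlg (L := ↥(tres5cL (beta0Field A) (M * q) y)) (atLoc 𝔫)
  haveI := tres5kicv_tower (L := ↥(tres5cL (beta0Field A) (M * q) y)) (atLoc 𝔫)
  haveI hfdK : FiniteDimensional (↥(beta0Field A))⟮bgJ ↥(beta0Field A) (M * q)⟯
      ↥(modularFunctionFieldFullC ↥(beta0Field A) (M * q)) :=
    bgFin_finiteDimensional_full (E := ↥(beta0Field A)) (N := M * q)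
  haveI hfdE : FiniteDimensional (↥E)⟮bgJ ↥E (M * q)⟯ ↥(modularFunctionFieldFullC ↥E (M * q)) :=
    bgFin_finiteDimensional_full (E := ↥E) (N := M * q)
  exact tres5kicj_hsplit_gen hπ₀ hπ₁ ιC₀ ιC₁ hq hqM hA h y hstabI
    (bgJ ↥(beta0Field A) (M * q)) (bgJ ↥E (M * q)) (tres5pi_baseIncl_bgJ h (M * q))
    (fun x hx => mgv_hBV₁ hπ₁ ιC₁ hq hqM true x hx) hE hfinE hfrac hfin ρ hρG hBig ρK hρK 𝔫 hthr

include hπ₀ hπ₁ hq hA in
/-- **Layer 3 at the chart `1 / j`, with step.** -/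
theorem tres5kicj_hsplitJinv
    (hE : ∀ σ ∈ A.inertiaSubgroupIn ℚ, ∀ x ∈ E, σ x ∈ E)
    (hfinE : letI := beta0FieldAlgebra h
      FiniteDimensional ↥(beta0Field A) ↥E)
    (hfrac : ∀ x : ↥(tres5cL E (M * q) y),
      VtFrac (algebraMap ↥(beta0Ring A E) ↥E) (tres5kivEmb (E := E) (M * q) y x))
    (hfin : Module.finrank ↥(modularFunctionFieldFullC ↥E (M * q)) ↥(tres5cL E (M * q) y) = q)
    (ρ : ↥(tres5cL E (M * q) y) ≃ₐ[↥(modularFunctionFieldFullC ↥E (M * q))]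
      ↥(tres5cL E (M * q) y))
    (hρG : letI := beta0FieldAlgebra h
      letI := tres5ffAct hq hA h (M * q) y hstabI
      ∀ (g : ↥E ≃ₐ[↥(beta0Field A)] ↥E) (x : ↥(tres5cL E (M * q) y)), ρ (g • x) = g • ρ x)
    (hBig : ∀ 𝔫E : AtPt (F := ↥(modularFunctionFieldFullC ↥E (M * q))) π₁ (bgJ ↥E (M * q))⁻¹,
      atThrough 𝔫E (mgvV hπ₁ ιC₁ hq hqM true) →
      ∀ [IsLocalRing ↥(atLoc 𝔫E)]
        [IsFractionRing ↥(atLoc 𝔫E) ↥(modularFunctionFieldFullC ↥E (M * q))]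
        [IsIntegrallyClosed ↥(atLoc 𝔫E)] [Algebra ↥(atLoc 𝔫E) ↥(tres5cL E (M * q) y)]
        [IsScalarTower ↥(atLoc 𝔫E) ↥(modularFunctionFieldFullC ↥E (M * q))
          ↥(tres5cL E (M * q) y)],
        ∃ (z : ↥(tres5cL E (M * q) y)) (P : (↥(atLoc 𝔫E))[X]) (c : ZMod q → ↥(atLoc 𝔫E)),
          Tres5eSplit ↥(modularFunctionFieldFullC ↥E (M * q)) z P c ∧
          ∀ i : ZMod q, ∃ b ∈ tres5eMax ↥(atLoc 𝔫E) z (c i),
            ρ z = algebraMap ↥(atLoc 𝔫E) ↥(tres5cL E (M * q) y) (c (i + 1)) +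
              (b : ↥(tres5cL E (M * q) y)))
    (ρK : ↥(tres5cL (beta0Field A) (M * q) y) →ₐ[↥(modularFunctionFieldFullC
      ↥(beta0Field A) (M * q))] ↥(tres5cL (beta0Field A) (M * q) y))
    (hρK : ∀ f : ↥(tres5cL (beta0Field A) (M * q) y),
      tres5cIncl (M * q) y h (ρK f) = ρ (tres5cIncl (M * q) y h f)) :
    ∀ 𝔫 : AtPt (F := ↥(modularFunctionFieldFullC ↥(beta0Field A) (M * q))) π₀
        (bgJ ↥(beta0Field A) (M * q))⁻¹,
      atThrough 𝔫 (mgvV hπ₀ ιC₀ hq hqM true) →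
      ∀ [IsLocalRing ↥(atLoc 𝔫)],
        letI := tres5kicvAlg (L := ↥(tres5cL (beta0Field A) (M * q) y)) (atLoc 𝔫)
        ∃ (z : ↥(tres5cL (beta0Field A) (M * q) y)) (P : (↥(atLoc 𝔫))[X])
          (c : ZMod q → ↥(atLoc 𝔫)),
          Tres5eSplit ↥(modularFunctionFieldFullC ↥(beta0Field A) (M * q)) z P c ∧
          ∀ i : ZMod q, ∃ b ∈ tres5eMax ↥(atLoc 𝔫) z (c i),
            ρK z = algebraMap ↥(atLoc 𝔫) ↥(tres5cL (beta0Field A) (M * q) y) (c (i + 1)) +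
              (b : ↥(tres5cL (beta0Field A) (M * q) y)) := by
  intro 𝔫 hthr _
  letI := tres5kicvAlg (L := ↥(tres5cL (beta0Field A) (M * q) y)) (atLoc 𝔫)
  haveI := tres5kicv_tower (L := ↥(tres5cL (beta0Field A) (M * q) y)) (atLoc 𝔫)
  haveI hfdK : FiniteDimensional (↥(beta0Field A))⟮bgJ ↥(beta0Field A) (M * q)⟯
      ↥(modularFunctionFieldFullC ↥(beta0Field A) (M * q)) :=
    bgFin_finiteDimensional_full (E := ↥(beta0Field A)) (N := M * q)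
  haveI hfdE : FiniteDimensional (↥E)⟮bgJ ↥E (M * q)⟯ ↥(modularFunctionFieldFullC ↥E (M * q)) :=
    bgFin_finiteDimensional_full (E := ↥E) (N := M * q)
  haveI hfdK' : FiniteDimensional (↥(beta0Field A))⟮(bgJ ↥(beta0Field A) (M * q))⁻¹⟯
      ↥(modularFunctionFieldFullC ↥(beta0Field A) (M * q)) :=
    at_finiteDimensional_inv _
  haveI hfdE' : FiniteDimensional (↥E)⟮(bgJ ↥E (M * q))⁻¹⟯
      ↥(modularFunctionFieldFullC ↥E (M * q)) :=
    at_finiteDimensional_inv _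
  exact tres5kicj_hsplit_gen hπ₀ hπ₁ ιC₀ ιC₁ hq hqM hA h y hstabI
    (bgJ ↥(beta0Field A) (M * q))⁻¹ (bgJ ↥E (M * q))⁻¹ (tres5pi_baseIncl_bgJ_inv h (M * q))
    (fun x hx => mgv_hBV₂ hπ₁ ιC₁ hq hqM true x hx) hE hfinE hfrac hfin ρ hρG hBig ρK hρK 𝔫 hthr

end Conc

end Fermat.Agent.R38
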