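import Fermat.Agent.R38.TresCoverTower
import Fermat.Agent.UNIP.MGConcrete
import Fermat.Agent.UNIP.Beta0Inst

/-!
# R38 TRES, (FAC-p), piece FAC-KFORM, the INSTANCE (helper52): the constant rings

Concrete frame of helper48's `tres5ki_point` (`R38/TresKFormInst.lean`, Layer 2):
`A` a valuation subring of `ℚ̄`, `K = beta0Field A = ℚ̄^I`, `E ⊇ K` an intermediate field
(`h : beta0Field A ≤ E`; in the application `E = mgcE A K₁ = beta0Field A ⊔ K₁`,
`h = le_sup_left`),

* `AK = ↥(beta0Ring A (beta0Field A))`, `AE = ↥(beta0Ring A E)` (`= ↥(mgcA A K₁)`),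
* `FK = ↥(modularFunctionFieldFullC ↥(beta0Field A) N)`, `FE = ↥(modularFunctionFieldFullC ↥E N)`,
* `Algebra AK FK`, `Algebra AE FE`, `Algebra K FK`, `Algebra E FE`, `IsScalarTower AK K FK`, …
  are the fast INSTANCES of `UNIP/MGConcrete.lean` (`mgcInstAlgebraA`, `mgcInstAlgebra`,
  `mgcInstTower`),
* `Algebra FK FE` is helper78's `tres5cAlgFF N h` (`R38/TresCoverTower.lean`).

This file supplies the remaining instance arguments of `tres5ki_point` (reducible defs, NOT
instances: pass them explicitly / with `letI`):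

* `tres5kigAlgAA h     : Algebra AK AE`  (`= (beta0RingIncl h).toAlgebra`; for `h = le_sup_left`
  it is DEFINITIONALLY `beta0InstAlgebra A K₁`, see `tres5kig_algAA_eq`),
* `tres5kigAlgAF h N   : Algebra AK FE`  (through `AE`),
* `tres5kig_tower_AAF  : IsScalarTower AK AE FE`,
* `tres5kig_tower_AFF  : IsScalarTower AK FK FE`,
* `tres5kig_isIntegral_sup : Algebra.IsIntegral AK ↥(mgcA A K₁)` (`K₁ / ℚ` finite Galois),

together with the coercion lemmas `tres5kig_algAA_coe`, `tres5kig_algAF_coe`,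
`tres5kig_algFF_algebraMap`, `tres5kig_algAF_eq`.
-/

set_option autoImplicit false
set_option linter.style.haveILetI false
set_option linter.unusedSectionVars false

noncomputable section

open ModularCurve Fermat.Agent.INJ Fermat.Agent.UNIP IntermediateField

namespace Fermat.Agent.R38

section Consts

variable {A : ValuationSubring NfQb} {E : IntermediateField ℚ NfQb}
  (h : beta0Field A ≤ E) (N : ℕ)

/-- `Algebra A_K A_E`, `A_K = A ∩ K ⊆ A_E = A ∩ E` -/
@[reducible] def tres5kigAlgAA :
    Algebra ↥(beta0Ring A (beta0Field A)) ↥(beta0Ring A E) :=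
  (beta0RingIncl (A := A) h).toAlgebra

/-- `Algebra A_K F_N(E)` (through `A_E`) -/
@[reducible] def tres5kigAlgAF :
    Algebra ↥(beta0Ring A (beta0Field A)) ↥(modularFunctionFieldFullC ↥E N) :=
  ((algebraMap ↥(beta0Ring A E) ↥(modularFunctionFieldFullC ↥E N)).comp
    (beta0RingIncl (A := A) h)).toAlgebra

theorem tres5kig_algAA_apply (a : ↥(beta0Ring A (beta0Field A))) :
    @algebraMap ↥(beta0Ring A (beta0Field A)) ↥(beta0Ring A E) _ _ (tres5kigAlgAA h) a
      = beta0RingIncl (A := A) h a := rfl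

/-- the algebra map `A_K → A_E` is the inclusion -/
theorem tres5kig_algAA_coe (a : ↥(beta0Ring A (beta0Field A))) :
    (((@algebraMap ↥(beta0Ring A (beta0Field A)) ↥(beta0Ring A E) _ _ (tres5kigAlgAA h) a :
      ↥(beta0Ring A E)) : ↥E) : NfQb) = ((a : ↥(beta0Field A)) : NfQb) := rfl

theorem tres5kig_algAF_apply (a : ↥(beta0Ring A (beta0Field A))) :
    @algebraMap ↥(beta0Ring A (beta0Field A)) ↥(modularFunctionFieldFullC ↥E N) _ _
        (tres5kigAlgAF h N) a
      = algebraMap ↥(beta0Ring A E) ↥(modularFunctionFieldFullC ↥E N)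
          (beta0RingIncl (A := A) h a) := rfl

/-- the algebra map `A_K → F_N(E)`: the constant series -/
theorem tres5kig_algAF_coe (a : ↥(beta0Ring A (beta0Field A))) :
    ((@algebraMap ↥(beta0Ring A (beta0Field A)) ↥(modularFunctionFieldFullC ↥E N) _ _
        (tres5kigAlgAF h N) a : ↥(modularFunctionFieldFullC ↥E N)) : LaurentSeries ↥E)
      = HahnSeries.single 0 (IntermediateField.inclusion h (a : ↥(beta0Field A))) := by
  rw [tres5kig_algAF_apply, mgcAlgAGen_algebraMap]
  show algebraMap ↥E (LaurentSeries ↥E) _ = _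
  rw [algebraMap_laurentSeries_eq_single]
  rfl

/-- the algebra map `F_N(K) → F_N(E)` of `tres5cAlgFF` is `tres5cBaseIncl` -/
theorem tres5kig_algFF_algebraMap (x : ↥(modularFunctionFieldFullC ↥(beta0Field A) N)) :
    @algebraMap ↥(modularFunctionFieldFullC ↥(beta0Field A) N)
        ↥(modularFunctionFieldFullC ↥E N) _ _ (tres5cAlgFF N h) x
      = tres5cBaseIncl N h x := rfl

/-- `A_K → A_E → F_N(E)` -/
theorem tres5kig_tower_AAF :
    @IsScalarTower ↥(beta0Ring A (beta0Field A)) ↥(beta0Ring A E)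
      ↥(modularFunctionFieldFullC ↥E N)
      (tres5kigAlgAA h).toSMul Algebra.toSMul (tres5kigAlgAF h N).toSMul :=
  @IsScalarTower.of_algebraMap_eq _ _ _ _ _ _ (tres5kigAlgAA h) _ (tres5kigAlgAF h N)
    fun _ => rfl

/-- the two ways `A_K → F_N(K) → F_N(E)` and `A_K → A_E → F_N(E)` agree -/
theorem tres5kig_algAF_eq (a : ↥(beta0Ring A (beta0Field A))) :
    @algebraMap ↥(beta0Ring A (beta0Field A)) ↥(modularFunctionFieldFullC ↥E N) _ _
        (tres5kigAlgAF h N) a
      = tres5cBaseIncl N h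
          (algebraMap ↥(beta0Ring A (beta0Field A))
            ↥(modularFunctionFieldFullC ↥(beta0Field A) N) a) := by
  apply Subtype.ext
  rw [tres5kig_algAF_coe, tres5cBaseIncl_coe, mgcAlgAGen_algebraMap]
  have e : ((algebraMap ↥(beta0Field A) ↥(modularFunctionFieldFullC ↥(beta0Field A) N)
      (a : ↥(beta0Field A)) : ↥(modularFunctionFieldFullC ↥(beta0Field A) N)) :
        LaurentSeries ↥(beta0Field A))
      = algebraMap ↥(beta0Field A) (LaurentSeries ↥(beta0Field A)) (a : ↥(beta0Field A)) := rfl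
  rw [e, algebraMap_laurentSeries_eq_single, coeffMap_single]
  rfl

/-- `A_K → F_N(K) → F_N(E)` -/
theorem tres5kig_tower_AFF :
    @IsScalarTower ↥(beta0Ring A (beta0Field A)) ↥(modularFunctionFieldFullC ↥(beta0Field A) N)
      ↥(modularFunctionFieldFullC ↥E N)
      Algebra.toSMul (tres5cAlgFF N h).toSMul (tres5kigAlgAF h N).toSMul :=
  @IsScalarTower.of_algebraMap_eq _ _ _ _ _ _ _ (tres5cAlgFF N h) (tres5kigAlgAF h N)
    fun a => tres5kig_algAF_eq h N a

end Consts

section Sup

variable (A : ValuationSubring NfQb) (K₁ : IntermediateField ℚ NfQb)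

/-- for `E = mgcE A K₁` the structure `tres5kigAlgAA` is `beta0InstAlgebra` -/
theorem tres5kig_algAA_eq :
    (tres5kigAlgAA (A := A) (E := mgcE A K₁) le_sup_left) = beta0InstAlgebra A K₁ := rfl

variable {A} [NumberField ↥K₁] [IsGalois ℚ ↥K₁] {q : ℕ}

/-- **`A_E = mgcA A K₁` is integral over `A_K`** (`K₁ / ℚ` a finite Galois extension). -/
theorem tres5kig_isIntegral_sup (hq : q.Prime) (hA : A.LiesOverPrime q) :
    @Algebra.IsIntegral ↥(beta0Ring A (beta0Field A)) ↥(mgcA A K₁) _ _
      (tres5kigAlgAA (A := A) (E := mgcE A K₁) le_sup_left) :=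
  beta0Inst_isIntegral (A := A) K₁ hq hA

end Sup

end Fermat.Agent.R38
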