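/-
ROW 38, TRES, piece FAC-KFORM, the INSTANCE at closed points, leaf `hpK + hπK + hBV` (helper84):
the three constant / chart hypotheses of helper48's `tres5ki_hsplit_abs`
(`R38/TresKFormInstA.lean`) in the CONCRETE frame of `R38/TresKFormPtsInst.lean`:

`A` a valuation subring of `ℚ̄` over `q`, `K = beta0Field A = ℚ̄^I`, `E ⊇ K`,
`A_K = beta0Ring A K`, `A_E = beta0Ring A E` discrete valuation rings (`π₀`, `π₁`),
`F_K = F_{Mq}(K)`, `F_E = F_{Mq}(E)`, `Algebra F_K F_E = tres5cAlgFF (M q) h`,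
`Algebra A_K A_E = tres5kigAlgAA h`, `V_E c = mgvV hπ₁ ιC₁ hq hqM c`.

* `tres5kih_hpK`      : `π₀ ∣ (q : A_K)`                         (`hpK`; the Kummer exponent is `q`);
* `tres5kih_assoc`    : `q` and `π₀` are associated in `A_K`;
* `tres5kih_hπK`      : `algebraMap A_K A_E π₀ ≠ 0`              (`hπK`, = `tres5kqi_pi_ne_zero`);
* `tres5kih_hBV_j`    : `hBV` for the chart `t = j`, in the `algebraMap F_K F_E t` form;
* `tres5kih_hBV_jinv` : `hBV` for the chart `t = 1 / j`;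
* `tres5kih_hVK`      : `hVK`, in the `algebraMap` form (= `tres5kiv_hVK`);
* `tres5kih_fin_j`, `tres5kih_fin_jinv` : the instance
  `FiniteDimensional E⟮algebraMap F_K F_E t⟯ F_E` of `tres5ki_hsplit_abs` for the two charts.
-/
import Fermat.Agent.R38.TresKFormPtsInst
import Fermat.Agent.RIB.MP.FacConc

set_option autoImplicit false
set_option linter.style.haveILetI false
set_option linter.unusedSectionVars false
set_option linter.unusedVariables false
set_option linter.style.longLine false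
set_option synthInstance.maxHeartbeats 400000
set_option maxHeartbeats 1000000

noncomputable section

open ModularCurve Fermat.Agent.INJ Fermat.Agent.UNIP IntermediateField Fermat.Agent.RIB.MP

namespace Fermat.Agent.R38

section Conc

variable {A : ValuationSubring NfQb} {q M : ℕ} [NeZero q] [NeZero M] [NeZero (M * q)]
  {E : IntermediateField ℚ NfQb}
  [IsDiscreteValuationRing ↥(beta0Ring A (beta0Field A))]
  {π₀ : ↥(beta0Ring A (beta0Field A))} (hπ₀ : Irreducible π₀)
  [IsDiscreteValuationRing ↥(beta0Ring A E)] {π₁ : ↥(beta0Ring A E)} (hπ₁ : Irreducible π₁)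
  (ιC₀ : ↥(beta0Field A) →+* ℂ) (ιC₁ : ↥E →+* ℂ)
  (hq : q.Prime) (hqM : ¬ q ∣ M) (hA : A.LiesOverPrime q) (h : beta0Field A ≤ E)

include hπ₀ hq hA in
/-- `q` is a uniformizer of `A ∩ ℚ̄^I` -/
theorem tres5kih_assoc : Associated ((q : ℕ) : ↥(beta0Ring A (beta0Field A))) π₀ :=
  IsDiscreteValuationRing.associated_of_irreducible _ (beta0Ring_irreducible_q hq hA) hπ₀

include hπ₀ hq hA in
/-- **(hpK)** of `tres5ki_hsplit_abs` / `tres5ki_point`: `π₀ ∣ q` in `A_K` -/
theorem tres5kih_hpK : π₀ ∣ ((q : ℕ) : ↥(beta0Ring A (beta0Field A))) :=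
  (tres5kih_assoc hπ₀ hq hA).symm.dvd

include hπ₀ in
/-- **(hπK)** of `tres5ki_hsplit_abs`, with the algebra structure as a local instance -/
theorem tres5kih_hπK :
    letI := tres5kigAlgAA (A := A) h
    algebraMap ↥(beta0Ring A (beta0Field A)) ↥(beta0Ring A E) π₀ ≠ 0 :=
  tres5kqi_pi_ne_zero hπ₀ h

/-- **(hBV)** of `tres5ki_hsplit_abs`, chart `j` -/
theorem tres5kih_hBV_j (c : Bool) :
    letI := tres5cAlgFF (M * q) h
    ∀ x : ↥(modularFunctionFieldFullC ↥E (M * q)),
      IsIntegral ↥(Algebra.adjoin ↥(beta0Ring A E)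
        ({algebraMap ↥(modularFunctionFieldFullC ↥(beta0Field A) (M * q))
          ↥(modularFunctionFieldFullC ↥E (M * q)) (bgJ ↥(beta0Field A) (M * q))} :
          Set ↥(modularFunctionFieldFullC ↥E (M * q)))) x →
      x ∈ mgvV hπ₁ ιC₁ hq hqM c := by
  intro x hx
  letI := tres5cAlgFF (K := beta0Field A) (E := E) (M * q) h
  have e : algebraMap ↥(modularFunctionFieldFullC ↥(beta0Field A) (M * q))
      ↥(modularFunctionFieldFullC ↥E (M * q)) (bgJ ↥(beta0Field A) (M * q)) =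
      bgJ ↥E (M * q) := tres5pi_baseIncl_bgJ h (M * q)
  rw [e] at hx
  exact mgv_hBV₁ hπ₁ ιC₁ hq hqM c x hx

/-- **(hBV)** of `tres5ki_hsplit_abs`, chart `1 / j` -/
theorem tres5kih_hBV_jinv (c : Bool) :
    letI := tres5cAlgFF (M * q) h
    ∀ x : ↥(modularFunctionFieldFullC ↥E (M * q)),
      IsIntegral ↥(Algebra.adjoin ↥(beta0Ring A E)
        ({algebraMap ↥(modularFunctionFieldFullC ↥(beta0Field A) (M * q))
          ↥(modularFunctionFieldFullC ↥E (M * q)) (bgJ ↥(beta0Field A) (M * q))⁻¹} :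
          Set ↥(modularFunctionFieldFullC ↥E (M * q)))) x →
      x ∈ mgvV hπ₁ ιC₁ hq hqM c := by
  intro x hx
  letI := tres5cAlgFF (K := beta0Field A) (E := E) (M * q) h
  have e : algebraMap ↥(modularFunctionFieldFullC ↥(beta0Field A) (M * q))
      ↥(modularFunctionFieldFullC ↥E (M * q)) (bgJ ↥(beta0Field A) (M * q))⁻¹ =
      (bgJ ↥E (M * q))⁻¹ := tres5pi_baseIncl_bgJ_inv h (M * q)
  rw [e] at hx
  exact mgv_hBV₂ hπ₁ ιC₁ hq hqM c x hx

/-- **(hVK)** of `tres5ki_hsplit_abs`: `V_K c = V_E c ∩ F_K` -/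
theorem tres5kih_hVK (c : Bool) :
    letI := tres5cAlgFF (M * q) h
    mgvV hπ₀ ιC₀ hq hqM c = (mgvV hπ₁ ιC₁ hq hqM c).comap
      (algebraMap ↥(modularFunctionFieldFullC ↥(beta0Field A) (M * q))
        ↥(modularFunctionFieldFullC ↥E (M * q))) :=
  tres5kiv_hVK hπ₀ hπ₁ ιC₀ ιC₁ hq hqM h c

/-- the finiteness instance of `tres5ki_hsplit_abs`, chart `j` -/
theorem tres5kih_fin_j :
    letI := tres5cAlgFF (M * q) h
    FiniteDimensional (↥E)⟮algebraMap ↥(modularFunctionFieldFullC ↥(beta0Field A) (M * q))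
      ↥(modularFunctionFieldFullC ↥E (M * q)) (bgJ ↥(beta0Field A) (M * q))⟯
      ↥(modularFunctionFieldFullC ↥E (M * q)) := by
  letI := tres5cAlgFF (K := beta0Field A) (E := E) (M * q) h
  have e : algebraMap ↥(modularFunctionFieldFullC ↥(beta0Field A) (M * q))
      ↥(modularFunctionFieldFullC ↥E (M * q)) (bgJ ↥(beta0Field A) (M * q)) =
      bgJ ↥E (M * q) := tres5pi_baseIncl_bgJ h (M * q)
  rw [e]
  exact ribmp_fc_fin (K₀ := E) (M * q)

/-- the finiteness instance of `tres5ki_hsplit_abs`, chart `1 / j` -/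
theorem tres5kih_fin_jinv :
    letI := tres5cAlgFF (M * q) h
    FiniteDimensional (↥E)⟮algebraMap ↥(modularFunctionFieldFullC ↥(beta0Field A) (M * q))
      ↥(modularFunctionFieldFullC ↥E (M * q)) (bgJ ↥(beta0Field A) (M * q))⁻¹⟯
      ↥(modularFunctionFieldFullC ↥E (M * q)) := by
  letI := tres5cAlgFF (K := beta0Field A) (E := E) (M * q) h
  have e : algebraMap ↥(modularFunctionFieldFullC ↥(beta0Field A) (M * q))
      ↥(modularFunctionFieldFullC ↥E (M * q)) (bgJ ↥(beta0Field A) (M * q))⁻¹ =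
      (bgJ ↥E (M * q))⁻¹ := tres5pi_baseIncl_bgJ_inv h (M * q)
  rw [e]
  exact ribmp_fc_fin_inv (K₀ := E) (M * q)

end Conc

end Fermat.Agent.R38

end
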