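/-
ROW 38, TRES, piece FAC-KFORM, the INSTANCE at closed points (helper48), layer 2b:
THE POINTS ARE THE CENTRES OF A PLACE `Q` OF THE RESIDUE FUNCTION FIELD.

Frame of `R38/TresKFormInst.lean` (charts over `A_K ⊂ A_E`, `FK ⊂ FE`, `LK ⊂ L = L_E`, finite group
`G` acting on `L`).  `WE` a valuation ring of `L` (the GAUSS SHEET over the big field), with
reduction map `ρE : WE →+* kC`, `G` trivial on the residues of `WE` (FAC-GRED,
`R38/TresGRed.lean`), `Q` a valuation ring of `kC`.  `T′ = comp(WE, ρE, Q)`.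

* `tres5ki_comp_nonunits` : `ρE x ∈ 𝔪_Q ⇒ x ∈ 𝔪_{T′}`;
* `tres5ki_point_comp`    : `tres5ki_point` for `W := T′`, `𝔫E`, `𝔫K` centres of `T′`;
* `tres5ki_at_place`      : the same, `𝔫E` is CONSTRUCTED (centre of `T′` on the chart over `A_E`),
  and the split structure over the big field is built from the KUMMER LOCAL SHAPE
  `u₀ / g ^ p − 1 = (ζ − 1) ^ p · π · y` (FAC-BIG, `tres5b_bar` / `tres5b_field`) and the deck
  transformation `ρ Y = ζ Y`.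
-/
import Fermat.Agent.R38.TresKFormInst
import Fermat.Agent.R38.TresGRed

set_option autoImplicit false
set_option linter.style.haveILetI false
set_option linter.unusedSectionVars false

noncomputable section

namespace Fermat.Agent.R38

open Polynomial Fermat.Agent.UNIP Fermat.Agent.INJ Fermat.Agent.RIB.MP

section Comp

variable {L kC : Type*} [Field L] [Field kC]

/-- an element of `W` whose reduction is a non-unit of `Q` is a non-unit of the composite -/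
theorem tres5ki_comp_nonunits (W : ValuationSubring L) (ρ : ↥W →+* kC)
    (Q : ValuationSubring kC) (hker : ∀ x : ↥W, (x : L) ∈ W.nonunits → ρ x = 0) {x : L}
    (hx : x ∈ W) (hρ : ρ ⟨x, hx⟩ ∈ Q.nonunits) : x ∈ (ribmp_rd_comp W ρ Q hker).nonunits := by
  rw [tres5_mem_nonunits_iff]
  by_cases hx0 : x = 0
  · exact Or.inl hx0
  refine Or.inr ?_
  rintro ⟨hxi, hρi⟩
  have h1 : ρ ⟨x, hx⟩ * ρ ⟨x⁻¹, hxi⟩ = 1 := by
    have e : (⟨x, hx⟩ : ↥W) * ⟨x⁻¹, hxi⟩ = 1 := Subtype.ext (mul_inv_cancel₀ hx0)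
    rw [← map_mul, e, map_one]
  rw [ValuationSubring.mem_nonunits_iff] at hρ
  have h2 : Q.valuation (ρ ⟨x⁻¹, hxi⟩) ≤ 1 := (Q.valuation_le_one_iff _).2 hρi
  have h3 : Q.valuation (ρ ⟨x, hx⟩) * Q.valuation (ρ ⟨x⁻¹, hxi⟩) < 1 :=
    calc Q.valuation (ρ ⟨x, hx⟩) * Q.valuation (ρ ⟨x⁻¹, hxi⟩)
        ≤ Q.valuation (ρ ⟨x, hx⟩) * 1 := mul_le_mul' le_rfl h2
      _ < 1 := by rw [mul_one]; exact hρ
  rw [← map_mul, h1, map_one] at h3
  exact lt_irrefl _ h3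

end Comp

section Layer2b

variable {G : Type*} [Group G] [Finite G] {L : Type*} [Field L] [MulSemiringAction G L]
  {AE EE FE : Type*} [CommRing AE] [IsDomain AE] [IsDiscreteValuationRing AE]
  [Field EE] [Algebra AE EE] [IsFractionRing AE EE] [CharZero EE]
  [Field FE] [Algebra EE FE] [Algebra AE FE] [IsScalarTower AE EE FE] [Algebra FE L]
  {AK EK FK : Type*} [CommRing AK] [IsDomain AK] [IsDiscreteValuationRing AK]
  [Field EK] [Algebra AK EK] [IsFractionRing AK EK] [CharZero EK]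
  [Field FK] [Algebra EK FK] [Algebra AK FK] [IsScalarTower AK EK FK]
  [Algebra AK AE] [Algebra FK FE] [Algebra AK FE]
  [IsScalarTower AK AE FE] [IsScalarTower AK FK FE]
  {t : FK} {πE : AE} {πK : AK}
  {LK : Type*} [Field LK] [Algebra FK LK] [Algebra LK L] [Algebra FK L]
  [IsScalarTower FK LK L] [IsScalarTower FK FE L]
  {p : ℕ} [hp : Fact p.Prime] {kC : Type*} [Field kC]

/-- **K-FORM at a closed point, `W = comp(WE, ρE, Q)`.**  `𝔫E`, `𝔫K` are the centres of the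
composite of the Gauss sheet `WE` of `L` with a valuation ring `Q` of the residue function
field. -/
theorem tres5ki_point_comp
    (𝔫E : AtPt (F := FE) πE (algebraMap FK FE t)) (𝔫K : AtPt (F := FK) πK t)
    [IsLocalRing ↥(atLoc 𝔫E)] [IsFractionRing ↥(atLoc 𝔫E) FE] [IsIntegrallyClosed ↥(atLoc 𝔫E)]
    [Algebra ↥(atLoc 𝔫E) L] [IsScalarTower ↥(atLoc 𝔫E) FE L]
    [IsLocalRing ↥(atLoc 𝔫K)] [IsFractionRing ↥(atLoc 𝔫K) FK] [IsIntegrallyClosed ↥(atLoc 𝔫K)]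
    [Algebra ↥(atLoc 𝔫K) LK] [IsScalarTower ↥(atLoc 𝔫K) FK LK]
    [Algebra.IsIntegral AK AE]
    {z : L} {P : (↥(atLoc 𝔫E))[X]} {c : ZMod p → ↥(atLoc 𝔫E)}
    (H : Tres5eSplit FE z P c) (hfin : Module.finrank FE L = p)
    (hpK : πK ∣ (p : AK))
    (hGF : ∀ (g : G) (x : FE), ∃ x' : FE, g • algebraMap FE L x = algebraMap FE L x')
    (hGA : ∀ (g : G) (a : AE), ∃ a' : AE,
      g • algebraMap FE L (algebraMap AE FE a) = algebraMap FE L (algebraMap AE FE a'))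
    (hGt : ∀ g : G, g • algebraMap FE L (algebraMap FK FE t) =
      algebraMap FE L (algebraMap FK FE t))
    (hGLK : ∀ (g : G) (y : LK), g • algebraMap LK L y = algebraMap LK L y)
    (hfixL : ∀ x : L, (∀ g : G, g • x = x) → ∃ y : LK, algebraMap LK L y = x)
    (hfixF : ∀ x : FE, (∀ g : G, g • algebraMap FE L x = algebraMap FE L x) →
      ∃ y : FK, algebraMap FK FE y = x)
    (WE : ValuationSubring L) (ρE : ↥WE →+* kC)
    (hker : ∀ x : ↥WE, (x : L) ∈ WE.nonunits → ρE x = 0)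
    (hG : ∀ (g : G), ∀ x ∈ WE, g • x - x ∈ WE.nonunits)
    (Q : ValuationSubring kC)
    (hcenE : ∀ x ∈ atLoc 𝔫E, ∃ hx : algebraMap FE L x ∈ WE, ρE ⟨_, hx⟩ ∈ Q)
    (hmemE : ∀ b : ↥(zchClosure (A₀ := AE) ({algebraMap FK FE t} : Set FE)),
      b ∈ 𝔫E.1 ↔ ∃ hb : algebraMap FE L (b : FE) ∈ WE, ρE ⟨_, hb⟩ ∈ Q.nonunits)
    (hmemK : ∀ bK : ↥(zchClosure (A₀ := AK) ({t} : Set FK)), bK ∈ 𝔫K.1 →
      ∃ hb : algebraMap FE L (algebraMap FK FE (bK : FK)) ∈ WE, ρE ⟨_, hb⟩ ∈ Q.nonunits)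
    (ρ : L ≃ₐ[FE] L) (hρG : ∀ (g : G) x, ρ (g • x) = g • ρ x)
    (hρ : ∀ i : ZMod p, ∃ b ∈ tres5eMax ↥(atLoc 𝔫E) z (c i),
      ρ z = algebraMap ↥(atLoc 𝔫E) L (c (i + 1)) + (b : L)) :
    ∃ (zK : LK) (PK : (↥(atLoc 𝔫K))[X]),
      Tres5eSplit FK zK PK (fun k : ZMod p => ((k.val : ℕ) : ↥(atLoc 𝔫K))) ∧
      Module.finrank FK LK = p ∧
      ρ (algebraMap LK L zK) ≠ algebraMap LK L zK ∧
      (∀ i : ZMod p, ∃ b ∈ tres5eMax ↥(atLoc 𝔫E) z (c i),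
        algebraMap LK L zK = ((i.val : ℕ) : L) + (b : L)) ∧
      ∃ k : ZMod p,
        (∀ b : ↥(Algebra.adjoin ↥(atLoc 𝔫K) ({zK} : Set LK)),
          b ∈ tres5eMax ↥(atLoc 𝔫K) zK ((k.val : ℕ) : ↥(atLoc 𝔫K)) ↔
            algebraMap LK L (b : LK) ∈ (ribmp_rd_comp WE ρE Q hker).nonunits) ∧
        ∀ (_ : (tres5eMax ↥(atLoc 𝔫K) zK ((k.val : ℕ) : ↥(atLoc 𝔫K))).IsPrime),
          ∀ x ∈ ls_localSubring (F := LK) (tres5eMax ↥(atLoc 𝔫K) zK ((k.val : ℕ) : ↥(atLoc 𝔫K))),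
            ∃ hx : algebraMap LK L x ∈ WE, ρE ⟨_, hx⟩ ∈ Q := by
  have hG𝔫 : ∀ (g : G) (b b' : ↥(zchClosure (A₀ := AE) ({algebraMap FK FE t} : Set FE))),
      g • algebraMap FE L (b : FE) = algebraMap FE L (b' : FE) → b ∈ 𝔫E.1 → b' ∈ 𝔫E.1 := by
    intro g b b' hgb hb
    obtain ⟨hbW, hbQ⟩ := (hmemE b).1 hb
    have h1 := hG g _ hbW
    rw [hgb] at h1
    have hb'W : algebraMap FE L (b' : FE) ∈ WE := tres5g_mem_of_sub WE hbW h1
    refine (hmemE b').2 ⟨hb'W, ?_⟩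
    rw [tres5g_red_map WE ρE hker hbW hb'W h1]
    exact hbQ
  have h𝔫K : ∀ (bK : ↥(zchClosure (A₀ := AK) ({t} : Set FK)))
      (b : ↥(zchClosure (A₀ := AE) ({algebraMap FK FE t} : Set FE))),
      (b : FE) = algebraMap FK FE (bK : FK) → bK ∈ 𝔫K.1 → b ∈ 𝔫E.1 := by
    intro bK b hb hbK
    obtain ⟨h1, h2⟩ := hmemK bK hbK
    refine (hmemE b).2 ?_
    rw [hb]
    exact ⟨h1, h2⟩
  exact tres5ki_point 𝔫E 𝔫K H hfin hpK hGF hGA hGt hGLK hfixL hfixF hG𝔫 h𝔫K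
    (ribmp_rd_comp WE ρE Q hker) hcenE
    (fun b hb => by
      obtain ⟨h1, h2⟩ := (hmemE b).1 hb
      exact tres5ki_comp_nonunits WE ρE Q hker h1 h2)
    (tres5g_comp_smul WE ρE Q hker hG) ρ hρG hρ

end Layer2b

end Fermat.Agent.R38

end
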