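import Fermat.Agent.S36.ThinKron

/-!
# Row 38, PKG-TRES, MONO, piece FAC-OGG (helper10), part 0: the reduction `h̄ = Δ̄^{1-q}` of the
Ogg unit is a rational function of `j̄`

`k` a field of characteristic `q` (`q` prime).  `h̄ := Δ̄ · (Δ̄⁻¹)^q = S28.uInvS k q`.

* `tres5o_uInvS_eq`  : `uInvS k q = deltaS k * deltaInvS k ^ q`;
* `tres5o_uS_eq`     : `uS k q = deltaS k ^ q * deltaInvS k`;
* `tres5o_N_ne_zero`, `tres5o_red_eq` : `h̄ = G(j̄)^{q-1} C(j̄)¹² / N(j̄)⁶`, `G = X⁴ (X − 1728)³`,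
  `C = X^{q²} − X`, `N = S36.s36tkN q k` (from `S36.s36tk_series`);
* `tres5o_red_mem`   : **`h̄ ∈ F̄_M = modularFunctionFieldFullC k M`** for EVERY level `M`;
  `tres5o_uInvS_mem`, `tres5o_uS_mem`; `tres5o_red_ne_zero`.
-/

set_option autoImplicit false
set_option linter.unusedSectionVars false
set_option linter.unusedVariables false
set_option linter.style.haveILetI false
set_option linter.style.longLine false

noncomputable section

namespace Fermat.Agent.R38

open ModularCurve Polynomial Fermat.Agent.UNIP Fermat.Agent.S36 Fermat.Agent.S28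

section Fld

variable (q : ℕ) [hq : Fact q.Prime] [NeZero q] (k : Type*) [Field k] [CharP k q]

/-- in characteristic `q`: `Δ̄(Q)/Δ̄(Q^q) = Δ̄ · (Δ̄⁻¹)^q` -/
theorem tres5o_uInvS_eq : uInvS k q = deltaS k * deltaInvS k ^ q := by
  rw [uInvS_eq_mul_qExpand]
  congr 1
  exact nodesFrob_qExpand_int (k := k) q deltaInvZ

/-- in characteristic `q`: `Δ̄(Q^q)/Δ̄(Q) = Δ̄^q · Δ̄⁻¹` -/
theorem tres5o_uS_eq : uS k q = deltaS k ^ q * deltaInvS k := by
  rw [uS_eq_qExpand_mul]
  congr 1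
  exact nodesFrob_qExpand_int (k := k) q deltaZ

theorem tres5o_red_ne_zero : deltaS k * deltaInvS k ^ q ≠ 0 :=
  mul_ne_zero (deltaS_ne_zero k) (pow_ne_zero _ (deltaInvS_ne_zero k))

theorem tres5o_aeval_ne_zero {f : k[X]} (hf : f ≠ 0) : aeval (jqModC k) f ≠ 0 := by
  intro h0
  exact hf ((transcendental_iff_injective.1 (red_transcendental_jqModC k))
    (by rw [h0, map_zero]))

/-- `N(j̄) ≠ 0` -/
theorem tres5o_N_ne_zero : aeval (jqModC k) (s36tkN q k) ≠ 0 := by
  intro h0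
  have h := s36tk_series q k
  rw [h0, zero_pow (by norm_num), mul_zero] at h
  have hG : (X ^ 4 * (X - Polynomial.C (1728 : k)) ^ 3 : k[X]) ^ (q - 1) ≠ 0 :=
    pow_ne_zero _ (mul_ne_zero (pow_ne_zero _ X_ne_zero) (pow_ne_zero _ (X_sub_C_ne_zero _)))
  exact mul_ne_zero (tres5o_aeval_ne_zero k hG)
    (pow_ne_zero _ (tres5o_aeval_ne_zero k (s36tk_C_ne_zero q k))) h.symm

/-- **`Δ̄^{1-q} = G(j̄)^{q-1} C(j̄)¹² / N(j̄)⁶`** -/
theorem tres5o_red_eq :
    deltaS k * deltaInvS k ^ q =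
      aeval (jqModC k) ((X ^ 4 * (X - Polynomial.C (1728 : k)) ^ 3) ^ (q - 1) : k[X]) *
        (aeval (jqModC k) (X ^ (q ^ 2) - X : k[X])) ^ 12 *
          ((aeval (jqModC k) (s36tkN q k)) ^ 6)⁻¹ := by
  rw [← s36tk_series q k, mul_assoc, mul_inv_cancel₀ (pow_ne_zero _ (tres5o_N_ne_zero q k)),
    mul_one]

omit hq [NeZero q] [CharP k q] in
/-- polynomials in `j̄` lie in `F̄_M` -/
theorem tres5o_aeval_mem (M : ℕ) (f : k[X]) :
    aeval (jqModC k) f ∈ modularFunctionFieldFullC k M := by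
  have h := Polynomial.aeval_algebraMap_apply (LaurentSeries k)
    (⟨jqModC k, jqModC_mem_full k M⟩ : modularFunctionFieldFullC k M) f
  have e : algebraMap (modularFunctionFieldFullC k M) (LaurentSeries k)
      ⟨jqModC k, jqModC_mem_full k M⟩ = jqModC k := rfl
  rw [e] at h
  rw [h]
  exact (aeval (⟨jqModC k, jqModC_mem_full k M⟩ : modularFunctionFieldFullC k M) f).2

/-- **the reduction of the Ogg unit lies in `F̄_M`**, for every level `M` -/
theorem tres5o_red_mem (M : ℕ) :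
    deltaS k * deltaInvS k ^ q ∈ modularFunctionFieldFullC k M := by
  rw [tres5o_red_eq q k]
  exact mul_mem (mul_mem (tres5o_aeval_mem k M _) (pow_mem (tres5o_aeval_mem k M _) _))
    (inv_mem (pow_mem (tres5o_aeval_mem k M _) _))

theorem tres5o_uInvS_mem (M : ℕ) : uInvS k q ∈ modularFunctionFieldFullC k M := by
  rw [tres5o_uInvS_eq q k]
  exact tres5o_red_mem q k M

theorem tres5o_uS_mem (M : ℕ) : uS k q ∈ modularFunctionFieldFullC k M := by
  have h : uS k q = (uInvS k q)⁻¹ :=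
    eq_inv_of_mul_eq_one_left (uS_mul_uInvS k q)
  rw [h]
  exact inv_mem (tres5o_uInvS_mem q k M)

end Fld

end Fermat.Agent.R38
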