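import Fermat.Agent.R38.TresDlogHecke

/-!
# Row 38, PKG-TRES, piece TRES-RED (generic part): the Gauss reduction of a Laurent series (helper42)

`L` a field, `A` a valuation subring of `L`, `k` its residue field.  For `u ∈ L((q))`, `r ∈ k((q))`:

`R38Red A u r` : `u = c · Y₁ / Y₂` with `c ∈ L^×`, `Y₁, Y₂ ∈ A((q))` primitive (nonzero reduction)
and `r = Ȳ₁ / Ȳ₂` ("`r` is a Gauss reduction of `u`").

* `r38red_of_prim` : existence from a primitive fraction (the shape of `ES.G2.StmtPrim`);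
* `R38Red.one/const/mul/inv/div/pow` : multiplicativity;
* `R38Red.unique` : two reductions of `u` differ by a constant of `k^×`;
* `R38Red.dlog_eq` : hence `b̄ := dlog r` only depends on `u`;
* `R38Red.dlog_mul/…` : `b̄` is additive, kills constants and (`char k = p`) `p`-th powers;
* `R38Red.coeffMap_inertia` : the reduction does not change under inertia (acting on coefficients);
* `R38Red.qExpand/kronNorm/kronHecke` : the reduction commutes with `q ↦ q^ℓ`, with the norm and with
  the multiplicative Hecke operator; `R38Red.dlog_kronHecke` : `b̄(T_ℓ u) = T_ℓ b̄(u)`.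
-/

set_option autoImplicit false
set_option linter.unusedSectionVars false
set_option linter.style.haveILetI false

noncomputable section

namespace Fermat.Agent.R38

open HahnSeries ModularCurve Fermat.Agent.S28.Deriv Fermat.Agent.ES

section Red

variable {L : Type*} [Field L] (A : ValuationSubring L)

/-- `r ∈ k((q))` is a Gauss reduction of `u ∈ L((q))`: `u = c · Y₁ / Y₂`, `r = Ȳ₁ / Ȳ₂` with
`Y₁, Y₂` primitive series over `A`. -/
def R38Red (u : LaurentSeries L) (r : LaurentSeries (IsLocalRing.ResidueField A)) : Prop :=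
  ∃ (c : L) (Y₁ Y₂ : LaurentSeries A), c ≠ 0 ∧ kronRed A Y₁ ≠ 0 ∧ kronRed A Y₂ ≠ 0 ∧
    u * kronIncl A Y₂ = HahnSeries.C c * kronIncl A Y₁ ∧ r * kronRed A Y₂ = kronRed A Y₁

variable {A}

theorem r38red_incl_ne_zero {Y : LaurentSeries A} (hY : kronRed A Y ≠ 0) : kronIncl A Y ≠ 0 := by
  intro h
  apply hY
  have : Y = 0 := kronIncl_injective (by rw [h, map_zero])
  rw [this, map_zero]

theorem r38red_C_ne_zero {c : L} (hc : c ≠ 0) : (HahnSeries.C c : LaurentSeries L) ≠ 0 := by
  intro h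
  apply hc
  have := congrArg (fun f : LaurentSeries L => f.coeff 0) h
  simpa using this

theorem R38Red.ne_zero_left {u : LaurentSeries L}
    {r : LaurentSeries (IsLocalRing.ResidueField A)} (h : R38Red A u r) : u ≠ 0 := by
  obtain ⟨c, Y₁, Y₂, hc, h1, h2, hu, hr⟩ := h
  rintro rfl
  rw [zero_mul] at hu
  exact mul_ne_zero (r38red_C_ne_zero hc) (r38red_incl_ne_zero h1) hu.symm

theorem R38Red.ne_zero_right {u : LaurentSeries L}
    {r : LaurentSeries (IsLocalRing.ResidueField A)} (h : R38Red A u r) : r ≠ 0 := by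
  obtain ⟨c, Y₁, Y₂, hc, h1, h2, hu, hr⟩ := h
  rintro rfl
  rw [zero_mul] at hr
  exact h1 hr.symm

/-- existence of a reduction for a primitive fraction (the shape of `ES.G2.StmtPrim`) -/
theorem r38red_of_prim {u : LaurentSeries L} {c : L} (hc : c ≠ 0) {y₁ y₂ : LaurentSeries L}
    (hy₁ : KronPrim A y₁) (hy₂ : KronPrim A y₂) (hu : u * y₂ = HahnSeries.C c * y₁) :
    ∃ r : LaurentSeries (IsLocalRing.ResidueField A), R38Red A u r := by
  obtain ⟨Y₁, rfl⟩ := hy₁.1.exists_lift
  obtain ⟨Y₂, rfl⟩ := hy₂.1.exists_lift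
  have h1 := (kronPrim_kronIncl_iff Y₁).1 hy₁
  have h2 := (kronPrim_kronIncl_iff Y₂).1 hy₂
  exact ⟨kronRed A Y₁ * (kronRed A Y₂)⁻¹, c, Y₁, Y₂, hc, h1, h2, hu,
    by rw [mul_assoc, inv_mul_cancel₀ h2, mul_one]⟩

/-- a primitive series over `A` reduces to its reduction -/
theorem r38red_incl {Y : LaurentSeries A} (hY : kronRed A Y ≠ 0) :
    R38Red A (kronIncl A Y) (kronRed A Y) :=
  ⟨1, Y, 1, one_ne_zero, hY, by rw [map_one]; exact one_ne_zero,
    by rw [map_one, map_one, mul_one, one_mul], by rw [map_one, mul_one]⟩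

theorem R38Red.one : R38Red A (1 : LaurentSeries L) 1 :=
  ⟨1, 1, 1, one_ne_zero, by rw [map_one]; exact one_ne_zero, by rw [map_one]; exact one_ne_zero,
    by rw [map_one, map_one], by rw [map_one, mul_one]⟩

theorem R38Red.const {c : L} (hc : c ≠ 0) : R38Red A (HahnSeries.C c : LaurentSeries L) 1 :=
  ⟨c, 1, 1, hc, by rw [map_one]; exact one_ne_zero, by rw [map_one]; exact one_ne_zero,
    by rw [map_one], by rw [map_one, mul_one]⟩

theorem R38Red.mul {u u' : LaurentSeries L} {r r' : LaurentSeries (IsLocalRing.ResidueField A)}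
    (h : R38Red A u r) (h' : R38Red A u' r') : R38Red A (u * u') (r * r') := by
  obtain ⟨c, Y₁, Y₂, hc, h1, h2, hu, hr⟩ := h
  obtain ⟨c', Y₁', Y₂', hc', h1', h2', hu', hr'⟩ := h'
  refine ⟨c * c', Y₁ * Y₁', Y₂ * Y₂', mul_ne_zero hc hc', ?_, ?_, ?_, ?_⟩
  · rw [map_mul]; exact mul_ne_zero h1 h1'
  · rw [map_mul]; exact mul_ne_zero h2 h2'
  · rw [map_mul, map_mul, map_mul]
    calc u * u' * (kronIncl A Y₂ * kronIncl A Y₂')
        = (u * kronIncl A Y₂) * (u' * kronIncl A Y₂') := by ring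
      _ = HahnSeries.C c * HahnSeries.C c' * (kronIncl A Y₁ * kronIncl A Y₁') := by
        rw [hu, hu']; ring
  · rw [map_mul, map_mul]
    calc r * r' * (kronRed A Y₂ * kronRed A Y₂')
        = (r * kronRed A Y₂) * (r' * kronRed A Y₂') := by ring
      _ = kronRed A Y₁ * kronRed A Y₁' := by rw [hr, hr']

theorem R38Red.inv {u : LaurentSeries L} {r : LaurentSeries (IsLocalRing.ResidueField A)}
    (h : R38Red A u r) : R38Red A u⁻¹ r⁻¹ := by
  have hu0 := h.ne_zero_left
  have hr0 := h.ne_zero_right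
  obtain ⟨c, Y₁, Y₂, hc, h1, h2, hu, hr⟩ := h
  refine ⟨c⁻¹, Y₂, Y₁, inv_ne_zero hc, h2, h1, ?_, ?_⟩
  · have hC : (HahnSeries.C c : LaurentSeries L) ≠ 0 := r38red_C_ne_zero hc
    rw [map_inv₀]
    field_simp
    rw [mul_comm, ← hu]
  · field_simp
    rw [← hr, mul_comm]

theorem R38Red.div {u u' : LaurentSeries L} {r r' : LaurentSeries (IsLocalRing.ResidueField A)}
    (h : R38Red A u r) (h' : R38Red A u' r') : R38Red A (u / u') (r / r') := by
  rw [div_eq_mul_inv, div_eq_mul_inv]
  exact h.mul h'.inv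

theorem R38Red.pow {u : LaurentSeries L} {r : LaurentSeries (IsLocalRing.ResidueField A)}
    (h : R38Red A u r) (n : ℕ) : R38Red A (u ^ n) (r ^ n) := by
  induction n with
  | zero => rw [pow_zero, pow_zero]; exact R38Red.one
  | succ n ih => rw [pow_succ, pow_succ]; exact ih.mul h

/-- a constant multiple of a primitive series which is again primitive: the constant is a unit -/
theorem r38red_unit_of_prim {a : L} {F G : LaurentSeries A} (hF : kronRed A F ≠ 0)
    (hG : kronRed A G ≠ 0) (h : HahnSeries.C a * kronIncl A F = kronIncl A G) :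
    ∃ a' : A, (a' : L) = a ∧ IsLocalRing.residue A a' ≠ 0 ∧
      kronRed A G = HahnSeries.C (IsLocalRing.residue A a') * kronRed A F := by
  -- a unit coefficient of `F`
  obtain ⟨n, hn⟩ : ∃ n : ℤ, IsLocalRing.residue A (F.coeff n) ≠ 0 := by
    by_contra hcon
    simp only [not_exists, not_not] at hcon
    apply hF
    ext n
    simpa using hcon n
  have hcoef : ∀ m : ℤ, a * ((F.coeff m : A) : L) = ((G.coeff m : A) : L) := by
    intro m
    have := congrArg (fun f : LaurentSeries L => f.coeff m) h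
    simpa [HahnSeries.C_mul_eq_smul] using this
  have hFn : IsUnit (F.coeff n) := by
    by_contra hcon
    exact hn ((IsLocalRing.residue_eq_zero_iff _).2 ((IsLocalRing.mem_maximalIdeal _).2 hcon))
  obtain ⟨w, hw⟩ := hFn
  have hwinv : ((F.coeff n : A) : L) * (((w⁻¹ : Aˣ) : A) : L) = 1 := by
    have : (F.coeff n) * ((w⁻¹ : Aˣ) : A) = 1 := by rw [← hw]; exact w.mul_inv
    have := congrArg (fun x : A => (x : L)) this
    simpa using this
  have ha : a = ((G.coeff n * ((w⁻¹ : Aˣ) : A) : A) : L) := by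
    have h1 := hcoef n
    push_cast
    rw [← h1, mul_assoc, hwinv, mul_one]
  set a' : A := G.coeff n * ((w⁻¹ : Aˣ) : A) with ha'
  have hred : kronRed A G = HahnSeries.C (IsLocalRing.residue A a') * kronRed A F := by
    ext m
    rw [HahnSeries.C_mul_eq_smul, HahnSeries.coeff_smul, smul_eq_mul, coeffMap_coeff,
      coeffMap_coeff, ← map_mul]
    congr 1
    apply Subtype.ext
    push_cast
    rw [← ha, hcoef m]
  refine ⟨a', ha.symm, ?_, hred⟩
  intro h0
  apply hG
  rw [hred, h0, map_zero, zero_mul]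

/-- **uniqueness of the Gauss reduction up to a constant** -/
theorem R38Red.unique {u : LaurentSeries L} {r r' : LaurentSeries (IsLocalRing.ResidueField A)}
    (h : R38Red A u r) (h' : R38Red A u r') :
    ∃ a : IsLocalRing.ResidueField A, a ≠ 0 ∧ r' = HahnSeries.C a * r := by
  obtain ⟨c, Y₁, Y₂, hc, h1, h2, hu, hr⟩ := h
  obtain ⟨c', Y₁', Y₂', hc', h1', h2', hu', hr'⟩ := h'
  -- `c' Y₁' Y₂ = c Y₁ Y₂'`
  have hC : (HahnSeries.C c : LaurentSeries L) ≠ 0 := r38red_C_ne_zero hc
  have key : HahnSeries.C (c' * c⁻¹) * kronIncl A (Y₁' * Y₂) = kronIncl A (Y₁ * Y₂') := by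
    have e1 : HahnSeries.C c' * kronIncl A Y₁' * kronIncl A Y₂
        = HahnSeries.C c * kronIncl A Y₁ * kronIncl A Y₂' := by
      rw [← hu, ← hu']; ring
    rw [map_mul, map_mul, map_mul, map_inv₀]
    field_simp
    exact e1
  obtain ⟨a', -, ha0, hred⟩ := r38red_unit_of_prim
    (by rw [map_mul]; exact mul_ne_zero h1' h2) (by rw [map_mul]; exact mul_ne_zero h1 h2') key
  rw [map_mul, map_mul] at hred
  -- `Ȳ₁ Ȳ₂' = ā Ȳ₁' Ȳ₂`, `r Ȳ₂ = Ȳ₁`, `r' Ȳ₂' = Ȳ₁'`
  refine ⟨(IsLocalRing.residue A a')⁻¹, inv_ne_zero ha0, ?_⟩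
  have hCa : (HahnSeries.C (IsLocalRing.residue A a') :
      LaurentSeries (IsLocalRing.ResidueField A)) ≠ 0 := r38red_C_ne_zero ha0
  have e2 : r * (kronRed A Y₂ * kronRed A Y₂')
      = HahnSeries.C (IsLocalRing.residue A a') * r' * (kronRed A Y₂ * kronRed A Y₂') := by
    calc r * (kronRed A Y₂ * kronRed A Y₂')
        = (r * kronRed A Y₂) * kronRed A Y₂' := by ring
      _ = kronRed A Y₁ * kronRed A Y₂' := by rw [hr]
      _ = HahnSeries.C (IsLocalRing.residue A a') * ((r' * kronRed A Y₂') * kronRed A Y₂) := by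
        rw [hred, hr']
      _ = HahnSeries.C (IsLocalRing.residue A a') * r' * (kronRed A Y₂ * kronRed A Y₂') := by
        ring
  have e3 := mul_right_cancel₀ (mul_ne_zero h2 h2') e2
  rw [e3, map_inv₀, ← mul_assoc, inv_mul_cancel₀ hCa, one_mul]

/-- **`b̄ = dlog ū` is well defined** -/
theorem R38Red.dlog_eq {u : LaurentSeries L} {r r' : LaurentSeries (IsLocalRing.ResidueField A)}
    (h : R38Red A u r) (h' : R38Red A u r') : r38dlog r' = r38dlog r := by
  obtain ⟨a, ha, rfl⟩ := h.unique h'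
  exact r38dlog_C_mul a ha h.ne_zero_right

/-! ### `b̄` is additive, kills constants and `p`-th powers -/

theorem R38Red.dlog_mul {u u' : LaurentSeries L}
    {r r' : LaurentSeries (IsLocalRing.ResidueField A)}
    (h : R38Red A u r) (h' : R38Red A u' r') :
    r38dlog (r * r') = r38dlog r + r38dlog r' :=
  r38dlog_mul h.ne_zero_right h'.ne_zero_right

/-- the reduction of a constant times a `p`-th power has `b̄ = 0` -/
theorem R38Red.dlog_const_mul_pow (p : ℕ) [Fact p.Prime] [CharP (IsLocalRing.ResidueField A) p]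
    {c : L} (hc : c ≠ 0) {h : LaurentSeries L} {s r : LaurentSeries (IsLocalRing.ResidueField A)}
    (hh : R38Red A h s) (hr : R38Red A (HahnSeries.C c * h ^ p) r) : r38dlog r = 0 := by
  have h1 : R38Red A (HahnSeries.C c * h ^ p) (1 * s ^ p) := (R38Red.const hc).mul (hh.pow p)
  rw [R38Red.dlog_eq h1 hr, one_mul]
  exact r38dlog_pow_char p s

/-- `b̄` only depends on `u` modulo constants and `p`-th powers -/
theorem R38Red.dlog_eq_of_eq_mul_pow (p : ℕ) [Fact p.Prime]
    [CharP (IsLocalRing.ResidueField A) p]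
    {c : L} (hc : c ≠ 0) {u u' h : LaurentSeries L}
    {r r' s : LaurentSeries (IsLocalRing.ResidueField A)}
    (hu : R38Red A u r) (hu' : R38Red A u' r') (hh : R38Red A h s)
    (he : u' = HahnSeries.C c * u * h ^ p) : r38dlog r' = r38dlog r := by
  have h1 : R38Red A u' (1 * r * s ^ p) := by
    rw [he]
    exact ((R38Red.const hc).mul hu).mul (hh.pow p)
  rw [R38Red.dlog_eq h1 hu', one_mul,
    r38dlog_mul hu.ne_zero_right (pow_ne_zero p hh.ne_zero_right), r38dlog_pow_char p s,
    add_zero]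

end Red

/-! ## The integral reduction (Gauss valuation `≥ 0`) -/

section RedInt

variable {L : Type*} [Field L] (A : ValuationSubring L)

/-- `g ∈ k((q))` is the reduction of `f ∈ L((q))`, `f = Y / Z` with `Y` integral and `Z` primitive
(Gauss valuation of `f` is `≥ 0`). -/
def R38RedInt (f : LaurentSeries L) (g : LaurentSeries (IsLocalRing.ResidueField A)) : Prop :=
  ∃ Y Z : LaurentSeries A, kronRed A Z ≠ 0 ∧
    f * kronIncl A Z = kronIncl A Y ∧ g * kronRed A Z = kronRed A Y

variable {A}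

theorem R38RedInt.unique {f : LaurentSeries L} {g g' : LaurentSeries (IsLocalRing.ResidueField A)}
    (h : R38RedInt A f g) (h' : R38RedInt A f g') : g = g' := by
  obtain ⟨Y, Z, hZ, hf, hg⟩ := h
  obtain ⟨Y', Z', hZ', hf', hg'⟩ := h'
  have e1 : kronIncl A (Y * Z') = kronIncl A (Y' * Z) := by
    rw [map_mul, map_mul, ← hf, ← hf']; ring
  have e2 : Y * Z' = Y' * Z := kronIncl_injective e1
  have e3 : kronRed A Y * kronRed A Z' = kronRed A Y' * kronRed A Z := by
    rw [← map_mul, ← map_mul, e2]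
  rw [← hg, ← hg'] at e3
  have e4 : g * (kronRed A Z * kronRed A Z') = g' * (kronRed A Z * kronRed A Z') := by
    calc g * (kronRed A Z * kronRed A Z') = g * kronRed A Z * kronRed A Z' := by ring
      _ = g' * kronRed A Z' * kronRed A Z := e3
      _ = g' * (kronRed A Z * kronRed A Z') := by ring
  exact mul_right_cancel₀ (mul_ne_zero hZ hZ') e4

theorem r38redInt_incl (Y : LaurentSeries A) : R38RedInt A (kronIncl A Y) (kronRed A Y) :=
  ⟨Y, 1, by rw [map_one]; exact one_ne_zero, by rw [map_one, mul_one], by rw [map_one, mul_one]⟩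

theorem R38RedInt.zero : R38RedInt A (0 : LaurentSeries L) 0 := by
  have := r38redInt_incl (A := A) 0
  rwa [map_zero, map_zero] at this

theorem R38RedInt.add {f f' : LaurentSeries L}
    {g g' : LaurentSeries (IsLocalRing.ResidueField A)}
    (h : R38RedInt A f g) (h' : R38RedInt A f' g') : R38RedInt A (f + f') (g + g') := by
  obtain ⟨Y, Z, hZ, hf, hg⟩ := h
  obtain ⟨Y', Z', hZ', hf', hg'⟩ := h'
  refine ⟨Y * Z' + Y' * Z, Z * Z', by rw [map_mul]; exact mul_ne_zero hZ hZ', ?_, ?_⟩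
  · rw [map_add, map_mul, map_mul, map_mul, ← hf, ← hf']; ring
  · rw [map_add, map_mul, map_mul, map_mul, ← hg, ← hg']; ring

theorem R38RedInt.neg {f : LaurentSeries L} {g : LaurentSeries (IsLocalRing.ResidueField A)}
    (h : R38RedInt A f g) : R38RedInt A (-f) (-g) := by
  obtain ⟨Y, Z, hZ, hf, hg⟩ := h
  exact ⟨-Y, Z, hZ, by rw [map_neg, ← hf, neg_mul], by rw [map_neg, ← hg, neg_mul]⟩

theorem R38RedInt.mul {f f' : LaurentSeries L}
    {g g' : LaurentSeries (IsLocalRing.ResidueField A)}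
    (h : R38RedInt A f g) (h' : R38RedInt A f' g') : R38RedInt A (f * f') (g * g') := by
  obtain ⟨Y, Z, hZ, hf, hg⟩ := h
  obtain ⟨Y', Z', hZ', hf', hg'⟩ := h'
  refine ⟨Y * Y', Z * Z', by rw [map_mul]; exact mul_ne_zero hZ hZ', ?_, ?_⟩
  · rw [map_mul, map_mul, ← hf, ← hf']; ring
  · rw [map_mul, map_mul, ← hg, ← hg']; ring

/-- a primitive fraction reduces integrally (with constant `1`) -/
theorem R38RedInt.inv_of_ne_zero {f : LaurentSeries L}
    {g : LaurentSeries (IsLocalRing.ResidueField A)} (h : R38RedInt A f g) (hg0 : g ≠ 0) :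
    R38RedInt A f⁻¹ g⁻¹ := by
  obtain ⟨Y, Z, hZ, hf, hg⟩ := h
  have hY : kronRed A Y ≠ 0 := by rw [← hg]; exact mul_ne_zero hg0 hZ
  have hf0 : f ≠ 0 := by
    rintro rfl
    rw [zero_mul] at hf
    exact r38red_incl_ne_zero hY hf.symm
  refine ⟨Z, Y, hY, ?_, ?_⟩
  · rw [← hf]; field_simp
  · rw [← hg]; field_simp

/-- **the reduction of `dlog u` is `dlog ū`**: `b̄` is the reduction of the meromorphic form
`θ u / u` of weight 2. -/
theorem R38Red.redInt_dlog {u : LaurentSeries L} {r : LaurentSeries (IsLocalRing.ResidueField A)}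
    (h : R38Red A u r) : R38RedInt A (r38dlog u) (r38dlog r) := by
  have hu0 := h.ne_zero_left
  have hr0 := h.ne_zero_right
  obtain ⟨c, Y₁, Y₂, hc, h1, h2, hu, hr⟩ := h
  have hC : (HahnSeries.C c : LaurentSeries L) ≠ 0 := r38red_C_ne_zero hc
  have hi1 := r38red_incl_ne_zero h1
  have hi2 := r38red_incl_ne_zero h2
  refine ⟨thetaFun Y₁ * Y₂ - Y₁ * thetaFun Y₂, Y₁ * Y₂,
    by rw [map_mul]; exact mul_ne_zero h1 h2, ?_, ?_⟩
  · -- over `L`
    have e1 : r38dlog u + r38dlog (kronIncl A Y₂) = r38dlog (kronIncl A Y₁) := by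
      rw [← r38dlog_mul hu0 hi2, hu, r38dlog_C_mul c hc hi1]
    have e2 : r38dlog u = r38dlog (kronIncl A Y₁) - r38dlog (kronIncl A Y₂) :=
      eq_sub_of_add_eq e1
    rw [e2, map_sub, map_mul, map_mul, map_mul, ← thetaFun_coeffMap, ← thetaFun_coeffMap,
      r38dlog, r38dlog]
    field_simp
  · have e1 : r38dlog r + r38dlog (kronRed A Y₂) = r38dlog (kronRed A Y₁) := by
      rw [← r38dlog_mul hr0 h2, hr]
    have e2 : r38dlog r = r38dlog (kronRed A Y₁) - r38dlog (kronRed A Y₂) :=
      eq_sub_of_add_eq e1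
    rw [e2, map_sub, map_mul, map_mul, map_mul, ← thetaFun_coeffMap, ← thetaFun_coeffMap,
      r38dlog, r38dlog]
    field_simp

end RedInt

/-! ## Inertia -/

section Inertia

variable {K L : Type*} [Field K] [Field L] [Algebra K L] {A : ValuationSubring L}

theorem r38red_coeffMap_C {R S : Type*} [CommRing R] [CommRing S] (φ : R →+* S) (c : R) :
    coeffMap φ (HahnSeries.C c : LaurentSeries R) = HahnSeries.C (φ c) := by
  rw [show (HahnSeries.C c : LaurentSeries R) = HahnSeries.single 0 c from rfl, coeffMap_single]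
  rfl

theorem r38red_kronRed_inertia {σ : L ≃ₐ[K] L} (hσ : σ ∈ A.inertiaSubgroupIn K)
    (Y : LaurentSeries A) :
    kronRed A (coeffMap (kronDecompHom σ (kron_mem_decomposition_of_mem_inertia hσ)) Y)
      = kronRed A Y := by
  ext n
  rw [coeffMap_coeff, coeffMap_coeff, coeffMap_coeff]
  exact kron_residue_inertia hσ _

/-- **inertia does not change the Gauss reduction** -/
theorem R38Red.coeffMap_inertia {σ : L ≃ₐ[K] L} (hσ : σ ∈ A.inertiaSubgroupIn K)
    {u : LaurentSeries L} {r : LaurentSeries (IsLocalRing.ResidueField A)} (h : R38Red A u r) :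
    R38Red A (coeffMap (σ : L →+* L) u) r := by
  obtain ⟨c, Y₁, Y₂, hc, h1, h2, hu, hr⟩ := h
  have hd := kron_mem_decomposition_of_mem_inertia hσ
  refine ⟨σ c, coeffMap (kronDecompHom σ hd) Y₁, coeffMap (kronDecompHom σ hd) Y₂, ?_, ?_, ?_,
    ?_, ?_⟩
  · exact (map_ne_zero_iff _ σ.injective).2 hc
  · rw [r38red_kronRed_inertia hσ]; exact h1
  · rw [r38red_kronRed_inertia hσ]; exact h2
  · rw [kronIncl_coeffMap_kronDecompHom, kronIncl_coeffMap_kronDecompHom, ← map_mul, hu, map_mul,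
      r38red_coeffMap_C]
    rfl
  · rw [r38red_kronRed_inertia hσ, r38red_kronRed_inertia hσ]; exact hr

theorem R38RedInt.coeffMap_inertia {σ : L ≃ₐ[K] L} (hσ : σ ∈ A.inertiaSubgroupIn K)
    {f : LaurentSeries L} {g : LaurentSeries (IsLocalRing.ResidueField A)}
    (h : R38RedInt A f g) : R38RedInt A (coeffMap (σ : L →+* L) f) g := by
  obtain ⟨Y, Z, hZ, hf, hg⟩ := h
  have hd := kron_mem_decomposition_of_mem_inertia hσ
  refine ⟨coeffMap (kronDecompHom σ hd) Y, coeffMap (kronDecompHom σ hd) Z, ?_, ?_, ?_⟩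
  · rw [r38red_kronRed_inertia hσ]; exact hZ
  · rw [kronIncl_coeffMap_kronDecompHom, kronIncl_coeffMap_kronDecompHom, ← map_mul, hf]
  · rw [r38red_kronRed_inertia hσ, r38red_kronRed_inertia hσ]; exact hg

end Inertia

end Fermat.Agent.R38
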