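import Fermat.Agent.S33.WildUnit
import Fermat.Agent.R38.TresOggFld
import Fermat.Agent.R38.TresRed
import Fermat.Agent.ES.M.Plan
import Fermat.Agent.INJ.NFEmb

/-!
# Row 38, PKG-TRES, MONO, piece FAC-OGG (helper10), part 2: the reduction of the Ogg unit

`h = S36.s36tuV ↥K₀ ιC ∈ F_{Mq}(K₀)`, `Q`-expansion `Δ(Q)/Δ(Q^q) = S28.uInvS ↥K₀ q`.
`k` a field of characteristic `q`; `h̄ := Δ̄ · (Δ̄⁻¹)^q = Δ̄^{1-q} = S28.uInvS k q`.

(`h̄ ∈ F̄_M` for every level `M`: `R38/TresOggFld.lean`, `tres5o_red_mem`.)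

* `tres5o_nfEmb_coe` : the `Q`-expansion of `h` over `ℚ̄`;
* `tres5o_gaussRed`  : `ES.M.GaussRed (M * q) A (nfEmb K₀ (M * q) h) h̄`;
* `tres5o_r38Red`    : `R38Red A (h : ℚ̄((Q))) h̄`;
(`tres5o_mgvRed` : `mgvRed hπ ιC hq hqM true h = h̄` is in `R38/TresOggMgv.lean`.)
-/

set_option autoImplicit false
set_option linter.unusedSectionVars false
set_option linter.unusedVariables false
set_option linter.style.haveILetI false
set_option linter.style.longLine false

noncomputable section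

namespace Fermat.Agent.R38

open ModularCurve Polynomial Fermat.Agent.INJ Fermat.Agent.UNIP Fermat.Agent.S36
  Fermat.Agent.S33 Fermat.Agent.S28 Fermat.Agent.ES Fermat.Agent.ES.M Fermat.Agent.ES.G2

section Red

variable {A : ValuationSubring Qb} {K₀ : IntermediateField ℚ Qb} (ιC : ↥K₀ →+* ℂ)
  {q M : ℕ} [NeZero q] [NeZero M] [NeZero (M * q)]

/-- the `Q`-expansion of the Ogg unit over `ℚ̄` -/
theorem tres5o_nfEmb_coe :
    ((nfEmb K₀ (M * q) (s36tuV ↥K₀ ιC (q := q) (M := M)) : modularFunctionFieldBar (M * q)) :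
      LaurentSeries Qb) = uInvS Qb q := by
  rw [nfEmb_coe, s36tuV_coe, coeffMap_uInvS]

theorem tres5o_kronIncl_uInvS : kronIncl A (uInvS ↥A q) = uInvS Qb q :=
  coeffMap_uInvS q A.subtype

theorem tres5o_kronRed_uInvS : kronRed A (uInvS ↥A q) = uInvS (kA A) q :=
  coeffMap_uInvS q (IsLocalRing.residue ↥A)

theorem tres5o_uInvS_ne_zero (k : Type*) [Field k] : uInvS k q ≠ 0 := by
  intro h
  have := uS_mul_uInvS k q
  rw [h, mul_zero] at this
  exact zero_ne_one this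

/-- **Gauss reduction of the Ogg unit** (fraction form of `ES/M/Plan.lean`) -/
theorem tres5o_gaussRed_uInvS :
    GaussRed (M * q) A (nfEmb K₀ (M * q) (s36tuV ↥K₀ ιC (q := q) (M := M)))
      (uInvS (kA A) q) := by
  refine ⟨uInvS ↥A q, 1, ?_, ?_, ?_, ?_, ?_⟩
  · rw [tres5o_kronIncl_uInvS, ← tres5o_nfEmb_coe (K₀ := K₀) (M := M) ιC]
    exact (nfEmb K₀ (M * q) (s36tuV ↥K₀ ιC (q := q) (M := M))).2
  · rw [map_one]
    exact one_mem _
  · rw [map_one]
    exact one_ne_zero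
  · rw [map_one, mul_one, tres5o_nfEmb_coe, tres5o_kronIncl_uInvS]
  · rw [map_one, mul_one, tres5o_kronRed_uInvS]

/-- **Gauss reduction of the Ogg unit** (`R38Red` form) -/
theorem tres5o_r38Red_uInvS : R38Red A (uInvS Qb q) (uInvS (kA A) q) := by
  refine ⟨1, uInvS ↥A q, 1, one_ne_zero, ?_, ?_, ?_, ?_⟩
  · rw [tres5o_kronRed_uInvS]
    exact tres5o_uInvS_ne_zero (kA A)
  · rw [map_one]
    exact one_ne_zero
  · rw [map_one, mul_one, map_one, one_mul, tres5o_kronIncl_uInvS]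
  · rw [map_one, mul_one, tres5o_kronRed_uInvS]

variable (hq : q.Prime)

include hq in
/-- **Gauss reduction of the Ogg unit**, `h̄ = Δ̄ (Δ̄⁻¹)^q` -/
theorem tres5o_gaussRed (hA : A.LiesOverPrime q) :
    GaussRed (M * q) A (nfEmb K₀ (M * q) (s36tuV ↥K₀ ιC (q := q) (M := M)))
      (deltaS (kA A) * deltaInvS (kA A) ^ q) := by
  haveI : Fact q.Prime := ⟨hq⟩
  haveI : CharP (kA A) q := Fermat.Agent.RED.charP_residueField A hq hA
  rw [← tres5o_uInvS_eq q (kA A)]
  exact tres5o_gaussRed_uInvS ιC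

include hq in
/-- **Gauss reduction of the Ogg unit** (`R38Red` form), `h̄ = Δ̄ (Δ̄⁻¹)^q` -/
theorem tres5o_r38Red (hA : A.LiesOverPrime q) :
    R38Red A
      ((nfEmb K₀ (M * q) (s36tuV ↥K₀ ιC (q := q) (M := M)) : modularFunctionFieldBar (M * q)) :
        LaurentSeries Qb)
      (deltaS (kA A) * deltaInvS (kA A) ^ q) := by
  haveI : Fact q.Prime := ⟨hq⟩
  haveI : CharP (kA A) q := Fermat.Agent.RED.charP_residueField A hq hA
  rw [← tres5o_uInvS_eq q (kA A), tres5o_nfEmb_coe]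
  exact tres5o_r38Red_uInvS

end Red

end Fermat.Agent.R38
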