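import Fermat.Agent.RIB.MP.RedA
import Fermat.Agent.RIB.MP.FacLevel
import Fermat.Agent.R38.TresOggRed
import Fermat.Agent.R38.TresGeo
import Fermat.Agent.S15.PkgVal
import Fermat.Agent.INJ.BGRam
import Fermat.Agent.R38.TresDictNode

/-!
# Row 38, PKG-TRES, ASM-NOCOVER, LEAF A (helper28, for helper47): the reduction map `ρ = ribmpRedF`

Frame of `RIB/MP/RedA.lean`: `N = M₁ q`, `A ⊂ ℚ̄` over `q`, `K₀ ⊂ ℚ̄` with `A ∩ K₀` a DVR,
`V_∞ = mgvV hπ ιC hq hqM true` the Gauss valuation ring of `F_N(K₀)`,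
`ρ = ribmpRedF hq hqM hA hπ ιC hRedF : V_∞ →+* F_{M₁}(k)`.

* `tresmfr_j`      : `ρ (j) = j̄`;
* `tresmfr_ogg`    : `ρ (Ogg unit) = uInvS k q`  (`= Δ̄^{1-q}`);
* `tresmfr_r38Red` : for a unit `y` of `V_∞`, `ρ y` is a Gauss reduction (`R38Red`) of `nfEmb y`;
* `tresmfr_gaussRed_up`, `tresmfr_up` : the reduction does not depend on the level `M₁ q → M₁ d q`;
* `tresmfr_coe_eq` : `ρ` is characterised by `ES.M.GaussRed`.
-/

set_option autoImplicit false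
set_option linter.unusedSectionVars false
set_option linter.unusedVariables false
set_option linter.style.haveILetI false
set_option linter.style.longLine false
set_option synthInstance.maxHeartbeats 400000
set_option maxHeartbeats 1600000

noncomputable section

namespace Fermat.Agent.R38

open ModularCurve AlgebraicCurve Fermat.Agent.ES Fermat.Agent.ES.G2 Fermat.Agent.INJ
  Fermat.Agent.UNIP Fermat.Agent.STB Fermat.Agent.ES.M Fermat.Agent.DEU Fermat.Agent.S36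
  Fermat.Agent.S24 Fermat.Agent.RIB.MP Fermat.Agent.S28 Fermat.Agent.S15

section Up

variable {M₁ q : ℕ} (d : ℕ) [NeZero (M₁ * q)] [NeZero (M₁ * d * q)] {A : ValuationSubring Qb}

theorem tresmfr_bar_le (M₁ q d : ℕ) :
    modularFunctionFieldBar (M₁ * q) ≤ modularFunctionFieldBar (M₁ * d * q) := by
  rw [Nat.mul_right_comm]
  exact hdeg_bar_le (M₁ * q) d

/-- level change `M₁ q → M₁ d q` for `GaussRed`: it only depends on the `q`-expansion -/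
theorem tresmfr_gaussRed_up {v : FF (M₁ * q)} {x : FF (M₁ * d * q)} {w : LaurentSeries (kA A)}
    (hxv : (x : LaurentSeries Qb) = (v : LaurentSeries Qb)) (h : GaussRed (M₁ * q) A v w) :
    GaussRed (M₁ * d * q) A x w := by
  obtain ⟨Y₁, Y₂, hY₁, hY₂, hY₂0, hYe, hYr⟩ := h
  exact ⟨Y₁, Y₂, tresmfr_bar_le M₁ q d hY₁, tresmfr_bar_le M₁ q d hY₂, hY₂0, by rw [hxv]; exact hYe, hYr⟩

end Up

section Main

variable {M₁ q : ℕ} [NeZero M₁] [NeZero q] [NeZero (M₁ * q)] (hq : q.Prime) (hqM : ¬ q ∣ M₁)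
  {A : ValuationSubring Qb} (hA : A.LiesOverPrime q) {K₀ : IntermediateField ℚ Qb}
  [IsDiscreteValuationRing ↥(beta0Ring A K₀)] {π : ↥(beta0Ring A K₀)} (hπ : Irreducible π)
  (ιC : ↥K₀ →+* ℂ) (hRedF : StmtRedF M₁ A)

/-- `ρ` is characterised by `GaussRed` -/
theorem tresmfr_coe_eq (x : ↥(mgvV hπ ιC hq hqM true)) {w : LaurentSeries (kA A)}
    (h : GaussRed (M₁ * q) A (nfEmb K₀ (M₁ * q) (x : ↥(modularFunctionFieldFullC ↥K₀ (M₁ * q)))) w) :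
    ((ribmpRedF hq hqM hA hπ ιC hRedF x : ↥(modularFunctionFieldFullC (kA A) M₁)) :
      LaurentSeries (kA A)) = w := by
  rw [ribmpRedF_coe]
  exact ribmpRedK_eq hπ (M₁ * q) h

/-- `ρ x` is the `GaussRed` reduction of `x` -/
theorem tresmfr_spec (x : ↥(mgvV hπ ιC hq hqM true)) :
    GaussRed (M₁ * q) A (nfEmb K₀ (M₁ * q) (x : ↥(modularFunctionFieldFullC ↥K₀ (M₁ * q))))
      ((ribmpRedF hq hqM hA hπ ιC hRedF x : ↥(modularFunctionFieldFullC (kA A) M₁)) :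
        LaurentSeries (kA A)) := by
  rw [ribmpRedF_coe]
  exact ribmpRedK_spec hπ (M₁ * q) _

/-- **`ρ (j) = j̄`** -/
theorem tresmfr_j :
    ribmpRedF hq hqM hA hπ ιC hRedF ⟨bgJ ↥K₀ (M₁ * q), mgv_T_mem hπ ιC hq hqM true⟩ =
      ⟨jqModC (kA A), jqModC_mem_full (kA A) M₁⟩ := by
  apply Subtype.ext
  apply tresmfr_coe_eq
  show GaussRed (M₁ * q) A (nfEmb K₀ (M₁ * q) (bgJ ↥K₀ (M₁ * q))) (jqModC (kA A))
  rw [bgRam_nfEmb_bgJ]
  exact Fermat.Agent.S15.LN.pkg_gaussRed_j (M₁ * q) A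

/-- **`ρ (Ogg) = uInvS`** -/
theorem tresmfr_ogg (hV : s36tuV ↥K₀ ιC ∈ mgvV hπ ιC hq hqM true) :
    ((ribmpRedF hq hqM hA hπ ιC hRedF ⟨s36tuV ↥K₀ ιC, hV⟩ :
      ↥(modularFunctionFieldFullC (kA A) M₁)) : LaurentSeries (kA A)) = uInvS (kA A) q := by
  apply tresmfr_coe_eq
  exact tres5o_gaussRed_uInvS ιC

/-- **`R38Red` of a unit of `V_∞`** -/
theorem tresmfr_r38Red (y : ↥(modularFunctionFieldFullC ↥K₀ (M₁ * q)))
    (hy : (mgvV hπ ιC hq hqM true).valuation y = 1) :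
    R38Red A ((nfEmb K₀ (M₁ * q) y : modularFunctionFieldBar (M₁ * q)) : LaurentSeries Qb)
      ((ribmpRedF hq hqM hA hπ ιC hRedF ⟨y, tresdn_mem _ hy⟩ :
        ↥(modularFunctionFieldFullC (kA A) M₁)) : LaurentSeries (kA A)) := by
  refine tresgeo_red_of_gaussRed (tresmfr_spec hq hqM hA hπ ιC hRedF ⟨y, tresdn_mem _ hy⟩) ?_
  rw [ribmpRedF_coe]
  exact ribmpRedK_ne_zero hπ (M₁ * q) _ hy

/-- **the reduction does not depend on the level**: `M₁ q → M₁ d q` -/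
theorem tresmfr_up {d : ℕ} [NeZero (M₁ * d)] [NeZero (M₁ * d * q)] (hqMd : ¬ q ∣ M₁ * d)
    (hRedF' : StmtRedF (M₁ * d) A) (y₀ : ↥(modularFunctionFieldFullC ↥K₀ (M₁ * q)))
    (hy₀ : (mgvV hπ ιC hq hqM true).valuation y₀ = 1)
    (hy : (mgvV hπ ιC hq hqMd true).valuation (ribmpFlUp ↥K₀ M₁ d q y₀) = 1) :
    ((ribmpRedF hq hqMd hA hπ ιC hRedF' ⟨ribmpFlUp ↥K₀ M₁ d q y₀, tresdn_mem _ hy⟩ :
        ↥(modularFunctionFieldFullC (kA A) (M₁ * d))) : LaurentSeries (kA A)) =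
      ((ribmpRedF hq hqM hA hπ ιC hRedF ⟨y₀, tresdn_mem _ hy₀⟩ :
        ↥(modularFunctionFieldFullC (kA A) M₁)) : LaurentSeries (kA A)) := by
  apply tresmfr_coe_eq
  refine tresmfr_gaussRed_up d ?_ (tresmfr_spec hq hqM hA hπ ιC hRedF ⟨y₀, tresdn_mem _ hy₀⟩)
  show ((nfEmb K₀ (M₁ * d * q) (ribmpFlUp ↥K₀ M₁ d q y₀) : FF (M₁ * d * q)) : LaurentSeries Qb) =
    ((nfEmb K₀ (M₁ * q) y₀ : FF (M₁ * q)) : LaurentSeries Qb)
  rw [nfEmb_coe, nfEmb_coe, ribmpFlUp_coe]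

end Main

end Fermat.Agent.R38

end
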