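import Fermat.Agent.R38.TresFacTr
import Fermat.Agent.R38.TresMonoFixRed
import Fermat.Agent.UNIP.MGVertInertia
import Fermat.Agent.UNIP.MGGalAct

/-!
# Row 38, TRES, K-FORM (B), leaf (B-red) (helper28, for helper48): the reduction of a sheet over
the big field, with values in the `K`-side residue function field

`K₀ ≤ K₁` intermediate fields of `ℚ̄ / ℚ` with `A ∩ K₀`, `A ∩ K₁` discrete valuation rings
(`K₀ = beta0Field A`, `K₁ = E″ = mgcE A K₁′`), `N = M q`, `V_K = mgvV hπ₀ ιC₀ hq hqM true`,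
`V_E = mgvV hπ₁ ιC₁ hq hqM true` the Gauss valuation rings of `F_N(K₀) ⊆ F_N(K₁)`,
`ρ_K = ribmpRedF … hπ₀ …`, `ρ_E = ribmpRedF … hπ₁ …` BOTH with values in
`k(C) = modularFunctionFieldFullC (kA A) M`.

* `tres5kir_comap`, `tres5kir_hres`, `tres5kir_abs` : the abstract core (two-step sheet over `V_K`);
* `tres5kir_red_incl`   : `ρ_E (incl x) = ρ_K x` for `x ∈ V_K`;
* `tres5kir_red_ker`    : `ρ_E a = 0 ↔ a ∈ 𝔪(V_E)`;
* `tres5kir_main`       : **(B-red)** for a valuation ring `W` of `L ⊇ F_N(K₁)` over `V_E` with residue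
  degree one (`hresW`, the shape of `Tres5Gen.W_residue`): `ρ_W : W →+* k(C)` with kernel `𝔪_W`,
  `ρ_W = ρ_E` on `V_E` and `ρ_W (incl x) = ρ_K x` on `V_K`.

(The hypothesis `hresE` of the abstract core — the residue fields of `V_E` and of `V_K` coincide —
is NOT needed for `tres5kir_main`: the sheet is taken over `V_E` and compared with `ρ_K` through
`tres5kir_red_incl`.)
-/

set_option autoImplicit false
set_option linter.unusedSectionVars false
set_option linter.unusedVariables false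
set_option linter.style.haveILetI false
set_option linter.style.longLine false
set_option synthInstance.maxHeartbeats 400000
set_option maxHeartbeats 1600000

noncomputable section

namespace Fermat.Agent.R38

open ModularCurve AlgebraicCurve Fermat.Agent.ES Fermat.Agent.ES.G2 Fermat.Agent.INJ
  Fermat.Agent.UNIP Fermat.Agent.STB Fermat.Agent.ES.M Fermat.Agent.DEU Fermat.Agent.S36
  Fermat.Agent.S24 Fermat.Agent.RIB.MP

/-! ### The abstract core -/

section Abs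

variable {FK FE L k : Type*} [Field FK] [Field FE] [Field L] [Field k]
  [Algebra FK FE] [Algebra FE L] [Algebra FK L] [IsScalarTower FK FE L]

theorem tres5kir_comap (VK : ValuationSubring FK) (VE : ValuationSubring FE)
    (W : ValuationSubring L) (hVE : VE.comap (algebraMap FK FE) = VK)
    (hW : W.comap (algebraMap FE L) = VE) : W.comap (algebraMap FK L) = VK := by
  ext x
  rw [ValuationSubring.mem_comap, IsScalarTower.algebraMap_apply FK FE L,
    tresft_mem_iff VE W hW, tresft_mem_iff VK VE hVE]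

theorem tres5kir_hres (VK : ValuationSubring FK) (VE : ValuationSubring FE)
    (W : ValuationSubring L) (hW : W.comap (algebraMap FE L) = VE)
    (hresW : ∀ x ∈ W, ∃ a ∈ VE, x - algebraMap FE L a ∈ W.nonunits)
    (hresE : ∀ a ∈ VE, ∃ b ∈ VK, a - algebraMap FK FE b ∈ VE.nonunits) :
    ∀ x ∈ W, ∃ b ∈ VK, x - algebraMap FK L b ∈ W.nonunits := by
  intro x hx
  obtain ⟨a, ha, hxa⟩ := hresW x hx
  obtain ⟨b, hb, hab⟩ := hresE a ha
  refine ⟨b, hb, ?_⟩
  have h1 : algebraMap FE L (a - algebraMap FK FE b) ∈ W.nonunits :=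
    (tresft_mem_nonunits_iff VE W hW _).mpr hab
  have e : x - algebraMap FK L b =
      (x - algebraMap FE L a) + algebraMap FE L (a - algebraMap FK FE b) := by
    rw [map_sub, ← IsScalarTower.algebraMap_apply FK FE L]
    ring
  rw [e]
  exact vt_add_mem_nonunits W hxa h1

/-- **(B-red), abstract core**: the reduction of `V_K` extends to a sheet `W` over `V_E ⊇ V_K`
when both steps have residue degree one. -/
theorem tres5kir_abs (VK : ValuationSubring FK) (VE : ValuationSubring FE)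
    (W : ValuationSubring L) (hVE : VE.comap (algebraMap FK FE) = VK)
    (hW : W.comap (algebraMap FE L) = VE)
    (hresW : ∀ x ∈ W, ∃ a ∈ VE, x - algebraMap FE L a ∈ W.nonunits)
    (hresE : ∀ a ∈ VE, ∃ b ∈ VK, a - algebraMap FK FE b ∈ VE.nonunits)
    (ρK : ↥VK →+* k) (hρK : ∀ a : ↥VK, ρK a = 0 ↔ (a : FK) ∈ VK.nonunits) :
    ∃ ρW : ↥W →+* k,
      (∀ (a : FK) (ha : a ∈ VK) (haW : algebraMap FK L a ∈ W),
        ρW ⟨algebraMap FK L a, haW⟩ = ρK ⟨a, ha⟩) ∧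
      (∀ (x : L) (hx : x ∈ W) (a : FK) (ha : a ∈ VK),
        x - algebraMap FK L a ∈ W.nonunits → ρW ⟨x, hx⟩ = ρK ⟨a, ha⟩) ∧
      ∀ x : ↥W, ρW x = 0 ↔ (x : L) ∈ W.nonunits :=
  tresft_sheet VK W (tres5kir_comap VK VE W hVE hW)
    (tres5kir_hres VK VE W hW hresW hresE) ρK hρK

end Abs

/-! ### The two Gauss reductions -/

section Red

variable {M q : ℕ} [NeZero M] [NeZero q] [NeZero (M * q)] (hq : q.Prime) (hqM : ¬ q ∣ M)
  {A : ValuationSubring Qb} (hA : A.LiesOverPrime q) {K₀ : IntermediateField ℚ Qb}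
  [IsDiscreteValuationRing ↥(beta0Ring A K₀)] {π : ↥(beta0Ring A K₀)} (hπ : Irreducible π)
  (ιC : ↥K₀ →+* ℂ) (hRedF : StmtRedF M A)

/-- the kernel of `ρ = ribmpRedF` is the maximal ideal of `V_∞` -/
theorem tres5kir_red_ker (a : ↥(mgvV hπ ιC hq hqM true)) :
    ribmpRedF hq hqM hA hπ ιC hRedF a = 0 ↔
      (a : ↥(modularFunctionFieldFullC ↥K₀ (M * q))) ∈ (mgvV hπ ιC hq hqM true).nonunits := by
  constructor
  · intro h0
    by_contra hn
    have hv : (mgvV hπ ιC hq hqM true).valuation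
        (a : ↥(modularFunctionFieldFullC ↥K₀ (M * q))) = 1 := by
      have h1 := ((mgvV hπ ιC hq hqM true).valuation_le_one_iff _).mpr a.2
      rw [ValuationSubring.mem_nonunits_iff, not_lt] at hn
      exact le_antisymm h1 hn
    have h2 := ribmpRedK_ne_zero hπ (M * q) ⟨a.1, a.2⟩ hv
    apply h2
    have h3 := congrArg (fun z : ↥(modularFunctionFieldFullC (kA A) M) =>
      (z : LaurentSeries (kA A))) h0
    exact h3
  · intro ha
    exact Subtype.ext (ribmpRedK_eq_zero_of_mem_nonunits hπ (M * q) ⟨a.1, a.2⟩ ha)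

end Red

section Incl

variable {A : ValuationSubring Qb} {K₀ K₁ : IntermediateField ℚ Qb}
  [IsDiscreteValuationRing ↥(beta0Ring A K₀)] {π₀ : ↥(beta0Ring A K₀)} (hπ₀ : Irreducible π₀)
  [IsDiscreteValuationRing ↥(beta0Ring A K₁)] {π₁ : ↥(beta0Ring A K₁)} (hπ₁ : Irreducible π₁)
  (ιC₀ : ↥K₀ →+* ℂ) (ιC₁ : ↥K₁ →+* ℂ) {q M : ℕ} [NeZero q] [NeZero M] [NeZero (M * q)]
  (hq : q.Prime) (hqM : ¬ q ∣ M) (hA : A.LiesOverPrime q) (hRedF : StmtRedF M A) (h : K₀ ≤ K₁)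

/-- **`ρ_E ∘ incl = ρ_K`** on `V_K` -/
theorem tres5kir_red_incl (x : ↥(modularFunctionFieldFullC ↥K₀ (M * q)))
    (hx : x ∈ mgvV hπ₀ ιC₀ hq hqM true)
    (hx' : mgaIncl h (M * q) x ∈ mgvV hπ₁ ιC₁ hq hqM true) :
    ribmpRedF hq hqM hA hπ₁ ιC₁ hRedF ⟨mgaIncl h (M * q) x, hx'⟩ =
      ribmpRedF hq hqM hA hπ₀ ιC₀ hRedF ⟨x, hx⟩ := by
  apply Subtype.ext
  apply tresmfr_coe_eq
  have h1 := tresmfr_spec hq hqM hA hπ₀ ιC₀ hRedF ⟨x, hx⟩
  have e : nfEmb K₁ (M * q) (mgaIncl h (M * q) x) = nfEmb K₀ (M * q) x :=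
    nfEmb_mgaIncl h (M * q) x
  show GaussRed (M * q) A (nfEmb K₁ (M * q) (mgaIncl h (M * q) x)) _
  rw [e]
  exact h1

/-- **(B-red)**: the reduction of a sheet `W` over `V_E` (residue degree one), with values in the
`K`-side residue function field `k(C) = F̄_M(k)`, compatible with `ρ_E` and with `ρ_K`. -/
theorem tres5kir_main {L : Type*} [Field L]
    [Algebra ↥(modularFunctionFieldFullC ↥K₁ (M * q)) L] (W : ValuationSubring L)
    (hW : W.comap (algebraMap ↥(modularFunctionFieldFullC ↥K₁ (M * q)) L) =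
      mgvV hπ₁ ιC₁ hq hqM true)
    (hresW : ∀ x ∈ W, ∃ a ∈ mgvV hπ₁ ιC₁ hq hqM true,
      x - algebraMap ↥(modularFunctionFieldFullC ↥K₁ (M * q)) L a ∈ W.nonunits) :
    ∃ ρW : ↥W →+* ↥(modularFunctionFieldFullC (kA A) M),
      (∀ (a : ↥(modularFunctionFieldFullC ↥K₁ (M * q))) (ha : a ∈ mgvV hπ₁ ιC₁ hq hqM true)
        (haW : algebraMap ↥(modularFunctionFieldFullC ↥K₁ (M * q)) L a ∈ W),
        ρW ⟨algebraMap ↥(modularFunctionFieldFullC ↥K₁ (M * q)) L a, haW⟩ =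
          ribmpRedF hq hqM hA hπ₁ ιC₁ hRedF ⟨a, ha⟩) ∧
      (∀ (x : ↥(modularFunctionFieldFullC ↥K₀ (M * q))) (hx : x ∈ mgvV hπ₀ ιC₀ hq hqM true)
        (hxW : algebraMap ↥(modularFunctionFieldFullC ↥K₁ (M * q)) L (mgaIncl h (M * q) x) ∈ W),
        ρW ⟨algebraMap ↥(modularFunctionFieldFullC ↥K₁ (M * q)) L (mgaIncl h (M * q) x), hxW⟩ =
          ribmpRedF hq hqM hA hπ₀ ιC₀ hRedF ⟨x, hx⟩) ∧
      (∀ (y : L) (hy : y ∈ W) (a : ↥(modularFunctionFieldFullC ↥K₁ (M * q)))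
        (ha : a ∈ mgvV hπ₁ ιC₁ hq hqM true),
        y - algebraMap ↥(modularFunctionFieldFullC ↥K₁ (M * q)) L a ∈ W.nonunits →
          ρW ⟨y, hy⟩ = ribmpRedF hq hqM hA hπ₁ ιC₁ hRedF ⟨a, ha⟩) ∧
      ∀ y : ↥W, ρW y = 0 ↔ (y : L) ∈ W.nonunits := by
  obtain ⟨ρW, h1, h2, h3⟩ := tresft_sheet (mgvV hπ₁ ιC₁ hq hqM true) W hW hresW
    (ribmpRedF hq hqM hA hπ₁ ιC₁ hRedF) (tres5kir_red_ker hq hqM hA hπ₁ ιC₁ hRedF)
  refine ⟨ρW, h1, fun x hx hxW => ?_, h2, h3⟩
  have hx' : mgaIncl h (M * q) x ∈ mgvV hπ₁ ιC₁ hq hqM true :=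
    (mgv_incl_mem_iff hπ₀ hπ₁ ιC₀ ιC₁ hq hqM h true x).mpr hx
  rw [h1 _ hx' hxW]
  exact tres5kir_red_incl hπ₀ hπ₁ ιC₀ ιC₁ hq hqM hA hRedF h x hx hx'

end Incl

end Fermat.Agent.R38

end
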