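/-
ROW 38, TRES, piece FAC-KFORM (helper53), part 6: THE `W₀`-INPUTS OF THE (B)-INSTANCE.

The hypotheses on the Gauss sheet `W₀` of helper48's `tres5ki_hsplit_abs`
(`R38/TresKFormInstA.lean`) and helper64's `tres5kin_hnode_abs`, for
`W₀ = tres5kivW hπ (M q) y hfrac` (`R38/TresKFormInstV.lean`), `V_E = mgvV hπ ιC hq hqM true`,
`G = Gal(E / K)` (`tres5ffAct`):

* `tres5kivW_base_mem`       (= `hW₀V`) : `V_∞ ⊆ W₀`;
* `tres5kivW_base_mem_iff`, `tres5kivW_base_nonunits_iff` : `W₀ ∩ F_E = V_∞`, `𝔪_{W₀} ∩ F_E = 𝔪_{V_∞}`;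
* `tres5kivW_comap_mgvV`     : `W₀.comap (algebraMap F_E L_E) = mgvV … true`;
* `tres5kivW_const_mem`, `tres5kivW_pi_mem_nonunits`, `tres5kivW_j_valuation` : the constants of
  `A ∩ E` lie in `W₀`, `π ∈ 𝔪_{W₀}`, `j` is a unit of `W₀`;
* `hGW₀ = tres5kivW_smul_mem`, `hGsub = tres5kivW_sub_mem` are in `R38/TresKFormInstV.lean`.
-/
import Fermat.Agent.R38.TresKFormInstV

set_option autoImplicit false
set_option linter.unusedSectionVars false
set_option linter.style.haveILetI false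

noncomputable section

namespace Fermat.Agent.R38

open ModularCurve Fermat.Agent.INJ Fermat.Agent.UNIP IntermediateField

section W

variable {A : ValuationSubring NfQb} {E : IntermediateField ℚ NfQb}
  [IsDiscreteValuationRing ↥(beta0Ring A E)] {π : ↥(beta0Ring A E)} (hπ : Irreducible π)
  (ιC : ↥E →+* ℂ) {q M : ℕ} [NeZero q] [NeZero M] [NeZero (M * q)]
  (hq : q.Prime) (hqM : ¬ q ∣ M) (y : LaurentSeries NfQb)
  (hfrac : ∀ x : ↥(tres5cL E (M * q) y),
    VtFrac (algebraMap ↥(beta0Ring A E) ↥E) (tres5kivEmb (E := E) (M * q) y x))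

/-- **(hW₀)** the Gauss sheet lies over `V_∞ = mgvV … true`. -/
theorem tres5kivW_comap_mgvV :
    (tres5kivW hπ (M * q) y hfrac).comap
      (algebraMap ↥(modularFunctionFieldFullC ↥E (M * q)) ↥(tres5cL E (M * q) y)) =
      mgvV hπ ιC hq hqM true :=
  tres5kivW_comap_vtInf hπ (M * q) y hfrac

/-- `W₀ ∩ F_E = V_∞` -/
theorem tres5kivW_base_mem_iff (x : ↥(modularFunctionFieldFullC ↥E (M * q))) :
    algebraMap ↥(modularFunctionFieldFullC ↥E (M * q)) ↥(tres5cL E (M * q) y) x ∈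
      tres5kivW hπ (M * q) y hfrac ↔ x ∈ mgvV hπ ιC hq hqM true := by
  rw [← tres5kivW_comap_mgvV hπ ιC hq hqM y hfrac, ValuationSubring.mem_comap]

/-- **(hW₀V)** `V_∞ ⊆ W₀` -/
theorem tres5kivW_base_mem :
    ∀ x ∈ mgvV hπ ιC hq hqM true,
      algebraMap ↥(modularFunctionFieldFullC ↥E (M * q)) ↥(tres5cL E (M * q) y) x ∈
        tres5kivW hπ (M * q) y hfrac :=
  fun x hx => (tres5kivW_base_mem_iff hπ ιC hq hqM y hfrac x).mpr hx

/-- `𝔪_{W₀} ∩ F_E = 𝔪_{V_∞}` -/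
theorem tres5kivW_base_nonunits_iff (x : ↥(modularFunctionFieldFullC ↥E (M * q))) :
    algebraMap ↥(modularFunctionFieldFullC ↥E (M * q)) ↥(tres5cL E (M * q) y) x ∈
      (tres5kivW hπ (M * q) y hfrac).nonunits ↔ x ∈ (mgvV hπ ιC hq hqM true).nonunits := by
  rw [← tres5kivW_comap_mgvV hπ ιC hq hqM y hfrac, vt_mem_nonunits_comap]

include ιC hq hqM in
/-- the constants of `A ∩ E` lie in the Gauss sheet -/
theorem tres5kivW_const_mem (a : ↥(beta0Ring A E)) :
    algebraMap ↥(modularFunctionFieldFullC ↥E (M * q)) ↥(tres5cL E (M * q) y)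
      (algebraMap ↥(beta0Ring A E) ↥(modularFunctionFieldFullC ↥E (M * q)) a) ∈
        tres5kivW hπ (M * q) y hfrac :=
  tres5kivW_base_mem hπ ιC hq hqM y hfrac _ (vtFam_const_mem (vtBase_residue hπ) ιC hq hqM true a)

include ιC hq hqM in
/-- the uniformizer of `A ∩ E` is a non-unit of the Gauss sheet -/
theorem tres5kivW_pi_mem_nonunits :
    algebraMap ↥(modularFunctionFieldFullC ↥E (M * q)) ↥(tres5cL E (M * q) y)
      (algebraMap ↥(beta0Ring A E) ↥(modularFunctionFieldFullC ↥E (M * q)) π) ∈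
        (tres5kivW hπ (M * q) y hfrac).nonunits :=
  (tres5kivW_base_nonunits_iff hπ ιC hq hqM y hfrac _).mpr (mgv_hπV hπ ιC hq hqM true)

include ιC hq hqM in
/-- the integral closure of `(A ∩ E)[j]` lies in the Gauss sheet (`hBV` on the cover) -/
theorem tres5kivW_chart_mem (b : ↥(modularFunctionFieldFullC ↥E (M * q)))
    (hb : IsIntegral ↥(Algebra.adjoin ↥(beta0Ring A E)
      ({bgJ ↥E (M * q)} : Set ↥(modularFunctionFieldFullC ↥E (M * q)))) b) :
    algebraMap ↥(modularFunctionFieldFullC ↥E (M * q)) ↥(tres5cL E (M * q) y) b ∈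
      tres5kivW hπ (M * q) y hfrac :=
  tres5kivW_base_mem hπ ιC hq hqM y hfrac _ (mgv_hBV₁ hπ ιC hq hqM true b hb)

include ιC hq hqM in
/-- the integral closure of `(A ∩ E)[1 / j]` lies in the Gauss sheet -/
theorem tres5kivW_chart_inv_mem (b : ↥(modularFunctionFieldFullC ↥E (M * q)))
    (hb : IsIntegral ↥(Algebra.adjoin ↥(beta0Ring A E)
      ({(bgJ ↥E (M * q))⁻¹} : Set ↥(modularFunctionFieldFullC ↥E (M * q)))) b) :
    algebraMap ↥(modularFunctionFieldFullC ↥E (M * q)) ↥(tres5cL E (M * q) y) b ∈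
      tres5kivW hπ (M * q) y hfrac :=
  tres5kivW_base_mem hπ ιC hq hqM y hfrac _ (mgv_hBV₂ hπ ιC hq hqM true b hb)

include ιC hq hqM in
/-- `j` is a unit of the Gauss sheet -/
theorem tres5kivW_j_valuation :
    (tres5kivW hπ (M * q) y hfrac).valuation
      (algebraMap ↥(modularFunctionFieldFullC ↥E (M * q)) ↥(tres5cL E (M * q) y)
        (bgJ ↥E (M * q))) = 1 := by
  have h1 := mgv_T_valuation hπ ιC hq hqM true
  rw [vt_valuation_eq_one_iff] at h1 ⊢
  obtain ⟨h0, hm, hi⟩ := h1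
  refine ⟨(map_ne_zero _).mpr h0, tres5kivW_base_mem hπ ιC hq hqM y hfrac _ hm, ?_⟩
  rw [← map_inv₀]
  exact tres5kivW_base_mem hπ ιC hq hqM y hfrac _ hi

end W

end Fermat.Agent.R38
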