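/-
ROW 38, TRES, piece FAC-KFORM (helper53), part 3: DESCENT OF THE SPLIT STRUCTURE AT A CLOSED POINT.

`H : Tres5eSplit F z P c` (helper28, `R38/TresEtale.lean`) is the split structure of the cover at a
closed point over a BIG field: `R` local normal with fraction field `F`, `L = F[z]` of prime degree
`p`, `R[z]` the integral closure, with maximal ideals `𝔐 i = (𝔫, z − c i)`, `i ∈ ZMod p`.  A finite
group `G` acts on `L`, preserves `R`, fixes ONE `𝔐 i₀` and commutes with the deck transformation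
`ρ` (`ρ z ≡ c (i + 1)` mod `𝔐 i`).  `LK = L^G`, `FK = F ∩ LK`, `RK = R ∩ FK`.  Then `LK / FK` has the
split structure `Tres5eSplit FK zK PK cK` at `RK`, for any `cK : ZMod p → RK` pairwise distinct
modulo `𝔫_K`.

* `tres5kp_pou`        : partition of unity by norms in a semi-local ring (any finite group).
* `tres5kp_poly_congr` : `∏ (X − ρ^m z′) ≡ ∏ (X − ĉ m)` modulo `I` if `ρ^m z′ ≡ ĉ m`.
* `tres5kp_descend'`   : the descent (`tres5kp_descend`: with the redundant hypothesis
  `[LK : FK] = p`).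
* `tres5kp_fixed_of_val` : a `G`-stable valuation ring of `L` dominating `R` gives the fixed `𝔐 i₀`.
* `tres5kp_fixed_of_center` : a `G`-stable valuation ring whose centre on `R[z]` lies in exactly
  one `𝔐 i₀` gives the fixed `𝔐 i₀` (glue for FAC-FIX, the Gauss sheet).
-/
import Fermat.Agent.R38.TresEtale
import Fermat.Agent.R38.TresKFormGen

set_option autoImplicit false
set_option linter.style.haveILetI false

namespace Fermat.Agent.R38

open Polynomial

/-! ### Partition of unity in a semi-local ring -/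

section Pou

variable {Λ : Type*} [CommRing Λ] {G : Type*} [Group G] [Finite G] [MulSemiringAction G Λ]

/-- **Partition of unity by norms.**  `Λ` is semi-local with maximal ideals `𝔫 i`, all stable under
the finite group `G`.  Then there are `G`-invariant `e i` with `e i ≡ 1` mod `𝔫 i` and
`e i ∈ 𝔫 j` for `j ≠ i`. -/
theorem tres5kp_pou {ι : Type*} [Fintype ι] (𝔫 : ι → Ideal Λ)
    (hmax : ∀ i, (𝔫 i).IsMaximal) (hinj : Function.Injective 𝔫)
    (hall : ∀ 𝔐 : Ideal Λ, 𝔐.IsMaximal → ∃ i, 𝔐 = 𝔫 i)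
    (hG : ∀ (g : G) i x, x ∈ 𝔫 i → g • x ∈ 𝔫 i) :
    ∃ e : ι → Λ, (∀ i (g : G), g • e i = e i) ∧ (∀ i, e i - 1 ∈ 𝔫 i) ∧
      (∀ i j, j ≠ i → e i ∈ 𝔫 j) := by
  classical
  cases nonempty_fintype G
  have hprime : ∀ i, (𝔫 i).IsPrime := fun i => (hmax i).isPrime
  -- separating elements
  have hsep : ∀ i j, j ≠ i → ∃ a, a ∈ 𝔫 j ∧ a ∉ 𝔫 i := by
    intro i j hji
    by_contra hno
    have hle : 𝔫 j ≤ 𝔫 i := by
      intro a ha
      by_contra hai
      exact hno ⟨a, ha, hai⟩
    exact hji (hinj ((hmax j).eq_of_le (hmax i).ne_top hle))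
  choose a ha1 ha2 using hsep
  -- `E i = ∏_{j ≠ i} a i j`
  set E : ι → Λ := fun i => ∏ j ∈ Finset.univ.erase i, (if h : j ≠ i then a i j h else 1)
    with hE
  have hE1 : ∀ i, E i ∉ 𝔫 i := by
    intro i h
    haveI := hprime i
    obtain ⟨j, hj, hj'⟩ := (Ideal.IsPrime.prod_mem_iff).mp h
    have hji : j ≠ i := (Finset.mem_erase.1 hj).1
    rw [dif_pos hji] at hj'
    exact ha2 i j hji hj'
  have hE0 : ∀ i j, j ≠ i → E i ∈ 𝔫 j := by
    intro i j hji
    rw [hE]
    change ∏ k ∈ Finset.univ.erase i, (if h : k ≠ i then a i k h else 1) ∈ 𝔫 j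
    obtain ⟨d, hd⟩ := Finset.dvd_prod_of_mem (fun k => if h : k ≠ i then a i k h else 1)
      (Finset.mem_erase.2 ⟨hji, Finset.mem_univ j⟩)
    rw [hd, dif_pos hji]
    exact (𝔫 j).mul_mem_right _ (ha1 i j hji)
  have hN1 : ∀ i, tres5kNorm G (E i) ∉ 𝔫 i := fun i => by
    haveI := hprime i
    exact tres5k_norm_notMem (𝔫 i) (fun g x hx => hG g i x hx) (hE1 i)
  have hN0 : ∀ i j, j ≠ i → tres5kNorm G (E i) ∈ 𝔫 j := fun i j hji =>
    tres5k_norm_mem (𝔫 j) (hE0 i j hji)
  have hrest : ∀ i, ∑ j ∈ Finset.univ.erase i, tres5kNorm G (E j) ∈ 𝔫 i := by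
    intro i
    refine (𝔫 i).sum_mem fun j hj => ?_
    exact hN0 j i (Ne.symm (Finset.mem_erase.1 hj).1)
  have hsplit : ∀ i, ∑ j, tres5kNorm G (E j) =
      tres5kNorm G (E i) + ∑ j ∈ Finset.univ.erase i, tres5kNorm G (E j) := fun i =>
    (Finset.add_sum_erase Finset.univ (fun j => tres5kNorm G (E j)) (Finset.mem_univ i)).symm
  have hT1 : ∀ i, ∑ j, tres5kNorm G (E j) ∉ 𝔫 i := by
    intro i h
    rw [hsplit i] at h
    exact hN1 i ((Ideal.add_mem_iff_left _ (hrest i)).1 h)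
  have hTu : IsUnit (∑ j, tres5kNorm G (E j)) := by
    by_contra hnu
    obtain ⟨𝔐, h𝔐, hmem⟩ := exists_max_ideal_of_mem_nonunits hnu
    obtain ⟨i, rfl⟩ := hall 𝔐 h𝔐
    exact hT1 i hmem
  obtain ⟨u, hu⟩ := hTu
  have hTG : ∀ g : G, g • (∑ j, tres5kNorm G (E j)) = ∑ j, tres5kNorm G (E j) := by
    intro g
    rw [Finset.smul_sum]
    exact Finset.sum_congr rfl fun j _ => tres5k_norm_smul g (E j)
  have huG : ∀ g : G, g • ((u⁻¹ : Λˣ) : Λ) = ((u⁻¹ : Λˣ) : Λ) := by
    intro g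
    have h1 : (u : Λ) * (g • ((u⁻¹ : Λˣ) : Λ)) = 1 := by
      have := congrArg (fun x => g • x) (Units.mul_inv u)
      simp only [smul_mul', smul_one] at this
      rwa [hu, hTG, ← hu] at this
    calc g • ((u⁻¹ : Λˣ) : Λ) = ((u⁻¹ : Λˣ) : Λ) * ((u : Λ) * (g • ((u⁻¹ : Λˣ) : Λ))) := by
          rw [← mul_assoc, Units.inv_mul, one_mul]
      _ = ((u⁻¹ : Λˣ) : Λ) := by rw [h1, mul_one]
  refine ⟨fun i => tres5kNorm G (E i) * ((u⁻¹ : Λˣ) : Λ), ?_, ?_, ?_⟩
  · intro i g
    change g • (_ * _) = _ * _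
    rw [smul_mul', tres5k_norm_smul, huG]
  · intro i
    have e : tres5kNorm G (E i) * ((u⁻¹ : Λˣ) : Λ) - 1 =
        -(∑ j ∈ Finset.univ.erase i, tres5kNorm G (E j)) * ((u⁻¹ : Λˣ) : Λ) := by
      have h1 : (1 : Λ) = (∑ j, tres5kNorm G (E j)) * ((u⁻¹ : Λˣ) : Λ) := by
        rw [← hu, Units.mul_inv]
      conv_lhs => rw [h1, hsplit i]
      ring
    change tres5kNorm G (E i) * ((u⁻¹ : Λˣ) : Λ) - 1 ∈ 𝔫 i
    rw [e]
    exact (𝔫 i).mul_mem_right _ ((𝔫 i).neg_mem (hrest i))
  · intro i j hji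
    exact (𝔫 j).mul_mem_right _ (hN0 i j hji)

end Pou

/-! ### The polynomial modulo an ideal -/

section Congr

variable {Λ : Type*} [CommRing Λ] {p : ℕ} [hp : Fact p.Prime]

/-- `∏ (X − ρ^m z′) ≡ ∏ (X − ĉ m)` modulo `I` if `ρ^m z′ ≡ ĉ m` modulo `I`. -/
theorem tres5kp_poly_congr (I : Ideal Λ) (ρ : Λ → Λ) (z' : Λ) (c' : ZMod p → Λ)
    (h : ∀ m : ZMod p, ρ^[m.val] z' - c' m ∈ I) (n : ℕ) :
    (tres5kPoly ρ p z' - ∏ m : ZMod p, (X - C (c' m))).coeff n ∈ I := by
  rw [← Ideal.Quotient.eq_zero_iff_mem, ← Polynomial.coeff_map, Polynomial.map_sub]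
  have e : (tres5kPoly ρ p z').map (Ideal.Quotient.mk I) =
      (∏ m : ZMod p, (X - C (c' m))).map (Ideal.Quotient.mk I) := by
    unfold tres5kPoly
    rw [Polynomial.map_prod, Polynomial.map_prod]
    refine Finset.prod_congr rfl fun m _ => ?_
    rw [Polynomial.map_sub, Polynomial.map_sub, map_X, map_C, map_C]
    congr 2
    rw [← sub_eq_zero, ← map_sub, Ideal.Quotient.eq_zero_iff_mem]
    exact h m
  rw [e, sub_self, coeff_zero]

end Congr

/-! ### The descent at a closed point -/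

section Descend

variable {R F L RK FK LK : Type*}
  [CommRing R] [IsDomain R] [Field F] [Field L] [Algebra R F] [IsFractionRing R F]
  [IsIntegrallyClosed R] [IsLocalRing R] [Algebra F L] [Algebra R L] [IsScalarTower R F L]
  [CommRing RK] [IsDomain RK] [Field FK] [Field LK] [Algebra RK FK] [IsFractionRing RK FK]
  [IsIntegrallyClosed RK] [IsLocalRing RK] [Algebra FK LK] [Algebra RK LK]
  [IsScalarTower RK FK LK]
  [Algebra FK F] [Algebra LK L] [Algebra FK L] [IsScalarTower FK LK L] [IsScalarTower FK F L]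
  {ι : Type*} [Fintype ι] {p : ℕ}

omit [IsDomain RK] [IsFractionRing RK FK] [IsIntegrallyClosed RK] [IsLocalRing RK]
  [CommRing RK] [Field FK] [Field LK] [Algebra RK FK] [Algebra FK LK] [Algebra RK LK]
  [IsScalarTower RK FK LK] [Algebra FK F] [Algebra LK L] [Algebra FK L] [IsScalarTower FK LK L]
  [IsScalarTower FK F L] in
/-- a group preserving `R` preserves `R[z]` (the integral closure of `R` in `L`) -/
theorem tres5kp_smul_mem {G : Type*} [Group G] [MulSemiringAction G L] {z : L} {P : R[X]}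
    {c : ι → R} (H : Tres5eSplit F z P c)
    (hGR : ∀ (g : G) (r : R), ∃ r' : R, g • algebraMap R L r = algebraMap R L r')
    (g : G) {x : L} (hx : x ∈ Algebra.adjoin R ({z} : Set L)) :
    g • x ∈ Algebra.adjoin R ({z} : Set L) := by
  refine H.integral_mem ?_
  have hxi : IsIntegral R x := tres5e_isIntegral_of_mem H.isIntegral hx
  choose φ hφ using hGR g
  have hinj : Function.Injective (algebraMap R L) := tres5e_algebraMap_injective R F L
  let φr : R →+* R :=
    { toFun := φ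
      map_one' := hinj (by rw [← hφ, map_one, smul_one])
      map_mul' := fun a b => hinj (by rw [← hφ, map_mul, map_mul, smul_mul', hφ, hφ])
      map_zero' := hinj (by rw [← hφ, map_zero, smul_zero])
      map_add' := fun a b => hinj (by rw [← hφ, map_add, map_add, smul_add, hφ, hφ]) }
  exact IsIntegral.map_of_comp_eq φr (MulSemiringAction.toRingHom G L g)
    (by
      ext r
      exact (hφ r).symm) hxi

variable [hp : Fact p.Prime]

/-- **K-FORM at a closed point: the descent of the split structure.** -/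
theorem tres5kp_descend' {z : L} {P : R[X]} {c : ZMod p → R} (H : Tres5eSplit F z P c)
    (hfin : Module.finrank F L = p)
    {G : Type*} [Group G] [Finite G] [MulSemiringAction G L]
    (j₀ : RK →+* R)
    (hj₀ : ∀ r : RK, algebraMap R F (j₀ r) = algebraMap FK F (algebraMap RK FK r))
    (hRK : ∀ (x : FK) (r : R), algebraMap R F r = algebraMap FK F x →
      ∃ rK : RK, algebraMap RK FK rK = x)
    (cK : ZMod p → RK) (hcK : ∀ i j, i ≠ j → IsUnit (cK i - cK j))
    (hGLK : ∀ (g : G) (y : LK), g • algebraMap LK L y = algebraMap LK L y)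
    (hfixL : ∀ x : L, (∀ g : G, g • x = x) → ∃ y : LK, algebraMap LK L y = x)
    (hfixF : ∀ x : F, (∀ g : G, g • algebraMap F L x = algebraMap F L x) →
      ∃ y : FK, algebraMap FK F y = x)
    (hGR : ∀ (g : G) (r : R), ∃ r' : R, g • algebraMap R L r = algebraMap R L r')
    (i₀ : ZMod p)
    (hG0 : ∀ (g : G) (b : ↥(Algebra.adjoin R ({z} : Set L))), b ∈ tres5eMax R z (c i₀) →
      ∃ b' ∈ tres5eMax R z (c i₀), (b' : L) = g • (b : L))
    (ρ : L ≃ₐ[F] L) (hρG : ∀ (g : G) x, ρ (g • x) = g • ρ x)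
    (hρ : ∀ i : ZMod p, ∃ b ∈ tres5eMax R z (c i),
      ρ z = algebraMap R L (c (i + 1)) + (b : L)) :
    ∃ (zK : LK) (PK : RK[X]), Tres5eSplit FK zK PK cK ∧
      (∀ i, ∃ b ∈ tres5eMax R z (c i),
        algebraMap LK L zK = algebraMap R L (j₀ (cK i)) + (b : L)) ∧
      Module.finrank FK LK = p ∧ ρ (algebraMap LK L zK) ≠ algebraMap LK L zK := by
  classical
  have hp1 : Fact (1 < p) := ⟨hp.out.one_lt⟩
  have hp0 : 0 < p := hp.out.pos
  have hGΛ : ∀ (g : G) {x : L}, x ∈ Algebra.adjoin R ({z} : Set L) →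
      g • x ∈ Algebra.adjoin R ({z} : Set L) := fun g x hx => tres5kp_smul_mem H hGR g hx
  -- the action on `R[z]`
  letI actΛ : MulSemiringAction G ↥(Algebra.adjoin R ({z} : Set L)) :=
    { smul := fun g b => ⟨g • (b : L), hGΛ g b.2⟩
      one_smul := fun b => Subtype.ext (one_smul G (b : L))
      mul_smul := fun g h b => Subtype.ext (mul_smul g h (b : L))
      smul_zero := fun g => Subtype.ext (smul_zero g)
      smul_add := fun g a b => Subtype.ext (smul_add g (a : L) (b : L))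
      smul_one := fun g => Subtype.ext (smul_one g)
      smul_mul := fun g a b => Subtype.ext (smul_mul' g (a : L) (b : L)) }
  have hact : ∀ (g : G) (b : ↥(Algebra.adjoin R ({z} : Set L))),
      ((g • b : ↥(Algebra.adjoin R ({z} : Set L))) : L) = g • (b : L) := fun _ _ => rfl
  -- the deck transformation on `R[z]`
  have hdeck : ∀ (i : ZMod p) (b : ↥(Algebra.adjoin R ({z} : Set L))),
      b ∈ tres5eMax R z (c (i + 1)) ↔ H.mapAdj ρ b ∈ tres5eMax R z (c i) := fun i b =>
    H.deck_max i (i + 1) ρ (hρ i) b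
  have hρΛG : ∀ (g : G) (b : ↥(Algebra.adjoin R ({z} : Set L))),
      H.mapAdj ρ (g • b) = g • H.mapAdj ρ b := fun g b => Subtype.ext (hρG g (b : L))
  -- `G` fixes every maximal ideal
  have hG0' : ∀ (g : G) (b : ↥(Algebra.adjoin R ({z} : Set L))),
      b ∈ tres5eMax R z (c i₀) → g • b ∈ tres5eMax R z (c i₀) := by
    intro g b hb
    obtain ⟨b', hb', hbb⟩ := hG0 g b hb
    have : g • b = b' := Subtype.ext hbb.symm
    rw [this]
    exact hb'
  have hGn : ∀ (n : ℕ) (g : G) (b : ↥(Algebra.adjoin R ({z} : Set L))),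
      b ∈ tres5eMax R z (c (i₀ + n)) → g • b ∈ tres5eMax R z (c (i₀ + n)) := by
    intro n
    induction n with
    | zero =>
      intro g b hb
      rw [Nat.cast_zero, add_zero] at hb ⊢
      exact hG0' g b hb
    | succ n ih =>
      intro g b hb
      rw [Nat.cast_succ, ← add_assoc] at hb ⊢
      rw [hdeck] at hb ⊢
      rw [hρΛG]
      exact ih g _ hb
  have hGall : ∀ (g : G) (i : ZMod p) (b : ↥(Algebra.adjoin R ({z} : Set L))),
      b ∈ tres5eMax R z (c i) → g • b ∈ tres5eMax R z (c i) := by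
    intro g i b hb
    have e : i = i₀ + (((i - i₀).val : ℕ) : ZMod p) := by
      rw [ZMod.natCast_zmod_val]
      ring
    rw [e] at hb ⊢
    exact hGn _ g b hb
  -- the partition of unity
  obtain ⟨e, heG, he1, he0⟩ := tres5kp_pou (G := G) (fun i : ZMod p => tres5eMax R z (c i))
    H.isMaximal (fun i j h => H.max_injective h)
    (fun 𝔐' h => by
      haveI := h
      exact H.exists_eq_of_isMaximal 𝔐') hGall
  -- the embedding of `RK`
  set jΛ : RK →+* ↥(Algebra.adjoin R ({z} : Set L)) :=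
    (algebraMap R ↥(Algebra.adjoin R ({z} : Set L))).comp j₀ with hjΛ
  have hjΛR : ∀ r : RK, ((jΛ r : ↥(Algebra.adjoin R ({z} : Set L))) : L) =
      algebraMap R L (j₀ r) := fun r => rfl
  have hjΛF : ∀ r : RK, ((jΛ r : ↥(Algebra.adjoin R ({z} : Set L))) : L) =
      algebraMap F L (algebraMap FK F (algebraMap RK FK r)) := fun r => by
    rw [hjΛR, IsScalarTower.algebraMap_apply R F L, hj₀]
  have hjΛL : ∀ r : RK, ((jΛ r : ↥(Algebra.adjoin R ({z} : Set L))) : L) =
      algebraMap LK L (algebraMap RK LK r) := fun r => by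
    rw [hjΛF, ← IsScalarTower.algebraMap_apply FK F L, IsScalarTower.algebraMap_apply FK LK L,
      ← IsScalarTower.algebraMap_apply RK FK LK]
  have hjΛG : ∀ (g : G) (r : RK), g • jΛ r = jΛ r := fun g r =>
    Subtype.ext (by rw [hact, hjΛL]; exact hGLK g _)
  have hjΛρ : ∀ r : RK, H.mapAdj ρ (jΛ r) = jΛ r := fun r => H.mapAdj_algebraMap ρ (j₀ r)
  have hjΛmem : ∀ (i : ZMod p) (r : RK), jΛ r ∈ tres5eMax R z (c i) →
      j₀ r ∈ IsLocalRing.maximalIdeal R := fun i r h =>
    (tres5e_algebraMap_mem_max F H.isIntegral (c i) (H.eval_mem i) (j₀ r)).1 h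
  -- the invariant generator
  set z' : ↥(Algebra.adjoin R ({z} : Set L)) := ∑ i, jΛ (cK i) * e i with hz'
  have hz'G : ∀ g : G, g • z' = z' := by
    intro g
    rw [hz', Finset.smul_sum]
    refine Finset.sum_congr rfl fun k _ => ?_
    rw [smul_mul', hjΛG, heG]
  have hz'𝔐 : ∀ i, z' - jΛ (cK i) ∈ tres5eMax R z (c i) := by
    intro i
    have e1 : z' - jΛ (cK i) = jΛ (cK i) * (e i - 1) +
        ∑ j ∈ Finset.univ.erase i, jΛ (cK j) * e j := by
      rw [hz', ← Finset.add_sum_erase Finset.univ _ (Finset.mem_univ i)]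
      ring
    rw [e1]
    refine Ideal.add_mem _ (Ideal.mul_mem_left _ _ (he1 i)) (Ideal.sum_mem _ fun j hj => ?_)
    exact Ideal.mul_mem_left _ _ (he0 j i (Ne.symm (Finset.mem_erase.1 hj).1))
  obtain ⟨zK, hzK⟩ := hfixL (z' : L) (fun g => congrArg Subtype.val (hz'G g))
  -- Galois theory of `ρ`
  have hρne : ρ ≠ 1 := by
    intro h1
    have h2 : tres5eMax R z (c ((0 : ZMod p) + 1)) = tres5eMax R z (c 0) := by
      ext b
      rw [hdeck 0 b]
      have : H.mapAdj ρ b = b := Subtype.ext (by rw [Tres5eSplit.mapAdj_coe, h1]; rfl)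
      rw [this]
    have h3 := H.max_injective h2
    rw [zero_add] at h3
    exact one_ne_zero h3
  obtain ⟨hρp, hρfix⟩ := tres5k_deck_galois hp.out hfin ρ hρne
  have hρiter : ∀ (n : ℕ) (b : ↥(Algebra.adjoin R ({z} : Set L))),
      (((⇑(H.mapAdj ρ))^[n] b : ↥(Algebra.adjoin R ({z} : Set L))) : L) = (ρ ^ n) (b : L) := by
    intro n b
    induction n with
    | zero => simp
    | succ n ih =>
      rw [Function.iterate_succ_apply', Tres5eSplit.mapAdj_coe, ih, pow_succ',
        AlgEquiv.mul_apply]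
  have hρper : (⇑(H.mapAdj ρ))^[p] z' = z' :=
    Subtype.ext (by rw [hρiter, hρp, AlgEquiv.one_apply])
  have hρΛiter : ∀ (n : ℕ) (i : ZMod p) (b : ↥(Algebra.adjoin R ({z} : Set L))),
      b ∈ tres5eMax R z (c (i + n)) → (⇑(H.mapAdj ρ))^[n] b ∈ tres5eMax R z (c i) := by
    intro n
    induction n with
    | zero =>
      intro i b hb
      rw [Nat.cast_zero, add_zero] at hb
      exact hb
    | succ n ih =>
      intro i b hb
      rw [Function.iterate_succ_apply', ← hdeck]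
      refine ih (i + 1) b ?_
      rw [Nat.cast_succ] at hb
      have e : i + 1 + (n : ZMod p) = i + ((n : ZMod p) + 1) := by ring
      rw [e]
      exact hb
  have hρsub : ∀ (r : RK) (n : ℕ) (x : ↥(Algebra.adjoin R ({z} : Set L))),
      (⇑(H.mapAdj ρ))^[n] (x - jΛ r) = (⇑(H.mapAdj ρ))^[n] x - jΛ r := by
    intro r n x
    induction n with
    | zero => rfl
    | succ n ih =>
      rw [Function.iterate_succ_apply', ih, Function.iterate_succ_apply', map_sub, hjΛρ]
  have hρz : ∀ m : ZMod p, (⇑(H.mapAdj ρ))^[m.val] z' - jΛ (cK m) ∈ tres5eMax R z (c 0) := by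
    intro m
    have h1 := hρΛiter m.val 0 (z' - jΛ (cK m))
      (by rw [zero_add, ZMod.natCast_zmod_val]; exact hz'𝔐 m)
    rwa [hρsub] at h1
  -- the degree
  have hz'ρ : ρ (z' : L) ≠ (z' : L) := by
    intro h1
    have h2 : H.mapAdj ρ z' = z' := Subtype.ext (by rw [Tres5eSplit.mapAdj_coe, h1])
    have h3 := hρz 1
    rw [ZMod.val_one, Function.iterate_one, h2] at h3
    have h6 := Ideal.sub_mem _ (hz'𝔐 0) h3
    have e : z' - jΛ (cK 0) - (z' - jΛ (cK 1)) = jΛ (cK 1 - cK 0) := by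
      rw [map_sub]
      ring
    rw [e] at h6
    have h7 := hjΛmem 0 _ h6
    exact (IsLocalRing.mem_maximalIdeal _).1 h7 ((hcK 1 0 one_ne_zero).map j₀)
  have hfinK : Module.finrank FK LK = p :=
    tres5k_finrank_of_gen hp.out hfin hGLK hfixL hfixF (ρ : L →ₐ[F] L)
      (fun g x => hρG g x) (z' : L) (fun g => congrArg Subtype.val (hz'G g)) hz'ρ
  -- the polynomial
  have hPLmonic : (tres5kPoly (⇑(H.mapAdj ρ)) p z').Monic := tres5k_poly_monic _ _
  have hPLroot : (tres5kPoly (⇑(H.mapAdj ρ)) p z').eval z' = 0 := tres5k_poly_root _ _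
  have hPLρ : (tres5kPoly (⇑(H.mapAdj ρ)) p z').map (H.mapAdj ρ) =
      tres5kPoly (⇑(H.mapAdj ρ)) p z' := tres5k_poly_map_deck (H.mapAdj ρ) z' hρper
  have hPLG : ∀ g : G, (tres5kPoly (⇑(H.mapAdj ρ)) p z').map
      (MulSemiringAction.toRingHom G ↥(Algebra.adjoin R ({z} : Set L)) g) =
      tres5kPoly (⇑(H.mapAdj ρ)) p z' := fun g =>
    tres5k_poly_map_comm (⇑(H.mapAdj ρ)) (MulSemiringAction.toRingHom G _ g) z' (hz'G g)
      (fun x => (hρΛG g x).symm)
  have hcoefρ : ∀ n, H.mapAdj ρ ((tres5kPoly (⇑(H.mapAdj ρ)) p z').coeff n) =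
      (tres5kPoly (⇑(H.mapAdj ρ)) p z').coeff n := by
    intro n
    have := congrArg (fun Q => Q.coeff n) hPLρ
    simp only [Polynomial.coeff_map] at this
    exact this
  have hcoefG : ∀ (g : G) n, g • (tres5kPoly (⇑(H.mapAdj ρ)) p z').coeff n =
      (tres5kPoly (⇑(H.mapAdj ρ)) p z').coeff n := by
    intro g n
    have := congrArg (fun Q => Q.coeff n) (hPLG g)
    simp only [Polynomial.coeff_map] at this
    exact this
  have hcoefK : ∀ n, (tres5kPoly (⇑(H.mapAdj ρ)) p z').coeff n ∈ Set.range jΛ := by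
    intro n
    obtain ⟨f, hf⟩ := hρfix _ (congrArg Subtype.val (hcoefρ n))
    obtain ⟨k, hk⟩ := hfixF f (fun g => by
      rw [hf]
      exact congrArg Subtype.val (hcoefG g n))
    obtain ⟨r, hr⟩ := H.inter_base f (by
      rw [hf]
      exact ((tres5kPoly (⇑(H.mapAdj ρ)) p z').coeff n).2)
    obtain ⟨rK, hrK⟩ := hRK k r (hr.trans hk.symm)
    refine ⟨rK, Subtype.ext ?_⟩
    rw [hjΛF, hrK, hk, hf]
    rfl
  obtain ⟨PK, hPKmap, hPKdeg, hPKmonic⟩ := Polynomial.lifts_and_natDegree_eq_and_monic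
    ((Polynomial.lifts_iff_coeff_lifts _).2 hcoefK) hPLmonic
  rw [tres5k_poly_natDegree] at hPKdeg
  -- the reduction
  have hred : ∀ n, (PK - ∏ i, (X - C (cK i))).coeff n ∈ IsLocalRing.maximalIdeal RK := by
    intro n
    have h1 := tres5kp_poly_congr (tres5eMax R z (c 0)) (⇑(H.mapAdj ρ)) z'
      (fun m => jΛ (cK m)) hρz n
    have h2 : jΛ ((PK - ∏ i, (X - C (cK i))).coeff n) =
        (tres5kPoly (⇑(H.mapAdj ρ)) p z' - ∏ m : ZMod p, (X - C (jΛ (cK m)))).coeff n := by
      rw [← Polynomial.coeff_map, Polynomial.map_sub, hPKmap, Polynomial.map_prod]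
      congr 2
      refine Finset.prod_congr rfl fun m _ => ?_
      rw [Polynomial.map_sub, map_X, map_C]
    rw [← h2] at h1
    have h3 := hjΛmem 0 _ h1
    by_contra hnot
    have hu : IsUnit ((PK - ∏ i, (X - C (cK i))).coeff n) := by
      by_contra hnu
      exact hnot ((IsLocalRing.mem_maximalIdeal _).2 hnu)
    exact (IsLocalRing.mem_maximalIdeal _).1 h3 (hu.map j₀)
  -- the root
  have hcompL : (algebraMap LK L).comp (algebraMap RK LK) =
      ((Algebra.adjoin R ({z} : Set L)).val : _ →+* L).comp jΛ := by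
    ext r
    exact (hjΛL r).symm
  have hroot : aeval zK PK = 0 := by
    apply (algebraMap LK L).injective
    rw [map_zero, aeval_def, Polynomial.hom_eval₂, hzK, hcompL]
    have h1 : (z' : L) = ((Algebra.adjoin R ({z} : Set L)).val : _ →+* L) z' := rfl
    rw [h1, ← Polynomial.hom_eval₂, ← Polynomial.eval_map, hPKmap, hPLroot, map_zero]
  -- the generator generates
  have hzKnot : zK ∉ (⊥ : IntermediateField FK LK) := by
    intro h
    rw [IntermediateField.mem_bot] at h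
    obtain ⟨a, ha⟩ := h
    have h1 : (z' : L) = algebraMap F L (algebraMap FK F a) := by
      rw [← hzK, ← ha, ← IsScalarTower.algebraMap_apply, ← IsScalarTower.algebraMap_apply]
    have h2 : H.mapAdj ρ z' = z' :=
      Subtype.ext (by rw [Tres5eSplit.mapAdj_coe, h1, AlgEquiv.commutes])
    have h3 := hρz 1
    rw [ZMod.val_one, Function.iterate_one, h2] at h3
    have h5 := hz'𝔐 0
    have h6 := Ideal.sub_mem _ h5 h3
    have e : z' - jΛ (cK 0) - (z' - jΛ (cK 1)) = jΛ (cK 1 - cK 0) := by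
      rw [map_sub]
      ring
    rw [e] at h6
    have h7 := hjΛmem 0 _ h6
    exact (IsLocalRing.mem_maximalIdeal _).1 h7 ((hcK 1 0 one_ne_zero).map j₀)
  have hfd : FiniteDimensional FK LK :=
    Module.finite_of_finrank_pos (by rw [hfinK]; exact hp0)
  have htopI : IntermediateField.adjoin FK {zK} = ⊤ := by
    have := IntermediateField.isSimpleOrder_of_finrank_prime FK LK (by rw [hfinK]; exact hp.out)
    rcases eq_bot_or_eq_top (IntermediateField.adjoin FK {zK}) with h | h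
    · exfalso
      apply hzKnot
      rw [← h]
      exact IntermediateField.mem_adjoin_simple_self FK zK
    · exact h
  have htop : Algebra.adjoin FK ({zK} : Set LK) = ⊤ := by
    have h1 := IntermediateField.adjoin_simple_toSubalgebra_of_isAlgebraic
      (Algebra.IsAlgebraic.isAlgebraic (R := FK) zK)
    rw [← h1, htopI, IntermediateField.top_toSubalgebra]
  refine ⟨zK, PK, tres5e_split_of_natDegree FK hPKmonic hroot htop (by rw [hPKdeg, hfinK])
    hcK hred, fun i => ⟨z' - jΛ (cK i), hz'𝔐 i, ?_⟩, hfinK, by rw [hzK]; exact hz'ρ⟩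
  rw [hzK, ← hjΛR]
  change (z' : L) = (jΛ (cK i) : L) + ((z' : L) - (jΛ (cK i) : L))
  ring

/-- `tres5kp_descend'` with the (redundant) hypothesis `finrank FK LK = p`, and the short
conclusion. -/
theorem tres5kp_descend {z : L} {P : R[X]} {c : ZMod p → R} (H : Tres5eSplit F z P c)
    (hfin : Module.finrank F L = p)
    {G : Type*} [Group G] [Finite G] [MulSemiringAction G L]
    (j₀ : RK →+* R)
    (hj₀ : ∀ r : RK, algebraMap R F (j₀ r) = algebraMap FK F (algebraMap RK FK r))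
    (hRK : ∀ (x : FK) (r : R), algebraMap R F r = algebraMap FK F x →
      ∃ rK : RK, algebraMap RK FK rK = x)
    (cK : ZMod p → RK) (hcK : ∀ i j, i ≠ j → IsUnit (cK i - cK j))
    (_hfinK : Module.finrank FK LK = p)
    (hGLK : ∀ (g : G) (y : LK), g • algebraMap LK L y = algebraMap LK L y)
    (hfixL : ∀ x : L, (∀ g : G, g • x = x) → ∃ y : LK, algebraMap LK L y = x)
    (hfixF : ∀ x : F, (∀ g : G, g • algebraMap F L x = algebraMap F L x) →
      ∃ y : FK, algebraMap FK F y = x)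
    (hGR : ∀ (g : G) (r : R), ∃ r' : R, g • algebraMap R L r = algebraMap R L r')
    (i₀ : ZMod p)
    (hG0 : ∀ (g : G) (b : ↥(Algebra.adjoin R ({z} : Set L))), b ∈ tres5eMax R z (c i₀) →
      ∃ b' ∈ tres5eMax R z (c i₀), (b' : L) = g • (b : L))
    (ρ : L ≃ₐ[F] L) (hρG : ∀ (g : G) x, ρ (g • x) = g • ρ x)
    (hρ : ∀ i : ZMod p, ∃ b ∈ tres5eMax R z (c i),
      ρ z = algebraMap R L (c (i + 1)) + (b : L)) :
    ∃ (zK : LK) (PK : RK[X]), Tres5eSplit FK zK PK cK ∧
      ∀ i, ∃ b ∈ tres5eMax R z (c i),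
        algebraMap LK L zK = algebraMap R L (j₀ (cK i)) + (b : L) := by
  obtain ⟨zK, PK, h1, h2, -⟩ := tres5kp_descend' H hfin j₀ hj₀ hRK cK hcK hGLK hfixL hfixF hGR
    i₀ hG0 ρ hρG hρ
  exact ⟨zK, PK, h1, h2⟩


omit [IsDomain RK] [IsFractionRing RK FK] [IsIntegrallyClosed RK] [IsLocalRing RK]
  [CommRing RK] [Field FK] [Field LK] [Algebra RK FK] [Algebra FK LK] [Algebra RK LK]
  [IsScalarTower RK FK LK] [Algebra FK F] [Algebra LK L] [Algebra FK L] [IsScalarTower FK LK L]
  [IsScalarTower FK F L] hp in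
/-- **The fixed point above the closed point.**  A `G`-stable valuation ring `W` of `L` dominating
`R` (the Gauss sheet) has a `G`-stable centre `(𝔫, z − c i₀)` on `R[z]`. -/
theorem tres5kp_fixed_of_val {G : Type*} [Group G] [MulSemiringAction G L] {z : L} {P : R[X]}
    {c : ι → R} (H : Tres5eSplit F z P c)
    (hGR : ∀ (g : G) (r : R), ∃ r' : R, g • algebraMap R L r = algebraMap R L r')
    (W : ValuationSubring L) (hRW : ∀ r : R, algebraMap R L r ∈ W)
    (h𝔫W : ∀ r ∈ IsLocalRing.maximalIdeal R, algebraMap R L r ∈ W.nonunits)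
    (hGW : ∀ (g : G), ∀ x ∈ W, g • x ∈ W) :
    ∃ i₀, (∀ b : ↥(Algebra.adjoin R ({z} : Set L)),
        b ∈ tres5eMax R z (c i₀) ↔ (b : L) ∈ W.nonunits) ∧
      ∀ (g : G) (b : ↥(Algebra.adjoin R ({z} : Set L))), b ∈ tres5eMax R z (c i₀) →
        ∃ b' ∈ tres5eMax R z (c i₀), (b' : L) = g • (b : L) := by
  obtain ⟨i, hi⟩ := H.val_center W hRW h𝔫W
  refine ⟨i, hi, fun g b hb => ?_⟩
  refine ⟨⟨g • (b : L), tres5kp_smul_mem H hGR g b.2⟩, ?_, rfl⟩
  rw [hi]
  exact tres5k_smul_mem_nonunits W hGW g ((hi b).1 hb)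

omit [IsDomain RK] [IsFractionRing RK FK] [IsIntegrallyClosed RK] [IsLocalRing RK]
  [CommRing RK] [Field FK] [Field LK] [Algebra RK FK] [Algebra FK LK] [Algebra RK LK]
  [IsScalarTower RK FK LK] [Algebra FK F] [Algebra LK L] [Algebra FK L] [IsScalarTower FK LK L]
  [IsScalarTower FK F L] hp in
/-- **The fixed point from the centre of a sheet** (glue for FAC-FIX).  `W` is a `G`-stable
valuation ring of `L` whose non-units in `R[z]` lie in exactly one maximal ideal `(𝔫, z − c i₀)`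
(the sheet passes through ONE point above `𝔫`).  Then `G` fixes `(𝔫, z − c i₀)`. -/
theorem tres5kp_fixed_of_center {G : Type*} [Group G] [MulSemiringAction G L] {z : L}
    {P : R[X]} {c : ι → R} (H : Tres5eSplit F z P c)
    (hGR : ∀ (g : G) (r : R), ∃ r' : R, g • algebraMap R L r = algebraMap R L r')
    (W : ValuationSubring L) (hGW : ∀ (g : G), ∀ x ∈ W, g • x ∈ W) (i₀ : ι)
    (hcen : ∀ b : ↥(Algebra.adjoin R ({z} : Set L)), (b : L) ∈ W.nonunits →
      b ∈ tres5eMax R z (c i₀))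
    (huniq : ∀ i, (∀ b : ↥(Algebra.adjoin R ({z} : Set L)), (b : L) ∈ W.nonunits →
      b ∈ tres5eMax R z (c i)) → i = i₀) :
    ∀ (g : G) (b : ↥(Algebra.adjoin R ({z} : Set L))), b ∈ tres5eMax R z (c i₀) →
      ∃ b' ∈ tres5eMax R z (c i₀), (b' : L) = g • (b : L) := by
  intro g b hb
  set γ : ↥(Algebra.adjoin R ({z} : Set L)) →+* ↥(Algebra.adjoin R ({z} : Set L)) :=
    ((MulSemiringAction.toRingHom G L g).comp
      (Algebra.adjoin R ({z} : Set L)).val.toRingHom).codRestrict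
      (Algebra.adjoin R ({z} : Set L)).toSubring (fun b => tres5kp_smul_mem H hGR g b.2)
    with hγ
  have hγcoe : ∀ b : ↥(Algebra.adjoin R ({z} : Set L)), ((γ b : ↥(Algebra.adjoin R _)) : L) =
      g • (b : L) := fun _ => rfl
  have hγsurj : Function.Surjective γ := by
    intro b
    refine ⟨⟨g⁻¹ • (b : L), tres5kp_smul_mem H hGR g⁻¹ b.2⟩, Subtype.ext ?_⟩
    rw [hγcoe]
    exact smul_inv_smul g (b : L)
  haveI := H.isMaximal i₀
  have hJmax : (Ideal.comap γ (tres5eMax R z (c i₀))).IsMaximal :=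
    Ideal.comap_isMaximal_of_surjective γ hγsurj
  obtain ⟨j, hj⟩ := H.exists_eq_of_isMaximal (Ideal.comap γ (tres5eMax R z (c i₀)))
  have hji : j = i₀ := by
    refine huniq j fun b' hb' => ?_
    rw [← hj, Ideal.mem_comap]
    apply hcen
    rw [hγcoe]
    exact tres5k_smul_mem_nonunits W hGW g hb'
  rw [hji] at hj
  refine ⟨γ b, ?_, hγcoe b⟩
  rw [← Ideal.mem_comap, hj]
  exact hb


omit [IsDomain RK] [IsFractionRing RK FK] [IsIntegrallyClosed RK] [Field FK] [Field LK]
  [Algebra RK FK] [Algebra FK LK] [Algebra RK LK] [IsScalarTower RK FK LK] in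
/-- residue characteristic `p`: the integers `0, …, p − 1` are pairwise distinct modulo `𝔫_K` -/
theorem tres5kp_sep_natCast (hpR : (p : RK) ∈ IsLocalRing.maximalIdeal RK) :
    ∀ i j : ZMod p, i ≠ j → IsUnit (((i.val : ℕ) : RK) - ((j.val : ℕ) : RK)) := by
  intro i j hij
  by_contra hnu
  have hmem := (IsLocalRing.mem_maximalIdeal _).2 hnu
  have h1 : IsLocalRing.residue RK ((i.val : ℕ) : RK) = IsLocalRing.residue RK ((j.val : ℕ) : RK) := by
    rw [← sub_eq_zero, ← map_sub]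
    exact (IsLocalRing.residue_eq_zero_iff _).2 hmem
  have hchar : CharP (IsLocalRing.ResidueField RK) p := by
    refine (CharP.charP_iff_prime_eq_zero hp.out).2 ?_
    rw [← map_natCast (IsLocalRing.residue RK)]
    exact (IsLocalRing.residue_eq_zero_iff _).2 hpR
  rw [map_natCast, map_natCast] at h1
  have h2 := (CharP.natCast_eq_natCast (IsLocalRing.ResidueField RK) p).1 h1
  have h3 : i.val % p = j.val % p := h2
  rw [Nat.mod_eq_of_lt (ZMod.val_lt i), Nat.mod_eq_of_lt (ZMod.val_lt j)] at h3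
  exact hij (ZMod.val_injective p h3)

/-- **K-FORM at a closed point**, Artin–Schreier form with the Gauss sheet: residue
characteristic `p`, roots `0, …, p − 1`, and the fixed point given by a `G`-stable valuation ring
of `L` dominating `R`. -/
theorem tres5kp_descend_of_val {z : L} {P : R[X]} {c : ZMod p → R} (H : Tres5eSplit F z P c)
    (hfin : Module.finrank F L = p)
    {G : Type*} [Group G] [Finite G] [MulSemiringAction G L]
    (j₀ : RK →+* R)
    (hj₀ : ∀ r : RK, algebraMap R F (j₀ r) = algebraMap FK F (algebraMap RK FK r))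
    (hRK : ∀ (x : FK) (r : R), algebraMap R F r = algebraMap FK F x →
      ∃ rK : RK, algebraMap RK FK rK = x)
    (hpR : (p : RK) ∈ IsLocalRing.maximalIdeal RK)
    (hfinK : Module.finrank FK LK = p)
    (hGLK : ∀ (g : G) (y : LK), g • algebraMap LK L y = algebraMap LK L y)
    (hfixL : ∀ x : L, (∀ g : G, g • x = x) → ∃ y : LK, algebraMap LK L y = x)
    (hfixF : ∀ x : F, (∀ g : G, g • algebraMap F L x = algebraMap F L x) →
      ∃ y : FK, algebraMap FK F y = x)
    (hGR : ∀ (g : G) (r : R), ∃ r' : R, g • algebraMap R L r = algebraMap R L r')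
    (W : ValuationSubring L) (hRW : ∀ r : R, algebraMap R L r ∈ W)
    (h𝔫W : ∀ r ∈ IsLocalRing.maximalIdeal R, algebraMap R L r ∈ W.nonunits)
    (hGW : ∀ (g : G), ∀ x ∈ W, g • x ∈ W)
    (ρ : L ≃ₐ[F] L) (hρG : ∀ (g : G) x, ρ (g • x) = g • ρ x)
    (hρ : ∀ i : ZMod p, ∃ b ∈ tres5eMax R z (c i),
      ρ z = algebraMap R L (c (i + 1)) + (b : L)) :
    ∃ (zK : LK) (PK : RK[X]),
      Tres5eSplit FK zK PK (fun k : ZMod p => ((k.val : ℕ) : RK)) ∧
      ∀ i : ZMod p, ∃ b ∈ tres5eMax R z (c i),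
        algebraMap LK L zK = ((i.val : ℕ) : L) + (b : L) := by
  obtain ⟨i₀, -, hG0⟩ := tres5kp_fixed_of_val H hGR W hRW h𝔫W hGW
  obtain ⟨zK, PK, hT, hz⟩ := tres5kp_descend H hfin j₀ hj₀ hRK
    (fun k : ZMod p => ((k.val : ℕ) : RK)) (tres5kp_sep_natCast hpR) hfinK hGLK hfixL hfixF hGR
    i₀ hG0 ρ hρG hρ
  refine ⟨zK, PK, hT, fun i => ?_⟩
  obtain ⟨b, hb, hzb⟩ := hz i
  refine ⟨b, hb, ?_⟩
  rw [hzb, map_natCast, map_natCast]

end Descend

end Fermat.Agent.R38
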