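import Fermat.Agent.R38.TresDictNode
import Fermat.Agent.S24.PlaceBasic

/-!
# Row 38, TRES, piece FAC-ASM-MAIN (helper89), part M1: the abstract assembly on the residue side

Frame of `RIB/MP/RedDict.lean` and `R38/TresDictNode.lean`: `A₀` a discrete valuation ring with
uniformizer `π`, `F` a function field over `E = Frac A₀` (here: the function field of the cover
`X′ → X₀(Mp)` over the inertia field), `t ∈ F` (the function `j`), `V` a valuation subring of `F`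
(the Gauss sheet), `ρ : V →+* L` its reduction map, `L` the residue function field (`k(C)`).

`y, h ∈ V^×` (`y` = the normalised Kummer function `u″ / ϖ ^ ord_V u″`, `h` = the Ogg unit).
Local data at the closed points of the special fibre lying on `V` (`TresMonoPt`):

* SMOOTH point: `y = ε γ ^ p` and `h = ε′` (local units `ε`, `ε′`);
* NODE:         `y = ε X ^ a γ ^ p`, `h = ε′ X ^ e`, `X` a unit of `V`, and `a ≡ c mod p`
  (`a = ord_{V₀} u″ − ord_{V_∞} u″`, the same class `c = c̃` at every node by DECK + KUM + COV;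
  `e = ord_{V₀} h − ord_{V_∞} h = 12`).

`tresmono_abs` : if every closed point of the chart `t` lying on `V` is of one of these two
kinds, and `y = ε γ ^ p` at the closed points of the chart `t⁻¹` containing `t⁻¹` (the cusps),
then for every place `Q` of `L`

* `ρ t ∈ O_Q`  (off the cusps)  ⇒  `p ∣ e · ord_Q (ρ y) − c · ord_Q (ρ h)`;
* `ρ t ∉ O_Q`  (at the cusps)   ⇒  `p ∣ ord_Q (ρ y)`.

These are the two clauses of helper60's `StmtFacMono` (thickness never appears).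
-/

set_option autoImplicit false
set_option linter.unusedSectionVars false
set_option linter.style.haveILetI false

noncomputable section

namespace Fermat.Agent.R38

open AlgebraicCurve Fermat.Agent.UNIP Fermat.Agent.STB Fermat.Agent.INJ Fermat.Agent.RIB.MP

section Pt

variable {F L : Type*} [Field F] [Field L] {k : Type*} [Field k] [Algebra k L]

/-- the local data of the pair `(y, h)` at a closed point with local ring `O` lying on `V`:
smooth (`y = ε γ ^ p`, `h = ε′`) or a node (`y = ε X ^ a γ ^ p`, `h = ε′ X ^ e`, `p ∣ a − c`). -/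
def TresMonoPt (V : ValuationSubring F) (O : Subring F) (p : ℕ) (c e : ℤ) (y h : F) : Prop :=
  (StbFacAt O p y ∧ ∃ ε' : O, IsUnit ε' ∧ h = (ε' : F)) ∨
  ∃ (X γ : F) (ε ε' : O) (a : ℤ), IsUnit ε ∧ IsUnit ε' ∧ V.valuation X = 1 ∧ γ ≠ 0 ∧
    y = (ε : F) * X ^ a * γ ^ p ∧ h = (ε' : F) * X ^ e ∧ (p : ℤ) ∣ a - c

/-- in a valuation subring, an element whose `p`-th power has valuation one has valuation one -/
theorem tresmono_val_of_pow (V : ValuationSubring F) {p : ℕ} (hp : 0 < p) {γ : F}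
    (h : V.valuation (γ ^ p) = 1) : V.valuation γ = 1 := by
  rw [map_pow] at h
  rcases lt_trichotomy (V.valuation γ) 1 with h1 | h1 | h1
  · exact absurd h (ne_of_lt (pow_lt_one₀ zero_le h1 hp.ne'))
  · exact h1
  · exact absurd h (ne_of_gt (one_lt_pow₀ h1 hp.ne'))

/-- **the computation at one point**: the local data `TresMonoPt` at a closed point whose local
ring `O` lies in the composite of `V` and `Q` give `p ∣ e · ord_Q (ρ y) − c · ord_Q (ρ h)`. -/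
theorem tresmono_pt (V : ValuationSubring F) (ρ : ↥V →+* L) (Q : Place k L) (O : Subring F)
    (hO : ∀ x ∈ O, ∃ hx : x ∈ V, ρ ⟨x, hx⟩ ∈ Q.toValuationSubring)
    {p : ℕ} (hp : 0 < p) {y h : F} (hy : V.valuation y = 1) (hh : V.valuation h = 1) (c e : ℤ)
    (hpt : TresMonoPt V O p c e y h) :
    (p : ℤ) ∣ e * Q.ord (ρ ⟨y, tresdn_mem V hy⟩) - c * Q.ord (ρ ⟨h, tresdn_mem V hh⟩) := by
  rcases hpt with ⟨hfac, ε', hε', hhε⟩ | ⟨X, γ, ε, ε', a, hε, hε', hX, hγ0, hyfac, hhfac, hdvd⟩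
  · -- smooth point
    have h1 : (p : ℤ) ∣ Q.ord (ρ ⟨y, tresdn_mem V hy⟩) := ribmp_rd_fac V ρ Q O hO hp hy hfac
    obtain ⟨hvε', hordε'⟩ := tresdn_unit V ρ Q O hO ε' hε'
    have h2 : Q.ord (ρ ⟨h, tresdn_mem V hh⟩) = 0 := by
      have e1 : (⟨h, tresdn_mem V hh⟩ : ↥V) = ⟨(ε' : F), tresdn_mem V hvε'⟩ := Subtype.ext hhε
      rw [e1, hordε']
    rw [h2, mul_zero, sub_zero]
    exact Dvd.dvd.mul_left h1 e
  · -- node
    obtain ⟨hvε, hordε⟩ := tresdn_unit V ρ Q O hO ε hε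
    obtain ⟨hvε', hordε'⟩ := tresdn_unit V ρ Q O hO ε' hε'
    have hvγp : V.valuation (γ ^ p) = 1 := by
      have h2 := congrArg V.valuation hyfac
      rw [hy, map_mul, map_mul, hvε, one_mul, map_zpow₀, hX, one_zpow, one_mul] at h2
      exact h2.symm
    have hvγ : V.valuation γ = 1 := tresmono_val_of_pow V hp hvγp
    have h0ε := tresdn_map_ne_zero V ρ hvε
    have h0ε' := tresdn_map_ne_zero V ρ hvε'
    have h0X := tresdn_map_ne_zero V ρ hX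
    have h0γ := tresdn_map_ne_zero V ρ hvγ
    have hρy : ρ ⟨y, tresdn_mem V hy⟩ = ρ ⟨(ε : F), tresdn_mem V hvε⟩ *
        ρ ⟨X, tresdn_mem V hX⟩ ^ a * ρ ⟨γ, tresdn_mem V hvγ⟩ ^ p := by
      have e1 : (⟨y, tresdn_mem V hy⟩ : ↥V) = ⟨(ε : F), tresdn_mem V hvε⟩ *
          ⟨X ^ a, tresdn_mem V (tresdn_val_zpow V hX a)⟩ *
          ⟨γ, tresdn_mem V hvγ⟩ ^ p := Subtype.ext (by simpa using hyfac)
      rw [e1, map_mul, map_mul, map_pow, tresdn_map_zpow V ρ hX a]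
    have hρh : ρ ⟨h, tresdn_mem V hh⟩ = ρ ⟨(ε' : F), tresdn_mem V hvε'⟩ *
        ρ ⟨X, tresdn_mem V hX⟩ ^ e := by
      have e1 : (⟨h, tresdn_mem V hh⟩ : ↥V) = ⟨(ε' : F), tresdn_mem V hvε'⟩ *
          ⟨X ^ e, tresdn_mem V (tresdn_val_zpow V hX e)⟩ := Subtype.ext (by simpa using hhfac)
      rw [e1, map_mul, tresdn_map_zpow V ρ hX e]
    have hγord := Q.ord_zpow (ρ ⟨γ, tresdn_mem V hvγ⟩) (p : ℤ)
    rw [zpow_natCast] at hγord
    rw [hρy, hρh, Q.ord_mul (mul_ne_zero h0ε (zpow_ne_zero _ h0X)) (pow_ne_zero _ h0γ),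
      Q.ord_mul h0ε (zpow_ne_zero _ h0X), Q.ord_mul h0ε' (zpow_ne_zero _ h0X), hordε, hordε',
      zero_add, zero_add, Q.ord_zpow, Q.ord_zpow, hγord]
    obtain ⟨d, hd⟩ := hdvd
    refine ⟨e * Q.ord (ρ ⟨X, tresdn_mem V hX⟩) * d + e * Q.ord (ρ ⟨γ, tresdn_mem V hvγ⟩), ?_⟩
    have ha : a = c + p * d := by linarith
    rw [ha]
    ring

end Pt

section Main

variable {A₀ E F : Type*} [CommRing A₀] [IsDomain A₀] [IsDiscreteValuationRing A₀]
  [Field E] [Algebra A₀ E] [IsFractionRing A₀ E] [CharZero E]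
  [Field F] [Algebra E F] [Algebra A₀ F] [IsScalarTower A₀ E F]
  {k L : Type*} [Field k] [Field L] [Algebra k L]

/-- **FAC-ASM, abstract form (M1).**  `V` a valuation subring of `F` with reduction map
`ρ : V →+* L`, `t` a unit of `V`, `y, h` units of `V`.  If every closed point of the special
fibre of the chart `B_t` lying on `V` is smooth or a node for the pair `(y, h)` (`TresMonoPt`),
and `y = ε γ ^ p` at the closed points of the chart `B_{t⁻¹}` lying on `V` which contain `t⁻¹`,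
then for every place `Q` of `L`:
`p ∣ e · ord_Q (ρ y) − c · ord_Q (ρ h)` if `ρ t ∈ O_Q`, and `p ∣ ord_Q (ρ y)` if `ρ t ∉ O_Q`. -/
theorem tresmono_abs {π : A₀} {t : F} (V : ValuationSubring F) (ρ : ↥V →+* L)
    (hker : ∀ x : ↥V, (x : F) ∈ V.nonunits → ρ x = 0)
    (hAV : ∀ a : A₀, algebraMap A₀ F a ∈ V)
    (hπ : ρ ⟨algebraMap A₀ F π, hAV π⟩ = 0)
    (ht : V.valuation t = 1)
    {p : ℕ} (hp : 0 < p) {y h : F} (hy : V.valuation y = 1) (hh : V.valuation h = 1) (c e : ℤ)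
    (hfin : ∀ 𝔫 : AtPt (F := F) π t, (∀ x ∈ atLoc 𝔫, x ∈ V) →
      TresMonoPt V (atLoc 𝔫) p c e y h)
    (hcusp : ∀ 𝔫 : AtPt (F := F) π t⁻¹, (∀ x ∈ atLoc 𝔫, x ∈ V) →
      (∀ b : ↥(zchClosure (A₀ := A₀) ({t⁻¹} : Set F)), (b : F) = t⁻¹ → b ∈ 𝔫.1) →
      StbFacAt (atLoc 𝔫) p y)
    (Q : Place k L)
    (hAQ : ∀ a : A₀, ρ ⟨algebraMap A₀ F a, hAV a⟩ ∈ Q.toValuationSubring)
    (hfinQ : ∀ x ∈ Q.toValuationSubring, x ∉ Q.toValuationSubring.nonunits →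
      ∃ n : ℕ, 0 < n ∧ x ^ n - 1 ∈ Q.toValuationSubring.nonunits) :
    (ρ ⟨t, tresdn_mem V ht⟩ ∈ Q.toValuationSubring →
      (p : ℤ) ∣ e * Q.ord (ρ ⟨y, tresdn_mem V hy⟩) - c * Q.ord (ρ ⟨h, tresdn_mem V hh⟩)) ∧
    (ρ ⟨t, tresdn_mem V ht⟩ ∉ Q.toValuationSubring →
      (p : ℤ) ∣ Q.ord (ρ ⟨y, tresdn_mem V hy⟩)) := by
  obtain ⟨h1, h2⟩ := tresdn_centre (π := π) V ρ hker hAV hπ ht Q hAQ hfinQ
  refine ⟨fun hin => ?_, fun hout => ?_⟩
  · obtain ⟨𝔫, h𝔫, -⟩ := h1 hin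
    exact tresmono_pt V ρ Q (atLoc 𝔫) h𝔫 hp hy hh c e
      (hfin 𝔫 (fun x hx => (h𝔫 x hx).1))
  · obtain ⟨𝔫, h𝔫, -, hti⟩ := h2 hout
    exact ribmp_rd_fac V ρ Q (atLoc 𝔫) h𝔫 hp hy (hcusp 𝔫 (fun x hx => (h𝔫 x hx).1) hti)

/-- **FAC-ASM, abstract form for the cover (M1′).**  As `tresmono_abs`, but the function of `F`
representing the residue `r ∈ L` may depend on the closed point (helper92's (B8): the reduction
of `u″ / π ^ a` along the Gauss sheet of the cover is, at each closed point `𝔫` of `X`, the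
reduction along `V` of an element `y_𝔫 ∈ F` of the shape `(unit of O_𝔫) · Y ^ (b − a) · g ^ p`). -/
theorem tresmono_cov_abs {π : A₀} {t : F} (V : ValuationSubring F) (ρ : ↥V →+* L)
    (hker : ∀ x : ↥V, (x : F) ∈ V.nonunits → ρ x = 0)
    (hAV : ∀ a : A₀, algebraMap A₀ F a ∈ V)
    (hπ : ρ ⟨algebraMap A₀ F π, hAV π⟩ = 0)
    (ht : V.valuation t = 1)
    {p : ℕ} (hp : 0 < p) {h : F} (hh : V.valuation h = 1) (c e : ℤ) (r : L)
    (hfin : ∀ 𝔫 : AtPt (F := F) π t, (∀ x ∈ atLoc 𝔫, x ∈ V) →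
      ∃ (y : F) (hy : V.valuation y = 1), ρ ⟨y, tresdn_mem V hy⟩ = r ∧
        TresMonoPt V (atLoc 𝔫) p c e y h)
    (hcusp : ∀ 𝔫 : AtPt (F := F) π t⁻¹, (∀ x ∈ atLoc 𝔫, x ∈ V) →
      (∀ b : ↥(zchClosure (A₀ := A₀) ({t⁻¹} : Set F)), (b : F) = t⁻¹ → b ∈ 𝔫.1) →
      ∃ (y : F) (hy : V.valuation y = 1), ρ ⟨y, tresdn_mem V hy⟩ = r ∧
        StbFacAt (atLoc 𝔫) p y)
    (Q : Place k L)
    (hAQ : ∀ a : A₀, ρ ⟨algebraMap A₀ F a, hAV a⟩ ∈ Q.toValuationSubring)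
    (hfinQ : ∀ x ∈ Q.toValuationSubring, x ∉ Q.toValuationSubring.nonunits →
      ∃ n : ℕ, 0 < n ∧ x ^ n - 1 ∈ Q.toValuationSubring.nonunits) :
    (ρ ⟨t, tresdn_mem V ht⟩ ∈ Q.toValuationSubring →
      (p : ℤ) ∣ e * Q.ord r - c * Q.ord (ρ ⟨h, tresdn_mem V hh⟩)) ∧
    (ρ ⟨t, tresdn_mem V ht⟩ ∉ Q.toValuationSubring → (p : ℤ) ∣ Q.ord r) := by
  obtain ⟨h1, h2⟩ := tresdn_centre (π := π) V ρ hker hAV hπ ht Q hAQ hfinQ
  refine ⟨fun hin => ?_, fun hout => ?_⟩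
  · obtain ⟨𝔫, h𝔫, -⟩ := h1 hin
    obtain ⟨y, hy, hyr, hpt⟩ := hfin 𝔫 (fun x hx => (h𝔫 x hx).1)
    rw [← hyr]
    exact tresmono_pt V ρ Q (atLoc 𝔫) h𝔫 hp hy hh c e hpt
  · obtain ⟨𝔫, h𝔫, -, hti⟩ := h2 hout
    obtain ⟨y, hy, hyr, hfac⟩ := hcusp 𝔫 (fun x hx => (h𝔫 x hx).1) hti
    rw [← hyr]
    exact ribmp_rd_fac V ρ Q (atLoc 𝔫) h𝔫 hp hy hfac

end Main

/-! ### The `k`-side: constants and `p`-th powers do not change the two clauses -/

section KSide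

variable {k L : Type*} [Field k] [Field L] [Algebra k L]

/-- `ord_Q` of a constant is `0` -/
theorem tresmono_ord_const (Q : Place k L) (a : k) : Q.ord (algebraMap k L a) = 0 :=
  Fermat.Agent.S24.PlaceAux.ord_algebraMap Q a

/-- `r = a · r″ · s ^ p` (`a` a nonzero constant): `ord_Q r ≡ ord_Q r″ mod p` -/
theorem tresmono_ord_congr (Q : Place k L) (p : ℕ) {a : k} (ha : a ≠ 0) {r r'' s : L}
    (hr'' : r'' ≠ 0) (hs : s ≠ 0) (hr : r = algebraMap k L a * r'' * s ^ p) :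
    Q.ord r = Q.ord r'' + p * Q.ord s := by
  have h1 : algebraMap k L a ≠ 0 := (map_ne_zero _).2 ha
  have hs' := Q.ord_zpow s (p : ℤ)
  rw [zpow_natCast] at hs'
  rw [hr, Q.ord_mul (mul_ne_zero h1 hr'') (pow_ne_zero _ hs), Q.ord_mul h1 hr'',
    tresmono_ord_const Q a, zero_add, hs']

/-- the two clauses for `r″` give the two clauses for `r = a · r″ · s ^ p` -/
theorem tresmono_clauses_congr (Q : Place k L) (p : ℕ) {a : k} (ha : a ≠ 0) {r r'' s : L}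
    (hr'' : r'' ≠ 0) (hs : s ≠ 0) (hr : r = algebraMap k L a * r'' * s ^ p) (c e m : ℤ) :
    ((p : ℤ) ∣ e * Q.ord r'' - c * m → (p : ℤ) ∣ e * Q.ord r - c * m) ∧
    ((p : ℤ) ∣ Q.ord r'' → (p : ℤ) ∣ Q.ord r) := by
  rw [tresmono_ord_congr Q p ha hr'' hs hr]
  refine ⟨fun ⟨d, hd⟩ => ⟨d + e * Q.ord s, by linear_combination hd⟩,
    fun ⟨d, hd⟩ => ⟨d + Q.ord s, by linear_combination hd⟩⟩

end KSide

end Fermat.Agent.R38
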