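/-
ROW 38, TRES, piece FAC-ASM-MAIN, M3 frame wiring, the block "ρW + hcmp" (helper90).

Frame of helper89's `tresmonof_frame` (`R38/TresMonoConcF.lean`) at the cover
`L = L_K = tres5cL K₀ (M₁ p) y` (helper78), `W = T.W k` a sheet of `T : Tres5Gen F_K L_K V_∞ n`
(helper53's `tres5kiv_descend`), `K₀ ≤ K₁`, `S₂ : Tres5Gen F_E L_E V_∞ n₂` the cover over the big
field `E = K₁` (FAC-BIG), with `T.W k = (S₂.W k₂).comap (tres5cIncl …)`.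

* `tresmw_rho`   : `hWV`, `ρW`, `hρW`, `hρWker` of `tresmonof_frame` for `W = T.W k`
                   (= `tresft_sheet_gen`);
* `tresmw_cmp`   : `ρW`, `hρW`, `hρWker` **and** `hcmp` (I6) for `y := w / π ^ m`:
                   from `U = nfEmb v`, `v = b · g ^ p · w` in `L_E` (helper30's `tresftf_main`),
                   `R38Red A U r`, `v_W (w / π ^ m) = 1`:
                   `r ∈ F̄_{M₁}` and `r = a · ρW (w / π ^ m) · s ^ p`;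
* `tresmw_cmp_exists` : the same, with the exponent `m` produced by `T.W_unif`.
-/
import Fermat.Agent.R38.TresFacTrMain
import Fermat.Agent.R38.TresDictNode

set_option autoImplicit false
set_option linter.unusedSectionVars false
set_option linter.unusedVariables false
set_option linter.style.haveILetI false
set_option linter.style.longLine false
set_option synthInstance.maxHeartbeats 400000
set_option maxHeartbeats 1600000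

noncomputable section

namespace Fermat.Agent.R38

open ModularCurve AlgebraicCurve Fermat.Agent.ES Fermat.Agent.ES.G2 Fermat.Agent.INJ
  Fermat.Agent.UNIP Fermat.Agent.STB Fermat.Agent.ES.M Fermat.Agent.DEU Fermat.Agent.S36
  Fermat.Agent.RIB.MP

section Rho

variable {M₁ q : ℕ} [NeZero M₁] [NeZero q] [NeZero (M₁ * q)] (hq : q.Prime) (hqM : ¬ q ∣ M₁)
  {A : ValuationSubring Qb} (hA : A.LiesOverPrime q) {K₀ : IntermediateField ℚ Qb}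
  [IsDiscreteValuationRing ↥(beta0Ring A K₀)] {π₀ : ↥(beta0Ring A K₀)} (hπ₀ : Irreducible π₀)
  (ιC₀ : ↥K₀ →+* ℂ)

include hA in
/-- **`hWV`, `ρW`, `hρW`, `hρWker`** of `tresmonof_frame` for a sheet `W = T.W k` of an abstract
cover `L / F_{M₁ q}(K₀)`. -/
theorem tresmw_rho (hRedF : StmtRedF M₁ A) {L : Type*} [Field L]
    [Algebra ↥(modularFunctionFieldFullC ↥K₀ (M₁ * q)) L] {n : ℕ}
    (T : Tres5Gen ↥(modularFunctionFieldFullC ↥K₀ (M₁ * q)) L (mgvV hπ₀ ιC₀ hq hqM true) n)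
    {k : ℕ} (hk : k < n) :
    (T.W k).comap (algebraMap ↥(modularFunctionFieldFullC ↥K₀ (M₁ * q)) L) =
        mgvV hπ₀ ιC₀ hq hqM true ∧
    ∃ ρW : ↥(T.W k) →+* ↥(modularFunctionFieldFullC (kA A) M₁),
      (∀ (a : ↥(modularFunctionFieldFullC ↥K₀ (M₁ * q))) (ha : a ∈ mgvV hπ₀ ιC₀ hq hqM true)
        (haW : algebraMap ↥(modularFunctionFieldFullC ↥K₀ (M₁ * q)) L a ∈ T.W k),
        ρW ⟨algebraMap ↥(modularFunctionFieldFullC ↥K₀ (M₁ * q)) L a, haW⟩ =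
          ribmpRedF hq hqM hA hπ₀ ιC₀ hRedF ⟨a, ha⟩) ∧
      (∀ x : ↥(T.W k), (x : L) ∈ (T.W k).nonunits → ρW x = 0) ∧
      (∀ x : ↥(T.W k), ρW x = 0 → (x : L) ∈ (T.W k).nonunits) := by
  obtain ⟨ρ, hext, -, hker⟩ := tresft_sheet_gen T hk (ribmpRedF hq hqM hA hπ₀ ιC₀ hRedF)
    (tresftc_redF_eq_zero_iff hq hqM hA hπ₀ ιC₀ hRedF)
  exact ⟨T.W_comap hk, ρ, hext, fun x hx => (hker x).2 hx, fun x hx => (hker x).1 hx⟩

end Rho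

section Cmp

variable {M₁ q : ℕ} [NeZero M₁] [NeZero q] [NeZero (M₁ * q)] (hq : q.Prime) (hqM : ¬ q ∣ M₁)
  {A : ValuationSubring Qb} (hA : A.LiesOverPrime q) {K₀ K₁ : IntermediateField ℚ Qb}
  [IsDiscreteValuationRing ↥(beta0Ring A K₀)] {π₀ : ↥(beta0Ring A K₀)} (hπ₀ : Irreducible π₀)
  [IsDiscreteValuationRing ↥(beta0Ring A K₁)] {π₁ : ↥(beta0Ring A K₁)} (hπ₁ : Irreducible π₁)
  (ιC₀ : ↥K₀ →+* ℂ) (ιC₁ : ↥K₁ →+* ℂ) (h : K₀ ≤ K₁)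

include hA in
/-- **`ρW` + `hcmp` (I6)** of `tresmonof_frame` at `L = tres5cL K₀ (M₁ q) y`, `W = T.W k`,
`y := w / π ^ m`. -/
theorem tresmw_cmp (hRedF : StmtRedF M₁ A) (y : LaurentSeries Qb)
    {n n₂ : ℕ}
    (T : Tres5Gen ↥(modularFunctionFieldFullC ↥K₀ (M₁ * q)) ↥(tres5cL K₀ (M₁ * q) y)
      (mgvV hπ₀ ιC₀ hq hqM true) n)
    (S₂ : Tres5Gen ↥(modularFunctionFieldFullC ↥K₁ (M₁ * q)) ↥(tres5cL K₁ (M₁ * q) y)
      (mgvV hπ₁ ιC₁ hq hqM true) n₂)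
    (hTπ : ∃ c : ↥K₀, T.π = algebraMap ↥K₀ ↥(modularFunctionFieldFullC ↥K₀ (M₁ * q)) c)
    (hS₂π : ∃ c : ↥K₁, S₂.π = algebraMap ↥K₁ ↥(modularFunctionFieldFullC ↥K₁ (M₁ * q)) c)
    {k k₂ : ℕ} (hk : k < n) (hk₂ : k₂ < n₂)
    (hW : (S₂.W k₂).comap (tres5cIncl (M₁ * q) y h) = T.W k)
    {p : ℕ} {U : LaurentSeries Qb} {v : ↥(modularFunctionFieldFullC ↥K₁ (M₁ * q))}
    (hv : ((nfEmb K₁ (M₁ * q) v : modularFunctionFieldBar (M₁ * q)) : LaurentSeries Qb) = U)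
    (hU0 : U ≠ 0)
    {b : ↥K₁} {g : ↥(tres5cL K₁ (M₁ * q) y)} {w : ↥(tres5cL K₀ (M₁ * q) y)} (hg0 : g ≠ 0)
    (hfac : algebraMap ↥(modularFunctionFieldFullC ↥K₁ (M₁ * q)) ↥(tres5cL K₁ (M₁ * q) y) v =
      algebraMap ↥(modularFunctionFieldFullC ↥K₁ (M₁ * q)) ↥(tres5cL K₁ (M₁ * q) y)
        (algebraMap ↥K₁ ↥(modularFunctionFieldFullC ↥K₁ (M₁ * q)) b) * g ^ p *
        tres5cIncl (M₁ * q) y h w)
    {r : LaurentSeries (kA A)} (hr : R38Red A U r)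
    {m : ℤ}
    (hm : (T.W k).valuation (w /
      algebraMap ↥(modularFunctionFieldFullC ↥K₀ (M₁ * q)) ↥(tres5cL K₀ (M₁ * q) y) T.π ^ m) =
        1) :
    ∃ ρW : ↥(T.W k) →+* ↥(modularFunctionFieldFullC (kA A) M₁),
      (∀ (a : ↥(modularFunctionFieldFullC ↥K₀ (M₁ * q))) (ha : a ∈ mgvV hπ₀ ιC₀ hq hqM true)
        (haW : algebraMap ↥(modularFunctionFieldFullC ↥K₀ (M₁ * q)) ↥(tres5cL K₀ (M₁ * q) y) a ∈
          T.W k),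
        ρW ⟨algebraMap ↥(modularFunctionFieldFullC ↥K₀ (M₁ * q)) ↥(tres5cL K₀ (M₁ * q) y) a,
            haW⟩ = ribmpRedF hq hqM hA hπ₀ ιC₀ hRedF ⟨a, ha⟩) ∧
      (∀ x : ↥(T.W k), (x : ↥(tres5cL K₀ (M₁ * q) y)) ∈ (T.W k).nonunits → ρW x = 0) ∧
      ∃ (hr' : r ∈ modularFunctionFieldFullC (kA A) M₁) (a : kA A)
        (s : ↥(modularFunctionFieldFullC (kA A) M₁)), a ≠ 0 ∧ s ≠ 0 ∧
        (⟨r, hr'⟩ : ↥(modularFunctionFieldFullC (kA A) M₁)) =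
          algebraMap (kA A) ↥(modularFunctionFieldFullC (kA A) M₁) a *
            ρW ⟨w / algebraMap ↥(modularFunctionFieldFullC ↥K₀ (M₁ * q))
              ↥(tres5cL K₀ (M₁ * q) y) T.π ^ m, tresdn_mem (T.W k) hm⟩ * s ^ p := by
  obtain ⟨-, ρW, hρW, hρWker, -⟩ := tresmw_rho hq hqM hA hπ₀ ιC₀ hRedF T hk
  have hv0 : v ≠ 0 := by
    rintro rfl
    apply hU0
    rw [← hv, map_zero]
    rfl
  have hr₁ : R38Red A
      ((nfEmb K₁ (M₁ * q) v : modularFunctionFieldBar (M₁ * q)) : LaurentSeries Qb) r := by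
    rw [hv]
    exact hr
  obtain ⟨hrF, a, s, ha, hs, -, hrs⟩ :=
    tresft_main_conc hq hqM hA hπ₀ hπ₁ ιC₀ ιC₁ h hRedF y T S₂ hTπ hS₂π hk hk₂ hW ρW hρW hρWker
      hv0 hg0 hfac hr₁ hm
  exact ⟨ρW, hρW, hρWker, hrF, a, s, ha, hs, hrs⟩

include hA in
/-- **`ρW` + `hcmp`**, with the exponent `m` produced by the sheet (`T.W_unif`). -/
theorem tresmw_cmp_exists (hRedF : StmtRedF M₁ A) (y : LaurentSeries Qb)
    {n n₂ : ℕ}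
    (T : Tres5Gen ↥(modularFunctionFieldFullC ↥K₀ (M₁ * q)) ↥(tres5cL K₀ (M₁ * q) y)
      (mgvV hπ₀ ιC₀ hq hqM true) n)
    (S₂ : Tres5Gen ↥(modularFunctionFieldFullC ↥K₁ (M₁ * q)) ↥(tres5cL K₁ (M₁ * q) y)
      (mgvV hπ₁ ιC₁ hq hqM true) n₂)
    (hTπ : ∃ c : ↥K₀, T.π = algebraMap ↥K₀ ↥(modularFunctionFieldFullC ↥K₀ (M₁ * q)) c)
    (hS₂π : ∃ c : ↥K₁, S₂.π = algebraMap ↥K₁ ↥(modularFunctionFieldFullC ↥K₁ (M₁ * q)) c)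
    {k k₂ : ℕ} (hk : k < n) (hk₂ : k₂ < n₂)
    (hW : (S₂.W k₂).comap (tres5cIncl (M₁ * q) y h) = T.W k)
    {p : ℕ} {U : LaurentSeries Qb} {v : ↥(modularFunctionFieldFullC ↥K₁ (M₁ * q))}
    (hv : ((nfEmb K₁ (M₁ * q) v : modularFunctionFieldBar (M₁ * q)) : LaurentSeries Qb) = U)
    (hU0 : U ≠ 0)
    {b : ↥K₁} {g : ↥(tres5cL K₁ (M₁ * q) y)} {w : ↥(tres5cL K₀ (M₁ * q) y)} (hg0 : g ≠ 0)
    (hw0 : w ≠ 0)
    (hfac : algebraMap ↥(modularFunctionFieldFullC ↥K₁ (M₁ * q)) ↥(tres5cL K₁ (M₁ * q) y) v =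
      algebraMap ↥(modularFunctionFieldFullC ↥K₁ (M₁ * q)) ↥(tres5cL K₁ (M₁ * q) y)
        (algebraMap ↥K₁ ↥(modularFunctionFieldFullC ↥K₁ (M₁ * q)) b) * g ^ p *
        tres5cIncl (M₁ * q) y h w)
    {r : LaurentSeries (kA A)} (hr : R38Red A U r) :
    ∃ (m : ℤ) (hm : (T.W k).valuation (w /
        algebraMap ↥(modularFunctionFieldFullC ↥K₀ (M₁ * q)) ↥(tres5cL K₀ (M₁ * q) y) T.π ^ m) =
          1)
      (ρW : ↥(T.W k) →+* ↥(modularFunctionFieldFullC (kA A) M₁)),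
      (∀ (a : ↥(modularFunctionFieldFullC ↥K₀ (M₁ * q))) (ha : a ∈ mgvV hπ₀ ιC₀ hq hqM true)
        (haW : algebraMap ↥(modularFunctionFieldFullC ↥K₀ (M₁ * q)) ↥(tres5cL K₀ (M₁ * q) y) a ∈
          T.W k),
        ρW ⟨algebraMap ↥(modularFunctionFieldFullC ↥K₀ (M₁ * q)) ↥(tres5cL K₀ (M₁ * q) y) a,
            haW⟩ = ribmpRedF hq hqM hA hπ₀ ιC₀ hRedF ⟨a, ha⟩) ∧
      (∀ x : ↥(T.W k), (x : ↥(tres5cL K₀ (M₁ * q) y)) ∈ (T.W k).nonunits → ρW x = 0) ∧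
      ∃ (hr' : r ∈ modularFunctionFieldFullC (kA A) M₁) (a : kA A)
        (s : ↥(modularFunctionFieldFullC (kA A) M₁)), a ≠ 0 ∧ s ≠ 0 ∧
        (⟨r, hr'⟩ : ↥(modularFunctionFieldFullC (kA A) M₁)) =
          algebraMap (kA A) ↥(modularFunctionFieldFullC (kA A) M₁) a *
            ρW ⟨w / algebraMap ↥(modularFunctionFieldFullC ↥K₀ (M₁ * q))
              ↥(tres5cL K₀ (M₁ * q) y) T.π ^ m, tresdn_mem (T.W k) hm⟩ * s ^ p := by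
  obtain ⟨m, hm⟩ := T.W_unif hk hw0
  exact ⟨m, hm, tresmw_cmp hq hqM hA hπ₀ hπ₁ ιC₀ ιC₁ h hRedF y T S₂ hTπ hS₂π hk hk₂ hW hv hU0
    hg0 hfac hr hm⟩

include hA in
/-- **`ρW` + `hcmp`, in the literal shape of `tresmonof_frame`**: `Y` a variable with
`Y = w / π′ ^ m`, `T.π = π′` (helper74's `tresm2_pack`, helper53's `tres5kiv_descend`). -/
theorem tresmw_cmp_y (hRedF : StmtRedF M₁ A) (y : LaurentSeries Qb)
    {n n₂ : ℕ}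
    (T : Tres5Gen ↥(modularFunctionFieldFullC ↥K₀ (M₁ * q)) ↥(tres5cL K₀ (M₁ * q) y)
      (mgvV hπ₀ ιC₀ hq hqM true) n)
    (S₂ : Tres5Gen ↥(modularFunctionFieldFullC ↥K₁ (M₁ * q)) ↥(tres5cL K₁ (M₁ * q) y)
      (mgvV hπ₁ ιC₁ hq hqM true) n₂)
    (hTπ : ∃ c : ↥K₀, T.π = algebraMap ↥K₀ ↥(modularFunctionFieldFullC ↥K₀ (M₁ * q)) c)
    (hS₂π : ∃ c : ↥K₁, S₂.π = algebraMap ↥K₁ ↥(modularFunctionFieldFullC ↥K₁ (M₁ * q)) c)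
    {k k₂ : ℕ} (hk : k < n) (hk₂ : k₂ < n₂)
    (hW : (S₂.W k₂).comap (tres5cIncl (M₁ * q) y h) = T.W k)
    {p : ℕ} {U : LaurentSeries Qb} {v : ↥(modularFunctionFieldFullC ↥K₁ (M₁ * q))}
    (hv : ((nfEmb K₁ (M₁ * q) v : modularFunctionFieldBar (M₁ * q)) : LaurentSeries Qb) = U)
    (hU0 : U ≠ 0)
    {b : ↥K₁} {g : ↥(tres5cL K₁ (M₁ * q) y)} {w : ↥(tres5cL K₀ (M₁ * q) y)} (hg0 : g ≠ 0)
    (hfac : algebraMap ↥(modularFunctionFieldFullC ↥K₁ (M₁ * q)) ↥(tres5cL K₁ (M₁ * q) y) v =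
      algebraMap ↥(modularFunctionFieldFullC ↥K₁ (M₁ * q)) ↥(tres5cL K₁ (M₁ * q) y)
        (algebraMap ↥K₁ ↥(modularFunctionFieldFullC ↥K₁ (M₁ * q)) b) * g ^ p *
        tres5cIncl (M₁ * q) y h w)
    {r : LaurentSeries (kA A)} (hr : R38Red A U r)
    {π' : ↥(modularFunctionFieldFullC ↥K₀ (M₁ * q))} (hT : T.π = π') {m : ℤ}
    {Y : ↥(tres5cL K₀ (M₁ * q) y)}
    (hY : Y = w /
      algebraMap ↥(modularFunctionFieldFullC ↥K₀ (M₁ * q)) ↥(tres5cL K₀ (M₁ * q) y) π' ^ m)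
    (hy : (T.W k).valuation Y = 1) :
    ∃ ρW : ↥(T.W k) →+* ↥(modularFunctionFieldFullC (kA A) M₁),
      (∀ (a : ↥(modularFunctionFieldFullC ↥K₀ (M₁ * q))) (ha : a ∈ mgvV hπ₀ ιC₀ hq hqM true)
        (haW : algebraMap ↥(modularFunctionFieldFullC ↥K₀ (M₁ * q)) ↥(tres5cL K₀ (M₁ * q) y) a ∈
          T.W k),
        ρW ⟨algebraMap ↥(modularFunctionFieldFullC ↥K₀ (M₁ * q)) ↥(tres5cL K₀ (M₁ * q) y) a,
            haW⟩ = ribmpRedF hq hqM hA hπ₀ ιC₀ hRedF ⟨a, ha⟩) ∧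
      (∀ x : ↥(T.W k), (x : ↥(tres5cL K₀ (M₁ * q) y)) ∈ (T.W k).nonunits → ρW x = 0) ∧
      ∃ (hr' : r ∈ modularFunctionFieldFullC (kA A) M₁) (a : kA A)
        (s : ↥(modularFunctionFieldFullC (kA A) M₁)), a ≠ 0 ∧ s ≠ 0 ∧
        (⟨r, hr'⟩ : ↥(modularFunctionFieldFullC (kA A) M₁)) =
          algebraMap (kA A) ↥(modularFunctionFieldFullC (kA A) M₁) a *
            ρW ⟨Y, tresdn_mem (T.W k) hy⟩ * s ^ p := by
  subst hT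
  subst hY
  exact tresmw_cmp hq hqM hA hπ₀ hπ₁ ιC₀ ιC₁ h hRedF y T S₂ hTπ hS₂π hk hk₂ hW hv hU0
    hg0 hfac hr hy

include hA in
/-- **`ρW` + `hcmp` WITHOUT any compatibility between `T` and `S₂`**: `T` any split generator of
the cover over `K₀`, `S₂` any split generator of the cover over `K₁ ⊇ K₀` (e.g. FAC-BIG over the
field `K₁` produced by `tresftf_main`).  The sheet `W = T.W k` is the one below the sheet `0` of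
`S₂` (`tresft_sheet_below`); the hypotheses (I3), (I4) hold on every sheet. -/
theorem tresmw_cmp_below (hRedF : StmtRedF M₁ A) (y : LaurentSeries Qb)
    {n n₂ : ℕ}
    (T : Tres5Gen ↥(modularFunctionFieldFullC ↥K₀ (M₁ * q)) ↥(tres5cL K₀ (M₁ * q) y)
      (mgvV hπ₀ ιC₀ hq hqM true) n)
    (S₂ : Tres5Gen ↥(modularFunctionFieldFullC ↥K₁ (M₁ * q)) ↥(tres5cL K₁ (M₁ * q) y)
      (mgvV hπ₁ ιC₁ hq hqM true) n₂)
    (hTπ : ∃ c : ↥K₀, T.π = algebraMap ↥K₀ ↥(modularFunctionFieldFullC ↥K₀ (M₁ * q)) c)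
    (hS₂π : ∃ c : ↥K₁, S₂.π = algebraMap ↥K₁ ↥(modularFunctionFieldFullC ↥K₁ (M₁ * q)) c)
    {p : ℕ} {U : LaurentSeries Qb} {v : ↥(modularFunctionFieldFullC ↥K₁ (M₁ * q))}
    (hv : ((nfEmb K₁ (M₁ * q) v : modularFunctionFieldBar (M₁ * q)) : LaurentSeries Qb) = U)
    (hU0 : U ≠ 0)
    {b : ↥K₁} {g : ↥(tres5cL K₁ (M₁ * q) y)} {w : ↥(tres5cL K₀ (M₁ * q) y)} (hg0 : g ≠ 0)
    (hw0 : w ≠ 0)
    (hfac : algebraMap ↥(modularFunctionFieldFullC ↥K₁ (M₁ * q)) ↥(tres5cL K₁ (M₁ * q) y) v =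
      algebraMap ↥(modularFunctionFieldFullC ↥K₁ (M₁ * q)) ↥(tres5cL K₁ (M₁ * q) y)
        (algebraMap ↥K₁ ↥(modularFunctionFieldFullC ↥K₁ (M₁ * q)) b) * g ^ p *
        tres5cIncl (M₁ * q) y h w)
    {r : LaurentSeries (kA A)} (hr : R38Red A U r) :
    ∃ k < n,
      (T.W k).comap (algebraMap ↥(modularFunctionFieldFullC ↥K₀ (M₁ * q))
        ↥(tres5cL K₀ (M₁ * q) y)) = mgvV hπ₀ ιC₀ hq hqM true ∧
      ∃ (m : ℤ) (hm : (T.W k).valuation (w /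
        algebraMap ↥(modularFunctionFieldFullC ↥K₀ (M₁ * q)) ↥(tres5cL K₀ (M₁ * q) y) T.π ^ m) =
          1)
      (ρW : ↥(T.W k) →+* ↥(modularFunctionFieldFullC (kA A) M₁)),
      (∀ (a : ↥(modularFunctionFieldFullC ↥K₀ (M₁ * q))) (ha : a ∈ mgvV hπ₀ ιC₀ hq hqM true)
        (haW : algebraMap ↥(modularFunctionFieldFullC ↥K₀ (M₁ * q)) ↥(tres5cL K₀ (M₁ * q) y) a ∈
          T.W k),
        ρW ⟨algebraMap ↥(modularFunctionFieldFullC ↥K₀ (M₁ * q)) ↥(tres5cL K₀ (M₁ * q) y) a,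
            haW⟩ = ribmpRedF hq hqM hA hπ₀ ιC₀ hRedF ⟨a, ha⟩) ∧
      (∀ x : ↥(T.W k), (x : ↥(tres5cL K₀ (M₁ * q) y)) ∈ (T.W k).nonunits → ρW x = 0) ∧
      ∃ (hr' : r ∈ modularFunctionFieldFullC (kA A) M₁) (a : kA A)
        (s : ↥(modularFunctionFieldFullC (kA A) M₁)), a ≠ 0 ∧ s ≠ 0 ∧
        (⟨r, hr'⟩ : ↥(modularFunctionFieldFullC (kA A) M₁)) =
          algebraMap (kA A) ↥(modularFunctionFieldFullC (kA A) M₁) a *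
            ρW ⟨w / algebraMap ↥(modularFunctionFieldFullC ↥K₀ (M₁ * q))
              ↥(tres5cL K₀ (M₁ * q) y) T.π ^ m, tresdn_mem (T.W k) hm⟩ * s ^ p := by
  have hn₂ : 0 < n₂ := Nat.pos_of_ne_zero S₂.hn
  obtain ⟨k, hk, hW⟩ : ∃ k < n, (S₂.W 0).comap (tres5cIncl (M₁ * q) y h) = T.W k := by
    letI algLL : Algebra ↥(tres5cL K₀ (M₁ * q) y) ↥(tres5cL K₁ (M₁ * q) y) :=
      tres5cAlgLL (M₁ * q) y h
    exact tresft_sheet_below hq hqM hπ₀ hπ₁ ιC₀ ιC₁ h (fun x => Subtype.ext rfl) T S₂ hn₂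
  obtain ⟨m, hm, H⟩ := tresmw_cmp_exists hq hqM hA hπ₀ hπ₁ ιC₀ ιC₁ h hRedF y T S₂ hTπ hS₂π
    hk hn₂ hW hv hU0 hg0 hw0 hfac hr
  exact ⟨k, hk, T.W_comap hk, m, hm, H⟩

include hA in
/-- **`ρW` + `hcmp`, plug-and-play form**: `tresmw_cmp_below` with the uniformizers in the shape
delivered by helper53's `tres5kiv_descend` (`T.π = algebraMap A₀ F π₀`) and helper16's
`tres5biv_kum` (`S.π = algebraMap A₁ F₁ π₁`), and the conclusion in the shape `hm`, `y` of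
helper41's `tresmt_loc`. -/
theorem tresmw_cmp_inst (hRedF : StmtRedF M₁ A) (y : LaurentSeries Qb)
    {n n₂ : ℕ}
    (T : Tres5Gen ↥(modularFunctionFieldFullC ↥K₀ (M₁ * q)) ↥(tres5cL K₀ (M₁ * q) y)
      (mgvV hπ₀ ιC₀ hq hqM true) n)
    (S₂ : Tres5Gen ↥(modularFunctionFieldFullC ↥K₁ (M₁ * q)) ↥(tres5cL K₁ (M₁ * q) y)
      (mgvV hπ₁ ιC₁ hq hqM true) n₂)
    {ϖ₀ : ↥(beta0Ring A K₀)} {ϖ₁ : ↥(beta0Ring A K₁)}
    (hT : T.π = algebraMap ↥(beta0Ring A K₀) ↥(modularFunctionFieldFullC ↥K₀ (M₁ * q)) ϖ₀)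
    (hS₂ : S₂.π = algebraMap ↥(beta0Ring A K₁) ↥(modularFunctionFieldFullC ↥K₁ (M₁ * q)) ϖ₁)
    {p : ℕ} {U : LaurentSeries Qb} {v : ↥(modularFunctionFieldFullC ↥K₁ (M₁ * q))}
    (hv : ((nfEmb K₁ (M₁ * q) v : modularFunctionFieldBar (M₁ * q)) : LaurentSeries Qb) = U)
    (hU0 : U ≠ 0)
    {b : ↥K₁} {g : ↥(tres5cL K₁ (M₁ * q) y)} {w : ↥(tres5cL K₀ (M₁ * q) y)} (hg0 : g ≠ 0)
    (hw0 : w ≠ 0)
    (hfac : algebraMap ↥(modularFunctionFieldFullC ↥K₁ (M₁ * q)) ↥(tres5cL K₁ (M₁ * q) y) v =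
      algebraMap ↥(modularFunctionFieldFullC ↥K₁ (M₁ * q)) ↥(tres5cL K₁ (M₁ * q) y)
        (algebraMap ↥K₁ ↥(modularFunctionFieldFullC ↥K₁ (M₁ * q)) b) * g ^ p *
        tres5cIncl (M₁ * q) y h w)
    {r : LaurentSeries (kA A)} (hr : R38Red A U r) :
    ∃ k < n,
      (T.W k).comap (algebraMap ↥(modularFunctionFieldFullC ↥K₀ (M₁ * q))
        ↥(tres5cL K₀ (M₁ * q) y)) = mgvV hπ₀ ιC₀ hq hqM true ∧
      ∃ (m : ℤ) (hm : (T.W k).valuation (w /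
        algebraMap ↥(modularFunctionFieldFullC ↥K₀ (M₁ * q)) ↥(tres5cL K₀ (M₁ * q) y)
          (algebraMap ↥(beta0Ring A K₀) ↥(modularFunctionFieldFullC ↥K₀ (M₁ * q)) ϖ₀) ^ m) = 1)
      (ρW : ↥(T.W k) →+* ↥(modularFunctionFieldFullC (kA A) M₁)),
      (∀ (a : ↥(modularFunctionFieldFullC ↥K₀ (M₁ * q))) (ha : a ∈ mgvV hπ₀ ιC₀ hq hqM true)
        (haW : algebraMap ↥(modularFunctionFieldFullC ↥K₀ (M₁ * q)) ↥(tres5cL K₀ (M₁ * q) y) a ∈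
          T.W k),
        ρW ⟨algebraMap ↥(modularFunctionFieldFullC ↥K₀ (M₁ * q)) ↥(tres5cL K₀ (M₁ * q) y) a,
            haW⟩ = ribmpRedF hq hqM hA hπ₀ ιC₀ hRedF ⟨a, ha⟩) ∧
      (∀ x : ↥(T.W k), (x : ↥(tres5cL K₀ (M₁ * q) y)) ∈ (T.W k).nonunits → ρW x = 0) ∧
      ∃ (hr' : r ∈ modularFunctionFieldFullC (kA A) M₁) (a : kA A)
        (s : ↥(modularFunctionFieldFullC (kA A) M₁)), a ≠ 0 ∧ s ≠ 0 ∧
        (⟨r, hr'⟩ : ↥(modularFunctionFieldFullC (kA A) M₁)) =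
          algebraMap (kA A) ↥(modularFunctionFieldFullC (kA A) M₁) a *
            ρW ⟨w / algebraMap ↥(modularFunctionFieldFullC ↥K₀ (M₁ * q))
              ↥(tres5cL K₀ (M₁ * q) y)
                (algebraMap ↥(beta0Ring A K₀) ↥(modularFunctionFieldFullC ↥K₀ (M₁ * q)) ϖ₀) ^ m,
              tresdn_mem (T.W k) hm⟩ * s ^ p := by
  have hTπ : ∃ c : ↥K₀, T.π = algebraMap ↥K₀ ↥(modularFunctionFieldFullC ↥K₀ (M₁ * q)) c :=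
    ⟨algebraMap ↥(beta0Ring A K₀) ↥K₀ ϖ₀, by
      rw [hT]
      exact IsScalarTower.algebraMap_apply ↥(beta0Ring A K₀) ↥K₀
        ↥(modularFunctionFieldFullC ↥K₀ (M₁ * q)) ϖ₀⟩
  have hS₂π : ∃ c : ↥K₁, S₂.π = algebraMap ↥K₁ ↥(modularFunctionFieldFullC ↥K₁ (M₁ * q)) c :=
    ⟨algebraMap ↥(beta0Ring A K₁) ↥K₁ ϖ₁, by
      rw [hS₂]
      exact IsScalarTower.algebraMap_apply ↥(beta0Ring A K₁) ↥K₁
        ↥(modularFunctionFieldFullC ↥K₁ (M₁ * q)) ϖ₁⟩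
  obtain ⟨k, hk, hWV, m, hm, ρW, h1, h2, hr', a, s, ha, hs, hrs⟩ :=
    tresmw_cmp_below hq hqM hA hπ₀ hπ₁ ιC₀ ιC₁ h hRedF y T S₂ hTπ hS₂π hv hU0 hg0 hw0 hfac hr
  have hm' : (T.W k).valuation (w /
      algebraMap ↥(modularFunctionFieldFullC ↥K₀ (M₁ * q)) ↥(tres5cL K₀ (M₁ * q) y)
        (algebraMap ↥(beta0Ring A K₀) ↥(modularFunctionFieldFullC ↥K₀ (M₁ * q)) ϖ₀) ^ m) = 1 := by
    rw [← hT]
    exact hm
  refine ⟨k, hk, hWV, m, hm', ρW, h1, h2, hr', a, s, ha, hs, ?_⟩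
  have e : (⟨w / algebraMap ↥(modularFunctionFieldFullC ↥K₀ (M₁ * q))
        ↥(tres5cL K₀ (M₁ * q) y)
          (algebraMap ↥(beta0Ring A K₀) ↥(modularFunctionFieldFullC ↥K₀ (M₁ * q)) ϖ₀) ^ m,
        tresdn_mem (T.W k) hm'⟩ : ↥(T.W k)) =
      ⟨w / algebraMap ↥(modularFunctionFieldFullC ↥K₀ (M₁ * q))
        ↥(tres5cL K₀ (M₁ * q) y) T.π ^ m, tresdn_mem (T.W k) hm⟩ :=
    Subtype.ext (congrArg (fun z : ↥(modularFunctionFieldFullC ↥K₀ (M₁ * q)) =>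
      w / algebraMap ↥(modularFunctionFieldFullC ↥K₀ (M₁ * q)) ↥(tres5cL K₀ (M₁ * q) y) z ^ m)
      hT.symm)
  rw [e]
  exact hrs

end Cmp

end Fermat.Agent.R38

end
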