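/-
ROW 38, TRES, piece FAC-ASM-MAIN, the cover block (β), step 4 = THE `K₁`-CHAIN (helper3, for
helper41's `R38/TresMonoTopB.lean`).

Frame: `A ⊂ ℚ̄` over `q` (residue characteristic = Kummer exponent), `K = ℚ̄^I = beta0Field A`,
frame level `M q` (`M` = the rigid level `M₁`), `F_K = F_{M q}(K)`, `L_K = tres5cL K (M q) y` the
`K`-form of the cover `F′ = F̄_{M q}(y)`, `y ^ q = w₀`.

The chain:
  1. helper30's `tresftf_main`: the decomposition `u′ = C b · γ ^ q · coeffMap w` (`w ∈ L_K`,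
     `γ ∈ F′`) is defined over `E″ = ℚ̄^I · K₁` for ONE number field `K₁`, Galois over `ℚ`,
     above any given number field (here: above the field `K₀` of helper16's `tres5bit_descend`
     and the `q`-th roots of unity);
  2. helper16's `tres5bit_descend` AT THIS `K₁`: the split Kummer datum `S` of `L_{E″} / F_{E″}`
     at `V_∞`, `S₂ := S.gen`;
  3. helper90's `tresmw_cmp_inst` (`tresmw_cmp_below`) for `(T, S₂)`: the sheet `k`, the
     normalisation `m`, the reduction map `ρW` of `W = T.W k` and the comparison `hcmp`.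

* `tresmch_field` : step 1 + 2 (the field `K₁`, the datum `S`, the transported decomposition);
* **`tresmch_main`** : hypotheses = those of `tres5bit_descend` + `T`, `hT`, `hRedF`, `hfac`,
  `hr`;  conclusion = the conclusion of `tresmw_cmp_inst` VERBATIM (`ϖ₀ := π₀`):
  `∃ k < n, hWV ∧ ∃ m hm ρW, hρW ∧ hρWker ∧ ∃ hr′ a s, a ≠ 0 ∧ s ≠ 0 ∧ r = a · ρW (w / π₀ ^ m) · s ^ q`;
* `tresmch_below` : the same with the conclusion of `tresmw_cmp_below` VERBATIM (in terms of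
  `T.π`, hypothesis `hTπ : ∃ c : K, T.π = algebraMap K F_K c`).
-/
import Fermat.Agent.R38.TresMonoWire
import Fermat.Agent.R38.TresBigInstT

set_option autoImplicit false
set_option linter.unusedSectionVars false
set_option linter.unusedVariables false
set_option linter.style.haveILetI false
set_option linter.style.longLine false
set_option synthInstance.maxHeartbeats 400000
set_option maxHeartbeats 1600000

noncomputable section

namespace Fermat.Agent.R38

open ModularCurve AlgebraicCurve Fermat.Agent.ES Fermat.Agent.ES.G2 Fermat.Agent.INJ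
  Fermat.Agent.UNIP Fermat.Agent.STB Fermat.Agent.ES.M Fermat.Agent.DEU Fermat.Agent.S36
  Fermat.Agent.RIB.MP Fermat.Agent.S33 IntermediateField

section Chain

variable {q M : ℕ} [NeZero q] [NeZero M] [NeZero (M * q)]

/-- **Steps 1 + 2 of the chain**: the number field `K₁` of `tresftf_main` above the field of
`tres5bit_descend` and the `q`-th roots of unity, the split Kummer datum `S` over
`E″ = ℚ̄^I · K₁` at `V_∞`, and the decomposition transported to `L_{E″}`. -/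
theorem tresmch_field [Fact q.Prime] (hq : q.Prime) (hqM : ¬ q ∣ M) (hq3 : 3 ≤ q)
    (h3 : q = 3 → 2 ∣ M) (A : ValuationSubring Qb) (hA : A.LiesOverPrime q)
    {N : ℕ} [NeZero N] {z₀ : JZero N} {w₀ : modularFunctionFieldBar N}
    (hw : KummerRel q z₀ w₀) {y : LaurentSeries NfQb}
    (hy : y ^ q = (w₀ : LaurentSeries NfQb))
    (hle : modularFunctionFieldBar N ≤ modularFunctionFieldBar (M * q))
    (htor : ∀ τ ∈ A.inertiaSubgroupIn ℚ, τ • z₀ = ExtCitation.cycloExp q τ • z₀)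
    (hdiv : ∀ P : Place Qb (modularFunctionFieldBar (M * q)),
      (q : ℤ) ∣ P.ord (⟨(w₀ : LaurentSeries NfQb), hle w₀.2⟩ : modularFunctionFieldBar (M * q)))
    (hsplit : IsSplitFn hq hqM A
      (⟨(w₀ : LaurentSeries NfQb), hle w₀.2⟩ : modularFunctionFieldBar (M * q)))
    (hnp : ∀ c : ↥(modularFunctionFieldBar (M * q)),
      c ^ q ≠ (⟨(w₀ : LaurentSeries NfQb), hle w₀.2⟩ : modularFunctionFieldBar (M * q)))
    (Kz : IntermediateField ℚ Qb) (hKz : FiniteDimensional ℚ Kz)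
    {u' : ↥(modularFunctionFieldBar (M * q))} {b : NfQb} {γ : LaurentSeries NfQb}
    (hγF : γ ∈ tres5cField (M * q) y) (w : ↥(tres5cL (beta0Field A) (M * q) y))
    (hfac : (u' : LaurentSeries NfQb) = HahnSeries.C b * γ ^ q *
      coeffMap (algebraMap ↥(beta0Field A) NfQb) (w : LaurentSeries ↥(beta0Field A))) :
    ∃ (K₁ : IntermediateField ℚ Qb) (_ : NumberField K₁) (_ : IsGalois ℚ K₁)
      (_ : IsDiscreteValuationRing ↥(mgcA A K₁)) (π₁ : ↥(mgcA A K₁)) (hπ₁ : Irreducible π₁)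
      (S : Tres5Kum ↥(mgcF A K₁ (M * q)) ↥(tres5cL (mgcE A K₁) (M * q) y)
        (mgvV hπ₁ (mgdIota (mgcE A K₁)) hq hqM true) q)
      (v : ↥(mgcF A K₁ (M * q))) (b' : ↥(mgcE A K₁))
      (g : ↥(tres5cL (mgcE A K₁) (M * q) y)),
      Kz ≤ K₁ ∧
      S.π = algebraMap ↥(mgcA A K₁) ↥(mgcF A K₁ (M * q)) π₁ ∧
      nfEmb (mgcE A K₁) (M * q) v = u' ∧ algebraMap ↥(mgcE A K₁) NfQb b' = b ∧
      coeffMap (algebraMap ↥(mgcE A K₁) NfQb) (g : LaurentSeries ↥(mgcE A K₁)) = γ ∧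
      algebraMap ↥(mgcF A K₁ (M * q)) ↥(tres5cL (mgcE A K₁) (M * q) y) v =
        algebraMap ↥(mgcF A K₁ (M * q)) ↥(tres5cL (mgcE A K₁) (M * q) y)
          (algebraMap ↥(mgcE A K₁) ↥(mgcF A K₁ (M * q)) b') * g ^ q *
          tres5cIncl (M * q) y (le_sup_left : beta0Field A ≤ mgcE A K₁) w := by
  classical
  haveI := Fermat.Agent.Common.isAlgClosure_rat_qbar
  haveI : NeZero ((q : ℕ) : Qb) := ⟨Nat.cast_ne_zero.mpr hq.ne_zero⟩
  haveI hdvr₀ : IsDiscreteValuationRing ↥(beta0Ring A (beta0Field A)) :=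
    beta0Ring_isDVR_base hq hA
  -- the field of FAC-BIG
  obtain ⟨K₀, hK₀, hbit⟩ := tres5bit_descend hq hqM hq3 h3 A hA hw hy hle htor hdiv hsplit hnp
  -- a primitive `q`-th root of unity
  obtain ⟨ζ', hζ'⟩ : ∃ ζ' : Qb, IsPrimitiveRoot ζ' q :=
    HasEnoughRootsOfUnity.exists_primitiveRoot Qb q
  have hζint : IsIntegral ℚ ζ' := (AlgebraicClosure.isAlgebraic ℚ).isIntegral.isIntegral ζ'
  haveI : FiniteDimensional ℚ (IntermediateField.adjoin ℚ {ζ'}) :=
    IntermediateField.adjoin.finiteDimensional hζint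
  haveI := hKz
  haveI := hK₀
  haveI hK₂fin : FiniteDimensional ℚ ↥(Kz ⊔ K₀) := IntermediateField.finiteDimensional_sup _ _
  haveI hK₃fin : FiniteDimensional ℚ ↥((Kz ⊔ K₀) ⊔ IntermediateField.adjoin ℚ {ζ'}) :=
    IntermediateField.finiteDimensional_sup _ _
  -- the field of T3-FLD
  have hw0 : (w₀ : LaurentSeries NfQb) ≠ 0 := fun h0 => hw.ne_zero (Subtype.ext h0)
  have hy0 : y ≠ 0 := by
    rintro rfl
    rw [zero_pow hq.ne_zero] at hy
    exact hw0 hy.symm
  have hy' : y ^ q ∈ modularFunctionFieldBar (M * q) := by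
    rw [hy]
    exact hle w₀.2
  obtain ⟨K₁, hK₁le, hK₁fin, hgal, v, b', g, hv, hb', hg, hfac'⟩ :=
    tresftf_main (N := M * q) hq.ne_zero hy0 hy' A
      ((Kz ⊔ K₀) ⊔ IntermediateField.adjoin ℚ {ζ'}) hK₃fin hγF w hfac
  haveI := hK₁fin
  haveI := hgal
  haveI hnf : NumberField ↥K₁ := @NumberField.mk _ _ inferInstance hK₁fin
  haveI hdvr₁ : IsDiscreteValuationRing ↥(mgcA A K₁) := beta0Ring_isDVR_sup K₁ hq hA
  have hKzle : Kz ≤ K₁ := (le_sup_left.trans le_sup_left).trans hK₁le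
  have hK₀le : K₀ ≤ K₁ := (le_sup_right.trans le_sup_left).trans hK₁le
  have hζK : ζ' ∈ mgcE A K₁ :=
    (le_sup_right : K₁ ≤ mgcE A K₁)
      (hK₁le ((le_sup_right : IntermediateField.adjoin ℚ {ζ'} ≤
        (Kz ⊔ K₀) ⊔ IntermediateField.adjoin ℚ {ζ'})
        (IntermediateField.mem_adjoin_simple_self ℚ ζ')))
  obtain ⟨π₁, hπ₁⟩ := IsDiscreteValuationRing.exists_irreducible ↥(mgcA A K₁)
  obtain ⟨π₀, hπ₀⟩ := IsDiscreteValuationRing.exists_irreducible ↥(beta0Ring A (beta0Field A))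
  obtain ⟨u₀, yE, hyE, S, hfracY, T₂, ρK₂, ⟨-, -, -, -, hSπ, -, -, -⟩, -, -⟩ :=
    hbit K₁ hK₀le hπ₁ hπ₀ (mgdIota (mgcE A K₁)) (mgdIota (beta0Field A))
      (wmg_zeta_prim (A := A) hq hζ' hζK)
  exact ⟨K₁, hnf, hgal, hdvr₁, π₁, hπ₁, S, v, b', g, hKzle, hSπ, hv, hb', hg, hfac'⟩

/-- **THE `K₁`-CHAIN** (step 4 of the cover block): `ρW` and `hcmp` on a sheet of `T`, from the
hypotheses of `tres5bit_descend` and the decomposition `u′ = C b · γ ^ q · coeffMap w`.
Conclusion = the conclusion of `tresmw_cmp_inst` verbatim (`ϖ₀ := π₀`). -/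
theorem tresmch_main [Fact q.Prime] (hq : q.Prime) (hqM : ¬ q ∣ M) (hq3 : 3 ≤ q)
    (h3 : q = 3 → 2 ∣ M) (A : ValuationSubring Qb) (hA : A.LiesOverPrime q)
    {N : ℕ} [NeZero N] {z₀ : JZero N} {w₀ : modularFunctionFieldBar N}
    (hw : KummerRel q z₀ w₀) {y : LaurentSeries NfQb}
    (hy : y ^ q = (w₀ : LaurentSeries NfQb))
    (hle : modularFunctionFieldBar N ≤ modularFunctionFieldBar (M * q))
    (htor : ∀ τ ∈ A.inertiaSubgroupIn ℚ, τ • z₀ = ExtCitation.cycloExp q τ • z₀)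
    (hdiv : ∀ P : Place Qb (modularFunctionFieldBar (M * q)),
      (q : ℤ) ∣ P.ord (⟨(w₀ : LaurentSeries NfQb), hle w₀.2⟩ : modularFunctionFieldBar (M * q)))
    (hsplit : IsSplitFn hq hqM A
      (⟨(w₀ : LaurentSeries NfQb), hle w₀.2⟩ : modularFunctionFieldBar (M * q)))
    (hnp : ∀ c : ↥(modularFunctionFieldBar (M * q)),
      c ^ q ≠ (⟨(w₀ : LaurentSeries NfQb), hle w₀.2⟩ : modularFunctionFieldBar (M * q)))
    [IsDiscreteValuationRing ↥(beta0Ring A (beta0Field A))]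
    {π₀ : ↥(beta0Ring A (beta0Field A))} (hπ₀ : Irreducible π₀) (ιC₀ : ↥(beta0Field A) →+* ℂ)
    (hRedF : StmtRedF M A) {n : ℕ}
    (T : Tres5Gen ↥(modularFunctionFieldFullC ↥(beta0Field A) (M * q))
      ↥(tres5cL (beta0Field A) (M * q) y) (mgvV hπ₀ ιC₀ hq hqM true) n)
    (hT : T.π = algebraMap ↥(beta0Ring A (beta0Field A))
      ↥(modularFunctionFieldFullC ↥(beta0Field A) (M * q)) π₀)
    {u' : ↥(modularFunctionFieldBar (M * q))} (hu0 : (u' : LaurentSeries NfQb) ≠ 0)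
    {b : NfQb} {γ : LaurentSeries NfQb}
    (hγF : γ ∈ tres5cField (M * q) y) (hγ : γ ≠ 0)
    {w : ↥(tres5cL (beta0Field A) (M * q) y)} (hw0 : w ≠ 0)
    (hfac : (u' : LaurentSeries NfQb) = HahnSeries.C b * γ ^ q *
      coeffMap (algebraMap ↥(beta0Field A) NfQb) (w : LaurentSeries ↥(beta0Field A)))
    {r : LaurentSeries (kA A)} (hr : R38Red A (u' : LaurentSeries Qb) r) :
    ∃ k < n,
      (T.W k).comap (algebraMap ↥(modularFunctionFieldFullC ↥(beta0Field A) (M * q))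
        ↥(tres5cL (beta0Field A) (M * q) y)) = mgvV hπ₀ ιC₀ hq hqM true ∧
      ∃ (m : ℤ) (hm : (T.W k).valuation (w /
        algebraMap ↥(modularFunctionFieldFullC ↥(beta0Field A) (M * q))
          ↥(tres5cL (beta0Field A) (M * q) y)
          (algebraMap ↥(beta0Ring A (beta0Field A))
            ↥(modularFunctionFieldFullC ↥(beta0Field A) (M * q)) π₀) ^ m) = 1)
      (ρW : ↥(T.W k) →+* ↥(modularFunctionFieldFullC (kA A) M)),
      (∀ (a : ↥(modularFunctionFieldFullC ↥(beta0Field A) (M * q)))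
        (ha : a ∈ mgvV hπ₀ ιC₀ hq hqM true)
        (haW : algebraMap ↥(modularFunctionFieldFullC ↥(beta0Field A) (M * q))
          ↥(tres5cL (beta0Field A) (M * q) y) a ∈ T.W k),
        ρW ⟨algebraMap ↥(modularFunctionFieldFullC ↥(beta0Field A) (M * q))
          ↥(tres5cL (beta0Field A) (M * q) y) a, haW⟩ =
            ribmpRedF hq hqM hA hπ₀ ιC₀ hRedF ⟨a, ha⟩) ∧
      (∀ x : ↥(T.W k), (x : ↥(tres5cL (beta0Field A) (M * q) y)) ∈ (T.W k).nonunits →
        ρW x = 0) ∧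
      ∃ (hr' : r ∈ modularFunctionFieldFullC (kA A) M) (a : kA A)
        (s : ↥(modularFunctionFieldFullC (kA A) M)), a ≠ 0 ∧ s ≠ 0 ∧
        (⟨r, hr'⟩ : ↥(modularFunctionFieldFullC (kA A) M)) =
          algebraMap (kA A) ↥(modularFunctionFieldFullC (kA A) M) a *
            ρW ⟨w / algebraMap ↥(modularFunctionFieldFullC ↥(beta0Field A) (M * q))
              ↥(tres5cL (beta0Field A) (M * q) y)
                (algebraMap ↥(beta0Ring A (beta0Field A))
                  ↥(modularFunctionFieldFullC ↥(beta0Field A) (M * q)) π₀) ^ m,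
              tresdn_mem (T.W k) hm⟩ * s ^ q := by
  obtain ⟨K₁, hnf, hgal, hdvr₁, π₁, hπ₁, S, v, b', g, -, hSπ, hv, hb', hg, hfac'⟩ :=
    tresmch_field hq hqM hq3 h3 A hA hw hy hle htor hdiv hsplit hnp ⊥
      (by
        haveI : FiniteDimensional ℚ ↥(⊥ : IntermediateField ℚ Qb) :=
          IntermediateField.instFiniteSubtypeMemBot ℚ
        infer_instance) hγF w hfac
  haveI := hdvr₁
  have hg0 : g ≠ 0 := by
    rintro rfl
    apply hγ
    rw [← hg]
    exact map_zero _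
  have hvU : ((nfEmb (mgcE A K₁) (M * q) v : modularFunctionFieldBar (M * q)) :
      LaurentSeries Qb) = (u' : LaurentSeries Qb) := congrArg Subtype.val hv
  exact tresmw_cmp_inst hq hqM hA hπ₀ hπ₁ ιC₀ (mgdIota (mgcE A K₁))
    (le_sup_left : beta0Field A ≤ mgcE A K₁) hRedF y T S.gen hT hSπ hvU hu0 hg0 hw0 hfac' hr

end Chain

end Fermat.Agent.R38

end
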