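/-
ROW 38, TRES, (β) step 4: THE `K₁`-CHAIN (helper90; twin of helper3's `TresMonoChain.lean`).

Inputs: the hypotheses of helper16's `tres5bit_descend` (FAC-BIG at `V_∞`), ANY split generator
`T : Tres5Gen F_K L_K V_∞ n` of the cover over `K = ℚ̄^I` with `T.π = algebraMap ϖ₀`, and a
decomposition `U = C b · γ ^ q · coeffMap w` in `ℚ̄((q))` (helper30's `tresdesckv_entry`),
`U ∈ F_{Mq}(ℚ̄)`, `γ ∈ F′ = F̄_{Mq}(y)`, `w ∈ L_K`, together with a Gauss reduction `R38Red A U r`.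

Output: the conclusion of `tresmw_cmp_inst` VERBATIM (`K₀ := beta0Field A`, `p := q`): a sheet
`k < n` of `T`, `hWV`, an exponent `m`, `ρW`, `hρW`, `hρWker` and `hcmp`.

Chain: `tres5bit_descend` gives `Kb`; `tresftf_main` above `Kb(ζ_q)` gives the number field `K₁`,
Galois over `ℚ`, over which the decomposition is defined; `tres5bit_descend` at `K₁` gives the split
Kummer datum `S` of `L_E / F_{Mq}(E)`, `E = ℚ̄^I K₁`; `tresmw_cmp_inst` for `T` and `S.gen`.
-/
import Fermat.Agent.R38.TresMonoWire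
import Fermat.Agent.R38.TresBigInstT
import Fermat.Agent.R38.TresFacTrFld

set_option autoImplicit false
set_option linter.unusedSectionVars false
set_option linter.unusedVariables false
set_option linter.style.haveILetI false
set_option linter.style.longLine false
set_option synthInstance.maxHeartbeats 400000
set_option maxHeartbeats 1600000

noncomputable section

namespace Fermat.Agent.R38

open ModularCurve AlgebraicCurve Fermat.Agent.ES Fermat.Agent.ES.G2 Fermat.Agent.INJ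
  Fermat.Agent.UNIP Fermat.Agent.STB Fermat.Agent.ES.M Fermat.Agent.DEU Fermat.Agent.S36
  Fermat.Agent.RIB.MP Fermat.Agent.S33 IntermediateField

section Chain

variable {q M : ℕ} [NeZero q] [NeZero M] [NeZero (M * q)]

/-- **THE `K₁`-CHAIN** ((β) step 4): `ρW` + `hcmp` for ANY split generator `T` of the cover over
`K = ℚ̄^I`, from the hypotheses of `tres5bit_descend` and a decomposition
`U = C b · γ ^ q · coeffMap w` in `ℚ̄((q))`. -/
theorem tresmchh_main [Fact q.Prime] (hq : q.Prime) (hqM : ¬ q ∣ M) (hq3 : 3 ≤ q)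
    (h3 : q = 3 → 2 ∣ M) (A : ValuationSubring Qb) (hA : A.LiesOverPrime q)
    [IsDiscreteValuationRing ↥(beta0Ring A (beta0Field A))]
    {π₀ : ↥(beta0Ring A (beta0Field A))} (hπ₀ : Irreducible π₀)
    (ιC₀ : ↥(beta0Field A) →+* ℂ)
    {N : ℕ} [NeZero N] {z₀ : JZero N} {w₀ : modularFunctionFieldBar N}
    (hw : KummerRel q z₀ w₀) {y : LaurentSeries NfQb}
    (hy : y ^ q = (w₀ : LaurentSeries NfQb))
    (hle : modularFunctionFieldBar N ≤ modularFunctionFieldBar (M * q))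
    (htor : ∀ τ ∈ A.inertiaSubgroupIn ℚ, τ • z₀ = ExtCitation.cycloExp q τ • z₀)
    (hdiv : ∀ P : Place Qb (modularFunctionFieldBar (M * q)),
      (q : ℤ) ∣ P.ord (⟨(w₀ : LaurentSeries NfQb), hle w₀.2⟩ : modularFunctionFieldBar (M * q)))
    (hsplit : IsSplitFn hq hqM A
      (⟨(w₀ : LaurentSeries NfQb), hle w₀.2⟩ : modularFunctionFieldBar (M * q)))
    (hnp : ∀ c : ↥(modularFunctionFieldBar (M * q)),
      c ^ q ≠ (⟨(w₀ : LaurentSeries NfQb), hle w₀.2⟩ : modularFunctionFieldBar (M * q)))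
    (hRedF : StmtRedF M A) {n : ℕ}
    (T : Tres5Gen ↥(modularFunctionFieldFullC ↥(beta0Field A) (M * q))
      ↥(tres5cL (beta0Field A) (M * q) y) (mgvV hπ₀ ιC₀ hq hqM true) n)
    {ϖ₀ : ↥(beta0Ring A (beta0Field A))}
    (hT : T.π = algebraMap ↥(beta0Ring A (beta0Field A))
      ↥(modularFunctionFieldFullC ↥(beta0Field A) (M * q)) ϖ₀)
    {U : LaurentSeries NfQb} (hU : U ∈ modularFunctionFieldBar (M * q)) (hU0 : U ≠ 0)
    {b : NfQb} {γ : LaurentSeries NfQb} (hγ : γ ∈ tres5cField (M * q) y) (hγ0 : γ ≠ 0)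
    {w : ↥(tres5cL (beta0Field A) (M * q) y)} (hw0 : w ≠ 0)
    (hfac : U = HahnSeries.C b * γ ^ q *
      coeffMap (algebraMap ↥(beta0Field A) NfQb) (w : LaurentSeries ↥(beta0Field A)))
    {r : LaurentSeries (kA A)} (hr : R38Red A U r) :
    ∃ k < n,
      (T.W k).comap (algebraMap ↥(modularFunctionFieldFullC ↥(beta0Field A) (M * q))
        ↥(tres5cL (beta0Field A) (M * q) y)) = mgvV hπ₀ ιC₀ hq hqM true ∧
      ∃ (m : ℤ) (hm : (T.W k).valuation (w /
        algebraMap ↥(modularFunctionFieldFullC ↥(beta0Field A) (M * q))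
          ↥(tres5cL (beta0Field A) (M * q) y)
          (algebraMap ↥(beta0Ring A (beta0Field A))
            ↥(modularFunctionFieldFullC ↥(beta0Field A) (M * q)) ϖ₀) ^ m) = 1)
      (ρW : ↥(T.W k) →+* ↥(modularFunctionFieldFullC (kA A) M)),
      (∀ (a : ↥(modularFunctionFieldFullC ↥(beta0Field A) (M * q)))
        (ha : a ∈ mgvV hπ₀ ιC₀ hq hqM true)
        (haW : algebraMap ↥(modularFunctionFieldFullC ↥(beta0Field A) (M * q))
          ↥(tres5cL (beta0Field A) (M * q) y) a ∈ T.W k),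
        ρW ⟨algebraMap ↥(modularFunctionFieldFullC ↥(beta0Field A) (M * q))
            ↥(tres5cL (beta0Field A) (M * q) y) a, haW⟩ =
          ribmpRedF hq hqM hA hπ₀ ιC₀ hRedF ⟨a, ha⟩) ∧
      (∀ x : ↥(T.W k), (x : ↥(tres5cL (beta0Field A) (M * q) y)) ∈ (T.W k).nonunits →
        ρW x = 0) ∧
      ∃ (hr' : r ∈ modularFunctionFieldFullC (kA A) M) (a : kA A)
        (s : ↥(modularFunctionFieldFullC (kA A) M)), a ≠ 0 ∧ s ≠ 0 ∧
        (⟨r, hr'⟩ : ↥(modularFunctionFieldFullC (kA A) M)) =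
          algebraMap (kA A) ↥(modularFunctionFieldFullC (kA A) M) a *
            ρW ⟨w / algebraMap ↥(modularFunctionFieldFullC ↥(beta0Field A) (M * q))
              ↥(tres5cL (beta0Field A) (M * q) y)
                (algebraMap ↥(beta0Ring A (beta0Field A))
                  ↥(modularFunctionFieldFullC ↥(beta0Field A) (M * q)) ϖ₀) ^ m,
              tresdn_mem (T.W k) hm⟩ * s ^ q := by
  classical
  -- step 1: the number field `Kb` of FAC-BIG
  obtain ⟨Kb, hKb, hbig⟩ :=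
    tres5bit_descend hq hqM hq3 h3 A hA hw hy hle htor hdiv hsplit hnp
  -- step 2: a primitive `q`-th root of unity
  haveI := Fermat.Agent.Common.isAlgClosure_rat_qbar
  haveI : NeZero ((q : ℕ) : Qb) := ⟨Nat.cast_ne_zero.mpr hq.ne_zero⟩
  obtain ⟨ζ', hζ'⟩ : ∃ ζ' : Qb, IsPrimitiveRoot ζ' q :=
    HasEnoughRootsOfUnity.exists_primitiveRoot Qb q
  have hζint : IsIntegral ℚ ζ' := (AlgebraicClosure.isAlgebraic ℚ).isIntegral.isIntegral ζ'
  haveI : FiniteDimensional ℚ (IntermediateField.adjoin ℚ {ζ'}) :=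
    IntermediateField.adjoin.finiteDimensional hζint
  haveI := hKb
  have hKzfin : FiniteDimensional ℚ ↥(Kb ⊔ IntermediateField.adjoin ℚ {ζ'}) :=
    IntermediateField.finiteDimensional_sup _ _
  -- step 3: the decomposition is defined over `E = ℚ̄^I K₁`
  have hy0 : y ≠ 0 := by
    intro h0
    apply hw.ne_zero
    apply Subtype.ext
    rw [← hy, h0, zero_pow hq.ne_zero]
    rfl
  have hyN : y ^ q ∈ modularFunctionFieldBar (M * q) := by
    rw [hy]
    exact hle w₀.2
  obtain ⟨K₁, hKz, hK₁fin, hgal, v, b', g, hv, hb', hg, hfacE⟩ :=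
    tresftf_main (N := M * q) hq.ne_zero hy0 hyN A
      (Kb ⊔ IntermediateField.adjoin ℚ {ζ'}) hKzfin
      (u := (⟨U, hU⟩ : ↥(modularFunctionFieldBar (M * q)))) hγ w hfac
  -- step 4: the instances over `K₁`
  haveI := hgal
  haveI hnf : NumberField K₁ := @NumberField.mk _ _ inferInstance hK₁fin
  haveI hdvr : IsDiscreteValuationRing ↥(mgcA A K₁) := beta0Ring_isDVR_sup K₁ hq hA
  obtain ⟨π₁, hπ₁⟩ := IsDiscreteValuationRing.exists_irreducible ↥(mgcA A K₁)
  have hζK : ζ' ∈ mgcE A K₁ :=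
    (le_sup_right : K₁ ≤ mgcE A K₁)
      (hKz ((le_sup_right : IntermediateField.adjoin ℚ {ζ'} ≤
        Kb ⊔ IntermediateField.adjoin ℚ {ζ'})
        (IntermediateField.mem_adjoin_simple_self ℚ ζ')))
  -- step 5: the split Kummer datum over `E`
  obtain ⟨u₀, yE, hyE, S, hfracY, T', ρK, ⟨-, -, -, -, hSπ, -, -, -⟩, -, -⟩ :=
    hbig K₁ ((le_sup_left : Kb ≤ Kb ⊔ IntermediateField.adjoin ℚ {ζ'}).trans hKz) hπ₁ hπ₀
      (mgdIota (mgcE A K₁)) ιC₀ (ζ := wmgZeta (A := A) hq.ne_zero hζ'.pow_eq_one hζK)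
      (wmg_zeta_prim hq hζ' hζK)
  -- step 6: the comparison
  have hvU : ((nfEmb (mgcE A K₁) (M * q) v : modularFunctionFieldBar (M * q)) :
      LaurentSeries Qb) = U :=
    congrArg (fun z : ↥(modularFunctionFieldBar (M * q)) => (z : LaurentSeries Qb)) hv
  have hg0 : g ≠ 0 := by
    intro h0
    apply hγ0
    rw [← hg, h0]
    exact map_zero _
  exact tresmw_cmp_inst hq hqM hA hπ₀ hπ₁ ιC₀ (mgdIota (mgcE A K₁))
    (le_sup_left : beta0Field A ≤ mgcE A K₁) hRedF y T S.gen hT hSπ hvU hU0 hg0 hw0 hfacE hr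

end Chain

end Fermat.Agent.R38

end
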