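import Fermat.Agent.RIB.MP.RedA
import Fermat.Agent.R38.TresMono
import Fermat.Agent.DEU.Good
import Fermat.Agent.INJ.BGRam

/-!
# Row 38, TRES, piece FAC-ASM-MAIN, half (A) (helper26; split of helper89): CONCRETE TR ON `X`

Twin of `RIB.MP.ribmp_red_a_over` (`RIB/MP/RedA.lean`, helper91 / helper85) with helper89's
`tresmono_cov_abs` (`R38/TresMono.lean`) in place of `ribmp_rd_dvd_ord`.

Frame of RedA: `N = M₁ q`, `A ⊂ ℚ̄` over `q`, `K₀ ⊂ ℚ̄` with `A ∩ K₀` a DVR (uniformizer `π`),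
`F = F_N(K₀)`, `V = mgvV … true` the Gauss valuation ring, `ρ = ribmpRedF : V →+* F_{M₁}(k)` the
reduction map, `t = bgJ` the function `j`.

* `tresmonoc_red_j` : `ρ j = j̄`;
* `tresmonoc_main`  : per-point representatives `y_𝔫` of one residue `r` with local data
  `TresMonoPt` (closed points of the chart `j`) resp. `StbFacAt` (cusps) give the two
  `ord`-clauses of `StmtFacMono` (`R38/PlanFac.lean`) for `r` and `ρ h`:
  `p ∣ e · ord_Q r − c · ord_Q (ρ h)` if `0 ≤ ord_Q j̄`, `p ∣ ord_Q r` if `ord_Q j̄ < 0`;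
* `tresmonoc_main_one` : the same with ONE global `y` (the case without cover).
-/

set_option autoImplicit false
set_option linter.unusedSectionVars false
set_option linter.unusedVariables false
set_option linter.style.haveILetI false
set_option linter.style.longLine false
set_option synthInstance.maxHeartbeats 400000
set_option maxHeartbeats 1600000

noncomputable section

namespace Fermat.Agent.R38

open ModularCurve AlgebraicCurve Fermat.Agent.ES Fermat.Agent.ES.G2 Fermat.Agent.INJ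
  Fermat.Agent.UNIP Fermat.Agent.STB Fermat.Agent.ES.M Fermat.Agent.DEU Fermat.Agent.S36
  Fermat.Agent.S24 Fermat.Agent.RIB.MP

section Main

variable {M₁ q : ℕ} [NeZero M₁] [NeZero q] [NeZero (M₁ * q)] (hq : q.Prime) (hqM : ¬ q ∣ M₁)
  {A : ValuationSubring Qb} (hA : A.LiesOverPrime q) {K₀ : IntermediateField ℚ Qb}
  [IsDiscreteValuationRing ↥(beta0Ring A K₀)]
  {π : ↥(beta0Ring A K₀)} (hπ : Irreducible π) (ιC : ↥K₀ →+* ℂ)

include hA in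
/-- **the reduction of `j` is `j̄`** -/
theorem tresmonoc_red_j (hRedF : StmtRedF M₁ A) :
    ribmpRedF hq hqM hA hπ ιC hRedF ⟨bgJ ↥K₀ (M₁ * q), mgv_T_mem hπ ιC hq hqM true⟩ =
      (⟨jqModC (kA A), jqModC_mem_full (kA A) M₁⟩ :
        ↥(modularFunctionFieldFullC (kA A) M₁)) := by
  apply Subtype.ext
  rw [ribmpRedF_coe]
  apply ribmpRedK_eq
  have h1 : nfEmb K₀ (M₁ * q) (bgJ ↥K₀ (M₁ * q)) = jF (M₁ * q) := bgRam_nfEmb_bgJ K₀ (M₁ * q)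
  have h2 : GaussRed (M₁ * q) A (jF (M₁ * q)) (jqModC (kA A)) :=
    deuGood_gaussRed_jF (M₁ * q) A
  rw [← h1] at h2
  exact h2

theorem tresmonoc_j_ne_zero :
    (⟨jqModC (kA A), jqModC_mem_full (kA A) M₁⟩ :
        ↥(modularFunctionFieldFullC (kA A) M₁)) ≠ 0 := by
  intro h
  have h1 : (jqModC (kA A)).coeff (-1 : ℤ) = 1 := coeff_jqModC_neg_one (kA A)
  have h3 : jqModC (kA A) = 0 := congrArg Subtype.val h
  rw [h3, HahnSeries.coeff_zero] at h1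
  exact zero_ne_one h1

include hA in
/-- **(A), concrete TR on `X`.** -/
theorem tresmonoc_main (hRedF : StmtRedF M₁ A)
    (hfin : ∀ Q : Place (kA A) ↥(modularFunctionFieldFullC (kA A) M₁),
      ∀ x ∈ Q.toValuationSubring, x ∉ Q.toValuationSubring.nonunits →
        ∃ n : ℕ, 0 < n ∧ x ^ n - 1 ∈ Q.toValuationSubring.nonunits)
    {p : ℕ} (hp : 0 < p) (h : ↥(modularFunctionFieldFullC ↥K₀ (M₁ * q)))
    (hh : (mgvV hπ ιC hq hqM true).valuation h = 1) (c e : ℤ)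
    (r : ↥(modularFunctionFieldFullC (kA A) M₁))
    (hfinpt : ∀ 𝔫 : AtPt (F := ↥(modularFunctionFieldFullC ↥K₀ (M₁ * q))) π (bgJ ↥K₀ (M₁ * q)),
      (∀ x ∈ atLoc 𝔫, x ∈ mgvV hπ ιC hq hqM true) →
      ∃ (y : ↥(modularFunctionFieldFullC ↥K₀ (M₁ * q)))
        (hy : (mgvV hπ ιC hq hqM true).valuation y = 1),
        ribmpRedF hq hqM hA hπ ιC hRedF ⟨y, tresdn_mem _ hy⟩ = r ∧
          TresMonoPt (mgvV hπ ιC hq hqM true) (atLoc 𝔫) p c e y h)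
    (hcusp : ∀ 𝔫 : AtPt (F := ↥(modularFunctionFieldFullC ↥K₀ (M₁ * q))) π
        (bgJ ↥K₀ (M₁ * q))⁻¹,
      (∀ x ∈ atLoc 𝔫, x ∈ mgvV hπ ιC hq hqM true) →
      (∀ b : ↥(zchClosure (A₀ := ↥(beta0Ring A K₀))
          ({(bgJ ↥K₀ (M₁ * q))⁻¹} : Set ↥(modularFunctionFieldFullC ↥K₀ (M₁ * q)))),
        (b : ↥(modularFunctionFieldFullC ↥K₀ (M₁ * q))) = (bgJ ↥K₀ (M₁ * q))⁻¹ → b ∈ 𝔫.1) →
      ∃ (y : ↥(modularFunctionFieldFullC ↥K₀ (M₁ * q)))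
        (hy : (mgvV hπ ιC hq hqM true).valuation y = 1),
        ribmpRedF hq hqM hA hπ ιC hRedF ⟨y, tresdn_mem _ hy⟩ = r ∧
          StbFacAt (atLoc 𝔫) p y) :
    ∀ Q : Place (kA A) ↥(modularFunctionFieldFullC (kA A) M₁),
      (0 ≤ Q.ord (⟨jqModC (kA A), jqModC_mem_full (kA A) M₁⟩ :
          ↥(modularFunctionFieldFullC (kA A) M₁)) →
        (p : ℤ) ∣ e * Q.ord r -
          c * Q.ord (ribmpRedF hq hqM hA hπ ιC hRedF ⟨h, tresdn_mem _ hh⟩)) ∧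
      (Q.ord (⟨jqModC (kA A), jqModC_mem_full (kA A) M₁⟩ :
          ↥(modularFunctionFieldFullC (kA A) M₁)) < 0 → (p : ℤ) ∣ Q.ord r) := by
  intro Q
  have hAV : ∀ a : ↥(beta0Ring A K₀),
      algebraMap ↥(beta0Ring A K₀) ↥(modularFunctionFieldFullC ↥K₀ (M₁ * q)) a ∈
        mgvV hπ ιC hq hqM true :=
    fun a => vtFam_const_mem (vtBase_residue hπ) ιC hq hqM true a
  have hker : ∀ x : ↥(mgvV hπ ιC hq hqM true),
      (x : ↥(modularFunctionFieldFullC ↥K₀ (M₁ * q))) ∈ (mgvV hπ ιC hq hqM true).nonunits →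
        ribmpRedF hq hqM hA hπ ιC hRedF x = 0 := fun x hx =>
    Subtype.ext (ribmpRedK_eq_zero_of_mem_nonunits hπ (M₁ * q) x hx)
  have hπ0 : ribmpRedF hq hqM hA hπ ιC hRedF ⟨_, hAV π⟩ = 0 :=
    hker _ (mgv_hπV hπ ιC hq hqM true)
  have hAQ : ∀ a : ↥(beta0Ring A K₀),
      ribmpRedF hq hqM hA hπ ιC hRedF ⟨_, hAV a⟩ ∈ Q.toValuationSubring := by
    intro a
    have h1 : ribmpRedF hq hqM hA hπ ιC hRedF ⟨_, hAV a⟩ =
        algebraMap (kA A) ↥(modularFunctionFieldFullC (kA A) M₁)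
          (IsLocalRing.residue A ⟨algebraMap ↥K₀ Qb (algebraMap ↥(beta0Ring A K₀) ↥K₀ a),
            stb_mgt_c1 A K₀ a⟩) := by
      apply Subtype.ext
      rw [ribmpRedF_coe]
      exact (ribmpRedK_const hπ (M₁ * q) a (hAV a)).trans (algebraMap_eq_hahnC _).symm
    rw [h1]
    exact Q.algebraMap_mem' _
  obtain ⟨h1, h2⟩ := tresmono_cov_abs (π := π) (t := bgJ ↥K₀ (M₁ * q))
    (mgvV hπ ιC hq hqM true) (ribmpRedF hq hqM hA hπ ιC hRedF) hker hAV hπ0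
    (mgv_T_valuation hπ ιC hq hqM true) hp hh c e r hfinpt hcusp Q hAQ (hfin Q)
  have hj : ribmpRedF hq hqM hA hπ ιC hRedF
      ⟨bgJ ↥K₀ (M₁ * q), tresdn_mem _ (mgv_T_valuation hπ ιC hq hqM true)⟩ =
      (⟨jqModC (kA A), jqModC_mem_full (kA A) M₁⟩ :
        ↥(modularFunctionFieldFullC (kA A) M₁)) :=
    tresmonoc_red_j hq hqM hA hπ ιC hRedF
  rw [hj] at h1 h2
  have hj0 := tresmonoc_j_ne_zero (M₁ := M₁) (A := A)
  refine ⟨fun hpos => h1 ((PlaceAux.ord_nonneg_iff Q hj0).1 hpos), fun hneg => h2 ?_⟩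
  intro hmem
  have := (PlaceAux.ord_nonneg_iff Q hj0).2 hmem
  omega

include hA in
/-- **(A), one global function** (the case without cover). -/
theorem tresmonoc_main_one (hRedF : StmtRedF M₁ A)
    (hfin : ∀ Q : Place (kA A) ↥(modularFunctionFieldFullC (kA A) M₁),
      ∀ x ∈ Q.toValuationSubring, x ∉ Q.toValuationSubring.nonunits →
        ∃ n : ℕ, 0 < n ∧ x ^ n - 1 ∈ Q.toValuationSubring.nonunits)
    {p : ℕ} (hp : 0 < p) (y h : ↥(modularFunctionFieldFullC ↥K₀ (M₁ * q)))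
    (hy : (mgvV hπ ιC hq hqM true).valuation y = 1)
    (hh : (mgvV hπ ιC hq hqM true).valuation h = 1) (c e : ℤ)
    (hfinpt : ∀ 𝔫 : AtPt (F := ↥(modularFunctionFieldFullC ↥K₀ (M₁ * q))) π (bgJ ↥K₀ (M₁ * q)),
      (∀ x ∈ atLoc 𝔫, x ∈ mgvV hπ ιC hq hqM true) →
        TresMonoPt (mgvV hπ ιC hq hqM true) (atLoc 𝔫) p c e y h)
    (hcusp : ∀ 𝔫 : AtPt (F := ↥(modularFunctionFieldFullC ↥K₀ (M₁ * q))) π
        (bgJ ↥K₀ (M₁ * q))⁻¹,
      (∀ x ∈ atLoc 𝔫, x ∈ mgvV hπ ιC hq hqM true) →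
      (∀ b : ↥(zchClosure (A₀ := ↥(beta0Ring A K₀))
          ({(bgJ ↥K₀ (M₁ * q))⁻¹} : Set ↥(modularFunctionFieldFullC ↥K₀ (M₁ * q)))),
        (b : ↥(modularFunctionFieldFullC ↥K₀ (M₁ * q))) = (bgJ ↥K₀ (M₁ * q))⁻¹ → b ∈ 𝔫.1) →
        StbFacAt (atLoc 𝔫) p y) :
    ∃ (ub : LaurentSeries (kA A)) (hubF : ub ∈ modularFunctionFieldFullC (kA A) M₁), ub ≠ 0 ∧
      GaussRed (M₁ * q) A (nfEmb K₀ (M₁ * q) y) ub ∧
      ∀ Q : Place (kA A) ↥(modularFunctionFieldFullC (kA A) M₁),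
        (0 ≤ Q.ord (⟨jqModC (kA A), jqModC_mem_full (kA A) M₁⟩ :
            ↥(modularFunctionFieldFullC (kA A) M₁)) →
          (p : ℤ) ∣ e * Q.ord (⟨ub, hubF⟩ : ↥(modularFunctionFieldFullC (kA A) M₁)) -
            c * Q.ord (ribmpRedF hq hqM hA hπ ιC hRedF ⟨h, tresdn_mem _ hh⟩)) ∧
        (Q.ord (⟨jqModC (kA A), jqModC_mem_full (kA A) M₁⟩ :
            ↥(modularFunctionFieldFullC (kA A) M₁)) < 0 →
          (p : ℤ) ∣ Q.ord (⟨ub, hubF⟩ : ↥(modularFunctionFieldFullC (kA A) M₁))) := by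
  have hyV : y ∈ mgvV hπ ιC hq hqM true := tresdn_mem _ hy
  refine ⟨ribmpRedK hπ (M₁ * q) ⟨y, hyV⟩, ribmpRedK_mem hq hqM hA hπ ιC hRedF ⟨y, hyV⟩,
    ribmpRedK_ne_zero hπ (M₁ * q) ⟨y, hyV⟩ hy, ribmpRedK_spec hπ (M₁ * q) ⟨y, hyV⟩, ?_⟩
  exact tresmonoc_main hq hqM hA hπ ιC hRedF hfin hp h hh c e
    (ribmpRedF hq hqM hA hπ ιC hRedF ⟨y, hyV⟩)
    (fun 𝔫 h𝔫 => ⟨y, hy, rfl, hfinpt 𝔫 h𝔫⟩)
    (fun 𝔫 h𝔫 hti => ⟨y, hy, rfl, hcusp 𝔫 h𝔫 hti⟩)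

end Main

end Fermat.Agent.R38

end
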