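import Fermat.Agent.R38.TresMono
import Fermat.Agent.R38.TresFacTr

/-!
# Row 38, TRES, piece FAC-ASM-MAIN (helper89), part M3a: the abstract assembly ON THE COVER

Frame (helper92's ruling v3): `F` the function field of `X` over `K` (charts `t`, `t⁻¹` over the
discrete valuation ring `A₀`, uniformizer `π`), `F'` a finite extension of `F` (the function
field of the cover), `W` a valuation subring of `F'` (the Gauss sheet), `ρ : W →+* L` its
reduction map (helper90's `tresft_sheet`), `L` the residue function field, `Q` a place of `L`.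

There is NO chart of the cover: the "closed points of the cover" are local subrings `O'` of `F'`
(helper28's `O′_k`) lying above the closed points `𝔫` of the charts of `X`; every valuation ring
`T` of `F'` containing `atLoc 𝔫` contains one of them (`tres5n_exists_le`).

`tresmono_cover` : if at every closed point `𝔫` of the chart `t` of `X` and for every valuation
ring `T ⊆ W` of `F'` containing `atLoc 𝔫` there is a local ring `O' ⊆ T` at which the pair
`(y, h)` is smooth or a node (`TresMonoPt W O' p c e y h`), and the same at the cusps of the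
chart `t⁻¹` with `StbFacAt O' p y`, then for every place `Q` of `L`
`p ∣ e · ord_Q (ρ y) − c · ord_Q (ρ h)` if `ρ t ∈ O_Q`, and `p ∣ ord_Q (ρ y)` if `ρ t ∉ O_Q`.
-/

set_option autoImplicit false
set_option linter.unusedSectionVars false
set_option linter.style.haveILetI false

noncomputable section

namespace Fermat.Agent.R38

open AlgebraicCurve Fermat.Agent.UNIP Fermat.Agent.STB Fermat.Agent.INJ Fermat.Agent.RIB.MP

section Cover

variable {A₀ E F : Type*} [CommRing A₀] [IsDomain A₀] [IsDiscreteValuationRing A₀]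
  [Field E] [Algebra A₀ E] [IsFractionRing A₀ E] [CharZero E]
  [Field F] [Algebra E F] [Algebra A₀ F] [IsScalarTower A₀ E F]
  {F' : Type*} [Field F'] [Algebra F F']
  {k L : Type*} [Field k] [Field L] [Algebra k L]

/-- the restriction to `F` of a reduction map of a valuation subring of `F'` -/
def tresmonoRes (W : ValuationSubring F') (ρ : ↥W →+* L) :
    ↥(W.comap (algebraMap F F')) →+* L :=
  ρ.comp ((algebraMap F F').restrict (W.comap (algebraMap F F')).toSubring W.toSubring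
    (fun _ hx => hx))

theorem tresmonoRes_apply (W : ValuationSubring F') (ρ : ↥W →+* L) (x : F)
    (hx : x ∈ W.comap (algebraMap F F')) :
    tresmonoRes (F := F) W ρ ⟨x, hx⟩ = ρ ⟨algebraMap F F' x, hx⟩ := rfl

/-- valuation `1` upstairs is valuation `1` downstairs -/
theorem tresmono_val_comap (W : ValuationSubring F') {x : F}
    (hx : W.valuation (algebraMap F F' x) = 1) :
    (W.comap (algebraMap F F')).valuation x = 1 := by
  have hx0 : x ≠ 0 := by
    rintro rfl
    rw [map_zero, map_zero] at hx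
    exact zero_ne_one hx
  have h1 : x ∈ W.comap (algebraMap F F') := tresdn_mem W hx
  have h2 : x⁻¹ ∈ W.comap (algebraMap F F') := by
    rw [ValuationSubring.mem_comap, map_inv₀]
    exact tresdn_mem W (tresdn_inv_val W hx)
  have e1 := ((W.comap (algebraMap F F')).valuation_le_one_iff x).mpr h1
  have e2 := ((W.comap (algebraMap F F')).valuation_le_one_iff x⁻¹).mpr h2
  rw [map_inv₀] at e2
  have hv0 : (W.comap (algebraMap F F')).valuation x ≠ 0 := (Valuation.ne_zero_iff _).2 hx0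
  exact le_antisymm e1 ((inv_le_one₀ (zero_lt_iff.2 hv0)).1 e2)

/-- **FAC-ASM on the cover, abstract form (M3a).** -/
theorem tresmono_cover {π : A₀} {t : F} (W : ValuationSubring F') (ρ : ↥W →+* L)
    (hker : ∀ x : ↥W, (x : F') ∈ W.nonunits → ρ x = 0)
    (hAW : ∀ a : A₀, algebraMap F F' (algebraMap A₀ F a) ∈ W)
    (hπ : ρ ⟨algebraMap F F' (algebraMap A₀ F π), hAW π⟩ = 0)
    (ht : W.valuation (algebraMap F F' t) = 1)
    {p : ℕ} (hp : 0 < p) {y h : F'} (hy : W.valuation y = 1) (hh : W.valuation h = 1)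
    (c e : ℤ)
    (hfin : ∀ 𝔫 : AtPt (F := F) π t, ∀ T : ValuationSubring F',
      (∀ x ∈ atLoc 𝔫, algebraMap F F' x ∈ T) → (∀ x ∈ T, x ∈ W) →
      ∃ O' : Subring F', (∀ x ∈ O', x ∈ T) ∧ TresMonoPt W O' p c e y h)
    (hcusp : ∀ 𝔫 : AtPt (F := F) π t⁻¹, ∀ T : ValuationSubring F',
      (∀ x ∈ atLoc 𝔫, algebraMap F F' x ∈ T) → (∀ x ∈ T, x ∈ W) →
      (∀ b : ↥(zchClosure (A₀ := A₀) ({t⁻¹} : Set F)), (b : F) = t⁻¹ → b ∈ 𝔫.1) →
      ∃ O' : Subring F', (∀ x ∈ O', x ∈ T) ∧ StbFacAt O' p y)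
    (Q : Place k L)
    (hAQ : ∀ a : A₀, ρ ⟨algebraMap F F' (algebraMap A₀ F a), hAW a⟩ ∈ Q.toValuationSubring)
    (hfinQ : ∀ x ∈ Q.toValuationSubring, x ∉ Q.toValuationSubring.nonunits →
      ∃ n : ℕ, 0 < n ∧ x ^ n - 1 ∈ Q.toValuationSubring.nonunits) :
    (ρ ⟨algebraMap F F' t, tresdn_mem W ht⟩ ∈ Q.toValuationSubring →
      (p : ℤ) ∣ e * Q.ord (ρ ⟨y, tresdn_mem W hy⟩) - c * Q.ord (ρ ⟨h, tresdn_mem W hh⟩)) ∧
    (ρ ⟨algebraMap F F' t, tresdn_mem W ht⟩ ∉ Q.toValuationSubring →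
      (p : ℤ) ∣ Q.ord (ρ ⟨y, tresdn_mem W hy⟩)) := by
  -- the situation downstairs
  set V : ValuationSubring F := W.comap (algebraMap F F') with hV
  set ρF : ↥V →+* L := tresmonoRes (F := F) W ρ with hρF
  have hkerF : ∀ x : ↥V, (x : F) ∈ V.nonunits → ρF x = 0 := by
    intro x hx
    have h1 : algebraMap F F' (x : F) ∈ W.nonunits :=
      (tresft_mem_nonunits_iff V W rfl _).mpr hx
    exact hker ⟨algebraMap F F' (x : F), x.2⟩ h1
  have hAV : ∀ a : A₀, algebraMap A₀ F a ∈ V := fun a => hAW a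
  have htV : V.valuation t = 1 := tresmono_val_comap W ht
  obtain ⟨h1, h2⟩ := tresdn_centre (π := π) V ρF hkerF hAV hπ htV Q hAQ hfinQ
  -- the composite upstairs
  set T : ValuationSubring F' := ribmp_rd_comp W ρ Q.toValuationSubring hker with hT
  have hTW : ∀ x ∈ T, x ∈ W := fun x hx => (ribmp_rd_mem_comp.1 hx).1
  have hTO : ∀ O' : Subring F', (∀ x ∈ O', x ∈ T) →
      ∀ x ∈ O', ∃ hx : x ∈ W, ρ ⟨x, hx⟩ ∈ Q.toValuationSubring :=
    fun O' hO' x hx => ribmp_rd_mem_comp.1 (hO' x hx)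
  refine ⟨fun hin => ?_, fun hout => ?_⟩
  · obtain ⟨𝔫, h𝔫, -⟩ := h1 hin
    have h𝔫T : ∀ x ∈ atLoc 𝔫, algebraMap F F' x ∈ T := by
      intro x hx
      obtain ⟨hxV, hxQ⟩ := h𝔫 x hx
      exact ribmp_rd_mem_comp.2 ⟨hxV, hxQ⟩
    obtain ⟨O', hO', hpt⟩ := hfin 𝔫 T h𝔫T hTW
    exact tresmono_pt W ρ Q O' (hTO O' hO') hp hy hh c e hpt
  · obtain ⟨𝔫, h𝔫, -, hti⟩ := h2 hout
    have h𝔫T : ∀ x ∈ atLoc 𝔫, algebraMap F F' x ∈ T := by
      intro x hx
      obtain ⟨hxV, hxQ⟩ := h𝔫 x hx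
      exact ribmp_rd_mem_comp.2 ⟨hxV, hxQ⟩
    obtain ⟨O', hO', hfac⟩ := hcusp 𝔫 T h𝔫T hTW hti
    exact ribmp_rd_fac W ρ Q O' (hTO O' hO') hp hy hfac

end Cover

end Fermat.Agent.R38
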