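/-
ROW 38, TRES, piece FAC-ASM-MAIN (helper89), part M3b: THE FRAME THEOREM.

`tresmono_frame` : the conclusion `FacMonoConcl M p A x` of `StmtMonoCover` / `StmtMonoFix`
(`R38/PlanMono.lean`) from the outputs of the pieces, in the abstract frame of
`R38/TresMonoCover.lean` on the `K`-side and the concrete `k`-side
(`F̄_M = modularFunctionFieldFullC (kA A) M ⊆ F̄_{M'}`, `M'` the rigid level):

 K-SIDE (abstract types)   `A₀` DVR, `π`, `F` (function field of `X` over `K`, level `M' p`),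
                           `t = j`, `F'` (function field of the cover over `K`; `F' = F` in the
                           no-cover case), `W` the Gauss sheet, `ρ : W →+* F̄_{M'}`;
 (TR)    `hker hAW hπ ht hρt hAQ hfinQ`   — helper90 (T1) on top of helper91's `ribmpRedF`;
 (LOC)   `hfin`, `hcusp`                  — helper92 (LF) at `O′_k` + helper87 (M2) + helper14
                                            (MONO) + helper10 (OGG) + helper41 (XK);
 (RED)   `hcmp : r = a · ρ y · s ^ p`     — helper90 (T3, `tresft_compare`);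
 (OGG)   `hρh : ρ h = h̄`, `hhecke`        — helper10, helper9;
 (RIG)   `TresRigDescent M M' p A`        — helper35.
-/
import Fermat.Agent.R38.PlanMono
import Fermat.Agent.R38.TresMonoCover

set_option autoImplicit false
set_option linter.unusedSectionVars false
set_option linter.style.haveILetI false
set_option synthInstance.maxHeartbeats 400000
set_option maxHeartbeats 1600000

noncomputable section

namespace Fermat.Agent.R38

open ModularCurve AlgebraicCurve Fermat.Agent.ES Fermat.Agent.ES.G2 Fermat.Agent.STB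
  Fermat.Agent.RIB.MP Fermat.Agent.S24 Fermat.Agent.DEU Fermat.Agent.ES.M Fermat.Agent.W1
  Fermat.Agent.S15 Fermat.Agent.RIB Fermat.Agent.UNIP Fermat.Agent.INJ

/-- the two order clauses of `StmtFacMono` at the places of `F̄_N` (`N = M` in the statement,
`N = M'` rigid in the proof), for Laurent series `r, h ∈ F̄_N`. -/
def FacMonoOrdAt (N p : ℕ) [NeZero N] (A : ValuationSubring Qb)
    (r h : LaurentSeries (kA A)) (hr : r ∈ modularFunctionFieldFullC (kA A) N)
    (hh : h ∈ modularFunctionFieldFullC (kA A) N) (a b : ℤ) : Prop :=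
  (∀ Q : Place (kA A) ↥(modularFunctionFieldFullC (kA A) N),
    0 ≤ Q.ord (⟨jqModC (kA A), jqModC_mem_full (kA A) N⟩ :
        ↥(modularFunctionFieldFullC (kA A) N)) →
      (p : ℤ) ∣ a * Q.ord (⟨r, hr⟩ : ↥(modularFunctionFieldFullC (kA A) N)) -
        b * Q.ord (⟨h, hh⟩ : ↥(modularFunctionFieldFullC (kA A) N))) ∧
  (∀ Q : Place (kA A) ↥(modularFunctionFieldFullC (kA A) N),
    Q.ord (⟨jqModC (kA A), jqModC_mem_full (kA A) N⟩ :
        ↥(modularFunctionFieldFullC (kA A) N)) < 0 →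
      (p : ℤ) ∣ Q.ord (⟨r, hr⟩ : ↥(modularFunctionFieldFullC (kA A) N)))

/-- **(RIG)** as a `Prop`: the `k`-side descent of the two order clauses from the rigid level
`M'` to `M` (helper35, `R38/TresRig.lean`). -/
def TresRigDescent (M M' p : ℕ) [NeZero M] [NeZero M'] (A : ValuationSubring Qb) : Prop :=
  ∀ (r h : LaurentSeries (kA A)) (hr : r ∈ modularFunctionFieldFullC (kA A) M)
    (hh : h ∈ modularFunctionFieldFullC (kA A) M)
    (hr' : r ∈ modularFunctionFieldFullC (kA A) M')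
    (hh' : h ∈ modularFunctionFieldFullC (kA A) M') (a b : ℤ),
    FacMonoOrdAt M' p A r h hr' hh' a b → FacMonoOrdAt M p A r h hr hh a b

/-- no descent is needed if `M' = M` -/
theorem tresRigDescent_self (M p : ℕ) [NeZero M] (A : ValuationSubring Qb) :
    TresRigDescent M M p A :=
  fun _ _ _ _ _ _ _ _ H => H

/-- `FacMonoConcl` from its clauses -/
theorem facMonoConcl_of_ordAt {M p : ℕ} [NeZero M] [NeZero p] [NeZero (M * p)]
    {A : ValuationSubring Qb} {x : JZero (M * p)}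
    (u : modularFunctionFieldBar (M * p)) (r h : LaurentSeries (kA A))
    (hr : r ∈ modularFunctionFieldFullC (kA A) M)
    (hh : h ∈ modularFunctionFieldFullC (kA A) M) (a b : ℤ)
    (hK : KummerRel p x u) (hred : R38Red A (u : LaurentSeries Qb) r)
    (hh0 : h ≠ 0) (ha : ¬ (p : ℤ) ∣ a) (hord : FacMonoOrdAt M p A r h hr hh a b)
    (hhecke : ∀ (ℓ : ℕ) [NeZero ℓ], ℓ.Prime → ℓ ≠ p → ∀ ζ : (kA A)ˣ, IsPrimitiveRoot ζ ℓ →
      ∃ c : kA A, c ≠ 0 ∧ kronHecke ℓ ζ h = HahnSeries.C c * h ^ (ℓ + 1)) :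
    FacMonoConcl M p A x :=
  ⟨u, r, h, hr, hh, a, b, hK, hred, hh0, ha, hord.1, hord.2, hhecke⟩

section Frame

variable {A₀ E F : Type*} [CommRing A₀] [IsDomain A₀] [IsDiscreteValuationRing A₀]
  [Field E] [Algebra A₀ E] [IsFractionRing A₀ E] [CharZero E]
  [Field F] [Algebra E F] [Algebra A₀ F] [IsScalarTower A₀ E F]
  {F' : Type*} [Field F'] [Algebra F F']

/-- **The frame theorem (M3b).** -/
theorem tresmono_frame {M M' p : ℕ} [NeZero M] [NeZero M'] [NeZero p] [NeZero (M * p)]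
    {A : ValuationSubring Qb} {x : JZero (M * p)} (hp : 0 < p)
    -- the K-side
    {π : A₀} {t : F} (W : ValuationSubring F')
    (ρ : ↥W →+* ↥(modularFunctionFieldFullC (kA A) M'))
    (hker : ∀ x : ↥W, (x : F') ∈ W.nonunits → ρ x = 0)
    (hAW : ∀ a : A₀, algebraMap F F' (algebraMap A₀ F a) ∈ W)
    (hπ : ρ ⟨algebraMap F F' (algebraMap A₀ F π), hAW π⟩ = 0)
    (ht : W.valuation (algebraMap F F' t) = 1)
    (hρt : ρ ⟨algebraMap F F' t, tresdn_mem W ht⟩ =
      ⟨jqModC (kA A), jqModC_mem_full (kA A) M'⟩)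
    (hAQ : ∀ (Q : Place (kA A) ↥(modularFunctionFieldFullC (kA A) M')) (a : A₀),
      ρ ⟨algebraMap F F' (algebraMap A₀ F a), hAW a⟩ ∈ Q.toValuationSubring)
    (hfinQ : ∀ Q : Place (kA A) ↥(modularFunctionFieldFullC (kA A) M'),
      ∀ x ∈ Q.toValuationSubring, x ∉ Q.toValuationSubring.nonunits →
        ∃ n : ℕ, 0 < n ∧ x ^ n - 1 ∈ Q.toValuationSubring.nonunits)
    -- the normalised Kummer function of the cover and the Ogg unit
    {y h : F'} (hy : W.valuation y = 1) (hh : W.valuation h = 1) (c e : ℤ)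
    (he : ¬ (p : ℤ) ∣ e)
    (hfin : ∀ 𝔫 : AtPt (F := F) π t, ∀ T : ValuationSubring F',
      (∀ x ∈ atLoc 𝔫, algebraMap F F' x ∈ T) → (∀ x ∈ T, x ∈ W) →
      ∃ O' : Subring F', (∀ x ∈ O', x ∈ T) ∧ TresMonoPt W O' p c e y h)
    (hcusp : ∀ 𝔫 : AtPt (F := F) π t⁻¹, ∀ T : ValuationSubring F',
      (∀ x ∈ atLoc 𝔫, algebraMap F F' x ∈ T) → (∀ x ∈ T, x ∈ W) →
      (∀ b : ↥(zchClosure (A₀ := A₀) ({t⁻¹} : Set F)), (b : F) = t⁻¹ → b ∈ 𝔫.1) →
      ∃ O' : Subring F', (∀ x ∈ O', x ∈ T) ∧ StbFacAt O' p y)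
    -- the Kummer function of `x`, its Gauss reduction, the comparison
    (u : modularFunctionFieldBar (M * p)) (hK : KummerRel p x u)
    (r : LaurentSeries (kA A)) (hr : r ∈ modularFunctionFieldFullC (kA A) M)
    (hr' : r ∈ modularFunctionFieldFullC (kA A) M')
    (hred : R38Red A (u : LaurentSeries Qb) r)
    (hcmp : ∃ (a : kA A) (s : ↥(modularFunctionFieldFullC (kA A) M')), a ≠ 0 ∧ s ≠ 0 ∧
      (⟨r, hr'⟩ : ↥(modularFunctionFieldFullC (kA A) M')) =
        algebraMap (kA A) ↥(modularFunctionFieldFullC (kA A) M') a *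
          ρ ⟨y, tresdn_mem W hy⟩ * s ^ p)
    -- the reduction of the Ogg unit
    (hb : LaurentSeries (kA A)) (hhb : hb ∈ modularFunctionFieldFullC (kA A) M)
    (hhb' : hb ∈ modularFunctionFieldFullC (kA A) M')
    (hρh : ρ ⟨h, tresdn_mem W hh⟩ = ⟨hb, hhb'⟩)
    (hhecke : ∀ (ℓ : ℕ) [NeZero ℓ], ℓ.Prime → ℓ ≠ p → ∀ ζ : (kA A)ˣ, IsPrimitiveRoot ζ ℓ →
      ∃ c : kA A, c ≠ 0 ∧ kronHecke ℓ ζ hb = HahnSeries.C c * hb ^ (ℓ + 1))
    -- the descent to the level `M`
    (hrig : TresRigDescent M M' p A) :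
    FacMonoConcl M p A x := by
  have hρy0 : ρ ⟨y, tresdn_mem W hy⟩ ≠ 0 := tresdn_map_ne_zero W ρ hy
  have hρh0 : ρ ⟨h, tresdn_mem W hh⟩ ≠ 0 := tresdn_map_ne_zero W ρ hh
  have hb0 : hb ≠ 0 := by
    rintro rfl
    apply hρh0
    rw [hρh]
    rfl
  obtain ⟨a, s, ha, hs, hrs⟩ := hcmp
  refine facMonoConcl_of_ordAt u r hb hr hhb e c hK hred hb0 he ?_ hhecke
  refine hrig r hb hr hhb hr' hhb' e c ⟨fun Q hQ => ?_, fun Q hQ => ?_⟩
  · -- off the cusps
    have hmain := (tresmono_cover (π := π) (t := t) W ρ hker hAW hπ ht hp hy hh c e hfin hcusp Q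
      (hAQ Q) (hfinQ Q)).1
    have hj0 : (⟨jqModC (kA A), jqModC_mem_full (kA A) M'⟩ :
        ↥(modularFunctionFieldFullC (kA A) M')) ≠ 0 := by
      rw [← hρt]
      exact tresdn_map_ne_zero W ρ ht
    have hin : ρ ⟨algebraMap F F' t, tresdn_mem W ht⟩ ∈ Q.toValuationSubring := by
      rw [hρt]
      exact (PlaceAux.ord_nonneg_iff Q hj0).1 hQ
    have h1 := hmain hin
    rw [hρh] at h1
    exact (tresmono_clauses_congr Q p ha hρy0 hs hrs c e _).1 h1
  · -- at the cusps
    have hmain := (tresmono_cover (π := π) (t := t) W ρ hker hAW hπ ht hp hy hh c e hfin hcusp Q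
      (hAQ Q) (hfinQ Q)).2
    have hj0 : (⟨jqModC (kA A), jqModC_mem_full (kA A) M'⟩ :
        ↥(modularFunctionFieldFullC (kA A) M')) ≠ 0 := by
      rw [← hρt]
      exact tresdn_map_ne_zero W ρ ht
    have hout : ρ ⟨algebraMap F F' t, tresdn_mem W ht⟩ ∉ Q.toValuationSubring := by
      rw [hρt]
      intro hmem
      have := (PlaceAux.ord_nonneg_iff Q hj0).2 hmem
      omega
    have h1 := hmain hout
    exact (tresmono_clauses_congr Q p ha hρy0 hs hrs c e 0).2 h1

end Frame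

end Fermat.Agent.R38

end
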