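/-
ROW 38, TRES, piece FAC-ASM-MAIN (helper89), part M3d: THE FRAME THEOREM IN THE CONCRETE FRAME.

Frame of `RIB/MP/RedA.lean` (helper91) and `R38/TresFacTrConc.lean` (helper90): `A ⊂ ℚ̄` over `p`,
`K₀ ⊂ ℚ̄` with `A ∩ K₀` a discrete valuation ring (`K₀ = ℚ̄^I`), `F = F_{M₁ p}(K₀)`
(`M₁` the rigid level), `V_∞ = mgvV … true`, `ρ_F = ribmpRedF : V_∞ →+* F̄_{M₁}(k)`, `t = bgJ`.
The cover `L / F` is an abstract field with a valuation ring `W` over `V_∞` and a reduction map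
`ρ_W` extending `ρ_F` (helper90's `tresft_sheet_gen`).

* `tresmonof_redF_J`  : `ρ_F (j) = j̄`;
* `tresmonof_frame`   : `tresmono_frame` with the hypotheses (I1) discharged.
-/
import Fermat.Agent.R38.TresMonoFrame
import Fermat.Agent.R38.TresFacTrConc
import Fermat.Agent.INJ.BGRam
import Fermat.Agent.DEU.RamInst

set_option autoImplicit false
set_option linter.unusedSectionVars false
set_option linter.unusedVariables false
set_option linter.style.haveILetI false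
set_option linter.style.longLine false
set_option synthInstance.maxHeartbeats 400000
set_option maxHeartbeats 1600000

noncomputable section

namespace Fermat.Agent.R38

open ModularCurve AlgebraicCurve Fermat.Agent.ES Fermat.Agent.ES.G2 Fermat.Agent.INJ
  Fermat.Agent.UNIP Fermat.Agent.STB Fermat.Agent.ES.M Fermat.Agent.DEU Fermat.Agent.S36
  Fermat.Agent.RIB.MP Fermat.Agent.S24

section X

variable {M₁ q : ℕ} [NeZero M₁] [NeZero q] [NeZero (M₁ * q)] (hq : q.Prime) (hqM : ¬ q ∣ M₁)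
  {A : ValuationSubring Qb} (hA : A.LiesOverPrime q) {K₀ : IntermediateField ℚ Qb}
  [IsDiscreteValuationRing ↥(beta0Ring A K₀)] {π : ↥(beta0Ring A K₀)} (hπ : Irreducible π)
  (ιC : ↥K₀ →+* ℂ)

include hA in
/-- **the reduction of `j` is `j̄`** -/
theorem tresmonof_redF_J (hRedF : StmtRedF M₁ A) :
    ribmpRedF hq hqM hA hπ ιC hRedF ⟨bgJ ↥K₀ (M₁ * q), mgv_T_mem hπ ιC hq hqM true⟩ =
      ⟨jqModC (kA A), jqModC_mem_full (kA A) M₁⟩ := by
  apply Subtype.ext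
  rw [ribmpRedF_coe]
  apply ribmpRedK_eq
  show GaussRed (M₁ * q) A (nfEmb K₀ (M₁ * q) (bgJ ↥K₀ (M₁ * q))) _
  rw [bgRam_nfEmb_bgJ]
  exact deuRamInst_gaussRed_jF (M₁ * q) A

include hA in
/-- the constants of `A ∩ K₀` reduce to constants -/
theorem tresmonof_redF_const (hRedF : StmtRedF M₁ A) (a : ↥(beta0Ring A K₀)) :
    ribmpRedF hq hqM hA hπ ιC hRedF
        ⟨algebraMap ↥(beta0Ring A K₀) ↥(modularFunctionFieldFullC ↥K₀ (M₁ * q)) a,
          vtFam_const_mem (vtBase_residue hπ) ιC hq hqM true a⟩ =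
      algebraMap (kA A) ↥(modularFunctionFieldFullC (kA A) M₁)
        (IsLocalRing.residue A ⟨algebraMap ↥K₀ Qb (algebraMap ↥(beta0Ring A K₀) ↥K₀ a),
          stb_mgt_c1 A K₀ a⟩) := by
  apply Subtype.ext
  rw [ribmpRedF_coe]
  exact (ribmpRedK_const hπ (M₁ * q) a
    (vtFam_const_mem (vtBase_residue hπ) ιC hq hqM true a)).trans (algebraMap_eq_hahnC _).symm

end X

section Frame

variable {M M₁ p : ℕ} [NeZero M] [NeZero M₁] [NeZero p] [NeZero (M * p)] [NeZero (M₁ * p)]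
  (hq : p.Prime) (hqM : ¬ p ∣ M₁)
  {A : ValuationSubring Qb} (hA : A.LiesOverPrime p) {K₀ : IntermediateField ℚ Qb}
  [IsDiscreteValuationRing ↥(beta0Ring A K₀)] {π : ↥(beta0Ring A K₀)} (hπ : Irreducible π)
  (ιC : ↥K₀ →+* ℂ)

include hA in
/-- **The frame theorem in the concrete frame (M3d).**  `W` a valuation ring of the cover `L`
over `V_∞`, `ρW` a reduction map of `W` extending `ribmpRedF`. -/
theorem tresmonof_frame (hRedF : StmtRedF M₁ A)
    (hfinQ : ∀ Q : Place (kA A) ↥(modularFunctionFieldFullC (kA A) M₁),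
      ∀ x ∈ Q.toValuationSubring, x ∉ Q.toValuationSubring.nonunits →
        ∃ n : ℕ, 0 < n ∧ x ^ n - 1 ∈ Q.toValuationSubring.nonunits)
    {x : JZero (M * p)}
    {L : Type*} [Field L] [Algebra ↥(modularFunctionFieldFullC ↥K₀ (M₁ * p)) L]
    (W : ValuationSubring L)
    (hWV : W.comap (algebraMap ↥(modularFunctionFieldFullC ↥K₀ (M₁ * p)) L) =
      mgvV hπ ιC hq hqM true)
    (ρW : ↥W →+* ↥(modularFunctionFieldFullC (kA A) M₁))
    (hρW : ∀ (a : ↥(modularFunctionFieldFullC ↥K₀ (M₁ * p))) (ha : a ∈ mgvV hπ ιC hq hqM true)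
      (haW : algebraMap ↥(modularFunctionFieldFullC ↥K₀ (M₁ * p)) L a ∈ W),
      ρW ⟨algebraMap ↥(modularFunctionFieldFullC ↥K₀ (M₁ * p)) L a, haW⟩ =
        ribmpRedF hq hqM hA hπ ιC hRedF ⟨a, ha⟩)
    (hρWker : ∀ x : ↥W, (x : L) ∈ W.nonunits → ρW x = 0)
    -- the normalised Kummer function of the cover and the Ogg unit
    {y h : L} (hy : W.valuation y = 1) (hh : W.valuation h = 1) (c e : ℤ)
    (he : ¬ (p : ℤ) ∣ e)
    (hfin : ∀ 𝔫 : AtPt (F := ↥(modularFunctionFieldFullC ↥K₀ (M₁ * p))) π (bgJ ↥K₀ (M₁ * p)),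
      ∀ T : ValuationSubring L,
      (∀ x ∈ atLoc 𝔫, algebraMap ↥(modularFunctionFieldFullC ↥K₀ (M₁ * p)) L x ∈ T) →
      (∀ x ∈ T, x ∈ W) →
      ∃ O' : Subring L, (∀ x ∈ O', x ∈ T) ∧ TresMonoPt W O' p c e y h)
    (hcusp : ∀ 𝔫 : AtPt (F := ↥(modularFunctionFieldFullC ↥K₀ (M₁ * p))) π
        (bgJ ↥K₀ (M₁ * p))⁻¹,
      ∀ T : ValuationSubring L,
      (∀ x ∈ atLoc 𝔫, algebraMap ↥(modularFunctionFieldFullC ↥K₀ (M₁ * p)) L x ∈ T) →
      (∀ x ∈ T, x ∈ W) →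
      (∀ b : ↥(zchClosure (A₀ := ↥(beta0Ring A K₀))
          ({(bgJ ↥K₀ (M₁ * p))⁻¹} : Set ↥(modularFunctionFieldFullC ↥K₀ (M₁ * p)))),
        (b : ↥(modularFunctionFieldFullC ↥K₀ (M₁ * p))) = (bgJ ↥K₀ (M₁ * p))⁻¹ → b ∈ 𝔫.1) →
      ∃ O' : Subring L, (∀ x ∈ O', x ∈ T) ∧ StbFacAt O' p y)
    -- the Kummer function of `x`, its Gauss reduction, the comparison
    (u : modularFunctionFieldBar (M * p)) (hK : KummerRel p x u)
    (r : LaurentSeries (kA A)) (hr : r ∈ modularFunctionFieldFullC (kA A) M)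
    (hr' : r ∈ modularFunctionFieldFullC (kA A) M₁)
    (hred : R38Red A (u : LaurentSeries Qb) r)
    (hcmp : ∃ (a : kA A) (s : ↥(modularFunctionFieldFullC (kA A) M₁)), a ≠ 0 ∧ s ≠ 0 ∧
      (⟨r, hr'⟩ : ↥(modularFunctionFieldFullC (kA A) M₁)) =
        algebraMap (kA A) ↥(modularFunctionFieldFullC (kA A) M₁) a *
          ρW ⟨y, tresdn_mem W hy⟩ * s ^ p)
    -- the reduction of the Ogg unit
    (hb : LaurentSeries (kA A)) (hhb : hb ∈ modularFunctionFieldFullC (kA A) M)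
    (hhb' : hb ∈ modularFunctionFieldFullC (kA A) M₁)
    (hρh : ρW ⟨h, tresdn_mem W hh⟩ = ⟨hb, hhb'⟩)
    (hhecke : ∀ (ℓ : ℕ) [NeZero ℓ], ℓ.Prime → ℓ ≠ p → ∀ ζ : (kA A)ˣ, IsPrimitiveRoot ζ ℓ →
      ∃ c : kA A, c ≠ 0 ∧ kronHecke ℓ ζ hb = HahnSeries.C c * hb ^ (ℓ + 1))
    -- the descent to the level `M`
    (hrig : TresRigDescent M M₁ p A) :
    FacMonoConcl M p A x := by
  -- (I1)
  have hmemW : ∀ (a : ↥(modularFunctionFieldFullC ↥K₀ (M₁ * p))),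
      a ∈ mgvV hπ ιC hq hqM true →
        algebraMap ↥(modularFunctionFieldFullC ↥K₀ (M₁ * p)) L a ∈ W := by
    intro a ha
    have : a ∈ W.comap (algebraMap ↥(modularFunctionFieldFullC ↥K₀ (M₁ * p)) L) := by
      rw [hWV]; exact ha
    exact this
  have hAV : ∀ a : ↥(beta0Ring A K₀),
      algebraMap ↥(beta0Ring A K₀) ↥(modularFunctionFieldFullC ↥K₀ (M₁ * p)) a ∈
        mgvV hπ ιC hq hqM true :=
    fun a => vtFam_const_mem (vtBase_residue hπ) ιC hq hqM true a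
  have hAW : ∀ a : ↥(beta0Ring A K₀),
      algebraMap ↥(modularFunctionFieldFullC ↥K₀ (M₁ * p)) L
        (algebraMap ↥(beta0Ring A K₀) ↥(modularFunctionFieldFullC ↥K₀ (M₁ * p)) a) ∈ W :=
    fun a => hmemW _ (hAV a)
  have hπW : ρW ⟨algebraMap ↥(modularFunctionFieldFullC ↥K₀ (M₁ * p)) L
      (algebraMap ↥(beta0Ring A K₀) ↥(modularFunctionFieldFullC ↥K₀ (M₁ * p)) π), hAW π⟩ = 0 := by
    apply hρWker
    show algebraMap ↥(modularFunctionFieldFullC ↥K₀ (M₁ * p)) L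
      (algebraMap ↥(beta0Ring A K₀) ↥(modularFunctionFieldFullC ↥K₀ (M₁ * p)) π) ∈ W.nonunits
    rw [tresft_mem_nonunits_iff (mgvV hπ ιC hq hqM true) W hWV]
    exact mgv_hπV hπ ιC hq hqM true
  have ht : W.valuation (algebraMap ↥(modularFunctionFieldFullC ↥K₀ (M₁ * p)) L
      (bgJ ↥K₀ (M₁ * p))) = 1 :=
    (tresft_val_one_comap _ (mgvV hπ ιC hq hqM true) W hWV).2 (mgv_T_valuation hπ ιC hq hqM true)
  have hρt : ρW ⟨algebraMap ↥(modularFunctionFieldFullC ↥K₀ (M₁ * p)) L (bgJ ↥K₀ (M₁ * p)),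
      tresdn_mem W ht⟩ = ⟨jqModC (kA A), jqModC_mem_full (kA A) M₁⟩ := by
    rw [hρW _ (mgv_T_mem hπ ιC hq hqM true)]
    exact tresmonof_redF_J hq hqM hA hπ ιC hRedF
  have hAQ : ∀ (Q : Place (kA A) ↥(modularFunctionFieldFullC (kA A) M₁))
      (a : ↥(beta0Ring A K₀)),
      ρW ⟨algebraMap ↥(modularFunctionFieldFullC ↥K₀ (M₁ * p)) L
        (algebraMap ↥(beta0Ring A K₀) ↥(modularFunctionFieldFullC ↥K₀ (M₁ * p)) a), hAW a⟩ ∈
          Q.toValuationSubring := by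
    intro Q a
    rw [hρW _ (hAV a), tresmonof_redF_const hq hqM hA hπ ιC hRedF a]
    exact Q.algebraMap_mem' _
  exact tresmono_frame (A₀ := ↥(beta0Ring A K₀))
    (F := ↥(modularFunctionFieldFullC ↥K₀ (M₁ * p))) (F' := L) (π := π)
    (t := bgJ ↥K₀ (M₁ * p)) hq.pos W ρW hρWker hAW hπW ht hρt hAQ hfinQ hy hh c e he hfin hcusp
    u hK r hr hr' hred hcmp hb hhb hhb' hρh hhecke hrig

end Frame

end Fermat.Agent.R38

end
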