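/-
Row 38, TRES / FAC-ASM, piece ASM-NOCOVER (helper79): THE ABSTRACT CORE (chart form).

The case "inertia FIXES `x`" of `StmtFacMono` needs no cover: the Kummer function descends to
`F_K` (MP-DESC), and the node formula is applied on `X` itself.  This file is the chart-level
statement, in the setting of `RT/K6/DLFChart.lean` (helper54) and `R38/TresDictNode.lean`
(helper14): `A₀` a DVR (uniformizer `π`), `E = Frac A₀`, `F / E(t)` finite, charts `t`, `t⁻¹`,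
`V : κ → ValuationSubring F` the two vertical valuation rings (`κ = {c₁, c₂}`) with the globals
(SS1), (U), thin nodes (`Rtk6lfThinAt`) at the closed points of the chart `t`, smooth points at
the cusps (`t⁻¹ ∈ 𝔫`), `ρ : V c₁ →+* L` the reduction at `c₁`, `Q` a place of `L`.

For `y` with `m ∣ div y` (horizontal), `v_{c₁}(y) = 1`, `v_{c₂}(y) = v_{c₂}(π) ^ b`, and `g` (the
Ogg unit) with horizontal divisor supported at the cusps, `v_{c₁}(g) = 1`,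
`v_{c₂}(g) = v_{c₂}(π) ^ a`:

* `tresmf_cross`  : at a thin crossing point, `m ∣ a · ord_Q (ρ y) − b · ord_Q (ρ g)`;
* `tresmf_smooth_y`, `tresmf_smooth_g` : at a smooth point of the component `c₁`,
  `m ∣ ord_Q (ρ y)` and `ord_Q (ρ g) = 0`;
* `tresmf_through` : the centre of the composite of `V c₁` and `Q` lies on the component `c₁`;
* **`tresmf_chart`** : for every place `Q` of `L`:
  `ρ t ∈ O_Q → m ∣ a · ord_Q (ρ y) − b · ord_Q (ρ g)`  and  `ρ t ∉ O_Q → m ∣ ord_Q (ρ y)`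
  (the two clauses of `StmtFacMono`, with `t = j`).
No thickness and no `ord_Q (ρ Y)` in the output.
-/
import Fermat.Agent.RT.K6.DLFChart
import Fermat.Agent.R38.TresDictNode
import Fermat.Agent.S24.PlaceBasic

set_option autoImplicit false
set_option linter.unusedSectionVars false
set_option linter.unusedVariables false
set_option linter.style.haveILetI false

namespace Fermat.Agent.R38

open Fermat.Agent.UNIP Fermat.Agent.STB Fermat.Agent.INJ Fermat.Agent.S36 Fermat.Agent.RIB.MP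
  Fermat.Agent.RT.K6 IntermediateField AlgebraicCurve

section Pt

universe u

variable {A₀ E F : Type u} [CommRing A₀] [IsDomain A₀] [IsDiscreteValuationRing A₀]
  [Field E] [Algebra A₀ E] [IsFractionRing A₀ E] [CharZero E]
  [Field F] [Algebra E F] [Algebra A₀ F] [IsScalarTower A₀ E F]
  {π : A₀} {κ : Type*} [Finite κ] {k L : Type*} [Field k] [Field L] [Algebra k L]

/-- two integer powers of an element of valuation `< 1` with the same valuation -/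
theorem tresmf_zpow_inj (V : ValuationSubring F) {ϖ : F} (hϖ : ϖ ∈ V.nonunits) (hϖ0 : ϖ ≠ 0)
    {a b : ℤ} (h : V.valuation ϖ ^ a = V.valuation ϖ ^ b) : a = b := by
  have hv0 : V.valuation ϖ ≠ 0 := (map_ne_zero _).mpr hϖ0
  have hlt : V.valuation ϖ < 1 := (ValuationSubring.mem_nonunits_iff V).mp hϖ
  have h1 : V.valuation ϖ ^ (a - b) = 1 := by
    rw [zpow_sub₀ hv0, h, div_self (zpow_ne_zero _ hv0)]
  have := tresdn_zpow_eq_one V hlt hϖ0 h1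
  omega

include E in
/-- **the crossing point**: `m ∣ a · ord_Q (ρ y) − b · ord_Q (ρ g)`. -/
theorem tresmf_cross (hπ : Irreducible π) {u : F} [FiniteDimensional E⟮u⟯ F]
    [IsNoetherianRing ↥(zchClosure (A₀ := A₀) ({u} : Set F))]
    (V : κ → ValuationSubring F) (c₁ c₂ : κ) (hκ : ∀ c, c = c₁ ∨ c = c₂)
    (hBV : ∀ c (b : F), IsIntegral ↥(Algebra.adjoin A₀ {u}) b → b ∈ V c)
    (hπV : ∀ c, algebraMap A₀ F π ∈ (V c).nonunits)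
    (hSS1 : ∀ b : F, IsIntegral ↥(Algebra.adjoin A₀ {u}) b → (∀ c, b ∈ (V c).nonunits) →
      ∃ b' : F, IsIntegral ↥(Algebra.adjoin A₀ {u}) b' ∧ b = algebraMap A₀ F π * b')
    (hU : ∀ c (x : F), x ∈ (V c).nonunits → ∃ z ∈ V c, x = algebraMap A₀ F π * z)
    (ρ : ↥(V c₁) →+* L) (Q : Place k L) (𝔫 : AtPt (F := F) π u)
    (hO : ∀ x ∈ atLoc 𝔫, ∃ hx : x ∈ V c₁, ρ ⟨x, hx⟩ ∈ Q.toValuationSubring)
    {X Y : ↥(zchClosure (A₀ := A₀) ({u} : Set F))}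
    (h : Rtk6lfCrossAt (V c₁) (V c₂) 𝔫 X Y)
    (m : ℕ) {y g : F} (hy0 : y ≠ 0) (hg0 : g ≠ 0)
    (hhor : ∀ P : Place E F, (∀ x ∈ atLoc 𝔫, x ∈ P.toValuationSubring) → (m : ℤ) ∣ P.ord y)
    (hhor' : ∀ P : Place E F, (∀ x ∈ atLoc 𝔫, x ∈ P.toValuationSubring) → P.ord g = 0)
    (hy₁ : (V c₁).valuation y = 1) (hg₁ : (V c₁).valuation g = 1) (a b : ℤ)
    (hy₂ : (V c₂).valuation y = (V c₂).valuation (algebraMap A₀ F π) ^ b)
    (hg₂ : (V c₂).valuation g = (V c₂).valuation (algebraMap A₀ F π) ^ a) :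
    (m : ℤ) ∣ a * Q.ord (ρ ⟨y, tresdn_mem (V c₁) hy₁⟩) -
      b * Q.ord (ρ ⟨g, tresdn_mem (V c₁) hg₁⟩) := by
  haveI := 𝔫.2.1.isPrime
  have hπ0 : algebraMap A₀ F π ≠ 0 := ei_algebraMap_ne_zero (E := E) hπ
  obtain ⟨γ, ε, a₁, b₁, hε, hfac, hγ0, hγ₁, hγ₂, hv₁, hv₂⟩ :=
    rtk6lfc_cross_fac (E := E) hπ V c₁ c₂ hκ hBV hπV hSS1 hU 𝔫 h m hy0 hhor
  obtain ⟨γ', ε', a₂, b₂, hε', hfac', hγ0', hγ₁', hγ₂', hv₁', hv₂'⟩ :=
    rtk6lfc_cross_fac (E := E) hπ V c₁ c₂ hκ hBV hπV hSS1 hU 𝔫 h 0 hg0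
      (fun P hP => by rw [hhor' P hP]; exact dvd_zero _)
  have hb₁ : b₁ = b := tresmf_zpow_inj (V c₂) (hπV c₂) hπ0 (by rw [← hv₂, hy₂])
  have hb₂ : b₂ = a := tresmf_zpow_inj (V c₂) (hπV c₂) hπ0 (by rw [← hv₂', hg₂])
  obtain ⟨h₁, h₂, hX, hY, ⟨w, hw, hXY⟩, hgen⟩ := h
  -- the valuations of `X`, `Y` at `V c₁`
  have hval := rtk6lfp_cross_val (B := ↥(zchClosure (A₀ := A₀) ({u} : Set F))) 𝔫.1 (V c₁)
    (fun b => hBV c₁ _ b.2) (algebraMap A₀ ↥(zchClosure (A₀ := A₀) ({u} : Set F)) π) (hU c₁) hπ0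
    h₁ hw hXY hX
  have hYv : (V c₁).valuation (Y : F) = 1 := hval.1
  have hXlt : (V c₁).valuation (X : F) < 1 := (ValuationSubring.mem_nonunits_iff (V c₁)).mp hX
  have hX0 : (X : F) ≠ 0 := by
    intro hX0
    have hXv := hval.2
    have e : (V c₁).valuation (X : F) = 0 := by rw [hX0, map_zero]
    have e' : (V c₁).valuation (algebraMap A₀ F π) = 0 := by
      rw [← e]; exact hXv.symm
    exact hπ0 ((map_eq_zero _).mp e')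
  -- the node dictionary for `y` and for `g`
  have hfacy : y = (ε : F) * (Y : F) ^ b₁ * (X : F) ^ a₁ * γ ^ m := by rw [hfac]; ring
  have hfacg : g = (ε' : F) * (Y : F) ^ b₂ * (X : F) ^ a₂ * γ' ^ 0 := by rw [hfac']; ring
  obtain ⟨-, hdy⟩ := tresdn_fac (V c₁) ρ Q (atLoc 𝔫) hO ε hε b₁ a₁ hy₁ hYv hXlt hX0
    ⟨0, by rw [hγ₁, zpow_zero]⟩ hfacy
  obtain ⟨-, hdg⟩ := tresdn_fac (V c₁) ρ Q (atLoc 𝔫) hO ε' hε' b₂ a₂ hg₁ hYv hXlt hX0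
    ⟨0, by rw [hγ₁', zpow_zero]⟩ hfacg
  have hg_eq : Q.ord (ρ ⟨g, tresdn_mem (V c₁) hg₁⟩) =
      b₂ * Q.ord (ρ ⟨(Y : F), tresdn_mem (V c₁) hYv⟩) := by
    have := eq_zero_of_zero_dvd (by simpa using hdg)
    linarith
  rw [hg_eq, hb₂]
  rw [hb₁] at hdy
  obtain ⟨z, hz⟩ := hdy
  refine ⟨a * z, ?_⟩
  have : Q.ord (ρ ⟨y, tresdn_mem (V c₁) hy₁⟩) =
      b * Q.ord (ρ ⟨(Y : F), tresdn_mem (V c₁) hYv⟩) + (m : ℤ) * z := by linarith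
  rw [this]
  ring

include E in
/-- **the smooth point, Kummer function**: `m ∣ ord_Q (ρ y)`. -/
theorem tresmf_smooth_y (hπ : Irreducible π) {u : F} [FiniteDimensional E⟮u⟯ F]
    [IsNoetherianRing ↥(zchClosure (A₀ := A₀) ({u} : Set F))]
    (V : κ → ValuationSubring F) (c₁ : κ)
    (hBV : ∀ c (b : F), IsIntegral ↥(Algebra.adjoin A₀ {u}) b → b ∈ V c)
    (hπV : ∀ c, algebraMap A₀ F π ∈ (V c).nonunits)
    (hSS1 : ∀ b : F, IsIntegral ↥(Algebra.adjoin A₀ {u}) b → (∀ c, b ∈ (V c).nonunits) →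
      ∃ b' : F, IsIntegral ↥(Algebra.adjoin A₀ {u}) b' ∧ b = algebraMap A₀ F π * b')
    (hU : ∀ c (x : F), x ∈ (V c).nonunits → ∃ z ∈ V c, x = algebraMap A₀ F π * z)
    (ρ : ↥(V c₁) →+* L) (Q : Place k L) (𝔫 : AtPt (F := F) π u)
    (hO : ∀ x ∈ atLoc 𝔫, ∃ hx : x ∈ V c₁, ρ ⟨x, hx⟩ ∈ Q.toValuationSubring)
    (hthr : atThrough 𝔫 (V c₁)) (hone : ∀ c', atThrough 𝔫 (V c') → c' = c₁)
    {s : ↥(zchClosure (A₀ := A₀) ({u} : Set F))} (hs : s ∈ 𝔫.1)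
    (hgen : NodesLocGen 𝔫.1 {algebraMap A₀ ↥(zchClosure (A₀ := A₀) ({u} : Set F)) π, s})
    {m : ℕ} (hm : 0 < m) {y : F} (hy0 : y ≠ 0)
    (hhor : ∀ P : Place E F, (∀ x ∈ atLoc 𝔫, x ∈ P.toValuationSubring) → (m : ℤ) ∣ P.ord y)
    (hy₁ : (V c₁).valuation y = 1) :
    (m : ℤ) ∣ Q.ord (ρ ⟨y, tresdn_mem (V c₁) hy₁⟩) := by
  have hπ0 : algebraMap A₀ F π ≠ 0 := ei_algebraMap_ne_zero (E := E) hπ
  obtain ⟨γ, ε, a₁, hε, hfac, hγ0, hγ₁, hv₁⟩ :=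
    rtk6lfc_smooth_fac (E := E) hπ V hBV hπV hSS1 hU 𝔫 c₁ hthr hone hs hgen m hy0 hhor
  have ha₁ : a₁ = 0 :=
    tresmf_zpow_inj (V c₁) (hπV c₁) hπ0 (by rw [← hv₁, hy₁, zpow_zero])
  have hF : StbFacAt (atLoc 𝔫) m y := ⟨γ, ε, hε, by rw [hfac, ha₁, zpow_zero, mul_one]⟩
  exact ribmp_rd_fac (V c₁) ρ Q (atLoc 𝔫) hO hm hy₁ hF

include E in
/-- **the smooth point, the unit with cuspidal divisor**: `ord_Q (ρ g) = 0`. -/
theorem tresmf_smooth_g (hπ : Irreducible π) {u : F} [FiniteDimensional E⟮u⟯ F]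
    [IsNoetherianRing ↥(zchClosure (A₀ := A₀) ({u} : Set F))]
    (V : κ → ValuationSubring F) (c₁ : κ)
    (hBV : ∀ c (b : F), IsIntegral ↥(Algebra.adjoin A₀ {u}) b → b ∈ V c)
    (hπV : ∀ c, algebraMap A₀ F π ∈ (V c).nonunits)
    (hSS1 : ∀ b : F, IsIntegral ↥(Algebra.adjoin A₀ {u}) b → (∀ c, b ∈ (V c).nonunits) →
      ∃ b' : F, IsIntegral ↥(Algebra.adjoin A₀ {u}) b' ∧ b = algebraMap A₀ F π * b')
    (hU : ∀ c (x : F), x ∈ (V c).nonunits → ∃ z ∈ V c, x = algebraMap A₀ F π * z)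
    (ρ : ↥(V c₁) →+* L) (Q : Place k L) (𝔫 : AtPt (F := F) π u)
    (hO : ∀ x ∈ atLoc 𝔫, ∃ hx : x ∈ V c₁, ρ ⟨x, hx⟩ ∈ Q.toValuationSubring)
    (hthr : atThrough 𝔫 (V c₁)) (hone : ∀ c', atThrough 𝔫 (V c') → c' = c₁)
    {s : ↥(zchClosure (A₀ := A₀) ({u} : Set F))} (hs : s ∈ 𝔫.1)
    (hgen : NodesLocGen 𝔫.1 {algebraMap A₀ ↥(zchClosure (A₀ := A₀) ({u} : Set F)) π, s})
    {g : F} (hg0 : g ≠ 0)
    (hhor' : ∀ P : Place E F, (∀ x ∈ atLoc 𝔫, x ∈ P.toValuationSubring) → P.ord g = 0)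
    (hg₁ : (V c₁).valuation g = 1) :
    Q.ord (ρ ⟨g, tresdn_mem (V c₁) hg₁⟩) = 0 := by
  have hπ0 : algebraMap A₀ F π ≠ 0 := ei_algebraMap_ne_zero (E := E) hπ
  obtain ⟨γ, ε, a₁, hε, hfac, hγ0, hγ₁, hv₁⟩ :=
    rtk6lfc_smooth_fac (E := E) hπ V hBV hπV hSS1 hU 𝔫 c₁ hthr hone hs hgen 0 hg0
      (fun P hP => by rw [hhor' P hP]; exact dvd_zero _)
  have ha₁ : a₁ = 0 :=
    tresmf_zpow_inj (V c₁) (hπV c₁) hπ0 (by rw [← hv₁, hg₁, zpow_zero])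
  have hgε : g = (ε : F) := by rw [hfac, ha₁, zpow_zero, mul_one, pow_zero, mul_one]
  obtain ⟨hv, hord⟩ := tresdn_unit (V c₁) ρ Q (atLoc 𝔫) hO ε hε
  have e : (⟨g, tresdn_mem (V c₁) hg₁⟩ : ↥(V c₁)) = ⟨(ε : F), tresdn_mem (V c₁) hv⟩ :=
    Subtype.ext hgε
  rw [e]
  exact hord

/-- the centre of the composite of `V` and `Q` lies on the component `V` -/
theorem tresmf_through (V : ValuationSubring F) (ρ : ↥V →+* L)
    (hker : ∀ x : ↥V, (x : F) ∈ V.nonunits → ρ x = 0) (O : ValuationSubring L) {u : F}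
    (𝔫 : AtPt (F := F) π u)
    (h𝔫 : ∀ b : ↥(zchClosure (A₀ := A₀) ({u} : Set F)),
      b ∈ 𝔫.1 ↔ ∃ hb : (b : F) ∈ V, ρ ⟨(b : F), hb⟩ ∈ O.nonunits) :
    atThrough 𝔫 V := by
  intro b hb
  rw [h𝔫]
  have hbV : (b : F) ∈ V := V.nonunits_le hb
  refine ⟨hbV, ?_⟩
  rw [hker ⟨(b : F), hbV⟩ hb, ValuationSubring.mem_nonunits_iff, map_zero]
  exact zero_lt_one

include E in
/-- **ASM-NOCOVER, abstract chart form.**  Thin nodes on the chart `t`, smooth points at the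
cusps: for every place `Q` of the residue function field `L` of `V c₁`,
`m ∣ a · ord_Q (ρ y) − b · ord_Q (ρ g)` off the cusps and `m ∣ ord_Q (ρ y)` at the cusps. -/
theorem tresmf_chart (hπ : Irreducible π) {t : F} [FiniteDimensional E⟮t⟯ F]
    [FiniteDimensional E⟮t⁻¹⟯ F]
    [IsNoetherianRing ↥(zchClosure (A₀ := A₀) ({t} : Set F))]
    [IsNoetherianRing ↥(zchClosure (A₀ := A₀) ({t⁻¹} : Set F))]
    (V : κ → ValuationSubring F) (c₁ c₂ : κ) (hκ : ∀ c, c = c₁ ∨ c = c₂)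
    (hBV : ∀ c (b : F), IsIntegral ↥(Algebra.adjoin A₀ {t}) b → b ∈ V c)
    (hBV' : ∀ c (b : F), IsIntegral ↥(Algebra.adjoin A₀ {t⁻¹}) b → b ∈ V c)
    (hπV : ∀ c, algebraMap A₀ F π ∈ (V c).nonunits)
    (hSS1 : ∀ b : F, IsIntegral ↥(Algebra.adjoin A₀ {t}) b → (∀ c, b ∈ (V c).nonunits) →
      ∃ b' : F, IsIntegral ↥(Algebra.adjoin A₀ {t}) b' ∧ b = algebraMap A₀ F π * b')
    (hSS1' : ∀ b : F, IsIntegral ↥(Algebra.adjoin A₀ {t⁻¹}) b → (∀ c, b ∈ (V c).nonunits) →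
      ∃ b' : F, IsIntegral ↥(Algebra.adjoin A₀ {t⁻¹}) b' ∧ b = algebraMap A₀ F π * b')
    (hU : ∀ c (x : F), x ∈ (V c).nonunits → ∃ z ∈ V c, x = algebraMap A₀ F π * z)
    (hVloc : ∀ c (x : F), x ∈ V c → ∃ b s : F, IsIntegral ↥(Algebra.adjoin A₀ {t}) b ∧
      IsIntegral ↥(Algebra.adjoin A₀ {t}) s ∧ s ∉ (V c).nonunits ∧ s * x = b)
    (hVloc' : ∀ c (x : F), x ∈ V c → ∃ b s : F, IsIntegral ↥(Algebra.adjoin A₀ {t⁻¹}) b ∧
      IsIntegral ↥(Algebra.adjoin A₀ {t⁻¹}) s ∧ s ∉ (V c).nonunits ∧ s * x = b)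
    (hnle : ∀ c c', c ≠ c' → ¬ V c ≤ V c')
    (hthin : ∀ 𝔫 : AtPt (F := F) π t, Rtk6lfThinAt (V c₁) (V c₂) 𝔫)
    (hcusp : ∀ 𝔫 : AtPt (F := F) π t⁻¹,
      (∀ b : ↥(zchClosure (A₀ := A₀) ({t⁻¹} : Set F)), (b : F) = t⁻¹ → b ∈ 𝔫.1) →
      ∃ s : ↥(zchClosure (A₀ := A₀) ({t⁻¹} : Set F)), s ∈ 𝔫.1 ∧
        NodesLocGen 𝔫.1 {algebraMap A₀ ↥(zchClosure (A₀ := A₀) ({t⁻¹} : Set F)) π, s})
    (ρ : ↥(V c₁) →+* L)
    (hker : ∀ x : ↥(V c₁), (x : F) ∈ (V c₁).nonunits → ρ x = 0)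
    (hAV : ∀ a : A₀, algebraMap A₀ F a ∈ V c₁)
    (hρπ : ρ ⟨algebraMap A₀ F π, hAV π⟩ = 0)
    (ht : (V c₁).valuation t = 1)
    (Q : Place k L)
    (hAQ : ∀ a : A₀, ρ ⟨algebraMap A₀ F a, hAV a⟩ ∈ Q.toValuationSubring)
    (hfin : ∀ x ∈ Q.toValuationSubring, x ∉ Q.toValuationSubring.nonunits →
      ∃ n : ℕ, 0 < n ∧ x ^ n - 1 ∈ Q.toValuationSubring.nonunits)
    {m : ℕ} (hm : 0 < m) {y g : F} (hy0 : y ≠ 0) (hg0 : g ≠ 0)
    (hhor : ∀ P : Place E F, (m : ℤ) ∣ P.ord y)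
    (hhor' : ∀ P : Place E F, 0 ≤ P.ord t → P.ord g = 0)
    (hy₁ : (V c₁).valuation y = 1) (hg₁ : (V c₁).valuation g = 1) (a b : ℤ)
    (hy₂ : (V c₂).valuation y = (V c₂).valuation (algebraMap A₀ F π) ^ b)
    (hg₂ : (V c₂).valuation g = (V c₂).valuation (algebraMap A₀ F π) ^ a) :
    (ρ ⟨t, tresdn_mem (V c₁) ht⟩ ∈ Q.toValuationSubring →
      (m : ℤ) ∣ a * Q.ord (ρ ⟨y, tresdn_mem (V c₁) hy₁⟩) -
        b * Q.ord (ρ ⟨g, tresdn_mem (V c₁) hg₁⟩)) ∧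
    (ρ ⟨t, tresdn_mem (V c₁) ht⟩ ∉ Q.toValuationSubring →
      (m : ℤ) ∣ Q.ord (ρ ⟨y, tresdn_mem (V c₁) hy₁⟩)) := by
  obtain ⟨hin, hout⟩ := tresdn_centre (π := π) (V c₁) ρ hker hAV hρπ ht Q hAQ hfin
  constructor
  · intro htQ
    obtain ⟨𝔫, hO, h𝔫⟩ := hin htQ
    have hthr : atThrough 𝔫 (V c₁) :=
      tresmf_through (V c₁) ρ hker Q.toValuationSubring 𝔫 h𝔫
    -- places centred at `𝔫` are not cusps
    have htO : t ∈ atLoc 𝔫 := by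
      haveI := 𝔫.2.1.isPrime
      refine ⟨⟨t, mem_zchClosure.mpr ?_⟩, 1, ?_, ?_⟩
      · exact isIntegral_algebraMap (R := ↥(Algebra.adjoin A₀ ({t} : Set F)))
          (x := ⟨t, Algebra.subset_adjoin (Set.mem_singleton t)⟩)
      · exact fun h1 => 𝔫.2.1.ne_top ((Ideal.eq_top_iff_one _).mpr h1)
      · simp
    have hhorg : ∀ P : Place E F, (∀ x ∈ atLoc 𝔫, x ∈ P.toValuationSubring) → P.ord g = 0 :=
      fun P hP => hhor' P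
        ((Fermat.Agent.S24.PlaceAux.ord_nonneg_iff P (tresdn_ne_zero (V c₁) ht)).mpr (hP t htO))
    rcases hthin 𝔫 with ⟨s, hs, hgen⟩ | ⟨X, Y, hXY⟩
    · obtain ⟨c, hc, hone⟩ := stb_sx_exists_unique V hBV hπV hSS1 hVloc hnle 𝔫 s hs hgen
      have hc₁ : c₁ = c := hone c₁ hthr
      subst hc₁
      have h1 := tresmf_smooth_y (E := E) hπ V c₁ hBV hπV hSS1 hU ρ Q 𝔫 hO hthr hone hs hgen
        hm hy0 (fun P _ => hhor P) hy₁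
      have h2 := tresmf_smooth_g (E := E) hπ V c₁ hBV hπV hSS1 hU ρ Q 𝔫 hO hthr hone hs hgen
        hg0 hhorg hg₁
      rw [h2, mul_zero, sub_zero]
      exact Dvd.dvd.mul_left h1 a
    · exact tresmf_cross (E := E) hπ V c₁ c₂ hκ hBV hπV hSS1 hU ρ Q 𝔫 hO hXY m hy0 hg0
        (fun P _ => hhor P) hhorg hy₁ hg₁ a b hy₂ hg₂
  · intro htQ
    obtain ⟨𝔫, hO, h𝔫, hcu⟩ := hout htQ
    have hthr : atThrough 𝔫 (V c₁) :=
      tresmf_through (V c₁) ρ hker Q.toValuationSubring 𝔫 h𝔫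
    obtain ⟨s, hs, hgen⟩ := hcusp 𝔫 hcu
    obtain ⟨c, hc, hone⟩ := stb_sx_exists_unique V hBV' hπV hSS1' hVloc' hnle 𝔫 s hs hgen
    have hc₁ : c₁ = c := hone c₁ hthr
    subst hc₁
    exact tresmf_smooth_y (E := E) hπ V c₁ hBV' hπV hSS1' hU ρ Q 𝔫 hO hthr hone hs hgen
      hm hy0 (fun P _ => hhor P) hy₁

end Pt

end Fermat.Agent.R38
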