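/-
ROW 38, TRES, ASM-NOCOVER, LEAF C (helper16): NORMALISATION AT `V_∞`.

Frame = `RIB/MP/RedA.lean`, section Main: level `M₁ q`, `q ∤ M₁`, `A` a valuation subring of `ℚ̄`,
`K₀ ⊆ ℚ̄` with `A₀ = beta0Ring A K₀` a DVR with uniformizer `π`, `F = F_{M₁ q}(K₀)`,
`V_∞ = mgvV hπ ιC hq hqM true`.

* `tresmfn_normalise` : every `u₀ ≠ 0` of `F` is `u₀ = ϖ ^ n · y₀` with `ϖ = π` (a constant) and
  `y₀` a unit of `V_∞`; over `ℚ̄`: `u₀ = C c · y₀` with `c ≠ 0` a constant, and `y₀`, `u₀` have the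
  same order at every place of `F_{M₁ q}(ℚ̄) / ℚ̄`.
* `tresmfn_normalise'` : the same, keeping `n` and the formulas `y₀ = u₀ / ϖ ^ n`, `c = π ^ n`.
-/
import Fermat.Agent.RT.K6.DLFConc
import Fermat.Agent.ES.G2.Unram
import Fermat.Agent.INJ.NFEmb

set_option autoImplicit false
set_option linter.unusedSectionVars false
set_option linter.unusedVariables false
set_option linter.style.haveILetI false
set_option linter.style.longLine false
set_option synthInstance.maxHeartbeats 400000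
set_option maxHeartbeats 1600000

noncomputable section

namespace Fermat.Agent.R38

open ModularCurve AlgebraicCurve Fermat.Agent.ES Fermat.Agent.ES.G2 Fermat.Agent.INJ
open Fermat.Agent.UNIP Fermat.Agent.STB Fermat.Agent.RIB.MP Fermat.Agent.RT.K6

section Main

variable {M₁ q : ℕ} [NeZero M₁] [NeZero q] [NeZero (M₁ * q)] (hq : q.Prime) (hqM : ¬ q ∣ M₁)
  {A : ValuationSubring Qb} {K₀ : IntermediateField ℚ Qb}
  [IsDiscreteValuationRing ↥(beta0Ring A K₀)]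
  {π : ↥(beta0Ring A K₀)} (hπ : Irreducible π) (ιC : ↥K₀ →+* ℂ)

/-- **Normalisation at `V_∞`**, explicit form: `y₀ = u₀ / ϖ ^ n` is a unit of `V_∞`, and over
`ℚ̄` the function `u₀` is the constant `π ^ n` times `y₀`. -/
theorem tresmfn_normalise' (u₀ : ↥(modularFunctionFieldFullC ↥K₀ (M₁ * q))) (hu₀ : u₀ ≠ 0) :
    ∃ n : ℤ,
      u₀ / (algebraMap ↥(beta0Ring A K₀) ↥(modularFunctionFieldFullC ↥K₀ (M₁ * q)) π) ^ n ≠ 0 ∧
      (mgvV hπ ιC hq hqM true).valuation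
        (u₀ / (algebraMap ↥(beta0Ring A K₀) ↥(modularFunctionFieldFullC ↥K₀ (M₁ * q)) π) ^ n)
          = 1 ∧
      ((algebraMap ↥K₀ Qb (algebraMap ↥(beta0Ring A K₀) ↥K₀ π)) ^ n ≠ 0) ∧
      ((nfEmb K₀ (M₁ * q) u₀ : modularFunctionFieldBar (M₁ * q)) : LaurentSeries Qb) =
        HahnSeries.C ((algebraMap ↥K₀ Qb (algebraMap ↥(beta0Ring A K₀) ↥K₀ π)) ^ n) *
          ((nfEmb K₀ (M₁ * q)
            (u₀ / (algebraMap ↥(beta0Ring A K₀) ↥(modularFunctionFieldFullC ↥K₀ (M₁ * q)) π) ^ n) :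
            modularFunctionFieldBar (M₁ * q)) : LaurentSeries Qb) ∧
      ∀ P : Place Qb (modularFunctionFieldBar (M₁ * q)),
        P.ord (nfEmb K₀ (M₁ * q)
          (u₀ / (algebraMap ↥(beta0Ring A K₀) ↥(modularFunctionFieldFullC ↥K₀ (M₁ * q)) π) ^ n))
          = P.ord (nfEmb K₀ (M₁ * q) u₀) := by
  obtain ⟨n, hn⟩ := rtk6lfb_val_zpow_J hπ ιC hq hqM true hu₀
  set ϖ : ↥(modularFunctionFieldFullC ↥K₀ (M₁ * q)) :=
    algebraMap ↥(beta0Ring A K₀) ↥(modularFunctionFieldFullC ↥K₀ (M₁ * q)) π with hϖ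
  have hπ0 : π ≠ 0 := hπ.ne_zero
  have hπK : algebraMap ↥(beta0Ring A K₀) ↥K₀ π ≠ 0 := by
    intro h
    exact hπ0 ((IsFractionRing.injective ↥(beta0Ring A K₀) ↥K₀) (by rw [h, map_zero]))
  have hϖK : ϖ = algebraMap ↥K₀ ↥(modularFunctionFieldFullC ↥K₀ (M₁ * q))
      (algebraMap ↥(beta0Ring A K₀) ↥K₀ π) := by
    rw [hϖ]
    exact IsScalarTower.algebraMap_apply _ _ _ _
  have hϖ0 : ϖ ≠ 0 := by
    rw [hϖK]
    intro h
    exact hπK ((algebraMap ↥K₀ ↥(modularFunctionFieldFullC ↥K₀ (M₁ * q))).injective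
      (by rw [h, map_zero]))
  have hcQ : algebraMap ↥K₀ Qb (algebraMap ↥(beta0Ring A K₀) ↥K₀ π) ≠ 0 := by
    intro h
    exact hπK ((algebraMap ↥K₀ Qb).injective (by rw [h, map_zero]))
  have hy0 : u₀ / ϖ ^ n ≠ 0 := div_ne_zero hu₀ (zpow_ne_zero n hϖ0)
  have hemb : nfEmb K₀ (M₁ * q) ϖ = algebraMap Qb (modularFunctionFieldBar (M₁ * q))
      (algebraMap ↥K₀ Qb (algebraMap ↥(beta0Ring A K₀) ↥K₀ π)) := by
    rw [hϖK]
    exact nfEmb_algebraMap (K₀ := K₀) (N := M₁ * q) _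
  have hmul : nfEmb K₀ (M₁ * q) u₀ =
      algebraMap Qb (modularFunctionFieldBar (M₁ * q))
        ((algebraMap ↥K₀ Qb (algebraMap ↥(beta0Ring A K₀) ↥K₀ π)) ^ n) *
      nfEmb K₀ (M₁ * q) (u₀ / ϖ ^ n) := by
    rw [map_zpow₀, ← hemb, ← map_zpow₀, ← map_mul]
    congr 1
    field_simp
  refine ⟨n, hy0, ?_, zpow_ne_zero n hcQ, ?_, fun P => ?_⟩
  · rw [map_div₀, map_zpow₀, hn]
    refine div_self (zpow_ne_zero n ?_)
    exact (Valuation.ne_zero_iff _).2 hϖ0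
  · rw [hmul]
    show (algebraMap Qb (LaurentSeries Qb)
        ((algebraMap ↥K₀ Qb (algebraMap ↥(beta0Ring A K₀) ↥K₀ π)) ^ n) : LaurentSeries Qb) *
      ((nfEmb K₀ (M₁ * q) (u₀ / ϖ ^ n) : modularFunctionFieldBar (M₁ * q)) : LaurentSeries Qb) = _
    rw [algebraMap_laurentSeries_eq_single]
    rfl
  · have hu0' : nfEmb K₀ (M₁ * q) (u₀ / ϖ ^ n) ≠ 0 := by
      intro h
      exact hy0 ((nfEmb_injective (K₀ := K₀) (N := M₁ * q)) (by rw [h, map_zero]))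
    have hc0' : algebraMap Qb (modularFunctionFieldBar (M₁ * q))
        ((algebraMap ↥K₀ Qb (algebraMap ↥(beta0Ring A K₀) ↥K₀ π)) ^ n) ≠ 0 := by
      intro h
      exact zpow_ne_zero n hcQ
        ((algebraMap Qb (modularFunctionFieldBar (M₁ * q))).injective (by rw [h, map_zero]))
    rw [hmul, P.ord_mul hc0' hu0', unram_ord_algebraMap P (zpow_ne_zero n hcQ), zero_add]

/-- **LEAF C: normalisation at `V_∞`** (shape of helper47's ASM-NOCOVER note). -/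
theorem tresmfn_normalise (u₀ : ↥(modularFunctionFieldFullC ↥K₀ (M₁ * q))) (hu₀ : u₀ ≠ 0) :
    ∃ (y₀ : ↥(modularFunctionFieldFullC ↥K₀ (M₁ * q))) (c : Qb), c ≠ 0 ∧ y₀ ≠ 0 ∧
      (mgvV hπ ιC hq hqM true).valuation y₀ = 1 ∧
      ((nfEmb K₀ (M₁ * q) u₀ : modularFunctionFieldBar (M₁ * q)) : LaurentSeries Qb) =
        HahnSeries.C c *
          ((nfEmb K₀ (M₁ * q) y₀ : modularFunctionFieldBar (M₁ * q)) : LaurentSeries Qb) ∧
      ∀ P : Place Qb (modularFunctionFieldBar (M₁ * q)),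
        P.ord (nfEmb K₀ (M₁ * q) y₀) = P.ord (nfEmb K₀ (M₁ * q) u₀) := by
  obtain ⟨n, h0, h1, hc, h2, h3⟩ := tresmfn_normalise' hq hqM hπ ιC u₀ hu₀
  exact ⟨_, _, hc, h0, h1, h2, h3⟩

end Main

end Fermat.Agent.R38
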