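import Fermat.Agent.S33.WildUnit
import Fermat.Agent.RT.K6.DLFChart

/-!
# Row 38, PKG-TRES, MONO, piece FAC-OGG (helper10): the Ogg unit on `X₀(M p)` over `K₀`

Frame of `RIB/MP/FacConc.lean` (= frame of FAC-LOC / FAC-XK; that file is NOT imported here): `A` a valuation subring of `ℚ̄` over
`q`, `K₀ ⊆ ℚ̄` with `A′ = A ∩ K₀ = beta0Ring A K₀` a discrete valuation ring, uniformizer `π`,
`F = F_{Mq}(K₀) = modularFunctionFieldFullC ↥K₀ (M * q)`, `q ∤ M`, `V = mgvV hπ ιC hq hqM`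
(`true ↦ V_∞`, `false ↦ V_0`), charts `j = bgJ ↥K₀ (M * q)`, closed points `𝔫 : AtPt π j`.

The Ogg unit is `h = S36.s36tuV ↥K₀ ιC` (`Q`-expansion `Δ(Q)/Δ(Q^q) = S28.uInvS ↥K₀ q`), its
companion is `U = S36.s36tuU ↥K₀ ιC = q¹² Δ(Q^q)/Δ(Q)`, `U h = q¹²` (`S33/WildUnit.lean`).

* `tres5o_ord_eq_zero_of_mul` (abstract): `U V = c ∈ K^×`, `U, V` regular at `P` ⇒ `ord_P V = 0`;
* `tres5o_val_true`    : `v_∞(h) = 1`;
* `tres5o_val_false`   : `v_0(h) = v_0(q) ^ 12`;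
* `tres5o_val_false_pi`: `v_0(h) = v_0(π) ^ (12 e)` when `q ∼ π ^ e` (`e = 1` over `ℚ̄^I`);
* `tres5o_mem_chart`, `tres5o_mem_atLoc` : `h, U ∈ B_j ⊆ (B_j)_𝔫`;
* `tres5o_ord_eq_zero` : `ord_P h = 0` at every place `P` of `F / K₀` with `0 ≤ ord_P j`;
* `tres5o_hhor`        : the hypothesis `hhor` of `RT.K6.rtk6lfc_cross_fac` / `_smooth_fac` for
  `y = h`, `m = 0`, at every closed point of the chart `j`;
* `tres5o_cross_fac_of`   : **the node formula** `h = ε · Y ^ (12 e)` at a thin crossing point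
  (`X ∈ 𝔪(V_∞)`, `Y ∈ 𝔪(V_0)`, `w π = X Y`), `ε` a unit of `(B_j)_𝔫`; hypotheses (SS1), (U)
  in the shape of `RT.K6.rtk6lfc_cross_fac` (concrete: `RIB.MP.ribmp_fc_hSS1`, `ribmp_fc_hU`);
* `tres5o_cross_fac_of'`  : the same with the other orientation (`X ∈ 𝔪(V_0)`): `h = ε · X ^ (12 e)`;
* `tres5o_smooth_unit_of` : `h` is a unit of `(B_j)_𝔫` at a smooth point on the component `V_∞`;
* `tres5o_smooth_fac_of`  : `h = ε · π ^ (12 e)` at a smooth point on the component `V_0`.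
The concrete forms (`K₀ ⊇ ℚ̄^I`) are in `R38/TresOggConc.lean`.
-/

set_option autoImplicit false
set_option linter.unusedSectionVars false
set_option linter.unusedVariables false
set_option linter.style.haveILetI false
set_option linter.style.longLine false

noncomputable section

namespace Fermat.Agent.R38

open ModularCurve AlgebraicCurve IntermediateField Fermat.Agent.INJ Fermat.Agent.UNIP
  Fermat.Agent.STB Fermat.Agent.S36 Fermat.Agent.S33 Fermat.Agent.S28 Fermat.Agent.RIB.MP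
  Fermat.Agent.RT.K6 Fermat.Agent.AL Fermat.Agent.ES Fermat.Agent.ES.G2 Fermat.Agent.S24

section Abs

variable {K F : Type*} [Field K] [Field F] [Algebra K F]

/-- two functions regular at a place whose product is a nonzero constant are units there -/
theorem tres5o_ord_eq_zero_of_mul (P : Place K F) {U V : F}
    (hU : U ∈ P.toValuationSubring) (hV : V ∈ P.toValuationSubring) {c : K} (hc : c ≠ 0)
    (h : U * V = algebraMap K F c) : P.ord V = 0 := by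
  have hc0 : algebraMap K F c ≠ 0 := by simpa using hc
  have hU0 : U ≠ 0 := fun h0 => hc0 (by rw [← h, h0, zero_mul])
  have hV0 : V ≠ 0 := fun h0 => hc0 (by rw [← h, h0, mul_zero])
  have h1 : 0 ≤ P.ord U := (PlaceAux.ord_nonneg_iff P hU0).mpr hU
  have h2 : 0 ≤ P.ord V := (PlaceAux.ord_nonneg_iff P hV0).mpr hV
  have h3 : P.ord U + P.ord V = 0 := by
    rw [← P.ord_mul hU0 hV0, h, PlaceAux.ord_algebraMap]
  omega

/-- in a valuation ring, `n ↦ v(p)ⁿ` is injective for `p ≠ 0` in the maximal ideal -/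
theorem tres5o_zpow_inj (V : ValuationSubring F) {p : F} (hp : p ∈ V.nonunits) (hp0 : p ≠ 0)
    {a b : ℤ} (h : V.valuation p ^ a = V.valuation p ^ b) : a = b := by
  have hv0 : V.valuation p ≠ 0 := (Valuation.ne_zero_iff _).2 hp0
  have h1 : V.valuation p ^ (a - b) = 1 := by
    rw [zpow_sub₀ hv0, h, div_self (zpow_ne_zero _ hv0)]
  have h2 := rtk6lfp_zpow_eq_one V hp hp0 h1
  omega

end Abs

section Mgv

variable {A : ValuationSubring Qb} {K₀ : IntermediateField ℚ Qb}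
  [IsDiscreteValuationRing ↥(beta0Ring A K₀)] {π : ↥(beta0Ring A K₀)} (hπ : Irreducible π)
  (ιC : ↥K₀ →+* ℂ) {q M : ℕ} [NeZero q] [NeZero M] [NeZero (M * q)]
  (hq : q.Prime) (hqM : ¬ q ∣ M)

/-- `v_∞(h) = 1` -/
theorem tres5o_val_true (hA : A.LiesOverPrime q) :
    (mgvV hπ ιC hq hqM true).valuation (s36tuV ↥K₀ ιC) = 1 :=
  wun_mgv_V_valuation_true hπ ιC hq hqM hA

/-- `v_0(h) = v_0(q) ^ 12` -/
theorem tres5o_val_false (hA : A.LiesOverPrime q) :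
    (mgvV hπ ιC hq hqM false).valuation (s36tuV ↥K₀ ιC) =
      (mgvV hπ ιC hq hqM false).valuation
        (algebraMap ↥(beta0Ring A K₀) ↥(modularFunctionFieldFullC ↥K₀ (M * q))
          ((q : ℕ) : ↥(beta0Ring A K₀))) ^ 12 := by
  have h1 := wun_mgv_U_valuation_false hπ ιC hq hqM hA
  have h2 := congrArg (mgvV hπ ιC hq hqM false).valuation
    (wun_mgv_U_mul_V (A := A) (K₀ := K₀) (M := M) (q := q) ιC)
  rw [map_mul, h1, one_mul, map_pow] at h2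
  exact h2

/-- a unit of `A′` is a unit of `V c` -/
theorem tres5o_val_const_unit (c : Bool) {u : ↥(beta0Ring A K₀)} (hu : IsUnit u) :
    (mgvV hπ ιC hq hqM c).valuation
      (algebraMap ↥(beta0Ring A K₀) ↥(modularFunctionFieldFullC ↥K₀ (M * q)) u) = 1 := by
  have hmem : ∀ a : ↥(beta0Ring A K₀),
      algebraMap ↥(beta0Ring A K₀) ↥(modularFunctionFieldFullC ↥K₀ (M * q)) a ∈
        mgvV hπ ιC hq hqM c := fun a => by
    refine mgv_hBV₁ hπ ιC hq hqM c _ ?_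
    rw [IsScalarTower.algebraMap_apply ↥(beta0Ring A K₀)
      ↥(Algebra.adjoin ↥(beta0Ring A K₀)
        ({bgJ ↥K₀ (M * q)} : Set ↥(modularFunctionFieldFullC ↥K₀ (M * q))))
      ↥(modularFunctionFieldFullC ↥K₀ (M * q))]
    exact isIntegral_algebraMap
  obtain ⟨v, rfl⟩ := hu
  have h1 : (1 : ↥(modularFunctionFieldFullC ↥K₀ (M * q))) =
      algebraMap ↥(beta0Ring A K₀) ↥(modularFunctionFieldFullC ↥K₀ (M * q))
        (v : ↥(beta0Ring A K₀)) *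
      algebraMap ↥(beta0Ring A K₀) ↥(modularFunctionFieldFullC ↥K₀ (M * q))
        ((v⁻¹ : (↥(beta0Ring A K₀))ˣ) : ↥(beta0Ring A K₀)) := by
    rw [← map_mul, Units.mul_inv, map_one]
  exact (rtk6lfp_val_eq_one_of_mul (mgvV hπ ιC hq hqM c) (hmem _) (hmem _)
    (map_one _) h1).1

/-- `v_0(h) = v_0(π) ^ (12 e)` when `q ∼ π ^ e` -/
theorem tres5o_val_false_pi (hA : A.LiesOverPrime q) {e : ℕ}
    (hqπ : Associated ((q : ℕ) : ↥(beta0Ring A K₀)) (π ^ e)) :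
    (mgvV hπ ιC hq hqM false).valuation (s36tuV ↥K₀ ιC) =
      (mgvV hπ ιC hq hqM false).valuation
        (algebraMap ↥(beta0Ring A K₀) ↥(modularFunctionFieldFullC ↥K₀ (M * q)) π) ^ (12 * e) := by
  rw [tres5o_val_false hπ ιC hq hqM hA]
  obtain ⟨u, hu⟩ := hqπ
  have h1 := congrArg (fun a => (mgvV hπ ιC hq hqM false).valuation
    (algebraMap ↥(beta0Ring A K₀) ↥(modularFunctionFieldFullC ↥K₀ (M * q)) a)) hu
  simp only [map_mul, map_pow] at h1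
  rw [tres5o_val_const_unit hπ ιC hq hqM false u.isUnit, mul_one] at h1
  rw [h1, ← pow_mul, mul_comm e 12]

/-! ### the chart `j` -/

omit [IsDiscreteValuationRing ↥(beta0Ring A K₀)] in
include hq in
/-- `h` lies in the chart `B_j` -/
theorem tres5o_V_mem_chart :
    s36tuV ↥K₀ ιC (q := q) (M := M) ∈ zchClosure (A₀ := ↥(beta0Ring A K₀))
      ({bgJ ↥K₀ (M * q)} : Set ↥(modularFunctionFieldFullC ↥K₀ (M * q))) :=
  wun_mgv_isIntegral_V (A := A) (K₀ := K₀) (M := M) ιC hq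

omit [IsDiscreteValuationRing ↥(beta0Ring A K₀)] in
include hq in
/-- `U` lies in the chart `B_j` -/
theorem tres5o_U_mem_chart :
    s36tuU ↥K₀ ιC (q := q) (M := M) ∈ zchClosure (A₀ := ↥(beta0Ring A K₀))
      ({bgJ ↥K₀ (M * q)} : Set ↥(modularFunctionFieldFullC ↥K₀ (M * q))) :=
  wun_mgv_isIntegral_U (A := A) (K₀ := K₀) (M := M) ιC hq

/-- `U h = q¹²`, as a constant of `K₀` -/
theorem tres5o_U_mul_V (K₀ : IntermediateField ℚ Qb) (ιC : ↥K₀ →+* ℂ) {q M : ℕ} [NeZero q]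
    [NeZero M] [NeZero (M * q)] :
    s36tuU ↥K₀ ιC (q := q) (M := M) * s36tuV ↥K₀ ιC =
      algebraMap ↥K₀ ↥(modularFunctionFieldFullC ↥K₀ (M * q)) ((q : ↥K₀) ^ 12) :=
  s36tuU_mul_V ↥K₀ ιC

/-- `h U = q¹²` -/
theorem tres5o_V_mul_U (K₀ : IntermediateField ℚ Qb) (ιC : ↥K₀ →+* ℂ) {q M : ℕ} [NeZero q]
    [NeZero M] [NeZero (M * q)] :
    s36tuV ↥K₀ ιC (q := q) (M := M) * s36tuU ↥K₀ ιC =
      algebraMap ↥K₀ ↥(modularFunctionFieldFullC ↥K₀ (M * q)) ((q : ↥K₀) ^ 12) :=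
  (mul_comm _ _).trans (s36tuU_mul_V ↥K₀ ιC)

/-- **`ord_P h = 0`** at every place `P` of `F / K₀` at which `U` and `h` are regular. -/
theorem tres5o_ord_eq_zero_of_mem (K₀ : IntermediateField ℚ Qb) (ιC : ↥K₀ →+* ℂ) {q M : ℕ}
    [NeZero q] [NeZero M] [NeZero (M * q)]
    (P : Place ↥K₀ ↥(modularFunctionFieldFullC ↥K₀ (M * q)))
    (hU : s36tuU ↥K₀ ιC (q := q) (M := M) ∈ P.toValuationSubring)
    (hV : s36tuV ↥K₀ ιC (q := q) (M := M) ∈ P.toValuationSubring) :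
    P.ord (s36tuV ↥K₀ ιC (q := q) (M := M)) = 0 :=
  tres5o_ord_eq_zero_of_mul P hU hV (s36tu_q_ne_zero ↥K₀ (q := q)) (tres5o_U_mul_V K₀ ιC)

/-- a place of `F / K₀` at which `j` is regular contains `K₀[j]` -/
theorem tres5o_adjoin_le_place (K₀ : IntermediateField ℚ Qb) {q M : ℕ}
    [NeZero q] [NeZero M] [NeZero (M * q)]
    (P : Place ↥K₀ ↥(modularFunctionFieldFullC ↥K₀ (M * q)))
    (hj : bgJ ↥K₀ (M * q) ∈ P.toValuationSubring) :
    ∀ x ∈ Algebra.adjoin ↥K₀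
      ({bgJ ↥K₀ (M * q)} : Set ↥(modularFunctionFieldFullC ↥K₀ (M * q))),
      x ∈ P.toValuationSubring := by
  intro x hx
  induction hx using Algebra.adjoin_induction with
  | mem x hx =>
    rw [Set.mem_singleton_iff] at hx
    rw [hx]
    exact hj
  | algebraMap a => exact P.algebraMap_mem' _
  | add x y _ _ hx hy => exact add_mem hx hy
  | mul x y _ _ hx hy => exact mul_mem hx hy

/-- **`ord_P h = 0`** at every place `P` of `F / K₀` with `0 ≤ ord_P j` (the divisor of the Ogg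
unit is cuspidal). -/
theorem tres5o_ord_eq_zero (K₀ : IntermediateField ℚ Qb) (ιC : ↥K₀ →+* ℂ) {q M : ℕ}
    [NeZero q] [NeZero M] [NeZero (M * q)] (hq : q.Prime)
    (P : Place ↥K₀ ↥(modularFunctionFieldFullC ↥K₀ (M * q)))
    (hj : 0 ≤ P.ord (bgJ ↥K₀ (M * q))) :
    P.ord (s36tuV ↥K₀ ιC (q := q) (M := M)) = 0 := by
  have hj' : bgJ ↥K₀ (M * q) ∈ P.toValuationSubring := PlaceAux.mem_of_ord_nonneg P hj
  haveI : IsScalarTower ↥K₀ ↥K₀ ↥(modularFunctionFieldFullC ↥K₀ (M * q)) := IsScalarTower.left _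
  have hU : IsIntegral ↥(Algebra.adjoin ↥K₀
      ({bgJ ↥K₀ (M * q)} : Set ↥(modularFunctionFieldFullC ↥K₀ (M * q))))
      (s36tuU ↥K₀ ιC (q := q) (M := M)) :=
    s36tu_isIntegral_U (A := ↥K₀) (E := ↥K₀) (M := M) ιC hq
  have hV : IsIntegral ↥(Algebra.adjoin ↥K₀
      ({bgJ ↥K₀ (M * q)} : Set ↥(modularFunctionFieldFullC ↥K₀ (M * q))))
      (s36tuV ↥K₀ ιC (q := q) (M := M)) :=
    s36tu_isIntegral_V (A := ↥K₀) (E := ↥K₀) (M := M) ιC hq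
  exact tres5o_ord_eq_zero_of_mem K₀ ιC P
    (crossing_mem_of_isIntegral P.toValuationSubring _ (tres5o_adjoin_le_place K₀ P hj') hU)
    (crossing_mem_of_isIntegral P.toValuationSubring _ (tres5o_adjoin_le_place K₀ P hj') hV)

/-- the same for `U` -/
theorem tres5o_ord_U_eq_zero (K₀ : IntermediateField ℚ Qb) (ιC : ↥K₀ →+* ℂ) {q M : ℕ}
    [NeZero q] [NeZero M] [NeZero (M * q)] (hq : q.Prime)
    (P : Place ↥K₀ ↥(modularFunctionFieldFullC ↥K₀ (M * q)))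
    (hj : 0 ≤ P.ord (bgJ ↥K₀ (M * q))) :
    P.ord (s36tuU ↥K₀ ιC (q := q) (M := M)) = 0 := by
  have h1 := tres5o_ord_eq_zero K₀ ιC hq P hj
  have h2 := congrArg P.ord (tres5o_U_mul_V K₀ ιC (q := q) (M := M))
  rw [P.ord_mul (s36tuU_ne_zero ↥K₀ ιC) (s36tuV_ne_zero ↥K₀ ιC), h1,
    PlaceAux.ord_algebraMap, add_zero] at h2
  exact h2

omit [IsDiscreteValuationRing ↥(beta0Ring A K₀)] in
/-- elements of the chart lie in the local rings of its closed points -/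
theorem tres5o_chart_mem_atLoc [IsDiscreteValuationRing ↥(beta0Ring A K₀)]
    {u : ↥(modularFunctionFieldFullC ↥K₀ (M * q))}
    (𝔫 : AtPt (F := ↥(modularFunctionFieldFullC ↥K₀ (M * q))) π u)
    {x : ↥(modularFunctionFieldFullC ↥K₀ (M * q))}
    (hx : x ∈ zchClosure (A₀ := ↥(beta0Ring A K₀))
      ({u} : Set ↥(modularFunctionFieldFullC ↥K₀ (M * q)))) : x ∈ atLoc 𝔫 := by
  haveI := 𝔫.2.1.isPrime
  exact ls_algebraMap_mem (F := ↥(modularFunctionFieldFullC ↥K₀ (M * q))) 𝔫.1 ⟨x, hx⟩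

include hq in
/-- **`hhor` for the Ogg unit**, `m = 0`, at every closed point of the chart `j`. -/
theorem tres5o_hhor
    (𝔫 : AtPt (F := ↥(modularFunctionFieldFullC ↥K₀ (M * q))) π (bgJ ↥K₀ (M * q)))
    (P : Place ↥K₀ ↥(modularFunctionFieldFullC ↥K₀ (M * q)))
    (hP : ∀ x ∈ atLoc 𝔫, x ∈ P.toValuationSubring) :
    ((0 : ℕ) : ℤ) ∣ P.ord (s36tuV ↥K₀ ιC (q := q) (M := M)) := by
  rw [tres5o_ord_eq_zero_of_mem K₀ ιC P
    (hP _ (tres5o_chart_mem_atLoc 𝔫 (tres5o_U_mem_chart (A := A) ιC hq)))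
    (hP _ (tres5o_chart_mem_atLoc 𝔫 (tres5o_V_mem_chart (A := A) ιC hq)))]
  exact dvd_zero _

/-! ### the node formula -/

/-- **The node formula for the Ogg unit** at a thin crossing point of the chart `j`
(`X ∈ 𝔪(V_∞)`, `Y ∈ 𝔪(V_0)`): `h = ε · Y ^ (12 e)`, from (LF) with `m = 0`. -/
theorem tres5o_cross_fac_of (hA : A.LiesOverPrime q)
    [FiniteDimensional (↥K₀)⟮bgJ ↥K₀ (M * q)⟯ ↥(modularFunctionFieldFullC ↥K₀ (M * q))]
    [IsNoetherianRing ↥(zchClosure (A₀ := ↥(beta0Ring A K₀))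
      ({bgJ ↥K₀ (M * q)} : Set ↥(modularFunctionFieldFullC ↥K₀ (M * q))))]
    (hSS1 : ∀ b : ↥(modularFunctionFieldFullC ↥K₀ (M * q)),
      IsIntegral ↥(Algebra.adjoin ↥(beta0Ring A K₀)
        ({bgJ ↥K₀ (M * q)} : Set ↥(modularFunctionFieldFullC ↥K₀ (M * q)))) b →
      (∀ c, b ∈ (mgvV hπ ιC hq hqM c).nonunits) →
      ∃ b' : ↥(modularFunctionFieldFullC ↥K₀ (M * q)),
        IsIntegral ↥(Algebra.adjoin ↥(beta0Ring A K₀)
          ({bgJ ↥K₀ (M * q)} : Set ↥(modularFunctionFieldFullC ↥K₀ (M * q)))) b' ∧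
        b = algebraMap ↥(beta0Ring A K₀) ↥(modularFunctionFieldFullC ↥K₀ (M * q)) π * b')
    (hU : ∀ c (x : ↥(modularFunctionFieldFullC ↥K₀ (M * q))),
      x ∈ (mgvV hπ ιC hq hqM c).nonunits → ∃ z ∈ mgvV hπ ιC hq hqM c,
        x = algebraMap ↥(beta0Ring A K₀) ↥(modularFunctionFieldFullC ↥K₀ (M * q)) π * z)
    {e : ℕ} (hqπ : Associated ((q : ℕ) : ↥(beta0Ring A K₀)) (π ^ e))
    (𝔫 : AtPt (F := ↥(modularFunctionFieldFullC ↥K₀ (M * q))) π (bgJ ↥K₀ (M * q)))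
    {X Y : ↥(zchClosure (A₀ := ↥(beta0Ring A K₀))
      ({bgJ ↥K₀ (M * q)} : Set ↥(modularFunctionFieldFullC ↥K₀ (M * q))))}
    (h : Rtk6lfCrossAt (mgvV hπ ιC hq hqM true) (mgvV hπ ιC hq hqM false) 𝔫 X Y) :
    ∃ ε : ↥(atLoc 𝔫), IsUnit ε ∧
      s36tuV ↥K₀ ιC (q := q) (M := M) =
        (ε : ↥(modularFunctionFieldFullC ↥K₀ (M * q))) *
          (Y : ↥(modularFunctionFieldFullC ↥K₀ (M * q))) ^ (12 * e) := by
  obtain ⟨γ, ε, a, b, hε, hy, -, -, -, hv₁, hv₂⟩ :=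
    rtk6lfc_cross_fac (E := ↥K₀) hπ (mgvV hπ ιC hq hqM) true false (fun c => mgv_hκ c)
      (mgv_hBV₁ hπ ιC hq hqM) (mgv_hπV hπ ιC hq hqM) hSS1 hU 𝔫 h 0
      (s36tuV_ne_zero ↥K₀ ιC) (tres5o_hhor ιC hq 𝔫)
  have hπ0 : algebraMap ↥(beta0Ring A K₀) ↥(modularFunctionFieldFullC ↥K₀ (M * q)) π ≠ 0 :=
    ei_algebraMap_ne_zero (E := ↥K₀) hπ
  have ha : a = 0 := by
    rw [tres5o_val_true hπ ιC hq hqM hA] at hv₁
    exact rtk6lfp_zpow_eq_one _ (mgv_hπV hπ ιC hq hqM true) hπ0 hv₁.symm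
  have hb : b = ((12 * e : ℕ) : ℤ) := by
    rw [tres5o_val_false_pi hπ ιC hq hqM hA hqπ, ← zpow_natCast] at hv₂
    exact (tres5o_zpow_inj _ (mgv_hπV hπ ιC hq hqM false) hπ0 hv₂).symm
  refine ⟨ε, hε, ?_⟩
  rw [hy, ha, hb, zpow_zero, mul_one, pow_zero, mul_one, zpow_natCast]

/-- **The node formula for the Ogg unit**, other orientation (`X ∈ 𝔪(V_0)`, `Y ∈ 𝔪(V_∞)`):
`h = ε · X ^ (12 e)`. -/
theorem tres5o_cross_fac_of' (hA : A.LiesOverPrime q)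
    [FiniteDimensional (↥K₀)⟮bgJ ↥K₀ (M * q)⟯ ↥(modularFunctionFieldFullC ↥K₀ (M * q))]
    [IsNoetherianRing ↥(zchClosure (A₀ := ↥(beta0Ring A K₀))
      ({bgJ ↥K₀ (M * q)} : Set ↥(modularFunctionFieldFullC ↥K₀ (M * q))))]
    (hSS1 : ∀ b : ↥(modularFunctionFieldFullC ↥K₀ (M * q)),
      IsIntegral ↥(Algebra.adjoin ↥(beta0Ring A K₀)
        ({bgJ ↥K₀ (M * q)} : Set ↥(modularFunctionFieldFullC ↥K₀ (M * q)))) b →
      (∀ c, b ∈ (mgvV hπ ιC hq hqM c).nonunits) →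
      ∃ b' : ↥(modularFunctionFieldFullC ↥K₀ (M * q)),
        IsIntegral ↥(Algebra.adjoin ↥(beta0Ring A K₀)
          ({bgJ ↥K₀ (M * q)} : Set ↥(modularFunctionFieldFullC ↥K₀ (M * q)))) b' ∧
        b = algebraMap ↥(beta0Ring A K₀) ↥(modularFunctionFieldFullC ↥K₀ (M * q)) π * b')
    (hU : ∀ c (x : ↥(modularFunctionFieldFullC ↥K₀ (M * q))),
      x ∈ (mgvV hπ ιC hq hqM c).nonunits → ∃ z ∈ mgvV hπ ιC hq hqM c,
        x = algebraMap ↥(beta0Ring A K₀) ↥(modularFunctionFieldFullC ↥K₀ (M * q)) π * z)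
    {e : ℕ} (hqπ : Associated ((q : ℕ) : ↥(beta0Ring A K₀)) (π ^ e))
    (𝔫 : AtPt (F := ↥(modularFunctionFieldFullC ↥K₀ (M * q))) π (bgJ ↥K₀ (M * q)))
    {X Y : ↥(zchClosure (A₀ := ↥(beta0Ring A K₀))
      ({bgJ ↥K₀ (M * q)} : Set ↥(modularFunctionFieldFullC ↥K₀ (M * q))))}
    (h : Rtk6lfCrossAt (mgvV hπ ιC hq hqM false) (mgvV hπ ιC hq hqM true) 𝔫 X Y) :
    ∃ ε : ↥(atLoc 𝔫), IsUnit ε ∧
      s36tuV ↥K₀ ιC (q := q) (M := M) =
        (ε : ↥(modularFunctionFieldFullC ↥K₀ (M * q))) *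
          (X : ↥(modularFunctionFieldFullC ↥K₀ (M * q))) ^ (12 * e) := by
  obtain ⟨h₁, h₂, hX, hY, ⟨w, hw, hXY⟩, hgen⟩ := h
  have hgen' : NodesLocGen 𝔫.1 {algebraMap ↥(beta0Ring A K₀) ↥(zchClosure (A₀ := ↥(beta0Ring A K₀))
      ({bgJ ↥K₀ (M * q)} : Set ↥(modularFunctionFieldFullC ↥K₀ (M * q)))) π, Y, X} := by
    have e1 : ({algebraMap ↥(beta0Ring A K₀) ↥(zchClosure (A₀ := ↥(beta0Ring A K₀))
        ({bgJ ↥K₀ (M * q)} : Set ↥(modularFunctionFieldFullC ↥K₀ (M * q)))) π, Y, X} :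
        Set ↥(zchClosure (A₀ := ↥(beta0Ring A K₀))
        ({bgJ ↥K₀ (M * q)} : Set ↥(modularFunctionFieldFullC ↥K₀ (M * q))))) =
        {algebraMap ↥(beta0Ring A K₀) ↥(zchClosure (A₀ := ↥(beta0Ring A K₀))
        ({bgJ ↥K₀ (M * q)} : Set ↥(modularFunctionFieldFullC ↥K₀ (M * q)))) π, X, Y} := by
      ext z
      simp only [Set.mem_insert_iff, Set.mem_singleton_iff]
      tauto
    rw [e1]
    exact hgen
  exact tres5o_cross_fac_of hπ ιC hq hqM hA hSS1 hU hqπ 𝔫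
    ⟨h₂, h₁, hY, hX, ⟨w, hw, hXY.trans (mul_comm X Y)⟩, hgen'⟩

/-- **The Ogg unit is a unit of `(B_j)_𝔫`** at a smooth point of the chart `j` through which
only the component `V_∞` passes. -/
theorem tres5o_smooth_unit_of (hA : A.LiesOverPrime q)
    [FiniteDimensional (↥K₀)⟮bgJ ↥K₀ (M * q)⟯ ↥(modularFunctionFieldFullC ↥K₀ (M * q))]
    [IsNoetherianRing ↥(zchClosure (A₀ := ↥(beta0Ring A K₀))
      ({bgJ ↥K₀ (M * q)} : Set ↥(modularFunctionFieldFullC ↥K₀ (M * q))))]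
    (hSS1 : ∀ b : ↥(modularFunctionFieldFullC ↥K₀ (M * q)),
      IsIntegral ↥(Algebra.adjoin ↥(beta0Ring A K₀)
        ({bgJ ↥K₀ (M * q)} : Set ↥(modularFunctionFieldFullC ↥K₀ (M * q)))) b →
      (∀ c, b ∈ (mgvV hπ ιC hq hqM c).nonunits) →
      ∃ b' : ↥(modularFunctionFieldFullC ↥K₀ (M * q)),
        IsIntegral ↥(Algebra.adjoin ↥(beta0Ring A K₀)
          ({bgJ ↥K₀ (M * q)} : Set ↥(modularFunctionFieldFullC ↥K₀ (M * q)))) b' ∧
        b = algebraMap ↥(beta0Ring A K₀) ↥(modularFunctionFieldFullC ↥K₀ (M * q)) π * b')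
    (hU : ∀ c (x : ↥(modularFunctionFieldFullC ↥K₀ (M * q))),
      x ∈ (mgvV hπ ιC hq hqM c).nonunits → ∃ z ∈ mgvV hπ ιC hq hqM c,
        x = algebraMap ↥(beta0Ring A K₀) ↥(modularFunctionFieldFullC ↥K₀ (M * q)) π * z)
    (𝔫 : AtPt (F := ↥(modularFunctionFieldFullC ↥K₀ (M * q))) π (bgJ ↥K₀ (M * q)))
    (hthr : atThrough 𝔫 (mgvV hπ ιC hq hqM true))
    (hone : ∀ c', atThrough 𝔫 (mgvV hπ ιC hq hqM c') → c' = true)
    {s : ↥(zchClosure (A₀ := ↥(beta0Ring A K₀))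
      ({bgJ ↥K₀ (M * q)} : Set ↥(modularFunctionFieldFullC ↥K₀ (M * q))))} (hs : s ∈ 𝔫.1)
    (hgen : NodesLocGen 𝔫.1 {algebraMap ↥(beta0Ring A K₀) ↥(zchClosure (A₀ := ↥(beta0Ring A K₀))
      ({bgJ ↥K₀ (M * q)} : Set ↥(modularFunctionFieldFullC ↥K₀ (M * q)))) π, s}) :
    ∃ ε : ↥(atLoc 𝔫), IsUnit ε ∧
      s36tuV ↥K₀ ιC (q := q) (M := M) = (ε : ↥(modularFunctionFieldFullC ↥K₀ (M * q))) := by
  obtain ⟨γ, ε, a, hε, hy, -, -, hv⟩ :=
    rtk6lfc_smooth_fac (E := ↥K₀) hπ (mgvV hπ ιC hq hqM)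
      (mgv_hBV₁ hπ ιC hq hqM) (mgv_hπV hπ ιC hq hqM) hSS1 hU 𝔫 true hthr
      hone hs hgen 0 (s36tuV_ne_zero ↥K₀ ιC) (tres5o_hhor ιC hq 𝔫)
  have hπ0 : algebraMap ↥(beta0Ring A K₀) ↥(modularFunctionFieldFullC ↥K₀ (M * q)) π ≠ 0 :=
    ei_algebraMap_ne_zero (E := ↥K₀) hπ
  have ha : a = 0 := by
    rw [tres5o_val_true hπ ιC hq hqM hA] at hv
    exact rtk6lfp_zpow_eq_one _ (mgv_hπV hπ ιC hq hqM true) hπ0 hv.symm
  exact ⟨ε, hε, by rw [hy, ha, zpow_zero, mul_one, pow_zero, mul_one]⟩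

/-- **The Ogg unit at a smooth point of the chart `j`** through which only the component `V_0`
passes: `h = ε · π ^ (12 e)`. -/
theorem tres5o_smooth_fac_of (hA : A.LiesOverPrime q)
    [FiniteDimensional (↥K₀)⟮bgJ ↥K₀ (M * q)⟯ ↥(modularFunctionFieldFullC ↥K₀ (M * q))]
    [IsNoetherianRing ↥(zchClosure (A₀ := ↥(beta0Ring A K₀))
      ({bgJ ↥K₀ (M * q)} : Set ↥(modularFunctionFieldFullC ↥K₀ (M * q))))]
    (hSS1 : ∀ b : ↥(modularFunctionFieldFullC ↥K₀ (M * q)),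
      IsIntegral ↥(Algebra.adjoin ↥(beta0Ring A K₀)
        ({bgJ ↥K₀ (M * q)} : Set ↥(modularFunctionFieldFullC ↥K₀ (M * q)))) b →
      (∀ c, b ∈ (mgvV hπ ιC hq hqM c).nonunits) →
      ∃ b' : ↥(modularFunctionFieldFullC ↥K₀ (M * q)),
        IsIntegral ↥(Algebra.adjoin ↥(beta0Ring A K₀)
          ({bgJ ↥K₀ (M * q)} : Set ↥(modularFunctionFieldFullC ↥K₀ (M * q)))) b' ∧
        b = algebraMap ↥(beta0Ring A K₀) ↥(modularFunctionFieldFullC ↥K₀ (M * q)) π * b')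
    (hU : ∀ c (x : ↥(modularFunctionFieldFullC ↥K₀ (M * q))),
      x ∈ (mgvV hπ ιC hq hqM c).nonunits → ∃ z ∈ mgvV hπ ιC hq hqM c,
        x = algebraMap ↥(beta0Ring A K₀) ↥(modularFunctionFieldFullC ↥K₀ (M * q)) π * z)
    {e : ℕ} (hqπ : Associated ((q : ℕ) : ↥(beta0Ring A K₀)) (π ^ e))
    (𝔫 : AtPt (F := ↥(modularFunctionFieldFullC ↥K₀ (M * q))) π (bgJ ↥K₀ (M * q)))
    (hthr : atThrough 𝔫 (mgvV hπ ιC hq hqM false))
    (hone : ∀ c', atThrough 𝔫 (mgvV hπ ιC hq hqM c') → c' = false)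
    {s : ↥(zchClosure (A₀ := ↥(beta0Ring A K₀))
      ({bgJ ↥K₀ (M * q)} : Set ↥(modularFunctionFieldFullC ↥K₀ (M * q))))} (hs : s ∈ 𝔫.1)
    (hgen : NodesLocGen 𝔫.1 {algebraMap ↥(beta0Ring A K₀) ↥(zchClosure (A₀ := ↥(beta0Ring A K₀))
      ({bgJ ↥K₀ (M * q)} : Set ↥(modularFunctionFieldFullC ↥K₀ (M * q)))) π, s}) :
    ∃ ε : ↥(atLoc 𝔫), IsUnit ε ∧
      s36tuV ↥K₀ ιC (q := q) (M := M) =
        (ε : ↥(modularFunctionFieldFullC ↥K₀ (M * q))) *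
          algebraMap ↥(beta0Ring A K₀) ↥(modularFunctionFieldFullC ↥K₀ (M * q)) π ^ (12 * e) := by
  obtain ⟨γ, ε, a, hε, hy, -, -, hv⟩ :=
    rtk6lfc_smooth_fac (E := ↥K₀) hπ (mgvV hπ ιC hq hqM)
      (mgv_hBV₁ hπ ιC hq hqM) (mgv_hπV hπ ιC hq hqM) hSS1 hU 𝔫 false hthr
      hone hs hgen 0 (s36tuV_ne_zero ↥K₀ ιC) (tres5o_hhor ιC hq 𝔫)
  have hπ0 : algebraMap ↥(beta0Ring A K₀) ↥(modularFunctionFieldFullC ↥K₀ (M * q)) π ≠ 0 :=
    ei_algebraMap_ne_zero (E := ↥K₀) hπ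
  have ha : a = ((12 * e : ℕ) : ℤ) := by
    rw [tres5o_val_false_pi hπ ιC hq hqM hA hqπ, ← zpow_natCast] at hv
    exact (tres5o_zpow_inj _ (mgv_hπV hπ ιC hq hqM false) hπ0 hv).symm
  exact ⟨ε, hε, by rw [hy, ha, pow_zero, mul_one, zpow_natCast]⟩

end Mgv

end Fermat.Agent.R38
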