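/-
Row 38, TRES, piece FAC-ASM-MAIN, half (A′) (helper91, for helper89 / helper26 / helper47):
THE OGG INSTANCE on `X` in the frame of `RIB/MP/RedA.lean`.

`h := S36.s36tuV ↥K₀ ιC` (the Ogg unit `Δ(Q)/Δ(Q^q)` of level `M₁ q` over `K₀`),
`V_∞ = mgvV … true`, `ρ = ribmpRedF : V_∞ →+* F_{M₁}(k)`, `h̄ := Δ̄ · (Δ̄⁻¹)^q`.

* `tresmonog_hecke_uInvS` : `T_ℓ (u⁻¹) = (u⁻¹)^(ℓ+1)` for `u⁻¹ = Δ(Q)/Δ(Q^q)`, `ℓ ∤ q` (any field);
* `tresmonog_hecke`       : the `hhecke` clause of `tresmono_frame` for `h̄` (`char k = q`);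
* `tresmonog_hb_mem`      : `h̄ ∈ F_M(k)` for every `M` (`k = kA A`);
* `tresmonog_hb_ne_zero`  : `h̄ ≠ 0`;
* `tresmonog_red_coe`, **`tresmonog_red`** : `ρ h = h̄`   (the `hρh` of `tresmono_frame`);
* `tresmonog_hecke_kA`    : `hhecke` for `k = kA A`.
-/
import Fermat.Agent.RIB.MP.RedA
import Fermat.Agent.R38.TresDictNode
import Fermat.Agent.R38.TresOgg
import Fermat.Agent.R38.TresOggRed
import Fermat.Agent.R38.TresOggFld
import Fermat.Agent.R38.TresEisOgg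

set_option autoImplicit false
set_option linter.unusedSectionVars false
set_option linter.unusedVariables false
set_option linter.style.haveILetI false
set_option linter.style.longLine false
set_option synthInstance.maxHeartbeats 400000
set_option maxHeartbeats 1600000

noncomputable section

namespace Fermat.Agent.R38

open ModularCurve AlgebraicCurve Fermat.Agent.ES Fermat.Agent.ES.G2 Fermat.Agent.INJ
  Fermat.Agent.UNIP Fermat.Agent.STB Fermat.Agent.ES.M Fermat.Agent.DEU Fermat.Agent.S36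
  Fermat.Agent.S24 Fermat.Agent.S28 Fermat.Agent.RIB.MP

section Hecke

variable (k : Type*) [Field k] (q : ℕ) [NeZero q]

/-- `T_ℓ` on the inverse Ogg unit `Δ(Q)/Δ(Q^q)`, `ℓ ∤ q` -/
theorem tresmonog_hecke_uInvS (ℓ : ℕ) [NeZero ℓ] (hℓ : ℓ.Prime) (hℓq : ¬ ℓ ∣ q) (ζ : kˣ)
    (hζ : IsPrimitiveRoot ζ ℓ) :
    kronHecke ℓ ζ (uInvS k q) = uInvS k q ^ (ℓ + 1) := by
  rw [uInvS_eq_inv, tres4o_kronHecke_inv ℓ ζ hζ (uS_ne_zero (k := k) (p := q)),
    tres4o_kronHecke_uS_eq ℓ ζ q hℓ hℓq hζ, inv_pow]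

variable [Fact q.Prime] [CharP k q]

/-- **the Hecke clause for `h̄ = Δ̄ (Δ̄⁻¹)^q`** (shape of `hhecke` in `tresmono_frame`) -/
theorem tresmonog_hecke :
    ∀ (ℓ : ℕ) [NeZero ℓ], ℓ.Prime → ℓ ≠ q → ∀ ζ : kˣ, IsPrimitiveRoot ζ ℓ →
      ∃ c : k, c ≠ 0 ∧ kronHecke ℓ ζ (deltaS k * deltaInvS k ^ q) =
        HahnSeries.C c * (deltaS k * deltaInvS k ^ q) ^ (ℓ + 1) := by
  intro ℓ _ hℓ hℓq ζ hζ
  have hq : q.Prime := Fact.out
  have hndvd : ¬ ℓ ∣ q := fun h => hℓq ((Nat.prime_dvd_prime_iff_eq hℓ hq).1 h)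
  refine ⟨1, one_ne_zero, ?_⟩
  rw [← tres5o_uInvS_eq q k, tresmonog_hecke_uInvS k q ℓ hℓ hndvd ζ hζ, map_one, one_mul]

end Hecke

section Main

variable {M₁ q : ℕ} [NeZero M₁] [NeZero q] [NeZero (M₁ * q)] (hq : q.Prime) (hqM : ¬ q ∣ M₁)
  {A : ValuationSubring Qb} (hA : A.LiesOverPrime q) {K₀ : IntermediateField ℚ Qb}
  [IsDiscreteValuationRing ↥(beta0Ring A K₀)]
  {π : ↥(beta0Ring A K₀)} (hπ : Irreducible π) (ιC : ↥K₀ →+* ℂ)

include hq hA in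
/-- `h̄ ∈ F_M(k)` for every level `M` -/
theorem tresmonog_hb_mem (M : ℕ) :
    deltaS (kA A) * deltaInvS (kA A) ^ q ∈ modularFunctionFieldFullC (kA A) M := by
  haveI : Fact q.Prime := ⟨hq⟩
  haveI : CharP (kA A) q := Fermat.Agent.RED.charP_residueField A hq hA
  exact tres5o_red_mem q (kA A) M

/-- `h̄ ≠ 0` -/
theorem tresmonog_hb_ne_zero (k : Type*) [Field k] (q : ℕ) :
    deltaS k * deltaInvS k ^ q ≠ 0 :=
  mul_ne_zero (deltaS_ne_zero k) (pow_ne_zero _ (deltaInvS_ne_zero k))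

include hq hA in
/-- the Hecke clause for `h̄` over `k = kA A` (the `hhecke` of `tresmono_frame`, `p := q`) -/
theorem tresmonog_hecke_kA :
    ∀ (ℓ : ℕ) [NeZero ℓ], ℓ.Prime → ℓ ≠ q → ∀ ζ : (kA A)ˣ, IsPrimitiveRoot ζ ℓ →
      ∃ c : kA A, c ≠ 0 ∧ kronHecke ℓ ζ (deltaS (kA A) * deltaInvS (kA A) ^ q) =
        HahnSeries.C c * (deltaS (kA A) * deltaInvS (kA A) ^ q) ^ (ℓ + 1) := by
  haveI : Fact q.Prime := ⟨hq⟩
  haveI : CharP (kA A) q := Fermat.Agent.RED.charP_residueField A hq hA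
  exact tresmonog_hecke (kA A) q

include hA in
/-- **the reduction of the Ogg unit along `V_∞`** (as a Laurent series) -/
theorem tresmonog_red_coe (hRedF : StmtRedF M₁ A) :
    ((ribmpRedF hq hqM hA hπ ιC hRedF
        ⟨s36tuV ↥K₀ ιC, tresdn_mem _ (tres5o_val_true hπ ιC hq hqM hA)⟩ :
        ↥(modularFunctionFieldFullC (kA A) M₁)) : LaurentSeries (kA A)) =
      deltaS (kA A) * deltaInvS (kA A) ^ q := by
  rw [ribmpRedF_coe]
  exact ribmpRedK_eq hπ (M₁ * q) (tres5o_gaussRed ιC hq hA)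

include hA in
/-- **the reduction of the Ogg unit along `V_∞`**: `ρ h = h̄` in `F_{M₁}(k)` -/
theorem tresmonog_red (hRedF : StmtRedF M₁ A)
    (hmem : deltaS (kA A) * deltaInvS (kA A) ^ q ∈ modularFunctionFieldFullC (kA A) M₁) :
    ribmpRedF hq hqM hA hπ ιC hRedF
        ⟨s36tuV ↥K₀ ιC, tresdn_mem _ (tres5o_val_true hπ ιC hq hqM hA)⟩ =
      (⟨deltaS (kA A) * deltaInvS (kA A) ^ q, hmem⟩ :
        ↥(modularFunctionFieldFullC (kA A) M₁)) :=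
  Subtype.ext (tresmonog_red_coe hq hqM hA hπ ιC hRedF)

include hA in
/-- `ord_Q (ρ h) = ord_Q h̄` -/
theorem tresmonog_ord (hRedF : StmtRedF M₁ A)
    (hmem : deltaS (kA A) * deltaInvS (kA A) ^ q ∈ modularFunctionFieldFullC (kA A) M₁)
    (Q : Place (kA A) ↥(modularFunctionFieldFullC (kA A) M₁)) :
    Q.ord (ribmpRedF hq hqM hA hπ ιC hRedF
        ⟨s36tuV ↥K₀ ιC, tresdn_mem _ (tres5o_val_true hπ ιC hq hqM hA)⟩) =
      Q.ord (⟨deltaS (kA A) * deltaInvS (kA A) ^ q, hmem⟩ :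
        ↥(modularFunctionFieldFullC (kA A) M₁)) := by
  rw [tresmonog_red hq hqM hA hπ ιC hRedF hmem]

end Main

end Fermat.Agent.R38

end
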