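/-
ROW 38, TRES, piece FAC-ASM-NOCOVER (helper47): THE MODULAR GLUE — `StmtMonoFix`.

The case "the inertia group FIXES `x`" of `StmtFacMono` (`R38/PlanMono.lean`).  No cover:

 1. MP-DESC (`RIB.MP.ribmp_desc`, exponent `p` = residue characteristic): a Kummer function
    `nfEmb u₀` of `x`, `u₀ ∈ F_{Mp}(K)`, `K = ℚ̄^I = beta0Field A`;
 2. normalisation at `V_∞` (`tresmfn_normalise`, helper16): `u₀ = c · y₀`, `v_∞(y₀) = 1`;
 3. the rigid level `M' = 4 M`: `y = up y₀ ∈ F_{M'p}(K)` (`RIB.MP.ribmpFlUp`), horizontal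
    divisibility ascends (`ribmp_fhor`), `v_0(y) = v_0(π) ^ b`;
 4. `tresmf_rigid` : `tresmf_chart` (helper79) on `X₀(M'p) / K` with thin nodes
    (`RT.K6.rtk6lfb0_thinAt_J`, helper54), smooth cusps (`RIB.MP.ribmp_fcu_smooth`, helper81), the
    globals `mgv_*` / `ribmp_fc_*`, the reduction map `ρ = ribmpRedF` of `V_∞` (helper91) and the
    Ogg unit `g = S36.s36tuV` (`v_∞ = 1`, `v_0(g) = v_0(p) ^ 12`, cuspidal divisor; helper10);
 5. `ρ j = j̄` (`tresmonoc_red_j`, helper26), `ρ y` does not depend on the level (`tresmfr_up`,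
    helper28), `ρ g = h̄ = Δ̄ (Δ̄⁻¹)^p` (`tresmonog_red`, helper91);
 6. the `k`-side descent `M' → M` (`TresRigDescent`, FAC-RIG, helper35);
 7. the Hecke clause for `h̄` (`tresmonog_hecke_kA`, helper91; `tres4o_kronHecke_uS`, helper9).

* `tresmf_rigid` : the two order clauses at the places of `F̄_{M}` for a rigid level `M p`, `4 ∣ M`;
* `tresmf_fix`   : `FacMonoConcl M p A x` from `TresRigDescent M (M * 4) p A`;
* `stmtMonoFix_of` : `StmtMonoFix` from FAC-RIG at `M' = 4 M`.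
-/
import Fermat.Agent.R38.TresMonoFrame
import Fermat.Agent.R38.TresMonoFixAbs
import Fermat.Agent.R38.TresMonoFixRed
import Fermat.Agent.R38.TresMonoFixNorm
import Fermat.Agent.R38.TresMonoOgg
import Fermat.Agent.R38.TresMonoConc
import Fermat.Agent.R38.TresRig
import Fermat.Agent.R38.TresOgg
import Fermat.Agent.R38.TresOggFld
import Fermat.Agent.RT.K6.DLFConc
import Fermat.Agent.RIB.MP.FacCusp
import Fermat.Agent.RIB.MP.RedFinal
import Fermat.Agent.RIB.MP.FacLevel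
import Fermat.Agent.RIB.MP.FacHor

set_option autoImplicit false
set_option linter.unusedSectionVars false
set_option linter.unusedVariables false
set_option linter.style.haveILetI false
set_option linter.style.longLine false
set_option synthInstance.maxHeartbeats 400000
set_option maxHeartbeats 1600000

noncomputable section

namespace Fermat.Agent.R38

open ModularCurve AlgebraicCurve IntermediateField Fermat.Agent.ES Fermat.Agent.ES.G2
  Fermat.Agent.INJ Fermat.Agent.UNIP Fermat.Agent.STB Fermat.Agent.ES.M Fermat.Agent.DEU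
  Fermat.Agent.S36 Fermat.Agent.S33 Fermat.Agent.S28 Fermat.Agent.S24 Fermat.Agent.S15
  Fermat.Agent.RIB.MP Fermat.Agent.RT.K6 Fermat.Agent.AL Fermat.Agent.W1 Fermat.Agent.RIB
  ExtCitation

/-- a prime `p ≥ 5` does not divide `12` -/
theorem tresmf_not_dvd_twelve {p : ℕ} (hp : p.Prime) (h5 : 5 ≤ p) : ¬ (p : ℤ) ∣ (12 : ℤ) := by
  intro h
  have h' : p ∣ 12 := by exact_mod_cast h
  have hle : p ≤ 12 := Nat.le_of_dvd (by norm_num) h'
  interval_cases p <;> first | omega | (exact absurd hp (by norm_num))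

/-- a prime `p ≥ 5`, `p ∤ M` does not divide `4 M` -/
theorem tresmf_not_dvd_mul_four {p M : ℕ} (hp : p.Prime) (h5 : 5 ≤ p) (hpM : ¬ p ∣ M) :
    ¬ p ∣ M * 4 := by
  intro h
  rcases (Nat.Prime.dvd_mul hp).1 h with h1 | h1
  · exact hpM h1
  · have hle : p ≤ 4 := Nat.le_of_dvd (by norm_num) h1
    omega

section Rigid

variable {A : ValuationSubring Qb} {p M : ℕ} [NeZero p] [NeZero M] [NeZero (M * p)]
  [IsDiscreteValuationRing ↥(beta0Ring A (beta0Field A))]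
  {π : ↥(beta0Ring A (beta0Field A))} (hπ : Irreducible π) (ιC : ↥(beta0Field A) →+* ℂ)
  (hp : p.Prime) (hpM : ¬ p ∣ M)

include hπ ιC hp hpM in
/-- **ASM-NOCOVER on `X₀(M p)` over `K = ℚ̄^I`, rigid level** (`4 ∣ M`, `p ≥ 5`): `tresmf_chart`
with all the geometric hypotheses discharged, `ρ = ribmpRedF`, `g` the Ogg unit. -/
theorem tresmf_rigid (hA : A.LiesOverPrime p) (h5 : 5 ≤ p) (h4 : 4 ∣ M)
    (hRedF : StmtRedF M A)
    (hfin : ∀ Q : Place (kA A) ↥(modularFunctionFieldFullC (kA A) M),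
      ∀ x ∈ Q.toValuationSubring, x ∉ Q.toValuationSubring.nonunits →
        ∃ n : ℕ, 0 < n ∧ x ^ n - 1 ∈ Q.toValuationSubring.nonunits)
    {y : ↥(modularFunctionFieldFullC ↥(beta0Field A) (M * p))} (hy0 : y ≠ 0)
    (hhor : ∀ P : Place ↥(beta0Field A) ↥(modularFunctionFieldFullC ↥(beta0Field A) (M * p)),
      (p : ℤ) ∣ P.ord y)
    (hy₁ : (mgvV hπ ιC hp hpM true).valuation y = 1) (a b : ℤ)
    (hy₂ : (mgvV hπ ιC hp hpM false).valuation y =
      (mgvV hπ ιC hp hpM false).valuation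
        (algebraMap ↥(beta0Ring A (beta0Field A))
          ↥(modularFunctionFieldFullC ↥(beta0Field A) (M * p)) π) ^ b)
    (hg₂ : (mgvV hπ ιC hp hpM false).valuation (s36tuV ↥(beta0Field A) ιC) =
      (mgvV hπ ιC hp hpM false).valuation
        (algebraMap ↥(beta0Ring A (beta0Field A))
          ↥(modularFunctionFieldFullC ↥(beta0Field A) (M * p)) π) ^ a)
    (Q : Place (kA A) ↥(modularFunctionFieldFullC (kA A) M)) :
    (ribmpRedF hp hpM hA hπ ιC hRedF
        ⟨bgJ ↥(beta0Field A) (M * p), tresdn_mem _ (mgv_T_valuation hπ ιC hp hpM true)⟩ ∈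
          Q.toValuationSubring →
      (p : ℤ) ∣ a * Q.ord (ribmpRedF hp hpM hA hπ ιC hRedF ⟨y, tresdn_mem _ hy₁⟩) -
        b * Q.ord (ribmpRedF hp hpM hA hπ ιC hRedF
          ⟨s36tuV ↥(beta0Field A) ιC, tresdn_mem _ (tres5o_val_true hπ ιC hp hpM hA)⟩)) ∧
    (ribmpRedF hp hpM hA hπ ιC hRedF
        ⟨bgJ ↥(beta0Field A) (M * p), tresdn_mem _ (mgv_T_valuation hπ ιC hp hpM true)⟩ ∉
          Q.toValuationSubring →
      (p : ℤ) ∣ Q.ord (ribmpRedF hp hpM hA hπ ιC hRedF ⟨y, tresdn_mem _ hy₁⟩)) := by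
  haveI := ribmp_fc_fin (K₀ := beta0Field A) (M * p)
  haveI := ribmp_fc_fin_inv (K₀ := beta0Field A) (M * p)
  haveI := rtk6lfb_noeth_J (A := A) (K₀ := beta0Field A) (M := M) (q := p)
  haveI := ribmp_fcu_noeth (A := A) (K₀ := beta0Field A) (M := M) (q := p)
  have h2 : p = 2 → 3 ∣ M := fun h => by omega
  have h3 : p = 3 → 2 ∣ M := fun h => by omega
  have rigid : (p ≠ 2 → 4 ∣ M) ∧ (p = 2 → 9 ∣ M) := ⟨fun _ => h4, fun h => by omega⟩
  have hSS1 := ribmp_fc_hSS1 hπ ιC hp hpM hA le_rfl h2 h3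
  have hSS1' := ribmp_fc_hSS1_inv hπ ιC hp hpM hA le_rfl h2 h3
  have harch' : ∀ c, StbArch (mgvV hπ ιC hp hpM c) := fun c x a ha => by
    obtain ⟨N, hN⟩ := mgv_harch hπ ιC hp hpM c a x ha
    exact ⟨N, by rw [mul_comm x (a ^ N)]; exact hN⟩
  have hnle : ∀ c c' : Bool, c ≠ c' → ¬ mgvV hπ ιC hp hpM c ≤ mgvV hπ ιC hp hpM c' :=
    fun c c' hcc' => stb_not_le_of_ne (harch' c) (ribmp_fc_hπ0 hπ) (mgv_hπV hπ ιC hp hpM c')
      (rtk6lfb_hne hπ ιC hp hpM hA c c' hcc')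
  obtain ⟨φ, hφF⟩ := Fermat.Agent.Common.exists_isFrobeniusAt_of_liesOverPrime p hp A hA
  have hφ : ∀ x ∈ beta0Field A, φ x ∈ beta0Field A :=
    fun x hx => beta0_decomp_apply_mem hφF.mem_decompositionSubgroup hx
  -- the reduction map (the block of `ribmp_red_a_over`)
  have hAV : ∀ a : ↥(beta0Ring A (beta0Field A)),
      algebraMap ↥(beta0Ring A (beta0Field A))
        ↥(modularFunctionFieldFullC ↥(beta0Field A) (M * p)) a ∈ mgvV hπ ιC hp hpM true :=
    fun a => vtFam_const_mem (vtBase_residue hπ) ιC hp hpM true a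
  have hker : ∀ x : ↥(mgvV hπ ιC hp hpM true),
      (x : ↥(modularFunctionFieldFullC ↥(beta0Field A) (M * p))) ∈
        (mgvV hπ ιC hp hpM true).nonunits → ribmpRedF hp hpM hA hπ ιC hRedF x = 0 :=
    fun x hx => Subtype.ext (ribmpRedK_eq_zero_of_mem_nonunits hπ (M * p) x hx)
  have hπ0 : ribmpRedF hp hpM hA hπ ιC hRedF ⟨_, hAV π⟩ = 0 :=
    hker _ (mgv_hπV hπ ιC hp hpM true)
  have hAQ : ∀ a : ↥(beta0Ring A (beta0Field A)),
      ribmpRedF hp hpM hA hπ ιC hRedF ⟨_, hAV a⟩ ∈ Q.toValuationSubring := by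
    intro a
    have h1 : ribmpRedF hp hpM hA hπ ιC hRedF ⟨_, hAV a⟩ =
        algebraMap (kA A) ↥(modularFunctionFieldFullC (kA A) M)
          (IsLocalRing.residue A ⟨algebraMap ↥(beta0Field A) Qb
            (algebraMap ↥(beta0Ring A (beta0Field A)) ↥(beta0Field A) a),
            stb_mgt_c1 A (beta0Field A) a⟩) := by
      apply Subtype.ext
      rw [ribmpRedF_coe]
      exact (ribmpRedK_const hπ (M * p) a (hAV a)).trans (Fermat.Agent.ES.M.algebraMap_eq_hahnC _).symm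
    rw [h1]
    exact Q.algebraMap_mem' _
  exact tresmf_chart (E := ↥(beta0Field A)) hπ (t := bgJ ↥(beta0Field A) (M * p))
    (mgvV hπ ιC hp hpM) true false mgv_hκ
    (mgv_hBV₁ hπ ιC hp hpM) (mgv_hBV₂ hπ ιC hp hpM) (mgv_hπV hπ ιC hp hpM) hSS1 hSS1'
    (ribmp_fc_hU hπ ιC hp hpM)
    (mgv_hVloc₁ hπ ιC hp hpM hA hSS1) (mgv_hVloc₂ hπ ιC hp hpM hA hSS1) hnle
    (fun 𝔫 => rtk6lfb0_thinAt_J hπ ιC hp hpM hA rigid 𝔫)
    (fun 𝔫 hcu => ribmp_fcu_smooth hπ hp hpM hA le_rfl hφF hφ h2 h3 𝔫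
      (hcu (ribmpFglGen (A₀ := ↥(beta0Ring A (beta0Field A)))
        (bgJ ↥(beta0Field A) (M * p))⁻¹) rfl))
    (ribmpRedF hp hpM hA hπ ιC hRedF) hker hAV hπ0 (mgv_T_valuation hπ ιC hp hpM true) Q hAQ
    (hfin Q) hp.pos hy0 (s36tuV_ne_zero ↥(beta0Field A) ιC) hhor
    (fun P hP => tres5o_ord_eq_zero (beta0Field A) ιC hp P hP)
    hy₁ (tres5o_val_true hπ ιC hp hpM hA) a b hy₂ hg₂

end Rigid

section Fix

/-- **ASM-NOCOVER for one class**, from the `k`-side descent `4 M → M`. -/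
theorem tresmf_fix (M p : ℕ) [NeZero M] [NeZero p] [NeZero (M * p)] [NeZero (M * 4)]
    [NeZero (M * 4 * p)] (hp : p.Prime) (hpM : ¬ p ∣ M) (h5 : 5 ≤ p)
    (A : ValuationSubring Qb) (hA : A.LiesOverPrime p)
    (hrig : TresRigDescent M (M * 4) p A)
    (x : JZero (M * p)) (hx : p • x = 0) (hI : InertiaFixed A x) :
    FacMonoConcl M p A x := by
  haveI : IsDiscreteValuationRing ↥(beta0Ring A (beta0Field A)) := beta0Ring_isDVR_base hp hA
  haveI : Fact p.Prime := ⟨hp⟩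
  haveI : CharP (kA A) p := Fermat.Agent.RED.charP_residueField A hp hA
  have hπ := beta0Ring_irreducible_q (A := A) hp hA
  set ιC : ↥(beta0Field A) →+* ℂ := mgdIota (beta0Field A) with hιC
  have hpM4 : ¬ p ∣ M * 4 := tresmf_not_dvd_mul_four hp h5 hpM
  -- the reduction packages at the levels `M` and `4 M`
  have hRedF : StmtRedF M A := stmtRedF M A p hp hpM hA
  obtain ⟨rr, sp, Pinf, Qinf, hpkg⟩ := s15red_exists_pkg (M * 4) p hp hpM4 (Or.inl h5) A hA
  have hRedF' : StmtRedF (M * 4) A := stmtRedF (M * 4) A p hp hpM4 hA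
  -- 1. descent of a Kummer function to the inertia field
  obtain ⟨u₀, hu₀, hxu⟩ := ribmp_desc hp hA hp.ne_zero hx hI
  -- 2. normalisation at `V_∞`
  obtain ⟨y₀, c, hc, hy₀0, hy₀1, hcy, hord⟩ := tresmfn_normalise hp hpM hπ ιC u₀ hu₀
  -- 3. the rigid level
  set y : ↥(modularFunctionFieldFullC ↥(beta0Field A) (M * 4 * p)) :=
    ribmpFlUp ↥(beta0Field A) M 4 p y₀ with hydef
  have hy0 : y ≠ 0 := fun h0 => hy₀0
    ((ribmpFlUp ↥(beta0Field A) M 4 p).toRingHom.injective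
      (by rw [AlgHom.toRingHom_eq_coe, RingHom.coe_coe, ← hydef, h0, map_zero]))
  have hy1 : (mgvV hπ ιC hp hpM4 true).valuation y = 1 :=
    (ribmp_fl_valuation hπ ιC hp hpM hpM4 true y₀).2 hy₀1
  have hhorBar : ∀ P : Place NfQb (modularFunctionFieldBar (M * p)),
      (p : ℤ) ∣ P.ord (nfEmb (beta0Field A) (M * p) y₀) := fun P => by
    rw [hord P]
    exact ribmp_rf_dvd_ord hxu P
  have hhor : ∀ P : Place ↥(beta0Field A)
      ↥(modularFunctionFieldFullC ↥(beta0Field A) (M * 4 * p)), (p : ℤ) ∣ P.ord y :=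
    fun P => ribmp_fc_hhor (M * 4 * p) p y
      (ribmp_fhor (beta0Field A) M 4 p (ribmp_fl_le ↥(beta0Field A) M 4 p) p y₀ hhorBar) P
  obtain ⟨b, hb⟩ := rtk6lfb_val_zpow_J hπ ιC hp hpM4 false hy0
  have hg₂ : (mgvV hπ ιC hp hpM4 false).valuation (s36tuV ↥(beta0Field A) ιC) =
      (mgvV hπ ιC hp hpM4 false).valuation
        (algebraMap ↥(beta0Ring A (beta0Field A))
          ↥(modularFunctionFieldFullC ↥(beta0Field A) (M * 4 * p))
            ((p : ℕ) : ↥(beta0Ring A (beta0Field A)))) ^ (12 : ℤ) := by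
    rw [tres5o_val_false hπ ιC hp hpM4 hA]
    norm_cast
  -- 5. the reductions
  set r : LaurentSeries (kA A) :=
    ((ribmpRedF hp hpM hA hπ ιC hRedF ⟨y₀, tresdn_mem _ hy₀1⟩ :
      ↥(modularFunctionFieldFullC (kA A) M)) : LaurentSeries (kA A)) with hrdef
  have hr : r ∈ modularFunctionFieldFullC (kA A) M :=
    (ribmpRedF hp hpM hA hπ ιC hRedF ⟨y₀, tresdn_mem _ hy₀1⟩).2
  have hrup : ((ribmpRedF hp hpM4 hA hπ ιC hRedF' ⟨y, tresdn_mem _ hy1⟩ :
      ↥(modularFunctionFieldFullC (kA A) (M * 4))) : LaurentSeries (kA A)) = r :=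
    tresmfr_up hp hpM hA hπ ιC hRedF hpM4 hRedF' y₀ hy₀1 hy1
  have hr' : r ∈ modularFunctionFieldFullC (kA A) (M * 4) := by
    rw [← hrup]
    exact (ribmpRedF hp hpM4 hA hπ ιC hRedF' ⟨y, tresdn_mem _ hy1⟩).2
  have hρy : ribmpRedF hp hpM4 hA hπ ιC hRedF' ⟨y, tresdn_mem _ hy1⟩ = ⟨r, hr'⟩ :=
    Subtype.ext hrup
  set hbar : LaurentSeries (kA A) := deltaS (kA A) * deltaInvS (kA A) ^ p with hbardef
  have hh : hbar ∈ modularFunctionFieldFullC (kA A) M := tresmonog_hb_mem hp hA M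
  have hh' : hbar ∈ modularFunctionFieldFullC (kA A) (M * 4) := tresmonog_hb_mem hp hA (M * 4)
  have hρg : ribmpRedF hp hpM4 hA hπ ιC hRedF'
      ⟨s36tuV ↥(beta0Field A) ιC, tresdn_mem _ (tres5o_val_true hπ ιC hp hpM4 hA)⟩ =
        ⟨hbar, hh'⟩ :=
    tresmonog_red hp hpM4 hA hπ ιC hRedF' hh'
  have hρj : ribmpRedF hp hpM4 hA hπ ιC hRedF'
      ⟨bgJ ↥(beta0Field A) (M * 4 * p),
        tresdn_mem _ (mgv_T_valuation hπ ιC hp hpM4 true)⟩ =
        ⟨jqModC (kA A), jqModC_mem_full (kA A) (M * 4)⟩ :=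
    tresmonoc_red_j hp hpM4 hA hπ ιC hRedF'
  have hj0 : (⟨jqModC (kA A), jqModC_mem_full (kA A) (M * 4)⟩ :
      ↥(modularFunctionFieldFullC (kA A) (M * 4))) ≠ 0 := by
    rw [← hρj]
    exact tresdn_map_ne_zero _ _ (mgv_T_valuation hπ ιC hp hpM4 true)
  -- 4. the clauses at the rigid level
  have hord' : FacMonoOrdAt (M * 4) p A r hbar hr' hh' 12 b := by
    constructor
    · intro Q hQ
      have hmain := (tresmf_rigid hπ ιC hp hpM4 hA h5 (Dvd.intro_left M rfl) hRedF'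
        (fun Q => ribmp_rf_hfin hpkg Q) hy0 hhor hy1 12 b hb hg₂ Q).1
      rw [hρj, hρy, hρg] at hmain
      exact hmain ((PlaceAux.ord_nonneg_iff Q hj0).1 hQ)
    · intro Q hQ
      have hmain := (tresmf_rigid hπ ιC hp hpM4 hA h5 (Dvd.intro_left M rfl) hRedF'
        (fun Q => ribmp_rf_hfin hpkg Q) hy0 hhor hy1 12 b hb hg₂ Q).2
      rw [hρj, hρy] at hmain
      refine hmain (fun hmem => ?_)
      have := (PlaceAux.ord_nonneg_iff Q hj0).2 hmem
      omega
  -- 6. the descent to the level `M`, 7. the Hecke clause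
  have hred : R38Red A
      ((nfEmb (beta0Field A) (M * p) u₀ : modularFunctionFieldBar (M * p)) : LaurentSeries Qb)
      r := by
    rw [hcy]
    have h1 := (R38Red.const (A := A) hc).mul
      (tresmfr_r38Red hp hpM hA hπ ιC hRedF y₀ hy₀1)
    rwa [one_mul] at h1
  exact facMonoConcl_of_ordAt (nfEmb (beta0Field A) (M * p) u₀) r hbar hr hh 12 b
    hxu hred (tresmonog_hb_ne_zero (kA A) p) (tresmf_not_dvd_twelve hp h5)
    (hrig r hbar hr hh hr' hh' 12 b hord') (tresmonog_hecke_kA hp hA)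

/-- **`StmtMonoFix` from FAC-RIG at `M' = 4 M`.** -/
theorem stmtMonoFix_of
    (hrig : ∀ (M p : ℕ) [NeZero M] [NeZero (M * 4)], p.Prime → 5 ≤ p → ¬ p ∣ M →
      ∀ A : ValuationSubring Qb, A.LiesOverPrime p → TresRigDescent M (M * 4) p A) :
    StmtMonoFix := by
  intro M p _ _ _ hp hpM h5 A hA x hx _ _ hI
  haveI : NeZero (M * 4) := ⟨Nat.mul_ne_zero (NeZero.ne M) (by norm_num)⟩
  haveI : NeZero (M * 4 * p) := ⟨Nat.mul_ne_zero (NeZero.ne (M * 4)) (NeZero.ne p)⟩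
  exact tresmf_fix M p hp hpM h5 A hA (hrig M p hp h5 hpM A hA) x hx hI

/-- the adapter of FAC-RIG (helper35) to the frame predicate `TresRigDescent` -/
theorem tresmf_rigDescent_of_up (M M' p : ℕ) [NeZero M] [NeZero M'] (A : ValuationSubring Qb)
    (hp : p.Prime) (hMM' : M ∣ M') (hup : TresRigUp (kA A) p M M') : TresRigDescent M M' p A :=
  fun r h hr hh _ _ a b H => tresrig_descent_of_up (kA A) hp hMM' hup r h hr hh a b H.1 H.2

/-- **ASM-NOCOVER**: `StmtMonoFix`. -/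
theorem stmtMonoFix : StmtMonoFix := by
  refine stmtMonoFix_of (fun M p _ _ hp h5 hpM A hA => ?_)
  haveI : CharP (kA A) p := Fermat.Agent.RED.charP_residueField A hp hA
  exact tresmf_rigDescent_of_up M (M * 4) p A hp (Dvd.intro 4 rfl)
    (tresrig_up_mul_four (kA A) hp h5 (NeZero.ne M))

end Fix

end Fermat.Agent.R38

end
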