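import Fermat.Agent.RIB.MP.RedA
import Fermat.Agent.UNIP.MGSetup
import Fermat.Agent.UNIP.Cheap
import Fermat.Agent.UNIP.Rational
import Fermat.Agent.UNIP.Beta0Pkg
import Fermat.Agent.ES.G2.Prim
import Fermat.Agent.ES.M.RedF
import Fermat.Agent.R38.TresGeo

/-!
# Row 38, PKG-TRES, FAC-MONO, input (I5) of `tresmono_frame`  (helper42)

`A ⊂ ℚ̄` over `p`, `p ∤ M`, `k = kA A`.  The Gauss reduction (at `v_∞`) of `F_{Mp}(ℚ̄)` has values
in `F̄_M = modularFunctionFieldFullC k M` (the `∞`-component of the reduction of `X₀(M p)` is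
`X₀(M)_k`; residue degree `f = 1`, `RIB.MP.ribmp_red_res`).

* `tresmi5_redF`  : `StmtRedF` at level `M p` with values in `F̄_M`:
                    `Y ∈ A((q))`, `kronIncl Y ∈ F_{Mp}(ℚ̄)` ⇒ `kronRed Y ∈ F̄_M`;
* `tresmi5_gaussRed_mem` : `GaussRed (M p) A x w ⇒ w ∈ F̄_M`;
* `tresmi5_main`  : **(I5)** every `u ≠ 0` of `F_{Mp}(ℚ̄)` has a Gauss reduction `r ∈ F̄_M`,
                    `R38Red A u r`;
* `tresmi5_mem`   : every Gauss reduction of `u ∈ F_{Mp}(ℚ̄)` lies in `F̄_M`.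

Proof of `tresmi5_redF`: `y = kronIncl Y` is defined over `K₂ = ℚ̄^I · K₁` (`K₁` a Galois number
field), `A ∩ K₂` is a DVR, `y₂ ∈ V_∞(K₂)`, and `ribmpRedK_mem` (= the two-valuation theorem).
-/

set_option autoImplicit false
set_option linter.unusedSectionVars false
set_option linter.unusedVariables false
set_option linter.style.haveILetI false
set_option linter.style.longLine false
set_option synthInstance.maxHeartbeats 400000
set_option maxHeartbeats 1600000

noncomputable section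

namespace Fermat.Agent.R38

open ModularCurve AlgebraicCurve Fermat.Agent.ES Fermat.Agent.ES.G2 Fermat.Agent.INJ
  Fermat.Agent.UNIP Fermat.Agent.STB Fermat.Agent.ES.M Fermat.Agent.DEU Fermat.Agent.S24
  Fermat.Agent.RIB.MP

variable {M p : ℕ} [NeZero M] [NeZero p] [NeZero (M * p)] {A : ValuationSubring Qb}

/-- **`StmtRedF` at level `M p`, with values in `F̄_M`.** -/
theorem tresmi5_redF (hp : p.Prime) (hpM : ¬ p ∣ M) (hA : A.LiesOverPrime p)
    (Y : LaurentSeries A) (hY : kronIncl A Y ∈ modularFunctionFieldBar (M * p)) :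
    kronRed A Y ∈ modularFunctionFieldFullC (kA A) M := by
  classical
  -- a field of definition with a discrete valuation
  obtain ⟨K', hK'fin, -, hK'⟩ := mg_exists_descent (N := M * p) ∅ hY
  obtain ⟨K₁, hK'K₁, hK₁fin, hK₁gal, -⟩ := rat_exists_stable_finset (N := M * p) ∅ K' hK'fin
  haveI : NumberField K₁ := @NumberField.mk _ _ inferInstance hK₁fin
  haveI : IsGalois ℚ K₁ := hK₁gal
  haveI hdvr : IsDiscreteValuationRing ↥(beta0Ring A (beta0Field A ⊔ K₁)) :=
    beta0Ring_isDVR_sup K₁ hp hA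
  obtain ⟨y₂, hy₂⟩ := hK' (beta0Field A ⊔ K₁) (hK'K₁.trans le_sup_right)
  obtain ⟨π, hπ⟩ := IsDiscreteValuationRing.exists_irreducible ↥(beta0Ring A (beta0Field A ⊔ K₁))
  -- `y₂` is integral over the base
  have hcoe : coeffMap (algebraMap ↥(beta0Field A ⊔ K₁) Qb) (y₂ : LaurentSeries ↥(beta0Field A ⊔ K₁))
      = kronIncl A Y := congrArg Subtype.val hy₂
  have hint : KronInt (beta0Ring A (beta0Field A ⊔ K₁))
      (y₂ : LaurentSeries ↥(beta0Field A ⊔ K₁)) := by
    intro n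
    rw [mem_beta0Ring]
    have h1 := congrArg (fun z : LaurentSeries Qb => z.coeff n) hcoe
    simp only [coeffMap_coeff] at h1
    have h2 : A.subtype (Y.coeff n) ∈ A := (Y.coeff n).2
    rw [← h1] at h2
    exact h2
  obtain ⟨T, hT⟩ := hint.exists_lift
  have hmem : y₂ ∈ vtInf (E := ↥(beta0Field A ⊔ K₁)) (vtBase_residue hπ) (M * p) := by
    rw [mem_vtInf, ← hT]
    exact coeffMap_mem_gaussRing _ _ T
  -- the two reductions agree
  have hG : GaussRed (M * p) A (nfEmb (beta0Field A ⊔ K₁) (M * p) y₂) (kronRed A Y) := by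
    rw [hy₂]
    refine ⟨Y, 1, hY, ?_, ?_, ?_, ?_⟩
    · rw [map_one]; exact one_mem _
    · rw [map_one]; exact one_ne_zero
    · rw [map_one, mul_one]
    · rw [map_one, mul_one]
  have heq := ribmpRedK_eq hπ (M * p) (x := ⟨y₂, hmem⟩) hG
  rw [← heq]
  exact ribmpRedK_mem hp hpM hA hπ (cheapIota.comp (algebraMap ↥(beta0Field A ⊔ K₁) Qb)) (stmtRedF M A p hp hpM hA)
    ⟨y₂, hmem⟩

/-- the fraction-form Gauss reduction at level `M p` has values in `F̄_M` -/
theorem tresmi5_gaussRed_mem (hp : p.Prime) (hpM : ¬ p ∣ M) (hA : A.LiesOverPrime p)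
    {x : FF (M * p)} {w : LaurentSeries (kA A)} (h : GaussRed (M * p) A x w) :
    w ∈ modularFunctionFieldFullC (kA A) M := by
  obtain ⟨Y₁, Y₂, hY₁m, hY₂m, hY₂, -, hw⟩ := h
  have h1 : w = kronRed A Y₁ * (kronRed A Y₂)⁻¹ := by
    rw [← hw, mul_assoc, mul_inv_cancel₀ hY₂, mul_one]
  rw [h1]
  exact mul_mem (tresmi5_redF hp hpM hA Y₁ hY₁m) (inv_mem (tresmi5_redF hp hpM hA Y₂ hY₂m))

/-- **(I5)**: every nonzero function of level `M p` has a Gauss reduction in `F̄_M`. -/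
theorem tresmi5_main (hp : p.Prime) (hpM : ¬ p ∣ M) (hA : A.LiesOverPrime p)
    (u : modularFunctionFieldBar (M * p)) (hu : u ≠ 0) :
    ∃ r : LaurentSeries (kA A), r ∈ modularFunctionFieldFullC (kA A) M ∧
      R38Red A (u : LaurentSeries Qb) r := by
  obtain ⟨c, y₁, y₂, hc, hy₁m, hy₂m, hp₁, hp₂, he⟩ := stmtPrim (M * p) p hp A hA u hu
  obtain ⟨Y₁, rfl⟩ := hp₁.1.exists_lift
  obtain ⟨Y₂, rfl⟩ := hp₂.1.exists_lift
  have h1 := (kronPrim_kronIncl_iff Y₁).1 hp₁
  have h2 := (kronPrim_kronIncl_iff Y₂).1 hp₂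
  refine ⟨kronRed A Y₁ * (kronRed A Y₂)⁻¹,
    mul_mem (tresmi5_redF hp hpM hA Y₁ hy₁m) (inv_mem (tresmi5_redF hp hpM hA Y₂ hy₂m)),
    c, Y₁, Y₂, hc, h1, h2, he, ?_⟩
  rw [mul_assoc, inv_mul_cancel₀ h2, mul_one]

/-- every Gauss reduction of a function of level `M p` lies in `F̄_M` -/
theorem tresmi5_mem (hp : p.Prime) (hpM : ¬ p ∣ M) (hA : A.LiesOverPrime p)
    {u : modularFunctionFieldBar (M * p)} {r : LaurentSeries (kA A)}
    (h : R38Red A (u : LaurentSeries Qb) r) :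
    r ∈ modularFunctionFieldFullC (kA A) M := by
  have hu : u ≠ 0 := fun h0 => h.ne_zero_left (by rw [h0]; rfl)
  obtain ⟨r', hr', h'⟩ := tresmi5_main hp hpM hA u hu
  obtain ⟨a, ha, e⟩ := h'.unique h
  rw [e]
  exact mul_mem (hahnC_mem_intermediateField a _) hr'

end Fermat.Agent.R38

end
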