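/-
ROW 38, TRES, input (I7 OGG) of helper89's frame theorem `tresmono_frame`
(`R38/TresMonoFrame.lean`), helper10 (helper44 RULING 16).

Frame = `RIB/MP/RedA.lean`, section Main: level `M₁ q` on the `K`-side (`M₁` = the level `M'` of
the frame theorem, `q` = its `p`), `W = V_∞ = mgvV hπ ιC hq hqM true`,
`ρ = ribmpRedF hq hqM hA hπ ιC hRedF : V_∞ →+* F̄_{M₁}`.

The Ogg unit is `h := S36.s36tuV ↥K₀ ιC`, its reduction is `hb := S28.uInvS (kA A) q`
(`= Δ̄ · (Δ̄⁻¹)^q`, `tres5o_uInvS_eq`).  EVERY hypothesis of the frame theorem about `h`, `hb`: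

 * `tresmi7_hh`     `hh  : W.valuation h = 1`
 * `tresmi7_hhb`    `hhb : hb ∈ F̄_M`  for EVERY level `M` (so both `hhb` and `hhb'`)
 * `tresmi7_coe`    `(ρ ⟨h, _⟩ : k((q))) = hb`   (any membership proof)
 * `tresmi7_hρh`    `hρh : ρ ⟨h, tresdn_mem W hh⟩ = ⟨hb, hhb'⟩`
 * `tresmi7_hhecke` `hhecke` (exact shape)
 * `tresmi7_hb_ne_zero`
 * `tresmi7_r38Red` `R38Red A (nfEmb h) hb`
 * `tresmi7_cover`  the same `hρh` for an extension `(F', W', ρ')` of `(F, W, ρ)` (the cover case):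
                    from `ρ' ∘ algebraMap = ρ` on the Ogg unit.
-/
import Fermat.Agent.RIB.MP.RedA
import Fermat.Agent.R38.TresDictNode
import Fermat.Agent.R38.TresOgg
import Fermat.Agent.R38.TresOggRed
import Fermat.Agent.R38.TresEisOggInv

set_option autoImplicit false
set_option linter.unusedSectionVars false
set_option linter.unusedVariables false
set_option linter.style.haveILetI false
set_option linter.style.longLine false
set_option synthInstance.maxHeartbeats 400000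
set_option maxHeartbeats 1600000

noncomputable section

namespace Fermat.Agent.R38

open ModularCurve AlgebraicCurve Fermat.Agent.ES Fermat.Agent.ES.G2 Fermat.Agent.INJ
  Fermat.Agent.UNIP Fermat.Agent.STB Fermat.Agent.ES.M Fermat.Agent.DEU Fermat.Agent.S36
  Fermat.Agent.S24 Fermat.Agent.RIB.MP Fermat.Agent.S28 Fermat.Agent.S33

section I7

variable {M₁ q : ℕ} [NeZero M₁] [NeZero q] [NeZero (M₁ * q)] (hq : q.Prime) (hqM : ¬ q ∣ M₁)
  {A : ValuationSubring Qb} (hA : A.LiesOverPrime q) {K₀ : IntermediateField ℚ Qb}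
  [IsDiscreteValuationRing ↥(beta0Ring A K₀)]
  {π : ↥(beta0Ring A K₀)} (hπ : Irreducible π) (ιC : ↥K₀ →+* ℂ)

include hA in
/-- **`hh`** : the Ogg unit is a unit of the Gauss sheet `V_∞`. -/
theorem tresmi7_hh :
    (mgvV hπ ιC hq hqM true).valuation (s36tuV ↥K₀ ιC (q := q) (M := M₁)) = 1 :=
  tres5o_val_true hπ ιC hq hqM hA

include hq hA in
/-- **`hhb`, `hhb'`** : `h̄ = uInvS k q ∈ F̄_M` for every level `M`. -/
theorem tresmi7_hhb (M : ℕ) : uInvS (kA A) q ∈ modularFunctionFieldFullC (kA A) M := by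
  haveI : Fact q.Prime := ⟨hq⟩
  haveI : CharP (kA A) q := Fermat.Agent.RED.charP_residueField A hq hA
  exact tres5o_uInvS_mem q (kA A) M

/-- `h̄ ≠ 0` -/
theorem tresmi7_hb_ne_zero (A : ValuationSubring Qb) (q : ℕ) [NeZero q] :
    uInvS (kA A) q ≠ 0 :=
  tres5o_uInvS_ne_zero (kA A)

include hA in
/-- **`ρ(h) = h̄`** as a Laurent series, for any proof of `h ∈ V_∞`. -/
theorem tresmi7_coe (hRedF : StmtRedF M₁ A)
    (hV : s36tuV ↥K₀ ιC (q := q) (M := M₁) ∈ mgvV hπ ιC hq hqM true) :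
    ((ribmpRedF hq hqM hA hπ ιC hRedF ⟨s36tuV ↥K₀ ιC, hV⟩ :
      ↥(modularFunctionFieldFullC (kA A) M₁)) : LaurentSeries (kA A)) = uInvS (kA A) q := by
  rw [ribmpRedF_coe]
  exact ribmpRedK_eq hπ (M₁ * q) (tres5o_gaussRed_uInvS ιC)

include hA in
/-- **`hρh`** of `tresmono_frame` (no-cover case `F' = F`, `W = V_∞`, `ρ = ribmpRedF`). -/
theorem tresmi7_hρh (hRedF : StmtRedF M₁ A) :
    ribmpRedF hq hqM hA hπ ιC hRedF
        ⟨s36tuV ↥K₀ ιC, tresdn_mem (mgvV hπ ιC hq hqM true) (tresmi7_hh hq hqM hA hπ ιC)⟩ =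
      ⟨uInvS (kA A) q, tresmi7_hhb hq hA M₁⟩ :=
  Subtype.ext (tresmi7_coe hq hqM hA hπ ιC hRedF _)

/-- **`hhecke`** of `tresmono_frame` for `hb := uInvS (kA A) q`. -/
theorem tresmi7_hhecke (A : ValuationSubring Qb) {q : ℕ} [NeZero q] (hq : q.Prime) :
    ∀ (ℓ : ℕ) [NeZero ℓ], ℓ.Prime → ℓ ≠ q → ∀ ζ : (kA A)ˣ, IsPrimitiveRoot ζ ℓ →
      ∃ c : kA A, c ≠ 0 ∧
        kronHecke ℓ ζ (uInvS (kA A) q) = HahnSeries.C c * uInvS (kA A) q ^ (ℓ + 1) :=
  tres4o_hhecke_uInvS (kA A) q hq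

/-- the Gauss reduction of the Ogg unit, `R38Red` form -/
theorem tresmi7_r38Red :
    R38Red A
      ((nfEmb K₀ (M₁ * q) (s36tuV ↥K₀ ιC (q := q) (M := M₁)) : modularFunctionFieldBar (M₁ * q)) :
        LaurentSeries Qb)
      (uInvS (kA A) q) := by
  rw [tres5o_nfEmb_coe]
  exact tres5o_r38Red_uInvS

end I7

section Cover

variable {F F' kF : Type*} [Field F] [Field F'] [Algebra F F'] [CommRing kF]

/-- **`hρh` in the cover case**: `(F', W', ρ')` extends `(F, W, ρ)` on the element `h`. -/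
theorem tresmi7_cover (W : ValuationSubring F) (W' : ValuationSubring F')
    (ρ : ↥W →+* kF) (ρ' : ↥W' →+* kF) {h : F} (hh : W.valuation h = 1)
    (hh' : W'.valuation (algebraMap F F' h) = 1)
    (hcompat : ∀ (x : F) (hx : x ∈ W) (hx' : algebraMap F F' x ∈ W'),
      ρ' ⟨algebraMap F F' x, hx'⟩ = ρ ⟨x, hx⟩)
    {hb : kF} (hρh : ρ ⟨h, tresdn_mem W hh⟩ = hb) :
    ρ' ⟨algebraMap F F' h, tresdn_mem W' hh'⟩ = hb := by
  rw [hcompat h (tresdn_mem W hh) (tresdn_mem W' hh'), hρh]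

/-- a valuation ring `W'` of `F'` over `W` (i.e. `W'.comap = W`) has the same units on `F` -/
theorem tresmi7_cover_val (W : ValuationSubring F) (W' : ValuationSubring F')
    (hWW' : ∀ x : F, x ∈ W → algebraMap F F' x ∈ W') {h : F} (hh : W.valuation h = 1) :
    W'.valuation (algebraMap F F' h) = 1 := by
  have h0 : h ≠ 0 := by
    rintro rfl
    rw [map_zero] at hh
    exact zero_ne_one hh
  have h1 : algebraMap F F' h ∈ W' := hWW' h (tresdn_mem W hh)
  have h2 : algebraMap F F' h⁻¹ ∈ W' := hWW' h⁻¹ (tresdn_mem W (tresdn_inv_val W hh))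
  have h3 : W'.valuation (algebraMap F F' h) ≤ 1 := (W'.valuation_le_one_iff _).2 h1
  have h4 : W'.valuation (algebraMap F F' h⁻¹) ≤ 1 := (W'.valuation_le_one_iff _).2 h2
  rw [map_inv₀, map_inv₀] at h4
  have h5 : W'.valuation (algebraMap F F' h) ≠ 0 :=
    (Valuation.ne_zero_iff _).2 ((map_ne_zero (algebraMap F F')).2 h0)
  have h6 : 1 ≤ W'.valuation (algebraMap F F' h) := by
    rwa [inv_le_one₀ (zero_lt_iff.2 h5)] at h4
  exact le_antisymm h3 h6

end Cover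

end Fermat.Agent.R38

end
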