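/-
ROW 38, TRES, piece FAC-ASM, **(M2) on the Gauss sheet of the cover** (helper74, for helper89's
`StmtMonoCoverData` / helper41's block (β)): the NORMALISATION `y = w / π ^ m` of the Kummer
function `w` of the cover on a sheet `W = T.W k` of a split monogenic extension
(`Tres5Gen`, `R38/TresCover.lean`), with respect to ANY uniformizer `π′` of the base valuation
ring `V` (in the application `V = V_∞ = mgvV … true`, `π′` the constant `π` of `A ∩ K₀`,
`T` = helper53's `tres5kiv_descend`, for which `T.π = π′` on the nose).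

Pure algebra (Mathlib + `R38/TresCoverOrd.lean`).

* `tresm2_val_one_comap` : units of `V` are units of `W` (`W ∩ F = V`);
* `tresm2_unif_eq`       : two uniformizers of `V` differ by a unit;
* `tresm2_exists_of_eq`  : `T.π = π′` ⇒ `∃ m, W.valuation (w / π′ ^ m) = 1`;
* `tresm2_exists`        : the same for any uniformizer `π′` of `V`;
* `tresm2_pack`          : `∃ m y, y = w / π′ ^ m ∧ W.valuation y = 1 ∧ y ≠ 0 ∧
                           tres5Ord W π′ w = m ∧ (hm in the `T.π`-form of `tresft_main_conc`)`;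
* `tresm2_hh`            : `W.valuation (algebraMap F L h) = 1` for a unit `h` of `V`.
-/
import Fermat.Agent.R38.TresCoverOrd

set_option autoImplicit false
set_option linter.style.haveILetI false
set_option linter.unusedSectionVars false
set_option linter.unusedVariables false

namespace Fermat.Agent.R38

section M2

variable {F L : Type*} [Field F] [Field L] [Algebra F L]

/-- a unit of `V = W ∩ F` is a unit of `W` -/
theorem tresm2_val_one_comap (V : ValuationSubring F) (W : ValuationSubring L)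
    (hWV : W.comap (algebraMap F L) = V) {x : F} (hx : V.valuation x = 1) :
    W.valuation (algebraMap F L x) = 1 := by
  have hx0 : x ≠ 0 := by
    rintro rfl
    rw [map_zero] at hx
    exact zero_ne_one hx
  have h1 : x ∈ V := (V.valuation_le_one_iff x).1 hx.le
  have h2 : x⁻¹ ∈ V := by
    rw [← V.valuation_le_one_iff, map_inv₀, hx, inv_one]
  have h1' : algebraMap F L x ∈ W := by
    have : x ∈ W.comap (algebraMap F L) := by rw [hWV]; exact h1
    exact this
  have h2' : algebraMap F L x⁻¹ ∈ W := by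
    have : x⁻¹ ∈ W.comap (algebraMap F L) := by rw [hWV]; exact h2
    exact this
  have h3 : W.valuation (algebraMap F L x) ≤ 1 := (W.valuation_le_one_iff _).2 h1'
  have h4 : W.valuation (algebraMap F L x⁻¹) ≤ 1 := (W.valuation_le_one_iff _).2 h2'
  rw [map_inv₀, map_inv₀] at h4
  have h5 : W.valuation (algebraMap F L x) ≠ 0 :=
    (Valuation.ne_zero_iff _).2 ((map_ne_zero _).2 hx0)
  have h6 : 1 ≤ W.valuation (algebraMap F L x) := by
    by_contra hlt
    rw [not_le] at hlt
    have h7 : 1 < (W.valuation (algebraMap F L x))⁻¹ := (one_lt_inv₀ (zero_lt_iff.2 h5)).2 hlt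
    exact absurd h4 (not_le.2 h7)
  exact le_antisymm h3 h6

/-- **`hh`**: the image of a unit of `V` is a unit of `W` (e.g. the Ogg unit) -/
theorem tresm2_hh (V : ValuationSubring F) (W : ValuationSubring L)
    (hWV : W.comap (algebraMap F L) = V) {h : F} (hh : V.valuation h = 1) :
    W.valuation (algebraMap F L h) = 1 :=
  tresm2_val_one_comap V W hWV hh

/-- two uniformizers of a discrete valuation subring differ by a unit -/
theorem tresm2_unif_eq (V : ValuationSubring F) {π π' : F} (hπ : π ∈ V.nonunits)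
    (hπ0 : π ≠ 0) (hπ' : π' ∈ V.nonunits) (hπ'0 : π' ≠ 0)
    (hunif : ∃ m : ℤ, V.valuation (π' / π ^ m) = 1)
    (hunif' : ∃ m : ℤ, V.valuation (π / π' ^ m) = 1) :
    V.valuation (π' / π) = 1 := by
  obtain ⟨m, hm⟩ := hunif
  obtain ⟨m', hm'⟩ := hunif'
  have hv : V.valuation π ≠ 0 := (Valuation.ne_zero_iff _).2 hπ0
  have hv' : V.valuation π' ≠ 0 := (Valuation.ne_zero_iff _).2 hπ'0
  have e1 : V.valuation π' = V.valuation π ^ m := by
    rw [map_div₀, map_zpow₀, div_eq_one_iff_eq (zpow_ne_zero _ hv)] at hm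
    exact hm
  have e2 : V.valuation π = V.valuation π' ^ m' := by
    rw [map_div₀, map_zpow₀, div_eq_one_iff_eq (zpow_ne_zero _ hv')] at hm'
    exact hm'
  have e3 : V.valuation (π ^ (m * m' - 1)) = 1 := by
    rw [map_zpow₀, zpow_sub_one₀ hv, zpow_mul, ← e1, ← e2, mul_inv_cancel₀ hv]
  have hmm : m * m' - 1 = 0 := tres5_zpow_val_eq_one hπ hπ0 e3
  have hmm' : m * m' = 1 := by omega
  have hπlt : V.valuation π < 1 := (V.mem_nonunits_iff).1 hπ
  have hπ'lt : V.valuation π' < 1 := (V.mem_nonunits_iff).1 hπ'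
  rcases Int.eq_one_or_neg_one_of_mul_eq_one hmm' with h1 | h1
  · rw [h1, zpow_one] at hm
    exact hm
  · exfalso
    rw [h1, zpow_neg, zpow_one] at e1
    have : 1 < V.valuation π' := by
      rw [e1]
      exact (one_lt_inv₀ (zero_lt_iff.2 hv)).2 hπlt
    exact absurd hπ'lt (not_lt.2 this.le)

variable {V : ValuationSubring F} {n : ℕ}

/-- **(M2)**, the case `T.π = π′` (helper53's `tres5kiv_descend`) -/
theorem tresm2_exists_of_eq (T : Tres5Gen F L V n) {k : ℕ} (hk : k < n) {π' : F}
    (hT : T.π = π') {w : L} (hw : w ≠ 0) :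
    ∃ m : ℤ, (T.W k).valuation (w / algebraMap F L π' ^ m) = 1 := by
  obtain ⟨m, hm⟩ := T.W_unif hk hw
  exact ⟨m, by rw [← hT]; exact hm⟩

/-- the unit `T.π / π′` on the sheet -/
theorem tresm2_unit (T : Tres5Gen F L V n) {k : ℕ} (hk : k < n) {π' : F}
    (hππ' : V.valuation (T.π / π') = 1) :
    (T.W k).valuation (algebraMap F L T.π / algebraMap F L π') = 1 := by
  rw [← map_div₀]
  exact tresm2_val_one_comap V (T.W k) (T.W_comap hk) hππ'

/-- **(M2)** for a uniformizer `π′` of `V` with `T.π / π′` a unit -/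
theorem tresm2_exists_of_unit (T : Tres5Gen F L V n) {k : ℕ} (hk : k < n) {π' : F}
    (hπ'0 : π' ≠ 0) (hππ' : V.valuation (T.π / π') = 1) {w : L} (hw : w ≠ 0) :
    ∃ m : ℤ, (T.W k).valuation (w / algebraMap F L π' ^ m) = 1 := by
  obtain ⟨m, hm⟩ := T.W_unif hk hw
  refine ⟨m, ?_⟩
  have hπL : algebraMap F L T.π ≠ 0 := (map_ne_zero _).2 T.hπ0
  have hπ'L : algebraMap F L π' ≠ 0 := (map_ne_zero _).2 hπ'0
  have e : w / algebraMap F L π' ^ m =
      w / algebraMap F L T.π ^ m * (algebraMap F L T.π / algebraMap F L π') ^ m := by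
    rw [div_zpow, div_mul_div_comm, mul_comm w, mul_div_mul_left _ _ (zpow_ne_zero _ hπL)]
  rw [e, map_mul, hm, one_mul, map_zpow₀, tresm2_unit T hk hππ', one_zpow]

/-- **(M2)** for ANY uniformizer `π′` of `V` -/
theorem tresm2_exists (T : Tres5Gen F L V n) {k : ℕ} (hk : k < n) {π' : F}
    (hπ' : π' ∈ V.nonunits) (hπ'0 : π' ≠ 0)
    (hunif' : ∀ x : F, x ≠ 0 → ∃ m : ℤ, V.valuation (x / π' ^ m) = 1) {w : L} (hw : w ≠ 0) :
    ∃ m : ℤ, (T.W k).valuation (w / algebraMap F L π' ^ m) = 1 :=
  tresm2_exists_of_unit T hk hπ'0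
    (tresm2_unif_eq V hπ' hπ'0 T.hπ T.hπ0 (hunif' _ T.hπ0) (T.hunif _ hπ'0)) hw

/-- **(M2), the pack**: `m`, `y = w / π′ ^ m` with `hy`, `y ≠ 0`, and `hm` in the `T.π`-form
(of `tresft_main_conc`) and in the `π′`-form (of `tres5npj_hfin`). -/
theorem tresm2_pack (T : Tres5Gen F L V n) {k : ℕ} (hk : k < n) {π' : F}
    (hT : T.π = π') {w : L} (hw : w ≠ 0) :
    ∃ (m : ℤ) (y : L), y = w / algebraMap F L π' ^ m ∧ (T.W k).valuation y = 1 ∧ y ≠ 0 ∧
      (T.W k).valuation (w / algebraMap F L π' ^ m) = 1 ∧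
      (T.W k).valuation (w / algebraMap F L T.π ^ m) = 1 ∧
      tres5Ord (T.W k) (algebraMap F L π') w = m := by
  obtain ⟨m, hm⟩ := T.W_unif hk hw
  have hm' : (T.W k).valuation (w / algebraMap F L π' ^ m) = 1 := by rw [← hT]; exact hm
  refine ⟨m, w / algebraMap F L π' ^ m, rfl, hm', ?_, hm', hm, ?_⟩
  · intro h0
    rw [h0, map_zero] at hm'
    exact zero_ne_one hm'
  · have hnu : algebraMap F L π' ∈ (T.W k).nonunits := by
      rw [← hT]
      exact T.π_mem_nonunits hk
    have h0 : algebraMap F L π' ≠ 0 := by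
      rw [← hT]
      exact (map_ne_zero _).2 T.hπ0
    exact tres5Ord_eq hnu h0 hm'

end M2

end Fermat.Agent.R38
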