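import Fermat.Agent.R38.TresMono
import Fermat.Agent.R38.TresNodeAt

/-!
# Row 38, TRES, piece FAC-ASM-MAIN (helper89), part M2: NORMALISATION (helper87)

The raw output of the local factorisation (LF) at a point of the cover (`tres5n_cross_at`,
`tres5n_smooth_at`, `R38/TresNodeAt.lean`) is `u = ε · X ^ a · Y ^ b · γ ^ p` (thin node,
`w ϖ = X Y`) resp. `u = ε · ϖ ^ a · γ ^ p` (smooth point).  The assembly `tresmono_pt`
(`R38/TresMono.lean`) wants the per-point hypothesis `TresMonoPt W O′ p c e y h` for the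
NORMALISED function `y = u / ϖ ^ a` (a unit of the Gauss sheet `W`) and the Ogg unit `h`.

ABSTRACT part (`L` a field, `W : ValuationSubring L` the Gauss sheet, `O′ : Subring L`):

* `tresmn_val`     : `W u = W ϖ ^ a ⇒ W (u / ϖ ^ a) = 1`;
* `tresmn_cross`   : `u = ε X ^ a Y ^ b γ ^ p`, `h = ε′ Y ^ e`, `w ϖ = X Y`, `W Y = 1`,
                     `p ∣ (b − a) − c`  ⇒  `TresMonoPt W O′ p c e (u / ϖ ^ a) h`
                     (`u / ϖ ^ a = (ε w ^ a) · Y ^ (b − a) · γ ^ p`: node branch with `X := Y`);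
* `tresmn_cross'`  : the same with the raw Ogg factorisation `h = ε′ X ^ a′ Y ^ b′` and
                     `W h = 1` (then `a′ = 0`, `e := b′`);
* `tresmn_smooth`  : `u = ε ϖ ^ a γ ^ p`, `h = ε′`  ⇒  `TresMonoPt W O′ p c e (u / ϖ ^ a) h`;
* `tresmn_cusp`    : `u = ε ϖ ^ a γ ^ p`  ⇒  `StbFacAt O′ p (u / ϖ ^ a)`.

INSTANCE part (frame of `R38/TresNodeAt.lean`): `tresmn_cross_at`, `tresmn_smooth_at`,
`tresmn_cusp_at` call `tres5n_cross_at` / `tres5n_smooth_at` and `tres5n_unique_at`; the second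
sheet `W₂` and the exponent `b` stay visible (DECK is plugged by the consumer).
-/

set_option autoImplicit false
set_option linter.unusedSectionVars false
set_option linter.unusedVariables false
set_option linter.style.haveILetI false
set_option linter.style.longLine false

noncomputable section

namespace Fermat.Agent.R38

open IsLocalRing AlgebraicCurve Polynomial Fermat.Agent.UNIP Fermat.Agent.STB

section Abs

variable {L : Type*} [Field L]

/-- `W u = W ϖ ^ a ⇒ W (u / ϖ ^ a) = 1` -/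
theorem tresmn_val (W : ValuationSubring L) {u ϖ : L} (hϖ0 : ϖ ≠ 0) (a : ℤ)
    (h : W.valuation u = W.valuation ϖ ^ a) : W.valuation (u / ϖ ^ a) = 1 := by
  have hv0 : W.valuation ϖ ≠ 0 := (_root_.map_ne_zero _).2 hϖ0
  rw [map_div₀, map_zpow₀, h]
  exact div_self (zpow_ne_zero _ hv0)

/-- the `a`-th power (`a : ℤ`) of a unit of a subring, as an element of the subring -/
theorem tresmn_unit_zpow (O' : Subring L) (w : O') (hw : IsUnit w) (a : ℤ) :
    ∃ v : O', IsUnit v ∧ (v : L) = (w : L) ^ a := by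
  refine ⟨((hw.unit ^ a : O'ˣ) : O'), Units.isUnit _, ?_⟩
  have h1 : ((Units.map (O'.subtype : O' →* L) (hw.unit ^ a) : Lˣ) : L) =
      ((((hw.unit ^ a : O'ˣ)) : O') : L) := rfl
  rw [← h1, map_zpow, Units.val_zpow_eq_zpow_val]
  rfl

/-- **(M2), node.**  `u = ε X ^ a Y ^ b γ ^ p` and `h = ε′ Y ^ e` at a thin node `w ϖ = X Y` on
the sheet `W` where `Y` is a unit: `TresMonoPt` for the normalised `u / ϖ ^ a`. -/
theorem tresmn_cross (W : ValuationSubring L) (O' : Subring L) (ϖ X Y w : O')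
    (hw : IsUnit w) (hϖ : w * ϖ = X * Y) (hYW : W.valuation (Y : L) = 1) (hϖ0 : (ϖ : L) ≠ 0)
    {p : ℕ} (u h γ : L) (ε ε' : O') (hε : IsUnit ε) (hε' : IsUnit ε') (a b e c : ℤ)
    (hγ : γ ≠ 0)
    (hu : u = (ε : L) * (X : L) ^ a * (Y : L) ^ b * γ ^ p)
    (hh : h = (ε' : L) * (Y : L) ^ e)
    (hc : (p : ℤ) ∣ (b - a) - c) :
    TresMonoPt W O' p c e (u / (ϖ : L) ^ a) h := by
  obtain ⟨v, hv, hvw⟩ := tresmn_unit_zpow O' w hw a
  have hY0 : (Y : L) ≠ 0 := by
    intro h0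
    rw [h0, map_zero] at hYW
    exact zero_ne_one hYW
  have hϖL : (w : L) * (ϖ : L) = (X : L) * (Y : L) := by
    have := congrArg (fun z : O' => (z : L)) hϖ
    simpa using this
  have hXeq : (X : L) = (w : L) * (ϖ : L) / (Y : L) := by
    rw [hϖL, mul_div_assoc, div_self hY0, mul_one]
  refine Or.inr ⟨(Y : L), γ, ε * v, ε', b - a, hε.mul hv, hε', hYW, hγ, ?_, hh, hc⟩
  rw [hu, hXeq, Subring.coe_mul, hvw, div_zpow, mul_zpow, zpow_sub₀ hY0]
  have hϖa : (ϖ : L) ^ a ≠ 0 := zpow_ne_zero _ hϖ0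
  have hYa : (Y : L) ^ a ≠ 0 := zpow_ne_zero _ hY0
  field_simp

/-- units of `O′ ⊆ W` have valuation one -/
theorem tresmn_val_unit (W : ValuationSubring L) (O' : Subring L) (hO'W : ∀ x ∈ O', x ∈ W)
    (η : O') (hη : IsUnit η) : W.valuation (η : L) = 1 := by
  obtain ⟨η', hηη'⟩ := hη.exists_right_inv
  have h1 : (η : L) * (η' : L) = 1 := by
    have := congrArg (fun z : O' => (z : L)) hηη'
    simpa using this
  have h2 : W.valuation (η : L) ≤ 1 := (W.valuation_le_one_iff _).2 (hO'W _ η.2)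
  have h3 : W.valuation (η' : L) ≤ 1 := (W.valuation_le_one_iff _).2 (hO'W _ η'.2)
  have h4 : W.valuation (η : L) * W.valuation (η' : L) = 1 := by
    rw [← map_mul, h1, map_one]
  rcases lt_or_eq_of_le h2 with hlt | heq
  · exfalso
    have : W.valuation (η : L) * W.valuation (η' : L) < 1 := by
      calc W.valuation (η : L) * W.valuation (η' : L)
          ≤ W.valuation (η : L) * 1 := by gcongr
        _ = W.valuation (η : L) := mul_one _
        _ < 1 := hlt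
    exact absurd h4 (ne_of_lt this)
  · exact heq

/-- at a node `w ϖ = X Y` on a sheet where `Y` is a unit: `W X = W ϖ` -/
theorem tresmn_val_X (W : ValuationSubring L) (O' : Subring L) (hO'W : ∀ x ∈ O', x ∈ W)
    (ϖ X Y w : O') (hw : IsUnit w) (hϖ : w * ϖ = X * Y) (hYW : W.valuation (Y : L) = 1) :
    W.valuation (X : L) = W.valuation (ϖ : L) := by
  have hϖL : (w : L) * (ϖ : L) = (X : L) * (Y : L) := by
    have := congrArg (fun z : O' => (z : L)) hϖ
    simpa using this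
  have h1 := congrArg W.valuation hϖL
  rw [map_mul, map_mul, tresmn_val_unit W O' hO'W w hw, one_mul, hYW, mul_one] at h1
  exact h1.symm

/-- **the Ogg exponent on the Gauss sheet**: `h = ε′ X ^ a′ Y ^ b′`, `W h = 1`, `X ∈ 𝔪(W)`,
`Y` a unit of `W` ⇒ `a′ = 0`. -/
theorem tresmn_ogg_exp (W : ValuationSubring L) (O' : Subring L) (hO'W : ∀ x ∈ O', x ∈ W)
    (X Y : O') (hYW : W.valuation (Y : L) = 1) (hXW : W.valuation (X : L) < 1)
    (hX0 : (X : L) ≠ 0) (h : L) (ε' : O') (hε' : IsUnit ε') (a' b' : ℤ)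
    (hh : h = (ε' : L) * (X : L) ^ a' * (Y : L) ^ b') (hhW : W.valuation h = 1) :
    a' = 0 ∧ h = (ε' : L) * (Y : L) ^ b' := by
  have ha' : a' = 0 := by
    have h1 := congrArg W.valuation hh
    rw [hhW, map_mul, map_mul, tresmn_val_unit W O' hO'W ε' hε', one_mul, map_zpow₀,
      map_zpow₀, hYW, one_zpow, mul_one] at h1
    exact tresdn_zpow_eq_one W hXW hX0 h1.symm
  exact ⟨ha', by rw [hh, ha', zpow_zero, mul_one]⟩

/-- **(M2), node, raw Ogg factorisation.**  As `tresmn_cross`, with `h = ε′ X ^ a′ Y ^ b′` and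
`W h = 1` (then `a′ = 0` by `tresmn_ogg_exp`, and `e := b′`). -/
theorem tresmn_cross' (W : ValuationSubring L) (O' : Subring L) (hO'W : ∀ x ∈ O', x ∈ W)
    (ϖ X Y w : O')
    (hw : IsUnit w) (hϖ : w * ϖ = X * Y) (hYW : W.valuation (Y : L) = 1)
    (hϖW : W.valuation (ϖ : L) < 1) (hϖ0 : (ϖ : L) ≠ 0)
    {p : ℕ} (u h γ : L) (ε ε' : O') (hε : IsUnit ε) (hε' : IsUnit ε') (a b a' b' c : ℤ)
    (hγ : γ ≠ 0)
    (hu : u = (ε : L) * (X : L) ^ a * (Y : L) ^ b * γ ^ p)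
    (hh : h = (ε' : L) * (X : L) ^ a' * (Y : L) ^ b') (hhW : W.valuation h = 1)
    (hc : (p : ℤ) ∣ (b - a) - c) :
    TresMonoPt W O' p c b' (u / (ϖ : L) ^ a) h := by
  have hXW : W.valuation (X : L) < 1 := by
    rw [tresmn_val_X W O' hO'W ϖ X Y w hw hϖ hYW]
    exact hϖW
  have hX0 : (X : L) ≠ 0 := by
    intro h0
    have h1 := tresmn_val_X W O' hO'W ϖ X Y w hw hϖ hYW
    rw [h0, map_zero] at h1
    exact hϖ0 ((map_eq_zero _).1 h1.symm)
  obtain ⟨-, hh'⟩ := tresmn_ogg_exp W O' hO'W X Y hYW hXW hX0 h ε' hε' a' b' hh hhW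
  exact tresmn_cross W O' ϖ X Y w hw hϖ hYW hϖ0 u h γ ε ε' hε hε' a b b' c hγ hu hh' hc

/-- **(M2), cusp / smooth point, the factorisation.**  `u = ε ϖ ^ a γ ^ p` ⇒
`u / ϖ ^ a = ε γ ^ p`. -/
theorem tresmn_cusp (O' : Subring L) (ϖ : L) (hϖ0 : ϖ ≠ 0) {p : ℕ} (u γ : L) (ε : O')
    (hε : IsUnit ε) (a : ℤ) (hu : u = (ε : L) * ϖ ^ a * γ ^ p) :
    StbFacAt O' p (u / ϖ ^ a) := by
  refine ⟨γ, ε, hε, ?_⟩
  have hϖa : ϖ ^ a ≠ 0 := zpow_ne_zero _ hϖ0
  rw [hu]
  field_simp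

/-- **(M2), smooth point.**  `u = ε ϖ ^ a γ ^ p`, `h = ε′` a unit of `O′`. -/
theorem tresmn_smooth (W : ValuationSubring L) (O' : Subring L) (ϖ : L) (hϖ0 : ϖ ≠ 0) {p : ℕ}
    (u h γ : L) (ε ε' : O') (hε : IsUnit ε) (hε' : IsUnit ε') (a e c : ℤ)
    (hu : u = (ε : L) * ϖ ^ a * γ ^ p) (hh : h = (ε' : L)) :
    TresMonoPt W O' p c e (u / ϖ ^ a) h :=
  Or.inl ⟨tresmn_cusp O' ϖ hϖ0 u γ ε hε a hu, ε', hε', hh⟩

end Abs

/-! ### The instance at helper28's local rings `O′_k` (frame of `R38/TresNodeAt.lean`) -/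

section At

variable {R L : Type*} {F : Type*} [CommRing R] [IsDomain R] [Field F] [Field L]
  [Algebra R F] [IsFractionRing R F] [IsIntegrallyClosed R] [IsLocalRing R]
  [Algebra F L] [Algebra R L] [IsScalarTower R F L]
  {ι : Type*} [Fintype ι] {z : L} {P : R[X]} {c : ι → R}
  {E : Type*} [Field E] [Algebra E F] [Algebra E L] [IsScalarTower E F L]

/-- an element of `R` which is not in `𝔪(V₁)`, `V₁ = W ∩ F`, `W ⊇ O′_k`, is a unit of `W` -/
theorem tresmn_val_base (k : ι) [(tres5eMax R z (c k)).IsPrime] (W : ValuationSubring L)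
    (hO'W : ∀ x ∈ ls_localSubring (F := L) (tres5eMax R z (c k)), x ∈ W)
    (V₁ : ValuationSubring F) (hWV : W.comap (algebraMap F L) = V₁)
    {Y : R} (hYV : algebraMap R F Y ∉ V₁.nonunits) : W.valuation (algebraMap R L Y) = 1 := by
  refine tres5n_val_eq_one W ?_ (fun hnu => hYV ?_)
  · have := hO'W _ (tres5eBaseToLoc z (c k) Y).2
    rwa [tres5eBaseToLoc_coe] at this
  · rw [← hWV, tres5_mem_nonunits_comap, ← IsScalarTower.algebraMap_apply R F L]
    exact hnu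

/-- an element of `R` which is in `𝔪(V₁)`, `V₁ = W ∩ F`, is in `𝔪(W)` -/
theorem tresmn_val_base_lt (W : ValuationSubring L)
    (V₁ : ValuationSubring F) (hWV : W.comap (algebraMap F L) = V₁)
    {X : R} (hXV : algebraMap R F X ∈ V₁.nonunits) : W.valuation (algebraMap R L X) < 1 := by
  rw [← hWV, tres5_mem_nonunits_comap, ← IsScalarTower.algebraMap_apply R F L] at hXV
  exact (ValuationSubring.mem_nonunits_iff W).1 hXV

/-- **(M2), instance at a point of the cover above a THIN node** `𝔪_R = (X, Y)`, `w ϖ = X Y`,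
`W` the sheet through the point with `X ∈ 𝔪(W)`, `Y ∉ 𝔪(W)` (the Gauss sheet).  `u` with
`p ∣ ord u` at the horizontal places through the point, `h = ε′ X ^ a′ Y ^ b′` the Ogg unit.
The second sheet `W₂ = O′_(Y)` and the exponent `b = ord_{W₂} u` stay visible. -/
theorem tresmn_cross_at (H : Tres5eSplit F z P c) [IsNoetherianRing R] (k : ι)
    [(tres5eMax R z (c k)).IsPrime]
    {X Y ϖ w : R} (hmax : maximalIdeal R = Ideal.span {X, Y}) (hX : Prime X) (hY : Prime Y)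
    (hXY : ¬ X ∣ Y) (hYX : ¬ Y ∣ X) (hw : IsUnit w) (hϖ : w * ϖ = X * Y)
    (hE : ∀ e : E, ∃ (n : ℕ) (a : R),
      algebraMap E F e * algebraMap R F ϖ ^ n = algebraMap R F a)
    (W : ValuationSubring L)
    (hO'W : ∀ x ∈ ls_localSubring (F := L) (tres5eMax R z (c k)), x ∈ W)
    (V₁ : ValuationSubring F) (hWV : W.comap (algebraMap F L) = V₁)
    (hXV : algebraMap R F X ∈ V₁.nonunits) (hYV : algebraMap R F Y ∉ V₁.nonunits)
    {p : ℕ} (u h : L) (hu0 : u ≠ 0)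
    (hhor : ∀ Pl : Place E L, (∀ x ∈ ls_localSubring (F := L) (tres5eMax R z (c k)),
      x ∈ Pl.toValuationSubring) → (p : ℤ) ∣ Pl.ord u)
    (ε' : ls_localSubring (F := L) (tres5eMax R z (c k))) (hε' : IsUnit ε') (a' b' : ℤ)
    (hh : h = (ε' : L) * algebraMap R L X ^ a' * algebraMap R L Y ^ b')
    (hhW : W.valuation h = 1) (cc : ℤ) :
    ∃ (W₂ : ValuationSubring L) (a b : ℤ),
      Tres5nIsLoc (ls_localSubring (F := L) (tres5eMax R z (c k)))
        (tres5eBaseToLoc z (c k) Y) W₂ ∧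
      W.valuation u = W.valuation (algebraMap R L ϖ) ^ a ∧
      W₂.valuation u = W₂.valuation (algebraMap R L ϖ) ^ b ∧
      a' = 0 ∧
      ((p : ℤ) ∣ (b - a) - cc →
        TresMonoPt W (ls_localSubring (F := L) (tres5eMax R z (c k))) p cc b'
          (u / algebraMap R L ϖ ^ a) h) := by
  obtain ⟨W₁, W₂, hW₁, hW₂, hLF⟩ :=
    tres5n_cross_at (E := E) H k hmax hX hY hXY hYX hw hϖ hE
  have hWW₁ : W = W₁ := tres5n_unique_at H k hmax hX hW₁ W hO'W V₁ hWV hXV hYV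
  subst hWW₁
  obtain ⟨γ, ε, a, b, hε, hy, hγ0, -, -, hv₁, hv₂⟩ := hLF p u hu0 hhor
  have hYW : W.valuation (algebraMap R L Y) = 1 := tresmn_val_base k W hO'W V₁ hWV hYV
  have hXW : W.valuation (algebraMap R L X) < 1 := tresmn_val_base_lt W V₁ hWV hXV
  have hX0 : algebraMap R L X ≠ 0 := by
    rw [IsScalarTower.algebraMap_apply R F L]
    exact (_root_.map_ne_zero _).2
      ((_root_.map_ne_zero_iff _ (IsFractionRing.injective R F)).2 hX.ne_zero)
  have hϖ' : tres5eBaseToLoc z (c k) w * tres5eBaseToLoc z (c k) ϖ =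
      tres5eBaseToLoc z (c k) X * tres5eBaseToLoc z (c k) Y := by
    rw [← map_mul, ← map_mul, hϖ]
  have hϖW : W.valuation (algebraMap R L ϖ) < 1 := by
    have h1 := tresmn_val_X W (ls_localSubring (F := L) (tres5eMax R z (c k))) hO'W
      (tres5eBaseToLoc z (c k) ϖ) (tres5eBaseToLoc z (c k) X) (tres5eBaseToLoc z (c k) Y)
      (tres5eBaseToLoc z (c k) w) (H.isUnit_loc k hw) hϖ' hYW
    rw [tres5eBaseToLoc_coe, tres5eBaseToLoc_coe] at h1
    rw [← h1]
    exact hXW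
  have hϖ0 : algebraMap R L ϖ ≠ 0 := by
    intro h0
    have h1 := tresmn_val_X W (ls_localSubring (F := L) (tres5eMax R z (c k))) hO'W
      (tres5eBaseToLoc z (c k) ϖ) (tres5eBaseToLoc z (c k) X) (tres5eBaseToLoc z (c k) Y)
      (tres5eBaseToLoc z (c k) w) (H.isUnit_loc k hw) hϖ' hYW
    rw [tres5eBaseToLoc_coe, tres5eBaseToLoc_coe, h0, map_zero] at h1
    exact hX0 ((map_eq_zero _).1 h1)
  obtain ⟨ha', -⟩ := tresmn_ogg_exp W (ls_localSubring (F := L) (tres5eMax R z (c k))) hO'W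
    (tres5eBaseToLoc z (c k) X) (tres5eBaseToLoc z (c k) Y) hYW hXW hX0 h ε' hε' a' b' hh hhW
  refine ⟨W₂, a, b, hW₂, hv₁, hv₂, ha', fun hc => ?_⟩
  exact tresmn_cross' W (ls_localSubring (F := L) (tres5eMax R z (c k))) hO'W
    (tres5eBaseToLoc z (c k) ϖ) (tres5eBaseToLoc z (c k) X) (tres5eBaseToLoc z (c k) Y)
    (tres5eBaseToLoc z (c k) w) (H.isUnit_loc k hw) hϖ' hYW hϖW hϖ0 u h γ ε ε' hε hε' a b a' b'
    cc hγ0 hy hh hhW hc

/-- **(M2), instance at a point of the cover above a smooth point** `𝔪_R = (ϖ, s)`, `W` the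
sheet through the point (`ϖ ∈ 𝔪(W)`, `s ∉ 𝔪(W)`): the factorisation of the normalised
`u / ϖ ^ a`, `a = ord_W u`. -/
theorem tresmn_cusp_at (H : Tres5eSplit F z P c) [IsNoetherianRing R] (k : ι)
    [(tres5eMax R z (c k)).IsPrime]
    {ϖ s : R} (hmax : maximalIdeal R = Ideal.span {ϖ, s}) (hϖ : Prime ϖ)
    (hE : ∀ e : E, ∃ (n : ℕ) (a : R),
      algebraMap E F e * algebraMap R F ϖ ^ n = algebraMap R F a)
    (W : ValuationSubring L)
    (hO'W : ∀ x ∈ ls_localSubring (F := L) (tres5eMax R z (c k)), x ∈ W)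
    (V₁ : ValuationSubring F) (hWV : W.comap (algebraMap F L) = V₁)
    (hϖV : algebraMap R F ϖ ∈ V₁.nonunits) (hsV : algebraMap R F s ∉ V₁.nonunits)
    {p : ℕ} (u : L) (hu0 : u ≠ 0)
    (hhor : ∀ Pl : Place E L, (∀ x ∈ ls_localSubring (F := L) (tres5eMax R z (c k)),
      x ∈ Pl.toValuationSubring) → (p : ℤ) ∣ Pl.ord u) :
    ∃ a : ℤ, W.valuation u = W.valuation (algebraMap R L ϖ) ^ a ∧
      StbFacAt (ls_localSubring (F := L) (tres5eMax R z (c k))) p
        (u / algebraMap R L ϖ ^ a) := by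
  obtain ⟨W₁, hW₁, hLF⟩ := tres5n_smooth_at (E := E) H k hmax hϖ hE
  have hWW₁ : W = W₁ := tres5n_unique_at H k hmax hϖ hW₁ W hO'W V₁ hWV hϖV hsV
  subst hWW₁
  obtain ⟨γ, ε, a, hε, hy, hγ0, -, hv⟩ := hLF p u hu0 hhor
  have hϖ0 : algebraMap R L ϖ ≠ 0 := by
    rw [IsScalarTower.algebraMap_apply R F L]
    exact (_root_.map_ne_zero _).2
      ((_root_.map_ne_zero_iff _ (IsFractionRing.injective R F)).2 hϖ.ne_zero)
  exact ⟨a, hv, tresmn_cusp _ _ hϖ0 u γ ε hε a hy⟩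

/-- **(M2), instance above a smooth point, with the Ogg unit** `h = ε′` (a unit of `O′_k`). -/
theorem tresmn_smooth_at (H : Tres5eSplit F z P c) [IsNoetherianRing R] (k : ι)
    [(tres5eMax R z (c k)).IsPrime]
    {ϖ s : R} (hmax : maximalIdeal R = Ideal.span {ϖ, s}) (hϖ : Prime ϖ)
    (hE : ∀ e : E, ∃ (n : ℕ) (a : R),
      algebraMap E F e * algebraMap R F ϖ ^ n = algebraMap R F a)
    (W : ValuationSubring L)
    (hO'W : ∀ x ∈ ls_localSubring (F := L) (tres5eMax R z (c k)), x ∈ W)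
    (V₁ : ValuationSubring F) (hWV : W.comap (algebraMap F L) = V₁)
    (hϖV : algebraMap R F ϖ ∈ V₁.nonunits) (hsV : algebraMap R F s ∉ V₁.nonunits)
    {p : ℕ} (u h : L) (hu0 : u ≠ 0)
    (hhor : ∀ Pl : Place E L, (∀ x ∈ ls_localSubring (F := L) (tres5eMax R z (c k)),
      x ∈ Pl.toValuationSubring) → (p : ℤ) ∣ Pl.ord u)
    (ε' : ls_localSubring (F := L) (tres5eMax R z (c k))) (hε' : IsUnit ε')
    (hh : h = (ε' : L)) (cc e : ℤ) :
    ∃ a : ℤ, W.valuation u = W.valuation (algebraMap R L ϖ) ^ a ∧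
      TresMonoPt W (ls_localSubring (F := L) (tres5eMax R z (c k))) p cc e
        (u / algebraMap R L ϖ ^ a) h := by
  obtain ⟨a, hv, hfac⟩ :=
    tresmn_cusp_at (E := E) H k hmax hϖ hE W hO'W V₁ hWV hϖV hsV u hu0 hhor
  exact ⟨a, hv, Or.inl ⟨hfac, ε', hε', hh⟩⟩

end At

end Fermat.Agent.R38
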