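/-
Row 38, PKG-TRES, MONO, piece MONO-0 / KUM adapter (helper14).

helper64's FAC-KUM (`tres5dk_main`, R38/TresKumK.lean) gives the constant of the deck relation
in the shape `a = υ · (ϖ ^ m) ^ p`, `υ` a unit.  This file turns that shape into the two
hypotheses `hVa`, `hpa` of MONO-0 (`tresmz_main_pow`, `tresmz_main_step`, `tresmzk_main`,
`tresmzk_main_zmod`):

* `tresmz_kum_ord`  : `a = υ · (ϖ ^ m) ^ p`, `υ, υ⁻¹ ∈ V₀`  ⇒
      `(∃ k, V₀ (a / ϖ ^ k) = 1) ∧ p ∣ tres5Ord V₀ ϖ a`;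
* `tresmz_main_step_kum`, `tresmzk_main_zmod_kum` : MONO-0 with the KUM shape as hypothesis;
* `tresmz_ref` : the reference form consumed by `tresmono_node_pt` (hypothesis `hm₀`):
      `∃ m₀, ∀ W′ over V₀, p ∣ tres5Ord W′ ϖ u − m₀`   from   `∀ W W′ over V₀, p ∣ ord_{W′} − ord_W`.
-/
import Fermat.Agent.R38.TresMonoZeroK

set_option autoImplicit false
set_option linter.unusedSectionVars false
set_option linter.unusedVariables false
set_option linter.style.haveILetI false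
set_option linter.style.longLine false

noncomputable section

namespace Fermat.Agent.R38

open IsLocalRing Polynomial Fermat.Agent.UNIP

section Kum

variable {F : Type*} [Field F]

/-- **KUM ⇒ (hVa, hpa).** -/
theorem tresmz_kum_ord (V₀ : ValuationSubring F) {ϖ a υ : F} (hϖ : ϖ ∈ V₀.nonunits)
    (hϖ0 : ϖ ≠ 0) (m : ℤ) (p : ℕ) (ha : a = υ * (ϖ ^ m) ^ p) (hυ0 : υ ≠ 0) (hυ : υ ∈ V₀)
    (hυ' : υ⁻¹ ∈ V₀) :
    (∃ k : ℤ, V₀.valuation (a / ϖ ^ k) = 1) ∧ (p : ℤ) ∣ tres5Ord V₀ ϖ a := by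
  have hv : V₀.valuation υ = 1 := by
    have h1 : V₀.valuation υ ≤ 1 := (V₀.valuation_le_one_iff _).2 hυ
    have h2 : V₀.valuation υ⁻¹ ≤ 1 := (V₀.valuation_le_one_iff _).2 hυ'
    have hv0 : V₀.valuation υ ≠ 0 := (Valuation.ne_zero_iff _).2 hυ0
    rw [map_inv₀, inv_le_one₀ (zero_lt_iff.2 hv0)] at h2
    exact le_antisymm h1 h2
  have hkey : V₀.valuation (a / ϖ ^ ((p : ℤ) * m)) = 1 := by
    have e : a / ϖ ^ ((p : ℤ) * m) = υ := by
      rw [ha, ← zpow_natCast (ϖ ^ m) p, ← zpow_mul, mul_comm m (p : ℤ)]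
      exact mul_div_cancel_right₀ _ (zpow_ne_zero _ hϖ0)
    rw [e, hv]
  refine ⟨⟨_, hkey⟩, ?_⟩
  rw [tres5Ord_eq hϖ hϖ0 hkey]
  exact Dvd.intro _ rfl

end Kum

section Ref

variable {F L : Type*} [Field F] [Field L] [Algebra F L]

/-- the reference form of MONO-0 (hypothesis `hm₀` of `tresmono_node_pt`). -/
theorem tresmz_ref (V₀ : ValuationSubring F) (ϖ : L) (u : L) (p : ℕ)
    (h : ∀ W W' : ValuationSubring L, W.comap (algebraMap F L) = V₀ →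
      W'.comap (algebraMap F L) = V₀ → (p : ℤ) ∣ tres5Ord W' ϖ u - tres5Ord W ϖ u) :
    ∃ m₀ : ℤ, ∀ W' : ValuationSubring L, W'.comap (algebraMap F L) = V₀ →
      (p : ℤ) ∣ tres5Ord W' ϖ u - m₀ := by
  by_cases hex : ∃ W : ValuationSubring L, W.comap (algebraMap F L) = V₀
  · obtain ⟨W, hW⟩ := hex
    exact ⟨tres5Ord W ϖ u, fun W' hW' => h W W' hW hW'⟩
  · exact ⟨0, fun W' hW' => absurd ⟨W', hW'⟩ hex⟩

end Ref

section Main

variable {R L : Type*} {F : Type*} [CommRing R] [IsDomain R] [Field F] [Field L]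
  [Algebra R F] [IsFractionRing R F] [IsIntegrallyClosed R] [IsLocalRing R]
  [Algebra F L] [Algebra R L] [IsScalarTower R F L]
  {ι : Type*} [Fintype ι] {z : L} {P : R[X]} {c : ι → R}

/-- **MONO-0**, step form, with the constant in the KUM shape `a = υ · (ϖ ^ m) ^ p`. -/
theorem tresmz_main_step_kum (H : Tres5eSplit F z P c) [IsNoetherianRing R] {X Y ϖ w : R}
    (hmax : maximalIdeal R = Ideal.span {X, Y}) (hX : Prime X) (hXY : ¬ X ∣ Y)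
    (hw : IsUnit w) (hϖ : w * ϖ = X * Y)
    (V₀ : ValuationSubring F) (hRV : ∀ r : R, algebraMap R F r ∈ V₀)
    (hXV : algebraMap R F X ∈ V₀.nonunits) (hYV : algebraMap R F Y ∉ V₀.nonunits)
    (p : ℕ) {u h : L} {a υ : F} (hu : u ≠ 0) (hh : h ≠ 0)
    (ρ : L ≃ₐ[F] L) (hρu : ρ u = algebraMap F L a * u * h ^ p)
    (m : ℤ) (ha : a = υ * (algebraMap R F ϖ ^ m) ^ p) (hυ0 : υ ≠ 0) (hυ : υ ∈ V₀)
    (hυ' : υ⁻¹ ∈ V₀)
    (σ : ι → ι) (hσ : ∀ i j : ι, ∃ n : ℕ, σ^[n] i = j)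
    (hstep : ∀ i, ∃ b ∈ tres5eMax R z (c i), ρ z = algebraMap R L (c (σ i)) + (b : L))
    (W W' : ValuationSubring L) (hW : W.comap (algebraMap F L) = V₀)
    (hW' : W'.comap (algebraMap F L) = V₀) :
    (p : ℤ) ∣ tres5Ord W' (algebraMap F L (algebraMap R F ϖ)) u -
      tres5Ord W (algebraMap F L (algebraMap R F ϖ)) u := by
  obtain ⟨hϖF0, hϖnu⟩ := tresmz_pi_nonunit hX hXY hw hϖ V₀ hRV hXV
  obtain ⟨hVa, hpa⟩ := tresmz_kum_ord V₀ hϖnu hϖF0 m p ha hυ0 hυ hυ'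
  have ha0 : a ≠ 0 := by
    rw [ha]
    exact mul_ne_zero hυ0 (pow_ne_zero _ (zpow_ne_zero _ hϖF0))
  exact tresmz_main_step H hmax hX hXY hw hϖ V₀ hRV hXV hYV p hu ha0 hh ρ hρu hVa hpa σ hσ hstep
    W W' hW hW'

end Main

section MainK

variable {R F L RK FK LK : Type*}
  [CommRing R] [IsDomain R] [Field F] [Field L] [Algebra R F] [IsFractionRing R F]
  [IsIntegrallyClosed R] [IsLocalRing R] [Algebra F L] [Algebra R L] [IsScalarTower R F L]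
  [CommRing RK] [IsDomain RK] [Field FK] [Field LK] [Algebra RK FK] [IsFractionRing RK FK]
  [IsIntegrallyClosed RK] [IsLocalRing RK] [Algebra FK LK] [Algebra RK LK]
  [IsScalarTower RK FK LK]
  [Algebra FK F] [Algebra LK L] [Algebra FK L] [IsScalarTower FK LK L] [IsScalarTower FK F L]

/-- **MONO-0 over `K`** in the shape of `tres5kp_descend` + `tres5dk_main`: sheets indexed by
`ZMod p`, `ρ z ≡ c (i + 1)`, constant `a = υ · (ϖ ^ m) ^ p`; reference form. -/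
theorem tresmzk_main_zmod_kum {p : ℕ} [hp : Fact p.Prime] {z : L} {P : R[X]} {c : ZMod p → R}
    (H : Tres5eSplit F z P c)
    {zK : LK} {PK : RK[X]} {cK : ZMod p → RK} (HK : Tres5eSplit FK zK PK cK) (j₀ : RK →+* R)
    (hj₀ : ∀ r : RK, algebraMap R F (j₀ r) = algebraMap FK F (algebraMap RK FK r))
    (hloc : ∀ r ∈ maximalIdeal RK, j₀ r ∈ maximalIdeal R)
    (hz : ∀ i, ∃ b ∈ tres5eMax R z (c i),
      algebraMap LK L zK = algebraMap R L (j₀ (cK i)) + (b : L))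
    (ρ : L ≃ₐ[F] L)
    (hρ : ∀ i : ZMod p, ∃ b ∈ tres5eMax R z (c i),
      ρ z = algebraMap R L (c (i + 1)) + (b : L))
    (ρK : LK ≃ₐ[FK] LK) (hρK : ∀ y : LK, algebraMap LK L (ρK y) = ρ (algebraMap LK L y))
    [IsNoetherianRing RK] {X Y ϖ w : RK}
    (hmax : maximalIdeal RK = Ideal.span {X, Y}) (hX : Prime X) (hXY : ¬ X ∣ Y)
    (hw : IsUnit w) (hϖ : w * ϖ = X * Y)
    (V₀ : ValuationSubring FK) (hRV : ∀ r : RK, algebraMap RK FK r ∈ V₀)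
    (hXV : algebraMap RK FK X ∈ V₀.nonunits) (hYV : algebraMap RK FK Y ∉ V₀.nonunits)
    (n : ℕ) {u h : LK} {a υ : FK} (hu : u ≠ 0) (hh : h ≠ 0)
    (hρu : ρK u = algebraMap FK LK a * u * h ^ n)
    (m : ℤ) (ha : a = υ * (algebraMap RK FK ϖ ^ m) ^ n) (hυ0 : υ ≠ 0) (hυ : υ ∈ V₀)
    (hυ' : υ⁻¹ ∈ V₀) :
    ∃ m₀ : ℤ, ∀ W' : ValuationSubring LK, W'.comap (algebraMap FK LK) = V₀ →
      (n : ℤ) ∣ tres5Ord W' (algebraMap FK LK (algebraMap RK FK ϖ)) u - m₀ := by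
  obtain ⟨hϖF0, hϖnu⟩ := tresmz_pi_nonunit hX hXY hw hϖ V₀ hRV hXV
  obtain ⟨hVa, hpa⟩ := tresmz_kum_ord V₀ hϖnu hϖF0 m n ha hυ0 hυ hυ'
  have ha0 : a ≠ 0 := by
    rw [ha]
    exact mul_ne_zero hυ0 (pow_ne_zero _ (zpow_ne_zero _ hϖF0))
  exact tresmz_ref V₀ _ u n fun W W' hW hW' =>
    tresmzk_main_zmod H HK j₀ hj₀ hloc hz ρ hρ ρK hρK hmax hX hXY hw hϖ V₀ hRV hXV hYV n hu ha0
      hh hρu hVa hpa W W' hW hW'

end MainK

end Fermat.Agent.R38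

end
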