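/-
Row 38, PKG-TRES, MONO, piece MONO-0 INSTANCE (helper14): the hypothesis `hm₀` of
`tresmono_node_pt` / `tres5np_node` / `tres5npj_hfin` from the K-FORM at ONE thin node.

Frames of helper92's `R38/TresNodePt.lean` (abstract chart `(B, 𝔫)`, chart `zchClosure {t}` at
`𝔫 : AtPt π t`) and `R38/TresNodePtConc.lean` (chart `j` of `X₀(M q)` over `K = ℚ̄^I`).

At a thin crossing point `𝔫` (`Rtk6lfCrossAt (V c₁) (V c₂) 𝔫 X Y`: `X ∈ 𝔪(V c₁)`, `Y ∈ 𝔪(V c₂)`,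
`w π = X Y`), given
  * the split structure `H : Tres5eSplit F z P c` of the cover over `atLoc 𝔫` (K-FORM (B)),
  * a deck transformation `ρ` of `L / F` with `ρ z ≡ c (σ i)` modulo `(𝔫, z − c i)`, `σ` transitive
    (`tresmzk_step`, R38/TresMonoZeroK.lean),
  * DECK `ρ u = a · u · h ^ p` and KUM `p ∣ ord_{V c₂} a`,
any two valuation rings `W`, `W′` of `L` over the OTHER branch `V c₂` have
`p ∣ ord_{W′} u − ord_W u`.

* `tresmzi_node_abs`  : abstract chart `(B, 𝔫)`;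
* `tresmzi_node`      : the chart `zchClosure {t}` at `𝔫 : AtPt π t`;
* `tresmzi_ref`       : the GLOBAL reference `m₀` (`∃ m₀, ∀ node, ∀ W′ over V c₂, p ∣ ord_{W′} u − m₀`);
* `tresmzi_main`      : concrete form on the chart `j` of `X₀(M q)` over `ℚ̄^I`, `V c₂ = V_0 = mgvV false`.
-/
import Fermat.Agent.R38.TresNodePtConc
import Fermat.Agent.R38.TresMonoZeroKum
import Fermat.Agent.R38.TresBigKum

set_option autoImplicit false
set_option linter.unusedSectionVars false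
set_option linter.unusedVariables false
set_option linter.style.haveILetI false
set_option linter.style.longLine false
set_option synthInstance.maxHeartbeats 400000
set_option maxHeartbeats 1600000

noncomputable section

namespace Fermat.Agent.R38

open IsLocalRing AlgebraicCurve Polynomial Fermat.Agent.UNIP Fermat.Agent.STB Fermat.Agent.INJ
  Fermat.Agent.S36 Fermat.Agent.RIB.MP Fermat.Agent.RT.K6 IntermediateField

section Abs

variable {F : Type*} [Field F] {B : Type*} [CommRing B] [Algebra B F]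
variable (hinj : Function.Injective (algebraMap B F)) (𝔫 : Ideal B) [h𝔫 : 𝔫.IsPrime]
variable {κ : Type*} [Finite κ]
variable {L : Type*} [Field L] [Algebra F L]
  [IsLocalRing ↥(ls_localSubring (F := F) 𝔫)]
  [Algebra ↥(ls_localSubring (F := F) 𝔫) L] [IsScalarTower ↥(ls_localSubring (F := F) 𝔫) F L]
  {ι : Type*} [Fintype ι] {z : L} {P : (↥(ls_localSubring (F := F) 𝔫))[X]}
  {c : ι → ↥(ls_localSubring (F := F) 𝔫)}

include hinj in
/-- **MONO-0 at a thin node, abstract chart form.** -/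
theorem tresmzi_node_abs [IsNoetherianRing B] (V : κ → ValuationSubring F)
    (hBV : ∀ c (b : B), algebraMap B F b ∈ V c) (ϖ : B)
    (hKR : ∀ x : F, (∃ b : B, algebraMap B F ϖ * x = algebraMap B F b) → (∀ c, x ∈ V c) →
      ∃ b : B, x = algebraMap B F b)
    (hU : ∀ c (x : F), x ∈ (V c).nonunits → ∃ z ∈ V c, x = algebraMap B F ϖ * z)
    (hϖ0 : algebraMap B F ϖ ≠ 0)
    (hfrac : ∀ x : F, ∃ a b : B, b ≠ 0 ∧ x * algebraMap B F b = algebraMap B F a)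
    (c₁ c₂ : κ)
    (hκ : ∀ c, (∀ b : B, algebraMap B F b ∈ (V c).nonunits → b ∈ 𝔫) → c = c₁ ∨ c = c₂)
    (hthr₁ : ∀ b : B, algebraMap B F b ∈ (V c₁).nonunits → b ∈ 𝔫)
    (hthr₂ : ∀ b : B, algebraMap B F b ∈ (V c₂).nonunits → b ∈ 𝔫)
    {X Y w : B} (hw : w ∉ 𝔫) (hXY : w * ϖ = X * Y)
    (hX : algebraMap B F X ∈ (V c₁).nonunits) (hY : algebraMap B F Y ∈ (V c₂).nonunits)
    (hgen : NodesLocGen 𝔫 {ϖ, X, Y})
    -- the cover
    (H : Tres5eSplit F z P c)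
    -- DECK + KUM
    (p : ℕ) {u h : L} {a : F} (hu : u ≠ 0) (ha : a ≠ 0) (hh : h ≠ 0)
    (ρ : L ≃ₐ[F] L) (hρu : ρ u = algebraMap F L a * u * h ^ p)
    (hVa : ∃ m : ℤ, (V c₂).valuation (a / algebraMap B F ϖ ^ m) = 1)
    (hpa : (p : ℤ) ∣ tres5Ord (V c₂) (algebraMap B F ϖ) a)
    -- the deck transformation at the node
    (σ : ι → ι) (hσ : ∀ i j : ι, ∃ n : ℕ, σ^[n] i = j)
    (hstep : ∀ i, ∃ b ∈ tres5eMax ↥(ls_localSubring (F := F) 𝔫) z (c i),
      ρ z = algebraMap ↥(ls_localSubring (F := F) 𝔫) L (c (σ i)) + (b : L))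
    (W W' : ValuationSubring L) (hW : W.comap (algebraMap F L) = V c₂)
    (hW' : W'.comap (algebraMap F L) = V c₂) :
    (p : ℤ) ∣ tres5Ord W' (algebraMap F L (algebraMap B F ϖ)) u -
      tres5Ord W (algebraMap F L (algebraMap B F ϖ)) u := by
  haveI : IsNoetherianRing ↥(ls_localSubring (F := F) 𝔫) := s36n2p_isNoetherianRing hinj 𝔫
  haveI : IsFractionRing ↥(ls_localSubring (F := F) 𝔫) F :=
    s36n2p_isFractionRing _ (tres5nv_frac hinj 𝔫 hfrac)
  haveI : UniqueFactorizationMonoid ↥(ls_localSubring (F := F) 𝔫) :=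
    rtk6lfp_cross_ufd hinj 𝔫 V hBV ϖ hKR hU hϖ0 c₁ c₂ hκ hthr₁ hthr₂ hw hXY hX hY hgen
  have hXY₂ : w * ϖ = Y * X := by rw [hXY, mul_comm]
  have hκ₂ : ∀ c, (∀ b : B, algebraMap B F b ∈ (V c).nonunits → b ∈ 𝔫) → c = c₂ ∨ c = c₁ :=
    fun c hc => (hκ c hc).symm
  have hgen₂ : NodesLocGen 𝔫 {ϖ, Y, X} := by
    have e : ({ϖ, Y, X} : Set B) = {ϖ, X, Y} := by
      ext b; simp only [Set.mem_insert_iff, Set.mem_singleton_iff]; tauto
    rw [e]; exact hgen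
  have hmax := rtk6lfp_cross_max (F := F) hinj 𝔫 ϖ hw hXY₂ (hthr₂ Y hY) (hthr₁ X hX) hgen₂
  have hpY := rtk6lfp_cross_prime hinj 𝔫 V hBV ϖ hKR hU hϖ0 c₂ c₁ hκ₂ hthr₂ hthr₁ hw hXY₂ hY hX
  have hXv := tres5nv_X₂ 𝔫 V hBV ϖ hU hϖ0 c₂ hthr₂ hw hXY hY
  have hR₂ := stb_gc_le 𝔫 (V c₂) (hBV c₂) hthr₂
  have hYX' : ¬ s36n2pToLoc (F := F) 𝔫 Y ∣ s36n2pToLoc (F := F) 𝔫 X := by
    rintro ⟨t, ht⟩
    have h1 : (V c₂).valuation ((s36n2pToLoc (F := F) 𝔫 Y * t :
        ↥(ls_localSubring (F := F) 𝔫)) : F) < 1 := by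
      show (V c₂).valuation (algebraMap B F Y * (t : F)) < 1
      rw [map_mul]
      have ht : (V c₂).valuation (t : F) ≤ 1 := ((V c₂).valuation_le_one_iff _).2 (hR₂ _ t.2)
      calc (V c₂).valuation (algebraMap B F Y) * (V c₂).valuation (t : F)
          ≤ (V c₂).valuation (algebraMap B F Y) * 1 := by gcongr
        _ = (V c₂).valuation (algebraMap B F Y) := mul_one _
        _ < 1 := (ValuationSubring.mem_nonunits_iff (V c₂)).1 hY
    rw [← ht, hXv] at h1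
    exact lt_irrefl _ h1
  have h1 : (1 : B) ∉ 𝔫 := fun h => h𝔫.ne_top ((Ideal.eq_top_iff_one 𝔫).mpr h)
  have hw' : IsUnit (s36n2pToLoc (F := F) 𝔫 w) :=
    ls_isUnit_of_not_mem hinj 𝔫 _ (b := w) (s := 1) hw h1 (by rw [map_one, one_mul]; rfl)
  have hϖ' : s36n2pToLoc (F := F) 𝔫 w * s36n2pToLoc (F := F) 𝔫 ϖ =
      s36n2pToLoc (F := F) 𝔫 Y * s36n2pToLoc (F := F) 𝔫 X := by
    rw [← map_mul, ← map_mul, hXY₂]
  have hXV : algebraMap ↥(ls_localSubring (F := F) 𝔫) F (s36n2pToLoc (F := F) 𝔫 X) ∉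
      (V c₂).nonunits := fun hmem => by
    have h2 := (ValuationSubring.mem_nonunits_iff (V c₂)).1 hmem
    have h3 : (V c₂).valuation ((s36n2pToLoc (F := F) 𝔫 X : ↥(ls_localSubring (F := F) 𝔫)) : F)
        < 1 := h2
    rw [hXv] at h3
    exact lt_irrefl _ h3
  exact tresmz_main_step H hmax hpY hYX' hw' hϖ' (V c₂) (fun r => hR₂ _ r.2) hY hXV p hu ha hh ρ
    hρu hVa hpa σ hσ hstep W W' hW hW'

end Abs

section Chart

universe u

variable {A₀ E F : Type u} [CommRing A₀] [IsDomain A₀] [IsDiscreteValuationRing A₀]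
  [Field E] [Algebra A₀ E] [IsFractionRing A₀ E] [CharZero E]
  [Field F] [Algebra E F] [Algebra A₀ F] [IsScalarTower A₀ E F]
  {π : A₀} {κ : Type*} [Finite κ]
  {L : Type*} [Field L] [Algebra F L]

/-- **MONO-0 at a thin node** `𝔫` of the chart `t` of `X`: any two valuation rings of the cover
over the branch `V c₂` (`Y = 0`) have the same `ord u` modulo `p`. -/
theorem tresmzi_node (hπ : Irreducible π) {t : F} [FiniteDimensional E⟮t⟯ F]
    [IsNoetherianRing ↥(zchClosure (A₀ := A₀) ({t} : Set F))]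
    (V : κ → ValuationSubring F) (c₁ c₂ : κ) (hκ : ∀ c, c = c₁ ∨ c = c₂)
    (hBV : ∀ c (b : F), IsIntegral ↥(Algebra.adjoin A₀ {t}) b → b ∈ V c)
    (hπV : ∀ c, algebraMap A₀ F π ∈ (V c).nonunits)
    (hSS1 : ∀ b : F, IsIntegral ↥(Algebra.adjoin A₀ {t}) b → (∀ c, b ∈ (V c).nonunits) →
      ∃ b' : F, IsIntegral ↥(Algebra.adjoin A₀ {t}) b' ∧ b = algebraMap A₀ F π * b')
    (hU : ∀ c (x : F), x ∈ (V c).nonunits → ∃ z ∈ V c, x = algebraMap A₀ F π * z)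
    (𝔫 : AtPt (F := F) π t) {X Y : ↥(zchClosure (A₀ := A₀) ({t} : Set F))}
    (hcross : Rtk6lfCrossAt (V c₁) (V c₂) 𝔫 X Y)
    -- the cover
    [IsLocalRing ↥(atLoc 𝔫)] [Algebra ↥(atLoc 𝔫) L] [IsScalarTower ↥(atLoc 𝔫) F L]
    {ι : Type*} [Fintype ι] {z : L} {P : (↥(atLoc 𝔫))[X]} {c : ι → ↥(atLoc 𝔫)}
    (H : Tres5eSplit F z P c)
    -- DECK + KUM
    (p : ℕ) {u h : L} {a : F} (hu : u ≠ 0) (ha : a ≠ 0) (hh : h ≠ 0)
    (ρ : L ≃ₐ[F] L) (hρu : ρ u = algebraMap F L a * u * h ^ p)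
    (hVa : ∃ m : ℤ, (V c₂).valuation (a / algebraMap A₀ F π ^ m) = 1)
    (hpa : (p : ℤ) ∣ tres5Ord (V c₂) (algebraMap A₀ F π) a)
    -- the deck transformation at the node
    (σ : ι → ι) (hσ : ∀ i j : ι, ∃ n : ℕ, σ^[n] i = j)
    (hstep : ∀ i, ∃ b ∈ tres5eMax ↥(atLoc 𝔫) z (c i),
      ρ z = algebraMap ↥(atLoc 𝔫) L (c (σ i)) + (b : L))
    (W W' : ValuationSubring L) (hW : W.comap (algebraMap F L) = V c₂)
    (hW' : W'.comap (algebraMap F L) = V c₂) :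
    (p : ℤ) ∣ tres5Ord W' (algebraMap F L (algebraMap A₀ F π)) u -
      tres5Ord W (algebraMap F L (algebraMap A₀ F π)) u := by
  haveI := 𝔫.2.1.isPrime
  haveI : IsLocalRing ↥(ls_localSubring (F := F) 𝔫.1) := ‹IsLocalRing ↥(atLoc 𝔫)›
  letI : Algebra ↥(ls_localSubring (F := F) 𝔫.1) L := ‹Algebra ↥(atLoc 𝔫) L›
  haveI : IsScalarTower ↥(ls_localSubring (F := F) 𝔫.1) F L := ‹IsScalarTower ↥(atLoc 𝔫) F L›
  obtain ⟨h₁, h₂, hX, hY, ⟨w, hw, hXY⟩, hgen⟩ := hcross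
  have hπ0 : algebraMap A₀ F π ≠ 0 := ei_algebraMap_ne_zero (E := E) hπ
  exact tresmzi_node_abs (B := ↥(zchClosure (A₀ := A₀) ({t} : Set F)))
    Subtype.val_injective 𝔫.1 V (fun c b => hBV c _ b.2)
    (algebraMap A₀ ↥(zchClosure (A₀ := A₀) ({t} : Set F)) π)
    (ribmp_fac_hKR hπ0 V hπV hSS1) hU hπ0 (ribmp_fac_hfrac (E := E) t)
    c₁ c₂ (fun c _ => hκ c) h₁ h₂ hw hXY hX hY hgen H p hu ha hh ρ hρu hVa hpa σ hσ hstep
    W W' hW hW'

end Chart

section Base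

open ModularCurve Fermat.Agent.AL Fermat.Agent.ES Fermat.Agent.ES.G2

variable {A : ValuationSubring Qb} {q M : ℕ} [NeZero q] [NeZero M] [NeZero (M * q)]
  [IsDiscreteValuationRing ↥(beta0Ring A (beta0Field A))]
  {π : ↥(beta0Ring A (beta0Field A))} (hπ : Irreducible π)
  (ιC : ↥(beta0Field A) →+* ℂ) (hq : q.Prime) (hqM : ¬ q ∣ M)

include hπ ιC hq hqM in
/-- **MONO-0 at one thin node of the chart `j` of `X₀(M q)` over `ℚ̄^I`** (rigid level): any two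
valuation rings of the cover over `V_0 = mgvV false` have the same `ord u` modulo `p`. -/
theorem tresmzi_node_conc (hA : A.LiesOverPrime q)
    (rigid : (q ≠ 2 → 4 ∣ M) ∧ (q = 2 → 9 ∣ M))
    {L : Type*} [Field L] [Algebra ↥(modularFunctionFieldFullC ↥(beta0Field A) (M * q)) L]
    (𝔫 : AtPt (F := ↥(modularFunctionFieldFullC ↥(beta0Field A) (M * q))) π
      (bgJ ↥(beta0Field A) (M * q)))
    {X Y : ↥(zchClosure (A₀ := ↥(beta0Ring A (beta0Field A)))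
      ({bgJ ↥(beta0Field A) (M * q)} :
        Set ↥(modularFunctionFieldFullC ↥(beta0Field A) (M * q))))}
    (hcross : Rtk6lfCrossAt (mgvV hπ ιC hq hqM true) (mgvV hπ ιC hq hqM false) 𝔫 X Y)
    [IsLocalRing ↥(atLoc 𝔫)]
    {ι : Type*} [Fintype ι] {z : L} {P : (↥(atLoc 𝔫))[X]} {c : ι → ↥(atLoc 𝔫)}
    (H : Tres5eSplit ↥(modularFunctionFieldFullC ↥(beta0Field A) (M * q)) z P c)
    (p : ℕ) {u h : L} {a : ↥(modularFunctionFieldFullC ↥(beta0Field A) (M * q))}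
    (hu : u ≠ 0) (ha : a ≠ 0) (hh : h ≠ 0)
    (ρ : L ≃ₐ[↥(modularFunctionFieldFullC ↥(beta0Field A) (M * q))] L)
    (hρu : ρ u = algebraMap ↥(modularFunctionFieldFullC ↥(beta0Field A) (M * q)) L a * u * h ^ p)
    (hpa : (p : ℤ) ∣ tres5Ord (mgvV hπ ιC hq hqM false)
      (algebraMap ↥(beta0Ring A (beta0Field A))
        ↥(modularFunctionFieldFullC ↥(beta0Field A) (M * q)) π) a)
    (σ : ι → ι) (hσ : ∀ i j : ι, ∃ n : ℕ, σ^[n] i = j)
    (hstep : ∀ i, ∃ b ∈ tres5eMax ↥(atLoc 𝔫) z (c i),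
      ρ z = algebraMap ↥(atLoc 𝔫) L (c (σ i)) + (b : L))
    (W W' : ValuationSubring L)
    (hW : W.comap (algebraMap ↥(modularFunctionFieldFullC ↥(beta0Field A) (M * q)) L) =
      mgvV hπ ιC hq hqM false)
    (hW' : W'.comap (algebraMap ↥(modularFunctionFieldFullC ↥(beta0Field A) (M * q)) L) =
      mgvV hπ ιC hq hqM false) :
    (p : ℤ) ∣ tres5Ord W' (algebraMap ↥(modularFunctionFieldFullC ↥(beta0Field A) (M * q)) L
        (algebraMap ↥(beta0Ring A (beta0Field A))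
          ↥(modularFunctionFieldFullC ↥(beta0Field A) (M * q)) π)) u -
      tres5Ord W (algebraMap ↥(modularFunctionFieldFullC ↥(beta0Field A) (M * q)) L
        (algebraMap ↥(beta0Ring A (beta0Field A))
          ↥(modularFunctionFieldFullC ↥(beta0Field A) (M * q)) π)) u := by
  haveI := 𝔫.2.1.isPrime
  haveI := rtk6lfb_noeth_J (A := A) (K₀ := beta0Field A) (M := M) (q := q)
  haveI := ribmp_fc_fin (K₀ := beta0Field A) (M * q)
  have h2 := rtk6lfb_rigid_h2 rigid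
  have h3 := rtk6lfb_rigid_h3 rigid
  have hSS1 := ribmp_fc_hSS1 hπ ιC hq hqM hA (le_refl (beta0Field A)) h2 h3
  exact tresmzi_node (E := ↥(beta0Field A)) hπ (mgvV hπ ιC hq hqM) true false mgv_hκ
    (mgv_hBV₁ hπ ιC hq hqM) (mgv_hπV hπ ιC hq hqM) hSS1 (ribmp_fc_hU hπ ιC hq hqM) 𝔫
    hcross H p hu ha hh ρ hρu (tres5bk_mgv_hunif hπ ιC hq hqM false a ha) hpa σ hσ hstep
    W W' hW hW'

include hπ ιC hq hqM in
/-- **MONO-0 INSTANCE** (the hypothesis `hm₀` of `tres5npj_hfin_node`, helper89's shape): a GLOBAL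
reference `m₀` such that, as soon as the chart `j` has a thin node, every valuation ring `W′` of
the cover over `V_0` has `ord_{W′} u ≡ m₀` modulo `p`.  Inputs: DECK (`hρu`), KUM at `V_0` (`hpa`),
and at every thin node the K-FORM (B) with the step relation of `ρ` (`hnode`). -/
theorem tresmzi_main (hA : A.LiesOverPrime q)
    (rigid : (q ≠ 2 → 4 ∣ M) ∧ (q = 2 → 9 ∣ M))
    {L : Type*} [Field L] [Algebra ↥(modularFunctionFieldFullC ↥(beta0Field A) (M * q)) L]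
    {ι : Type*} [Fintype ι]
    (p : ℕ) {u h : L} {a : ↥(modularFunctionFieldFullC ↥(beta0Field A) (M * q))}
    (hu : u ≠ 0) (ha : a ≠ 0) (hh : h ≠ 0)
    (ρ : L ≃ₐ[↥(modularFunctionFieldFullC ↥(beta0Field A) (M * q))] L)
    (hρu : ρ u = algebraMap ↥(modularFunctionFieldFullC ↥(beta0Field A) (M * q)) L a * u * h ^ p)
    (hpa : (p : ℤ) ∣ tres5Ord (mgvV hπ ιC hq hqM false)
      (algebraMap ↥(beta0Ring A (beta0Field A))
        ↥(modularFunctionFieldFullC ↥(beta0Field A) (M * q)) π) a)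
    (hnode : ∀ (𝔫 : AtPt (F := ↥(modularFunctionFieldFullC ↥(beta0Field A) (M * q))) π
        (bgJ ↥(beta0Field A) (M * q)))
      (X Y : ↥(zchClosure (A₀ := ↥(beta0Ring A (beta0Field A)))
        ({bgJ ↥(beta0Field A) (M * q)} :
          Set ↥(modularFunctionFieldFullC ↥(beta0Field A) (M * q))))),
      Rtk6lfCrossAt (mgvV hπ ιC hq hqM true) (mgvV hπ ιC hq hqM false) 𝔫 X Y →
      ∀ [IsLocalRing ↥(atLoc 𝔫)],
        ∃ (z : L) (P : (↥(atLoc 𝔫))[X]) (c : ι → ↥(atLoc 𝔫)) (σ : ι → ι),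
          Tres5eSplit ↥(modularFunctionFieldFullC ↥(beta0Field A) (M * q)) z P c ∧
          (∀ i j : ι, ∃ n : ℕ, σ^[n] i = j) ∧
          ∀ i, ∃ b ∈ tres5eMax ↥(atLoc 𝔫) z (c i),
            ρ z = algebraMap ↥(atLoc 𝔫) L (c (σ i)) + (b : L)) :
    ∃ m₀ : ℤ,
      ∀ (𝔫 : AtPt (F := ↥(modularFunctionFieldFullC ↥(beta0Field A) (M * q))) π
        (bgJ ↥(beta0Field A) (M * q)))
      (X Y : ↥(zchClosure (A₀ := ↥(beta0Ring A (beta0Field A)))
        ({bgJ ↥(beta0Field A) (M * q)} :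
          Set ↥(modularFunctionFieldFullC ↥(beta0Field A) (M * q))))),
      Rtk6lfCrossAt (mgvV hπ ιC hq hqM true) (mgvV hπ ιC hq hqM false) 𝔫 X Y →
      ∀ W' : ValuationSubring L,
      W'.comap (algebraMap ↥(modularFunctionFieldFullC ↥(beta0Field A) (M * q)) L) =
        mgvV hπ ιC hq hqM false →
      (p : ℤ) ∣ tres5Ord W' (algebraMap ↥(modularFunctionFieldFullC ↥(beta0Field A) (M * q)) L
        (algebraMap ↥(beta0Ring A (beta0Field A))
          ↥(modularFunctionFieldFullC ↥(beta0Field A) (M * q)) π)) u - m₀ := by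
  by_cases hex : ∃ W₀ : ValuationSubring L,
      W₀.comap (algebraMap ↥(modularFunctionFieldFullC ↥(beta0Field A) (M * q)) L) =
        mgvV hπ ιC hq hqM false
  · obtain ⟨W₀, hW₀⟩ := hex
    refine ⟨tres5Ord W₀ (algebraMap ↥(modularFunctionFieldFullC ↥(beta0Field A) (M * q)) L
      (algebraMap ↥(beta0Ring A (beta0Field A))
        ↥(modularFunctionFieldFullC ↥(beta0Field A) (M * q)) π)) u, ?_⟩
    intro 𝔫 X Y hcross W' hW'
    haveI := 𝔫.2.1.isPrime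
    haveI : IsLocalRing ↥(atLoc 𝔫) :=
      ls_localSubring_isLocalRing (F := ↥(modularFunctionFieldFullC ↥(beta0Field A) (M * q)))
        Subtype.val_injective 𝔫.1
    obtain ⟨z, P, c, σ, H, hσ, hstep⟩ := hnode 𝔫 X Y hcross
    exact tresmzi_node_conc hπ ιC hq hqM hA rigid 𝔫 hcross H p hu ha hh ρ hρu hpa σ hσ hstep
      W₀ W' hW₀ hW'
  · exact ⟨0, fun 𝔫 X Y _ W' hW' => absurd ⟨W', hW'⟩ hex⟩

include hπ ιC hq hqM in
/-- **MONO-0 INSTANCE**, with the deck transformation given as a bijective algebra endomorphism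
(the shape of `tres5kiv_descend`, `tres5c_descend`) and sheets indexed by `ZMod p`, `σ i = i + 1`
(the shape of `tres5ki_point`, `tresmzk_step`). -/
theorem tresmzi_main_zmod (hA : A.LiesOverPrime q)
    (rigid : (q ≠ 2 → 4 ∣ M) ∧ (q = 2 → 9 ∣ M))
    {L : Type*} [Field L] [Algebra ↥(modularFunctionFieldFullC ↥(beta0Field A) (M * q)) L]
    {p : ℕ} [hp : Fact p.Prime] (n : ℕ) {u h : L}
    {a : ↥(modularFunctionFieldFullC ↥(beta0Field A) (M * q))}
    (hu : u ≠ 0) (ha : a ≠ 0) (hh : h ≠ 0)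
    (ρK : L →ₐ[↥(modularFunctionFieldFullC ↥(beta0Field A) (M * q))] L)
    (hbij : Function.Bijective ρK)
    (hρu : ρK u = algebraMap ↥(modularFunctionFieldFullC ↥(beta0Field A) (M * q)) L a * u * h ^ n)
    (hpa : (n : ℤ) ∣ tres5Ord (mgvV hπ ιC hq hqM false)
      (algebraMap ↥(beta0Ring A (beta0Field A))
        ↥(modularFunctionFieldFullC ↥(beta0Field A) (M * q)) π) a)
    (hnode : ∀ (𝔫 : AtPt (F := ↥(modularFunctionFieldFullC ↥(beta0Field A) (M * q))) π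
        (bgJ ↥(beta0Field A) (M * q)))
      (X Y : ↥(zchClosure (A₀ := ↥(beta0Ring A (beta0Field A)))
        ({bgJ ↥(beta0Field A) (M * q)} :
          Set ↥(modularFunctionFieldFullC ↥(beta0Field A) (M * q))))),
      Rtk6lfCrossAt (mgvV hπ ιC hq hqM true) (mgvV hπ ιC hq hqM false) 𝔫 X Y →
      ∀ [IsLocalRing ↥(atLoc 𝔫)],
        ∃ (z : L) (P : (↥(atLoc 𝔫))[X]) (c : ZMod p → ↥(atLoc 𝔫)),
          Tres5eSplit ↥(modularFunctionFieldFullC ↥(beta0Field A) (M * q)) z P c ∧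
          ∀ i : ZMod p, ∃ b ∈ tres5eMax ↥(atLoc 𝔫) z (c i),
            ρK z = algebraMap ↥(atLoc 𝔫) L (c (i + 1)) + (b : L)) :
    ∃ m₀ : ℤ,
      ∀ (𝔫 : AtPt (F := ↥(modularFunctionFieldFullC ↥(beta0Field A) (M * q))) π
        (bgJ ↥(beta0Field A) (M * q)))
      (X Y : ↥(zchClosure (A₀ := ↥(beta0Ring A (beta0Field A)))
        ({bgJ ↥(beta0Field A) (M * q)} :
          Set ↥(modularFunctionFieldFullC ↥(beta0Field A) (M * q))))),
      Rtk6lfCrossAt (mgvV hπ ιC hq hqM true) (mgvV hπ ιC hq hqM false) 𝔫 X Y →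
      ∀ W' : ValuationSubring L,
      W'.comap (algebraMap ↥(modularFunctionFieldFullC ↥(beta0Field A) (M * q)) L) =
        mgvV hπ ιC hq hqM false →
      (n : ℤ) ∣ tres5Ord W' (algebraMap ↥(modularFunctionFieldFullC ↥(beta0Field A) (M * q)) L
        (algebraMap ↥(beta0Ring A (beta0Field A))
          ↥(modularFunctionFieldFullC ↥(beta0Field A) (M * q)) π)) u - m₀ := by
  haveI : NeZero p := ⟨hp.out.ne_zero⟩
  refine tresmzi_main hπ ιC hq hqM hA rigid (ι := ZMod p) n hu ha hh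
    (AlgEquiv.ofBijective ρK hbij) hρu hpa ?_
  intro 𝔫 X Y hcross _
  obtain ⟨z, P, c, H, hstep⟩ := hnode 𝔫 X Y hcross
  exact ⟨z, P, c, fun k => k + 1, H, tresmzk_shift_trans p, hstep⟩

end Base

end Fermat.Agent.R38

end
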