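/-
ROW 38, TRES, piece FAC-ASM-MAIN, the COVER BLOCK (β) of the top of `StmtMonoCover` (helper41).

Frame K (`R38/TresNodePtConc.lean`, section `Base`): `K = ℚ̄^I = beta0Field A`,
`A₀ = beta0Ring A K` (a DVR, uniformizer `π`), `F = F_{M q}(K)` (rigid level), `t = bgJ`,
`V = mgvV hπ ιC hq hqM` (`true = V_∞`, `false = V_0`); `q` is the residue characteristic AND the
Kummer exponent.  `L ⊇ F` the function field of the cover over `K`.

* `tresmt_loc` : **the (LOC) half of the cover block**: from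
    - `T : Tres5Gen F L V_∞ q` (K-FORM (A), helper53 `tres5kiv_descend`), a sheet `k₀ < q`,
    - the descended deck transformation `ρK` and the function `w = u″` with
      `ρK w = a · w · h ^ q`, `q ∣ ord_{V_0} a`, `q ∣ ord_P w` at the places of `L / K`
      (helper30 / helper64 `tres5cd_all`, helper30 (L2)),
    - the split structures at the closed points on `V_∞` of the chart `j` together with the
      step of `ρK` (K-FORM (B), helper48 Layer 3 + helper64 (L1)), and at the cusps,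
    - `m` with `w / π ^ m` a unit of the sheet `W = T.W k₀`,
  the hypotheses `hfin` and `hcusp` of `tresmonof_frame` (`R38/TresMonoConcF.lean`) for
  `W = T.W k₀`, `y = w / π ^ m`, `h = s36tuV` (the Ogg unit), `e = 12`, `c = m₀ − m`
  (MONO-0: helper14 `tresmzi_main_zmod`; (I3): helper92 `tres5npj_hfin_node`;
  (I4): helper84 `tres5npc_hcusp_rigid`).
-/
import Fermat.Agent.R38.TresNodePtCusp
import Fermat.Agent.R38.TresMonoZeroInst
import Fermat.Agent.R38.TresCover

set_option autoImplicit false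
set_option linter.unusedSectionVars false
set_option linter.unusedVariables false
set_option linter.style.haveILetI false
set_option linter.style.longLine false
set_option synthInstance.maxHeartbeats 400000
set_option maxHeartbeats 1600000

noncomputable section

namespace Fermat.Agent.R38

open ModularCurve AlgebraicCurve IntermediateField Polynomial Fermat.Agent.INJ Fermat.Agent.UNIP
  Fermat.Agent.STB Fermat.Agent.S36 Fermat.Agent.RIB.MP Fermat.Agent.RT.K6 Fermat.Agent.AL
  Fermat.Agent.ES Fermat.Agent.ES.G2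

section Loc

variable {A : ValuationSubring Qb} {q M : ℕ} [NeZero q] [NeZero M] [NeZero (M * q)]
  [IsDiscreteValuationRing ↥(beta0Ring A (beta0Field A))]
  {π : ↥(beta0Ring A (beta0Field A))} (hπ : Irreducible π)
  (ιC : ↥(beta0Field A) →+* ℂ) (hq : q.Prime) (hqM : ¬ q ∣ M)

include hπ ιC hq hqM in
/-- **The (LOC) half of the cover block**: `hfin` and `hcusp` of `tresmonof_frame` on a sheet of
the cover over `K = ℚ̄^I`, rigid level. -/
theorem tresmt_loc (hA : A.LiesOverPrime q)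
    (rigid : (q ≠ 2 → 4 ∣ M) ∧ (q = 2 → 9 ∣ M))
    {L : Type*} [Field L] [Algebra ↥(modularFunctionFieldFullC ↥(beta0Field A) (M * q)) L]
    [Algebra ↥(beta0Field A) L]
    [IsScalarTower ↥(beta0Field A) ↥(modularFunctionFieldFullC ↥(beta0Field A) (M * q)) L]
    (T : Tres5Gen ↥(modularFunctionFieldFullC ↥(beta0Field A) (M * q)) L
      (mgvV hπ ιC hq hqM true) q)
    {k₀ : ℕ} (hk₀ : k₀ < q)
    (ρK : L →ₐ[↥(modularFunctionFieldFullC ↥(beta0Field A) (M * q))] L)
    {w h : L} {a : ↥(modularFunctionFieldFullC ↥(beta0Field A) (M * q))}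
    (hw0 : w ≠ 0) (ha0 : a ≠ 0) (hh0 : h ≠ 0)
    (hρu : ρK w =
      algebraMap ↥(modularFunctionFieldFullC ↥(beta0Field A) (M * q)) L a * w * h ^ q)
    (hpa : (q : ℤ) ∣ tres5Ord (mgvV hπ ιC hq hqM false)
      (algebraMap ↥(beta0Ring A (beta0Field A))
        ↥(modularFunctionFieldFullC ↥(beta0Field A) (M * q)) π) a)
    (hhor : ∀ Pl : Place ↥(beta0Field A) L, (q : ℤ) ∣ Pl.ord w)
    (hsplitJ : ∀ 𝔫 : AtPt (F := ↥(modularFunctionFieldFullC ↥(beta0Field A) (M * q))) π
        (bgJ ↥(beta0Field A) (M * q)),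
      atThrough 𝔫 (mgvV hπ ιC hq hqM true) → ∀ [IsLocalRing ↥(atLoc 𝔫)],
        ∃ (z : L) (P : (↥(atLoc 𝔫))[X]) (c : ZMod q → ↥(atLoc 𝔫)),
          Tres5eSplit ↥(modularFunctionFieldFullC ↥(beta0Field A) (M * q)) z P c ∧
          ∀ i : ZMod q, ∃ b ∈ tres5eMax ↥(atLoc 𝔫) z (c i),
            ρK z = algebraMap ↥(atLoc 𝔫) L (c (i + 1)) + (b : L))
    (hsplitC : ∀ 𝔫 : AtPt (F := ↥(modularFunctionFieldFullC ↥(beta0Field A) (M * q))) π
        (bgJ ↥(beta0Field A) (M * q))⁻¹,
      atThrough 𝔫 (mgvV hπ ιC hq hqM true) →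
      (∀ b : ↥(zchClosure (A₀ := ↥(beta0Ring A (beta0Field A)))
          ({(bgJ ↥(beta0Field A) (M * q))⁻¹} :
            Set ↥(modularFunctionFieldFullC ↥(beta0Field A) (M * q)))),
        (b : ↥(modularFunctionFieldFullC ↥(beta0Field A) (M * q))) =
          (bgJ ↥(beta0Field A) (M * q))⁻¹ → b ∈ 𝔫.1) →
      ∀ [IsLocalRing ↥(atLoc 𝔫)],
        ∃ (z : L) (P : (↥(atLoc 𝔫))[X]) (c : ZMod q → ↥(atLoc 𝔫)),
          Tres5eSplit ↥(modularFunctionFieldFullC ↥(beta0Field A) (M * q)) z P c)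
    (m : ℤ)
    (hm : (T.W k₀).valuation
      (w / algebraMap ↥(modularFunctionFieldFullC ↥(beta0Field A) (M * q)) L
        (algebraMap ↥(beta0Ring A (beta0Field A))
          ↥(modularFunctionFieldFullC ↥(beta0Field A) (M * q)) π) ^ m) = 1) :
    ∃ m₀ : ℤ,
      (∀ 𝔫 : AtPt (F := ↥(modularFunctionFieldFullC ↥(beta0Field A) (M * q))) π
          (bgJ ↥(beta0Field A) (M * q)),
        ∀ T' : ValuationSubring L,
        (∀ x ∈ atLoc 𝔫,
          algebraMap ↥(modularFunctionFieldFullC ↥(beta0Field A) (M * q)) L x ∈ T') →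
        (∀ x ∈ T', x ∈ T.W k₀) →
        ∃ O' : Subring L, (∀ x ∈ O', x ∈ T') ∧
          TresMonoPt (T.W k₀) O' q (m₀ - m) 12
            (w / algebraMap ↥(modularFunctionFieldFullC ↥(beta0Field A) (M * q)) L
              (algebraMap ↥(beta0Ring A (beta0Field A))
                ↥(modularFunctionFieldFullC ↥(beta0Field A) (M * q)) π) ^ m)
            (algebraMap ↥(modularFunctionFieldFullC ↥(beta0Field A) (M * q)) L
              (s36tuV ↥(beta0Field A) ιC (q := q) (M := M)))) ∧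
      (∀ 𝔫 : AtPt (F := ↥(modularFunctionFieldFullC ↥(beta0Field A) (M * q))) π
          (bgJ ↥(beta0Field A) (M * q))⁻¹,
        ∀ T' : ValuationSubring L,
        (∀ x ∈ atLoc 𝔫,
          algebraMap ↥(modularFunctionFieldFullC ↥(beta0Field A) (M * q)) L x ∈ T') →
        (∀ x ∈ T', x ∈ T.W k₀) →
        (∀ b : ↥(zchClosure (A₀ := ↥(beta0Ring A (beta0Field A)))
            ({(bgJ ↥(beta0Field A) (M * q))⁻¹} :
              Set ↥(modularFunctionFieldFullC ↥(beta0Field A) (M * q)))),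
          (b : ↥(modularFunctionFieldFullC ↥(beta0Field A) (M * q))) =
            (bgJ ↥(beta0Field A) (M * q))⁻¹ → b ∈ 𝔫.1) →
        ∃ O' : Subring L, (∀ x ∈ O', x ∈ T') ∧
          StbFacAt O' q
            (w / algebraMap ↥(modularFunctionFieldFullC ↥(beta0Field A) (M * q)) L
              (algebraMap ↥(beta0Ring A (beta0Field A))
                ↥(modularFunctionFieldFullC ↥(beta0Field A) (M * q)) π) ^ m)) := by
  haveI : Fact q.Prime := ⟨hq⟩
  have hWV := T.W_comap hk₀
  -- the deck transformation is bijective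
  haveI : FiniteDimensional ↥(modularFunctionFieldFullC ↥(beta0Field A) (M * q)) L :=
    Module.finite_of_finrank_pos (by rw [T.hfin]; exact hq.pos)
  have hbij : Function.Bijective ρK := Algebra.IsAlgebraic.algHom_bijective ρK
  -- MONO-0
  obtain ⟨m₀, hm₀⟩ := tresmzi_main_zmod hπ ιC hq hqM hA rigid (p := q) q hw0 ha0 hh0 ρK hbij hρu
    hpa (fun 𝔫 X Y hcross _ => hsplitJ 𝔫 hcross.1)
  refine ⟨m₀, ?_, ?_⟩
  · exact tres5npj_hfin_node hπ ιC hq hqM hA rigid (T.W k₀) hWV
      (fun 𝔫 hthr _ => by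
        obtain ⟨z, P, c, H, -⟩ := hsplitJ 𝔫 hthr
        exact ⟨z, P, c, H⟩) hw0 hhor m₀ hm₀ m hm
  · exact tres5npc_hcusp_rigid hπ ιC hq hqM hA rigid (T.W k₀) hWV hsplitC hw0 hhor m hm

end Loc

end Fermat.Agent.R38
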