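/-
ROW 38, TRES, piece FAC-ASM-MAIN (helper89), part M3e: THE TOP OF `StmtMonoCover`.

* `StmtMonoCoverData` : THE COVER BLOCK as one `Prop` — for a class `x` as in `StmtMonoCover`
  there are a Kummer function `u` of `x` with a Gauss reduction `r`, a field `L` over
  `F = F_{4 M p}(K)` (`K = ℚ̄^I = beta0Field A`, rigid level `4 M`), a valuation ring `W` of `L`
  over the Gauss valuation ring `V_∞ = mgvV … true`, a reduction map `ρ_W : W →+* F̄_{4M}(k)`
  extending `ribmpRedF` with kernel `𝔪_W`, a unit `y` of `W` and `c : ℤ` with the three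
  hypotheses (I3) `hfin`, (I4) `hcusp`, (I6) `hcmp` of `tresmonof_frame`
  (`R38/TresMonoConcF.lean`), for the Ogg unit `h = s36tuV` and `e = 12`;
* `stmtMonoCover_of_data : StmtMonoCoverData → StmtMonoCover` — everything else is plugged in:
  the frame (`beta0Ring_isDVR_base`, `π = p`, `ιC = mgdIota`), `hRedF = stmtRedF`,
  `hfinQ` (`ribmp_rf_hfin`), (I5) `tresmi5_mem` (helper42), (I7) `tresmi7_*` (helper10),
  (I8) `tresrig_up_mul_four` (helper35), `¬ p ∣ 12`.
-/
import Fermat.Agent.R38.TresMonoConcF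
import Fermat.Agent.R38.TresMonoI5
import Fermat.Agent.R38.TresMonoI7
import Fermat.Agent.R38.TresRig
import Fermat.Agent.RIB.MP.RedFinal
import Fermat.Agent.S15.RedPkg

set_option autoImplicit false
set_option linter.unusedSectionVars false
set_option linter.unusedVariables false
set_option linter.style.haveILetI false
set_option linter.style.longLine false
set_option synthInstance.maxHeartbeats 400000
set_option maxHeartbeats 1600000

noncomputable section

namespace Fermat.Agent.R38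

open ModularCurve AlgebraicCurve IntermediateField Fermat.Agent.ES Fermat.Agent.ES.G2
  Fermat.Agent.INJ Fermat.Agent.UNIP Fermat.Agent.STB Fermat.Agent.ES.M Fermat.Agent.DEU
  Fermat.Agent.S36 Fermat.Agent.S33 Fermat.Agent.S28 Fermat.Agent.S24 Fermat.Agent.S15
  Fermat.Agent.RIB.MP Fermat.Agent.RT.K6 Fermat.Agent.AL Fermat.Agent.W1 Fermat.Agent.RIB
  ExtCitation

/-- a prime `p ≥ 5` does not divide `12` -/
theorem tresmta_not_dvd_twelve {p : ℕ} (hp : p.Prime) (h5 : 5 ≤ p) : ¬ (p : ℤ) ∣ (12 : ℤ) := by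
  intro h
  have h' : p ∣ 12 := by exact_mod_cast h
  have h2 : p ∣ 2 ^ 2 * 3 := by simpa using h'
  rcases (Nat.Prime.dvd_mul hp).1 h2 with h3 | h3
  · have := (Nat.prime_dvd_prime_iff_eq hp Nat.prime_two).1 (hp.dvd_of_dvd_pow h3)
    omega
  · have := (Nat.prime_dvd_prime_iff_eq hp Nat.prime_three).1 h3
    omega

/-- a prime `p ≥ 5` not dividing `M` does not divide `4 M` -/
theorem tresmta_not_dvd_mul_four {p M : ℕ} (hp : p.Prime) (h5 : 5 ≤ p) (hpM : ¬ p ∣ M) :
    ¬ p ∣ M * 4 := by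
  intro h
  rcases (Nat.Prime.dvd_mul hp).1 h with h1 | h1
  · exact hpM h1
  · have hle : p ≤ 4 := Nat.le_of_dvd (by norm_num) h1
    omega

/-- the adapter of FAC-RIG (helper35) to the frame predicate `TresRigDescent` -/
theorem tresmta_rigDescent_of_up (M M' p : ℕ) [NeZero M] [NeZero M'] (A : ValuationSubring Qb)
    (hp : p.Prime) (hMM' : M ∣ M') (hup : TresRigUp (kA A) p M M') : TresRigDescent M M' p A :=
  fun r h hr hh _ _ a b H => tresrig_descent_of_up (kA A) hp hMM' hup r h hr hh a b H.1 H.2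

/-- **THE COVER BLOCK of `StmtMonoCover`.**  Frame: `K = beta0Field A`, `π = p`,
`ιC = mgdIota K`, rigid level `4 M`, `F = F_{4 M p}(K)`, `V_∞ = mgvV … true`,
`ρ_F = ribmpRedF … (stmtRedF …)`. -/
def StmtMonoCoverData : Prop :=
  ∀ (M p : ℕ) [NeZero M] [NeZero p] [NeZero (M * p)] [NeZero (M * 4)] [NeZero (M * 4 * p)]
    [Fact p.Prime] (hp : p.Prime) (hpM : ¬ p ∣ M) (hpM4 : ¬ p ∣ M * 4) (_ : 5 ≤ p)
    (A : ValuationSubring Qb) (hA : A.LiesOverPrime p)
    [IsDiscreteValuationRing ↥(beta0Ring A (beta0Field A))]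
    (x : JZero (M * p)), p • x = 0 → stbPushAlpha M p x = 0 → stbPushBeta M p x = 0 →
      PeuFixed A p x →
    ∀ σ₀ ∈ A.inertiaSubgroupIn ℚ, σ₀ • x - x ≠ 0 → p • (σ₀ • x - x) = 0 →
      stbPushAlpha M p (σ₀ • x - x) = 0 → stbPushBeta M p (σ₀ • x - x) = 0 →
      TrivInf A p (σ₀ • x - x) →
      (∀ τ ∈ A.inertiaSubgroupIn ℚ, τ • (σ₀ • x - x) = cycloExp p τ • (σ₀ • x - x)) →
      (∀ σ ∈ A.inertiaSubgroupIn ℚ, ∃ k : ℤ, σ • x - x = k • (σ₀ • x - x)) →
    ∃ (u : modularFunctionFieldBar (M * p)) (r : LaurentSeries (kA A))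
      (L : Type) (_ : Field L)
      (_ : Algebra ↥(modularFunctionFieldFullC ↥(beta0Field A) (M * 4 * p)) L)
      (W : ValuationSubring L)
      (ρW : ↥W →+* ↥(modularFunctionFieldFullC (kA A) (M * 4)))
      (y : L) (hy : W.valuation y = 1) (c : ℤ),
      KummerRel p x u ∧ R38Red A (u : LaurentSeries Qb) r ∧
      -- `W` lies over `V_∞`, `ρ_W` extends `ρ_F` and kills `𝔪_W`
      W.comap (algebraMap ↥(modularFunctionFieldFullC ↥(beta0Field A) (M * 4 * p)) L) =
        mgvV (beta0Ring_irreducible_q (A := A) hp hA) (mgdIota (beta0Field A)) hp hpM4 true ∧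
      (∀ (a : ↥(modularFunctionFieldFullC ↥(beta0Field A) (M * 4 * p)))
        (ha : a ∈ mgvV (beta0Ring_irreducible_q (A := A) hp hA) (mgdIota (beta0Field A))
          hp hpM4 true)
        (haW : algebraMap ↥(modularFunctionFieldFullC ↥(beta0Field A) (M * 4 * p)) L a ∈ W),
        ρW ⟨algebraMap ↥(modularFunctionFieldFullC ↥(beta0Field A) (M * 4 * p)) L a, haW⟩ =
          ribmpRedF hp hpM4 hA (beta0Ring_irreducible_q (A := A) hp hA)
            (mgdIota (beta0Field A)) (stmtRedF (M * 4) A p hp hpM4 hA) ⟨a, ha⟩) ∧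
      (∀ x : ↥W, (x : L) ∈ W.nonunits → ρW x = 0) ∧
      -- (I3) `hfin` : the closed points of the chart `j`
      (∀ 𝔫 : AtPt (F := ↥(modularFunctionFieldFullC ↥(beta0Field A) (M * 4 * p)))
          ((p : ℕ) : ↥(beta0Ring A (beta0Field A))) (bgJ ↥(beta0Field A) (M * 4 * p)),
        ∀ T : ValuationSubring L,
        (∀ x ∈ atLoc 𝔫,
          algebraMap ↥(modularFunctionFieldFullC ↥(beta0Field A) (M * 4 * p)) L x ∈ T) →
        (∀ x ∈ T, x ∈ W) →
        ∃ O' : Subring L, (∀ x ∈ O', x ∈ T) ∧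
          TresMonoPt W O' p c 12 y
            (algebraMap ↥(modularFunctionFieldFullC ↥(beta0Field A) (M * 4 * p)) L
              (s36tuV ↥(beta0Field A) (mgdIota (beta0Field A)) (q := p) (M := M * 4)))) ∧
      -- (I4) `hcusp` : the cusps (chart `1 / j`)
      (∀ 𝔫 : AtPt (F := ↥(modularFunctionFieldFullC ↥(beta0Field A) (M * 4 * p)))
          ((p : ℕ) : ↥(beta0Ring A (beta0Field A))) (bgJ ↥(beta0Field A) (M * 4 * p))⁻¹,
        ∀ T : ValuationSubring L,
        (∀ x ∈ atLoc 𝔫,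
          algebraMap ↥(modularFunctionFieldFullC ↥(beta0Field A) (M * 4 * p)) L x ∈ T) →
        (∀ x ∈ T, x ∈ W) →
        (∀ b : ↥(zchClosure (A₀ := ↥(beta0Ring A (beta0Field A)))
            ({(bgJ ↥(beta0Field A) (M * 4 * p))⁻¹} :
              Set ↥(modularFunctionFieldFullC ↥(beta0Field A) (M * 4 * p)))),
          (b : ↥(modularFunctionFieldFullC ↥(beta0Field A) (M * 4 * p))) =
            (bgJ ↥(beta0Field A) (M * 4 * p))⁻¹ → b ∈ 𝔫.1) →
        ∃ O' : Subring L, (∀ x ∈ O', x ∈ T) ∧ StbFacAt O' p y) ∧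
      -- (I6) `hcmp` : the comparison of the two reductions
      (∃ (hr' : r ∈ modularFunctionFieldFullC (kA A) (M * 4)) (a : kA A)
        (s : ↥(modularFunctionFieldFullC (kA A) (M * 4))), a ≠ 0 ∧ s ≠ 0 ∧
        (⟨r, hr'⟩ : ↥(modularFunctionFieldFullC (kA A) (M * 4))) =
          algebraMap (kA A) ↥(modularFunctionFieldFullC (kA A) (M * 4)) a *
            ρW ⟨y, tresdn_mem W hy⟩ * s ^ p)

/-- **`StmtMonoCover` from the cover block.** -/
theorem stmtMonoCover_of_data (H : StmtMonoCoverData) : StmtMonoCover := by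
  intro M p _ _ _ _ hpM h5 A hA x hx hα hβ hpeu σ₀ hσ₀ hz hpz hzα hzβ htriv htor hspan
  have hp : p.Prime := Fact.out
  haveI : NeZero (M * 4) := ⟨Nat.mul_ne_zero (NeZero.ne M) (by norm_num)⟩
  haveI : NeZero (M * 4 * p) := ⟨Nat.mul_ne_zero (NeZero.ne (M * 4)) (NeZero.ne p)⟩
  haveI : IsDiscreteValuationRing ↥(beta0Ring A (beta0Field A)) := beta0Ring_isDVR_base hp hA
  haveI : CharP (kA A) p := Fermat.Agent.RED.charP_residueField A hp hA
  have hπ := beta0Ring_irreducible_q (A := A) hp hA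
  have hpM4 : ¬ p ∣ M * 4 := tresmta_not_dvd_mul_four hp h5 hpM
  obtain ⟨rr, sp, Pinf, Qinf, hpkg⟩ := s15red_exists_pkg (M * 4) p hp hpM4 (Or.inl h5) A hA
  obtain ⟨u, r, L, instL, instA, W, ρW, y, hy, c, hK, hred, hWV, hρW, hρWker, hfin, hcusp,
    hr', a, s, ha, hs, hcmp⟩ :=
    H M p hp hpM hpM4 h5 A hA x hx hα hβ hpeu σ₀ hσ₀ hz hpz hzα hzβ htriv htor hspan
  have hr : r ∈ modularFunctionFieldFullC (kA A) M := tresmi5_mem hp hpM hA hred
  have hhV := tresmi7_hh hp hpM4 hA hπ (mgdIota (beta0Field A))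
  have hWle : ∀ a : ↥(modularFunctionFieldFullC ↥(beta0Field A) (M * 4 * p)),
      a ∈ mgvV hπ (mgdIota (beta0Field A)) hp hpM4 true →
        algebraMap ↥(modularFunctionFieldFullC ↥(beta0Field A) (M * 4 * p)) L a ∈ W := by
    intro a ha
    have : a ∈ W.comap (algebraMap ↥(modularFunctionFieldFullC ↥(beta0Field A) (M * 4 * p)) L) := by
      rw [hWV]; exact ha
    exact this
  have hh : W.valuation
      (algebraMap ↥(modularFunctionFieldFullC ↥(beta0Field A) (M * 4 * p)) L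
        (s36tuV ↥(beta0Field A) (mgdIota (beta0Field A)) (q := p) (M := M * 4))) = 1 :=
    tresmi7_cover_val (mgvV hπ (mgdIota (beta0Field A)) hp hpM4 true) W hWle hhV
  have hρh := tresmi7_cover (mgvV hπ (mgdIota (beta0Field A)) hp hpM4 true) W
    (ribmpRedF hp hpM4 hA hπ (mgdIota (beta0Field A)) (stmtRedF (M * 4) A p hp hpM4 hA)) ρW
    hhV hh (fun x hx hx' => hρW x hx hx')
    (tresmi7_hρh hp hpM4 hA hπ (mgdIota (beta0Field A)) (stmtRedF (M * 4) A p hp hpM4 hA))
  exact tresmonof_frame hp hpM4 hA hπ (mgdIota (beta0Field A))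
    (stmtRedF (M * 4) A p hp hpM4 hA) (fun Q => ribmp_rf_hfin hpkg Q) W hWV ρW hρW hρWker
    hy hh c 12 (tresmta_not_dvd_twelve hp h5) hfin hcusp u hK r hr hr' hred
    ⟨a, s, ha, hs, hcmp⟩ (uInvS (kA A) p) (tresmi7_hhb hp hA M) (tresmi7_hhb hp hA (M * 4))
    hρh (tresmi7_hhecke A hp)
    (tresmta_rigDescent_of_up M (M * 4) p A hp (Dvd.intro 4 rfl)
      (tresrig_up_mul_four (kA A) hp h5 (NeZero.ne M)))

end Fermat.Agent.R38

end
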