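import Fermat.Agent.R38.TresMonoTopC0
import Fermat.Agent.R38.TresKFormInstCInv
import Fermat.Agent.R38.TresMonoTop

/-!
# ROW 38, TRES, the cover block (β): the hypothesis `hsplitC` of `tresmt_loc` from the OUTPUT
clauses of `tres5bit_descend` (helper47)

Frame of helper16's `tres5bit_descend` (`R38/TresBigInstT.lean`): `A ⊂ ℚ̄` over `q`,
`K = beta0Field A = ℚ̄^I`, `E = mgcE A K₁ = K · K₁`, `S : Tres5Kum F_E L_E V_∞ q` the Kummer datum
over the big field, `L_E = tres5cL E (M q) y`, `L_K = tres5cL K (M q) y`.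

* `tresmtc_hsplitC_bit`: **`hsplitC` of `tresmt_loc` VERBATIM** at
                         `L := ↥(tres5cL (beta0Field A) (M * q) y)` (helper52's
                         `tres5kicv_hsplitC`), hypotheses = output clauses of `tres5bit_descend`
                         and the toric line (`hw hy hle htor`).
-/

set_option autoImplicit false
set_option linter.style.haveILetI false
set_option linter.unusedSectionVars false
set_option linter.unusedVariables false
set_option linter.style.longLine false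
set_option synthInstance.maxHeartbeats 400000
set_option maxHeartbeats 1600000

/- the algebra structure of a subring `O ⊆ F` on an extension of `F`: found first (the default
search is slow in the concrete frame; the instance found is the same). -/
attribute [local instance 100000] Algebra.ofSubsemiring

noncomputable section

namespace Fermat.Agent.R38

open ModularCurve AlgebraicCurve IntermediateField Polynomial Fermat.Agent.INJ Fermat.Agent.UNIP
  Fermat.Agent.STB Fermat.Agent.ES Fermat.Agent.ES.G2 Fermat.Agent.S33 Fermat.Agent.RIB.MP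

section BitC

variable {q M : ℕ} [NeZero q] [NeZero M] [NeZero (M * q)]
  {A : ValuationSubring Qb} {K₁ : IntermediateField ℚ Qb}
  [IsDiscreteValuationRing ↥(mgcA A K₁)]
  [IsDiscreteValuationRing ↥(beta0Ring A (beta0Field A))]
  {π : ↥(mgcA A K₁)} (hπ : Irreducible π)
  {π₀ : ↥(beta0Ring A (beta0Field A))} (hπ₀ : Irreducible π₀)
  (ιC : ↥(mgcE A K₁) →+* ℂ) (ιC₀ : ↥(beta0Field A) →+* ℂ)
  (hq : q.Prime) (hqM : ¬ q ∣ M) (hA : A.LiesOverPrime q)
  {y : LaurentSeries NfQb}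

include hπ hπ₀ hA in
/-- **`hsplitC` of `tresmt_loc`, VERBATIM**, at `L := ↥(tres5cL (beta0Field A) (M * q) y)`:
hypotheses = the toric line and the output clauses of `tres5bit_descend`. -/
theorem tresmtc_hsplitC_bit [Fact q.Prime] [NumberField K₁] [IsGalois ℚ K₁]
    {N : ℕ} [NeZero N] {z₀ : JZero N}
    {w₀ : modularFunctionFieldBar N} (hw : KummerRel q z₀ w₀)
    (hy : y ^ q = (w₀ : LaurentSeries NfQb))
    (hle : modularFunctionFieldBar N ≤ modularFunctionFieldBar (M * q))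
    (htor : ∀ τ ∈ A.inertiaSubgroupIn ℚ, τ • z₀ = ExtCitation.cycloExp q τ • z₀)
    {ζ : ↥(mgcA A K₁)} (hζ : IsPrimitiveRoot ζ q)
    {u₀ : ↥(mgcF A K₁ (M * q))} {yE : LaurentSeries ↥(mgcE A K₁)}
    (hyE : coeffMap (algebraMap ↥(mgcE A K₁) NfQb) yE = y)
    (S : Tres5Kum ↥(mgcF A K₁ (M * q)) ↥(tres5cL (mgcE A K₁) (M * q) y)
      (mgvV hπ ιC hq hqM true) q)
    (hfracY : VtFrac (algebraMap ↥(mgcA A K₁) ↥(mgcE A K₁))
      ((S.y : ↥(tres5cL (mgcE A K₁) (M * q) y)) : LaurentSeries ↥(mgcE A K₁)))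
    (hSζ : S.ζ = algebraMap ↥(mgcA A K₁) ↥(mgcF A K₁ (M * q)) ζ)
    (hSw : S.w = u₀)
    (hSy : S.y = tres5cGenL (mgcE A K₁) (M * q) y hyE)
    (hpt : ∀ i, ∃ g : ↥(mgcF A K₁ (M * q)), g ≠ 0 ∧ ∃ y' ∈ atO π (mgcT A K₁ (M * q)) i,
      u₀ / g ^ q - 1 =
        (algebraMap ↥(mgcA A K₁) ↥(mgcF A K₁ (M * q)) ζ - 1) ^ q *
          algebraMap ↥(mgcA A K₁) ↥(mgcF A K₁ (M * q)) π * y') :
    ∀ 𝔫 : AtPt (F := ↥(modularFunctionFieldFullC ↥(beta0Field A) (M * q))) π₀
        (bgJ ↥(beta0Field A) (M * q))⁻¹,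
      atThrough 𝔫 (mgvV hπ₀ ιC₀ hq hqM true) →
      (∀ b : ↥(zchClosure (A₀ := ↥(beta0Ring A (beta0Field A)))
          ({(bgJ ↥(beta0Field A) (M * q))⁻¹} :
            Set ↥(modularFunctionFieldFullC ↥(beta0Field A) (M * q)))),
        (b : ↥(modularFunctionFieldFullC ↥(beta0Field A) (M * q))) =
          (bgJ ↥(beta0Field A) (M * q))⁻¹ → b ∈ 𝔫.1) →
      ∀ [IsLocalRing ↥(atLoc 𝔫)],
        ∃ (z : ↥(tres5cL (beta0Field A) (M * q) y)) (P : (↥(atLoc 𝔫))[X])
          (c : ZMod q → ↥(atLoc 𝔫)),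
          Tres5eSplit ↥(modularFunctionFieldFullC ↥(beta0Field A) (M * q)) z P c := by
  intro 𝔫 hthr _ _
  exact tres5kicv_hsplitC hπ₀ hπ ιC₀ ιC hq hqM hA (le_sup_left : beta0Field A ≤ mgcE A K₁) y
    (tres5ff_hstabI_cyclo hw hy hle htor) (tres5ff_mgcE_stable K₁)
    (tres5ff_mgcE_finite K₁ hq hA) (tres5kiv_frac hπ (M * q) y S.htop hfracY) S.finrank_eq
    S.deck (tresmtc_hρG hπ ιC hq hqM hA hw hy hle htor hyE S hSζ hSy)
    (fun 𝔫E _ _ _ _ _ _ => tresmtc_hBig_inv hπ ιC hq hqM hA hζ S hSζ hSw hpt 𝔫E) 𝔫 hthr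

end BitC

end Fermat.Agent.R38
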