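/-
ROW 38, TRES, piece FAC-ASM-MAIN, the COVER BLOCK (β) of the top of `StmtMonoCover` (helper41),
part 3: **`stmtMonoCoverData : StmtMonoCoverData`**.

Frame of helper89's `StmtMonoCoverData` (`R38/TresMonoTopA.lean`): rigid level `4 M`,
`K = beta0Field A`, `π = p`, `ιC = mgdIota K`, `hRedF = stmtRedF`.

Wiring: `u` := a Kummer function of `x`, `r` := its Gauss reduction (`tresmi5_main`),
`z₀ := σ₀ x − x`, `w₀ := σ₀ u / u` (`tresline_kummer`), `y ^ p = w₀` (`tresdesc_exists_root`),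
(IN) (helper9), the `T`-instance (helper16's `tres5bit_descend`, `tres5bit_exists`),
Layer 3 (helper48 / helper47 / helper52), and the core `tresmtb_core`.
-/
import Fermat.Agent.R38.TresMonoTopCore
import Fermat.Agent.R38.TresMonoTopA
import Fermat.Agent.R38.TresBigInstT
import Fermat.Agent.R38.TresBigInstInC
import Fermat.Agent.R38.TresBigInstInD
import Fermat.Agent.R38.TresMonoTopC
import Fermat.Agent.R38.TresMonoTopJ
import Fermat.Agent.R38.TresLine
import Fermat.Agent.R38.TresDeckEx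

set_option autoImplicit false
set_option linter.unusedSectionVars false
set_option linter.unusedVariables false
set_option linter.style.haveILetI false
set_option linter.style.longLine false
set_option synthInstance.maxHeartbeats 400000
set_option maxHeartbeats 12800000

attribute [local instance 100000] Algebra.ofSubsemiring

noncomputable section

namespace Fermat.Agent.R38

open ModularCurve AlgebraicCurve IntermediateField Polynomial Fermat.Agent.INJ Fermat.Agent.UNIP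
  Fermat.Agent.STB Fermat.Agent.S36 Fermat.Agent.S33 Fermat.Agent.RIB.MP Fermat.Agent.RT.K6
  Fermat.Agent.AL Fermat.Agent.ES Fermat.Agent.ES.G2 Fermat.Agent.ES.M
  Fermat.Agent.DEU Fermat.Agent.S24 ExtCitation

/-- **THE COVER BLOCK of `StmtMonoCover`.** -/
theorem stmtMonoCoverData : StmtMonoCoverData := by
  intro M p _ _ _ _ _ _ hp hpM hpM4 h5 A hA _ x hx hα hβ hpeu σ₀ hσ₀ hz hpz hzα hzβ htriv htor
    hspan
  classical
  have hπ₀ := beta0Ring_irreducible_q (A := A) hp hA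
  -- the Kummer function of `x` and its Gauss reduction
  obtain ⟨u, hu⟩ := exists_kummerRel (n := p) hx
  obtain ⟨r, -, hred⟩ := tresmi5_main hp hpM hA u hu.ne_zero
  -- the Kummer function of `z₀ = σ₀ x − x` and its `p`-th root
  have hw : KummerRel p (σ₀ • x - x) (gcInertiaOp (M * p) σ₀ u) := tresline_kummer hu σ₀
  obtain ⟨y, hy⟩ := tresdesc_exists_root hp.ne_zero hw
  have hle : modularFunctionFieldBar (M * p) ≤ modularFunctionFieldBar (M * 4 * p) :=
    stb_d_le M p 4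
  -- (IN)
  have hdivw : ∀ P : Place Qb (modularFunctionFieldBar (M * 4 * p)),
      (p : ℤ) ∣ P.ord (⟨((gcInertiaOp (M * p) σ₀ u : modularFunctionFieldBar (M * p)) :
        LaurentSeries NfQb), hle (gcInertiaOp (M * p) σ₀ u).2⟩ :
          modularFunctionFieldBar (M * 4 * p)) :=
    fun P => tresdesck_up_hdiv M p 4 hw hle P
  have hsplit : IsSplitFn hp hpM4 A
      (⟨((gcInertiaOp (M * p) σ₀ u : modularFunctionFieldBar (M * p)) : LaurentSeries NfQb),
        hle (gcInertiaOp (M * p) σ₀ u).2⟩ : modularFunctionFieldBar (M * 4 * p)) :=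
    tres5binc_hsplit M p 4 hpM hpM4 A hA hle (σ₀ • x - x) hzα hzβ htriv
      (gcInertiaOp (M * p) σ₀ u) hw
  have hnp : ∀ c : ↥(modularFunctionFieldBar (M * 4 * p)),
      c ^ p ≠ (⟨((gcInertiaOp (M * p) σ₀ u : modularFunctionFieldBar (M * p)) :
        LaurentSeries NfQb), hle (gcInertiaOp (M * p) σ₀ u).2⟩ :
          modularFunctionFieldBar (M * 4 * p)) := by
    have hcop : Nat.Coprime 6 p := by
      have h2 : Nat.Coprime 2 p := (Nat.coprime_primes Nat.prime_two hp).mpr (by omega)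
      have h3 : Nat.Coprime 3 p := (Nat.coprime_primes Nat.prime_three hp).mpr (by omega)
      have : (6 : ℕ) = 2 * 3 := by norm_num
      rw [this]
      exact Nat.Coprime.mul_left h2 h3
    exact tres5bind_hw 2 (by ring : M * 4 * p = 2 ^ 2 * (M * p)) hcop hp.ne_zero hw hz hle
  -- the `T`-instance
  obtain ⟨K₀', hK₀', hdesc⟩ := tres5bit_descend hp hpM4 (by omega) (fun h3 => by omega) A hA hw hy
    hle htor hdivw hsplit hnp
  obtain ⟨K₁, nf, gal, dvr1, dvr0, ζ, hK₁le, hζ⟩ := tres5bit_exists hp A hA K₀' hK₀'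
  haveI := nf
  haveI := gal
  haveI := dvr1
  obtain ⟨π₁, hπ₁⟩ := IsDiscreteValuationRing.exists_irreducible ↥(mgcA A K₁)
  obtain ⟨u₀, yE, hyE, S, hfracY, T, ρK, hKum, hnine, hshape⟩ :=
    hdesc K₁ hK₁le hπ₁ hπ₀ (mgdIota (mgcE A K₁)) (mgdIota (beta0Field A)) hζ
  obtain ⟨hu₀, hyu, hw', hSζ, hSπ, hSw, hSy, hsh⟩ := hKum
  obtain ⟨hTπ, hTc, hTz, hTW, hGauss, hρ, hWρ, hfinrank, htop⟩ := hnine
  -- Layer 3
  have hsplitJ := tresmtc_hsplitJ_bit hπ₁ hπ₀ (mgdIota (mgcE A K₁)) (mgdIota (beta0Field A)) hp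
    hpM4 hA hw hy hle htor hζ hyE S hfracY hSζ hSw hSy hshape ρK hρ
  have hsplitC := tresmtc_hsplitC_bit hπ₁ hπ₀ (mgdIota (mgcE A K₁)) (mgdIota (beta0Field A)) hp
    hpM4 hA hw hy hle htor hζ hyE S hfracY hSζ hSw hSy hshape
  -- the inputs of the core
  have hSy' := tresmtc_coeffMap_y hπ₁ (mgdIota (mgcE A K₁)) hp hpM4 hyE S hSy
  have hSζ' := tresmtc_coeffMap_ζ hπ₁ (mgdIota (mgcE A K₁)) hp hpM4 S hSζ
  have hζQ : IsPrimitiveRoot (((ζ : ↥(mgcE A K₁)) : Qb)) p :=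
    hζ.map_of_injective (f := (algebraMap ↥(mgcE A K₁) Qb).comp (mgcA A K₁).subtype)
      (fun a b hab => wmg_coe_injective hab)
  have hK₁fd : FiniteDimensional ℚ K₁ := inferInstance
  -- split generators over all bigger fields
  have hS₂ : ∀ K₂ : IntermediateField ℚ NfQb, K₁ ≤ K₂ → FiniteDimensional ℚ K₂ →
      IsGalois ℚ K₂ →
      ∃ (_ : IsDiscreteValuationRing ↥(beta0Ring A (mgcE A K₂)))
        (π₂ : ↥(beta0Ring A (mgcE A K₂))) (hπ₂ : Irreducible π₂) (ιC₂ : ↥(mgcE A K₂) →+* ℂ)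
        (n₂ : ℕ)
        (S₂ : Tres5Gen ↥(modularFunctionFieldFullC ↥(mgcE A K₂) (M * 4 * p))
          ↥(tres5cL (mgcE A K₂) (M * 4 * p) y)
          (mgvV hπ₂ ιC₂ hp hpM4 true) n₂),
        S₂.π = algebraMap ↥(beta0Ring A (mgcE A K₂))
          ↥(modularFunctionFieldFullC ↥(mgcE A K₂) (M * 4 * p)) π₂ := by
    intro K₂ hK₂le hK₂fd hK₂gal
    haveI : NumberField K₂ := @NumberField.mk _ _ inferInstance hK₂fd
    haveI := hK₂gal
    haveI dvr2 : IsDiscreteValuationRing ↥(mgcA A K₂) := beta0Ring_isDVR_sup K₂ hp hA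
    obtain ⟨π₂, hπ₂⟩ := IsDiscreteValuationRing.exists_irreducible ↥(mgcA A K₂)
    have hmem : (((ζ : ↥(mgcE A K₁)) : Qb)) ∈ mgcE A K₂ :=
      (sup_le_sup_left hK₂le (beta0Field A)) (ζ : ↥(mgcE A K₁)).2
    obtain ⟨u₀', yE', hyE', S', hfracY', T', ρK', hKum', -, -⟩ :=
      hdesc K₂ (hK₁le.trans hK₂le) hπ₂ hπ₀ (mgdIota (mgcE A K₂)) (mgdIota (beta0Field A))
        (wmg_zeta_prim hp hζQ hmem)
    exact ⟨dvr2, π₂, hπ₂, mgdIota (mgcE A K₂), p, S'.gen, hKum'.2.2.2.2.1⟩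
  -- the core
  obtain ⟨W, hWV, ρW, hρW, hρWker, Y, hY, c, hfin, hcusp, hcmp⟩ :=
    tresmtb_core (N := M * p) (M' := M * 4) A hA hπ₀ (mgdIota (beta0Field A)) hp hpM4
      ⟨fun _ => Dvd.intro_left M rfl, fun h2 => absurd h2 (by omega)⟩
      (stmtRedF (M * 4) A p hp hpM4 hA) hu hw hy hle hspan hpeu htor
      (fun Q => tresdesck_up_hdiv M p 4 hu hle Q)
      (le_sup_left : beta0Field A ≤ mgcE A K₁) S hSy' hSζ' ρK hρ T hTπ hsplitJ hsplitC
      K₁ hK₁fd hS₂ hred
  exact ⟨u, r, ↥(tres5cL (beta0Field A) (M * 4 * p) y), inferInstance, inferInstance, W, ρW, Y,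
    hY, c, hu, hred, hWV, hρW, hρWker, hfin, hcusp, hcmp⟩

end Fermat.Agent.R38

end
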