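import Fermat.Agent.R38.TresBigInstPtInv
import Fermat.Agent.R38.TresBigInstT

/-!
# ROW 38, TRES, the cover block (β): the inputs `hρG`, `hBig` of the K-FORM (B) instance
(Layer 3, both charts) from the OUTPUT clauses of `tres5bit_descend` (helper47)

Frame of helper16's `tres5bit_descend` (`R38/TresBigInstT.lean`): `A ⊂ ℚ̄` over `q`,
`K = beta0Field A = ℚ̄^I`, `E = mgcE A K₁ = K · K₁`, `S : Tres5Kum F_E L_E V_∞ q` the Kummer datum
over the big field, `L_E = tres5cL E (M q) y`, `L_K = tres5cL K (M q) y`.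

* `tresmtc_hρG`        : `S.deck` commutes with `Gal(E / K)` (`tres5ff_hρG_cyclo`, helper29), from
                         the clauses `S.ζ = ζ`, `S.y = tres5cGenL …` of `tres5bit_descend`;
* `tresmtc_hBig_inv`   : the split structure and the deck formula at every closed point of the
                         `E`-chart `1 / j` (helper13's `tres5bipi_split_kum`), from the shape clause;
* `tresmtc_hBig_j`     : the same at the `E`-chart `j`.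
-/

set_option autoImplicit false
set_option linter.style.haveILetI false
set_option linter.unusedSectionVars false
set_option linter.unusedVariables false
set_option linter.style.longLine false
set_option synthInstance.maxHeartbeats 400000
set_option maxHeartbeats 1600000

/- the algebra structure of a subring `O ⊆ F` on an extension of `F`: found first (the default
search is slow in the concrete frame; the instance found is the same). -/
attribute [local instance 100000] Algebra.ofSubsemiring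

noncomputable section

namespace Fermat.Agent.R38

open ModularCurve AlgebraicCurve IntermediateField Polynomial Fermat.Agent.INJ Fermat.Agent.UNIP
  Fermat.Agent.STB Fermat.Agent.ES Fermat.Agent.ES.G2 Fermat.Agent.S33 Fermat.Agent.RIB.MP

section Bit

variable {q M : ℕ} [NeZero q] [NeZero M] [NeZero (M * q)]
  {A : ValuationSubring Qb} {K₁ : IntermediateField ℚ Qb}
  [IsDiscreteValuationRing ↥(mgcA A K₁)]
  [IsDiscreteValuationRing ↥(beta0Ring A (beta0Field A))]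
  {π : ↥(mgcA A K₁)} (hπ : Irreducible π)
  {π₀ : ↥(beta0Ring A (beta0Field A))} (hπ₀ : Irreducible π₀)
  (ιC : ↥(mgcE A K₁) →+* ℂ) (ιC₀ : ↥(beta0Field A) →+* ℂ)
  (hq : q.Prime) (hqM : ¬ q ∣ M) (hA : A.LiesOverPrime q)
  {y : LaurentSeries NfQb}

/-- `hSζ` of the consumers from the clause `S.ζ = ζ` of `tres5bit_descend` -/
theorem tresmtc_coeffMap_ζ {ζ : ↥(mgcA A K₁)}
    (S : Tres5Kum ↥(mgcF A K₁ (M * q)) ↥(tres5cL (mgcE A K₁) (M * q) y)
      (mgvV hπ ιC hq hqM true) q)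
    (hSζ : S.ζ = algebraMap ↥(mgcA A K₁) ↥(mgcF A K₁ (M * q)) ζ) :
    coeffMap (algebraMap ↥(mgcE A K₁) NfQb)
      ((S.ζ : ↥(mgcF A K₁ (M * q))) : LaurentSeries ↥(mgcE A K₁)) =
        HahnSeries.C (((ζ : ↥(mgcE A K₁)) : Qb)) := by
  rw [hSζ]
  show coeffMap (algebraMap ↥(mgcE A K₁) NfQb)
    (algebraMap ↥(mgcE A K₁) (LaurentSeries ↥(mgcE A K₁)) (ζ : ↥(mgcE A K₁))) = _
  rw [nf_coeffMap_algebraMap, algebraMap_laurentSeries_eq_single, ← HahnSeries.C_apply]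
  rfl

/-- `hSy` of the consumers from the clause `S.y = tres5cGenL …` of `tres5bit_descend` -/
theorem tresmtc_coeffMap_y {yE : LaurentSeries ↥(mgcE A K₁)}
    (hyE : coeffMap (algebraMap ↥(mgcE A K₁) NfQb) yE = y)
    (S : Tres5Kum ↥(mgcF A K₁ (M * q)) ↥(tres5cL (mgcE A K₁) (M * q) y)
      (mgvV hπ ιC hq hqM true) q)
    (hSy : S.y = tres5cGenL (mgcE A K₁) (M * q) y hyE) :
    coeffMap (algebraMap ↥(mgcE A K₁) NfQb)
      ((S.y : ↥(tres5cL (mgcE A K₁) (M * q) y)) : LaurentSeries ↥(mgcE A K₁)) = y := by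
  rw [hSy]
  exact hyE

include hA in
/-- **`hρG`**: the deck transformation of the Kummer datum of `tres5bit_descend` commutes with
`Gal(E / K)`. -/
theorem tresmtc_hρG [Fact q.Prime] {N : ℕ} [NeZero N] {z₀ : JZero N}
    {w₀ : modularFunctionFieldBar N} (hw : KummerRel q z₀ w₀)
    (hy : y ^ q = (w₀ : LaurentSeries NfQb))
    (hle : modularFunctionFieldBar N ≤ modularFunctionFieldBar (M * q))
    (htor : ∀ τ ∈ A.inertiaSubgroupIn ℚ, τ • z₀ = ExtCitation.cycloExp q τ • z₀)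
    {ζ : ↥(mgcA A K₁)} {yE : LaurentSeries ↥(mgcE A K₁)}
    (hyE : coeffMap (algebraMap ↥(mgcE A K₁) NfQb) yE = y)
    (S : Tres5Kum ↥(mgcF A K₁ (M * q)) ↥(tres5cL (mgcE A K₁) (M * q) y)
      (mgvV hπ ιC hq hqM true) q)
    (hSζ : S.ζ = algebraMap ↥(mgcA A K₁) ↥(mgcF A K₁ (M * q)) ζ)
    (hSy : S.y = tres5cGenL (mgcE A K₁) (M * q) y hyE) :
    letI := beta0FieldAlgebra (le_sup_left : beta0Field A ≤ mgcE A K₁)
    letI := tres5ffAct hq hA (le_sup_left : beta0Field A ≤ mgcE A K₁) (M * q) y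
      (tres5ff_hstabI_cyclo hw hy hle htor)
    ∀ (g : ↥(mgcE A K₁) ≃ₐ[↥(beta0Field A)] ↥(mgcE A K₁))
      (x : ↥(tres5cL (mgcE A K₁) (M * q) y)), S.deck (g • x) = g • S.deck x :=
  tres5ff_hρG_cyclo hq hA (le_sup_left : beta0Field A ≤ mgcE A K₁) hw hy hle htor S
    (tresmtc_coeffMap_y hπ ιC hq hqM hyE S hSy) (tresmtc_coeffMap_ζ hπ ιC hq hqM S hSζ)

include hA in
/-- **`hBig` at the chart `1 / j`**: the split structure and the deck formula at every closed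
point of the `E`-chart `1 / j`, from the shape clause of `tres5bit_descend`. -/
theorem tresmtc_hBig_inv [Fact q.Prime] {ζ : ↥(mgcA A K₁)} (hζ : IsPrimitiveRoot ζ q)
    {u₀ : ↥(mgcF A K₁ (M * q))}
    (S : Tres5Kum ↥(mgcF A K₁ (M * q)) ↥(tres5cL (mgcE A K₁) (M * q) y)
      (mgvV hπ ιC hq hqM true) q)
    (hSζ : S.ζ = algebraMap ↥(mgcA A K₁) ↥(mgcF A K₁ (M * q)) ζ)
    (hSw : S.w = u₀)
    (hpt : ∀ i, ∃ g : ↥(mgcF A K₁ (M * q)), g ≠ 0 ∧ ∃ y' ∈ atO π (mgcT A K₁ (M * q)) i,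
      u₀ / g ^ q - 1 =
        (algebraMap ↥(mgcA A K₁) ↥(mgcF A K₁ (M * q)) ζ - 1) ^ q *
          algebraMap ↥(mgcA A K₁) ↥(mgcF A K₁ (M * q)) π * y')
    (𝔫E : AtPt (F := ↥(mgcF A K₁ (M * q))) π (bgJ ↥(mgcE A K₁) (M * q))⁻¹)
    [IsLocalRing ↥(atLoc 𝔫E)] [IsFractionRing ↥(atLoc 𝔫E) ↥(mgcF A K₁ (M * q))]
    [IsIntegrallyClosed ↥(atLoc 𝔫E)] [Algebra ↥(atLoc 𝔫E) ↥(tres5cL (mgcE A K₁) (M * q) y)]
    [IsScalarTower ↥(atLoc 𝔫E) ↥(mgcF A K₁ (M * q)) ↥(tres5cL (mgcE A K₁) (M * q) y)] :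
    ∃ (z : ↥(tres5cL (mgcE A K₁) (M * q) y)) (P : (↥(atLoc 𝔫E))[X])
      (c : ZMod q → ↥(atLoc 𝔫E)),
      Tres5eSplit ↥(mgcF A K₁ (M * q)) z P c ∧
      ∀ i : ZMod q, ∃ b ∈ tres5eMax ↥(atLoc 𝔫E) z (c i),
        S.deck z = algebraMap ↥(atLoc 𝔫E) ↥(tres5cL (mgcE A K₁) (M * q) y) (c (i + 1)) +
          (b : ↥(tres5cL (mgcE A K₁) (M * q) y)) := by
  subst hSw
  exact tres5bipi_split_kum hπ hA hζ S hSζ hpt (t' := (bgJ ↥(mgcE A K₁) (M * q))⁻¹)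
    (Or.inr rfl) 𝔫E

include hA in
/-- **`hBig` at the chart `j`**. -/
theorem tresmtc_hBig_j [Fact q.Prime] {ζ : ↥(mgcA A K₁)} (hζ : IsPrimitiveRoot ζ q)
    {u₀ : ↥(mgcF A K₁ (M * q))}
    (S : Tres5Kum ↥(mgcF A K₁ (M * q)) ↥(tres5cL (mgcE A K₁) (M * q) y)
      (mgvV hπ ιC hq hqM true) q)
    (hSζ : S.ζ = algebraMap ↥(mgcA A K₁) ↥(mgcF A K₁ (M * q)) ζ)
    (hSw : S.w = u₀)
    (hpt : ∀ i, ∃ g : ↥(mgcF A K₁ (M * q)), g ≠ 0 ∧ ∃ y' ∈ atO π (mgcT A K₁ (M * q)) i,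
      u₀ / g ^ q - 1 =
        (algebraMap ↥(mgcA A K₁) ↥(mgcF A K₁ (M * q)) ζ - 1) ^ q *
          algebraMap ↥(mgcA A K₁) ↥(mgcF A K₁ (M * q)) π * y')
    (𝔫E : AtPt (F := ↥(mgcF A K₁ (M * q))) π (bgJ ↥(mgcE A K₁) (M * q)))
    [IsLocalRing ↥(atLoc 𝔫E)] [IsFractionRing ↥(atLoc 𝔫E) ↥(mgcF A K₁ (M * q))]
    [IsIntegrallyClosed ↥(atLoc 𝔫E)] [Algebra ↥(atLoc 𝔫E) ↥(tres5cL (mgcE A K₁) (M * q) y)]
    [IsScalarTower ↥(atLoc 𝔫E) ↥(mgcF A K₁ (M * q)) ↥(tres5cL (mgcE A K₁) (M * q) y)] :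
    ∃ (z : ↥(tres5cL (mgcE A K₁) (M * q) y)) (P : (↥(atLoc 𝔫E))[X])
      (c : ZMod q → ↥(atLoc 𝔫E)),
      Tres5eSplit ↥(mgcF A K₁ (M * q)) z P c ∧
      ∀ i : ZMod q, ∃ b ∈ tres5eMax ↥(atLoc 𝔫E) z (c i),
        S.deck z = algebraMap ↥(atLoc 𝔫E) ↥(tres5cL (mgcE A K₁) (M * q) y) (c (i + 1)) +
          (b : ↥(tres5cL (mgcE A K₁) (M * q) y)) := by
  subst hSw
  exact tres5bipi_split_kum hπ hA hζ S hSζ hpt (t' := bgJ ↥(mgcE A K₁) (M * q))
    (Or.inl rfl) 𝔫E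

end Bit

end Fermat.Agent.R38
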