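/-
ROW 38, TRES, MONO-0 INSTANCE (helper14): `hsplit` WITH THE STEP RELATION of the descended deck map,
in the ABSTRACT CHART FRAME of helper48's `tres5ki_hsplit_abs` (R38/TresKFormInstA.lean).

`tresmzi_hsplit_step_abs` : the binders of `tres5ki_hsplit_abs` + `ρK : LK →ₐ[FK] LK` with
`hρK : algebraMap LK L (ρK y) = ρ (algebraMap LK L y)` (the clause of `tres5kiv_descend`)
  ⊢ at EVERY closed point `𝔫K` of the `K`-chart on the component `VK`:
      `∃ zK PK, Tres5eSplit FK zK PK (0, …, p − 1) ∧ [LK : FK] = p ∧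
          ∀ i : ZMod p, ∃ b ∈ tres5eMax ↥(atLoc 𝔫K) zK i, ρK zK = (i + 1) + b`
= the hypothesis `hsplitJ` of `tresmt_loc` (helper41) / `tres5npa_all` (helper92) and the body of
`hnode` of `tresmzi_main_zmod`, in the abstract chart frame.
-/
import Fermat.Agent.R38.TresKFormInstA
import Fermat.Agent.R38.TresMonoZeroPt

set_option autoImplicit false
set_option linter.style.haveILetI false
set_option linter.unusedSectionVars false
set_option linter.unusedVariables false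
set_option linter.style.longLine false

noncomputable section

namespace Fermat.Agent.R38

open Polynomial Fermat.Agent.UNIP Fermat.Agent.INJ Fermat.Agent.RIB.MP IntermediateField

section StepA

variable {G : Type*} [Group G] [Finite G] {L : Type*} [Field L] [MulSemiringAction G L]
  {AE EE FE : Type*} [CommRing AE] [IsDomain AE] [IsDiscreteValuationRing AE]
  [Field EE] [Algebra AE EE] [IsFractionRing AE EE] [CharZero EE]
  [Field FE] [Algebra EE FE] [Algebra AE FE] [IsScalarTower AE EE FE] [Algebra FE L]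
  {AK EK FK : Type*} [CommRing AK] [IsDomain AK] [IsDiscreteValuationRing AK]
  [Field EK] [Algebra AK EK] [IsFractionRing AK EK] [CharZero EK]
  [Field FK] [Algebra EK FK] [Algebra AK FK] [IsScalarTower AK EK FK]
  [Algebra AK AE] [Algebra FK FE] [Algebra AK FE]
  [IsScalarTower AK AE FE] [IsScalarTower AK FK FE]
  {t : FK} {πE : AE} {πK : AK}
  {LK : Type*} [Field LK] [Algebra FK LK] [Algebra LK L] [Algebra FK L]
  [IsScalarTower FK LK L] [IsScalarTower FK FE L]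
  {p : ℕ} [hp : Fact p.Prime]

/-- **`hsplit` with the step relation, abstract chart frame.**  At every closed point `𝔫K` of the
`K`-chart on the component `VK`, the cover `LK / FK` has the split structure with roots
`0, …, p − 1`, and the descended deck map `ρK` moves the root `i` to the root `i + 1`. -/
theorem tresmzi_hsplit_step_abs [Algebra.IsIntegral AK AE]
    [FiniteDimensional EE⟮algebraMap FK FE t⟯ FE]
    (hπE : Irreducible πE) (hπK : algebraMap AK AE πK ≠ 0) (hpK : πK ∣ (p : AK))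
    (VE : ValuationSubring FE) (VK : ValuationSubring FK)
    (hBV : ∀ x : FE, IsIntegral (Algebra.adjoin AE ({algebraMap FK FE t} : Set FE)) x → x ∈ VE)
    (hVK : VK = VE.comap (algebraMap FK FE))
    (W₀ : ValuationSubring L) (hW₀V : ∀ x ∈ VE, algebraMap FE L x ∈ W₀)
    (hGW₀ : ∀ (g : G), ∀ x ∈ W₀, g • x ∈ W₀)
    (hGsub : ∀ (g : G), ∀ x ∈ W₀, g • x - x ∈ W₀.nonunits)
    (hGF : ∀ (g : G) (x : FE), ∃ x' : FE, g • algebraMap FE L x = algebraMap FE L x')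
    (hGA : ∀ (g : G) (a : AE), ∃ a' : AE,
      g • algebraMap FE L (algebraMap AE FE a) = algebraMap FE L (algebraMap AE FE a'))
    (hGt : ∀ g : G, g • algebraMap FE L (algebraMap FK FE t) =
      algebraMap FE L (algebraMap FK FE t))
    (hGLK : ∀ (g : G) (y : LK), g • algebraMap LK L y = algebraMap LK L y)
    (hfixL : ∀ x : L, (∀ g : G, g • x = x) → ∃ y : LK, algebraMap LK L y = x)
    (hfixF : ∀ x : FE, (∀ g : G, g • algebraMap FE L x = algebraMap FE L x) →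
      ∃ y : FK, algebraMap FK FE y = x)
    (hfin : Module.finrank FE L = p)
    (ρ : L ≃ₐ[FE] L) (hρG : ∀ (g : G) x, ρ (g • x) = g • ρ x)
    (hBig : ∀ 𝔫E : AtPt (F := FE) πE (algebraMap FK FE t), atThrough 𝔫E VE →
      ∀ [IsLocalRing ↥(atLoc 𝔫E)] [IsFractionRing ↥(atLoc 𝔫E) FE]
        [IsIntegrallyClosed ↥(atLoc 𝔫E)] [Algebra ↥(atLoc 𝔫E) L]
        [IsScalarTower ↥(atLoc 𝔫E) FE L],
        ∃ (z : L) (P : (↥(atLoc 𝔫E))[X]) (c : ZMod p → ↥(atLoc 𝔫E)),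
          Tres5eSplit FE z P c ∧
          ∀ i : ZMod p, ∃ b ∈ tres5eMax ↥(atLoc 𝔫E) z (c i),
            ρ z = algebraMap ↥(atLoc 𝔫E) L (c (i + 1)) + (b : L))
    (ρK : LK →ₐ[FK] LK) (hρK : ∀ y : LK, algebraMap LK L (ρK y) = ρ (algebraMap LK L y))
    (𝔫K : AtPt (F := FK) πK t) (hthr : atThrough 𝔫K VK)
    [IsLocalRing ↥(atLoc 𝔫K)] [IsFractionRing ↥(atLoc 𝔫K) FK] [IsIntegrallyClosed ↥(atLoc 𝔫K)]
    [Algebra ↥(atLoc 𝔫K) LK] [IsScalarTower ↥(atLoc 𝔫K) FK LK] :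
    ∃ (zK : LK) (PK : (↥(atLoc 𝔫K))[X]),
      Tres5eSplit FK zK PK (fun k : ZMod p => ((k.val : ℕ) : ↥(atLoc 𝔫K))) ∧
      Module.finrank FK LK = p ∧
      (∀ i : ZMod p, ∃ b ∈ tres5eMax ↥(atLoc 𝔫K) zK ((i.val : ℕ) : ↥(atLoc 𝔫K)),
        ρK zK = algebraMap ↥(atLoc 𝔫K) LK (((i + 1).val : ℕ) : ↥(atLoc 𝔫K)) + (b : LK)) ∧
      ∃ k : ZMod p,
        ∀ (_ : (tres5eMax ↥(atLoc 𝔫K) zK ((k.val : ℕ) : ↥(atLoc 𝔫K))).IsPrime),
          ∀ x ∈ ls_localSubring (F := LK) (tres5eMax ↥(atLoc 𝔫K) zK ((k.val : ℕ) : ↥(atLoc 𝔫K))),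
            algebraMap LK L x ∈ W₀ := by
  -- the point over the big field
  obtain ⟨𝔫E, h𝔫K, hthrE⟩ := tres5kq_exists_through (AE := AE) (FE := FE) hπE hπK VE VK hBV hVK
    𝔫K hthr
  haveI hlocE : IsLocalRing ↥(atLoc 𝔫E) := tres5bp_isLocalRing 𝔫E
  haveI hfrE : IsFractionRing ↥(atLoc 𝔫E) FE :=
    tres5bp_isFractionRing (A₀ := AE) (E := EE) (algebraMap FK FE t) 𝔫E
  haveI hicE : IsIntegrallyClosed ↥(atLoc 𝔫E) :=
    tres5bp_isIntegrallyClosed (A₀ := AE) (E := EE) (algebraMap FK FE t) 𝔫E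
  letI algE : Algebra ↥(atLoc 𝔫E) L := ((algebraMap FE L).comp (atLoc 𝔫E).subtype).toAlgebra
  haveI towE : IsScalarTower ↥(atLoc 𝔫E) FE L := IsScalarTower.of_algebraMap_eq fun _ => rfl
  obtain ⟨z, P, c, H, hρ⟩ := hBig 𝔫E hthrE
  -- the Gauss sheet contains the local ring
  have hW₀ : ∀ x ∈ atLoc 𝔫E, algebraMap FE L x ∈ W₀ := fun x hx =>
    hW₀V x (tres5kq_loc_le VE hBV 𝔫E hthrE hx)
  -- a `G`-stable valuation ring dominating the local ring
  obtain ⟨W, hle, hWdom, hWmax, hGW⟩ := tres5kd_atLoc 𝔫E W₀ hGW₀ hGsub hW₀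
  have hG𝔫 := tres5ki_stable 𝔫E W hWdom hWmax hGW
  obtain ⟨zK, PK, hT, hfinK, -, hz, k, -, hk2⟩ :=
    tres5ki_point 𝔫E 𝔫K H hfin hpK hGF hGA hGt hGLK hfixL hfixF hG𝔫 h𝔫K W hWdom hWmax hGW
      ρ hρG hρ
  exact ⟨zK, PK, hT, hfinK, fun i =>
    tresmzi_step_of_point_hom 𝔫E 𝔫K H hGF hGA hGt hfixF hG𝔫 h𝔫K ρ hρ hT hfinK hz ρK hρK i,
    k, fun h x hx => hle (hk2 h x hx)⟩

end StepA

end Fermat.Agent.R38

end
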