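/-
ROW 38, TRES, MONO-0 INSTANCE (helper14): the NODE FORM of the K-FORM (B) instance, in the frame of
helper26's `tres5kd_point` (R38/TresKFormDomPt.lean: the Gauss sheet `W₀` as input) — the form that
Layer 3 (`R38/TresKFormInstC.lean`) calls.

`tresmzi_kd_node` : ALL binders of `tres5kd_point` + the descended deck map `ρK : LK →ₐ[FK] LK`
(`hρK : algebraMap LK L (ρK y) = ρ (algebraMap LK L y)`, the clause of `tres5kiv_descend`)
  ⊢ `∃ zK PK, Tres5eSplit FK zK PK (0, …, p − 1) ∧ [LK : FK] = p ∧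
        ∀ i : ZMod p, ∃ b ∈ tres5eMax ↥(atLoc 𝔫K) zK i, ρK zK = (i + 1) + b`
= the body of `hnode` of `tresmzi_main_zmod` (R38/TresMonoZeroInst.lean) at the closed point `𝔫K`.
-/
import Fermat.Agent.R38.TresMonoZeroPt
import Fermat.Agent.R38.TresKFormDomPt

set_option autoImplicit false
set_option linter.style.haveILetI false
set_option linter.unusedSectionVars false
set_option linter.unusedVariables false
set_option linter.style.longLine false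

namespace Fermat.Agent.R38

open Polynomial Fermat.Agent.UNIP Fermat.Agent.INJ Fermat.Agent.RIB.MP

section NodeD

variable {G : Type*} [Group G] {L : Type*} [Field L] [MulSemiringAction G L]
  {AE EE FE : Type*} [CommRing AE] [IsDomain AE] [IsDiscreteValuationRing AE]
  [Field EE] [Algebra AE EE] [IsFractionRing AE EE] [CharZero EE]
  [Field FE] [Algebra EE FE] [Algebra AE FE] [IsScalarTower AE EE FE] [Algebra FE L]
  {AK EK FK : Type*} [CommRing AK] [IsDomain AK] [IsDiscreteValuationRing AK]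
  [Field EK] [Algebra AK EK] [IsFractionRing AK EK] [CharZero EK]
  [Field FK] [Algebra EK FK] [Algebra AK FK] [IsScalarTower AK EK FK]
  [Algebra AK AE] [Algebra FK FE] [Algebra AK FE]
  [IsScalarTower AK AE FE] [IsScalarTower AK FK FE]
  {t : FK} {πE : AE} {πK : AK}
  [Finite G]
  {LK : Type*} [Field LK] [Algebra FK LK] [Algebra LK L] [Algebra FK L]
  [IsScalarTower FK LK L] [IsScalarTower FK FE L]
  {p : ℕ} [hp : Fact p.Prime]

/-- **K-FORM (B) at a closed point, with the step relation of the descended deck map**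
(Gauss-sheet form: the binders of `tres5kd_point` + `ρK`, `hρK`). -/
theorem tresmzi_kd_node (𝔫E : AtPt (F := FE) πE (algebraMap FK FE t)) (𝔫K : AtPt (F := FK) πK t)
    [IsLocalRing ↥(atLoc 𝔫E)] [IsFractionRing ↥(atLoc 𝔫E) FE] [IsIntegrallyClosed ↥(atLoc 𝔫E)]
    [Algebra ↥(atLoc 𝔫E) L] [IsScalarTower ↥(atLoc 𝔫E) FE L]
    [IsLocalRing ↥(atLoc 𝔫K)] [IsFractionRing ↥(atLoc 𝔫K) FK] [IsIntegrallyClosed ↥(atLoc 𝔫K)]
    [Algebra ↥(atLoc 𝔫K) LK] [IsScalarTower ↥(atLoc 𝔫K) FK LK]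
    [Algebra.IsIntegral AK AE]
    {z : L} {P : (↥(atLoc 𝔫E))[X]} {c : ZMod p → ↥(atLoc 𝔫E)}
    (H : Tres5eSplit FE z P c) (hfin : Module.finrank FE L = p)
    (hpK : πK ∣ (p : AK))
    (hGF : ∀ (g : G) (x : FE), ∃ x' : FE, g • algebraMap FE L x = algebraMap FE L x')
    (hGA : ∀ (g : G) (a : AE), ∃ a' : AE,
      g • algebraMap FE L (algebraMap AE FE a) = algebraMap FE L (algebraMap AE FE a'))
    (hGt : ∀ g : G, g • algebraMap FE L (algebraMap FK FE t) =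
      algebraMap FE L (algebraMap FK FE t))
    (hGLK : ∀ (g : G) (y : LK), g • algebraMap LK L y = algebraMap LK L y)
    (hfixL : ∀ x : L, (∀ g : G, g • x = x) → ∃ y : LK, algebraMap LK L y = x)
    (hfixF : ∀ x : FE, (∀ g : G, g • algebraMap FE L x = algebraMap FE L x) →
      ∃ y : FK, algebraMap FK FE y = x)
    (hG𝔫 : ∀ (g : G) (b b' : ↥(zchClosure (A₀ := AE) ({algebraMap FK FE t} : Set FE))),
      g • algebraMap FE L (b : FE) = algebraMap FE L (b' : FE) → b ∈ 𝔫E.1 → b' ∈ 𝔫E.1)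
    (h𝔫K : ∀ (bK : ↥(zchClosure (A₀ := AK) ({t} : Set FK)))
      (b : ↥(zchClosure (A₀ := AE) ({algebraMap FK FE t} : Set FE))),
      (b : FE) = algebraMap FK FE (bK : FK) → bK ∈ 𝔫K.1 → b ∈ 𝔫E.1)
    (W₀ : ValuationSubring L)
    (hW₀ : ∀ x ∈ atLoc 𝔫E, algebraMap FE L x ∈ W₀)
    (hGW₀ : ∀ (g : G), ∀ x ∈ W₀, g • x ∈ W₀)
    (hGsub : ∀ (g : G), ∀ x ∈ W₀, g • x - x ∈ W₀.nonunits)
    (ρ : L ≃ₐ[FE] L) (hρG : ∀ (g : G) x, ρ (g • x) = g • ρ x)
    (hρ : ∀ i : ZMod p, ∃ b ∈ tres5eMax ↥(atLoc 𝔫E) z (c i),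
      ρ z = algebraMap ↥(atLoc 𝔫E) L (c (i + 1)) + (b : L))
    (ρK : LK →ₐ[FK] LK) (hρK : ∀ y : LK, algebraMap LK L (ρK y) = ρ (algebraMap LK L y)) :
    ∃ (zK : LK) (PK : (↥(atLoc 𝔫K))[X]),
      Tres5eSplit FK zK PK (fun k : ZMod p => ((k.val : ℕ) : ↥(atLoc 𝔫K))) ∧
      Module.finrank FK LK = p ∧
      ∀ i : ZMod p, ∃ b ∈ tres5eMax ↥(atLoc 𝔫K) zK ((i.val : ℕ) : ↥(atLoc 𝔫K)),
        ρK zK = algebraMap ↥(atLoc 𝔫K) LK (((i + 1).val : ℕ) : ↥(atLoc 𝔫K)) + (b : LK) := by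
  obtain ⟨zK, PK, HK, hfinK, -, hz, -⟩ :=
    tres5kd_point 𝔫E 𝔫K H hfin hpK hGF hGA hGt hGLK hfixL hfixF hG𝔫 h𝔫K W₀ hW₀ hGW₀ hGsub
      ρ hρG hρ
  exact ⟨zK, PK, HK, hfinK, fun i =>
    tresmzi_step_of_point_hom 𝔫E 𝔫K H hGF hGA hGt hfixF hG𝔫 h𝔫K ρ hρ HK hfinK hz ρK hρK i⟩

end NodeD

end Fermat.Agent.R38
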