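import Mathlib

/-!
ROW 38, SURJ-p (backup route B1), piece NEH = NON-ETALE HENSEL, abstract core (helper61).

Mathlib only (Zariski's main theorem + going-down for flat algebras).

* `tresneh_section_of_isAlgebraic` : `A` the valuation ring of an algebraically closed field, `C` an
  `A`-algebra, `𝔮 ≤ 𝔫` primes of `C`, `𝔫` above `𝔪_A`, `𝔮` above `(0)`, `C ⧸ 𝔮` algebraic over `A`
  ⇒ an `A`-algebra homomorphism `ψ : C → A` with `ψ(𝔫) ⊆ 𝔪_A`, `ψ(𝔮) = 0`
  (generalises `S15.div1h_section`, where `C` is etale).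
* `tresneh_isAlgebraic_quotient` : (ZMT) `S` of finite type over the domain `R`, quasi-finite at
  the prime `𝔫`, `𝔮 ≤ 𝔫` prime ⇒ `S ⧸ 𝔮` is algebraic over `R`.
* `tresneh_exists_algHom` : **NEH, abstract form.**  `R` a Dedekind domain, `A` torsion-free and
  algebraic over `R`, `S` of finite type over `R`, `β : S → k_A` a point with kernel `𝔫`, `S`
  quasi-finite at `𝔫`, and `𝔫` NOT a minimal prime (`𝔮 < 𝔫`; for `S = R[X_σ]/(f_ι)`,
  `#ι ≤ #σ`, this is Krull's height theorem) ⇒ `∃ φ : S →ₐ[R] A`, `φ(𝔫) ⊆ 𝔪_A`.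
-/

set_option autoImplicit false
set_option linter.style.haveILetI false

namespace Fermat.Agent.R38

open TensorProduct

section Section

/-- **Sections from algebraic primes.**  `A` the valuation ring of an algebraically closed
field, `C` an `A`-algebra, `𝔫` a prime of `C` above `𝔪_A`, `𝔮 ⊆ 𝔫` a prime above `(0)` such that
`C ⧸ 𝔮` is algebraic over `A`: there is an `A`-algebra homomorphism `ψ : C → A` with
`ψ(𝔫) ⊆ 𝔪_A` (and `ψ(𝔮) = 0`). -/
theorem tresneh_section_of_isAlgebraic {K : Type*} [Field K] [IsAlgClosed K]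
    (A : ValuationSubring K) (C : Type*) [CommRing C] [Algebra A C]
    (𝔫 : Ideal C) [𝔫.IsPrime] [𝔫.LiesOver (IsLocalRing.maximalIdeal A)]
    (𝔮 : Ideal C) [𝔮.IsPrime] (h𝔮𝔫 : 𝔮 ≤ 𝔫) (h𝔮o : 𝔮.under A = ⊥)
    [halg : Algebra.IsAlgebraic A (C ⧸ 𝔮)] :
    ∃ ψ : C →ₐ[A] A, (∀ c ∈ 𝔫, ψ c ∈ IsLocalRing.maximalIdeal A) ∧ ∀ c ∈ 𝔮, ψ c = 0 := by
  have h1𝔫 : (1 : C) ∉ 𝔫 := fun h => (Ideal.IsPrime.ne_top inferInstance)
    ((Ideal.eq_top_iff_one 𝔫).mpr h)
  have hinjAD : Function.Injective (algebraMap A (C ⧸ 𝔮)) := by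
    rw [injective_iff_map_eq_zero]
    intro x hx
    have h2 : algebraMap A C x ∈ 𝔮 := Ideal.Quotient.eq_zero_iff_mem.mp hx
    have h3 : x ∈ 𝔮.under A := h2
    rw [h𝔮o] at h3
    exact h3
  have hinjAL : Function.Injective (algebraMap A (FractionRing (C ⧸ 𝔮))) := by
    rw [IsScalarTower.algebraMap_eq A (C ⧸ 𝔮) (FractionRing (C ⧸ 𝔮))]
    exact (IsFractionRing.injective (C ⧸ 𝔮) (FractionRing (C ⧸ 𝔮))).comp hinjAD
  letI : Algebra K (FractionRing (C ⧸ 𝔮)) := (IsFractionRing.lift hinjAL).toAlgebra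
  haveI : IsScalarTower A K (FractionRing (C ⧸ 𝔮)) :=
    IsScalarTower.of_algebraMap_eq fun x => (IsFractionRing.lift_algebraMap hinjAL x).symm
  have hinjDL := IsFractionRing.injective (C ⧸ 𝔮) (FractionRing (C ⧸ 𝔮))
  haveI : Module.IsTorsionFree A (FractionRing (C ⧸ 𝔮)) :=
    Module.isTorsionFree_iff_algebraMap_injective.mpr hinjAL
  haveI : Algebra.IsAlgebraic A (FractionRing (C ⧸ 𝔮)) :=
    (IsFractionRing.isAlgebraic_iff' A (C ⧸ 𝔮) (FractionRing (C ⧸ 𝔮))).mp halg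
  haveI : Algebra.IsAlgebraic K (FractionRing (C ⧸ 𝔮)) :=
    Algebra.IsAlgebraic.extendScalars (R := A) (FaithfulSMul.algebraMap_injective A K)
  have hbij : Function.Bijective (algebraMap K (FractionRing (C ⧸ 𝔮))) :=
    IsAlgClosed.algebraMap_bijective_of_isIntegral
  have hAKL : ∀ x : A, algebraMap K (FractionRing (C ⧸ 𝔮)) (x : K) =
      algebraMap (C ⧸ 𝔮) (FractionRing (C ⧸ 𝔮)) (algebraMap A (C ⧸ 𝔮) x) := fun x => by
    rw [← IsScalarTower.algebraMap_apply A (C ⧸ 𝔮) (FractionRing (C ⧸ 𝔮)),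
      IsScalarTower.algebraMap_apply A K (FractionRing (C ⧸ 𝔮))]
    rfl
  have hmk : ∀ x : A, algebraMap A (C ⧸ 𝔮) x = Ideal.Quotient.mk 𝔮 (algebraMap A C x) :=
    fun x => rfl
  have hcontra : ∀ c ∈ 𝔫, ∀ d : C, Ideal.Quotient.mk 𝔮 c * Ideal.Quotient.mk 𝔮 d = 1 → False := by
    intro c hc d hcd
    rw [← map_mul, ← map_one (Ideal.Quotient.mk 𝔮), Ideal.Quotient.eq] at hcd
    have h2 : c * d - 1 ∈ 𝔫 := h𝔮𝔫 hcd
    have h3 : c * d ∈ 𝔫 := Ideal.mul_mem_right d 𝔫 hc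
    exact h1𝔫 (by simpa using sub_mem h3 h2)
  have hm𝔫 : ∀ y : A, y ∈ IsLocalRing.maximalIdeal A → algebraMap A C y ∈ 𝔫 := by
    intro y hy
    have : y ∈ 𝔫.under A := by
      rw [← Ideal.over_def 𝔫 (IsLocalRing.maximalIdeal A)]
      exact hy
    exact this
  have key : ∀ c : C, ∃ x : A, algebraMap A (C ⧸ 𝔮) x = Ideal.Quotient.mk 𝔮 c := by
    intro c
    obtain ⟨b, hb⟩ := hbij.2 (algebraMap (C ⧸ 𝔮) (FractionRing (C ⧸ 𝔮)) (Ideal.Quotient.mk 𝔮 c))
    by_cases hbA : b ∈ A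
    · refine ⟨⟨b, hbA⟩, hinjDL ?_⟩
      rw [← hAKL, ← hb]
    · exfalso
      have hbI : b⁻¹ ∈ A := (A.mem_or_inv_mem b).resolve_left hbA
      have hb0 : b ≠ 0 := fun h => hbA (h ▸ A.zero_mem)
      have hy : (⟨b⁻¹, hbI⟩ : A) ∈ IsLocalRing.maximalIdeal A := by
        rw [ValuationSubring.valuation_lt_one_iff]
        have h1 : ¬ A.valuation b ≤ 1 := fun h => hbA ((A.valuation_le_one_iff b).mp h)
        have h2 : 0 < A.valuation b := lt_of_le_of_lt zero_le_one (not_le.mp h1)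
        change A.valuation b⁻¹ < 1
        rw [map_inv₀, inv_lt_one₀ h2]
        exact not_le.mp h1
      refine hcontra _ (hm𝔫 _ hy) c (hinjDL ?_)
      rw [map_mul, map_one, ← hmk, ← hAKL, ← hb, ← map_mul]
      change algebraMap K (FractionRing (C ⧸ 𝔮)) (b⁻¹ * b) = 1
      rw [inv_mul_cancel₀ hb0, map_one]
  choose ψ hψ using key
  have hψu : ∀ (c : C) (x : A), algebraMap A (C ⧸ 𝔮) x = Ideal.Quotient.mk 𝔮 c → ψ c = x :=
    fun c x hx => hinjAD ((hψ c).trans hx.symm)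
  refine ⟨{ toFun := ψ
            map_one' := hψu 1 1 (by rw [map_one, map_one])
            map_mul' := fun c d => hψu _ _ (by rw [map_mul, map_mul, hψ, hψ])
            map_zero' := hψu 0 0 (by rw [map_zero, map_zero])
            map_add' := fun c d => hψu _ _ (by rw [map_add, map_add, hψ, hψ])
            commutes' := fun x => hψu _ _ (hmk x) }, ?_, ?_⟩
  · intro c hc
    by_contra hcm
    rw [IsLocalRing.notMem_maximalIdeal] at hcm
    obtain ⟨y, hy⟩ := hcm.exists_right_inv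
    replace hy : ψ c * y = 1 := hy
    refine hcontra c hc (algebraMap A C y) ?_
    rw [← hmk, ← hψ c, ← map_mul]
    change algebraMap A (C ⧸ 𝔮) (ψ c * y) = 1
    rw [hy, map_one]
  · intro c hc
    refine hψu c 0 ?_
    rw [map_zero]
    exact (Ideal.Quotient.eq_zero_iff_mem.mpr hc).symm

end Section
section Alg

/-- Zariski's main theorem, in the form used here: if the finite type `R`-algebra `S` is
quasi-finite at the prime `𝔫`, then `S ⧸ 𝔮` is algebraic over `R` for every prime `𝔮 ≤ 𝔫`. -/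
theorem tresneh_isAlgebraic_quotient {R : Type*} [CommRing R] [IsDomain R]
    {S : Type*} [CommRing S] [Algebra R S] [Algebra.FiniteType R S]
    (𝔫 : Ideal S) [𝔫.IsPrime] [Algebra.QuasiFiniteAt R 𝔫]
    (𝔮 : Ideal S) [𝔮.IsPrime] (h𝔮 : 𝔮 ≤ 𝔫) :
    Algebra.IsAlgebraic R (S ⧸ 𝔮) := by
  obtain ⟨r, hr𝔫, hrint, hr⟩ := Algebra.zariskisMainProperty_iff.mp
    (Algebra.ZariskisMainProperty.of_finiteType (R := R) 𝔫)
  refine ⟨fun x => ?_⟩
  obtain ⟨s, rfl⟩ := Ideal.Quotient.mk_surjective x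
  obtain ⟨m, hm⟩ := hr s
  have hr𝔮 : Ideal.Quotient.mk 𝔮 r ≠ 0 := fun h =>
    hr𝔫 (h𝔮 (Ideal.Quotient.eq_zero_iff_mem.mp h))
  -- `b = r̄ ^ m` and `t = (r ^ m s)‾` are integral over `R`
  have hb : IsIntegral R (Ideal.Quotient.mk 𝔮 r ^ m) :=
    (hrint.map (Ideal.Quotient.mkₐ R 𝔮)).pow m
  have ht : IsIntegral R (Ideal.Quotient.mk 𝔮 r ^ m * Ideal.Quotient.mk 𝔮 s) := by
    have := hm.map (Ideal.Quotient.mkₐ R 𝔮)
    simpa using this
  have hb0 : Ideal.Quotient.mk 𝔮 r ^ m ≠ 0 := pow_ne_zero m hr𝔮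
  -- algebraic over the integral closure
  have halg : IsAlgebraic (integralClosure R (S ⧸ 𝔮)) (Ideal.Quotient.mk 𝔮 s) := by
    refine ⟨Polynomial.C (⟨_, hb⟩ : integralClosure R (S ⧸ 𝔮)) * Polynomial.X -
      Polynomial.C (⟨_, ht⟩ : integralClosure R (S ⧸ 𝔮)), ?_, ?_⟩
    · intro h
      have h1 := congrArg (fun p => Polynomial.coeff p 1) h
      simp only [Polynomial.coeff_sub, Polynomial.coeff_C_mul, Polynomial.coeff_X_one,
        mul_one, Polynomial.coeff_C, one_ne_zero, if_false, sub_zero,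
        Polynomial.coeff_zero] at h1
      exact hb0 (congrArg Subtype.val h1)
    · simp only [map_sub, map_mul, Polynomial.aeval_C, Polynomial.aeval_X]
      exact sub_self _
  exact halg.restrictScalars_of_isIntegral R

end Alg

section Main

attribute [local instance] Algebra.TensorProduct.rightAlgebra

/-- **NEH, abstract form.**  `R` a Dedekind domain, `A` a valuation ring of an algebraically
closed field, algebraic and torsion-free over `R`; `S` a finite type `R`-algebra, `β` a point of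
`S` with values in the residue field of `A`, with kernel `𝔫`; if `S` is quasi-finite at `𝔫` and
`𝔫` is not a minimal prime (`𝔮 < 𝔫`), then `β` lifts to an `A`-valued point of `S`. -/
theorem tresneh_exists_algHom {R : Type*} [CommRing R] [IsDedekindDomain R]
    {K : Type*} [Field K] [IsAlgClosed K] (A : ValuationSubring K)
    [Algebra R A] [Module.IsTorsionFree R A] [Algebra.IsAlgebraic R A]
    {S : Type*} [CommRing S] [Algebra R S] [Algebra.FiniteType R S]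
    (β : S →ₐ[R] IsLocalRing.ResidueField A)
    (𝔫 : Ideal S) [𝔫.IsPrime] [Algebra.QuasiFiniteAt R 𝔫] (h𝔫 : RingHom.ker β = 𝔫)
    (𝔮 : Ideal S) [𝔮.IsPrime] (h𝔮 : 𝔮 < 𝔫) :
    ∃ φ : S →ₐ[R] A, (∀ s ∈ 𝔫, φ s ∈ IsLocalRing.maximalIdeal A) ∧ ∀ s ∈ 𝔮, φ s = 0 := by
  classical
  -- Step 1: `𝔮` lies over `(0)`
  have h1 : 𝔮.under R = ⊥ := by
    by_contra hne
    have hmax : (𝔮.under R).IsMaximal := Ideal.IsPrime.isMaximal inferInstance hne
    have hle : 𝔮.under R ≤ 𝔫.under R := Ideal.comap_mono h𝔮.le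
    have heq : 𝔮.under R = 𝔫.under R := hmax.eq_of_le Ideal.IsPrime.ne_top' hle
    exact h𝔮.ne (Algebra.QuasiFiniteAt.eq_of_le_of_under_eq h𝔮.le heq)
  -- Step 2: `S ⧸ 𝔮` is algebraic over `R`
  have h2 : Algebra.IsAlgebraic R (S ⧸ 𝔮) := tresneh_isAlgebraic_quotient 𝔫 𝔮 h𝔮.le
  -- Step 3: the base change and going down
  let γ : S ⊗[R] A →ₐ[R] IsLocalRing.ResidueField A :=
    Algebra.TensorProduct.lift β (IsScalarTower.toAlgHom R A (IsLocalRing.ResidueField A))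
      (fun _ _ => Commute.all _ _)
  haveI h𝔫C : (RingHom.ker γ).IsPrime := RingHom.ker_isPrime γ
  haveI : (RingHom.ker γ).LiesOver 𝔫 := by
    refine ⟨?_⟩
    ext s
    rw [← h𝔫, Ideal.under_def, Ideal.mem_comap, RingHom.mem_ker, RingHom.mem_ker]
    have : algebraMap S (S ⊗[R] A) s = s ⊗ₜ[R] (1 : A) := rfl
    rw [this]
    simp [γ]
  haveI : (RingHom.ker γ).LiesOver (IsLocalRing.maximalIdeal A) := by
    refine ⟨?_⟩
    ext a
    rw [Ideal.under_def, Ideal.mem_comap, RingHom.mem_ker, ← IsLocalRing.residue_eq_zero_iff]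
    have : algebraMap A (S ⊗[R] A) a = (1 : S) ⊗ₜ[R] a := rfl
    rw [this]
    simp [γ]
  obtain ⟨𝔔, h𝔔le, h𝔔prime, h𝔔over⟩ :=
    Ideal.exists_ideal_le_liesOver_of_le (p := 𝔮) (q := 𝔫) (RingHom.ker γ) h𝔮.le
  -- Step 4: `𝔔` lies over `(0)` of `A`
  have hinjRA : Function.Injective (algebraMap R A) :=
    Module.isTorsionFree_iff_algebraMap_injective.mp inferInstance
  have h4 : 𝔔.under A = ⊥ := by
    by_contra hne
    obtain ⟨x, hx, hx0⟩ := Submodule.exists_mem_ne_zero_of_ne_bot hne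
    have h5 := Ideal.comap_ne_bot_of_algebraic_mem (R := R) hx0 hx
      (Algebra.IsAlgebraic.isAlgebraic x)
    apply h5
    have h6 : (𝔔.under A).comap (algebraMap R A) = 𝔔.under R := by
      rw [Ideal.under_def, Ideal.under_def, Ideal.comap_comap,
        ← IsScalarTower.algebraMap_eq R A (S ⊗[R] A)]
    rw [h6]
    have h7 : 𝔔.under R = (𝔔.under S).under R := by
      rw [Ideal.under_def, Ideal.under_def, Ideal.under_def, Ideal.comap_comap,
        ← IsScalarTower.algebraMap_eq R S (S ⊗[R] A)]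
    rw [h7, ← h𝔔over.over, h1]
  -- Step 5: `C ⧸ 𝔔` is algebraic over `A`
  have h𝔮𝔔 : 𝔮 ≤ 𝔔.comap (algebraMap S (S ⊗[R] A)) := by
    rw [h𝔔over.over]
  have h5 : Algebra.IsAlgebraic A ((S ⊗[R] A) ⧸ 𝔔) := by
    refine ⟨fun x => ?_⟩
    obtain ⟨c, rfl⟩ := Ideal.Quotient.mk_surjective x
    induction c using TensorProduct.induction_on with
    | zero => rw [map_zero]; exact isAlgebraic_zero
    | tmul s a =>
      have e1 : s ⊗ₜ[R] a = algebraMap S (S ⊗[R] A) s * algebraMap A (S ⊗[R] A) a := by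
        change s ⊗ₜ[R] a = (s ⊗ₜ[R] (1 : A)) * ((1 : S) ⊗ₜ[R] a)
        rw [Algebra.TensorProduct.tmul_mul_tmul, mul_one, one_mul]
      rw [e1, map_mul]
      refine IsAlgebraic.mul ?_ (isAlgebraic_algebraMap a)
      have e2 : IsAlgebraic R (Ideal.Quotient.mk 𝔮 s) := Algebra.IsAlgebraic.isAlgebraic _
      have e3 := e2.algHom (Ideal.quotientMapₐ 𝔔 (IsScalarTower.toAlgHom R S (S ⊗[R] A)) h𝔮𝔔)
      exact e3.extendScalars hinjRA
    | add x y hx hy => rw [map_add]; exact hx.add hy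
  -- Step 6: the section
  obtain ⟨ψ, hψ𝔫, hψ𝔮⟩ := tresneh_section_of_isAlgebraic A (S ⊗[R] A) (RingHom.ker γ) 𝔔 h𝔔le h4
  refine ⟨(ψ.restrictScalars R).comp (IsScalarTower.toAlgHom R S (S ⊗[R] A)), ?_, ?_⟩
  · intro s hs
    refine hψ𝔫 _ ?_
    have : s ∈ (RingHom.ker γ).under S := by
      rw [← Ideal.over_def (RingHom.ker γ) 𝔫]
      exact hs
    exact this
  · intro s hs
    exact hψ𝔮 _ (h𝔮𝔔 hs)

end Main

end Fermat.Agent.R38
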