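/-
Row 38, PKG-TRES, MONO, FAC-LOC, piece (b) of helper92's RULING v4 (helper14): the inputs
`hfrac`, `hE`, `hOO'` and `IsNoetherianRing` of `tres5n_fac` / `tres5n_fac_smooth` /
`tres5nInc` / `tres5n_comap` (R38/TresNode.lean) for the LOCAL RING OF THE COVER
      `O′_k = ls_localSubring (tres5eMax R z (c k)) ⊆ L`,
`H : Tres5eSplit F z P c` over a local normal domain `R` with fraction field `F`, `L = F[z]`
(R38/TresEtale.lean, R38/TresEtalePrime.lean).

General `R` (namespace `Tres5eSplit`, so that `H.tres5nf_frac k` etc. work):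
* `tres5nf_mem_base`   : `algebraMap R L r ∈ O′_k`;
* `tres5nf_mem_adjoin` : `R[z] ⊆ O′_k`;
* `Tres5eSplit.tres5nf_clear` : every `x ∈ L` is `β / r` with `r ∈ R`, `r ≠ 0`, `β ∈ R[z]`;
* `Tres5eSplit.tres5nf_frac`  : `∀ x : L, ∃ a b : O′_k, (b : L) ≠ 0 ∧ x * b = a`   (`hfrac`);
* `Tres5eSplit.tres5nf_frac_base` : the same with `b = tres5eBaseToLoc z (c k) r`, `r ≠ 0`;
* `tres5nf_E_base` : `hE` over `R` ⇒ `hE` over `O′_k`  (`ϖ′ = tres5eBaseToLoc z (c k) ϖ`);
* `Tres5eSplit.tres5nf_noeth` : `O′_k` is noetherian (= helper28's `loc_isNoetherianRing`).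
For `R = ↥O`, `O : Subring F` (the shape of `tres5nInc`, `tres5n_comap`):
* `tres5nf_le`   : `∀ x ∈ O, algebraMap F L x ∈ O′_k`             (`hOO'`);
* `tres5nf_inc_eq` : `tres5nInc O O′_k tres5nf_le = tres5eBaseToLoc z (c k)`;
* `tres5nf_E`    : `hE` over `O` ⇒ `hE` over `O′_k` with `ϖ′ = tres5nInc O O′_k _ ϖ`;
* `tres5nf_frac_sub`, `tres5nf_noeth_sub` : the two statements above in this shape;
* `tres5nf_down` : the hypothesis `hdown` of `tres5n_comap` (from helper28's (B1)).
-/
import Fermat.Agent.R38.TresNode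
import Fermat.Agent.R38.TresEtalePrime

set_option autoImplicit false
set_option linter.unusedSectionVars false
set_option linter.unusedVariables false
set_option linter.style.haveILetI false
set_option linter.style.longLine false

namespace Fermat.Agent.R38

open IsLocalRing Polynomial Fermat.Agent.UNIP

section General

variable {R L : Type*} {F : Type*} [CommRing R] [IsDomain R] [Field F] [Field L]
  [Algebra R F] [IsFractionRing R F] [IsIntegrallyClosed R] [IsLocalRing R]
  [Algebra F L] [Algebra R L] [IsScalarTower R F L]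
  {ι : Type*} [Fintype ι] {z : L} {P : R[X]} {c : ι → R}

/-- `R[z] ⊆ O′`. -/
theorem tres5nf_mem_adjoin (z : L) (a : R) [(tres5eMax R z a).IsPrime] {y : L}
    (hy : y ∈ Algebra.adjoin R ({z} : Set L)) :
    y ∈ ls_localSubring (F := L) (tres5eMax R z a) :=
  ls_algebraMap_mem (F := L) (tres5eMax R z a) (⟨y, hy⟩ : ↥(Algebra.adjoin R ({z} : Set L)))

/-- `R ⊆ O′`. -/
theorem tres5nf_mem_base (z : L) (a : R) [(tres5eMax R z a).IsPrime] (r : R) :
    algebraMap R L r ∈ ls_localSubring (F := L) (tres5eMax R z a) :=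
  (tres5eBaseToLoc z a r).2

include F in
/-- `R → L` is injective. -/
theorem tres5nf_base_injective : Function.Injective (algebraMap R L) := by
  rw [IsScalarTower.algebraMap_eq R F L]
  exact (algebraMap F L).injective.comp (IsFractionRing.injective R F)

namespace Tres5eSplit

/-- clearing denominators: every element of `L = F[z]` is `β / r`, `β ∈ R[z]`, `0 ≠ r ∈ R`. -/
theorem tres5nf_clear (H : Tres5eSplit F z P c) (x : L) :
    ∃ (r : R) (β : L), r ≠ 0 ∧ β ∈ Algebra.adjoin R ({z} : Set L) ∧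
      x * algebraMap R L r = β := by
  have hx : x ∈ Algebra.adjoin F ({z} : Set L) := by rw [H.top]; exact Algebra.mem_top
  rw [Algebra.adjoin_singleton_eq_range_aeval] at hx
  obtain ⟨q, rfl⟩ := hx
  obtain ⟨b, hbM, hb⟩ := IsLocalization.integerNormalization_spec (nonZeroDivisors R) q
  refine ⟨b, aeval z (IsLocalization.integerNormalization (nonZeroDivisors R) q),
    nonZeroDivisors.ne_zero hbM, ?_, ?_⟩
  · rw [Algebra.adjoin_singleton_eq_range_aeval]
    exact ⟨_, rfl⟩
  · have h1 : aeval z (IsLocalization.integerNormalization (nonZeroDivisors R) q) =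
        aeval z ((IsLocalization.integerNormalization (nonZeroDivisors R) q).map
          (algebraMap R F)) := (aeval_map_algebraMap F z _).symm
    have h2 : b • q = (algebraMap R F b) • q := (algebraMap_smul F b q).symm
    rw [h1, hb, h2, map_smul, Algebra.smul_def, mul_comm, IsScalarTower.algebraMap_apply R F L]
    rfl

/-- **`hfrac`** with the denominator in `R`. -/
theorem tres5nf_frac_base (H : Tres5eSplit F z P c) (k : ι) [(tres5eMax R z (c k)).IsPrime]
    (x : L) :
    ∃ (a : ls_localSubring (F := L) (tres5eMax R z (c k))) (r : R), r ≠ 0 ∧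
      x * ((tres5eBaseToLoc z (c k) r : ls_localSubring (F := L) (tres5eMax R z (c k))) : L) =
        (a : L) := by
  obtain ⟨r, β, hr, hβ, hx⟩ := H.tres5nf_clear x
  exact ⟨⟨β, tres5nf_mem_adjoin z (c k) hβ⟩, r, hr, hx⟩

/-- **`hfrac`** for `O′_k`: `L` is the fraction field of `O′_k`. -/
theorem tres5nf_frac (H : Tres5eSplit F z P c) (k : ι) [(tres5eMax R z (c k)).IsPrime] :
    ∀ x : L, ∃ a b : ls_localSubring (F := L) (tres5eMax R z (c k)),
      (b : L) ≠ 0 ∧ x * (b : L) = (a : L) := by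
  intro x
  obtain ⟨a, r, hr, hx⟩ := H.tres5nf_frac_base k x
  refine ⟨a, tres5eBaseToLoc z (c k) r, ?_, hx⟩
  rw [tres5eBaseToLoc_coe]
  intro h0
  exact hr (tres5nf_base_injective (F := F) (h0.trans (map_zero _).symm))

/-- `O′_k` is noetherian (helper28's (B2), restated). -/
theorem tres5nf_noeth (H : Tres5eSplit F z P c) [IsNoetherianRing R] (k : ι)
    [(tres5eMax R z (c k)).IsPrime] :
    IsNoetherianRing (ls_localSubring (F := L) (tres5eMax R z (c k))) :=
  H.loc_isNoetherianRing k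

end Tres5eSplit

/-- **`hE`** over `R` gives `hE` over `O′` (no hypothesis on the cover). -/
theorem tres5nf_E_base {E : Type*} [Field E] [Algebra E F] [Algebra E L] [IsScalarTower E F L]
    (z : L) (a : R) [(tres5eMax R z a).IsPrime] (ϖ : R)
    (hE : ∀ e : E, ∃ (n : ℕ) (r : R), algebraMap E F e * algebraMap R F ϖ ^ n = algebraMap R F r)
    (e : E) :
    ∃ (n : ℕ) (r : ls_localSubring (F := L) (tres5eMax R z a)),
      algebraMap E L e *
        ((tres5eBaseToLoc z a ϖ : ls_localSubring (F := L) (tres5eMax R z a)) : L) ^ n =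
          (r : L) := by
  obtain ⟨n, r, h⟩ := hE e
  refine ⟨n, tres5eBaseToLoc z a r, ?_⟩
  rw [tres5eBaseToLoc_coe, tres5eBaseToLoc_coe, IsScalarTower.algebraMap_apply E F L,
    IsScalarTower.algebraMap_apply R F L, IsScalarTower.algebraMap_apply R F L, ← map_pow,
    ← map_mul, h]

end General

section Sub

variable {F L : Type*} [Field F] [Field L] [Algebra F L]
variable (O : Subring F) [IsFractionRing ↥O F] [IsIntegrallyClosed ↥O] [IsLocalRing ↥O]
  {ι : Type*} [Fintype ι] {z : L} {P : (↥O)[X]} {c : ι → ↥O}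

/-- **`hOO'`**: `O ⊆ O′_k` (the hypothesis of `tres5nInc`). -/
theorem tres5nf_le (z : L) (a : ↥O) [(tres5eMax ↥O z a).IsPrime] :
    ∀ x ∈ O, algebraMap F L x ∈ ls_localSubring (F := L) (tres5eMax ↥O z a) :=
  fun x hx => tres5nf_mem_base (R := ↥O) z a ⟨x, hx⟩

/-- `tres5nInc` is helper28's `tres5eBaseToLoc`. -/
theorem tres5nf_inc_eq (z : L) (a : ↥O) [(tres5eMax ↥O z a).IsPrime] :
    tres5nInc O (ls_localSubring (F := L) (tres5eMax ↥O z a)) (tres5nf_le O z a) =
      tres5eBaseToLoc z a :=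
  RingHom.ext fun _ => Subtype.ext rfl

/-- **`hfrac`** in the subring shape. -/
theorem tres5nf_frac_sub (H : Tres5eSplit F z P c) (k : ι) [(tres5eMax ↥O z (c k)).IsPrime] :
    ∀ x : L, ∃ a b : ls_localSubring (F := L) (tres5eMax ↥O z (c k)),
      (b : L) ≠ 0 ∧ x * (b : L) = (a : L) :=
  H.tres5nf_frac k

/-- `hfrac` with the denominator in `O`. -/
theorem tres5nf_frac_sub_base (H : Tres5eSplit F z P c) (k : ι)
    [(tres5eMax ↥O z (c k)).IsPrime] (x : L) :
    ∃ (a : ls_localSubring (F := L) (tres5eMax ↥O z (c k))) (r : ↥O), (r : F) ≠ 0 ∧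
      x * algebraMap F L (r : F) = (a : L) := by
  obtain ⟨a, r, hr, hx⟩ := H.tres5nf_frac_base k x
  exact ⟨a, r, fun h0 => hr (Subtype.ext h0), hx⟩

/-- **`hE`** over `O` gives `hE` over `O′_k`, `ϖ′ = tres5nInc ϖ`. -/
theorem tres5nf_E {E : Type*} [Field E] [Algebra E F] [Algebra E L] [IsScalarTower E F L]
    (z : L) (a : ↥O) [(tres5eMax ↥O z a).IsPrime] (ϖ : ↥O)
    (hE : ∀ e : E, ∃ (n : ℕ) (r : ↥O), algebraMap E F e * (ϖ : F) ^ n = (r : F)) (e : E) :
    ∃ (n : ℕ) (r : ls_localSubring (F := L) (tres5eMax ↥O z a)),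
      algebraMap E L e *
        ((tres5nInc O (ls_localSubring (F := L) (tres5eMax ↥O z a)) (tres5nf_le O z a) ϖ :
          ls_localSubring (F := L) (tres5eMax ↥O z a)) : L) ^ n = (r : L) := by
  obtain ⟨n, r, h⟩ := hE e
  refine ⟨n, tres5nInc O _ (tres5nf_le O z a) r, ?_⟩
  rw [tres5nInc_coe, tres5nInc_coe, IsScalarTower.algebraMap_apply E F L, ← map_pow, ← map_mul, h]

/-- the same with `ϖ′` written `algebraMap F L ϖ`. -/
theorem tres5nf_E_coe {E : Type*} [Field E] [Algebra E F] [Algebra E L] [IsScalarTower E F L]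
    (z : L) (a : ↥O) [(tres5eMax ↥O z a).IsPrime] (ϖ : ↥O)
    (hE : ∀ e : E, ∃ (n : ℕ) (r : ↥O), algebraMap E F e * (ϖ : F) ^ n = (r : F)) (e : E) :
    ∃ (n : ℕ) (r : ls_localSubring (F := L) (tres5eMax ↥O z a)),
      algebraMap E L e * algebraMap F L (ϖ : F) ^ n = (r : L) :=
  tres5nf_E O z a ϖ hE e

/-- **noetherian** in the subring shape. -/
theorem tres5nf_noeth_sub (H : Tres5eSplit F z P c) [IsNoetherianRing ↥O] (k : ι)
    [(tres5eMax ↥O z (c k)).IsPrime] :
    IsNoetherianRing (ls_localSubring (F := L) (tres5eMax ↥O z (c k))) :=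
  H.loc_isNoetherianRing k

/-- **`hdown`** of `tres5n_comap`: divisibility by a prime `X` of `O` descends from `O′_k`. -/
theorem tres5nf_down (H : Tres5eSplit F z P c) (k : ι) [(tres5eMax ↥O z (c k)).IsPrime]
    {X : ↥O} (hX : Prime X) (b : ↥O)
    (h : tres5nInc O (ls_localSubring (F := L) (tres5eMax ↥O z (c k))) (tres5nf_le O z (c k)) X ∣
      tres5nInc O (ls_localSubring (F := L) (tres5eMax ↥O z (c k))) (tres5nf_le O z (c k)) b) :
    X ∣ b := by
  rw [tres5nf_inc_eq] at h
  exact H.dvd_of_dvd_loc k hX b h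

end Sub

end Fermat.Agent.R38
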