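/-
ROW 38, TRES, (FAC-p)/MONO, piece FAC-LOC (L1+L2) = KR′  (helper41; sub-captain helper92).

The Krull-type criterion `hKR` of a chart passes to the chart of a cover:
`tres5nk_hKR`:  `B ⊂ F` integrally closed, `B′ ⊂ L` its integral closure in the algebraic
extension `L/F`, `V c` (`c : κ`) rank-one valuation rings of `F` with uniformizer `ϖ ∈ B`
(the vertical valuations), `hKR`: `ϖ x ∈ B` and `x ∈ ⋂ V c` imply `x ∈ B`.  Then `ϖ x ∈ B′` and
`x ∈ W` for every valuation ring `W` of `L` above some `V c` imply `x ∈ B′`.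

Mathlib only.  Names `tres5nk_*`.
-/
import Mathlib.RingTheory.Valuation.LocalSubring
import Mathlib.FieldTheory.Minpoly.IsIntegrallyClosed
import Mathlib.RingTheory.Polynomial.GaussLemma
import Mathlib.RingTheory.Valuation.ValuationSubring

set_option autoImplicit false
set_option linter.style.haveILetI false

open Polynomial

namespace Fermat.Agent.R38

/-- **rank one**: a valuation ring `V` whose value group is generated by the value of `ϖ` has no
overring except `V` and the whole field. -/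
theorem tres5nk_overring {F : Type*} [Field F] (V W₀ : ValuationSubring F) (ϖ : F)
    (hdisc : ∀ x : F, x ≠ 0 → ∃ m : ℤ, V.valuation (x / ϖ ^ m) = 1)
    (hϖV : ϖ ∈ V.nonunits) (hϖ0 : ϖ ≠ 0) (hle : V ≤ W₀) (hne : W₀ ≠ V) : W₀ = ⊤ := by
  have hϖmem : ϖ ∈ V := by
    rw [← V.valuation_le_one_iff]
    exact (V.mem_nonunits_iff.mp hϖV).le
  -- an element of `W₀` outside `V`
  obtain ⟨y, hyW, hyV⟩ : ∃ y, y ∈ W₀ ∧ y ∉ V := by
    by_contra hcon
    exact hne (le_antisymm (fun y hy => by_contra fun hyV => hcon ⟨y, hy, hyV⟩) hle)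
  have hy0 : y ≠ 0 := fun h => hyV (h ▸ V.zero_mem)
  -- unit decomposition
  have hdec : ∀ z : F, z ≠ 0 → ∃ (m : ℤ) (ε : F), ε ∈ V ∧ ε⁻¹ ∈ V ∧ z = ε * ϖ ^ m := by
    intro z hz
    obtain ⟨m, hm⟩ := hdisc z hz
    refine ⟨m, z / ϖ ^ m, ?_, ?_, ?_⟩
    · rw [← V.valuation_le_one_iff, hm]
    · rw [← V.valuation_le_one_iff, map_inv₀, hm, inv_one]
    · rw [div_mul_cancel₀ _ (zpow_ne_zero m hϖ0)]
  obtain ⟨m, ε, hε, hεi, hyε⟩ := hdec y hy0
  have hε0 : ε ≠ 0 := by
    rintro rfl
    rw [zero_mul] at hyε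
    exact hy0 hyε
  have hm : m < 0 := by
    by_contra hm
    obtain ⟨k, rfl⟩ := Int.eq_ofNat_of_zero_le (not_lt.mp hm)
    apply hyV
    rw [hyε, zpow_natCast]
    exact V.mul_mem _ _ hε (pow_mem hϖmem k)
  -- `ϖ⁻¹ ∈ W₀`
  have hpowW : ϖ ^ m ∈ W₀ := by
    have : ϖ ^ m = y * ε⁻¹ := by
      rw [hyε, mul_comm ε, mul_assoc, mul_inv_cancel₀ hε0, mul_one]
    rw [this]
    exact W₀.mul_mem _ _ hyW (hle hεi)
  have hinvW : ϖ⁻¹ ∈ W₀ := by
    obtain ⟨k, hk⟩ : ∃ k : ℕ, m = -((k : ℤ) + 1) := by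
      refine ⟨(-m - 1).toNat, ?_⟩
      have : ((-m - 1).toNat : ℤ) = -m - 1 := Int.toNat_of_nonneg (by omega)
      omega
    have h1 : ϖ⁻¹ = ϖ ^ k * ϖ ^ m := by
      rw [hk, ← zpow_natCast, ← zpow_add₀ hϖ0]
      have : (k : ℤ) + -((k : ℤ) + 1) = -1 := by ring
      rw [this, zpow_neg_one]
    rw [h1]
    exact W₀.mul_mem _ _ (hle (pow_mem hϖmem k)) hpowW
  have hzpowW : ∀ n : ℤ, ϖ ^ n ∈ W₀ := by
    intro n
    rcases le_total 0 n with hn | hn
    · obtain ⟨k, rfl⟩ := Int.eq_ofNat_of_zero_le hn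
      rw [zpow_natCast]
      exact pow_mem (hle hϖmem) k
    · obtain ⟨k, hk⟩ : ∃ k : ℕ, n = -(k : ℤ) := ⟨(-n).toNat, by
        have : ((-n).toNat : ℤ) = -n := Int.toNat_of_nonneg (by omega)
        omega⟩
      rw [hk, zpow_neg, zpow_natCast, ← inv_pow]
      exact pow_mem hinvW k
  rw [eq_top_iff]
  intro z _
  by_cases hz : z = 0
  · rw [hz]
    exact W₀.zero_mem
  · obtain ⟨n, δ, hδ, -, hzδ⟩ := hdec z hz
    rw [hzδ]
    exact W₀.mul_mem _ _ (hle hδ) (hzpowW n)

/-- a valuation ring of an algebraic extension `L/F` which contains `F` is `L` -/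
theorem tres5nk_top_of_comap_top {F L : Type*} [Field F] [Field L] [Algebra F L]
    [Algebra.IsAlgebraic F L] (W : ValuationSubring L)
    (h : W.comap (algebraMap F L) = ⊤) (y : L) : y ∈ W := by
  have hF : ∀ a : F, algebraMap F L a ∈ W := by
    intro a
    have : a ∈ W.comap (algebraMap F L) := by
      rw [h]
      exact ValuationSubring.mem_top a
    exact ValuationSubring.mem_comap.mp this
  have hy : IsIntegral F y := Algebra.IsIntegral.isIntegral y
  obtain ⟨p, hp, hpy⟩ := hy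
  let φ : F →+* W := (algebraMap F L).codRestrict W.toSubring hF
  have hint : IsIntegral W y := by
    refine ⟨p.map φ, hp.map φ, ?_⟩
    rw [eval₂_map]
    exact hpy
  obtain ⟨w, hw⟩ := IsIntegrallyClosed.isIntegral_iff.mp hint
  rw [← hw]
  exact w.2

/-- `x` lies in every valuation ring of `L` containing `V`, if it lies in those above `V`
(`V` of rank one, `L/F` algebraic). -/
theorem tres5nk_mem_of_le {F L : Type*} [Field F] [Field L] [Algebra F L]
    [Algebra.IsAlgebraic F L] (V : ValuationSubring F) (ϖ : F)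
    (hdisc : ∀ x : F, x ≠ 0 → ∃ m : ℤ, V.valuation (x / ϖ ^ m) = 1)
    (hϖV : ϖ ∈ V.nonunits) (hϖ0 : ϖ ≠ 0) (x : L)
    (hxW : ∀ W : ValuationSubring L, W.comap (algebraMap F L) = V → x ∈ W)
    (W : ValuationSubring L) (hW : V ≤ W.comap (algebraMap F L)) : x ∈ W := by
  by_cases h : W.comap (algebraMap F L) = V
  · exact hxW W h
  · exact tres5nk_top_of_comap_top W (tres5nk_overring V _ ϖ hdisc hϖV hϖ0 hW h) x

/-- `x` is integral over `V`, if it lies in every valuation ring of `L` above `V`. -/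
theorem tres5nk_isIntegral {F L : Type*} [Field F] [Field L] [Algebra F L]
    [Algebra.IsAlgebraic F L] (V : ValuationSubring F) (ϖ : F)
    (hdisc : ∀ x : F, x ≠ 0 → ∃ m : ℤ, V.valuation (x / ϖ ^ m) = 1)
    (hϖV : ϖ ∈ V.nonunits) (hϖ0 : ϖ ≠ 0) (x : L)
    (hxW : ∀ W : ValuationSubring L, W.comap (algebraMap F L) = V → x ∈ W) :
    IsIntegral V x := by
  by_contra hx
  have hx' : x ∉ (integralClosure V L).toSubring := hx
  obtain ⟨W, hRW, hxW'⟩ := Subring.exists_le_valuationSubring_of_isIntegrallyClosedIn hx'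
  apply hxW'
  refine tres5nk_mem_of_le V ϖ hdisc hϖV hϖ0 x hxW W ?_
  intro v hv
  rw [ValuationSubring.mem_comap]
  apply hRW
  have : algebraMap F L v = algebraMap V L ⟨v, hv⟩ := by
    rw [IsScalarTower.algebraMap_apply V F L]
    rfl
  rw [this]
  exact (integralClosure V L).algebraMap_mem _

/-- the coefficients of the minimal polynomial over `F` of an element integral over `R` are
integral over `R` -/
theorem tres5nk_coeff_minpoly {R F L : Type*} [CommRing R] [Field F] [Field L] [Algebra R F]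
    [Algebra F L] [Algebra R L] [IsScalarTower R F L] {x : L} (hx : IsIntegral R x) (n : ℕ) :
    IsIntegral R ((minpoly F x).coeff n) := by
  have hxF : IsIntegral F x := hx.tower_top
  obtain ⟨p, hp, hpx⟩ := hx
  have hdvd : minpoly F x ∣ p.map (algebraMap R F) := by
    apply minpoly.dvd
    rw [aeval_map_algebraMap, aeval_def]
    exact hpx
  have h := integralClosure.mem_lifts_of_monic_of_dvd_map F hp (minpoly.monic hxF) hdvd
  rw [lifts_iff_coeff_lifts] at h
  obtain ⟨⟨a, ha⟩, h'⟩ := h n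
  rw [← h']
  exact ha

/-- iteration of `hKR` -/
theorem tres5nk_iterate {F B κ : Type*} [Field F] [CommRing B] [Algebra B F]
    (V : κ → ValuationSubring F) (ϖ : B)
    (hKR : ∀ x : F, (∃ b : B, algebraMap B F ϖ * x = algebraMap B F b) → (∀ c, x ∈ V c) →
      ∃ b : B, x = algebraMap B F b)
    (hϖV : ∀ c, algebraMap B F ϖ ∈ (V c).nonunits) :
    ∀ (k : ℕ) (a : F), (∀ c, a ∈ V c) → (∃ b : B, algebraMap B F ϖ ^ k * a = algebraMap B F b) →
      ∃ b : B, a = algebraMap B F b := by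
  have hϖmem : ∀ c, algebraMap B F ϖ ∈ V c := by
    intro c
    rw [← (V c).valuation_le_one_iff]
    exact ((V c).mem_nonunits_iff.mp (hϖV c)).le
  intro k
  induction k with
  | zero =>
    intro a _ h
    obtain ⟨b, hb⟩ := h
    exact ⟨b, by rw [← hb, pow_zero, one_mul]⟩
  | succ k ih =>
    intro a ha h
    obtain ⟨b, hb⟩ := h
    apply ih a ha
    apply hKR
    · exact ⟨b, by rw [← hb, pow_succ]; ring⟩
    · intro c
      exact (V c).mul_mem _ _ (pow_mem (hϖmem c) k) (ha c)

/-- **KR′** (FAC-LOC (L1+L2)): the criterion `hKR` for the chart `B′` of the cover. -/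
theorem tres5nk_hKR {F L B B' κ : Type*} [Field F] [Field L] [Algebra F L]
    [CommRing B] [CommRing B'] [Algebra B F] [Algebra B' L] [Algebra.IsAlgebraic F L]
    (ι : B →+* B')
    (hι : ∀ b, algebraMap B' L (ι b) = algebraMap F L (algebraMap B F b))
    (hint : ∀ b' : B',
      ((algebraMap F L).comp (algebraMap B F)).IsIntegralElem (algebraMap B' L b'))
    (hcl : ∀ x : L, ((algebraMap F L).comp (algebraMap B F)).IsIntegralElem x →
      ∃ b' : B', x = algebraMap B' L b')
    (hBcl : ∀ x : F, (algebraMap B F).IsIntegralElem x → ∃ b : B, x = algebraMap B F b)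
    (V : κ → ValuationSubring F) (ϖ : B)
    (hϖ0 : algebraMap B F ϖ ≠ 0)
    (hKR : ∀ x : F, (∃ b : B, algebraMap B F ϖ * x = algebraMap B F b) → (∀ c, x ∈ V c) →
      ∃ b : B, x = algebraMap B F b)
    (hdisc : ∀ c (x : F), x ≠ 0 → ∃ m : ℤ, (V c).valuation (x / algebraMap B F ϖ ^ m) = 1)
    (hϖV : ∀ c, algebraMap B F ϖ ∈ (V c).nonunits)
    (x : L) (hx : ∃ b' : B', algebraMap B' L (ι ϖ) * x = algebraMap B' L b')
    (hxW : ∀ W : ValuationSubring L, (∃ c, W.comap (algebraMap F L) = V c) → x ∈ W) :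
    ∃ b' : B', x = algebraMap B' L b' := by
  letI algBL : Algebra B L := ((algebraMap F L).comp (algebraMap B F)).toAlgebra
  haveI : IsScalarTower B F L := IsScalarTower.of_algebraMap_eq (fun _ => rfl)
  have hxF : IsIntegral F x := Algebra.IsIntegral.isIntegral x
  -- the coefficients of the minimal polynomial lie in every `V c`
  have hV : ∀ n c, (minpoly F x).coeff n ∈ V c := by
    intro n c
    have hxV : IsIntegral (V c) x :=
      tres5nk_isIntegral (V c) _ (hdisc c) (hϖV c) hϖ0 x (fun W hW => hxW W ⟨c, hW⟩)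
    obtain ⟨w, hw⟩ := IsIntegrallyClosed.isIntegral_iff.mp
      (tres5nk_coeff_minpoly (F := F) hxV n)
    rw [← hw]
    exact w.2
  -- the coefficients of the scaled minimal polynomial lie in `B`
  have hS : ∀ n, ∃ b : B, ((minpoly F x).scaleRoots (algebraMap B F ϖ)).coeff n =
      algebraMap B F b := by
    intro n
    obtain ⟨b', hb'⟩ := hx
    have h1 : IsIntegral B (algebraMap B F ϖ • x) := by
      have : algebraMap B F ϖ • x = algebraMap B' L b' := by
        rw [← hb', hι, Algebra.smul_def]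
      rw [this]
      exact hint b'
    have h2 := tres5nk_coeff_minpoly (F := F) h1 n
    rw [IsIntegrallyClosed.minpoly_smul hϖ0 hxF] at h2
    exact hBcl _ h2
  -- hence the coefficients of the minimal polynomial lie in `B`
  have hB : ∀ n, ∃ b : B, (minpoly F x).coeff n = algebraMap B F b := by
    intro n
    obtain ⟨b, hb⟩ := hS n
    rw [coeff_scaleRoots] at hb
    exact tres5nk_iterate V ϖ hKR hϖV _ _ (hV n) ⟨b, by rw [← hb, mul_comm]⟩
  -- so `x` is integral over `B`
  have hlift : minpoly F x ∈ lifts (algebraMap B F) := by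
    rw [lifts_iff_coeff_lifts]
    intro n
    obtain ⟨b, hb⟩ := hB n
    exact ⟨b, hb.symm⟩
  obtain ⟨q, hq, -, hqm⟩ := lifts_and_degree_eq_and_monic hlift (minpoly.monic hxF)
  apply hcl
  refine ⟨q, hqm, ?_⟩
  rw [← eval₂_map, hq, ← aeval_def]
  exact minpoly.aeval F x

end Fermat.Agent.R38
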