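/-
Row 38, PKG-TRES, MONO, piece FAC-LOC (helper92), part 5: THE HYPOTHESES (I3) `hfin` AND (I4)
`hcusp` OF `tresmono_frame` TOGETHER, with MONO-0 merged.

Frame of `R38/TresNodePtConc.lean` (section `Base`): `K = beta0Field A`, `A₀ = beta0Ring A K`,
`F = modularFunctionFieldFullC K (M q)`, `t = bgJ K (M q)`, `V = mgvV hπ ιC hq hqM`
(`true = V_∞`, `false = V_0`), `L ⊇ F` the function field of the cover over `K`, `W` its Gauss
sheet (`W ∩ F = V_∞`), `ρK` the deck transformation of `L / F`.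

* `tres5npa_all` : from
    - `hKF`  : K-FORM (B) WITH the step relation of `ρK` at every closed point of the chart `j`
               on `V_∞` (`tres5ki_point` / `tres5kd_point` + `tresmzk_step`),
    - `hKFc` : K-FORM (B) at the cusps of the chart `1 / j` on `V_∞`,
    - `hρu`  : DECK, `ρK u = a · u · h ^ p`;   `hpa` : KUM at `V_0`, `p ∣ ord_{V_0} a`,
    - `hhor` : FAC-HOR, `p ∣ ord_P u` at the places of `L / K`,
    - `hm`   : the normalisation on the Gauss sheet, `W (u / π ^ m) = 1`,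
  there is `c : ℤ` such that BOTH `hfin` and `hcusp` of `tresmono_frame` hold, verbatim, with
  `y := u / π ^ m`, `h := ` the Ogg unit `s36tuV`, `e := 12`.
  Proof: `tresmzi_main_zmod` (helper14) + `tres5npj_hfin_node` + `tres5npc_hcusp_rigid`
  (helper84).
-/
import Fermat.Agent.R38.TresNodePtCusp
import Fermat.Agent.R38.TresMonoZeroInst

set_option autoImplicit false
set_option linter.unusedSectionVars false
set_option linter.unusedVariables false
set_option linter.style.haveILetI false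
set_option linter.style.longLine false
set_option synthInstance.maxHeartbeats 400000
set_option maxHeartbeats 1600000

noncomputable section

namespace Fermat.Agent.R38

open ModularCurve AlgebraicCurve IntermediateField Polynomial Fermat.Agent.INJ Fermat.Agent.UNIP
  Fermat.Agent.STB Fermat.Agent.S36 Fermat.Agent.RIB.MP Fermat.Agent.RT.K6 Fermat.Agent.AL
  Fermat.Agent.ES Fermat.Agent.ES.G2

section Base

variable {A : ValuationSubring Qb} {q M : ℕ} [NeZero q] [NeZero M] [NeZero (M * q)]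
  [IsDiscreteValuationRing ↥(beta0Ring A (beta0Field A))]
  {π : ↥(beta0Ring A (beta0Field A))} (hπ : Irreducible π)
  (ιC : ↥(beta0Field A) →+* ℂ) (hq : q.Prime) (hqM : ¬ q ∣ M)

include hπ ιC hq hqM in
/-- **(I3) + (I4) of `tresmono_frame` over `ℚ̄^I`, with MONO-0 merged.** -/
theorem tres5npa_all (hA : A.LiesOverPrime q)
    (rigid : (q ≠ 2 → 4 ∣ M) ∧ (q = 2 → 9 ∣ M))
    {L : Type*} [Field L] [Algebra ↥(modularFunctionFieldFullC ↥(beta0Field A) (M * q)) L]
    [Algebra ↥(beta0Field A) L]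
    [IsScalarTower ↥(beta0Field A) ↥(modularFunctionFieldFullC ↥(beta0Field A) (M * q)) L]
    (W : ValuationSubring L)
    (hWV : W.comap (algebraMap ↥(modularFunctionFieldFullC ↥(beta0Field A) (M * q)) L) =
      mgvV hπ ιC hq hqM true)
    {p : ℕ} [hp : Fact p.Prime]
    (ρK : L →ₐ[↥(modularFunctionFieldFullC ↥(beta0Field A) (M * q))] L)
    (hbij : Function.Bijective ρK)
    (hKF : ∀ 𝔫 : AtPt (F := ↥(modularFunctionFieldFullC ↥(beta0Field A) (M * q))) π
        (bgJ ↥(beta0Field A) (M * q)),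
      atThrough 𝔫 (mgvV hπ ιC hq hqM true) → ∀ [IsLocalRing ↥(atLoc 𝔫)],
        ∃ (z : L) (P : (↥(atLoc 𝔫))[X]) (c : ZMod p → ↥(atLoc 𝔫)),
          Tres5eSplit ↥(modularFunctionFieldFullC ↥(beta0Field A) (M * q)) z P c ∧
          ∀ i : ZMod p, ∃ b ∈ tres5eMax ↥(atLoc 𝔫) z (c i),
            ρK z = algebraMap ↥(atLoc 𝔫) L (c (i + 1)) + (b : L))
    (hKFc : ∀ 𝔫 : AtPt (F := ↥(modularFunctionFieldFullC ↥(beta0Field A) (M * q))) π
        (bgJ ↥(beta0Field A) (M * q))⁻¹,
      atThrough 𝔫 (mgvV hπ ιC hq hqM true) →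
      (∀ b : ↥(zchClosure (A₀ := ↥(beta0Ring A (beta0Field A)))
          ({(bgJ ↥(beta0Field A) (M * q))⁻¹} :
            Set ↥(modularFunctionFieldFullC ↥(beta0Field A) (M * q)))),
        (b : ↥(modularFunctionFieldFullC ↥(beta0Field A) (M * q))) =
          (bgJ ↥(beta0Field A) (M * q))⁻¹ → b ∈ 𝔫.1) →
      ∀ [IsLocalRing ↥(atLoc 𝔫)],
        ∃ (z : L) (P : (↥(atLoc 𝔫))[X]) (c : ZMod p → ↥(atLoc 𝔫)),
          Tres5eSplit ↥(modularFunctionFieldFullC ↥(beta0Field A) (M * q)) z P c)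
    {u h : L} {a : ↥(modularFunctionFieldFullC ↥(beta0Field A) (M * q))}
    (hu0 : u ≠ 0) (ha : a ≠ 0) (hh : h ≠ 0)
    (hρu : ρK u = algebraMap ↥(modularFunctionFieldFullC ↥(beta0Field A) (M * q)) L a * u * h ^ p)
    (hpa : (p : ℤ) ∣ tres5Ord (mgvV hπ ιC hq hqM false)
      (algebraMap ↥(beta0Ring A (beta0Field A))
        ↥(modularFunctionFieldFullC ↥(beta0Field A) (M * q)) π) a)
    (hhor : ∀ Pl : Place ↥(beta0Field A) L, (p : ℤ) ∣ Pl.ord u)
    (m : ℤ)
    (hm : W.valuation (u / algebraMap ↥(modularFunctionFieldFullC ↥(beta0Field A) (M * q)) L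
      (algebraMap ↥(beta0Ring A (beta0Field A))
        ↥(modularFunctionFieldFullC ↥(beta0Field A) (M * q)) π) ^ m) = 1) :
    ∃ c : ℤ,
      (∀ 𝔫 : AtPt (F := ↥(modularFunctionFieldFullC ↥(beta0Field A) (M * q))) π
          (bgJ ↥(beta0Field A) (M * q)),
        ∀ T : ValuationSubring L,
        (∀ x ∈ atLoc 𝔫,
          algebraMap ↥(modularFunctionFieldFullC ↥(beta0Field A) (M * q)) L x ∈ T) →
        (∀ x ∈ T, x ∈ W) →
        ∃ O' : Subring L, (∀ x ∈ O', x ∈ T) ∧
          TresMonoPt W O' p c 12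
            (u / algebraMap ↥(modularFunctionFieldFullC ↥(beta0Field A) (M * q)) L
              (algebraMap ↥(beta0Ring A (beta0Field A))
                ↥(modularFunctionFieldFullC ↥(beta0Field A) (M * q)) π) ^ m)
            (algebraMap ↥(modularFunctionFieldFullC ↥(beta0Field A) (M * q)) L
              (s36tuV ↥(beta0Field A) ιC (q := q) (M := M)))) ∧
      (∀ 𝔫 : AtPt (F := ↥(modularFunctionFieldFullC ↥(beta0Field A) (M * q))) π
          (bgJ ↥(beta0Field A) (M * q))⁻¹,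
        ∀ T : ValuationSubring L,
        (∀ x ∈ atLoc 𝔫,
          algebraMap ↥(modularFunctionFieldFullC ↥(beta0Field A) (M * q)) L x ∈ T) →
        (∀ x ∈ T, x ∈ W) →
        (∀ b : ↥(zchClosure (A₀ := ↥(beta0Ring A (beta0Field A)))
            ({(bgJ ↥(beta0Field A) (M * q))⁻¹} :
              Set ↥(modularFunctionFieldFullC ↥(beta0Field A) (M * q)))),
          (b : ↥(modularFunctionFieldFullC ↥(beta0Field A) (M * q))) =
            (bgJ ↥(beta0Field A) (M * q))⁻¹ → b ∈ 𝔫.1) →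
        ∃ O' : Subring L, (∀ x ∈ O', x ∈ T) ∧
          StbFacAt O' p
            (u / algebraMap ↥(modularFunctionFieldFullC ↥(beta0Field A) (M * q)) L
              (algebraMap ↥(beta0Ring A (beta0Field A))
                ↥(modularFunctionFieldFullC ↥(beta0Field A) (M * q)) π) ^ m)) := by
  haveI : NeZero p := ⟨hp.out.ne_zero⟩
  obtain ⟨m₀, hm₀⟩ := tresmzi_main_zmod hπ ιC hq hqM hA rigid (p := p) p hu0 ha hh ρK hbij hρu
    hpa (fun 𝔫 X Y hcross inst => @hKF 𝔫 hcross.1 inst)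
  refine ⟨m₀ - m, ?_, ?_⟩
  · refine tres5npj_hfin_node hπ ιC hq hqM hA rigid W hWV (ι := ZMod p) ?_ hu0 hhor m₀ hm₀ m hm
    intro 𝔫 hthr inst
    obtain ⟨z, P, c, H, -⟩ := @hKF 𝔫 hthr inst
    exact ⟨z, P, c, H⟩
  · exact tres5npc_hcusp_rigid hπ ιC hq hqM hA rigid W hWV (ι := ZMod p) hKFc hu0 hhor m hm

end Base

end Fermat.Agent.R38

end
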