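import Fermat.Agent.S33.WildUnit
import Fermat.Agent.UNIP.MGVertLoc

/-!
# Row 38, PKG-TRES, MONO, piece FAC-OGG (helper10), part 3: the reduction of the Ogg unit under
the reduction map `mgvRed` of `V_∞`

* `tres5o_mgvRed` : `mgvRed hπ ιC hq hqM true h = Δ̄ (Δ̄⁻¹)^q`, `h = S36.s36tuV ↥K₀ ιC`.
-/

set_option autoImplicit false
set_option linter.unusedSectionVars false
set_option linter.unusedVariables false
set_option linter.style.haveILetI false
set_option linter.style.longLine false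

noncomputable section

namespace Fermat.Agent.R38

open ModularCurve Polynomial Fermat.Agent.INJ Fermat.Agent.UNIP Fermat.Agent.S36
  Fermat.Agent.S33 Fermat.Agent.S28 Fermat.Agent.ES Fermat.Agent.ES.G2

section Mgv

variable {A : ValuationSubring Qb} {K₀ : IntermediateField ℚ Qb}
  [IsDiscreteValuationRing ↥(beta0Ring A K₀)] {π : ↥(beta0Ring A K₀)} (hπ : Irreducible π)
  (ιC : ↥K₀ →+* ℂ) {q M : ℕ} [NeZero q] [NeZero M] [NeZero (M * q)]
  (hq : q.Prime) (hqM : ¬ q ∣ M)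

/-- **the reduction of the Ogg unit at `V_∞`** is `Δ̄ (Δ̄⁻¹)^q` -/
theorem tres5o_mgvRed (hA : A.LiesOverPrime q) :
    mgvRed hπ ιC hq hqM true ⟨s36tuV ↥K₀ ιC, wun_mgv_V_mem hπ ιC hq hqM true⟩ =
      deltaS (IsLocalRing.ResidueField ↥(beta0Ring A K₀)) *
        deltaInvS (IsLocalRing.ResidueField ↥(beta0Ring A K₀)) ^ q := by
  haveI : Fact q.Prime := ⟨hq⟩
  haveI : CharP (IsLocalRing.ResidueField ↥(beta0Ring A K₀)) q := mgvl_charP hq hA
  have hG := s36tu_V_mem_gauss (A := ↥(beta0Ring A K₀)) (E := ↥K₀)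
    (IsLocalRing.residue ↥(beta0Ring A K₀)) ιC (q := q) (M := M)
  rw [mgvRed_of_eq hπ ιC hq hqM true (wun_mgv_V_mem hπ ιC hq hqM true) rfl hG]
  exact s36tu_gaussRed_V (IsLocalRing.residue ↥(beta0Ring A K₀)) ιC hG

end Mgv

end Fermat.Agent.R38
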