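/-
ROW 38, target S44 (helper44): the state of the top wiring after HOL closed.

Landed inputs: `stmtHolSpanAll` (R38/HolAll.lean, helper83 & co), `stmtHolTriv`
(R38/HolTrivFinal.lean, helper52/helper42), `stmtFacEis_of` (R38/TresEisGlue.lean, helper42),
`stmtTresT0`, `s44_of_tres` (R38/S44Tres.lean), `stmtFacMono_of` (R38/PlanMono.lean).

THE THREE OPEN PROPS of row 38:
* `StmtEisNormK`  (FAC-EIS (C), `R38/PlanEisK.lean`, helper60);
* `StmtMonoFix`   (ASM-NOCOVER, `R38/PlanMono.lean`, helper47);
* `StmtMonoCover` (ASM-MAIN, `R38/PlanMono.lean`, helper89 / helper92).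
-/
import Fermat.Agent.R38.S44Tres
import Fermat.Agent.R38.HolAll
import Fermat.Agent.R38.HolTrivFinal
import Fermat.Agent.R38.TresEisGlue
import Fermat.Agent.R38.PlanMono

set_option autoImplicit false

namespace Fermat.Agent.R38

/-- TRES-TRIV from (FAC-p) alone (HOL is closed). -/
theorem stmtTresTriv_of_fac (hFac : StmtFacP) : StmtTresTriv :=
  stmtTresTriv_of_hol hFac stmtHolSpanAll stmtHolTriv

/-- TRES-TRIV from the three open Props. -/
theorem stmtTresTriv_of_open (hEisK : StmtEisNormK) (hFix : StmtMonoFix)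
    (hCov : StmtMonoCover) : StmtTresTriv :=
  stmtTresTriv_of_fac (stmtFacP_of (stmtFacEis_of hEisK) (stmtFacMono_of stmtTresT0 hFix hCov))

/-- **Row 38 (S44 form) from the three open Props.** -/
theorem s44_of_open (hEisK : StmtEisNormK) (hFix : StmtMonoFix) (hCov : StmtMonoCover) :
    Fermat.Agent.RIB.StmtP :=
  s44_of_tres (stmtTresTriv_of_open hEisK hFix hCov)

end Fermat.Agent.R38
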