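/-
Row 38, PKG-TRES, MONO, piece FAC-XK (helper41), part (C): THE CHART `j` AND THE BUNDLE.

`X = X₀(M p)` over `K = ℚ̄^I = beta0Field A` (`A` a valuation subring of `ℚ̄` over `p`), `p ≥ 5`,
`p ∤ M`, RIGID level `4 ∣ M`; `A₀ = A ∩ K` (a DVR, uniformizer `π`), `F = F_{Mp}(K)`, charts `j`
and `1 / j`, `V = mgvV hπ ιC hp hpM` (`V true = V_∞`, `V false = V_0`).

* `tresxk_rigid`    : the rigidity hypothesis of `RT/K6/DLFConc.lean` from `5 ≤ p`, `4 ∣ M`;
* `tresxk_thinAt_J` : `Rtk6lfThinAt V_∞ V_0 𝔫` at every closed point `𝔫` of the chart `j`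
  (helper54's `rtk6lfb0_thinAt_J`), and `tresxk_thinAt_J_symm` with the two components swapped;
* `tresxk_cusp`     : the cusps (closed points of the chart `1 / j` containing `1 / j`) are smooth
  points (helper81's `ribmp_fcu_smooth`), in the shape `hcusp` of `tresmf_chart`;
* `tresxk_LF_J`     : (LF) at every closed point of the chart `j` (helper54's `rtk6lfb0_LF_J`),
  the horizontal hypothesis over `ℚ̄`;
* `tresxk_hAV`, `tresxk_hρπ` : the constants lie in `V c`; `ρ π = 0`;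
* **`tresxk_chart`** : helper79's `tresmf_chart` (`R38/TresMonoFixAbs.lean`) with ALL the geometric
  hypotheses discharged: for a reduction `ρ : V_∞ →+* L` killing `𝔪(V_∞)`, a place `Q` of `L / k`
  containing `ρ A₀` with torsion residue units, `y` with `m ∣ div y`, `v_∞(y) = 1`,
  `v_0(y) = v_0(π) ^ b`, and `g` with horizontal divisor at the cusps, `v_∞(g) = 1`,
  `v_0(g) = v_0(π) ^ a`:
    `ρ j ∈ O_Q → m ∣ a · ord_Q (ρ y) − b · ord_Q (ρ g)`  and  `ρ j ∉ O_Q → m ∣ ord_Q (ρ y)`;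
* `tresxk_chart_bar` : the same with the horizontal hypotheses over `ℚ̄`.
-/
import Fermat.Agent.RT.K6.DLFConc
import Fermat.Agent.RIB.MP.FacCusp
import Fermat.Agent.R38.TresMonoFixAbs
import Fermat.Agent.UNIP.MGPlaces

set_option autoImplicit false
set_option linter.unusedSectionVars false
set_option linter.unusedVariables false
set_option linter.style.haveILetI false
set_option linter.style.longLine false
set_option synthInstance.maxHeartbeats 400000
set_option maxHeartbeats 8000000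

noncomputable section

namespace Fermat.Agent.R38

open ModularCurve Polynomial IntermediateField Fermat.Agent.INJ Fermat.Agent.AL AlgebraicCurve
open Fermat.Agent.ES Fermat.Agent.ES.G2 Fermat.Agent.STB Fermat.Agent.UNIP Fermat.Agent.S36
open Fermat.Agent.RIB.MP Fermat.Agent.RT.K6

section Sym

universe u

variable {A₀ F : Type u} [CommRing A₀] [Field F] [Algebra A₀ F] {π : A₀}

/-- the thin dichotomy is symmetric in the two components -/
theorem tresxk_thin_symm {V₁ V₂ : ValuationSubring F} {t : F} {𝔫 : AtPt (F := F) π t}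
    (h : Rtk6lfThinAt V₁ V₂ 𝔫) : Rtk6lfThinAt V₂ V₁ 𝔫 := by
  rcases h with h | ⟨X, Y, h₁, h₂, hX, hY, ⟨w, hw, hwXY⟩, hgen⟩
  · exact Or.inl h
  · refine Or.inr ⟨Y, X, h₂, h₁, hY, hX, ⟨w, hw, by rw [hwXY, mul_comm]⟩, ?_⟩
    have e : ({algebraMap A₀ ↥(zchClosure (A₀ := A₀) ({t} : Set F)) π, Y, X} :
        Set ↥(zchClosure (A₀ := A₀) ({t} : Set F))) =
        {algebraMap A₀ ↥(zchClosure (A₀ := A₀) ({t} : Set F)) π, X, Y} := by
      ext z
      simp only [Set.mem_insert_iff, Set.mem_singleton_iff]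
      tauto
    rw [e]
    exact hgen

end Sym

section XK

variable {A : ValuationSubring Qb} {p M : ℕ} [NeZero p] [NeZero M] [NeZero (M * p)]
  [IsDiscreteValuationRing ↥(beta0Ring A (beta0Field A))]
  {π : ↥(beta0Ring A (beta0Field A))} (hπ : Irreducible π)
  (ιC : ↥(beta0Field A) →+* ℂ) (hp : p.Prime) (hpM : ¬ p ∣ M)

omit [NeZero p] [NeZero M] [NeZero (M * p)] in
/-- the rigidity hypothesis, from `5 ≤ p` and `4 ∣ M` -/
theorem tresxk_rigid (h5 : 5 ≤ p) (h4 : 4 ∣ M) : (p ≠ 2 → 4 ∣ M) ∧ (p = 2 → 9 ∣ M) :=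
  ⟨fun _ => h4, fun h => absurd h (by omega)⟩

omit [NeZero p] [NeZero M] [NeZero (M * p)] in
theorem tresxk_h2 (h5 : 5 ≤ p) : p = 2 → 3 ∣ M := fun h => absurd h (by omega)

omit [NeZero p] [NeZero M] [NeZero (M * p)] in
theorem tresxk_h3 (h5 : 5 ≤ p) : p = 3 → 2 ∣ M := fun h => absurd h (by omega)

include hπ ιC hp hpM in
/-- **thin nodes on the chart `j`** of `X₀(M p)` over `ℚ̄^I`, rigid level -/
theorem tresxk_thinAt_J (hA : A.LiesOverPrime p) (h5 : 5 ≤ p) (h4 : 4 ∣ M)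
    (𝔫 : AtPt (F := ↥(modularFunctionFieldFullC ↥(beta0Field A) (M * p))) π
      (bgJ ↥(beta0Field A) (M * p))) :
    Rtk6lfThinAt (mgvV hπ ιC hp hpM true) (mgvV hπ ιC hp hpM false) 𝔫 :=
  rtk6lfb0_thinAt_J hπ ιC hp hpM hA (tresxk_rigid h5 h4) 𝔫

include hπ ιC hp hpM in
/-- thin nodes on the chart `j`, the two components swapped -/
theorem tresxk_thinAt_J_symm (hA : A.LiesOverPrime p) (h5 : 5 ≤ p) (h4 : 4 ∣ M)
    (𝔫 : AtPt (F := ↥(modularFunctionFieldFullC ↥(beta0Field A) (M * p))) π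
      (bgJ ↥(beta0Field A) (M * p))) :
    Rtk6lfThinAt (mgvV hπ ιC hp hpM false) (mgvV hπ ιC hp hpM true) 𝔫 :=
  tresxk_thin_symm (tresxk_thinAt_J hπ ιC hp hpM hA h5 h4 𝔫)

include hπ hp hpM in
/-- **the cusps are smooth points**, in the shape `hcusp` of `tresmf_chart` -/
theorem tresxk_cusp (hA : A.LiesOverPrime p) (h5 : 5 ≤ p)
    (𝔫 : AtPt (F := ↥(modularFunctionFieldFullC ↥(beta0Field A) (M * p))) π
      (bgJ ↥(beta0Field A) (M * p))⁻¹)
    (hcu : ∀ b : ↥(zchClosure (A₀ := ↥(beta0Ring A (beta0Field A)))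
        ({(bgJ ↥(beta0Field A) (M * p))⁻¹} :
          Set ↥(modularFunctionFieldFullC ↥(beta0Field A) (M * p)))),
      (b : ↥(modularFunctionFieldFullC ↥(beta0Field A) (M * p))) =
        (bgJ ↥(beta0Field A) (M * p))⁻¹ → b ∈ 𝔫.1) :
    ∃ s : ↥(zchClosure (A₀ := ↥(beta0Ring A (beta0Field A)))
        ({(bgJ ↥(beta0Field A) (M * p))⁻¹} :
          Set ↥(modularFunctionFieldFullC ↥(beta0Field A) (M * p)))), s ∈ 𝔫.1 ∧
      NodesLocGen 𝔫.1 {algebraMap ↥(beta0Ring A (beta0Field A))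
        ↥(zchClosure (A₀ := ↥(beta0Ring A (beta0Field A)))
          ({(bgJ ↥(beta0Field A) (M * p))⁻¹} :
            Set ↥(modularFunctionFieldFullC ↥(beta0Field A) (M * p)))) π, s} := by
  obtain ⟨φ, hφF⟩ := Fermat.Agent.Common.exists_isFrobeniusAt_of_liesOverPrime p hp A hA
  obtain ⟨s, hs, hgen⟩ := ribmp_fcu_smooth hπ hp hpM hA le_rfl hφF
    (fun x hx => beta0_decomp_apply_mem hφF.mem_decompositionSubgroup hx)
    (tresxk_h2 h5) (tresxk_h3 h5) 𝔫 (hcu _ rfl)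
  exact ⟨s, hs, hgen⟩

include hπ ιC hp hpM in
/-- the constants lie in `V c` -/
theorem tresxk_hAV (c : Bool) (a : ↥(beta0Ring A (beta0Field A))) :
    algebraMap ↥(beta0Ring A (beta0Field A))
      ↥(modularFunctionFieldFullC ↥(beta0Field A) (M * p)) a ∈ mgvV hπ ιC hp hpM c :=
  mgv_hBV₁ hπ ιC hp hpM c _ (isIntegral_algebraMap
    (R := ↥(Algebra.adjoin ↥(beta0Ring A (beta0Field A))
      ({bgJ ↥(beta0Field A) (M * p)} :
        Set ↥(modularFunctionFieldFullC ↥(beta0Field A) (M * p)))))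
    (x := algebraMap ↥(beta0Ring A (beta0Field A)) _ a))

include hπ ιC hp hpM in
/-- `V_∞ ≠ V_0` in the shape `hnle` -/
theorem tresxk_hnle (hA : A.LiesOverPrime p) (c c' : Bool) (hcc' : c ≠ c') :
    ¬ mgvV hπ ιC hp hpM c ≤ mgvV hπ ιC hp hpM c' := by
  cases c <;> cases c'
  · exact absurd rfl hcc'
  · exact Fermat.Agent.S33.wdb_mgv_h21 hπ ιC hp hpM hA
  · exact Fermat.Agent.S33.wdb_mgv_h12 hπ ιC hp hpM hA
  · exact absurd rfl hcc'

include hπ ιC hp hpM in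
/-- **(LF) at every closed point of the chart `j`** of `X₀(M p)` over `ℚ̄^I`, rigid level, the
horizontal hypothesis over `ℚ̄` (helper54's `rtk6lfb0_LF_J`). -/
theorem tresxk_LF_J (hA : A.LiesOverPrime p) (h5 : 5 ≤ p) (h4 : 4 ∣ M)
    (m : ℕ) {y : ↥(modularFunctionFieldFullC ↥(beta0Field A) (M * p))} (hy : y ≠ 0)
    (hhor : ∀ P : Place NfQb (modularFunctionFieldBar (M * p)),
      (m : ℤ) ∣ P.ord (nfEmb (beta0Field A) (M * p) y))
    (hy₁ : (mgvV hπ ιC hp hpM true).valuation y = 1) {n₀ : ℤ}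
    (hn₀ : (mgvV hπ ιC hp hpM false).valuation y = (mgvV hπ ιC hp hpM false).valuation
      (algebraMap ↥(beta0Ring A (beta0Field A))
        ↥(modularFunctionFieldFullC ↥(beta0Field A) (M * p)) π) ^ n₀)
    (𝔫 : AtPt (F := ↥(modularFunctionFieldFullC ↥(beta0Field A) (M * p))) π
      (bgJ ↥(beta0Field A) (M * p))) :
    (∃ X Y : ↥(zchClosure (A₀ := ↥(beta0Ring A (beta0Field A)))
        ({bgJ ↥(beta0Field A) (M * p)} :
          Set ↥(modularFunctionFieldFullC ↥(beta0Field A) (M * p)))),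
      Rtk6lfCrossAt (mgvV hπ ιC hp hpM true) (mgvV hπ ιC hp hpM false) 𝔫 X Y ∧
      ∃ (γ : ↥(modularFunctionFieldFullC ↥(beta0Field A) (M * p))) (ε : ↥(atLoc 𝔫)), IsUnit ε ∧
        y = (ε : ↥(modularFunctionFieldFullC ↥(beta0Field A) (M * p))) *
          (Y : ↥(modularFunctionFieldFullC ↥(beta0Field A) (M * p))) ^ n₀ * γ ^ m ∧ γ ≠ 0 ∧
        (mgvV hπ ιC hp hpM true).valuation γ = 1 ∧
        (mgvV hπ ιC hp hpM false).valuation γ = 1) ∨
    (atThrough 𝔫 (mgvV hπ ιC hp hpM false) ∧ ¬ atThrough 𝔫 (mgvV hπ ιC hp hpM true) ∧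
      (∃ s : ↥(zchClosure (A₀ := ↥(beta0Ring A (beta0Field A)))
          ({bgJ ↥(beta0Field A) (M * p)} :
            Set ↥(modularFunctionFieldFullC ↥(beta0Field A) (M * p)))), s ∈ 𝔫.1 ∧
        NodesLocGen 𝔫.1 {algebraMap ↥(beta0Ring A (beta0Field A))
          ↥(zchClosure (A₀ := ↥(beta0Ring A (beta0Field A)))
            ({bgJ ↥(beta0Field A) (M * p)} :
              Set ↥(modularFunctionFieldFullC ↥(beta0Field A) (M * p)))) π, s}) ∧
      ∃ (γ : ↥(modularFunctionFieldFullC ↥(beta0Field A) (M * p))) (ε : ↥(atLoc 𝔫)), IsUnit ε ∧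
        y = (ε : ↥(modularFunctionFieldFullC ↥(beta0Field A) (M * p))) *
          algebraMap ↥(beta0Ring A (beta0Field A))
            ↥(modularFunctionFieldFullC ↥(beta0Field A) (M * p)) π ^ n₀ *
            γ ^ m ∧ γ ≠ 0 ∧ (mgvV hπ ιC hp hpM false).valuation γ = 1) ∨
    (atThrough 𝔫 (mgvV hπ ιC hp hpM true) ∧ ¬ atThrough 𝔫 (mgvV hπ ιC hp hpM false) ∧
      (∃ s : ↥(zchClosure (A₀ := ↥(beta0Ring A (beta0Field A)))
          ({bgJ ↥(beta0Field A) (M * p)} :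
            Set ↥(modularFunctionFieldFullC ↥(beta0Field A) (M * p)))), s ∈ 𝔫.1 ∧
        NodesLocGen 𝔫.1 {algebraMap ↥(beta0Ring A (beta0Field A))
          ↥(zchClosure (A₀ := ↥(beta0Ring A (beta0Field A)))
            ({bgJ ↥(beta0Field A) (M * p)} :
              Set ↥(modularFunctionFieldFullC ↥(beta0Field A) (M * p)))) π, s}) ∧
      ∃ (γ : ↥(modularFunctionFieldFullC ↥(beta0Field A) (M * p))) (ε : ↥(atLoc 𝔫)), IsUnit ε ∧
        y = (ε : ↥(modularFunctionFieldFullC ↥(beta0Field A) (M * p))) * γ ^ m ∧ γ ≠ 0 ∧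
        (mgvV hπ ιC hp hpM true).valuation γ = 1) :=
  rtk6lfb0_LF_J hπ ιC hp hpM hA (tresxk_rigid h5 h4) m hy
    (ribmp_fc_hhor (M * p) m y hhor) hy₁ hn₀ 𝔫

include hπ ιC hp hpM in
/-- a reduction at `V c` killing `𝔪(V c)` kills `π` -/
theorem tresxk_hρπ (c : Bool) {L : Type*} [Field L] (ρ : ↥(mgvV hπ ιC hp hpM c) →+* L)
    (hker : ∀ x : ↥(mgvV hπ ιC hp hpM c),
      (x : ↥(modularFunctionFieldFullC ↥(beta0Field A) (M * p))) ∈
        (mgvV hπ ιC hp hpM c).nonunits → ρ x = 0) :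
    ρ ⟨algebraMap ↥(beta0Ring A (beta0Field A))
      ↥(modularFunctionFieldFullC ↥(beta0Field A) (M * p)) π,
        tresxk_hAV hπ ιC hp hpM c π⟩ = 0 :=
  hker _ (mgv_hπV hπ ιC hp hpM c)

include hπ ιC hp hpM in
/-- **FAC-XK, the bundle**: helper79's `tresmf_chart` on `X₀(M p)` over `ℚ̄^I` (rigid level
`4 ∣ M`, `p ≥ 5`), reduction at `V_∞`, with all the geometric hypotheses discharged. -/
theorem tresxk_chart (hA : A.LiesOverPrime p) (h5 : 5 ≤ p) (h4 : 4 ∣ M)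
    {k L : Type*} [Field k] [Field L] [Algebra k L]
    (ρ : ↥(mgvV hπ ιC hp hpM true) →+* L)
    (hker : ∀ x : ↥(mgvV hπ ιC hp hpM true),
      (x : ↥(modularFunctionFieldFullC ↥(beta0Field A) (M * p))) ∈
        (mgvV hπ ιC hp hpM true).nonunits → ρ x = 0)
    (Q : Place k L)
    (hAQ : ∀ a : ↥(beta0Ring A (beta0Field A)),
      ρ ⟨algebraMap ↥(beta0Ring A (beta0Field A))
        ↥(modularFunctionFieldFullC ↥(beta0Field A) (M * p)) a,
          tresxk_hAV hπ ιC hp hpM true a⟩ ∈ Q.toValuationSubring)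
    (hfin : ∀ x ∈ Q.toValuationSubring, x ∉ Q.toValuationSubring.nonunits →
      ∃ n : ℕ, 0 < n ∧ x ^ n - 1 ∈ Q.toValuationSubring.nonunits)
    {m : ℕ} (hm : 0 < m) {y g : ↥(modularFunctionFieldFullC ↥(beta0Field A) (M * p))}
    (hy0 : y ≠ 0) (hg0 : g ≠ 0)
    (hhor : ∀ P : Place ↥(beta0Field A) ↥(modularFunctionFieldFullC ↥(beta0Field A) (M * p)),
      (m : ℤ) ∣ P.ord y)
    (hhor' : ∀ P : Place ↥(beta0Field A) ↥(modularFunctionFieldFullC ↥(beta0Field A) (M * p)),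
      0 ≤ P.ord (bgJ ↥(beta0Field A) (M * p)) → P.ord g = 0)
    (hy₁ : (mgvV hπ ιC hp hpM true).valuation y = 1)
    (hg₁ : (mgvV hπ ιC hp hpM true).valuation g = 1) (a b : ℤ)
    (hy₂ : (mgvV hπ ιC hp hpM false).valuation y = (mgvV hπ ιC hp hpM false).valuation
      (algebraMap ↥(beta0Ring A (beta0Field A))
        ↥(modularFunctionFieldFullC ↥(beta0Field A) (M * p)) π) ^ b)
    (hg₂ : (mgvV hπ ιC hp hpM false).valuation g = (mgvV hπ ιC hp hpM false).valuation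
      (algebraMap ↥(beta0Ring A (beta0Field A))
        ↥(modularFunctionFieldFullC ↥(beta0Field A) (M * p)) π) ^ a) :
    (ρ ⟨bgJ ↥(beta0Field A) (M * p),
        tresdn_mem (mgvV hπ ιC hp hpM true) (mgv_T_valuation hπ ιC hp hpM true)⟩ ∈
        Q.toValuationSubring →
      (m : ℤ) ∣ a * Q.ord (ρ ⟨y, tresdn_mem (mgvV hπ ιC hp hpM true) hy₁⟩) -
        b * Q.ord (ρ ⟨g, tresdn_mem (mgvV hπ ιC hp hpM true) hg₁⟩)) ∧
    (ρ ⟨bgJ ↥(beta0Field A) (M * p),
        tresdn_mem (mgvV hπ ιC hp hpM true) (mgv_T_valuation hπ ιC hp hpM true)⟩ ∉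
        Q.toValuationSubring →
      (m : ℤ) ∣ Q.ord (ρ ⟨y, tresdn_mem (mgvV hπ ιC hp hpM true) hy₁⟩)) := by
  haveI := ribmp_fc_fin (K₀ := beta0Field A) (M * p)
  haveI := ribmp_fc_fin_inv (K₀ := beta0Field A) (M * p)
  haveI := rtk6lfb_noeth_J (A := A) (K₀ := beta0Field A) (M := M) (q := p)
  haveI := ribmp_fcu_noeth (A := A) (K₀ := beta0Field A) (M := M) (q := p)
  have hSS1 := ribmp_fc_hSS1 hπ ιC hp hpM hA le_rfl (tresxk_h2 h5) (tresxk_h3 h5)
  have hSS1' := ribmp_fc_hSS1_inv hπ ιC hp hpM hA le_rfl (tresxk_h2 h5) (tresxk_h3 h5)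
  exact tresmf_chart (E := ↥(beta0Field A)) hπ (mgvV hπ ιC hp hpM) true false mgv_hκ
    (mgv_hBV₁ hπ ιC hp hpM) (mgv_hBV₂ hπ ιC hp hpM) (mgv_hπV hπ ιC hp hpM) hSS1 hSS1'
    (ribmp_fc_hU hπ ιC hp hpM) (mgv_hVloc₁ hπ ιC hp hpM hA hSS1)
    (mgv_hVloc₂ hπ ιC hp hpM hA hSS1) (tresxk_hnle hπ ιC hp hpM hA)
    (tresxk_thinAt_J hπ ιC hp hpM hA h5 h4) (tresxk_cusp hπ hp hpM hA h5)
    ρ hker (tresxk_hAV hπ ιC hp hpM true) (tresxk_hρπ hπ ιC hp hpM true ρ hker)
    (mgv_T_valuation hπ ιC hp hpM true) Q hAQ hfin hm hy0 hg0 hhor hhor' hy₁ hg₁ a b hy₂ hg₂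

include hπ ιC hp hpM in
/-- **FAC-XK, the bundle, horizontal hypotheses over `ℚ̄`.** -/
theorem tresxk_chart_bar (hA : A.LiesOverPrime p) (h5 : 5 ≤ p) (h4 : 4 ∣ M)
    {k L : Type*} [Field k] [Field L] [Algebra k L]
    (ρ : ↥(mgvV hπ ιC hp hpM true) →+* L)
    (hker : ∀ x : ↥(mgvV hπ ιC hp hpM true),
      (x : ↥(modularFunctionFieldFullC ↥(beta0Field A) (M * p))) ∈
        (mgvV hπ ιC hp hpM true).nonunits → ρ x = 0)
    (Q : Place k L)
    (hAQ : ∀ a : ↥(beta0Ring A (beta0Field A)),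
      ρ ⟨algebraMap ↥(beta0Ring A (beta0Field A))
        ↥(modularFunctionFieldFullC ↥(beta0Field A) (M * p)) a,
          tresxk_hAV hπ ιC hp hpM true a⟩ ∈ Q.toValuationSubring)
    (hfin : ∀ x ∈ Q.toValuationSubring, x ∉ Q.toValuationSubring.nonunits →
      ∃ n : ℕ, 0 < n ∧ x ^ n - 1 ∈ Q.toValuationSubring.nonunits)
    {m : ℕ} (hm : 0 < m) {y g : ↥(modularFunctionFieldFullC ↥(beta0Field A) (M * p))}
    (hy0 : y ≠ 0) (hg0 : g ≠ 0)
    (hhor : ∀ P : Place NfQb (modularFunctionFieldBar (M * p)),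
      (m : ℤ) ∣ P.ord (nfEmb (beta0Field A) (M * p) y))
    (hhor' : ∀ P : Place NfQb (modularFunctionFieldBar (M * p)),
      0 ≤ P.ord (nfEmb (beta0Field A) (M * p) (bgJ ↥(beta0Field A) (M * p))) →
        P.ord (nfEmb (beta0Field A) (M * p) g) = 0)
    (hy₁ : (mgvV hπ ιC hp hpM true).valuation y = 1)
    (hg₁ : (mgvV hπ ιC hp hpM true).valuation g = 1) (a b : ℤ)
    (hy₂ : (mgvV hπ ιC hp hpM false).valuation y = (mgvV hπ ιC hp hpM false).valuation
      (algebraMap ↥(beta0Ring A (beta0Field A))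
        ↥(modularFunctionFieldFullC ↥(beta0Field A) (M * p)) π) ^ b)
    (hg₂ : (mgvV hπ ιC hp hpM false).valuation g = (mgvV hπ ιC hp hpM false).valuation
      (algebraMap ↥(beta0Ring A (beta0Field A))
        ↥(modularFunctionFieldFullC ↥(beta0Field A) (M * p)) π) ^ a) :
    (ρ ⟨bgJ ↥(beta0Field A) (M * p),
        tresdn_mem (mgvV hπ ιC hp hpM true) (mgv_T_valuation hπ ιC hp hpM true)⟩ ∈
        Q.toValuationSubring →
      (m : ℤ) ∣ a * Q.ord (ρ ⟨y, tresdn_mem (mgvV hπ ιC hp hpM true) hy₁⟩) -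
        b * Q.ord (ρ ⟨g, tresdn_mem (mgvV hπ ιC hp hpM true) hg₁⟩)) ∧
    (ρ ⟨bgJ ↥(beta0Field A) (M * p),
        tresdn_mem (mgvV hπ ιC hp hpM true) (mgv_T_valuation hπ ιC hp hpM true)⟩ ∉
        Q.toValuationSubring →
      (m : ℤ) ∣ Q.ord (ρ ⟨y, tresdn_mem (mgvV hπ ιC hp hpM true) hy₁⟩)) := by
  refine tresxk_chart hπ ιC hp hpM hA h5 h4 ρ hker Q hAQ hfin hm hy0 hg0
    (ribmp_fc_hhor (M * p) m y hhor) ?_ hy₁ hg₁ a b hy₂ hg₂
  intro P hP
  obtain ⟨v, hv⟩ := mg_place_extend (beta0Field A) (M * p) P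
  rw [← hv g]
  apply hhor' v
  rw [hv]
  exact hP

/-! ### the chart `j` as an abstract chart `B` (inputs of `RT.K6.rtk6lfp_*`) -/

include hπ ιC hp hpM in
/-- the chart `j` lies in `V c` -/
theorem tresxk_B_hBV (c : Bool)
    (b : ↥(zchClosure (A₀ := ↥(beta0Ring A (beta0Field A)))
      ({bgJ ↥(beta0Field A) (M * p)} :
        Set ↥(modularFunctionFieldFullC ↥(beta0Field A) (M * p))))) :
    algebraMap ↥(zchClosure (A₀ := ↥(beta0Ring A (beta0Field A)))
      ({bgJ ↥(beta0Field A) (M * p)} :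
        Set ↥(modularFunctionFieldFullC ↥(beta0Field A) (M * p))))
      ↥(modularFunctionFieldFullC ↥(beta0Field A) (M * p)) b ∈ mgvV hπ ιC hp hpM c :=
  mgv_hBV₁ hπ ιC hp hpM c _ b.2

include hπ ιC hp hpM in
/-- **(KR)** on the chart `j` -/
theorem tresxk_B_hKR (hA : A.LiesOverPrime p) (h5 : 5 ≤ p)
    (x : ↥(modularFunctionFieldFullC ↥(beta0Field A) (M * p)))
    (hx : ∃ b : ↥(zchClosure (A₀ := ↥(beta0Ring A (beta0Field A)))
        ({bgJ ↥(beta0Field A) (M * p)} :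
          Set ↥(modularFunctionFieldFullC ↥(beta0Field A) (M * p)))),
      algebraMap ↥(zchClosure (A₀ := ↥(beta0Ring A (beta0Field A)))
          ({bgJ ↥(beta0Field A) (M * p)} :
            Set ↥(modularFunctionFieldFullC ↥(beta0Field A) (M * p)))) _
        (algebraMap ↥(beta0Ring A (beta0Field A))
          ↥(zchClosure (A₀ := ↥(beta0Ring A (beta0Field A)))
            ({bgJ ↥(beta0Field A) (M * p)} :
              Set ↥(modularFunctionFieldFullC ↥(beta0Field A) (M * p)))) π) * x =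
        algebraMap ↥(zchClosure (A₀ := ↥(beta0Ring A (beta0Field A)))
          ({bgJ ↥(beta0Field A) (M * p)} :
            Set ↥(modularFunctionFieldFullC ↥(beta0Field A) (M * p)))) _ b)
    (hxV : ∀ c, x ∈ mgvV hπ ιC hp hpM c) :
    ∃ b : ↥(zchClosure (A₀ := ↥(beta0Ring A (beta0Field A)))
        ({bgJ ↥(beta0Field A) (M * p)} :
          Set ↥(modularFunctionFieldFullC ↥(beta0Field A) (M * p)))),
      x = algebraMap ↥(zchClosure (A₀ := ↥(beta0Ring A (beta0Field A)))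
        ({bgJ ↥(beta0Field A) (M * p)} :
          Set ↥(modularFunctionFieldFullC ↥(beta0Field A) (M * p)))) _ b :=
  ribmp_fc_hKR hπ ιC hp hpM hA le_rfl (tresxk_h2 h5) (tresxk_h3 h5) x hx hxV

include hπ ιC hp hpM in
/-- **(U)** `𝔪(V c) = π V c`, the uniformizer taken in the chart `j` -/
theorem tresxk_B_hU (c : Bool) (x : ↥(modularFunctionFieldFullC ↥(beta0Field A) (M * p)))
    (hx : x ∈ (mgvV hπ ιC hp hpM c).nonunits) :
    ∃ z ∈ mgvV hπ ιC hp hpM c,
      x = algebraMap ↥(zchClosure (A₀ := ↥(beta0Ring A (beta0Field A)))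
          ({bgJ ↥(beta0Field A) (M * p)} :
            Set ↥(modularFunctionFieldFullC ↥(beta0Field A) (M * p)))) _
        (algebraMap ↥(beta0Ring A (beta0Field A))
          ↥(zchClosure (A₀ := ↥(beta0Ring A (beta0Field A)))
            ({bgJ ↥(beta0Field A) (M * p)} :
              Set ↥(modularFunctionFieldFullC ↥(beta0Field A) (M * p)))) π) * z :=
  ribmp_fc_hU hπ ιC hp hpM c x hx

include hπ in
/-- `π ≠ 0` in `F`, the uniformizer taken in the chart `j` -/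
theorem tresxk_B_hϖ0 :
    algebraMap ↥(zchClosure (A₀ := ↥(beta0Ring A (beta0Field A)))
        ({bgJ ↥(beta0Field A) (M * p)} :
          Set ↥(modularFunctionFieldFullC ↥(beta0Field A) (M * p)))) _
      (algebraMap ↥(beta0Ring A (beta0Field A))
        ↥(zchClosure (A₀ := ↥(beta0Ring A (beta0Field A)))
          ({bgJ ↥(beta0Field A) (M * p)} :
            Set ↥(modularFunctionFieldFullC ↥(beta0Field A) (M * p)))) π) ≠
      (0 : ↥(modularFunctionFieldFullC ↥(beta0Field A) (M * p))) :=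
  ribmp_fc_hπ0 (M := M) (q := p) hπ

include hπ ιC hp hpM in
/-- `π ∈ 𝔪(V c)`, the uniformizer taken in the chart `j` -/
theorem tresxk_B_hϖV (c : Bool) :
    algebraMap ↥(zchClosure (A₀ := ↥(beta0Ring A (beta0Field A)))
        ({bgJ ↥(beta0Field A) (M * p)} :
          Set ↥(modularFunctionFieldFullC ↥(beta0Field A) (M * p)))) _
      (algebraMap ↥(beta0Ring A (beta0Field A))
        ↥(zchClosure (A₀ := ↥(beta0Ring A (beta0Field A)))
          ({bgJ ↥(beta0Field A) (M * p)} :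
            Set ↥(modularFunctionFieldFullC ↥(beta0Field A) (M * p)))) π) ∈
      (mgvV hπ ιC hp hpM c).nonunits :=
  mgv_hπV hπ ιC hp hpM c

include hπ in
/-- **(hE)** the constants are fractions with denominator a power of `π` -/
theorem tresxk_B_hE (e : ↥(beta0Field A)) :
    ∃ (n : ℕ) (a : ↥(zchClosure (A₀ := ↥(beta0Ring A (beta0Field A)))
        ({bgJ ↥(beta0Field A) (M * p)} :
          Set ↥(modularFunctionFieldFullC ↥(beta0Field A) (M * p))))),
      algebraMap ↥(beta0Field A) ↥(modularFunctionFieldFullC ↥(beta0Field A) (M * p)) e *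
        algebraMap ↥(zchClosure (A₀ := ↥(beta0Ring A (beta0Field A)))
          ({bgJ ↥(beta0Field A) (M * p)} :
            Set ↥(modularFunctionFieldFullC ↥(beta0Field A) (M * p)))) _
          (algebraMap ↥(beta0Ring A (beta0Field A))
            ↥(zchClosure (A₀ := ↥(beta0Ring A (beta0Field A)))
              ({bgJ ↥(beta0Field A) (M * p)} :
                Set ↥(modularFunctionFieldFullC ↥(beta0Field A) (M * p)))) π) ^ n =
        algebraMap ↥(zchClosure (A₀ := ↥(beta0Ring A (beta0Field A)))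
          ({bgJ ↥(beta0Field A) (M * p)} :
            Set ↥(modularFunctionFieldFullC ↥(beta0Field A) (M * p)))) _ a :=
  ribmp_fac_hE (E := ↥(beta0Field A)) hπ (bgJ ↥(beta0Field A) (M * p)) e

/-- **(hfrac)** `F` is the fraction field of the chart `j` -/
theorem tresxk_B_hfrac (x : ↥(modularFunctionFieldFullC ↥(beta0Field A) (M * p))) :
    ∃ a b : ↥(zchClosure (A₀ := ↥(beta0Ring A (beta0Field A)))
        ({bgJ ↥(beta0Field A) (M * p)} :
          Set ↥(modularFunctionFieldFullC ↥(beta0Field A) (M * p)))), b ≠ 0 ∧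
      x * algebraMap ↥(zchClosure (A₀ := ↥(beta0Ring A (beta0Field A)))
          ({bgJ ↥(beta0Field A) (M * p)} :
            Set ↥(modularFunctionFieldFullC ↥(beta0Field A) (M * p)))) _ b =
        algebraMap ↥(zchClosure (A₀ := ↥(beta0Ring A (beta0Field A)))
          ({bgJ ↥(beta0Field A) (M * p)} :
            Set ↥(modularFunctionFieldFullC ↥(beta0Field A) (M * p)))) _ a := by
  haveI := ribmp_fc_fin (K₀ := beta0Field A) (M * p)
  exact ribmp_fac_hfrac (A₀ := ↥(beta0Ring A (beta0Field A))) (E := ↥(beta0Field A))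
    (bgJ ↥(beta0Field A) (M * p)) x

include hπ ιC hp hpM in
/-- **FAC-XK, the point data on the chart `j`**, in the shapes of the hypotheses of
`RT.K6.rtk6lfp_cross_*` / `rtk6lfp_smooth_*` (`B` = the chart `j`, `ϖ = π`, `c₁ = V_∞`,
`c₂ = V_0`): every closed point `𝔫` of the special fibre is
* a THIN crossing point: `w π = X Y`, `w ∉ 𝔫`, `X ∈ 𝔪(V_∞)`, `Y ∈ 𝔪(V_0)`, both components pass
  through `𝔫`, `𝔫 = (π, X, Y)` locally; or
* a smooth point: exactly one component `V c` passes through `𝔫`, `𝔫 = (π, s)` locally. -/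
theorem tresxk_pt_J (hA : A.LiesOverPrime p) (h5 : 5 ≤ p) (h4 : 4 ∣ M)
    (𝔫 : AtPt (F := ↥(modularFunctionFieldFullC ↥(beta0Field A) (M * p))) π
      (bgJ ↥(beta0Field A) (M * p))) :
    (∃ X Y w : ↥(zchClosure (A₀ := ↥(beta0Ring A (beta0Field A)))
        ({bgJ ↥(beta0Field A) (M * p)} :
          Set ↥(modularFunctionFieldFullC ↥(beta0Field A) (M * p)))),
      w ∉ 𝔫.1 ∧
      w * algebraMap ↥(beta0Ring A (beta0Field A))
        ↥(zchClosure (A₀ := ↥(beta0Ring A (beta0Field A)))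
          ({bgJ ↥(beta0Field A) (M * p)} :
            Set ↥(modularFunctionFieldFullC ↥(beta0Field A) (M * p)))) π = X * Y ∧
      (∀ b : ↥(zchClosure (A₀ := ↥(beta0Ring A (beta0Field A)))
          ({bgJ ↥(beta0Field A) (M * p)} :
            Set ↥(modularFunctionFieldFullC ↥(beta0Field A) (M * p)))),
        algebraMap _ ↥(modularFunctionFieldFullC ↥(beta0Field A) (M * p)) b ∈
          (mgvV hπ ιC hp hpM true).nonunits → b ∈ 𝔫.1) ∧
      (∀ b : ↥(zchClosure (A₀ := ↥(beta0Ring A (beta0Field A)))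
          ({bgJ ↥(beta0Field A) (M * p)} :
            Set ↥(modularFunctionFieldFullC ↥(beta0Field A) (M * p)))),
        algebraMap _ ↥(modularFunctionFieldFullC ↥(beta0Field A) (M * p)) b ∈
          (mgvV hπ ιC hp hpM false).nonunits → b ∈ 𝔫.1) ∧
      algebraMap _ ↥(modularFunctionFieldFullC ↥(beta0Field A) (M * p)) X ∈
        (mgvV hπ ιC hp hpM true).nonunits ∧
      algebraMap _ ↥(modularFunctionFieldFullC ↥(beta0Field A) (M * p)) Y ∈
        (mgvV hπ ιC hp hpM false).nonunits ∧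
      X ∈ 𝔫.1 ∧ Y ∈ 𝔫.1 ∧
      NodesLocGen 𝔫.1 {algebraMap ↥(beta0Ring A (beta0Field A))
        ↥(zchClosure (A₀ := ↥(beta0Ring A (beta0Field A)))
          ({bgJ ↥(beta0Field A) (M * p)} :
            Set ↥(modularFunctionFieldFullC ↥(beta0Field A) (M * p)))) π, X, Y}) ∨
    (∃ (c : Bool) (s : ↥(zchClosure (A₀ := ↥(beta0Ring A (beta0Field A)))
        ({bgJ ↥(beta0Field A) (M * p)} :
          Set ↥(modularFunctionFieldFullC ↥(beta0Field A) (M * p))))),
      (∀ b : ↥(zchClosure (A₀ := ↥(beta0Ring A (beta0Field A)))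
          ({bgJ ↥(beta0Field A) (M * p)} :
            Set ↥(modularFunctionFieldFullC ↥(beta0Field A) (M * p)))),
        algebraMap _ ↥(modularFunctionFieldFullC ↥(beta0Field A) (M * p)) b ∈
          (mgvV hπ ιC hp hpM c).nonunits → b ∈ 𝔫.1) ∧
      (∀ c', (∀ b : ↥(zchClosure (A₀ := ↥(beta0Ring A (beta0Field A)))
          ({bgJ ↥(beta0Field A) (M * p)} :
            Set ↥(modularFunctionFieldFullC ↥(beta0Field A) (M * p)))),
        algebraMap _ ↥(modularFunctionFieldFullC ↥(beta0Field A) (M * p)) b ∈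
          (mgvV hπ ιC hp hpM c').nonunits → b ∈ 𝔫.1) → c' = c) ∧
      s ∈ 𝔫.1 ∧
      NodesLocGen 𝔫.1 {algebraMap ↥(beta0Ring A (beta0Field A))
        ↥(zchClosure (A₀ := ↥(beta0Ring A (beta0Field A)))
          ({bgJ ↥(beta0Field A) (M * p)} :
            Set ↥(modularFunctionFieldFullC ↥(beta0Field A) (M * p)))) π, s}) := by
  haveI := rtk6lfb_noeth_J (A := A) (K₀ := beta0Field A) (M := M) (q := p)
  have hSS1 := ribmp_fc_hSS1 hπ ιC hp hpM hA le_rfl (tresxk_h2 h5) (tresxk_h3 h5)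
  rcases tresxk_thinAt_J hπ ιC hp hpM hA h5 h4 𝔫 with ⟨s, hs, hgen⟩ |
    ⟨X, Y, h₁, h₂, hX, hY, ⟨w, hw, hwXY⟩, hgen⟩
  · right
    obtain ⟨c, hc, hone⟩ := stb_sx_exists_unique (mgvV hπ ιC hp hpM) (mgv_hBV₁ hπ ιC hp hpM)
      (mgv_hπV hπ ιC hp hpM) hSS1 (mgv_hVloc₁ hπ ιC hp hpM hA hSS1)
      (tresxk_hnle hπ ιC hp hpM hA) 𝔫 s hs hgen
    exact ⟨c, s, hc, fun c' hc' => hone c' hc', hs, hgen⟩
  · left
    exact ⟨X, Y, w, hw, hwXY, h₁, h₂, hX, hY, h₁ X hX, h₂ Y hY, hgen⟩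

include hπ ιC hp hpM in
/-- **FAC-XK, the point data at the cusps** (chart `1 / j`): a cusp is a smooth point, exactly
one component passes through it. -/
theorem tresxk_pt_cusp (hA : A.LiesOverPrime p) (h5 : 5 ≤ p)
    (𝔫 : AtPt (F := ↥(modularFunctionFieldFullC ↥(beta0Field A) (M * p))) π
      (bgJ ↥(beta0Field A) (M * p))⁻¹)
    (hcu : ∀ b : ↥(zchClosure (A₀ := ↥(beta0Ring A (beta0Field A)))
        ({(bgJ ↥(beta0Field A) (M * p))⁻¹} :
          Set ↥(modularFunctionFieldFullC ↥(beta0Field A) (M * p)))),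
      (b : ↥(modularFunctionFieldFullC ↥(beta0Field A) (M * p))) =
        (bgJ ↥(beta0Field A) (M * p))⁻¹ → b ∈ 𝔫.1) :
    ∃ (c : Bool) (s : ↥(zchClosure (A₀ := ↥(beta0Ring A (beta0Field A)))
        ({(bgJ ↥(beta0Field A) (M * p))⁻¹} :
          Set ↥(modularFunctionFieldFullC ↥(beta0Field A) (M * p))))),
      (∀ b : ↥(zchClosure (A₀ := ↥(beta0Ring A (beta0Field A)))
          ({(bgJ ↥(beta0Field A) (M * p))⁻¹} :
            Set ↥(modularFunctionFieldFullC ↥(beta0Field A) (M * p)))),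
        algebraMap _ ↥(modularFunctionFieldFullC ↥(beta0Field A) (M * p)) b ∈
          (mgvV hπ ιC hp hpM c).nonunits → b ∈ 𝔫.1) ∧
      (∀ c', (∀ b : ↥(zchClosure (A₀ := ↥(beta0Ring A (beta0Field A)))
          ({(bgJ ↥(beta0Field A) (M * p))⁻¹} :
            Set ↥(modularFunctionFieldFullC ↥(beta0Field A) (M * p)))),
        algebraMap _ ↥(modularFunctionFieldFullC ↥(beta0Field A) (M * p)) b ∈
          (mgvV hπ ιC hp hpM c').nonunits → b ∈ 𝔫.1) → c' = c) ∧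
      s ∈ 𝔫.1 ∧
      NodesLocGen 𝔫.1 {algebraMap ↥(beta0Ring A (beta0Field A))
        ↥(zchClosure (A₀ := ↥(beta0Ring A (beta0Field A)))
          ({(bgJ ↥(beta0Field A) (M * p))⁻¹} :
            Set ↥(modularFunctionFieldFullC ↥(beta0Field A) (M * p)))) π, s} := by
  have hSS1 := ribmp_fc_hSS1 hπ ιC hp hpM hA le_rfl (tresxk_h2 h5) (tresxk_h3 h5)
  have hSS1' := ribmp_fc_hSS1_inv hπ ιC hp hpM hA le_rfl (tresxk_h2 h5) (tresxk_h3 h5)
  haveI := ribmp_fcu_noeth (A := A) (K₀ := beta0Field A) (M := M) (q := p)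
  obtain ⟨s, hs, hgen⟩ := tresxk_cusp hπ hp hpM hA h5 𝔫 hcu
  obtain ⟨c, hc, hone⟩ := stb_sx_exists_unique (mgvV hπ ιC hp hpM) (mgv_hBV₂ hπ ιC hp hpM)
    (mgv_hπV hπ ιC hp hpM) hSS1' (mgv_hVloc₂ hπ ιC hp hpM hA hSS1)
    (tresxk_hnle hπ ιC hp hpM hA) 𝔫 s hs hgen
  exact ⟨c, s, hc, fun c' hc' => hone c' hc', hs, hgen⟩

end XK

end Fermat.Agent.R38
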