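/-
Row 38, TRES / FAC-XK, piece (B) CUSPS (helper58).

Frame (= the MP-FAC frame at `q := p`, `K₀ := beta0Field A = ℚ̄^I`): `A` a valuation ring of `ℚ̄`
over `p ≥ 5`, `A₀ = A ∩ K₀` a DVR (uniformizer `π`), `F = F_{Mp}(K₀)`, `t = j`,
`V = mgvV hπ ιC hp hpM` the two vertical valuation rings (`true = V_∞`, `false = V_0`).

A CUSP is a closed point `𝔫` of the special fibre of the chart `t⁻¹ = 1 / j` with `t⁻¹ ∈ 𝔫`
(in the shape of `hcusp` of `tresmf_chart`, `R38/TresMonoFixAbs.lean`: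
`∀ b : B_{1/j}, (b : F) = t⁻¹ → b ∈ 𝔫`).

* `tresxkc_hnle`    : `c ≠ c' → ¬ V c ≤ V c'`   (`hnle` of `tresmf_chart`).
* `tresxkc_smooth`  : **`hcusp` of `tresmf_chart`**: a cusp is a smooth point, `𝔫 = (π, s)` locally
  (adapter of helper81's `ribmp_fcu_smooth`, `RIB/MP/FacCusp.lean`).
* `tresxkc_through` : exactly one vertical component passes through a cusp
  (`STB.stb_sx_exists_unique` on the chart `1 / j`).
* `tresxkc_fac_at`, `tresxkc_fac`, `tresxkc_fac_all` : **(LF) at a cusp**: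
  `y = ε · π ^ a · γ ^ m`, `ε` a unit of the local ring, `v_c γ = 1`, `v_c y = v_c(π) ^ a`
  (`RT.K6.rtk6lfc_smooth_fac` on the chart `1 / j`).
No new mathematics: all globals are taken from `UNIP/MGVert*`, `RIB/MP/FacConc.lean`,
`S33/WildDeepAux.lean`.
-/
import Fermat.Agent.RIB.MP.FacCusp
import Fermat.Agent.RIB.MP.FacConc
import Fermat.Agent.RT.K6.DLFChart
import Fermat.Agent.STB.SmoothOnly
import Fermat.Agent.UNIP.MGVertLocMain
import Fermat.Agent.S33.WildDeepAux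

set_option autoImplicit false
set_option linter.unusedSectionVars false
set_option linter.unusedVariables false
set_option linter.style.haveILetI false

namespace Fermat.Agent.R38

open ModularCurve Polynomial IntermediateField Fermat.Agent.INJ Fermat.Agent.AL AlgebraicCurve
open Fermat.Agent.ES Fermat.Agent.ES.G2 Fermat.Agent.STB Fermat.Agent.UNIP Fermat.Agent.S36
open Fermat.Agent.RIB.MP Fermat.Agent.RT.K6

section Cusp

variable {A : ValuationSubring Qb} {p M : ℕ} [NeZero p] [NeZero M] [NeZero (M * p)]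
  [IsDiscreteValuationRing ↥(beta0Ring A (beta0Field A))]
  {π : ↥(beta0Ring A (beta0Field A))} (hπ : Irreducible π)
  (ιC : ↥(beta0Field A) →+* ℂ) (hp : p.Prime) (hpM : ¬ p ∣ M)

omit [NeZero p] [NeZero M] [NeZero (M * p)] [IsDiscreteValuationRing ↥(beta0Ring A (beta0Field A))] in
/-- `p ≥ 5` makes the rigidity hypotheses at `2`, `3` vacuous -/
theorem tresxkc_h2 (h5 : 5 ≤ p) : p = 2 → 3 ∣ M := fun h => by omega

omit [NeZero p] [NeZero M] [NeZero (M * p)] [IsDiscreteValuationRing ↥(beta0Ring A (beta0Field A))] in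
theorem tresxkc_h3 (h5 : 5 ≤ p) : p = 3 → 2 ∣ M := fun h => by omega

include hπ ιC hp hpM in
/-- **`hnle`** of `tresmf_chart`: the two vertical valuation rings are incomparable -/
theorem tresxkc_hnle (hA : A.LiesOverPrime p) :
    ∀ c c' : Bool, c ≠ c' → ¬ mgvV hπ ιC hp hpM c ≤ mgvV hπ ιC hp hpM c' := by
  intro c c' hcc'
  cases c <;> cases c'
  · exact absurd rfl hcc'
  · exact Fermat.Agent.S33.wdb_mgv_h21 hπ ιC hp hpM hA
  · exact Fermat.Agent.S33.wdb_mgv_h12 hπ ιC hp hpM hA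
  · exact absurd rfl hcc'

include hπ hp hpM in
/-- **FAC-XK (B), `hcusp` of `tresmf_chart`**: a cusp of the chart `1 / j` of `F_{Mp}(ℚ̄^I)` is a
smooth point of the special fibre: `𝔫 = (π, s)` locally. -/
theorem tresxkc_smooth (hA : A.LiesOverPrime p) (h5 : 5 ≤ p) :
    ∀ 𝔫 : AtPt (F := ↥(modularFunctionFieldFullC ↥(beta0Field A) (M * p))) π
        (bgJ ↥(beta0Field A) (M * p))⁻¹,
      (∀ b : ↥(zchClosure (A₀ := ↥(beta0Ring A (beta0Field A)))
          ({(bgJ ↥(beta0Field A) (M * p))⁻¹} :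
            Set ↥(modularFunctionFieldFullC ↥(beta0Field A) (M * p)))),
        (b : ↥(modularFunctionFieldFullC ↥(beta0Field A) (M * p))) =
          (bgJ ↥(beta0Field A) (M * p))⁻¹ → b ∈ 𝔫.1) →
      ∃ s : ↥(zchClosure (A₀ := ↥(beta0Ring A (beta0Field A)))
          ({(bgJ ↥(beta0Field A) (M * p))⁻¹} :
            Set ↥(modularFunctionFieldFullC ↥(beta0Field A) (M * p)))), s ∈ 𝔫.1 ∧
        NodesLocGen 𝔫.1 {algebraMap ↥(beta0Ring A (beta0Field A))
          ↥(zchClosure (A₀ := ↥(beta0Ring A (beta0Field A)))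
            ({(bgJ ↥(beta0Field A) (M * p))⁻¹} :
              Set ↥(modularFunctionFieldFullC ↥(beta0Field A) (M * p)))) π, s} := by
  intro 𝔫 hcu
  obtain ⟨φ, hφF⟩ := Fermat.Agent.Common.exists_isFrobeniusAt_of_liesOverPrime p hp A hA
  obtain ⟨s, hs, hgen⟩ := ribmp_fcu_smooth hπ hp hpM hA le_rfl hφF
    (stb_stable_beta0 hφF.mem_decompositionSubgroup) (tresxkc_h2 h5) (tresxkc_h3 h5) 𝔫
    (hcu (ribmpFglGen (A₀ := ↥(beta0Ring A (beta0Field A))) (bgJ ↥(beta0Field A) (M * p))⁻¹) rfl)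
  exact ⟨s, hs, hgen⟩

include hπ ιC hp hpM in
/-- **FAC-XK (B)**: exactly one vertical component passes through a cusp. -/
theorem tresxkc_through (hA : A.LiesOverPrime p) (h5 : 5 ≤ p)
    (𝔫 : AtPt (F := ↥(modularFunctionFieldFullC ↥(beta0Field A) (M * p))) π
      (bgJ ↥(beta0Field A) (M * p))⁻¹)
    (hcu : ∀ b : ↥(zchClosure (A₀ := ↥(beta0Ring A (beta0Field A)))
        ({(bgJ ↥(beta0Field A) (M * p))⁻¹} :
          Set ↥(modularFunctionFieldFullC ↥(beta0Field A) (M * p)))),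
      (b : ↥(modularFunctionFieldFullC ↥(beta0Field A) (M * p))) =
        (bgJ ↥(beta0Field A) (M * p))⁻¹ → b ∈ 𝔫.1) :
    ∃ c, atThrough 𝔫 (mgvV hπ ιC hp hpM c) ∧
      ∀ c', atThrough 𝔫 (mgvV hπ ιC hp hpM c') → c' = c := by
  haveI := ribmp_fcu_noeth (A := A) (K₀ := beta0Field A) (q := p) (M := M)
  obtain ⟨s, hs, hgen⟩ := tresxkc_smooth hπ hp hpM hA h5 𝔫 hcu
  exact stb_sx_exists_unique (mgvV hπ ιC hp hpM) (mgv_hBV₂ hπ ιC hp hpM) (mgv_hπV hπ ιC hp hpM)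
    (ribmp_fc_hSS1_inv hπ ιC hp hpM hA le_rfl (tresxkc_h2 h5) (tresxkc_h3 h5))
    (mgv_hVloc₂ hπ ιC hp hpM hA
      (ribmp_fc_hSS1 hπ ιC hp hpM hA le_rfl (tresxkc_h2 h5) (tresxkc_h3 h5)))
    (tresxkc_hnle hπ ιC hp hpM hA) 𝔫 s hs hgen

include hπ ιC hp hpM in
/-- **FAC-XK (B), (LF) at a cusp**, for the component `c` through the cusp; `hhor` is only needed
at the places centred at `𝔫`. -/
theorem tresxkc_fac_at (hA : A.LiesOverPrime p) (h5 : 5 ≤ p)
    (𝔫 : AtPt (F := ↥(modularFunctionFieldFullC ↥(beta0Field A) (M * p))) π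
      (bgJ ↥(beta0Field A) (M * p))⁻¹)
    (hcu : ∀ b : ↥(zchClosure (A₀ := ↥(beta0Ring A (beta0Field A)))
        ({(bgJ ↥(beta0Field A) (M * p))⁻¹} :
          Set ↥(modularFunctionFieldFullC ↥(beta0Field A) (M * p)))),
      (b : ↥(modularFunctionFieldFullC ↥(beta0Field A) (M * p))) =
        (bgJ ↥(beta0Field A) (M * p))⁻¹ → b ∈ 𝔫.1)
    (c : Bool) (hthr : atThrough 𝔫 (mgvV hπ ιC hp hpM c))
    (m : ℕ) {y : ↥(modularFunctionFieldFullC ↥(beta0Field A) (M * p))} (hy : y ≠ 0)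
    (hhor : ∀ P : Place ↥(beta0Field A) ↥(modularFunctionFieldFullC ↥(beta0Field A) (M * p)),
      (∀ x ∈ atLoc 𝔫, x ∈ P.toValuationSubring) → (m : ℤ) ∣ P.ord y) :
    ∃ (γ : ↥(modularFunctionFieldFullC ↥(beta0Field A) (M * p))) (ε : ↥(atLoc 𝔫)) (a : ℤ),
      IsUnit ε ∧
      y = (ε : ↥(modularFunctionFieldFullC ↥(beta0Field A) (M * p))) *
        algebraMap ↥(beta0Ring A (beta0Field A))
          ↥(modularFunctionFieldFullC ↥(beta0Field A) (M * p)) π ^ a * γ ^ m ∧ γ ≠ 0 ∧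
      (mgvV hπ ιC hp hpM c).valuation γ = 1 ∧
      (mgvV hπ ιC hp hpM c).valuation y =
        (mgvV hπ ιC hp hpM c).valuation (algebraMap ↥(beta0Ring A (beta0Field A))
          ↥(modularFunctionFieldFullC ↥(beta0Field A) (M * p)) π) ^ a := by
  haveI := ribmp_fcu_noeth (A := A) (K₀ := beta0Field A) (q := p) (M := M)
  haveI := ribmp_fc_fin_inv (K₀ := beta0Field A) (M * p)
  obtain ⟨s, hs, hgen⟩ := tresxkc_smooth hπ hp hpM hA h5 𝔫 hcu
  obtain ⟨c₀, -, hone₀⟩ := tresxkc_through hπ ιC hp hpM hA h5 𝔫 hcu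
  have hc : c = c₀ := hone₀ c hthr
  have hone : ∀ c', atThrough 𝔫 (mgvV hπ ιC hp hpM c') → c' = c := fun c' hc' => by
    rw [hc]; exact hone₀ c' hc'
  exact rtk6lfc_smooth_fac (E := ↥(beta0Field A)) hπ (mgvV hπ ιC hp hpM) (mgv_hBV₂ hπ ιC hp hpM)
    (mgv_hπV hπ ιC hp hpM)
    (ribmp_fc_hSS1_inv hπ ιC hp hpM hA le_rfl (tresxkc_h2 h5) (tresxkc_h3 h5))
    (ribmp_fc_hU hπ ιC hp hpM) 𝔫 c hthr hone hs hgen m hy hhor

include hπ ιC hp hpM in
/-- **FAC-XK (B), (LF) at a cusp**, with `m ∣ ord_P y` at ALL places (the shape of `hhor` of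
`tresmf_chart`). -/
theorem tresxkc_fac (hA : A.LiesOverPrime p) (h5 : 5 ≤ p)
    (𝔫 : AtPt (F := ↥(modularFunctionFieldFullC ↥(beta0Field A) (M * p))) π
      (bgJ ↥(beta0Field A) (M * p))⁻¹)
    (hcu : ∀ b : ↥(zchClosure (A₀ := ↥(beta0Ring A (beta0Field A)))
        ({(bgJ ↥(beta0Field A) (M * p))⁻¹} :
          Set ↥(modularFunctionFieldFullC ↥(beta0Field A) (M * p)))),
      (b : ↥(modularFunctionFieldFullC ↥(beta0Field A) (M * p))) =
        (bgJ ↥(beta0Field A) (M * p))⁻¹ → b ∈ 𝔫.1)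
    (c : Bool) (hthr : atThrough 𝔫 (mgvV hπ ιC hp hpM c))
    (m : ℕ) {y : ↥(modularFunctionFieldFullC ↥(beta0Field A) (M * p))} (hy : y ≠ 0)
    (hhor : ∀ P : Place ↥(beta0Field A) ↥(modularFunctionFieldFullC ↥(beta0Field A) (M * p)),
      (m : ℤ) ∣ P.ord y) :
    ∃ (γ : ↥(modularFunctionFieldFullC ↥(beta0Field A) (M * p))) (ε : ↥(atLoc 𝔫)) (a : ℤ),
      IsUnit ε ∧
      y = (ε : ↥(modularFunctionFieldFullC ↥(beta0Field A) (M * p))) *
        algebraMap ↥(beta0Ring A (beta0Field A))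
          ↥(modularFunctionFieldFullC ↥(beta0Field A) (M * p)) π ^ a * γ ^ m ∧ γ ≠ 0 ∧
      (mgvV hπ ιC hp hpM c).valuation γ = 1 ∧
      (mgvV hπ ιC hp hpM c).valuation y =
        (mgvV hπ ιC hp hpM c).valuation (algebraMap ↥(beta0Ring A (beta0Field A))
          ↥(modularFunctionFieldFullC ↥(beta0Field A) (M * p)) π) ^ a :=
  tresxkc_fac_at hπ ιC hp hpM hA h5 𝔫 hcu c hthr m hy (fun P _ => hhor P)

include hπ ιC hp hpM in
/-- **FAC-XK (B), packaged**: at a cusp there is exactly one component `c` through `𝔫`, and (LF)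
holds for it for every `m` and every `y ≠ 0` with `m ∣ ord_P y` at the places centred at `𝔫`. -/
theorem tresxkc_fac_all (hA : A.LiesOverPrime p) (h5 : 5 ≤ p)
    (𝔫 : AtPt (F := ↥(modularFunctionFieldFullC ↥(beta0Field A) (M * p))) π
      (bgJ ↥(beta0Field A) (M * p))⁻¹)
    (hcu : ∀ b : ↥(zchClosure (A₀ := ↥(beta0Ring A (beta0Field A)))
        ({(bgJ ↥(beta0Field A) (M * p))⁻¹} :
          Set ↥(modularFunctionFieldFullC ↥(beta0Field A) (M * p)))),
      (b : ↥(modularFunctionFieldFullC ↥(beta0Field A) (M * p))) =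
        (bgJ ↥(beta0Field A) (M * p))⁻¹ → b ∈ 𝔫.1) :
    ∃ c, atThrough 𝔫 (mgvV hπ ιC hp hpM c) ∧
      (∀ c', atThrough 𝔫 (mgvV hπ ιC hp hpM c') → c' = c) ∧
      ∀ (m : ℕ) (y : ↥(modularFunctionFieldFullC ↥(beta0Field A) (M * p))), y ≠ 0 →
        (∀ P : Place ↥(beta0Field A) ↥(modularFunctionFieldFullC ↥(beta0Field A) (M * p)),
          (∀ x ∈ atLoc 𝔫, x ∈ P.toValuationSubring) → (m : ℤ) ∣ P.ord y) →
        ∃ (γ : ↥(modularFunctionFieldFullC ↥(beta0Field A) (M * p))) (ε : ↥(atLoc 𝔫)) (a : ℤ),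
          IsUnit ε ∧
          y = (ε : ↥(modularFunctionFieldFullC ↥(beta0Field A) (M * p))) *
            algebraMap ↥(beta0Ring A (beta0Field A))
              ↥(modularFunctionFieldFullC ↥(beta0Field A) (M * p)) π ^ a * γ ^ m ∧ γ ≠ 0 ∧
          (mgvV hπ ιC hp hpM c).valuation γ = 1 ∧
          (mgvV hπ ιC hp hpM c).valuation y =
            (mgvV hπ ιC hp hpM c).valuation (algebraMap ↥(beta0Ring A (beta0Field A))
              ↥(modularFunctionFieldFullC ↥(beta0Field A) (M * p)) π) ^ a := by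
  obtain ⟨c, hthr, hone⟩ := tresxkc_through hπ ιC hp hpM hA h5 𝔫 hcu
  exact ⟨c, hthr, hone, fun m y hy hhor =>
    tresxkc_fac_at hπ ιC hp hpM hA h5 𝔫 hcu c hthr m hy hhor⟩

end Cusp

end Fermat.Agent.R38
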