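/-
Row 38 (TRES wall), piece FAC-XK, part (A) (helper13; split of helper41, 00:40Z): the GLOBALS
BUNDLE of `X = X₀(M p)` over `K = ℚ̄^I = beta0Field A` at the residue characteristic `q := p`,
in EXACTLY the hypothesis shapes of helper79's `tresmf_chart` (`R38/TresMonoFixAbs.lean`),
for BOTH charts `t = j` and `t⁻¹ = 1 / j`.

Frame (= MP-FAC frame of `RIB/MP/FacConc.lean` at `q := p`, `K₀ := beta0Field A`):
`A` a valuation subring of `ℚ̄` over `p`, `p ∤ M`, `5 ≤ p`, `A₀ = beta0Ring A (beta0Field A)` a DVR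
with uniformizer `π`, `F = F_{Mp}(K)`, `t = bgJ K (M p)`, `V = mgvV hπ ιC hp hpM`
(`V true = V_∞`, `V false = V_0`).

* `tresxkg_fin`, `tresxkg_fin_inv` : `F / K(t)`, `F / K(t⁻¹)` are finite;
* `tresxkg_noeth`, `tresxkg_noeth_inv` : the two charts are noetherian;
* `tresxkg_hκ` : `κ = Bool = {true, false}`;
* `tresxkg_hBV`, `tresxkg_hBV'` : the charts lie in `V c`;
* `tresxkg_hAV` : the constants lie in `V c`;
* `tresxkg_hπV`, `tresxkg_hπ0` : `π ∈ 𝔪(V c)`, `π ≠ 0`;
* `tresxkg_hSS1`, `tresxkg_hSS1'` : (SS1) on the charts `t`, `t⁻¹`;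
* `tresxkg_hU` : (UNIF) `𝔪(V c) = π V c`;
* `tresxkg_hVloc`, `tresxkg_hVloc'` : `V c` is a localisation of the chart;
* `tresxkg_hnle`, `tresxkg_hne` : `V_∞`, `V_0` are incomparable / distinct;
* `tresxkg_ht`, `tresxkg_ht_inv` : `t`, `t⁻¹` are units of `V c`;
* `tresxkg_hdisc` : the vertical valuations are discrete with uniformizer `π`:
  `∀ x ≠ 0, ∃ n : ℤ, v_c (x / π ^ n) = 1`;
* `tresxkg_val_zpow` : `v_c x = v_c π ^ n`;
* `tresxkg_hKR`, `tresxkg_hKR'` : (KR) on the two charts (shape of `tres5nk_hKR`);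
* `tresxkg_hcl` : GENERIC, the charts `zchClosure S` are integrally closed in `F`;
* `tresxkg_h2`, `tresxkg_h3`, `tresxkg_rigid` : the side conditions on the level from `5 ≤ p`,
  `4 ∣ M`.
No new mathematics: wrappers of `UNIP` (`mgv_*`), `RIB.MP` (`ribmp_fc_*`), `S33` (`wdb_mgv_*`)
and `RT.K6` (`rtk6lfb_*`).
-/
import Fermat.Agent.RT.K6.DLFConc

set_option autoImplicit false
set_option linter.unusedSectionVars false
set_option linter.unusedVariables false
set_option linter.style.haveILetI false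
set_option linter.style.longLine false
set_option synthInstance.maxHeartbeats 400000
set_option maxHeartbeats 1000000

noncomputable section

namespace Fermat.Agent.R38

open ModularCurve Polynomial IntermediateField Fermat.Agent.INJ Fermat.Agent.AL AlgebraicCurve
open Fermat.Agent.ES Fermat.Agent.ES.G2 Fermat.Agent.STB Fermat.Agent.UNIP Fermat.Agent.S36
open Fermat.Agent.RIB.MP Fermat.Agent.RT.K6

section Closed

variable {A₀ L : Type*} [CommRing A₀] [Field L] [Algebra A₀ L]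

/-- **hcl**: the charts are integrally closed in `F` (GENERIC: any `A₀`, any field `L`, any
generating set `S`): an element of `L` integral over `zchClosure S` lies in `zchClosure S`
(= `hBcl` of `tres5nk_hKR`). -/
theorem tresxkg_hcl (S : Set L) (x : L)
    (hx : (algebraMap ↥(zchClosure (A₀ := A₀) S) L).IsIntegralElem x) :
    ∃ b : ↥(zchClosure (A₀ := A₀) S), x = algebraMap ↥(zchClosure (A₀ := A₀) S) L b := by
  obtain ⟨q, hq, hq0⟩ := hx
  let φ : ↥(zchClosure (A₀ := A₀) S) →+* ↥(integralClosure ↥(Algebra.adjoin A₀ S) L) :=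
    { toFun := fun b => ⟨b.1, b.2⟩
      map_one' := rfl
      map_mul' := fun _ _ => rfl
      map_zero' := rfl
      map_add' := fun _ _ => rfl }
  have hxC : IsIntegral ↥(integralClosure ↥(Algebra.adjoin A₀ S) L) x := by
    refine ⟨q.map φ, hq.map φ, ?_⟩
    rw [Polynomial.eval₂_map]
    exact hq0
  have hxR : IsIntegral ↥(Algebra.adjoin A₀ S) x := isIntegral_trans x hxC
  exact ⟨⟨x, hxR⟩, rfl⟩

end Closed

section Glob

variable {A : ValuationSubring Qb} {p M : ℕ} [NeZero p] [NeZero M] [NeZero (M * p)]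
  [IsDiscreteValuationRing ↥(beta0Ring A (beta0Field A))]
  {π : ↥(beta0Ring A (beta0Field A))} (hπ : Irreducible π)
  (ιC : ↥(beta0Field A) →+* ℂ) (hp : p.Prime) (hpM : ¬ p ∣ M)

/-! ### side conditions on the level -/

omit [NeZero p] [NeZero M] [NeZero (M * p)] in
/-- `p = 2 → 3 ∣ M` is vacuous for `5 ≤ p` -/
theorem tresxkg_h2 (h5 : 5 ≤ p) : p = 2 → 3 ∣ M := fun h => by omega

omit [NeZero p] [NeZero M] [NeZero (M * p)] in
/-- `p = 3 → 2 ∣ M` is vacuous for `5 ≤ p` -/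
theorem tresxkg_h3 (h5 : 5 ≤ p) : p = 3 → 2 ∣ M := fun h => by omega

omit [NeZero p] [NeZero M] [NeZero (M * p)] in
/-- the level `M p` is RIGID in the sense of `RT/K6/DLFConc.lean` -/
theorem tresxkg_rigid (h5 : 5 ≤ p) (h4 : 4 ∣ M) : (p ≠ 2 → 4 ∣ M) ∧ (p = 2 → 9 ∣ M) :=
  ⟨fun _ => h4, fun h => by omega⟩

/-! ### finiteness, noetherianity -/

/-- `F / K(t)` is finite -/
theorem tresxkg_fin :
    FiniteDimensional (↥(beta0Field A))⟮bgJ ↥(beta0Field A) (M * p)⟯
      ↥(modularFunctionFieldFullC ↥(beta0Field A) (M * p)) :=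
  ribmp_fc_fin (K₀ := beta0Field A) (M * p)

/-- `F / K(t⁻¹)` is finite -/
theorem tresxkg_fin_inv :
    FiniteDimensional (↥(beta0Field A))⟮(bgJ ↥(beta0Field A) (M * p))⁻¹⟯
      ↥(modularFunctionFieldFullC ↥(beta0Field A) (M * p)) :=
  ribmp_fc_fin_inv (K₀ := beta0Field A) (M * p)

/-- the chart `t = j` is noetherian -/
theorem tresxkg_noeth :
    IsNoetherianRing ↥(zchClosure (A₀ := ↥(beta0Ring A (beta0Field A)))
      ({bgJ ↥(beta0Field A) (M * p)} :
        Set ↥(modularFunctionFieldFullC ↥(beta0Field A) (M * p)))) :=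
  rtk6lfb_noeth_J (A := A) (K₀ := beta0Field A) (q := p) (M := M)

/-- the chart `t⁻¹ = 1 / j` is noetherian -/
theorem tresxkg_noeth_inv :
    IsNoetherianRing ↥(zchClosure (A₀ := ↥(beta0Ring A (beta0Field A)))
      ({(bgJ ↥(beta0Field A) (M * p))⁻¹} :
        Set ↥(modularFunctionFieldFullC ↥(beta0Field A) (M * p)))) := by
  have ht' : Transcendental ↥(beta0Field A) (bgJ ↥(beta0Field A) (M * p))⁻¹ :=
    zch_transcendental_inv (ribmp_fc_trans (K₀ := beta0Field A) (M * p))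
  haveI := tresxkg_fin (A := A) (p := p) (M := M)
  haveI := tresxkg_fin_inv (A := A) (p := p) (M := M)
  exact chart_closure_isNoetherianRing (A₀ := ↥(beta0Ring A (beta0Field A)))
    (E := ↥(beta0Field A)) ht'

/-! ### the two vertical valuation rings -/

omit [NeZero p] [NeZero M] [NeZero (M * p)] in
/-- **hκ** -/
theorem tresxkg_hκ (c : Bool) : c = true ∨ c = false := by
  cases c
  · exact Or.inr rfl
  · exact Or.inl rfl

include hπ in
/-- `π ≠ 0` in `F` -/
theorem tresxkg_hπ0 :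
    algebraMap ↥(beta0Ring A (beta0Field A))
      ↥(modularFunctionFieldFullC ↥(beta0Field A) (M * p)) π ≠ 0 :=
  ribmp_fc_hπ0 (K₀ := beta0Field A) (q := p) (M := M) hπ

/-- **hBV**: the chart `t` lies in `V c` -/
theorem tresxkg_hBV :
    ∀ c (b : ↥(modularFunctionFieldFullC ↥(beta0Field A) (M * p))),
      IsIntegral ↥(Algebra.adjoin ↥(beta0Ring A (beta0Field A))
        ({bgJ ↥(beta0Field A) (M * p)} :
          Set ↥(modularFunctionFieldFullC ↥(beta0Field A) (M * p)))) b →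
      b ∈ mgvV hπ ιC hp hpM c :=
  mgv_hBV₁ hπ ιC hp hpM

/-- **hBV'**: the chart `t⁻¹` lies in `V c` -/
theorem tresxkg_hBV' :
    ∀ c (b : ↥(modularFunctionFieldFullC ↥(beta0Field A) (M * p))),
      IsIntegral ↥(Algebra.adjoin ↥(beta0Ring A (beta0Field A))
        ({(bgJ ↥(beta0Field A) (M * p))⁻¹} :
          Set ↥(modularFunctionFieldFullC ↥(beta0Field A) (M * p)))) b →
      b ∈ mgvV hπ ιC hp hpM c :=
  mgv_hBV₂ hπ ιC hp hpM

/-- **hAV**: the constants of `A₀` lie in `V c` -/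
theorem tresxkg_hAV (c : Bool) (a : ↥(beta0Ring A (beta0Field A))) :
    algebraMap ↥(beta0Ring A (beta0Field A))
      ↥(modularFunctionFieldFullC ↥(beta0Field A) (M * p)) a ∈ mgvV hπ ιC hp hpM c := by
  refine mgv_hBV₁ hπ ιC hp hpM c _ ?_
  have h : algebraMap ↥(beta0Ring A (beta0Field A))
      ↥(modularFunctionFieldFullC ↥(beta0Field A) (M * p)) a =
      algebraMap ↥(Algebra.adjoin ↥(beta0Ring A (beta0Field A))
        ({bgJ ↥(beta0Field A) (M * p)} :
          Set ↥(modularFunctionFieldFullC ↥(beta0Field A) (M * p))))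
        ↥(modularFunctionFieldFullC ↥(beta0Field A) (M * p))
        (algebraMap ↥(beta0Ring A (beta0Field A)) _ a) := rfl
  rw [h]
  exact isIntegral_algebraMap

/-- **hπV** -/
theorem tresxkg_hπV :
    ∀ c, algebraMap ↥(beta0Ring A (beta0Field A))
      ↥(modularFunctionFieldFullC ↥(beta0Field A) (M * p)) π ∈
        (mgvV hπ ιC hp hpM c).nonunits :=
  mgv_hπV hπ ιC hp hpM

/-- **hSS1**, chart `t` -/
theorem tresxkg_hSS1 (hA : A.LiesOverPrime p) (h5 : 5 ≤ p) :
    ∀ b : ↥(modularFunctionFieldFullC ↥(beta0Field A) (M * p)),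
      IsIntegral ↥(Algebra.adjoin ↥(beta0Ring A (beta0Field A))
        ({bgJ ↥(beta0Field A) (M * p)} :
          Set ↥(modularFunctionFieldFullC ↥(beta0Field A) (M * p)))) b →
      (∀ c, b ∈ (mgvV hπ ιC hp hpM c).nonunits) →
      ∃ b' : ↥(modularFunctionFieldFullC ↥(beta0Field A) (M * p)),
        IsIntegral ↥(Algebra.adjoin ↥(beta0Ring A (beta0Field A))
          ({bgJ ↥(beta0Field A) (M * p)} :
            Set ↥(modularFunctionFieldFullC ↥(beta0Field A) (M * p)))) b' ∧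
        b = algebraMap ↥(beta0Ring A (beta0Field A))
          ↥(modularFunctionFieldFullC ↥(beta0Field A) (M * p)) π * b' :=
  ribmp_fc_hSS1 hπ ιC hp hpM hA le_rfl (tresxkg_h2 h5) (tresxkg_h3 h5)

/-- **hSS1'**, chart `t⁻¹` -/
theorem tresxkg_hSS1' (hA : A.LiesOverPrime p) (h5 : 5 ≤ p) :
    ∀ b : ↥(modularFunctionFieldFullC ↥(beta0Field A) (M * p)),
      IsIntegral ↥(Algebra.adjoin ↥(beta0Ring A (beta0Field A))
        ({(bgJ ↥(beta0Field A) (M * p))⁻¹} :
          Set ↥(modularFunctionFieldFullC ↥(beta0Field A) (M * p)))) b →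
      (∀ c, b ∈ (mgvV hπ ιC hp hpM c).nonunits) →
      ∃ b' : ↥(modularFunctionFieldFullC ↥(beta0Field A) (M * p)),
        IsIntegral ↥(Algebra.adjoin ↥(beta0Ring A (beta0Field A))
          ({(bgJ ↥(beta0Field A) (M * p))⁻¹} :
            Set ↥(modularFunctionFieldFullC ↥(beta0Field A) (M * p)))) b' ∧
        b = algebraMap ↥(beta0Ring A (beta0Field A))
          ↥(modularFunctionFieldFullC ↥(beta0Field A) (M * p)) π * b' :=
  ribmp_fc_hSS1_inv hπ ιC hp hpM hA le_rfl (tresxkg_h2 h5) (tresxkg_h3 h5)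

/-- **hU** (UNIF): `𝔪(V c) = π V c` -/
theorem tresxkg_hU :
    ∀ c (x : ↥(modularFunctionFieldFullC ↥(beta0Field A) (M * p))),
      x ∈ (mgvV hπ ιC hp hpM c).nonunits →
      ∃ z ∈ mgvV hπ ιC hp hpM c,
        x = algebraMap ↥(beta0Ring A (beta0Field A))
          ↥(modularFunctionFieldFullC ↥(beta0Field A) (M * p)) π * z :=
  ribmp_fc_hU hπ ιC hp hpM

/-- **hVloc**: on the chart `t`, `V c` is the localisation of the chart at `𝔪(V c) ∩ B` -/
theorem tresxkg_hVloc (hA : A.LiesOverPrime p) (h5 : 5 ≤ p) :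
    ∀ c (x : ↥(modularFunctionFieldFullC ↥(beta0Field A) (M * p))),
      x ∈ mgvV hπ ιC hp hpM c →
      ∃ b s : ↥(modularFunctionFieldFullC ↥(beta0Field A) (M * p)),
        IsIntegral ↥(Algebra.adjoin ↥(beta0Ring A (beta0Field A))
          ({bgJ ↥(beta0Field A) (M * p)} :
            Set ↥(modularFunctionFieldFullC ↥(beta0Field A) (M * p)))) b ∧
        IsIntegral ↥(Algebra.adjoin ↥(beta0Ring A (beta0Field A))
          ({bgJ ↥(beta0Field A) (M * p)} :
            Set ↥(modularFunctionFieldFullC ↥(beta0Field A) (M * p)))) s ∧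
        s ∉ (mgvV hπ ιC hp hpM c).nonunits ∧ s * x = b :=
  mgv_hVloc₁ hπ ιC hp hpM hA (tresxkg_hSS1 hπ ιC hp hpM hA h5)

/-- **hVloc'**: on the chart `t⁻¹`, `V c` is the localisation of the chart at `𝔪(V c) ∩ B` -/
theorem tresxkg_hVloc' (hA : A.LiesOverPrime p) (h5 : 5 ≤ p) :
    ∀ c (x : ↥(modularFunctionFieldFullC ↥(beta0Field A) (M * p))),
      x ∈ mgvV hπ ιC hp hpM c →
      ∃ b s : ↥(modularFunctionFieldFullC ↥(beta0Field A) (M * p)),
        IsIntegral ↥(Algebra.adjoin ↥(beta0Ring A (beta0Field A))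
          ({(bgJ ↥(beta0Field A) (M * p))⁻¹} :
            Set ↥(modularFunctionFieldFullC ↥(beta0Field A) (M * p)))) b ∧
        IsIntegral ↥(Algebra.adjoin ↥(beta0Ring A (beta0Field A))
          ({(bgJ ↥(beta0Field A) (M * p))⁻¹} :
            Set ↥(modularFunctionFieldFullC ↥(beta0Field A) (M * p)))) s ∧
        s ∉ (mgvV hπ ιC hp hpM c).nonunits ∧ s * x = b :=
  mgv_hVloc₂ hπ ιC hp hpM hA (tresxkg_hSS1 hπ ιC hp hpM hA h5)

/-- **hnle**: `V_∞` and `V_0` are incomparable -/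
theorem tresxkg_hnle (hA : A.LiesOverPrime p) :
    ∀ c c' : Bool, c ≠ c' → ¬ mgvV hπ ιC hp hpM c ≤ mgvV hπ ιC hp hpM c' := by
  intro c c' hcc'
  cases c <;> cases c'
  · exact absurd rfl hcc'
  · exact Fermat.Agent.S33.wdb_mgv_h21 hπ ιC hp hpM hA
  · exact Fermat.Agent.S33.wdb_mgv_h12 hπ ιC hp hpM hA
  · exact absurd rfl hcc'

/-- **hne**: `V_∞ ≠ V_0` -/
theorem tresxkg_hne (hA : A.LiesOverPrime p) :
    ∀ c c' : Bool, c ≠ c' → mgvV hπ ιC hp hpM c ≠ mgvV hπ ιC hp hpM c' :=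
  rtk6lfb_hne hπ ιC hp hpM hA

/-- **ht**: `t = j` is a unit of `V c` -/
theorem tresxkg_ht (c : Bool) :
    (mgvV hπ ιC hp hpM c).valuation (bgJ ↥(beta0Field A) (M * p)) = 1 :=
  mgv_T_valuation hπ ιC hp hpM c

/-- `t⁻¹ = 1 / j` is a unit of `V c` -/
theorem tresxkg_ht_inv (c : Bool) :
    (mgvV hπ ιC hp hpM c).valuation (bgJ ↥(beta0Field A) (M * p))⁻¹ = 1 := by
  rw [map_inv₀, tresxkg_ht hπ ιC hp hpM c, inv_one]

/-! ### discreteness of the vertical valuations -/

/-- `v_c x = v_c π ^ n` for some `n : ℤ` -/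
theorem tresxkg_val_zpow (c : Bool) {x : ↥(modularFunctionFieldFullC ↥(beta0Field A) (M * p))}
    (hx : x ≠ 0) :
    ∃ n : ℤ, (mgvV hπ ιC hp hpM c).valuation x = (mgvV hπ ιC hp hpM c).valuation
      (algebraMap ↥(beta0Ring A (beta0Field A))
        ↥(modularFunctionFieldFullC ↥(beta0Field A) (M * p)) π) ^ n :=
  rtk6lfb_val_zpow_J hπ ιC hp hpM c hx

/-- **hdisc**: `∀ x ≠ 0, ∃ n : ℤ, v_c (x / π ^ n) = 1` -/
theorem tresxkg_hdisc :
    ∀ c (x : ↥(modularFunctionFieldFullC ↥(beta0Field A) (M * p))), x ≠ 0 →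
      ∃ n : ℤ, (mgvV hπ ιC hp hpM c).valuation
        (x / algebraMap ↥(beta0Ring A (beta0Field A))
          ↥(modularFunctionFieldFullC ↥(beta0Field A) (M * p)) π ^ n) = 1 := by
  intro c x hx
  obtain ⟨n, hn⟩ := tresxkg_val_zpow hπ ιC hp hpM c hx
  refine ⟨n, ?_⟩
  have hπ0 := tresxkg_hπ0 (A := A) (p := p) (M := M) hπ
  have hv0 : (mgvV hπ ιC hp hpM c).valuation
      (algebraMap ↥(beta0Ring A (beta0Field A))
        ↥(modularFunctionFieldFullC ↥(beta0Field A) (M * p)) π) ≠ 0 :=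
    (Valuation.ne_zero_iff _).mpr hπ0
  rw [map_div₀, map_zpow₀, hn]
  exact div_self (zpow_ne_zero n hv0)

/-! ### (KR) and integral closedness of the charts -/

/-- **hKR**, chart `t`, in the shape of `S36.s36n2p_fac` / `tres5nk_hKR` -/
theorem tresxkg_hKR (hA : A.LiesOverPrime p) (h5 : 5 ≤ p)
    (x : ↥(modularFunctionFieldFullC ↥(beta0Field A) (M * p)))
    (hx : ∃ b : ↥(zchClosure (A₀ := ↥(beta0Ring A (beta0Field A)))
        ({bgJ ↥(beta0Field A) (M * p)} :
          Set ↥(modularFunctionFieldFullC ↥(beta0Field A) (M * p)))),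
      algebraMap ↥(zchClosure (A₀ := ↥(beta0Ring A (beta0Field A)))
          ({bgJ ↥(beta0Field A) (M * p)} :
            Set ↥(modularFunctionFieldFullC ↥(beta0Field A) (M * p)))) _
        (algebraMap ↥(beta0Ring A (beta0Field A)) ↥(zchClosure
          (A₀ := ↥(beta0Ring A (beta0Field A)))
          ({bgJ ↥(beta0Field A) (M * p)} :
            Set ↥(modularFunctionFieldFullC ↥(beta0Field A) (M * p)))) π) * x =
        algebraMap ↥(zchClosure (A₀ := ↥(beta0Ring A (beta0Field A)))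
          ({bgJ ↥(beta0Field A) (M * p)} :
            Set ↥(modularFunctionFieldFullC ↥(beta0Field A) (M * p)))) _ b)
    (hxV : ∀ c, x ∈ mgvV hπ ιC hp hpM c) :
    ∃ b : ↥(zchClosure (A₀ := ↥(beta0Ring A (beta0Field A)))
        ({bgJ ↥(beta0Field A) (M * p)} :
          Set ↥(modularFunctionFieldFullC ↥(beta0Field A) (M * p)))),
      x = algebraMap ↥(zchClosure (A₀ := ↥(beta0Ring A (beta0Field A)))
        ({bgJ ↥(beta0Field A) (M * p)} :
          Set ↥(modularFunctionFieldFullC ↥(beta0Field A) (M * p)))) _ b :=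
  ribmp_fc_hKR hπ ιC hp hpM hA le_rfl (tresxkg_h2 h5) (tresxkg_h3 h5) x hx hxV

/-- **hKR'**, chart `t⁻¹` -/
theorem tresxkg_hKR' (hA : A.LiesOverPrime p) (h5 : 5 ≤ p)
    (x : ↥(modularFunctionFieldFullC ↥(beta0Field A) (M * p)))
    (hx : ∃ b : ↥(zchClosure (A₀ := ↥(beta0Ring A (beta0Field A)))
        ({(bgJ ↥(beta0Field A) (M * p))⁻¹} :
          Set ↥(modularFunctionFieldFullC ↥(beta0Field A) (M * p)))),
      algebraMap ↥(zchClosure (A₀ := ↥(beta0Ring A (beta0Field A)))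
          ({(bgJ ↥(beta0Field A) (M * p))⁻¹} :
            Set ↥(modularFunctionFieldFullC ↥(beta0Field A) (M * p)))) _
        (algebraMap ↥(beta0Ring A (beta0Field A)) ↥(zchClosure
          (A₀ := ↥(beta0Ring A (beta0Field A)))
          ({(bgJ ↥(beta0Field A) (M * p))⁻¹} :
            Set ↥(modularFunctionFieldFullC ↥(beta0Field A) (M * p)))) π) * x =
        algebraMap ↥(zchClosure (A₀ := ↥(beta0Ring A (beta0Field A)))
          ({(bgJ ↥(beta0Field A) (M * p))⁻¹} :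
            Set ↥(modularFunctionFieldFullC ↥(beta0Field A) (M * p)))) _ b)
    (hxV : ∀ c, x ∈ mgvV hπ ιC hp hpM c) :
    ∃ b : ↥(zchClosure (A₀ := ↥(beta0Ring A (beta0Field A)))
        ({(bgJ ↥(beta0Field A) (M * p))⁻¹} :
          Set ↥(modularFunctionFieldFullC ↥(beta0Field A) (M * p)))),
      x = algebraMap ↥(zchClosure (A₀ := ↥(beta0Ring A (beta0Field A)))
        ({(bgJ ↥(beta0Field A) (M * p))⁻¹} :
          Set ↥(modularFunctionFieldFullC ↥(beta0Field A) (M * p)))) _ b :=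
  ribmp_fc_hKR_inv hπ ιC hp hpM hA le_rfl (tresxkg_h2 h5) (tresxkg_h3 h5) x hx hxV

end Glob

end Fermat.Agent.R38
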